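import Mathlib.NumberTheory.ModularForms.Discriminant
import Mathlib.NumberTheory.ModularForms.EisensteinSeries.Basic
import Fermat.Prelude.Def_ModularForm_HeckeOperator

/-!
# The modular invariant `j` as a function on the upper half plane

`jFun = E₄ ^ 3 / Δ` and `jScaleFun N τ = jFun (N τ)`.
-/

noncomputable section

open UpperHalfPlane
open scoped MatrixGroups ModularForm Manifold

namespace FermatLib.Modular

/-- The modular invariant `j = E₄ ^ 3 / Δ`. -/
def jFun : ℍ → ℂ :=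
  fun τ => ModularForm.E₄ τ ^ 3 / ModularForm.discriminant τ

/-- `τ ↦ j (N τ)` (equal to `j` for `N = 0`, a junk value). -/
def jScaleFun (N : ℕ) : ℍ → ℂ :=
  fun τ => jFun (ModularForm.heckeDiagMatrix N • τ)

theorem jFun_mul_discriminant (τ : ℍ) :
    jFun τ * ModularForm.discriminant τ = ModularForm.E₄ τ ^ 3 :=
  div_mul_cancel₀ _ (ModularForm.discriminant_ne_zero τ)

theorem jScaleFun_apply (N : ℕ) (τ : ℍ) :
    jScaleFun N τ = jFun (ModularForm.heckeDiagMatrix N • τ) := rfl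

@[simp]
theorem jScaleFun_one : jScaleFun 1 = jFun := by
  funext τ
  rw [jScaleFun_apply]
  congr 1
  apply UpperHalfPlane.ext
  rw [ModularForm.coe_heckeDiagMatrix_smul one_ne_zero]
  simp

theorem slash_SL_apply_eq {f : ℍ → ℂ} {k : ℤ} {γ : SL(2, ℤ)} (h : f ∣[k] γ = f) (τ : ℍ) :
    f (γ • τ) = UpperHalfPlane.denom γ τ ^ k * f τ := by
  have hz : UpperHalfPlane.denom γ τ ≠ 0 := UpperHalfPlane.denom_ne_zero γ τ
  have h2 := congrFun h τ
  rw [ModularForm.SL_slash_apply, zpow_neg, mul_inv_eq_iff_eq_mul₀ (zpow_ne_zero k hz)] at h2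
  rw [h2, mul_comm]

theorem slash_SL_eq_self {F : Type*} [FunLike F ℍ ℂ] {k : ℤ} [SlashInvariantFormClass F 𝒮ℒ k]
    (f : F) (γ : SL(2, ℤ)) : (⇑f) ∣[k] γ = ⇑f := by
  rw [ModularForm.SL_slash]
  exact SlashInvariantFormClass.slash_action_eq f _ ⟨γ, rfl⟩

/-- `j` is `SL(2, ℤ)`-invariant. -/
theorem jFun_smul (γ : SL(2, ℤ)) (τ : ℍ) : jFun (γ • τ) = jFun τ := by
  have h4 := slash_SL_apply_eq (slash_SL_eq_self ModularForm.E₄ γ) τ
  have hΔ := slash_SL_apply_eq (slash_SL_eq_self CuspForm.discriminant γ) τ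
  rw [CuspForm.coe_discriminant] at hΔ
  unfold jFun
  rw [h4, hΔ, mul_pow, ← zpow_natCast (_ ^ (4 : ℤ)) 3, ← zpow_mul,
    show ((4 : ℤ) * ((3 : ℕ) : ℤ)) = 12 from rfl,
    mul_div_mul_left _ _ (zpow_ne_zero 12 (UpperHalfPlane.denom_ne_zero γ τ))]

theorem mdifferentiable_jFun : MDiff jFun := by
  have h : MDiff (fun τ : ℍ => ModularForm.E₄ τ ^ 3) := by
    have := (ModularFormClass.holo ModularForm.E₄)
    simpa [pow_succ] using! ((this.mul this).mul this)
  exact h.div CuspForm.discriminant.holo' ModularForm.discriminant_ne_zero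

end FermatLib.Modular

end
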