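import Mathlib.Analysis.SpecialFunctions.Elliptic.Weierstrass
import Mathlib.Analysis.Normed.Module.Connected
import Mathlib.LinearAlgebra.Complex.FiniteDimensional

/-! A lattice is determined by `g₂` and `g₃`. -/

set_option autoImplicit false

noncomputable section

open Filter Topology

namespace FermatLib.Modular

variable (L L₁ L₂ : PeriodPair)

/-- `z² ℘(z)`, extended analytically across `0`. -/
def jlatAux (z : ℂ) : ℂ := z ^ 2 * L.weierstrassPExcept 0 z + 1

theorem analyticAt_jlatAux : AnalyticAt ℂ (jlatAux L) 0 := by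
  have := L.analyticAt_weierstrassPExcept 0
  unfold jlatAux
  fun_prop

theorem jlatAux_zero : jlatAux L 0 = 1 := by simp [jlatAux]

theorem jlatAux_eq {z : ℂ} (hz : z ≠ 0) : jlatAux L z = z ^ 2 * L.weierstrassP z := by
  have h := L.ite_eq_one_sub_sq_mul_weierstrassP 0 (zero_mem _) z
  simpa [jlatAux, hz] using h.symm

theorem eventually_notMem_lattice : ∀ᶠ z in 𝓝[≠] (0 : ℂ), z ∉ L.lattice := by
  filter_upwards [self_mem_nhdsWithin,
    mem_nhdsWithin_of_mem_nhds (L.compl_lattice_sdiff_singleton_mem_nhds 0)] with z hz hz'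
  simp only [Set.mem_compl_iff, Set.mem_sdiff, SetLike.mem_coe, Set.mem_singleton_iff] at hz hz'
  exact fun h => hz' ⟨h, hz⟩

/-- `z³ ℘'(z)`, extended analytically across `0`. -/
def jlatAux' (z : ℂ) : ℂ := z * deriv (jlatAux L) z - 2 * jlatAux L z

theorem analyticAt_jlatAux' : AnalyticAt ℂ (jlatAux' L) 0 := by
  have := analyticAt_jlatAux L
  have := (analyticAt_jlatAux L).deriv
  unfold jlatAux'
  fun_prop

theorem jlatAux'_eq {z : ℂ} (hz : z ≠ 0) (hzL : z ∉ L.lattice) :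
    jlatAux' L z = z ^ 3 * L.derivWeierstrassP z := by
  have h1 : jlatAux L =ᶠ[𝓝 z] fun w => w ^ 2 * L.weierstrassP w := by
    filter_upwards [isOpen_ne.mem_nhds hz] with w hw using jlatAux_eq L hw
  have hd : DifferentiableAt ℂ L.weierstrassP z :=
    (L.analyticOnNhd_weierstrassP z hzL).differentiableAt
  have h2 : deriv (jlatAux L) z = 2 * z * L.weierstrassP z + z ^ 2 * L.derivWeierstrassP z := by
    rw [h1.deriv_eq]
    have := ((hasDerivAt_pow 2 z).mul hd.hasDerivAt).deriv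
    rw [L.deriv_weierstrassP] at this
    simpa [Pi.mul_def] using this
  rw [jlatAux', h2, jlatAux_eq L hz]
  ring

theorem jlatAux_relation :
    ∀ᶠ z in 𝓝[≠] (0 : ℂ), jlatAux' L z ^ 2
      = 4 * jlatAux L z ^ 3 - L.g₂ * z ^ 4 * jlatAux L z - L.g₃ * z ^ 6 := by
  filter_upwards [self_mem_nhdsWithin, eventually_notMem_lattice L] with z hz hzL
  rw [jlatAux'_eq L hz hzL, jlatAux_eq L hz, mul_pow, L.derivWeierstrassP_sq z hzL]
  ring

theorem jlatAux'_zero : jlatAux' L 0 = -2 := by simp [jlatAux', jlatAux_zero]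

variable {L₁ L₂}

theorem jlatAux_eventuallyEq (h2 : L₁.g₂ = L₂.g₂) (h3 : L₁.g₃ = L₂.g₃) :
    jlatAux L₁ =ᶠ[𝓝 0] jlatAux L₂ := by
  have ha₁ := analyticAt_jlatAux L₁
  have ha₂ := analyticAt_jlatAux L₂
  have hd : AnalyticAt ℂ (fun z => jlatAux L₁ z - jlatAux L₂ z) 0 := ha₁.sub ha₂
  by_cases htop : analyticOrderAt (fun z => jlatAux L₁ z - jlatAux L₂ z) 0 = ⊤
  · filter_upwards [analyticOrderAt_eq_top.mp htop] with z hz using sub_eq_zero.mp hz
  exfalso
  obtain ⟨n, hn⟩ := ENat.ne_top_iff_exists.mp htop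
  obtain ⟨u, hu, hu0, hdu⟩ := (hd.analyticOrderAt_eq_natCast (n := n)).mp hn.symm
  simp only [sub_zero, smul_eq_mul] at hdu
  set Φ : ℂ → ℂ := fun z => (((n : ℂ) - 2) * u z + z * deriv u z) * (jlatAux' L₁ z + jlatAux' L₂ z)
    - 4 * u z * (jlatAux L₁ z ^ 2 + jlatAux L₁ z * jlatAux L₂ z + jlatAux L₂ z ^ 2)
    + L₁.g₂ * z ^ 4 * u z with hΦ
  have hΦc : ContinuousAt Φ 0 := by
    have := hu.deriv
    have := analyticAt_jlatAux' L₁
    have := analyticAt_jlatAux' L₂
    have : AnalyticAt ℂ Φ 0 := by rw [hΦ]; fun_prop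
    exact this.continuousAt
  have hev : ∀ᶠ z in 𝓝[≠] (0 : ℂ), Φ z = 0 := by
    filter_upwards [self_mem_nhdsWithin, jlatAux_relation L₁, jlatAux_relation L₂,
      mem_nhdsWithin_of_mem_nhds hdu, mem_nhdsWithin_of_mem_nhds hdu.eventually_nhds,
      mem_nhdsWithin_of_mem_nhds ha₁.eventually_analyticAt,
      mem_nhdsWithin_of_mem_nhds ha₂.eventually_analyticAt,
      mem_nhdsWithin_of_mem_nhds hu.eventually_analyticAt] with z hz r1 r2 e1 e1' a1 a2 au
    have hderiv : deriv (jlatAux L₁) z - deriv (jlatAux L₂) z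
        = (n : ℂ) * z ^ (n - 1) * u z + z ^ n * deriv u z := by
      have hA : HasDerivAt (fun w => jlatAux L₁ w - jlatAux L₂ w)
          (deriv (jlatAux L₁) z - deriv (jlatAux L₂) z) z :=
        a1.differentiableAt.hasDerivAt.sub a2.differentiableAt.hasDerivAt
      exact (hA.congr_of_eventuallyEq (Filter.EventuallyEq.symm e1')).unique
        ((hasDerivAt_pow n z).mul au.differentiableAt.hasDerivAt)
    have hdiff : jlatAux' L₁ z - jlatAux' L₂ z = z ^ n * (((n : ℂ) - 2) * u z + z * deriv u z) := by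
      have hpow : z * ((n : ℂ) * z ^ (n - 1)) = (n : ℂ) * z ^ n := by
        rcases n with _ | m
        · simp
        · simp only [Nat.add_sub_cancel, pow_succ]; ring
      simp only [jlatAux']
      linear_combination z * hderiv - 2 * e1 + u z * hpow
    have key : z ^ n * Φ z = 0 := by
      simp only [hΦ]
      rw [← h2, ← h3] at r2
      linear_combination r1 - r2 - (jlatAux' L₁ z + jlatAux' L₂ z) * hdiff
        + (4 * (jlatAux L₁ z ^ 2 + jlatAux L₁ z * jlatAux L₂ z + jlatAux L₂ z ^ 2)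
            - L₁.g₂ * z ^ 4) * e1
    exact (mul_eq_zero.mp key).resolve_left (pow_ne_zero n hz)
  have hΦ0 : Φ 0 = 0 :=
    tendsto_nhds_unique (hΦc.tendsto.mono_left nhdsWithin_le_nhds)
      (tendsto_const_nhds.congr' (EventuallyEq.symm hev))
  have : ((n : ℂ) + 1) * u 0 = 0 := by
    simp only [hΦ, jlatAux_zero, jlatAux'_zero] at hΦ0
    linear_combination (-1 / 4 : ℂ) * hΦ0
  rcases mul_eq_zero.mp this with h | h
  · exact Nat.cast_add_one_ne_zero n h
  · exact hu0 h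

theorem lattice_le_of_g₂_g₃ (h2 : L₁.g₂ = L₂.g₂) (h3 : L₁.g₃ = L₂.g₃) :
    L₁.lattice ≤ L₂.lattice := by
  set U : Set ℂ := ((L₁.lattice : Set ℂ) ∪ (L₂.lattice : Set ℂ))ᶜ with hU
  have hcount : ((L₁.lattice : Set ℂ) ∪ (L₂.lattice : Set ℂ)).Countable := by
    refine Set.Countable.union ?_ ?_
    · rw [← Set.countable_coe_iff]; exact L₁.latticeEquivProd.toEquiv.injective.countable
    · rw [← Set.countable_coe_iff]; exact L₂.latticeEquivProd.toEquiv.injective.countable
  have hpre : IsPreconnected U :=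
    (hcount.isPathConnected_compl_of_one_lt_rank (by simp)).isConnected.isPreconnected
  have hU1 : U ⊆ (L₁.lattice : Set ℂ)ᶜ := fun z hz h => hz (Or.inl h)
  have hU2 : U ⊆ (L₂.lattice : Set ℂ)ᶜ := fun z hz h => hz (Or.inr h)
  have hev : ∀ᶠ z in 𝓝[≠] (0 : ℂ), z ∈ U ∧ L₁.weierstrassP =ᶠ[𝓝 z] L₂.weierstrassP := by
    filter_upwards [self_mem_nhdsWithin, eventually_notMem_lattice L₁, eventually_notMem_lattice L₂,
      mem_nhdsWithin_of_mem_nhds (jlatAux_eventuallyEq h2 h3).eventually_nhds] with z hz hz1 hz2 he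
    refine ⟨fun h => h.elim hz1 hz2, ?_⟩
    filter_upwards [he, isOpen_ne.mem_nhds (Set.mem_compl_singleton_iff.mp hz)] with w hw hw0
    rw [jlatAux_eq L₁ hw0, jlatAux_eq L₂ hw0] at hw
    exact mul_left_cancel₀ (pow_ne_zero 2 hw0) hw
  obtain ⟨z₀, hz₀U, hz₀⟩ := hev.exists
  have heq : Set.EqOn L₁.weierstrassP L₂.weierstrassP U :=
    (L₁.analyticOnNhd_weierstrassP.mono hU1).eqOn_of_preconnected_of_eventuallyEq
      (L₂.analyticOnNhd_weierstrassP.mono hU2) hpre hz₀U hz₀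
  intro l hl
  by_contra hl2
  have h' : L₁.weierstrassP =ᶠ[𝓝[≠] l] L₂.weierstrassP := by
    filter_upwards [self_mem_nhdsWithin,
      mem_nhdsWithin_of_mem_nhds (L₁.compl_lattice_sdiff_singleton_mem_nhds l),
      mem_nhdsWithin_of_mem_nhds (L₂.isClosed_lattice.isOpen_compl.mem_nhds hl2)] with w hw hw1 hw2
    refine heq ?_
    rintro (h | h)
    · exact hw1 ⟨h, hw⟩
    · exact hw2 h
  have ho := L₁.order_weierstrassP l hl
  rw [meromorphicOrderAt_congr h'] at ho
  have hnn := (L₂.analyticOnNhd_weierstrassP l hl2).meromorphicOrderAt_nonneg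
  rw [ho] at hnn
  exact absurd hnn (by decide)

/-- The lattice is determined by its invariants. -/
theorem lattice_eq_of_g₂_g₃ (h2 : L₁.g₂ = L₂.g₂) (h3 : L₁.g₃ = L₂.g₃) :
    L₁.lattice = L₂.lattice :=
  le_antisymm (lattice_le_of_g₂_g₃ h2 h3) (lattice_le_of_g₂_g₃ h2.symm h3.symm)

end FermatLib.Modular
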