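import Mathlib
import Fermat.Agent.Modular.JLattice
import Fermat.Agent.Modular.JFunction

/-! The analytic `j`-invariant: surjective, and injective modulo `SL(2,ℤ)`. -/

set_option autoImplicit false

noncomputable section

open UpperHalfPlane hiding I
open Complex ModularForm EisensteinSeries
open scoped MatrixGroups Topology Manifold

namespace FermatLib.Modular

theorem jFun_sub_eq (τ : ℍ) (c : ℂ) :
    jFun τ - c = (E₄ τ ^ 3 - c * discriminant τ) / discriminant τ := by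
  rw [jFun, sub_div, mul_div_cancel_right₀ _ (discriminant_ne_zero τ)]

theorem jFun_sub_1728 (τ : ℍ) : jFun τ - 1728 = E₆ τ ^ 2 / discriminant τ := by
  rw [jFun_sub_eq]
  have h := discriminant_eq_E₄_cube_sub_E₆_sq τ
  congr 1
  linear_combination (-1728 : ℂ) * h

theorem E₆_ne_zero_of_E₄ {τ : ℍ} (h : E₄ τ = 0) : E₆ τ ≠ 0 := fun h6 =>
  discriminant_ne_zero τ (by simp [discriminant_eq_E₄_cube_sub_E₆_sq, h, h6])

theorem jFun_eq_zero_iff {τ : ℍ} : jFun τ = 0 ↔ E₄ τ = 0 := by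
  simp [jFun, discriminant_ne_zero τ]

theorem jFun_eq_1728_iff {τ : ℍ} : jFun τ = 1728 ↔ E₆ τ = 0 := by
  rw [← sub_eq_zero, jFun_sub_1728]
  simp [discriminant_ne_zero τ]

theorem tendsto_levelOne_atImInfty {k : ℤ} {F : Type*} [FunLike F ℍ ℂ]
    [ModularFormClass F 𝒮ℒ k] (f : F) :
    Filter.Tendsto (f : ℍ → ℂ) atImInfty (𝓝 ((qExpansion 1 f).coeff 0)) := by
  have ha := ModularFormClass.analyticAt_cuspFunction_zero f one_pos one_mem_strictPeriods_SL
  have hper := SlashInvariantFormClass.periodic_comp_ofComplex f one_mem_strictPeriods_SL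
  have hev : (fun τ : ℍ => cuspFunction 1 f (Function.Periodic.qParam 1 τ)) = f :=
    funext fun τ => eq_cuspFunction τ one_ne_zero hper
  have h := ha.continuousAt.tendsto.comp (qParam_tendsto_atImInfty one_pos)
  rw [show (cuspFunction 1 (f : ℍ → ℂ) ∘ fun τ : ℍ => Function.Periodic.qParam 1 τ) = f from hev] at h
  rwa [qExpansion_coeff_zero one_pos ha hper, ← cuspFunction_apply_zero one_pos ha hper]

theorem tendsto_E_atImInfty {k : ℕ} (hk : 3 ≤ k) (hk2 : Even k) :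
    Filter.Tendsto (E hk : ℍ → ℂ) atImInfty (𝓝 1) := by
  simpa [E_qExpansion_coeff_zero hk hk2] using tendsto_levelOne_atImInfty (E hk)

theorem tendsto_discriminant_atImInfty :
    Filter.Tendsto discriminant atImInfty (𝓝 0) := discriminant_isZeroAtImInfty

theorem jFun_surjective : Function.Surjective jFun := by
  intro c
  by_contra h
  push Not at h
  set f : ℍ → ℂ := fun τ => E₄ τ ^ 3 - c * discriminant τ with hf
  have hne : ∀ τ, f τ ≠ 0 := fun τ h0 =>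
    h τ (sub_eq_zero.mp (by rw [jFun_sub_eq]; simp only [hf] at h0; simp [h0]))
  let G : ModularForm 𝒮ℒ 12 :=
    ModularForm.mcast (by decide) (E₄.pow 3) - c • (CuspForm.discriminant : ModularForm 𝒮ℒ 12)
  have hG : (G : ℍ → ℂ) = f := by
    funext τ
    simp only [G, hf]
    simp [ModularForm.pow, ModularForm.coe_mcast, sub_apply]
    rfl
  let H : ModularForm 𝒮ℒ (-12) :=
    { toFun := fun τ => (f τ)⁻¹
      slash_action_eq' := by
        rintro _ ⟨γ, rfl⟩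
        funext τ
        show ((fun z => (f z)⁻¹) ∣[(-12 : ℤ)] γ) τ = (f τ)⁻¹
        have := SlashInvariantForm.slash_action_eqn'' (k := 12) G
          (show (γ : GL (Fin 2) ℝ) ∈ 𝒮ℒ from ⟨γ, rfl⟩) τ
        rw [hG] at this
        have hd : denom γ τ ≠ 0 := denom_ne_zero _ _
        rw [SL_slash_apply, ModularGroup.sl_moeb, this]
        field_simp
        simp
      holo' := by
        have h1 : MDiff (fun τ => (G τ)⁻¹) := by
          have hd := UpperHalfPlane.mdifferentiable_iff.mp (ModularFormClass.holo G)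
          exact UpperHalfPlane.mdifferentiable_iff.mpr
            (hd.inv (fun z _ => by simpa [Function.comp_apply, hG] using hne _))
        rw [hG] at h1
        exact h1
      bdd_at_cusps' := by
        intro C hC
        rw [Subgroup.IsArithmetic.isCusp_iff_isCusp_SL2Z] at hC
        rw [OnePoint.isBoundedAt_iff_forall_SL2Z hC]
        intro γ _
        have hinv : ((fun z => (f z)⁻¹) ∣[(-12 : ℤ)] γ) = fun z => (f z)⁻¹ := by
          funext τ
          have := SlashInvariantForm.slash_action_eqn'' (k := 12) G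
            (show (γ : GL (Fin 2) ℝ) ∈ 𝒮ℒ from ⟨γ, rfl⟩) τ
          rw [hG] at this
          have hd : denom γ τ ≠ 0 := denom_ne_zero _ _
          rw [SL_slash_apply, ModularGroup.sl_moeb, this]
          field_simp
          simp
        show IsBoundedAtImInfty ((fun z => (f z)⁻¹) ∣[(-12 : ℤ)] γ)
        rw [hinv]
        have ht : Filter.Tendsto f atImInfty (𝓝 1) := by
          simpa [hf] using ((tendsto_E_atImInfty (show 3 ≤ 4 by norm_num) ⟨2, rfl⟩).pow 3).sub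
            (tendsto_discriminant_atImInfty.const_mul c)
        exact (ht.inv₀ one_ne_zero).isBigO_one ℝ }
  have hH : H = 0 := ModularForm.isZero_of_neg_weight (by norm_num) H
  have := congrArg (fun F : ModularForm 𝒮ℒ (-12) => F UpperHalfPlane.I) hH
  change (f UpperHalfPlane.I)⁻¹ = 0 at this
  exact inv_ne_zero (hne UpperHalfPlane.I) this

theorem exists_lattice_scalar {τ₁ τ₂ : ℍ} (h : jFun τ₁ = jFun τ₂) :
    ∃ μ : ℂ, μ ≠ 0 ∧ E₄ τ₂ = μ ^ 4 * E₄ τ₁ ∧ E₆ τ₂ = μ ^ 6 * E₆ τ₁ := by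
  set Δ₁ := discriminant τ₁ with hΔ₁
  set Δ₂ := discriminant τ₂ with hΔ₂
  have h1 := discriminant_ne_zero τ₁
  have h2 := discriminant_ne_zero τ₂
  obtain ⟨ν, hν⟩ := IsAlgClosed.exists_pow_nat_eq (Δ₂ / Δ₁) (show 0 < 12 by norm_num)
  have hν0 : ν ≠ 0 := by
    rintro rfl
    simp [Δ₁, Δ₂, eq_comm, h1, h2] at hν
  have hΔ : Δ₂ = ν ^ 12 * Δ₁ := by rw [hν, div_mul_cancel₀ _ h1]
  have h43 : E₄ τ₂ ^ 3 = (ν ^ 4 * E₄ τ₁) ^ 3 := by
    have : E₄ τ₁ ^ 3 * Δ₂ = E₄ τ₂ ^ 3 * Δ₁ := (div_eq_div_iff h1 h2).mp h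
    apply mul_right_cancel₀ h1
    show E₄ τ₂ ^ 3 * Δ₁ = (ν ^ 4 * E₄ τ₁) ^ 3 * Δ₁
    rw [← this, hΔ]; ring
  have h62 : E₆ τ₂ ^ 2 = (ν ^ 6 * E₆ τ₁) ^ 2 := by
    have e1 := discriminant_eq_E₄_cube_sub_E₆_sq τ₁
    have e2 := discriminant_eq_E₄_cube_sub_E₆_sq τ₂
    simp only [← hΔ₁, ← hΔ₂] at e1 e2
    linear_combination h43 + 1728 * e2 - 1728 * ν ^ 12 * e1 - 1728 * hΔ
  obtain ⟨ω, hω, hω4⟩ : ∃ ω : ℂ, ω ^ 3 = 1 ∧ E₄ τ₂ = ω * (ν ^ 4 * E₄ τ₁) := by
    rcases eq_or_ne (ν ^ 4 * E₄ τ₁) 0 with h0 | h0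
    · refine ⟨1, one_pow 3, ?_⟩
      rw [h0] at h43
      simpa [h0] using h43
    · refine ⟨E₄ τ₂ / (ν ^ 4 * E₄ τ₁), ?_, by rw [div_mul_cancel₀ _ h0]⟩
      rw [div_pow, h43, div_self (pow_ne_zero 3 h0)]
  have hω0 : ω ≠ 0 := by rintro rfl; simp at hω
  have hω4' : ω ^ 4 = ω := by linear_combination ω * hω
  have hω6 : ω ^ 6 = 1 := by linear_combination (ω ^ 3 + 1) * hω
  rcases sq_eq_sq_iff_eq_or_eq_neg.mp h62 with h6 | h6
  · exact ⟨ν * ω, mul_ne_zero hν0 hω0, by rw [mul_pow, hω4', hω4]; ring,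
      by rw [mul_pow, hω6, h6]; ring⟩
  · refine ⟨ν * ω * I, mul_ne_zero (mul_ne_zero hν0 hω0) I_ne_zero, ?_, ?_⟩
    · rw [mul_pow, mul_pow, hω4', hω4, I_pow_four]; ring
    · rw [mul_pow, mul_pow, hω6, h6, show (I : ℂ) ^ 6 = -1 by
        rw [show 6 = 4 + 2 by rfl, pow_add, I_pow_four, I_sq]; ring]
      ring

/-- The period pair `(c τ, c)`. -/
def periodPairOf (τ : ℍ) (c : ℂ) (hc : c ≠ 0) : PeriodPair where
  ω₁ := c * τ
  ω₂ := c
  indep := by
    rw [LinearIndependent.pair_iff]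
    intro s t hst
    simp only [Complex.real_smul] at hst
    have h : (s : ℂ) * τ + t = 0 := by
      have : c * ((s : ℂ) * τ + t) = 0 := by linear_combination hst
      exact (mul_eq_zero.mp this).resolve_left hc
    have him := congrArg Complex.im h
    simp at him
    rcases him with hs | hs
    · subst hs
      simpa using h
    · exact absurd hs τ.im_ne_zero

theorem G_periodPairOf (τ : ℍ) {c : ℂ} (hc : c ≠ 0) {n : ℕ} (hn : 3 ≤ n) :
    (periodPairOf τ c hc).G n = (c ^ n)⁻¹ * (2 * riemannZeta n * E hn τ) := by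
  set L := periodPairOf τ c hc
  have hE : E hn τ = (1 / 2 : ℂ) * eisensteinSeries (N := 1) 0 n τ := rfl
  rw [hE, show 2 * riemannZeta n * ((1 / 2 : ℂ) * eisensteinSeries (N := 1) 0 n τ)
      = riemannZeta n * eisensteinSeries (N := 1) 0 n τ by ring,
    ← tsum_eisSummand_eq_riemannZeta_mul_eisensteinSeries hn τ, ← tsum_mul_left]
  unfold PeriodPair.G
  rw [← (L.latticeEquivProd.symm.toEquiv).tsum_eq (fun l : L.lattice => ((l : ℂ) ^ n)⁻¹),
    ← (finTwoArrowEquiv ℤ).tsum_eq]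
  refine tsum_congr fun v => ?_
  simp only [eisSummand, zpow_neg, zpow_natCast, LinearEquiv.coe_toEquiv]
  rw [← mul_inv, ← mul_pow, L.latticeEquiv_symm_apply]
  congr 2
  simp [L, periodPairOf]
  ring

/-- Equal `j`-invariants means equivalent under `SL(2,ℤ)`. -/
theorem exists_smul_eq_of_jFun_eq {τ₁ τ₂ : ℍ} (h : jFun τ₁ = jFun τ₂) :
    ∃ γ : SL(2, ℤ), γ • τ₁ = τ₂ := by
  obtain ⟨μ, hμ, h4, h6⟩ := exists_lattice_scalar h
  set L₁ := periodPairOf τ₁ 1 one_ne_zero with hL₁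
  set L₂ := periodPairOf τ₂ μ hμ with hL₂
  have hg : ∀ n (hn : 3 ≤ n), E hn τ₂ = μ ^ n * E hn τ₁ → L₁.G n = L₂.G n := by
    intro n hn hE
    rw [G_periodPairOf τ₁ one_ne_zero hn, G_periodPairOf τ₂ hμ hn, hE]
    field_simp
    simp
  have hlat : L₁.lattice = L₂.lattice := lattice_eq_of_g₂_g₃
    (by rw [PeriodPair.g₂, PeriodPair.g₂, hg 4 (by norm_num) h4])
    (by rw [PeriodPair.g₃, PeriodPair.g₃, hg 6 (by norm_num) h6])
  have hmem : ∀ (L : PeriodPair) (x : ℂ), x ∈ L.lattice →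
      ∃ a b : ℤ, x = a * L.ω₁ + b * L.ω₂ := by
    intro L x hx
    exact ⟨(L.latticeEquivProd ⟨x, hx⟩).1, (L.latticeEquivProd ⟨x, hx⟩).2, by
      rw [← L.latticeEquiv_symm_apply, LinearEquiv.symm_apply_apply]⟩
  obtain ⟨a, b, hab⟩ := hmem L₁ L₂.ω₁ (hlat ▸ L₂.ω₁_mem_lattice)
  obtain ⟨c, d, hcd⟩ := hmem L₁ L₂.ω₂ (hlat ▸ L₂.ω₂_mem_lattice)
  obtain ⟨p, q, hpq⟩ := hmem L₂ L₁.ω₁ (hlat ▸ L₁.ω₁_mem_lattice)
  obtain ⟨r, s, hrs⟩ := hmem L₂ L₁.ω₂ (hlat ▸ L₁.ω₂_mem_lattice)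
  simp only [hL₁, hL₂, periodPairOf, one_mul, mul_one] at hab hcd hpq hrs
  have hindep : ∀ u v : ℤ, (u : ℂ) * τ₁ + v = 0 → u = 0 ∧ v = 0 := by
    intro u v huv
    have him := congrArg Complex.im huv
    simp at him
    rcases him with hs | hs
    · subst hs
      exact ⟨rfl, by simpa using huv⟩
    · exact absurd hs τ₁.im_ne_zero
  obtain ⟨e1, e2⟩ := hindep (p * a + q * c - 1) (p * b + q * d) (by
    push_cast; linear_combination -hpq - (p : ℂ) * hab - (q : ℂ) * hcd)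
  obtain ⟨e3, e4⟩ := hindep (r * a + s * c) (r * b + s * d - 1) (by
    push_cast; linear_combination -hrs - (r : ℂ) * hab - (s : ℂ) * hcd)
  have hdet : (p * s - q * r) * (a * d - b * c) = 1 := by
    linear_combination (r * b + s * d) * e1 + e4 - (r * a + s * c) * e2
  have hden : (c : ℂ) * τ₁ + d ≠ 0 := hcd ▸ hμ
  have hτ₂ : (τ₂ : ℂ) = (a * τ₁ + b) / (c * τ₁ + d) := by
    rw [eq_div_iff hden]
    linear_combination hab - (τ₂ : ℂ) * hcd
  have hIm : 0 < (a : ℝ) * d - b * c := by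
    have hn := Complex.normSq_pos.mpr hden
    have him : (τ₂ : ℂ).im = ((a : ℝ) * d - b * c) * (τ₁ : ℂ).im
        / Complex.normSq ((c : ℂ) * τ₁ + d) := by
      rw [hτ₂, Complex.div_im]
      simp
      ring
    have h2 : 0 < (τ₂ : ℂ).im := τ₂.im_pos
    rw [him, div_pos_iff_of_pos_right hn, mul_pos_iff_of_pos_right (show 0 < (τ₁ : ℂ).im from τ₁.im_pos)] at h2
    exact h2
  have hdet1 : a * d - b * c = 1 := by
    rcases Int.eq_one_or_neg_one_of_mul_eq_one (mul_comm (p * s - q * r) _ ▸ hdet) with h' | h'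
    · exact h'
    · exfalso
      have : ((a * d - b * c : ℤ) : ℝ) = -1 := by rw [h']; norm_num
      push_cast at this
      linarith
  refine ⟨⟨!![a, b; c, d], by simpa [Matrix.det_fin_two] using hdet1⟩, UpperHalfPlane.ext ?_⟩
  rw [hτ₂]
  refine (coe_specialLinearGroup_apply _ τ₁).trans ?_
  simp

theorem jFun_eq_iff {τ₁ τ₂ : ℍ} : jFun τ₁ = jFun τ₂ ↔ ∃ γ : SL(2, ℤ), γ • τ₁ = τ₂ :=
  ⟨exists_smul_eq_of_jFun_eq, by rintro ⟨γ, rfl⟩; rw [jFun_smul]⟩

end FermatLib.Modular
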