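import Mathlib
import Fermat.Agent.Modular.JInvariant

/-! Ramanujan's identity for `E₄`; vanishing orders of `j - c`; elliptic points. -/

set_option autoImplicit false

noncomputable section

open UpperHalfPlane hiding I
open Complex ModularForm EisensteinSeries Derivative
open scoped MatrixGroups Topology Manifold

namespace FermatLib.Modular

theorem tendsto_normalizedDeriv_zero {F : ℍ → ℂ} {a : ℂ} (hF : MDiff F)
    (h : Filter.Tendsto F atImInfty (𝓝 a)) :
    Filter.Tendsto (normalizedDerivOfComplex F) atImInfty (𝓝 0) := by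
  rw [Metric.tendsto_nhds] at h ⊢
  intro ε hε
  obtain ⟨A, hA⟩ := (atImInfty_mem _).mp (h (ε / 2) (half_pos hε))
  refine (atImInfty_mem _).mpr ⟨|A| + 2, fun z hz => ?_⟩
  have hd := UpperHalfPlane.mdifferentiable_iff.mp hF
  have hball : Metric.closedBall (z : ℂ) 1 ⊆ upperHalfPlaneSet ∩ {w | A ≤ w.im} := by
    intro w hw
    have h1 : |w.im - z.im| ≤ 1 := by
      have h2 : |(w - (z : ℂ)).im| ≤ ‖w - (z : ℂ)‖ := Complex.abs_im_le_norm _
      simp only [Metric.mem_closedBall, dist_eq_norm] at hw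
      simpa using h2.trans hw
    have := abs_le.mp h1
    have h3 := le_abs_self A
    refine ⟨?_, ?_⟩
    · show 0 < w.im
      linarith [abs_nonneg A]
    · show A ≤ w.im
      linarith
  have hg : DiffContOnCl ℂ (fun w => (F ∘ ofComplex) w - a) (Metric.ball (z : ℂ) 1) := by
    apply DifferentiableOn.diffContOnCl
    rw [closure_ball _ one_ne_zero]
    exact (hd.mono (fun w hw => (hball hw).1)).sub_const a
  have hb : ∀ w ∈ Metric.sphere (z : ℂ) 1, ‖(F ∘ ofComplex) w - a‖ ≤ ε / 2 := by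
    intro w hw
    obtain ⟨hw1, hw2⟩ := hball (Metric.sphere_subset_closedBall hw)
    have := hA ⟨w, hw1⟩ hw2
    simp only [Set.mem_ofPred_eq, dist_eq_norm] at this
    simpa [ofComplex_apply_of_im_pos hw1] using this.le
  have hder := Complex.norm_deriv_le_of_forall_mem_sphere_norm_le one_pos hg hb
  simp only [deriv_sub_const, div_one] at hder
  simp only [Set.mem_ofPred_eq, dist_eq_norm, sub_zero, normalizedDerivOfComplex, norm_mul, norm_inv]
  have hpi : 1 ≤ ‖(2 : ℂ)‖ * ‖(Real.pi : ℂ)‖ * ‖(I : ℂ)‖ := by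
    simp [abs_of_pos Real.pi_pos]
    linarith [Real.two_le_pi]
  calc (‖(2 : ℂ)‖ * ‖(Real.pi : ℂ)‖ * ‖(I : ℂ)‖)⁻¹ * ‖deriv (F ∘ ofComplex) z‖ ≤ 1 * (ε / 2) :=
        mul_le_mul (inv_le_one_of_one_le₀ hpi) hder (norm_nonneg _) zero_le_one
    _ < ε := by linarith

theorem tendsto_E2_atImInfty : Filter.Tendsto E2 atImInfty (𝓝 1) := by
  have hsum : ∀ τ : ℍ, HasSum (fun m : ℕ => (if m = 0 then 1 else -24 * (ArithmeticFunction.sigma 1 m : ℂ))
      • Function.Periodic.qParam 1 τ ^ m) (E2 τ) := fun τ => by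
    simpa only [Function.Periodic.qParam, Complex.ofReal_one, div_one] using hasSum_qExpansion_E2 (z := τ)
  set c : ℕ → ℂ := fun m => if m = 0 then 1 else -24 * (ArithmeticFunction.sigma 1 m : ℂ) with hc
  have hper : Function.Periodic (E2 ∘ ofComplex) ((1 : ℝ) : ℂ) := by
    intro w
    by_cases hw : 0 < w.im
    · have hw1 : 0 < (w + ((1 : ℝ) : ℂ)).im := by simpa using hw
      simp only [Function.comp_apply, ofComplex_apply_of_im_pos hw, ofComplex_apply_of_im_pos hw1]
      refine (hsum ⟨_, hw1⟩).unique ?_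
      have hq : Function.Periodic.qParam 1 (w + ((1 : ℝ) : ℂ)) = Function.Periodic.qParam 1 w := by
        simp only [Function.Periodic.qParam, Complex.ofReal_one, div_one, mul_add, Complex.exp_add,
          mul_one, Complex.exp_two_pi_mul_I]
      have := hsum ⟨w, hw⟩
      simp only at this ⊢
      rw [hq]
      exact this
    · have hw1 : (w + ((1 : ℝ) : ℂ)).im ≤ 0 := by simpa using not_lt.mp hw
      simp only [Function.comp_apply, ofComplex_apply_of_im_nonpos (not_lt.mp hw),
        ofComplex_apply_of_im_nonpos hw1]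
  have ha : AnalyticAt ℂ (cuspFunction 1 E2) 0 :=
    analyticAt_cuspFunction_zero one_pos hper E2_mdifferentiable isBoundedAtImInfty_E2
  have h0 : cuspFunction 1 E2 0 = c 0 := by
    have h := (hasFPowerSeriesOnBall_cuspFunction one_pos ha hsum).hasFPowerSeriesAt.coeff_zero
    simpa [hc] using (h 0).symm
  have h := ha.continuousAt.tendsto.comp (qParam_tendsto_atImInfty one_pos)
  rw [h0, show c 0 = 1 by simp [hc]] at h
  refine h.congr fun τ => ?_
  exact eq_cuspFunction τ one_ne_zero hper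

/-- The Serre derivative of a level one form of weight `k`, as a form of weight `k + 2`. -/
def serreForm {k : ℤ} (f : ModularForm 𝒮ℒ k) : ModularForm 𝒮ℒ (k + 2) where
  toFun := serreDerivative k f
  slash_action_eq' := by
    rintro _ ⟨γ, rfl⟩
    exact serreDerivative_slash_invariant (ModularFormClass.holo f)
      (SlashInvariantFormClass.slash_action_eq f _ ⟨γ, rfl⟩)
  holo' := serreDerivative_mdifferentiable _ (ModularFormClass.holo f)
  bdd_at_cusps' {c} hc := by
    rw [Subgroup.IsArithmetic.isCusp_iff_isCusp_SL2Z] at hc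
    rw [OnePoint.isBoundedAt_iff_forall_SL2Z hc]
    intro γ _
    rw [serreDerivative_slash_invariant (ModularFormClass.holo f)
      (SlashInvariantFormClass.slash_action_eq f _ ⟨γ, rfl⟩)]
    have hf := tendsto_levelOne_atImInfty f
    have h := (tendsto_normalizedDeriv_zero (ModularFormClass.holo f) hf).sub
      ((tendsto_E2_atImInfty.const_mul ((k : ℂ) * 12⁻¹)).mul hf)
    exact h.isBigO_one ℝ

/-- `D E₄ = (E₂E₄ - E₆)/3`. -/
theorem normalizedDeriv_E₄ (z : ℍ) :
    normalizedDerivOfComplex E₄ z = (E2 z * E₄ z - E₆ z) / 3 := by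
  obtain ⟨c, hc⟩ := (finrank_eq_one_iff_of_nonzero' E₆ (E_ne_zero _ ⟨3, rfl⟩)).mp
    (Module.rank_eq_one_iff_finrank_eq_one.mp levelOne_weight_six_rank_one)
    (ModularForm.mcast (by norm_num) (serreForm E₄))
  have hpt : ∀ τ : ℍ, c * E₆ τ
      = normalizedDerivOfComplex E₄ τ - (4 : ℂ) * 12⁻¹ * E2 τ * E₄ τ := fun τ => by
    have := congrArg (fun F : ModularForm 𝒮ℒ 6 => F τ) hc
    exact this
  have ht1 : Filter.Tendsto (fun τ => c * E₆ τ) atImInfty (𝓝 c) := by
    simpa using (tendsto_E_atImInfty (show 3 ≤ 6 by norm_num) ⟨3, rfl⟩).const_mul c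
  have ht2 : Filter.Tendsto (fun τ => c * E₆ τ) atImInfty (𝓝 (-3⁻¹)) := by
    have h4 := tendsto_E_atImInfty (show 3 ≤ 4 by norm_num) ⟨2, rfl⟩
    have h := (tendsto_normalizedDeriv_zero (ModularFormClass.holo E₄) h4).sub
      ((tendsto_E2_atImInfty.const_mul ((4 : ℂ) * 12⁻¹)).mul h4)
    rw [show (-3⁻¹ : ℂ) = 0 - 4 * 12⁻¹ * 1 * 1 by norm_num]
    exact h.congr fun τ => (hpt τ).symm
  have hc3 := tendsto_nhds_unique ht1 ht2
  have := hpt z
  rw [hc3] at this
  linear_combination -this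

theorem hasDerivAt_E₄ (z : ℍ) :
    HasDerivAt ((E₄ : ℍ → ℂ) ∘ ofComplex)
      (2 * Real.pi * I * ((E2 z * E₄ z - E₆ z) / 3)) (z : ℂ) := by
  have hd := (UpperHalfPlane.mdifferentiableAt_iff.mp (ModularFormClass.holo E₄ z)).hasDerivAt
  have h2 : (2 * (Real.pi : ℂ) * I) ≠ 0 := two_pi_I_ne_zero
  rw [← normalizedDeriv_E₄, normalizedDerivOfComplex, ← mul_assoc, mul_inv_cancel₀ h2, one_mul]
  exact hd

theorem hasDerivAt_discriminant (z : ℍ) :
    HasDerivAt (discriminant ∘ ofComplex)
      (2 * Real.pi * I * (E2 z * discriminant z)) (z : ℂ) := by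
  have hη := (differentiableAt_eta_of_mem_upperHalfPlaneSet z.im_pos).hasDerivAt
  have hl := logDeriv_eta_eq_E2 z
  rw [logDeriv_apply, div_eq_iff (eta_ne_zero z.im_pos)] at hl
  have h := hη.pow 24
  refine (h.congr_of_eventuallyEq ?_).congr_deriv ?_
  · filter_upwards [isOpen_upperHalfPlaneSet.mem_nhds z.im_pos] with w hw
    simp [discriminant, ofComplex_apply_of_im_pos hw]
  · rw [hl]
    simp only [discriminant]
    push_cast
    ring

theorem hasDerivAt_weightTwelve (c : ℂ) (z : ℍ) :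
    HasDerivAt (fun w => E₄ (ofComplex w) ^ 3 - c * discriminant (ofComplex w))
      (2 * Real.pi * I * (E2 z * (E₄ z ^ 3 - c * discriminant z) - E₄ z ^ 2 * E₆ z)) (z : ℂ) := by
  refine (((hasDerivAt_E₄ z).pow 3).sub ((hasDerivAt_discriminant z).const_mul c)).congr_deriv ?_
  simp [ofComplex_apply]
  ring

theorem analyticAt_comp_ofComplex {f : ℍ → ℂ} (hf : MDiff f) (z : ℍ) :
    AnalyticAt ℂ (f ∘ ofComplex) (z : ℂ) :=
  (UpperHalfPlane.mdifferentiable_iff.mp hf).analyticAt
    (isOpen_upperHalfPlaneSet.mem_nhds z.im_pos)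

theorem meromorphicOrderAt_eq_one {f : ℂ → ℂ} {x d : ℂ} (ha : AnalyticAt ℂ f x)
    (h0 : f x = 0) (hd : HasDerivAt f d x) (hd0 : d ≠ 0) : meromorphicOrderAt f x = 1 := by
  have : analyticOrderAt f x = 1 := by
    apply AnalyticAt.analyticOrderAt_eq_one_of_zero_deriv_ne_zero ha h0
    rwa [hd.deriv]
  rw [ha.meromorphicOrderAt_eq, this]
  rfl

theorem meromorphicOrderAt_discriminant (z : ℍ) :
    meromorphicOrderAt (discriminant ∘ ofComplex) (z : ℂ) = 0 := by
  have ha : AnalyticAt ℂ (discriminant ∘ ofComplex) (z : ℂ) :=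
    analyticAt_comp_ofComplex CuspForm.discriminant.holo' z
  have h0 : analyticOrderAt (discriminant ∘ ofComplex) (z : ℂ) = 0 :=
    ha.analyticOrderAt_eq_zero.mpr (by simpa using discriminant_ne_zero z)
  rw [ha.meromorphicOrderAt_eq, h0]
  rfl

theorem hasDerivAt_E₆ (z : ℍ) (h6 : E₆ z = 0) :
    HasDerivAt ((E₆ : ℍ → ℂ) ∘ ofComplex) (-(Real.pi * I * E₄ z ^ 2)) (z : ℂ) := by
  set f := (E₆ : ℍ → ℂ) ∘ ofComplex with hf
  have ha : AnalyticAt ℂ f (z : ℂ) := analyticAt_comp_ofComplex (ModularFormClass.holo E₆) z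
  have hne : ∀ᶠ w in 𝓝[≠] (z : ℂ), f w ≠ 0 := by
    refine ha.eventually_eq_zero_or_eventually_ne_zero.resolve_left fun h => ?_
    have h2 := ((UpperHalfPlane.mdifferentiable_iff.mp (ModularFormClass.holo E₆)).analyticOnNhd
      isOpen_upperHalfPlaneSet).eqOn_zero_of_preconnected_of_eventuallyEq_zero
      (convex_halfSpace_im_gt 0).isPreconnected z.im_pos h
    refine E_ne_zero (show 3 ≤ 6 by norm_num) ⟨3, rfl⟩ (ModularForm.ext fun τ => ?_)
    simpa [hf] using h2 τ.im_pos
  have hev : ∀ᶠ w in 𝓝[≠] (z : ℂ), deriv f w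
      = Real.pi * I * (E2 (ofComplex w) * E₆ (ofComplex w) - E₄ (ofComplex w) ^ 2) := by
    filter_upwards [hne, mem_nhdsWithin_of_mem_nhds (isOpen_upperHalfPlaneSet.mem_nhds z.im_pos)]
      with w hw0 hw
    have e := hasDerivAt_weightTwelve 1728 ⟨w, hw⟩
    have hsq : (fun w => E₄ (ofComplex w) ^ 3 - 1728 * discriminant (ofComplex w))
        = fun w => f w ^ 2 := by
      funext u
      have := discriminant_eq_E₄_cube_sub_E₆_sq (ofComplex u)
      simp only [hf, Function.comp_apply]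
      linear_combination (-1728 : ℂ) * this
    rw [hsq] at e
    have hfd : DifferentiableAt ℂ f w :=
      UpperHalfPlane.mdifferentiableAt_iff.mp (ModularFormClass.holo E₆ ⟨w, hw⟩)
    have e2 := e.unique (hfd.hasDerivAt.pow 2)
    have hsq2 := congrFun hsq w
    simp only [hf, Function.comp_apply, ofComplex_apply_of_im_pos hw] at hsq2 hw0 ⊢
    simp only [hf, Function.comp_apply, ofComplex_apply_of_im_pos hw] at e2
    rw [hsq2] at e2
    push_cast at e2
    apply mul_left_cancel₀ hw0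
    linear_combination (-1 / 2 : ℂ) * e2
  have hc1 : ContinuousAt (deriv f) (z : ℂ) := ha.deriv.continuousAt
  have hc2 : ContinuousAt (fun w => (Real.pi : ℂ) * I *
      (E2 (ofComplex w) * E₆ (ofComplex w) - E₄ (ofComplex w) ^ 2)) (z : ℂ) := by
    have a1 := analyticAt_comp_ofComplex E2_mdifferentiable z
    have a2 := analyticAt_comp_ofComplex (ModularFormClass.holo E₄) z
    exact (analyticAt_const.mul ((a1.mul ha).sub (a2.pow 2))).continuousAt
  have hval : deriv f z
      = Real.pi * I * (E2 (ofComplex z) * E₆ (ofComplex z) - E₄ (ofComplex z) ^ 2) :=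
    tendsto_nhds_unique ((hc1.tendsto.mono_left nhdsWithin_le_nhds).congr' hev)
      (hc2.tendsto.mono_left nhdsWithin_le_nhds)
  have hd := ha.differentiableAt.hasDerivAt
  rw [hval, ofComplex_apply, h6] at hd
  exact hd.congr_deriv (by ring)

/-- Ramification index of `j` at a point where it takes the value `c`. -/
def jRamIndex (c : ℂ) : ℕ := if c = 0 then 3 else if c = 1728 then 2 else 1

theorem jRamIndex_pos (c : ℂ) : 0 < jRamIndex c := by
  unfold jRamIndex; split_ifs <;> norm_num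

theorem meromorphicOrderAt_jFun_sub {z : ℍ} {c : ℂ} (hz : jFun z = c) :
    meromorphicOrderAt (fun w => jFun (ofComplex w) - c) (z : ℂ) = (jRamIndex c : ℤ) := by
  have hΔ := meromorphicOrderAt_discriminant z
  have hΔa : AnalyticAt ℂ (discriminant ∘ ofComplex) (z : ℂ) :=
    analyticAt_comp_ofComplex CuspForm.discriminant.holo' z
  have hquot : ∀ {g : ℂ → ℂ} {m : ℕ}, AnalyticAt ℂ g (z : ℂ) → meromorphicOrderAt g (z : ℂ) = m →
      meromorphicOrderAt (g / (discriminant ∘ ofComplex)) (z : ℂ) = (m : ℤ) := by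
    intro g m hg hm
    rw [meromorphicOrderAt_div hg.meromorphicAt hΔa.meromorphicAt, hm, hΔ]
    rfl
  have h4a := analyticAt_comp_ofComplex (ModularFormClass.holo E₄) z
  have h6a := analyticAt_comp_ofComplex (ModularFormClass.holo E₆) z
  unfold jRamIndex
  split_ifs with h0 h1
  · subst h0
    have h4 : E₄ z = 0 := jFun_eq_zero_iff.mp hz
    have e1 : meromorphicOrderAt ((E₄ : ℍ → ℂ) ∘ ofComplex) (z : ℂ) = 1 :=
      meromorphicOrderAt_eq_one h4a (by simpa using h4) (hasDerivAt_E₄ z)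
        (by simp [h4, E₆_ne_zero_of_E₄ h4, Real.pi_ne_zero])
    have hfun : (fun w => jFun (ofComplex w) - 0)
        = ((E₄ : ℍ → ℂ) ∘ ofComplex) ^ 3 / (discriminant ∘ ofComplex) := by
      funext w; simp [jFun]
    rw [hfun]
    refine hquot (m := 3) (h4a.pow 3) ?_
    rw [meromorphicOrderAt_pow h4a.meromorphicAt, e1]
    rfl
  · subst h1
    have h6 : E₆ z = 0 := jFun_eq_1728_iff.mp hz
    have hfun : (fun w => jFun (ofComplex w) - 1728)
        = ((E₆ : ℍ → ℂ) ∘ ofComplex) ^ 2 / (discriminant ∘ ofComplex) := by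
      funext w; simp [jFun_sub_1728]
    rw [hfun]
    have h4 : E₄ z ≠ 0 := fun h => E₆_ne_zero_of_E₄ h h6
    refine hquot (m := 2) (h6a.pow 2) ?_
    -- `E₆` vanishes simply: `E₆² = E₄³ - 1728 Δ` would otherwise have order `≥ 4`
    rw [meromorphicOrderAt_pow h6a.meromorphicAt, meromorphicOrderAt_eq_one h6a (by simpa using h6)
      (hasDerivAt_E₆ z h6) (by simp [h4, Real.pi_ne_zero])]
    rfl
  · have hfun : (fun w => jFun (ofComplex w) - c)
        = (fun w => E₄ (ofComplex w) ^ 3 - c * discriminant (ofComplex w)) / (discriminant ∘ ofComplex) := by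
      funext w; simp [jFun_sub_eq]
    rw [hfun]
    have ha : AnalyticAt ℂ (fun w => E₄ (ofComplex w) ^ 3 - c * discriminant (ofComplex w)) (z : ℂ) :=
      (h4a.pow 3).sub (analyticAt_const.mul hΔa)
    have hz0 : E₄ z ^ 3 - c * discriminant z = 0 := by
      have := jFun_sub_eq z c
      rw [hz, sub_self, eq_comm, div_eq_zero_iff] at this
      exact this.resolve_right (discriminant_ne_zero z)
    have h4 : E₄ z ≠ 0 := fun h => h0 (hz ▸ jFun_eq_zero_iff.mpr h)
    have h6 : E₆ z ≠ 0 := fun h => h1 (hz ▸ jFun_eq_1728_iff.mpr h)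
    refine hquot (m := 1) ha ?_
    exact meromorphicOrderAt_eq_one ha (by simpa using hz0) (hasDerivAt_weightTwelve c z)
      (by simp [hz0, h4, h6, Real.pi_ne_zero])

end FermatLib.Modular
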