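import Mathlib
import Fermat.Agent.Curve.PlaceBasics

/-!
Places of a function field cut out by embeddings into a valued field: at most `e` pairwise distinct
embeddings can induce a place of ramification `e`, so if there are as many embeddings as the degree
they induce every place of the fibre.
-/

set_option autoImplicit false

noncomputable section

open AlgebraicCurve FermatLib.Curve

namespace FermatLib.Modular

variable {K F M : Type*} [Field K] [Field F] [Algebra K F] [Field M]

/-- `σ` induces the place `v`: its valuation ring is the preimage of that of `w`. -/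
def InducesPlace (w : AddValuation M (WithTop ℤ)) (σ : F →+* M) (v : Place K F) : Prop :=
  ∀ f : F, f ∈ v.toValuationSubring ↔ 0 ≤ w (σ f)

namespace InducesPlace

variable {w : AddValuation M (WithTop ℤ)} {σ : F →+* M} {v v' : Place K F}

theorem unique (h : InducesPlace w σ v) (h' : InducesPlace w σ v') : v = v' :=
  Place.ext (SetLike.ext fun f => (h f).trans (h' f).symm)

theorem ne_top (σ : F →+* M) {f : F} (hf : f ≠ 0) : w (σ f) ≠ ⊤ :=
  (AddValuation.ne_top_iff _).mpr ((map_ne_zero σ).mpr hf)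

theorem exists_scale (h : InducesPlace w σ v) :
    ∃ m : ℤ, 0 < m ∧ ∀ f : F, f ≠ 0 → w (σ f) = ((m * v.ord f : ℤ) : WithTop ℤ) := by
  have hπ : unif v ≠ 0 := unif_ne_zero v
  obtain ⟨m, hm⟩ := WithTop.ne_top_iff_exists.mp (ne_top (w := w) σ hπ)
  have hz : ∀ f : F, f ≠ 0 → ∀ n : ℤ, v.ord f = n → w (σ f) = ((m * n : ℤ) : WithTop ℤ) := by
    have hpow : ∀ n : ℤ, w (σ (unif v ^ n)) = ((m * n : ℤ) : WithTop ℤ) := by
      have hnat : ∀ k : ℕ, w (σ (unif v ^ k)) = ((m * k : ℤ) : WithTop ℤ) := by
        intro k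
        induction k with
        | zero => simp
        | succ k ih =>
          rw [pow_succ, map_mul, AddValuation.map_mul, ih, ← hm, ← WithTop.coe_add]
          congr 1
          push_cast
          ring
      intro n
      obtain ⟨k, rfl | rfl⟩ := n.eq_nat_or_neg
      · rw [zpow_natCast]; exact hnat k
      · have hne : σ (unif v ^ k) ≠ 0 := (map_ne_zero σ).mpr (pow_ne_zero k hπ)
        rw [zpow_neg, zpow_natCast, map_inv₀, AddValuation.map_inv, hnat k]
        rw [mul_neg]
        rfl
    intro f hf n hn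
    have hu : f * unif v ^ (-n) ∈ v.toValuationSubring ∧
        (f * unif v ^ (-n))⁻¹ ∈ v.toValuationSubring := by
      have h0 : v.ord (f * unif v ^ (-n)) = 0 := by
        rw [v.ord_mul hf (zpow_ne_zero _ hπ), ord_unif_zpow, hn]; ring
      constructor
      · exact (mem_valuationSubring_iff v).mpr (mem_ordGE_of_le h0.ge)
      · exact (mem_valuationSubring_iff v).mpr (mem_ordGE_of_le (by rw [v.ord_inv, h0]; rfl))
    have h1 := (h _).mp hu.1
    have h2 := (h _).mp hu.2
    obtain ⟨a, ha⟩ := WithTop.ne_top_iff_exists.mp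
      (ne_top (w := w) σ (mul_ne_zero hf (zpow_ne_zero (-n) hπ)))
    rw [map_inv₀, AddValuation.map_inv, ← ha] at h2
    rw [← ha] at h1
    have ha0 : a = 0 := by
      have e1 : (0 : ℤ) ≤ a := WithTop.coe_le_coe.mp h1
      have e2 : (0 : ℤ) ≤ -a := WithTop.coe_le_coe.mp h2
      omega
    have : w (σ f) = w (σ (f * unif v ^ (-n))) + w (σ (unif v ^ n)) := by
      rw [← AddValuation.map_mul, ← map_mul, mul_assoc, ← zpow_add₀ hπ, neg_add_cancel,
        zpow_zero, mul_one]
    rw [this, ← ha, hpow, ha0]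
    simp
  refine ⟨m, ?_, fun f hf => hz f hf _ rfl⟩
  have h1 : ¬ (0 : WithTop ℤ) ≤ w (σ (unif v)⁻¹) := fun h2 => by
    have := (mem_valuationSubring_iff v).mp ((h _).mpr h2)
    rw [mem_ordGE_of_ne_zero (inv_ne_zero hπ), v.ord_inv, ord_unif] at this
    omega
  rw [map_inv₀, AddValuation.map_inv, ← hm, ← WithTop.LinearOrderedAddCommGroup.coe_neg] at h1
  by_contra hle
  exact h1 (WithTop.coe_le_coe.mpr (by omega))

theorem ord_pos_iff (h : InducesPlace w σ v) {f : F} (hf : f ≠ 0) :
    0 < v.ord f ↔ 0 < w (σ f) := by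
  obtain ⟨m, hm, hs⟩ := h.exists_scale
  rw [hs f hf, ← WithTop.coe_zero, WithTop.coe_lt_coe]
  constructor <;> intro h0 <;> nlinarith

end InducesPlace

/-- The place induced by an embedding. -/
theorem exists_inducesPlace (w : AddValuation M (WithTop ℤ)) (σ : F →+* M)
    (hK : ∀ a : K, 0 ≤ w (σ (algebraMap K F a))) (hne : ∃ f : F, w (σ f) < 0) :
    ∃ v : Place K F, InducesPlace w σ v := by
  classical
  let A : ValuationSubring F :=
    { carrier := {f | 0 ≤ w (σ f)}
      zero_mem' := by simp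
      one_mem' := by simp
      add_mem' := fun {a b} ha hb => by
        simp only [Set.mem_ofPred_eq, map_add] at *
        exact AddValuation.map_le_add w ha hb
      mul_mem' := fun {a b} ha hb => by
        simp only [Set.mem_ofPred_eq, map_mul, AddValuation.map_mul] at *
        exact add_nonneg ha hb
      neg_mem' := fun {a} ha => by simpa [AddValuation.map_neg] using ha
      mem_or_inv_mem' := fun f => by
        simp only [Set.mem_ofPred_eq, map_inv₀, AddValuation.map_inv]
        rcases eq_or_ne f 0 with rfl | hf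
        · simp
        obtain ⟨n, hn⟩ := WithTop.ne_top_iff_exists.mp (InducesPlace.ne_top (w := w) σ hf)
        rw [← hn, ← WithTop.LinearOrderedAddCommGroup.coe_neg]
        rcases le_total 0 n with h | h
        · exact Or.inl (WithTop.coe_le_coe.mpr h)
        · exact Or.inr (WithTop.coe_le_coe.mpr (by omega)) }
  have hAmem : ∀ f : F, f ∈ A ↔ 0 ≤ w (σ f) := fun f => Iff.rfl
  refine ⟨⟨A, fun a => hK a, ?_, ⟨fun I => ?_⟩⟩, fun f => Iff.rfl⟩
  · obtain ⟨f, hf⟩ := hne
    exact fun h => not_le.mpr hf ((hAmem f).mp (h ▸ ValuationSubring.mem_top f))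
  · by_cases hI : I = ⊥
    · subst hI; infer_instance
    obtain ⟨a, haI, ha0⟩ := Submodule.exists_mem_ne_zero_of_ne_bot hI
    have hval : ∀ b : A, b ≠ 0 → ∃ k : ℕ, w (σ (b : F)) = ((k : ℤ) : WithTop ℤ) := by
      intro b hb
      obtain ⟨n, hn⟩ := WithTop.ne_top_iff_exists.mp
        (InducesPlace.ne_top (w := w) σ (fun h => hb (Subtype.ext h)))
      have h0 : (0 : WithTop ℤ) ≤ w (σ (b : F)) := b.2
      rw [← hn, ← WithTop.coe_zero, WithTop.coe_le_coe] at h0
      exact ⟨n.toNat, by rw [← hn, Int.toNat_of_nonneg h0]⟩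
    set P : ℕ → Prop := fun k => ∃ b : A, b ∈ I ∧ b ≠ 0 ∧ w (σ (b : F)) = ((k : ℤ) : WithTop ℤ)
    have hex : ∃ k, P k := (hval a ha0).imp fun k hk => ⟨a, haI, ha0, hk⟩
    obtain ⟨g, hgI, hg0, hg⟩ := Nat.find_spec hex
    refine ⟨g, le_antisymm (fun b hb => ?_) ((Submodule.span_singleton_le_iff_mem g I).mpr hgI)⟩
    rw [Submodule.mem_span_singleton]
    rcases eq_or_ne b 0 with rfl | hb0
    · exact ⟨0, zero_smul _ _⟩
    obtain ⟨k, hk⟩ := hval b hb0
    have hle : Nat.find hex ≤ k := Nat.find_le ⟨b, hb, hb0, hk⟩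
    have hgF : (g : F) ≠ 0 := fun h => hg0 (Subtype.ext h)
    refine ⟨⟨(b : F) * (g : F)⁻¹, ?_⟩, ?_⟩
    · show 0 ≤ w (σ ((b : F) * (g : F)⁻¹))
      rw [map_mul, map_inv₀, AddValuation.map_mul, AddValuation.map_inv, hk, hg,
        ← WithTop.LinearOrderedAddCommGroup.coe_neg, ← WithTop.coe_add, ← WithTop.coe_zero,
        WithTop.coe_le_coe]
      omega
    · exact Subtype.ext (by
        show (b : F) * (g : F)⁻¹ * (g : F) = b
        rw [mul_assoc, inv_mul_cancel₀ hgF, mul_one])

/-- At most `v.ord x` pairwise distinct embeddings, agreeing on `x` and on constants, induce `v`. -/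
theorem card_le_ord_of_inducesPlace {ι : Type*} [Fintype ι] (w : AddValuation M (WithTop ℤ))
    (σ : ι → (F →+* M)) (hinj : Function.Injective σ) (v : Place K F)
    (hind : ∀ i, InducesPlace w (σ i) v)
    (hres : ∀ f : F, f ∈ ordGE v 0 → ∃ a : K, f - algebraMap K F a ∈ ordGE v 1)
    {x : F} (hx : 0 < v.ord x)
    (hK : ∀ (i j : ι) (a : K), σ i (algebraMap K F a) = σ j (algebraMap K F a))
    (hxc : ∀ i j : ι, σ i x = σ j x) :
    (Fintype.card ι : ℤ) ≤ v.ord x := by
  classical
  by_contra hlt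
  push Not at hlt
  set e := (v.ord x).toNat with he
  have hee : (e : ℤ) = v.ord x := Int.toNat_of_nonneg hx.le
  have hx0 : x ≠ 0 := by rintro rfl; simp at hx
  have hπ : unif v ≠ 0 := unif_ne_zero v
  let L : (ι → M) →ₗ[M] (Fin e → M) :=
    LinearMap.pi fun k => ∑ i, (σ i (unif v ^ (k : ℕ))) • LinearMap.proj i
  obtain ⟨c, hc, hc0⟩ : ∃ c ∈ LinearMap.ker L, c ≠ 0 :=
    Submodule.exists_mem_ne_zero_of_ne_bot
      (LinearMap.ker_ne_bot_of_finrank_lt (by simp; omega))
  have hck : ∀ k : Fin e, ∑ i, σ i (unif v ^ (k : ℕ)) * c i = 0 := fun k => by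
    simpa [L] using congrFun hc k
  let T : F →+ M :=
    { toFun := fun f => ∑ i, σ i f * c i
      map_zero' := by simp
      map_add' := fun a b => by simp [add_mul, Finset.sum_add_distrib] }
  have hTval : ∀ f, T f = ∑ i, σ i f * c i := fun f => rfl
  have hTmul : ∀ g : F, (∀ i j, σ i g = σ j g) → ∀ f, T f = 0 → T (g * f) = 0 := by
    intro g hg f hf
    rcases isEmpty_or_nonempty ι with h | ⟨⟨i₀⟩⟩
    · simp [hTval]
    · rw [hTval] at hf ⊢
      calc ∑ i, σ i (g * f) * c i = ∑ i, σ i₀ g * (σ i f * c i) := by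
            refine Finset.sum_congr rfl fun i _ => ?_
            rw [map_mul, hg i i₀, mul_assoc]
        _ = 0 := by rw [← Finset.mul_sum, hf, mul_zero]
  have key : ∀ (n : ℕ) (f : F), f ∈ ordGE v 0 → ∃ g : F, g ∈ ordGE v n ∧ T f = T g := by
    intro n
    induction n with
    | zero => exact fun f hf => ⟨f, hf, rfl⟩
    | succ n ih =>
      intro f hf
      obtain ⟨g, hg, hfg⟩ := ih f hf
      set u : F := x ^ (n / e) * unif v ^ (n % e) with hu
      have hu0 : u ≠ 0 := mul_ne_zero (pow_ne_zero _ hx0) (pow_ne_zero _ hπ)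
      have hou : v.ord u = n := by
        rw [hu, v.ord_mul (pow_ne_zero _ hx0) (pow_ne_zero _ hπ), ord_pow, ord_pow, ord_unif,
          ← hee, mul_one]
        exact_mod_cast (by rw [mul_comm]; exact Nat.div_add_mod n e : n / e * e + n % e = n)
      have hq : g * u⁻¹ ∈ ordGE v 0 := by
        have := mul_mem_ordGE hg (mem_ordGE_of_le (v := v) (f := u⁻¹) (n := -(n : ℤ))
          (by rw [v.ord_inv, hou]))
        simpa using this
      obtain ⟨a, ha⟩ := hres _ hq
      refine ⟨g - algebraMap K F a * u, ?_, ?_⟩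
      · have := mul_mem_ordGE ha (mem_ordGE_of_le (v := v) hou.ge)
        rw [sub_mul, mul_assoc, inv_mul_cancel₀ hu0, mul_one, add_comm] at this
        exact_mod_cast this
      · have he0 : 0 < e := by omega
        have h2 : T (algebraMap K F a * u) = 0 := by
          refine hTmul _ (fun i j => hK i j a) _ ?_
          exact hTmul _ (fun i j => by rw [map_pow, map_pow, hxc i j]) _
            (hck ⟨n % e, Nat.mod_lt _ he0⟩)
        rw [map_sub, h2, sub_zero, hfg]
  have hzero : ∀ f : F, f ∈ ordGE v 0 → T f = 0 := by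
    intro f hf
    by_contra hne
    obtain ⟨b, hb⟩ := WithTop.ne_top_iff_exists.mp ((AddValuation.ne_top_iff w).mpr hne)
    -- a uniform lower bound for the valuations of the coefficients
    obtain ⟨B, hB⟩ : ∃ B : ℕ, ∀ i, ((-(B : ℤ) : ℤ) : WithTop ℤ) ≤ w (c i) := by
      have : ∀ i, ∃ B : ℕ, ((-(B : ℤ) : ℤ) : WithTop ℤ) ≤ w (c i) := fun i => by
        cases w (c i) with
        | top => exact ⟨0, le_top⟩
        | coe z => exact ⟨z.natAbs, WithTop.coe_le_coe.mpr (by omega)⟩
      choose B hB using this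
      refine ⟨∑ i, B i, fun i => le_trans (WithTop.coe_le_coe.mpr ?_) (hB i)⟩
      have := Finset.single_le_sum (f := B) (fun _ _ => Nat.zero_le _) (Finset.mem_univ i)
      omega
    obtain ⟨g, hg, hfg⟩ := key (B + b.natAbs + 1) f hf
    have hle : ((b + 1 : ℤ) : WithTop ℤ) ≤ w (T g) := by
      rw [hTval]
      refine AddValuation.map_le_sum w fun i _ => ?_
      rw [AddValuation.map_mul]
      rcases eq_or_ne g 0 with rfl | hg0
      · simp
      obtain ⟨m, hm, hs⟩ := (hind i).exists_scale
      rw [hs g hg0]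
      refine le_trans ?_ (add_le_add le_rfl (hB i))
      rw [← WithTop.coe_add, WithTop.coe_le_coe]
      have := le_ord_of_mem hg hg0
      push_cast at this
      nlinarith [le_abs_self b, Int.abs_eq_natAbs b]
    rw [← hfg, ← hb, WithTop.coe_le_coe] at hle
    omega
  have hall : ∀ f : F, T f = 0 := by
    intro f
    rcases eq_or_ne f 0 with rfl | hf
    · simp
    set n := (-v.ord f).toNat
    have h1 : x ^ n * f ∈ ordGE v 0 := by
      refine mem_ordGE_of_le ?_
      rw [v.ord_mul (pow_ne_zero _ hx0) hf, ord_pow]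
      have : (-v.ord f) ≤ n := Int.self_le_toNat _
      nlinarith
    have h2 := hTmul ((x ^ n)⁻¹) (fun i j => by rw [map_inv₀, map_inv₀, map_pow, map_pow, hxc i j])
      _ (hzero _ h1)
    rwa [← mul_assoc, inv_mul_cancel₀ (pow_ne_zero _ hx0), one_mul] at h2
  have hli := linearIndependent_monoidHom F M
  have hli' := hli.comp (fun i => ((σ i : F →+* M) : F →* M))
    (fun i j hij => hinj (RingHom.ext fun f => DFunLike.congr_fun hij f))
  refine hc0 (funext fun i => Fintype.linearIndependent_iff.mp hli' c ?_ i)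
  funext f
  have := hall f
  rw [hTval] at this
  simpa [mul_comm] using this

/-- As many embeddings as the degree induce all places over `x = 0`, each `ord x` many times. -/
theorem fibre_of_embeddings {ι : Type*} [Fintype ι] (w : AddValuation M (WithTop ℤ))
    (σ : ι → (F →+* M)) (hinj : Function.Injective σ) {x : F} (hx : x ≠ 0)
    (hK : ∀ (i : ι) (a : K), 0 ≤ w (σ i (algebraMap K F a)))
    (hKeq : ∀ (i j : ι) (a : K), σ i (algebraMap K F a) = σ j (algebraMap K F a))
    (hxc : ∀ i j : ι, σ i x = σ j x) (hpos : ∀ i, 0 < w (σ i x))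
    (hres : ∀ (v : Place K F), ∀ f ∈ ordGE v 0, ∃ a : K, f - algebraMap K F a ∈ ordGE v 1)
    (hdeg : ∀ s : Finset (Place K F), (∀ v ∈ s, 0 < v.ord x) →
      ∑ v ∈ s, v.ord x ≤ (Fintype.card ι : ℤ)) :
    ∃ p : ι → Place K F, (∀ i, InducesPlace w (σ i) (p i)) ∧
      (∀ v : Place K F, 0 < v.ord x ↔ ∃ i, p i = v) ∧
      (∀ i, (Nat.card {j // p j = p i} : ℤ) = (p i).ord x) := by
  classical
  have hex : ∀ i, ∃ v : Place K F, InducesPlace w (σ i) v := fun i => by
    refine exists_inducesPlace w (σ i) (hK i) ⟨x⁻¹, ?_⟩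
    obtain ⟨n, hn⟩ := WithTop.ne_top_iff_exists.mp (InducesPlace.ne_top (w := w) (σ i) hx)
    have := hpos i
    rw [← hn, ← WithTop.coe_zero, WithTop.coe_lt_coe] at this
    rw [map_inv₀, AddValuation.map_inv, ← hn, ← WithTop.LinearOrderedAddCommGroup.coe_neg,
      ← WithTop.coe_zero, WithTop.coe_lt_coe]
    omega
  choose p hp using hex
  have hord : ∀ i, 0 < (p i).ord x := fun i => ((hp i).ord_pos_iff hx).mpr (hpos i)
  set S := Finset.univ.image p with hS
  have hfib : ∀ v ∈ S, ((Finset.univ.filter fun i => p i = v).card : ℤ) ≤ v.ord x := by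
    intro v hv
    obtain ⟨i, -, rfl⟩ := Finset.mem_image.mp hv
    have := card_le_ord_of_inducesPlace (ι := {j // p j = p i}) w (fun j => σ j.1)
      (fun a b hab => Subtype.ext (hinj hab)) (p i) (fun j => (congrArg (InducesPlace w (σ j.1)) j.2).mp (hp j.1)) (hres _) (hord i)
      (fun a b k => hKeq _ _ k) (fun a b => hxc _ _)
    rwa [Fintype.card_subtype] at this
  have hcard : ∑ v ∈ S, ((Finset.univ.filter fun i => p i = v).card : ℤ) = Fintype.card ι := by
    rw [← Nat.cast_sum, ← Finset.card_eq_sum_card_image]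
    rfl
  have hpos' : ∀ v ∈ S, 0 < v.ord x := by
    intro v hv
    obtain ⟨i, -, rfl⟩ := Finset.mem_image.mp hv
    exact hord i
  refine ⟨p, hp, fun v => ⟨fun hv => ?_, by rintro ⟨i, rfl⟩; exact hord i⟩, fun i => ?_⟩
  · by_contra hno
    have hvS : v ∉ S := fun h => hno (by simpa [hS] using h)
    have h1 := hdeg (insert v S) fun u hu => (Finset.mem_insert.mp hu).elim (fun h => h ▸ hv) (hpos' u)
    rw [Finset.sum_insert hvS] at h1
    have h2 := Finset.sum_le_sum hfib
    omega
  · have h1 := hdeg S hpos'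
    have h2 := Finset.sum_le_sum hfib
    have h3 := (Finset.sum_eq_sum_iff_of_le hfib).mp (by omega) (p i) (by simp [hS])
    rw [Nat.card_eq_fintype_card, Fintype.card_subtype]
    exact h3

end FermatLib.Modular
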