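import Fermat.Agent.Modular.MeroField
import Fermat.Agent.Modular.JOrder
import Fermat.Agent.Modular.PlaceEmbeddings
import Fermat.Agent.Curve.PoleDegree
import Fermat.Agent.Curve.KaehlerBasic
import Fermat.Agent.Curve.KaehlerPlace
import Fermat.Prelude.Def_AlgebraicCurve_IsCurveOver

/-!
Embedding of `L(X₀(N))` in meromorphic functions, for a field `L` embedded in `ℂ`, and curve facts.
-/

set_option autoImplicit false

noncomputable section

open UpperHalfPlane hiding I
open CongruenceSubgroup ModularCurve AlgebraicCurve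
open scoped MatrixGroups Manifold Topology

namespace FermatLib.Modular

/-- The function field of `X₀(N)` over `L`. -/
abbrev modularFunctionFieldOver (L : Type*) [Field L] [Algebra ℚ L] (N : ℕ) :
    IntermediateField L (LaurentSeries L) :=
  laurentBaseChange L (modularFunctionFieldFull N)

variable {L : Type*} [Field L] [Algebra ℚ L] (ι : L →+* ℂ) (N : ℕ)

theorem coeffMap_coeffEmb_of_embedding (x : LaurentSeries ℚ) :
    coeffMap ι (coeffEmb L x) = coeffEmb ℂ x := by
  rw [coeffEmb, coeffEmb, coeffMap_coeffMap]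
  exact coeffMap_congr (Subsingleton.elim _ _) x

theorem coeffMap_mem_modularFunctionFieldCx_of_embedding {x : LaurentSeries L}
    (hx : x ∈ modularFunctionFieldOver L N) : coeffMap ι x ∈ modularFunctionFieldCx N := by
  rw [mem_laurentBaseChange_iff] at hx
  induction hx using Subfield.closure_induction with
  | mem y hy =>
      rcases hy with ⟨a, rfl⟩ | ⟨z, hz, rfl⟩
      · rw [algebraMap_laurentSeries_eq_single, coeffMap_single,
          ← algebraMap_laurentSeries_eq_single]
        exact (modularFunctionFieldCx N).algebraMap_mem _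
      · rw [coeffMap_coeffEmb_of_embedding]
        exact coeffEmb_mem_laurentBaseChange ℂ hz
  | one => simp
  | add x y _ _ hx hy => simpa using add_mem hx hy
  | neg x _ hx => simpa using neg_mem hx
  | inv x _ hx => simpa using inv_mem hx
  | mul x y _ _ hx hy => simpa using mul_mem hx hy

/-- `L(X₀(N)) → ℂ(X₀(N))`, attached to `ι`. -/
def baseToCx : modularFunctionFieldOver L N →+* modularFunctionFieldCx N where
  toFun x := ⟨coeffMap ι (x : LaurentSeries L),
    coeffMap_mem_modularFunctionFieldCx_of_embedding ι N x.2⟩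
  map_one' := Subtype.ext (map_one _)
  map_mul' x y := Subtype.ext (map_mul (coeffMap ι) _ _)
  map_zero' := Subtype.ext (map_zero _)
  map_add' x y := Subtype.ext (map_add (coeffMap ι) _ _)

@[simp]
theorem coe_baseToCx (x : modularFunctionFieldOver L N) :
    (baseToCx ι N x : LaurentSeries ℂ) = coeffMap ι (x : LaurentSeries L) := rfl

@[simp]
theorem baseToCx_id (x : modularFunctionFieldCx N) : baseToCx (RingHom.id ℂ) N x = x :=
  Subtype.ext (coeffMap_id _)

variable [NeZero N]

theorem baseToCx_algebraMap (a : L) :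
    baseToCx ι N (algebraMap L _ a) = algebraMap ℂ (modularFunctionFieldCx N) (ι a) := by
  refine Subtype.ext ?_
  show coeffMap ι (algebraMap L (LaurentSeries L) a) = algebraMap ℂ (LaurentSeries ℂ) (ι a)
  rw [algebraMap_laurentSeries_eq_single, algebraMap_laurentSeries_eq_single, coeffMap_single]

theorem baseToCx_jElem : baseToCx ι N (jElem L N) = jElem ℂ N :=
  Subtype.ext (coeffMap_coeffEmb_of_embedding ι jq)

theorem exists_div_qExpWeak (y : modularFunctionFieldCx N) :
    ∃ A B : weakMod (Gamma0 N), B ≠ 0 ∧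
      y = ⟨qExpWeak N A, qExpL_mem_modularFunctionFieldCx N A.2⟩ /
          ⟨qExpWeak N B, qExpL_mem_modularFunctionFieldCx N B.2⟩ := by
  obtain ⟨A, B, hB, h⟩ := exists_weakMod_div N y.2
  exact ⟨A, B, hB, Subtype.ext (by simpa using h)⟩

theorem meromorphicOrderAt_comp_smul (g : SL(2, ℤ)) (τ : ℍ) (G : holFun) :
    meromorphicOrderAt ((fun z => (G : ℍ → ℂ) (g • z)) ∘ ofComplex) (τ : ℂ)
      = meromorphicOrderAt ((G : ℍ → ℂ) ∘ ofComplex) ((g • τ : ℍ) : ℂ) := by
  set φ : ℂ → ℂ := fun w => ((g • ofComplex w : ℍ) : ℂ) with hφ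
  have hmd : MDiff (fun z : ℍ => ((g • z : ℍ) : ℂ)) :=
    mdifferentiable_comp_smul (G := fun z : ℍ => (z : ℂ)) mdifferentiable_coe g
  have hφa : AnalyticAt ℂ φ (τ : ℂ) := analyticAt_comp_ofComplex hmd τ
  have hd := (hasStrictDerivAt_smul (g := (g : GL (Fin 2) ℝ))
    (by simp [← Int.cast_det]) τ).hasDerivAt
  have hd0 : deriv φ (τ : ℂ) ≠ 0 := by
    simp only [hφ, ModularGroup.sl_moeb]
    rw [hd.deriv]
    simp [← Int.cast_det, denom_ne_zero]
  have h := meromorphicOrderAt_comp_of_deriv_ne_zero
    (f := (G : ℍ → ℂ) ∘ ofComplex) hφa hd0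
  have hφτ : φ (τ : ℂ) = ((g • τ : ℍ) : ℂ) := by simp [hφ]
  rw [hφτ] at h
  rw [← h]
  congr 1
  funext w
  simp [hφ]

/-- `L(X₀(N))` as meromorphic functions of `g τ`. -/
def ptHom (g : SL(2, ℤ)) : modularFunctionFieldOver L N →+* MeroH :=
  (meroEval N g).comp (baseToCx ι N)

theorem ordAtH_ptHom_smul (g : SL(2, ℤ)) (τ : ℍ) (x : modularFunctionFieldOver L N) :
    ordAtH τ (ptHom ι N g x) = ordAtH (g • τ) (ptHom ι N 1 x) := by
  obtain ⟨A, B, -, h⟩ := exists_div_qExpWeak N (baseToCx ι N x)
  have key : ∀ G : weakMod (Gamma0 N),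
      ordAtH τ (meroEval N g ⟨qExpWeak N G, qExpL_mem_modularFunctionFieldCx N G.2⟩)
        = ordAtH (g • τ) (meroEval N 1 ⟨qExpWeak N G, qExpL_mem_modularFunctionFieldCx N G.2⟩) := by
    intro G
    rw [meroEval_qExpWeak, meroEval_qExpWeak, ordAtH_algebraMap, ordAtH_algebraMap]
    refine (meromorphicOrderAt_comp_smul g τ ⟨_, G.2.1⟩).trans ?_
    congr 1
    funext w
    simp [weakToHol]
  simp only [ptHom, RingHom.comp_apply, h, map_div₀]
  rw [div_eq_mul_inv, div_eq_mul_inv, AddValuation.map_mul, AddValuation.map_mul,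
    AddValuation.map_inv, AddValuation.map_inv, key A, key B]

theorem isFunctionFieldOne_modularFunctionFieldOver :
    FermatLib.Curve.IsFunctionFieldOne L (modularFunctionFieldOver L N) :=
  haveI := finiteDimensional_adjoin_jElem L N
  .of_transcendental (transcendental_jElem L N)

theorem hasPrincipalDivisors_modularFunctionFieldOver :
    HasPrincipalDivisors L (modularFunctionFieldOver L N) :=
  haveI := isFunctionFieldOne_modularFunctionFieldOver (L := L) N
  FermatLib.Curve.instHasPrincipalDivisorsOfIsFunctionFieldOne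

theorem isCurveOver_modularFunctionFieldOver :
    IsCurveOver L (modularFunctionFieldOver L N) :=
  haveI := isFunctionFieldOne_modularFunctionFieldOver (L := L) N
  haveI := finiteDimensional_adjoin_jElem L N
  haveI := charZero_of_injective_algebraMap (algebraMap ℚ L).injective
  FermatLib.Curve.isCurveOver_of_separating (transcendental_jElem L N)
    (fun _ => inferInstance)

theorem deg_eq_one_modularFunctionFieldOver [IsAlgClosed L]
    (v : Place L (modularFunctionFieldOver L N)) : v.deg = 1 :=
  haveI := isFunctionFieldOne_modularFunctionFieldOver (L := L) N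
  FermatLib.Curve.deg_eq_one_of_isFunctionFieldOne v

theorem exists_const_sub_mem_ordGE [IsAlgClosed L] (v : Place L (modularFunctionFieldOver L N))
    (f : modularFunctionFieldOver L N) (hf : f ∈ FermatLib.Curve.ordGE v 0) :
    ∃ a : L, f - algebraMap L _ a ∈ FermatLib.Curve.ordGE v 1 := by
  obtain ⟨c, hc⟩ := FermatLib.Curve.exists_const_sub v (deg_eq_one_modularFunctionFieldOver N v)
    (FermatLib.Curve.mem_ordGE.mp hf)
  refine ⟨c, FermatLib.Curve.mem_ordGE.mpr (hc.imp (fun h => sub_eq_zero.mpr h) (fun h => ?_))⟩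
  omega

/-- `∑ ord_v t ≤ ψ(N)` over zeros of `t = j - c`, or of `t = j⁻¹`. -/
theorem sum_ord_le_dedekindPsi [IsAlgClosed L] {t : modularFunctionFieldOver L N}
    (ht : IntermediateField.adjoin L {t} = IntermediateField.adjoin L {jElem L N})
    (s : Finset (Place L (modularFunctionFieldOver L N))) (hs : ∀ v ∈ s, 0 < v.ord t) :
    ∑ v ∈ s, v.ord t ≤ (dedekindPsi N : ℤ) := by
  haveI := isFunctionFieldOne_modularFunctionFieldOver (L := L) N
  rcases s.eq_empty_or_nonempty with rfl | ⟨v₀, hv₀⟩
  · simp
  have htr : Transcendental L t⁻¹ := FermatLib.Curve.transcendental_of_ord_ne_zero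
    (v := v₀) (by rw [v₀.ord_inv]; have := hs v₀ hv₀; omega)
  have hadj : IntermediateField.adjoin L {t⁻¹} = IntermediateField.adjoin L {jElem L N} := by
    rw [← ht]
    refine le_antisymm ?_ ?_
    · exact IntermediateField.adjoin_simple_le_iff.mpr
        (inv_mem (IntermediateField.mem_adjoin_simple_self L t))
    · refine IntermediateField.adjoin_simple_le_iff.mpr ?_
      simpa using inv_mem (IntermediateField.mem_adjoin_simple_self L t⁻¹)
  have h := FermatLib.Curve.sum_poles_ord_mul_deg htr
  simp only [deg_eq_one_modularFunctionFieldOver, Nat.cast_one, mul_one] at h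
  rw [show Module.finrank (IntermediateField.adjoin L {t⁻¹}) (modularFunctionFieldOver L N)
    = Module.finrank (IntermediateField.adjoin L {jElem L N}) (modularFunctionFieldOver L N) by rw [hadj]] at h
  rw [finrank_adjoin_jElem L N] at h
  rw [← h]
  refine le_trans (le_of_eq (Finset.sum_congr rfl fun v _ => ?_))
    (Finset.sum_le_sum_of_subset_of_nonneg (fun v hv => ?_) fun v hv _ => ?_)
  · rw [v.ord_inv, neg_neg]
  · rw [FermatLib.Curve.mem_poles, v.ord_inv]
    have := hs v hv
    omega
  · rw [FermatLib.Curve.mem_poles] at hv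
    omega

end FermatLib.Modular
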