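import Fermat.Agent.Modular.CorrBaseChange
import Fermat.Agent.Curve.ConstExt.PicMap

/-!
Constant field extensions commute with pullback and pushforward of divisors.
-/

set_option autoImplicit false
set_option linter.style.haveILetI false

noncomputable section

namespace FermatLib.Modular.Corr

open AlgebraicCurve FermatLib.Curve

variable {K L F F' E E' : Type*} [Field K] [Field L] [Algebra K L] [IsAlgClosed K]
  [Field F] [Field F'] [Field E] [Field E'] [Algebra K F] [Algebra K F'] [Algebra L E]
  [Algebra L E'] [IsFunctionField K F] [IsFunctionField K F'] [IsFunctionField L E]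
  [IsFunctionField L E']
variable {i : F →+* E} {i' : F' →+* E'} {φ : F →ₐ[K] F'} {φ' : E →ₐ[L] E'}

theorem restrict_placeExt_and_ramification (h : IsConstantExtension K L i)
    (h' : IsConstantExtension K L i') (hcomm : ∀ f, i' (φ f) = φ' (i f))
    (hφ : φ.toRingHom.IsIntegral) (hφ' : φ'.toRingHom.IsIntegral) (w : Place K F') :
    (h'.placeExt w).restrictAlong φ' hφ' = h.placeExt (w.restrictAlong φ hφ) ∧
      (h'.placeExt w).ramificationIndexAlong φ' = w.ramificationIndexAlong φ := by
  set v := w.restrictAlong φ hφ with hv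
  set W := (h'.placeExt w).restrictAlong φ' hφ' with hW
  set e : ℤ := (w.ramificationIndexAlong φ : ℤ) with he
  set e' : ℤ := ((h'.placeExt w).ramificationIndexAlong φ' : ℤ) with he'
  have key : ∀ f, e' * W.ord (i f) = e * v.ord f := fun f => by
    have h1 := Place.ord_restrictAlong φ' hφ' (h'.placeExt w) (i f)
    rw [← hcomm, h'.ord_placeExt, Place.ord_restrictAlong φ hφ] at h1
    exact h1.symm
  have hepos : 0 < e := by
    rw [he]
    letI := algebraAlong φ
    haveI := isScalarTower_along φ
    haveI := isIntegral_along φ hφ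
    exact_mod_cast w.ramificationIndex_pos (F := F)
  have he'pos : 0 < e' := by
    rw [he']
    letI := algebraAlong φ'
    haveI := isScalarTower_along φ'
    haveI := isIntegral_along φ' hφ'
    exact_mod_cast (h'.placeExt w).ramificationIndex_pos (F := E)
  obtain ⟨t, ht0, ht⟩ := exists_ord_eq_one v
  have hWne : W.ord (i t) ≠ 0 := fun h0 => by
    have := key t
    rw [h0, mul_zero, ht, mul_one] at this
    omega
  obtain ⟨v₀, hv₀⟩ := h.exists_eq_placeExt_of_ord_ne_zero hWne
  have key' : ∀ f, e' * v₀.ord f = e * v.ord f := fun f => by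
    rw [← key f, hv₀, h.ord_placeExt]
  have hveq : v₀ = v := by
    refine Place.ext (SetLike.ext fun f => ?_)
    rcases eq_or_ne f 0 with rfl | hf
    · simp
    rw [← ord_nonneg_iff_mem v₀ hf, ← ord_nonneg_iff_mem v hf]
    constructor
    · intro hh
      have := mul_nonneg he'pos.le hh
      rw [key' f] at this
      exact nonneg_of_mul_nonneg_right this hepos
    · intro hh
      have := mul_nonneg hepos.le hh
      rw [← key' f] at this
      exact nonneg_of_mul_nonneg_right this he'pos
  rw [hveq] at hv₀ key'
  refine ⟨hv₀, ?_⟩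
  have := key' t
  rw [ht, mul_one, mul_one] at this
  rw [he, he'] at this
  exact_mod_cast this

theorem divisorExt_pullbackAlong (h : IsConstantExtension K L i)
    (h' : IsConstantExtension K L i') (hcomm : ∀ f, i' (φ f) = φ' (i f))
    [HasPrincipalDivisors K F'] [HasPrincipalDivisors L E']
    (hφ : φ.toRingHom.IsIntegral) (hφ' : φ'.toRingHom.IsIntegral) (D : Divisor K F) :
    h'.divisorExt (Divisor.pullbackAlong φ hφ D)
      = Divisor.pullbackAlong φ' hφ' (h.divisorExt D) := by
  refine Finsupp.ext fun W => ?_
  rw [Divisor.pullbackAlong_apply]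
  by_cases hW : ∃ w, W = h'.placeExt w
  · obtain ⟨w, rfl⟩ := hW
    obtain ⟨h1, h2⟩ := restrict_placeExt_and_ramification h h' hcomm hφ hφ' w
    rw [h'.divisorExt_apply_placeExt, Divisor.pullbackAlong_apply, h1, h2,
      h.divisorExt_apply_placeExt]
  · rw [h'.divisorExt_apply_eq_zero _ (not_exists.mp hW), h.divisorExt_apply_eq_zero D, mul_zero]
    intro v hv
    apply hW
    obtain ⟨t, ht0, ht⟩ := exists_ord_eq_one v
    refine h'.exists_eq_placeExt_of_ord_ne_zero (f := φ t) ?_
    rw [hcomm, Place.ord_restrictAlong φ' hφ', hv, h.ord_placeExt, ht, mul_one]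
    letI := algebraAlong φ'
    haveI := isScalarTower_along φ'
    haveI := isIntegral_along φ' hφ'
    have := W.ramificationIndex_pos (F := E)
    show (W.ramificationIndex E : ℤ) ≠ 0
    omega

theorem divisorExt_pushforwardAlong [IsAlgClosed L] (h : IsConstantExtension K L i)
    (h' : IsConstantExtension K L i') (hcomm : ∀ f, i' (φ f) = φ' (i f))
    (hφ : φ.toRingHom.IsIntegral) (hφ' : φ'.toRingHom.IsIntegral) (D : Divisor K F') :
    h.divisorExt (Divisor.pushforwardAlong φ hφ D)
      = Divisor.pushforwardAlong φ' hφ' (h'.divisorExt D) := by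
  induction D using Finsupp.induction with
  | zero => simp
  | single_add w n D _ _ ih =>
      rw [map_add, map_add, map_add, map_add, ih, pushforwardAlong_single_of_deg hφ (deg_eq_one w),
        h'.divisorExt_single, pushforwardAlong_single_of_deg hφ' (deg_eq_one _),
        h.divisorExt_single, (restrict_placeExt_and_ramification h h' hcomm hφ hφ' w).1]

theorem divisorExt_correspondence [IsAlgClosed L] (h : IsConstantExtension K L i)
    (h' : IsConstantExtension K L i') {ψ : F →ₐ[K] F'} {ψ' : E →ₐ[L] E'}
    (hcomm : ∀ f, i' (φ f) = φ' (i f)) (hcomm' : ∀ f, i' (ψ f) = ψ' (i f))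
    [HasPrincipalDivisors K F'] [HasPrincipalDivisors L E']
    (hφ : φ.toRingHom.IsIntegral) (hφ' : φ'.toRingHom.IsIntegral)
    (hψ : ψ.toRingHom.IsIntegral) (hψ' : ψ'.toRingHom.IsIntegral) (D : Divisor K F) :
    h.divisorExt (Divisor.correspondence φ ψ hφ hψ D)
      = Divisor.correspondence φ' ψ' hφ' hψ' (h.divisorExt D) := by
  rw [Divisor.correspondence_apply, Divisor.correspondence_apply,
    divisorExt_pushforwardAlong h h' hcomm' hψ hψ', divisorExt_pullbackAlong h h' hcomm hφ hφ']

end FermatLib.Modular.Corr
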