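import Fermat.Agent.Modular.CorrKummer
import Fermat.Agent.Modular.CorrConstExt
import Fermat.Agent.Modular.Kummer.KummerBar
import Fermat.Agent.Galois.AttachKummer
import Fermat.Prelude.Thm_ModularCurve_coeffMap_qExpand

/-!
# Hecke compatibility of the Kummer isomorphism

`J₀(N)[n] ≅ Hom_cusp(Γ₀(N), μₙ)`, composed with conjugation by the Fricke matrix, carries the
Hecke operators on `J₀(N)` to the transfer operators.
-/

set_option autoImplicit false
set_option linter.style.haveILetI false
set_option synthInstance.maxHeartbeats 200000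

noncomputable section

open CongruenceSubgroup ModularCurve AlgebraicCurve
open scoped MatrixGroups

namespace FermatLib.Modular.KummerHecke

open FermatLib.Modular.Corr FermatLib.Modular.Kummer

attribute [local instance] Curve.qbarAlgebraComplex Corr.neZero_mul'

local notation "Qbar" => AlgebraicClosure ℚ

variable (N : ℕ) [NeZero N]

/-- The base change to `ℂ` commutes with the Hecke operators. -/
theorem pic0Map_heckeOperatorBar (ℓ : Nat.Primes) (x : JZero N) :
    (constExtBar N).pic0Map (heckeOperatorBar N ℓ x) =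
      heckeOperatorAlong ℂ N ℓ ((constExtBar N).pic0Map x) := by
  obtain ⟨D, rfl⟩ := Pic0.mk_surjective x
  haveI : HasPrincipalDivisors Qbar (fieldBar Qbar (N * ℓ)) :=
    (curveFacts Qbar).hasPrincipalDivisors (N * ℓ)
  haveI : HasPrincipalDivisors ℂ (fieldBar ℂ (N * ℓ)) :=
    (curveFacts ℂ).hasPrincipalDivisors (N * ℓ)
  obtain ⟨E, hE, hTE⟩ := heckeOperatorAlong_mk (levelFacts Qbar) (curveFacts Qbar) N ℓ D
  obtain ⟨E', hE', hTE'⟩ :=
    heckeOperatorAlong_mk (levelFacts ℂ) (curveFacts ℂ) N ℓ ((constExtBar N).degZeroExt D)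
  rw [heckeOperatorBar_apply, Curve.IsConstantExtension.pic0Map_mk]
  refine (congrArg (constExtBar N).pic0Map hTE).trans ?_
  rw [Curve.IsConstantExtension.pic0Map_mk, hTE']
  refine congrArg Pic0.mk (Subtype.ext ?_)
  rw [Curve.IsConstantExtension.coe_degZeroExt, hE, hE', Curve.IsConstantExtension.coe_degZeroExt]
  refine divisorExt_correspondence (constExtBar N) (constExtBar (N * ℓ)) ?_ ?_ _ _ _ _ _
  · intro f
    refine Subtype.ext ?_
    rw [Curve.coe_barToComplex, coe_barBeta, coe_barBeta, Curve.coe_barToComplex]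
    exact ModularCurve.coeffMap_qExpand _ _ _
  · intro f
    refine Subtype.ext ?_
    rw [Curve.coe_barToComplex, coe_barIncl, coe_barIncl, Curve.coe_barToComplex]

variable {N} {n : ℕ} [NeZero n]

/-- `φ ↦ φ ∘ (conjugation by the Fricke matrix)` on homomorphisms. -/
def conjWComp {A : Type} [AddCommGroup A] (φ : Additive (Gamma0 N) →+ A) :
    Additive (Gamma0 N) →+ A :=
  φ.comp (MonoidHom.toAdditive (conjW N))

omit [NeZero n] in
theorem conjWComp_apply {A : Type} [AddCommGroup A] (φ : Additive (Gamma0 N) →+ A)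
    (γ : Gamma0 N) : conjWComp φ (Additive.ofMul γ) = φ (Additive.ofMul (conjW N γ)) :=
  rfl

omit [NeZero n] in
theorem conjWComp_conjWComp {A : Type} [AddCommGroup A] (φ : Additive (Gamma0 N) →+ A) :
    conjWComp (conjWComp φ) = φ :=
  AddMonoidHom.ext fun γ => congrArg φ (congrArg Additive.ofMul (conjW_conjW N (Additive.toMul γ)))

omit [NeZero n] in
theorem trace_conjW (γ : Gamma0 N) :
    ((conjW N γ : SL(2, ℤ)) : Matrix (Fin 2) (Fin 2) ℤ).trace =
      ((γ : SL(2, ℤ)) : Matrix (Fin 2) (Fin 2) ℤ).trace := by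
  simp [conjW, conjWFun, Matrix.trace_fin_two, add_comm]

omit [NeZero n] in
theorem isCuspidalHom_conjWComp {A : Type} [AddCommGroup A] {φ : Additive (Gamma0 N) →+ A}
    (h : IsCuspidalHom φ) : IsCuspidalHom (conjWComp φ) := fun γ hγ => by
  rw [conjWComp_apply]
  exact h _ (by rwa [trace_conjW])

omit [NeZero n] in
/-- The transfer of characters is the Hecke operator conjugated by the Fricke matrix. -/
theorem corrChar_toChar (ℓ : Nat.Primes) (φ : Additive (Gamma0 N) →+ muC n) :
    corrChar ℓ (toChar φ) = toChar (conjWComp (heckeHomOp N ℤ (muC n) ℓ (conjWComp φ))) := by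
  refine MonoidHom.ext fun γ => ?_
  rw [toChar_apply, conjWComp_apply, heckeHomOp_apply, toMul_sum, SubmonoidClass.coe_finsetProd]
  rfl

/-- The Kummer map and the Hecke operators over `ℂ`. -/
theorem toChar_kummerCx_hecke (ℓ : Nat.Primes) (x y : Pic0.torsion ℂ (cxField N) n)
    (hy : (y : Pic0 ℂ (cxField N)) = heckeOperatorAlong ℂ N ℓ (x : Pic0 ℂ (cxField N))) :
    toChar (kummerCx y).1 = corrChar ℓ (toChar (kummerCx x).1) := by
  obtain ⟨D, hD⟩ := Pic0.mk_surjective (x : Pic0 ℂ (cxField N))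
  haveI : HasPrincipalDivisors ℂ (fieldBar ℂ (N * ℓ)) :=
    (curveFacts ℂ).hasPrincipalDivisors (N * ℓ)
  have hβ := finiteAlong_isIntegral (finiteAlong_heckeBetaBar (L := ℂ) (levelFacts ℂ) N ℓ)
  have hα := finiteAlong_isIntegral (finiteAlong_heckeAlphaBar (L := ℂ) (levelFacts ℂ) N ℓ)
  obtain ⟨E, hE, hTE⟩ := heckeOperatorAlong_mk (levelFacts ℂ) (curveFacts ℂ) N ℓ D
  have hyE : Pic0.mk E = (y : Pic0 ℂ (cxField N)) := by rw [hy, ← hD, ← hTE]
  refine (isKummerChar_kummerCx y hyE).unique
    (D' := (E : Divisor ℂ (cxField N))) ?_ (by rw [sub_self]; exact Divisor.principal.zero_mem)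
  have h := isKummerChar_correspondence ℓ (NeZero.ne n) hβ hα (isKummerChar_kummerCx x hD)
  rw [Divisor.correspondence_apply,
    pullbackAlong_congr (heckeBetaBar_eq_barBeta N ℓ) hβ
      (isIntegral_barBeta (levelFacts ℂ) ℓ dvd_rfl),
    pushforwardAlong_congr (heckeAlphaBar_eq_barIncl N ℓ) hα
      (isIntegral_barIncl (levelFacts ℂ) (dvd_mul_right N ℓ)),
    ← Divisor.correspondence_apply] at h
  rw [hE]
  exact h

variable (N n)

/-- The Kummer isomorphism composed with conjugation by the Fricke matrix. -/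
def heckeKummerEquiv :
    Pic0.torsion Qbar (modularFunctionFieldBar N) n ≃+ cuspidalHoms ℤ (Gamma0 N) (muC n) :=
  (kummerEquiv N n).trans
    { toFun := fun φ => ⟨conjWComp φ.1, isCuspidalHom_conjWComp φ.2⟩
      invFun := fun φ => ⟨conjWComp φ.1, isCuspidalHom_conjWComp φ.2⟩
      left_inv := fun _ => Subtype.ext (conjWComp_conjWComp _)
      right_inv := fun _ => Subtype.ext (conjWComp_conjWComp _)
      map_add' := fun _ _ => Subtype.ext (AddMonoidHom.add_comp _ _ _) }

theorem heckeKummerEquiv_hecke (ℓ : Nat.Primes)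
    (x y : Pic0.torsion Qbar (modularFunctionFieldBar N) n)
    (hy : (y : JZero N) = heckeOperatorBar N ℓ (x : JZero N)) :
    (heckeKummerEquiv N n y : Additive (Gamma0 N) →+ muC n) =
      heckeHomOp N ℤ (muC n) ℓ (heckeKummerEquiv N n x).1 := by
  show conjWComp (kummerEquiv N n y).1 = heckeHomOp N ℤ (muC n) ℓ (conjWComp (kummerEquiv N n x).1)
  rw [kummerEquiv_apply, kummerEquiv_apply]
  have h := toChar_kummerCx_hecke ℓ (barTorsionMap N n x) (barTorsionMap N n y) (by
    rw [coe_barTorsionMap, coe_barTorsionMap, hy]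
    exact pic0Map_heckeOperatorBar N ℓ x)
  rw [corrChar_toChar] at h
  rw [toChar_injective h, conjWComp_conjWComp]

/-- `μₙ(ℂ) ≅ ℤ/n`. -/
def muCEquiv : muC n ≃+ ZMod n :=
  ((ZMod.ringEquivCongr (natCard_muC (n := n))).symm.toAddEquiv.trans
    (zmodAddCyclicAddEquiv (G := muC n) inferInstance)).symm

end FermatLib.Modular.KummerHecke

namespace FermatLib.Modular

open KummerHecke

/-- The Kummer description of `J₀(N)[p ^ n]`, compatible with every Hecke operator. -/
theorem kummerHeckeEquiv (N p : ℕ) [NeZero N] (hp : p.Prime) :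
    FermatLib.Galois.Attach.KummerHeckeEquiv N p := fun n => by
  haveI : NeZero (p ^ n) := ⟨pow_ne_zero n hp.ne_zero⟩
  exact ⟨Kummer.muC (p ^ n), inferInstance, muCEquiv (p ^ n), heckeKummerEquiv N (p ^ n),
    heckeKummerEquiv_hecke N (p ^ n)⟩

end FermatLib.Modular
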