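import Mathlib.LinearAlgebra.Dual.Basis
import Mathlib.LinearAlgebra.Dual.Lemmas
import Mathlib.FieldTheory.IntermediateField.Adjoin.Basic
import Fermat.Prelude.Def_ModularCurve_LaurentCoeff

/-!
# Descent of coefficients for Laurent series

If a series with coefficients in `K` lies in the field generated over `L ⊇ K` by a field `F` of
series with coefficients in `K`, then it lies in `F`.
-/

set_option autoImplicit false

noncomputable section

open ModularCurve

namespace FermatLib.Modular

section

variable {K L : Type*} [Field K] [Field L] [Algebra K L]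

/-- Apply a linear functional coefficientwise. -/
def coeffFun (π : L →ₗ[K] K) (y : LaurentSeries L) : LaurentSeries K :=
  HahnSeries.map y π.toAddMonoidHom

@[simp]
theorem coeffFun_coeff (π : L →ₗ[K] K) (y : LaurentSeries L) (k : ℤ) :
    (coeffFun π y).coeff k = π (y.coeff k) := rfl

theorem algebraMap_mul_coeff (c : L) (y : LaurentSeries L) (k : ℤ) :
    (algebraMap L (LaurentSeries L) c * y).coeff k = c * y.coeff k := by
  rw [algebraMap_laurentSeries_eq_single, HahnSeries.coeff_single_mul, sub_zero]

/-- Series in the `L`-span of the image of `F`. -/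
theorem coeffFun_mem_of_mem_adjoin {F : IntermediateField K (LaurentSeries K)}
    (π : L →ₗ[K] K) {y : LaurentSeries L}
    (hy : y ∈ Algebra.adjoin L (⇑(coeffMap (algebraMap K L)) '' (F : Set (LaurentSeries K))))
    (x : LaurentSeries K) :
    coeffFun π y ∈ F ∧
      coeffFun π (coeffMap (algebraMap K L) x * y) = x * coeffFun π y := by
  rw [← Subalgebra.mem_toSubmodule, Algebra.adjoin_eq_span] at hy
  have hclos : (Submonoid.closure (⇑(coeffMap (algebraMap K L)) '' (F : Set (LaurentSeries K))) :
      Set (LaurentSeries L)) = ⇑(coeffMap (algebraMap K L)) '' (F : Set (LaurentSeries K)) := by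
    refine Set.Subset.antisymm ?_ Submonoid.subset_closure
    exact (Submonoid.closure_le (S := (F.toSubalgebra.toSubsemiring.toSubmonoid).map
      (coeffMap (algebraMap K L) : LaurentSeries K →* LaurentSeries L))).mpr Set.Subset.rfl
  rw [hclos] at hy
  induction hy using Submodule.span_induction generalizing π with
  | mem z hz =>
    obtain ⟨f, hf, rfl⟩ := hz
    have hc : ∀ g : LaurentSeries K,
        coeffFun π (coeffMap (algebraMap K L) g) = algebraMap K (LaurentSeries K) (π 1) * g := by
      intro g
      ext k
      rw [coeffFun_coeff, coeffMap_coeff, algebraMap_mul_coeff, Algebra.algebraMap_eq_smul_one,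
        map_smul, smul_eq_mul, mul_comm]
    rw [← map_mul, hc, hc]
    exact ⟨mul_mem (F.algebraMap_mem _) hf, mul_left_comm _ _ _⟩
  | zero =>
    have h0 : coeffFun π (0 : LaurentSeries L) = 0 := by ext k; simp
    rw [mul_zero, h0, mul_zero]
    exact ⟨zero_mem F, rfl⟩
  | add a b _ _ ha hb =>
    have hadd : ∀ u v : LaurentSeries L, coeffFun π (u + v) = coeffFun π u + coeffFun π v :=
      fun u v => by ext k; simp
    rw [mul_add, hadd, hadd, (ha π).2, (hb π).2, mul_add]
    exact ⟨add_mem (ha π).1 (hb π).1, rfl⟩
  | smul c a _ ha =>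
    have hs : ∀ u : LaurentSeries L, coeffFun π (algebraMap L (LaurentSeries L) c * u)
        = coeffFun (π.comp (LinearMap.mulLeft K c)) u := by
      intro u
      ext k
      rw [coeffFun_coeff, algebraMap_mul_coeff]
      rfl
    rw [Algebra.smul_def, mul_left_comm, hs, hs]
    exact ha (π.comp (LinearMap.mulLeft K c))

/-- **Descent**: a `K`-series in the `L`-field generated by `F` is in `F`. -/
theorem mem_of_coeffMap_mem_adjoin {F : IntermediateField K (LaurentSeries K)}
    {x : LaurentSeries K}
    (hx : coeffMap (algebraMap K L) x ∈ IntermediateField.adjoin L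
      (⇑(coeffMap (algebraMap K L)) '' (F : Set (LaurentSeries K)))) : x ∈ F := by
  obtain ⟨a, ha, b, hb, hab⟩ := IntermediateField.mem_adjoin_iff_div.mp hx
  by_cases hb0 : b = 0
  · rw [hb0, div_zero] at hab
    have hx0 : x = 0 := by
      ext k
      have h := congrArg (fun z : LaurentSeries L => z.coeff k) hab
      simpa using h
    exact hx0 ▸ zero_mem F
  · obtain ⟨k, hk⟩ : ∃ k, b.coeff k ≠ 0 := by
      by_contra! h
      exact hb0 (by ext k; simpa using h k)
    obtain ⟨π, hπ⟩ : ∃ π : L →ₗ[K] K, π (b.coeff k) ≠ 0 := by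
      by_contra! h
      exact hk ((Module.forall_dual_apply_eq_zero_iff K _).mp h)
    have hbπ : coeffFun π b ≠ 0 := fun h => hπ (by
      simpa using congrArg (fun z : LaurentSeries K => z.coeff k) h)
    rw [eq_div_iff hb0] at hab
    have h := (coeffFun_mem_of_mem_adjoin π hb x).2
    rw [hab] at h
    rw [eq_div_iff hbπ |>.mpr h.symm]
    exact div_mem (coeffFun_mem_of_mem_adjoin π ha x).1 (coeffFun_mem_of_mem_adjoin π hb x).1

/-- Linear independence over `K` survives to `L` after coefficient extension. -/
theorem linearIndependent_coeffMap {ι : Type*} {v : ι → LaurentSeries K}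
    (hv : LinearIndependent K v) :
    LinearIndependent L (fun i => coeffMap (algebraMap K L) (v i)) := by
  rw [linearIndependent_iff']
  intro s g hg i hi
  by_contra hgi
  obtain ⟨π, hπ⟩ : ∃ π : L →ₗ[K] K, π (g i) ≠ 0 := by
    by_contra! h
    exact hgi ((Module.forall_dual_apply_eq_zero_iff K _).mp h)
  refine hπ (linearIndependent_iff'.mp hv s (fun i => π (g i)) ?_ i hi)
  ext k
  have h := congrArg (fun z : LaurentSeries L => π (z.coeff k)) hg
  simp only [HahnSeries.coeff_sum, HahnSeries.coeff_smul, smul_eq_mul, coeffMap_coeff,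
    HahnSeries.coeff_zero, map_zero, map_sum] at h
  simp only [HahnSeries.coeff_sum, HahnSeries.coeff_smul, smul_eq_mul, HahnSeries.coeff_zero]
  rw [← h]
  refine Finset.sum_congr rfl fun j _ => ?_
  rw [mul_comm (g j), ← Algebra.smul_def, map_smul, smul_eq_mul, mul_comm]

end

/-- A `ℚ`-series in the base change of `F` is in `F`. -/
theorem mem_of_coeffEmb_mem_laurentBaseChange {L : Type*} [Field L] [Algebra ℚ L]
    {F : IntermediateField ℚ (LaurentSeries ℚ)} {x : LaurentSeries ℚ}
    (hx : coeffEmb L x ∈ laurentBaseChange L F) : x ∈ F :=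
  mem_of_coeffMap_mem_adjoin hx

end FermatLib.Modular

end
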