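import Mathlib.NumberTheory.ModularForms.CongruenceSubgroups
import Mathlib.GroupTheory.GroupAction.Quotient
import Mathlib.NumberTheory.ArithmeticFunction.Moebius
import Mathlib.Data.ZMod.QuotientRing
import Fermat.Prelude.Def_ModularCurve_GenusNumerics

/-!
# Cosets of `Γ₀(N)` in `SL(2, ℤ)`

`Gamma0Coset N` is the space of left cosets `g Γ₀(N)`, with the left action of `SL(2, ℤ)`.
Such a coset is determined by the first column of `g`, as a point of the projective line over
`ℤ/N`: two columns `(a, c)`, `(a', c')` give the same coset iff `a c' - c a' = 0` in `ℤ/N`,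
iff they differ by a unit. Right cosets `Γ₀(N) g` correspond to `g⁻¹ Γ₀(N)`.
-/

set_option autoImplicit false

noncomputable section

open CongruenceSubgroup
open scoped MatrixGroups

namespace FermatLib.Modular

/-- The left cosets `g Γ₀(N)`. -/
abbrev Gamma0Coset (N : ℕ) := SL(2, ℤ) ⧸ Gamma0 N

variable {N : ℕ}

/-- The first column of `g` modulo `N`. -/
def colMod (N : ℕ) (g : SL(2, ℤ)) : ZMod N × ZMod N := ((g 0 0 : ℤ), (g 1 0 : ℤ))

theorem neg_one_mem_Gamma0 : (-1 : SL(2, ℤ)) ∈ Gamma0 N := by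
  simp [Gamma0_mem]

theorem gamma0Coset_mk_eq_iff {g h : SL(2, ℤ)} :
    (g : Gamma0Coset N) = (h : Gamma0Coset N) ↔
      ((g 0 0 : ℤ) : ZMod N) * (h 1 0 : ℤ) - (g 1 0 : ℤ) * (h 0 0 : ℤ) = 0 := by
  rw [QuotientGroup.eq, Gamma0_mem]
  have e : (g⁻¹ * h) 1 0 = g 0 0 * h 1 0 - g 1 0 * h 0 0 := by
    simp [Matrix.SpecialLinearGroup.SL2_inv_expl, Matrix.mul_apply, Fin.sum_univ_two]
    ring
  rw [e]
  push_cast
  rfl

theorem gamma0Coset_mk_eq_iff_exists_unit {g h : SL(2, ℤ)} :
    (g : Gamma0Coset N) = (h : Gamma0Coset N) ↔ ∃ u : (ZMod N)ˣ, colMod N h = u • colMod N g := by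
  rw [gamma0Coset_mk_eq_iff]
  constructor
  · intro hc
    have hg : ((g 0 0 : ℤ) : ZMod N) * (g 1 1 : ℤ) - (g 0 1 : ℤ) * (g 1 0 : ℤ) = 1 := by
      exact_mod_cast congrArg (Int.cast : ℤ → ZMod N) ((Matrix.det_fin_two _).symm.trans g.2)
    have hh : ((h 0 0 : ℤ) : ZMod N) * (h 1 1 : ℤ) - (h 0 1 : ℤ) * (h 1 0 : ℤ) = 1 := by
      exact_mod_cast congrArg (Int.cast : ℤ → ZMod N) ((Matrix.det_fin_two _).symm.trans h.2)
    set a : ZMod N := ((g 0 0 : ℤ) : ZMod N)
    set c : ZMod N := ((g 1 0 : ℤ) : ZMod N)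
    set b : ZMod N := ((g 0 1 : ℤ) : ZMod N)
    set d : ZMod N := ((g 1 1 : ℤ) : ZMod N)
    set a' : ZMod N := ((h 0 0 : ℤ) : ZMod N)
    set c' : ZMod N := ((h 1 0 : ℤ) : ZMod N)
    set b' : ZMod N := ((h 0 1 : ℤ) : ZMod N)
    set d' : ZMod N := ((h 1 1 : ℤ) : ZMod N)
    refine ⟨⟨a' * d - c' * b, a * d' - c * b', ?_, ?_⟩, ?_⟩
    · linear_combination (a' * d' - b' * c') * hg + hh + (d * b' - b * d') * hc
    · linear_combination (a' * d' - b' * c') * hg + hh + (d * b' - b * d') * hc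
    · apply Prod.ext
      · show a' = (a' * d - c' * b) * a
        linear_combination b * hc - a' * hg
      · show c' = (a' * d - c' * b) * c
        linear_combination d * hc - c' * hg
  · rintro ⟨u, hu⟩
    have h0 : ((h 0 0 : ℤ) : ZMod N) = u * (g 0 0 : ℤ) := congrArg Prod.fst hu
    have h1 : ((h 1 0 : ℤ) : ZMod N) = u * (g 1 0 : ℤ) := congrArg Prod.snd hu
    rw [h0, h1]
    ring

theorem gamma0Coset_smul_eq_self_iff {x g : SL(2, ℤ)} :
    x • (g : Gamma0Coset N) = (g : Gamma0Coset N) ↔ g⁻¹ * x * g ∈ Gamma0 N := by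
  rw [MulAction.Quotient.smul_coe, eq_comm, QuotientGroup.eq, smul_eq_mul, mul_assoc]

theorem gamma0Coset_neg_one_smul (q : Gamma0Coset N) : (-1 : SL(2, ℤ)) • q = q := by
  induction q using QuotientGroup.induction_on with
  | H g =>
    rw [gamma0Coset_smul_eq_self_iff]
    have e : g⁻¹ * (-1) * g = -1 := by
      rw [mul_assoc, neg_one_mul, mul_neg, inv_mul_cancel]
    rw [e]
    exact neg_one_mem_Gamma0

theorem gamma0Coset_neg_smul (x : SL(2, ℤ)) (q : Gamma0Coset N) : (-x) • q = x • q := by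
  rw [← neg_one_mul x, mul_smul, gamma0Coset_neg_one_smul]

theorem isCoprime_colMod (g : SL(2, ℤ)) : IsCoprime (colMod N g).1 (colMod N g).2 := by
  refine ⟨((g 1 1 : ℤ) : ZMod N), -((g 0 1 : ℤ) : ZMod N), ?_⟩
  have hg : ((g 0 0 : ℤ) : ZMod N) * (g 1 1 : ℤ) - (g 0 1 : ℤ) * (g 1 0 : ℤ) = 1 := by
    exact_mod_cast congrArg (Int.cast : ℤ → ZMod N) ((Matrix.det_fin_two _).symm.trans g.2)
  simp only [colMod]
  linear_combination hg

/-- A number which is coprime to `gcd N c` can be moved by a multiple of `N` to become coprime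
to `c`. -/
theorem exists_add_mul_isCoprime (a : ℤ) (N : ℕ) {c : ℕ} (hc : c ≠ 0)
    (h : ∀ p : ℕ, p.Prime → p ∣ N → p ∣ c → ¬ (p : ℤ) ∣ a) :
    ∃ k : ℤ, IsCoprime (a + k * N) (c : ℤ) := by
  classical
  refine ⟨((∏ p ∈ c.primeFactors.filter (fun p : ℕ => ¬ (p : ℤ) ∣ a), p : ℕ) : ℤ), ?_⟩
  rw [Int.isCoprime_iff_gcd_eq_one]
  by_contra hne
  obtain ⟨p, hp, hpd⟩ := Nat.exists_prime_and_dvd hne
  have hz : (p : ℤ) ∣ _ := Int.natCast_dvd_natCast.mpr hpd
  have hpc : p ∣ c := Int.natCast_dvd_natCast.mp (hz.trans (Int.gcd_dvd_right _ _))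
  have hps := hz.trans (Int.gcd_dvd_left _ _)
  have hpZ : Prime (p : ℤ) := Nat.prime_iff_prime_int.mp hp
  by_cases hpa : (p : ℤ) ∣ a
  · have hkN := (dvd_add_right hpa).mp hps
    rcases hpZ.dvd_or_dvd hkN with hk | hN
    · rw [Int.natCast_dvd_natCast] at hk
      obtain ⟨q, hq, hpq⟩ := (Prime.dvd_finsetProd_iff hp.prime _).mp hk
      rw [Finset.mem_filter, Nat.mem_primeFactors] at hq
      exact hq.2 ((Nat.prime_dvd_prime_iff_eq hp hq.1.1).mp hpq ▸ hpa)
    · exact h p hp (Int.natCast_dvd_natCast.mp hN) hpc hpa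
  · have hmem : p ∈ c.primeFactors.filter (fun p : ℕ => ¬ (p : ℤ) ∣ a) :=
      Finset.mem_filter.mpr ⟨Nat.mem_primeFactors.mpr ⟨hp, hpc, hc⟩, hpa⟩
    exact hpa ((dvd_add_left (dvd_mul_of_dvd_left
      (Int.natCast_dvd_natCast.mpr (Finset.dvd_prod_of_mem _ hmem)) _)).mp hps)

/-- Every unimodular pair mod `N` is the first column of an element of `SL(2, ℤ)`. -/
theorem exists_colMod_eq [NeZero N] {a c : ZMod N} (h : IsCoprime a c) :
    ∃ g : SL(2, ℤ), colMod N g = (a, c) := by
  obtain ⟨x, y, hxy⟩ := h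
  obtain ⟨k, u, v, huv⟩ := exists_add_mul_isCoprime (a.val : ℤ) N
      (c := c.val + N) (by have := NeZero.pos N; omega) (fun p hp hpN hpc hpa => by
    have : Fact p.Prime := ⟨hp⟩
    have e := congrArg (ZMod.castHom hpN (ZMod p)) hxy
    rw [map_add, map_mul, map_mul, map_one] at e
    have ha : ZMod.castHom hpN (ZMod p) a = 0 := by
      rw [← ZMod.natCast_zmod_val a, map_natCast, ZMod.natCast_eq_zero_iff]
      exact_mod_cast hpa
    have hc : ZMod.castHom hpN (ZMod p) c = 0 := by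
      rw [← ZMod.natCast_zmod_val c, map_natCast, ZMod.natCast_eq_zero_iff]
      exact (Nat.dvd_add_left hpN).mp hpc
    rw [ha, hc, mul_zero, mul_zero, add_zero] at e
    exact zero_ne_one e)
  refine ⟨⟨!![(a.val : ℤ) + k * N, -v; ((c.val + N : ℕ) : ℤ), u], ?_⟩, ?_⟩
  · rw [Matrix.det_fin_two_of]
    linear_combination huv
  · simp [colMod]

/-- Unimodular pairs mod `N`; their quotient by scalars is the projective line over `ℤ/N`. -/
abbrev PrimPair (N : ℕ) := {v : ZMod N × ZMod N // IsCoprime v.1 v.2}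

theorem card_primPair_eq [NeZero N] :
    Nat.card (PrimPair N) = Nat.card (Gamma0Coset N) * N.totient := by
  classical
  let F : Gamma0Coset N × (ZMod N)ˣ → PrimPair N := fun x =>
    ⟨x.2 • colMod N x.1.out, by
      obtain ⟨s, t, hst⟩ := isCoprime_colMod (N := N) x.1.out
      refine ⟨s * ↑x.2⁻¹, t * ↑x.2⁻¹, ?_⟩
      show s * ↑x.2⁻¹ * (↑x.2 * _) + t * ↑x.2⁻¹ * (↑x.2 * _) = 1
      linear_combination hst + (s * (colMod N x.1.out).1 + t * (colMod N x.1.out).2) *
        Units.inv_mul x.2⟩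
  have hF : Function.Bijective F := by
    constructor
    · rintro ⟨q, u⟩ ⟨q', u'⟩ he
      have e : u • colMod N q.out = u' • colMod N q'.out := congrArg Subtype.val he
      have hq : q = q' := by
        rw [← QuotientGroup.out_eq' q, ← QuotientGroup.out_eq' q',
          gamma0Coset_mk_eq_iff_exists_unit]
        exact ⟨u'⁻¹ * u, by rw [mul_smul, e, inv_smul_smul]⟩
      subst hq
      obtain ⟨s, t, hst⟩ := isCoprime_colMod (N := N) q.out
      have h0 : (u : ZMod N) * (colMod N q.out).1 = u' * (colMod N q.out).1 := congrArg Prod.fst e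
      have h1 : (u : ZMod N) * (colMod N q.out).2 = u' * (colMod N q.out).2 := congrArg Prod.snd e
      exact Prod.ext rfl (Units.ext (by
        linear_combination s * h0 + t * h1 - ((u : ZMod N) - u') * hst))
    · rintro ⟨⟨a, c⟩, hac⟩
      obtain ⟨g, hg⟩ := exists_colMod_eq hac
      obtain ⟨u, hu⟩ := gamma0Coset_mk_eq_iff_exists_unit.mp
        (QuotientGroup.out_eq' (g : Gamma0Coset N))
      exact ⟨(g, u), Subtype.ext (hu.symm.trans hg)⟩
  rw [← Nat.card_eq_of_bijective F hF, Nat.card_prod, Nat.card_eq_fintype_card (α := (ZMod N)ˣ),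
    ZMod.card_units_eq_totient]

open ArithmeticFunction in
/-- `ψ` as a Dirichlet convolution. -/
theorem exists_isMultiplicative_eq_dedekindPsi :
    ∃ f : ArithmeticFunction ℕ, f.IsMultiplicative ∧ ∀ n, f n = ModularCurve.dedekindPsi n := by
  classical
  let q : ArithmeticFunction ℕ := ⟨fun d => if Squarefree d then 1 else 0, by simp⟩
  have hq : q.IsMultiplicative := by
    refine ⟨by simp [q], fun {m n} h => ?_⟩
    simp only [q, ArithmeticFunction.coe_mk, Nat.squarefree_mul h]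
    split_ifs <;> simp_all
  refine ⟨q * ArithmeticFunction.id, hq.mul isMultiplicative_id, fun n => ?_⟩
  rw [mul_apply, Nat.sum_divisorsAntidiagonal (f := fun x y => q x * ArithmeticFunction.id y),
    ModularCurve.dedekindPsi, Finset.sum_filter]
  simp [q]

theorem dedekindPsi_pos [NeZero N] : 0 < ModularCurve.dedekindPsi N := by
  unfold ModularCurve.dedekindPsi
  refine Finset.sum_pos (fun d hd => ?_)
    ⟨1, Finset.mem_filter.mpr ⟨Nat.one_mem_divisors.mpr (NeZero.ne N), squarefree_one⟩⟩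
  have hdvd := Nat.dvd_of_mem_divisors (Finset.mem_filter.mp hd).1
  exact Nat.div_pos (Nat.le_of_dvd (NeZero.pos N) hdvd) (Nat.pos_of_dvd_of_pos hdvd (NeZero.pos N))

theorem dedekindPsi_mul {m n : ℕ} (h : m.Coprime n) :
    ModularCurve.dedekindPsi (m * n) = ModularCurve.dedekindPsi m * ModularCurve.dedekindPsi n := by
  obtain ⟨f, hf, he⟩ := exists_isMultiplicative_eq_dedekindPsi
  rw [← he, ← he, ← he, hf.map_mul_of_coprime h]

theorem dedekindPsi_prime_pow {p k : ℕ} (hp : p.Prime) :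
    ModularCurve.dedekindPsi (p ^ (k + 1)) = p ^ (k + 1) + p ^ k := by
  unfold ModularCurve.dedekindPsi
  rw [Finset.sum_filter, Nat.sum_divisors_prime_pow hp, Finset.sum_range_succ',
    Finset.sum_range_succ']
  have hzero : ∀ i : ℕ, ¬ Squarefree (p ^ (i + 1 + 1)) := fun i hs => by
    have := hs p ⟨p ^ i, by ring⟩
    exact hp.ne_one (Nat.isUnit_iff.mp this)
  simp only [hzero, if_false, Finset.sum_const_zero, zero_add, pow_zero, pow_one, hp.squarefree,
    squarefree_one, if_true, Nat.div_one]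
  rw [pow_succ, Nat.mul_div_cancel _ hp.pos]
  ring

theorem dedekindPsi_prime {p : ℕ} (hp : p.Prime) : ModularCurve.dedekindPsi p = p + 1 := by
  have := dedekindPsi_prime_pow (k := 0) hp
  simpa using this

theorem card_primPair_mul {m n : ℕ} [NeZero m] [NeZero n] (h : m.Coprime n) :
    Nat.card (PrimPair (m * n)) = Nat.card (PrimPair m) * Nat.card (PrimPair n) := by
  rw [← Nat.card_prod]
  let e := ZMod.chineseRemainder h
  refine Nat.card_congr ?_
  refine
    { toFun := fun v => (⟨((e v.1.1).1, (e v.1.2).1), ?_⟩, ⟨((e v.1.1).2, (e v.1.2).2), ?_⟩)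
      invFun := fun w => ⟨(e.symm (w.1.1.1, w.2.1.1), e.symm (w.1.1.2, w.2.1.2)), ?_⟩
      left_inv := fun v => by simp
      right_inv := fun w => by simp }
  · exact v.2.map ((RingHom.fst _ _).comp e.toRingHom)
  · exact v.2.map ((RingHom.snd _ _).comp e.toRingHom)
  · obtain ⟨s, t, hst⟩ := w.1.2
    obtain ⟨s', t', hst'⟩ := w.2.2
    refine ⟨e.symm (s, s'), e.symm (t, t'), ?_⟩
    rw [← map_mul, ← map_mul, ← map_add, Prod.mk_mul_mk, Prod.mk_mul_mk, Prod.mk_add_mk,
      hst, hst', ← Prod.one_eq_mk, map_one]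

theorem card_primPair_prime_pow {p k : ℕ} (hp : p.Prime) :
    Nat.card (PrimPair (p ^ (k + 1))) = (p ^ (k + 1) + p ^ k) * (p ^ (k + 1)).totient := by
  classical
  have : NeZero (p ^ (k + 1)) := ⟨pow_ne_zero _ hp.ne_zero⟩
  set M := p ^ (k + 1) with hM
  have hiff : ∀ v : ZMod M × ZMod M, IsCoprime v.1 v.2 ↔ ¬ (¬ IsUnit v.1 ∧ ¬ IsUnit v.2) := by
    intro v
    constructor
    · rintro ⟨s, t, hst⟩ ⟨h1, h2⟩
      have hu : ∀ a : ZMod M, ¬ IsUnit a → p ∣ a.val := fun a ha => by
        by_contra hpa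
        apply ha
        rw [← ZMod.natCast_zmod_val a, ZMod.isUnit_iff_coprime]
        exact Nat.Coprime.pow_right _ ((hp.coprime_iff_not_dvd.mpr hpa).symm)
      have : Fact p.Prime := ⟨hp⟩
      have hpM : p ∣ M := dvd_pow_self p (Nat.succ_ne_zero k)
      have e := congrArg (ZMod.castHom hpM (ZMod p)) hst
      rw [map_add, map_mul, map_mul, map_one] at e
      have h0 : ∀ a : ZMod M, ¬ IsUnit a → ZMod.castHom hpM (ZMod p) a = 0 := fun a ha => by
        rw [← ZMod.natCast_zmod_val a, map_natCast, ZMod.natCast_eq_zero_iff]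
        exact hu a ha
      rw [h0 _ h1, h0 _ h2, mul_zero, mul_zero, add_zero] at e
      exact zero_ne_one e
    · intro h
      rcases not_and_or.mp h with h1 | h1 <;> rw [not_not] at h1
      · obtain ⟨u, hu⟩ := h1
        exact ⟨↑u⁻¹, 0, by rw [← hu]; simp⟩
      · obtain ⟨u, hu⟩ := h1
        exact ⟨0, ↑u⁻¹, by rw [← hu]; simp⟩
  have hnu : Fintype.card {a : ZMod M // ¬ IsUnit a} = M - M.totient := by
    rw [Fintype.card_subtype_compl, ZMod.card, ← ZMod.card_units_eq_totient M]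
    congr 1
    exact (Fintype.card_of_bijective (f := fun u : (ZMod M)ˣ => (⟨(u : ZMod M), u.isUnit⟩ : {a : ZMod M // IsUnit a}))
      ⟨fun u v h => Units.ext (congrArg Subtype.val h), fun a => ⟨a.2.unit, rfl⟩⟩).symm
  have h2 : Nat.card (PrimPair M) = M * M - (M - M.totient) * (M - M.totient) := by
    rw [Nat.card_congr (Equiv.subtypeEquivRight hiff), Nat.card_eq_fintype_card,
      Fintype.card_subtype_compl, Fintype.card_prod, ZMod.card]
    congr 1
    rw [Fintype.card_congr (Equiv.subtypeProdEquivProd (p := fun a : ZMod M => ¬ IsUnit a)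
      (q := fun a : ZMod M => ¬ IsUnit a)), Fintype.card_prod, hnu]
  have h3 : M.totient = p ^ k * (p - 1) := Nat.totient_prime_pow_succ hp k
  have h4 : M = p ^ k * p := pow_succ p k
  have h5 : M - M.totient = p ^ k := by
    rw [h3, h4, ← Nat.mul_sub, Nat.sub_sub_self hp.one_le, mul_one]
  rw [h2, h5, h3, h4, Nat.mul_self_sub_mul_self_eq, ← mul_tsub_one]

/-- `[SL(2, ℤ) : Γ₀(N)] = ψ(N)`. -/
theorem index_Gamma0 [NeZero N] : (Gamma0 N).index = ModularCurve.dedekindPsi N := by
  have hJ : ∀ M : ℕ, M ≠ 0 →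
      Nat.card (PrimPair M) = ModularCurve.dedekindPsi M * M.totient := by
    intro M
    induction M using Nat.recOnPrimeCoprime with
    | zero => intro h; exact absurd rfl h
    | prime_pow p n hp =>
      intro _
      cases n with
      | zero =>
        simp only [pow_zero, ModularCurve.dedekindPsi_one, Nat.totient_one, mul_one]
        have : Subsingleton (PrimPair 1) := inferInstance
        have : Nonempty (PrimPair 1) := ⟨⟨(0, 0), ⟨0, 0, Subsingleton.elim _ _⟩⟩⟩
        exact Nat.card_unique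
      | succ k => rw [card_primPair_prime_pow hp, dedekindPsi_prime_pow hp]
    | coprime a b _ _ hab iha ihb =>
      intro h
      have : NeZero a := ⟨left_ne_zero_of_mul h⟩
      have : NeZero b := ⟨right_ne_zero_of_mul h⟩
      rw [card_primPair_mul hab, iha (NeZero.ne a), ihb (NeZero.ne b), dedekindPsi_mul hab,
        Nat.totient_mul hab]
      ring
  exact Nat.eq_of_mul_eq_mul_right (Nat.totient_pos.mpr (NeZero.pos N))
    ((card_primPair_eq (N := N)).symm.trans (hJ N (NeZero.ne N)))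

theorem card_gamma0Coset [NeZero N] :
    Nat.card (Gamma0Coset N) = ModularCurve.dedekindPsi N := by
  rw [← index_Gamma0]
  rfl

end FermatLib.Modular
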