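import Fermat.Agent.Modular.QSeriesJ

/-!
# `j (d τ)`: invariance, behaviour at the cusps, `q`-expansion, distinctness of conjugates
-/

set_option autoImplicit false

noncomputable section

open UpperHalfPlane Filter ModularCurve CongruenceSubgroup Asymptotics
open scoped MatrixGroups ModularForm Manifold Topology Real

namespace FermatLib.Modular

local notation "Δ" => ModularForm.discriminant

theorem tendsto_qExpansion_coeff_zero {G : ℍ → ℂ} (hG : G ∈ qMero) (hb : IsBoundedAtImInfty G) :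
    Tendsto G atImInfty (𝓝 ((qExpansion 1 G).coeff 0)) := by
  have ha := analyticAt_cuspFunction_of_mem hG hb
  have hp := periodic_comp_ofComplex_of_vadd hG.1
  rw [UpperHalfPlane.qExpansion_coeff_zero one_pos ha hp,
    ← UpperHalfPlane.cuspFunction_apply_zero one_pos ha hp]
  exact (ha.continuousAt.tendsto.comp (qParam_tendsto_atImInfty one_pos)).congr fun τ =>
    UpperHalfPlane.eq_cuspFunction τ one_ne_zero hp

theorem norm_qParam_one (τ : ℍ) :
    ‖Function.Periodic.qParam 1 (τ : ℂ)‖ = Real.exp (-2 * π * τ.im) := by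
  simp [Function.Periodic.qParam, Complex.norm_exp]

/-- `|Δ(τ)| ~ e^{-2π Im τ}`. -/
theorem tendsto_norm_discriminant :
    Tendsto (fun τ : ℍ => ‖Δ τ‖ / Real.exp (-2 * π * τ.im)) atImInfty (𝓝 1) := by
  have h := ModularForm.tendsto_atImInfty_tprod_one_sub_eta_q_pow.norm
  rw [norm_one] at h
  refine h.congr fun τ => ?_
  rw [ModularForm.discriminant_eq_q_prod, norm_mul, norm_qParam_one,
    mul_div_cancel_left₀ _ (Real.exp_ne_zero _)]

/-- `|j(τ)| ~ e^{2π Im τ}`. -/
theorem tendsto_norm_jFun :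
    Tendsto (fun τ : ℍ => ‖jFun τ‖ * Real.exp (-2 * π * τ.im)) atImInfty (𝓝 1) := by
  have h4m : (⇑ModularForm.E₄) ∈ qMero :=
    mem_qMero.mpr ⟨apply_one_vadd_of_levelOne ModularForm.E₄, ModularFormClass.holo _, 0,
      by simpa using ModularFormClass.bdd_at_infty ModularForm.E₄⟩
  have hE := ((tendsto_qExpansion_coeff_zero h4m (ModularFormClass.bdd_at_infty _)).norm.pow 3).div
    tendsto_norm_discriminant one_ne_zero
  rw [qExpansion_E₄, PowerSeries.coeff_map, PowerSeries.coeff_zero_eq_constantCoeff,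
    constantCoeff_eisenstein4, map_one, norm_one, one_pow, div_one] at hE
  refine hE.congr fun τ => ?_
  rw [Pi.div_apply, jFun, norm_div, norm_pow]
  field_simp

theorem isBigO_discriminant_exp :
    (Δ : ℍ → ℂ) =O[atImInfty] fun τ : ℍ => Real.exp (-2 * π * τ.im) := by
  refine IsBigO.of_bound 2 ?_
  filter_upwards [tendsto_norm_discriminant.eventually_le_const (show (1 : ℝ) < 2 by norm_num)]
    with τ hτ
  rw [div_le_iff₀ (Real.exp_pos _)] at hτ
  rwa [Real.norm_of_nonneg (Real.exp_pos _).le]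

/-- The slope of an upper triangular matrix. -/
theorem im_upperTriangularGL_smul {a b e : ℝ} (ha : 0 < a) (he : 0 < e) (τ : ℍ) :
    (ModularForm.upperTriangularGL a b e (mul_pos ha he).ne' • τ).im = a / e * τ.im := by
  have hdet : 0 < (ModularForm.upperTriangularGL a b e (mul_pos ha he).ne').det.val := by
    rw [Matrix.GeneralLinearGroup.val_det_apply, ModularForm.val_upperTriangularGL,
      Matrix.det_fin_two_of]
    simpa using mul_pos ha he
  rw [← UpperHalfPlane.coe_im, UpperHalfPlane.coe_smul_of_det_pos hdet]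
  simp [UpperHalfPlane.num, UpperHalfPlane.denom, div_eq_mul_inv, ← Complex.ofReal_inv]
  ring

theorem coe_upperTriangularGL_smul {a b e : ℝ} (ha : 0 < a) (he : 0 < e) (τ : ℍ) :
    ((ModularForm.upperTriangularGL a b e (mul_pos ha he).ne' • τ : ℍ) : ℂ)
      = ((a : ℂ) * τ + b) / e := by
  have hdet : 0 < (ModularForm.upperTriangularGL a b e (mul_pos ha he).ne').det.val := by
    rw [Matrix.GeneralLinearGroup.val_det_apply, ModularForm.val_upperTriangularGL,
      Matrix.det_fin_two_of]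
    simpa using mul_pos ha he
  rw [UpperHalfPlane.coe_smul_of_det_pos hdet]
  simp [UpperHalfPlane.num, UpperHalfPlane.denom]

theorem tendsto_upperTriangularGL_smul {a b e : ℝ} (ha : 0 < a) (he : 0 < e) :
    Tendsto (fun τ : ℍ => ModularForm.upperTriangularGL a b e (mul_pos ha he).ne' • τ)
      atImInfty atImInfty := by
  refine tendsto_smul_atImInfty ?_
  simp

/-- Meromorphy at `i∞` is kept under upper triangular substitutions. -/
theorem isBoundedAtImInfty_comp_triangular {G : ℍ → ℂ} {m : ℕ}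
    (hG : IsBoundedAtImInfty (G * Δ ^ m)) {a b e : ℝ} (ha : 0 < a) (he : 0 < e) {k : ℕ}
    (hk : a / e ≤ k) :
    IsBoundedAtImInfty
      ((fun τ => G (ModularForm.upperTriangularGL a b e (mul_pos ha he).ne' • τ)) * Δ ^ (k * m)) := by
  set g := ModularForm.upperTriangularGL a b e (mul_pos ha he).ne'
  have h1 : IsBoundedAtImInfty ((G * Δ ^ m) ∘ fun τ => g • τ) :=
    hG.comp_tendsto (tendsto_upperTriangularGL_smul ha he)
  have h2 : ((Δ : ℍ → ℂ) ^ k) =O[atImInfty] fun τ => Δ (g • τ) := by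
    refine ((isBigO_discriminant_exp.pow k).trans ?_).trans
      (ModularForm.exp_isBigO_discriminant.comp_tendsto (tendsto_upperTriangularGL_smul ha he))
    refine IsBigO.of_bound 1 (Eventually.of_forall fun τ => ?_)
    simp only [Function.comp_apply, one_mul]
    rw [Real.norm_of_nonneg (pow_nonneg (Real.exp_pos _).le _),
      Real.norm_of_nonneg (Real.exp_pos _).le, ← Real.exp_nat_mul, im_upperTriangularGL_smul ha he]
    refine Real.exp_le_exp.mpr ?_
    nlinarith [mul_le_mul_of_nonneg_right hk τ.im_pos.le, Real.pi_pos]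
  have h3 : IsBoundedAtImInfty (fun τ => Δ τ ^ k / Δ (g • τ)) :=
    (div_isBoundedUnder_of_isBigO h2).isBigO_one ℝ
  have h4 : IsBoundedAtImInfty ((fun τ => Δ τ ^ k / Δ (g • τ)) ^ m) :=
    pow_mem (show (fun τ => Δ τ ^ k / Δ (g • τ)) ∈ boundedAtImInftySubalgebra ℂ from h3) m
  have h := BoundedAtFilter.mul h1 h4
  rwa [show (fun τ => G (g • τ)) * Δ ^ (k * m)
      = ((G * Δ ^ m) ∘ fun τ => g • τ) * (fun τ => Δ τ ^ k / Δ (g • τ)) ^ m by
    ext τ
    simp only [Pi.mul_apply, Pi.pow_apply, Function.comp_apply, div_pow, pow_mul]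
    field_simp [ModularForm.discriminant_ne_zero (g • τ)]]

/-! ### Reduction of `diag (d, 1) γ` to triangular form -/

theorem exists_triangular (d : ℕ) [NeZero d] (γ : SL(2, ℤ)) :
    ∃ (a b e : ℕ) (ha : 0 < (a : ℝ)) (he : 0 < (e : ℝ)), a * e = d ∧ b < e ∧
      ((a : ℤ) ∣ γ 1 0) ∧ ∀ τ : ℍ, jScaleFun d (γ • τ)
        = jFun (ModularForm.upperTriangularGL a b e (mul_pos ha he).ne' • τ) := by
  have hd : (d : ℤ) ≠ 0 := by exact_mod_cast NeZero.ne d
  have hdet := γ.2
  rw [Matrix.det_fin_two] at hdet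
  set A : ℤ := γ 0 0
  set B : ℤ := γ 0 1
  set C : ℤ := γ 1 0
  set D : ℤ := γ 1 1
  set g : ℕ := Int.gcd (d * A) C with hg
  have hgz : ((g : ℤ)) ∣ (d : ℤ) * A ∧ (g : ℤ) ∣ C := ⟨Int.gcd_dvd_left _ _, Int.gcd_dvd_right _ _⟩
  have hgd : (g : ℤ) ∣ (d : ℤ) := by
    have h := dvd_sub (hgz.1.mul_right D) (hgz.2.mul_left ((d : ℤ) * B))
    rwa [show (d : ℤ) * A * D - (d : ℤ) * B * C = d by linear_combination (d : ℤ) * hdet] at h
  have hg0 : g ≠ 0 := by
    intro h0
    rw [h0] at hgd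
    exact hd (by simpa using hgd)
  obtain ⟨e, he⟩ := hgd
  obtain ⟨P, hP⟩ := hgz.1
  obtain ⟨Q, hQ⟩ := hgz.2
  have hbez := Int.gcd_eq_gcd_ab ((d : ℤ) * A) C
  set u := Int.gcdA ((d : ℤ) * A) C
  set v := Int.gcdB ((d : ℤ) * A) C
  rw [← hg] at hbez
  have hepos : 0 < e := by
    have : (0 : ℤ) < (g : ℤ) * e := he ▸ (by exact_mod_cast Nat.pos_of_ne_zero (NeZero.ne d))
    nlinarith [(Int.natCast_nonneg g)]
  set b₀ : ℤ := u * (d * B) + v * D
  set n : ℤ := -(b₀ / e)
  have hgz0 : (g : ℤ) ≠ 0 := by exact_mod_cast hg0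
  have hPQ : u * P + v * Q = 1 := by
    refine mul_left_cancel₀ hgz0 ?_
    linear_combination -hbez - u * hP - v * hQ
  have hlow : P * D - Q * ((d : ℤ) * B) = e := by
    refine mul_left_cancel₀ hgz0 ?_
    linear_combination (d : ℤ) * hdet + he - D * hP + (d : ℤ) * B * hQ
  let δ : SL(2, ℤ) := ⟨!![u - n * Q, v + n * P; -Q, P], by
    rw [Matrix.det_fin_two_of]; linear_combination hPQ⟩
  obtain ⟨e', rfl⟩ := Int.eq_ofNat_of_zero_le hepos.le
  obtain ⟨b, hb⟩ := Int.eq_ofNat_of_zero_le (Int.emod_nonneg b₀ hepos.ne')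
  refine ⟨g, b, e', by exact_mod_cast Nat.pos_of_ne_zero hg0, by exact_mod_cast hepos, ?_, ?_,
    hgz.2, fun τ => ?_⟩
  · exact_mod_cast he.symm
  · have := Int.emod_lt_of_pos b₀ hepos
    omega
  rw [jScaleFun_apply, ← jFun_smul δ]
  congr 1
  apply UpperHalfPlane.ext
  rw [coe_upperTriangularGL_smul (a := (g : ℝ)) (e := (e' : ℝ))
      (by exact_mod_cast Nat.pos_of_ne_zero hg0) (by exact_mod_cast hepos),
    UpperHalfPlane.coe_specialLinearGroup_apply,
    ModularForm.coe_heckeDiagMatrix_smul (NeZero.ne d), UpperHalfPlane.coe_specialLinearGroup_apply]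
  have hden : ((C : ℤ) : ℂ) * (τ : ℂ) + ((D : ℤ) : ℂ) ≠ 0 := by
    have := UpperHalfPlane.denom_ne_zero γ τ
    simpa [UpperHalfPlane.denom] using this
  have hb' : (b₀ : ℤ) + n * (e' : ℤ) = (b : ℤ) := by
    rw [← hb, Int.emod_def]; ring
  simp only [algebraMap_int_eq, eq_intCast, δ]
  simp only [Matrix.of_apply, Matrix.cons_val', Matrix.cons_val_zero, Matrix.cons_val_one,
    Matrix.cons_val_fin_one, Int.cast_neg, Complex.ofReal_intCast, Complex.ofReal_natCast,
    Complex.ofReal_neg]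
  push_cast
  obtain ⟨w, hw⟩ : ∃ w : ℂ, w * ((C : ℂ) * τ + D) = (A : ℂ) * τ + B :=
    ⟨((A : ℂ) * τ + B) / ((C : ℂ) * τ + D), div_mul_cancel₀ _ hden⟩
  rw [show ((A : ℂ) * τ + B) / ((C : ℂ) * τ + D) = w from (eq_div_iff hden |>.mpr hw).symm]
  have hlowC : (P : ℂ) * D - Q * ((d : ℂ) * B) = e' := by exact_mod_cast hlow
  have hPC : ((d : ℂ) * A) = (g : ℂ) * P := by exact_mod_cast hP
  have hQC : (C : ℂ) = (g : ℂ) * Q := by exact_mod_cast hQ
  have hbC : (u : ℂ) * (d * B) + v * D + n * e' = b := by exact_mod_cast hb'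
  have hPQC : (u : ℂ) * P + v * Q = 1 := by exact_mod_cast hPQ
  have he0 : (e' : ℂ) ≠ 0 := by exact_mod_cast hepos.ne'
  have hbot : -(Q : ℂ) * ((d : ℂ) * w) + P = (e' : ℂ) / (C * τ + D) := by
    rw [eq_div_iff hden]
    linear_combination (-(Q : ℂ) * d) * hw + hlowC + (τ : ℂ) * ((P : ℂ) * hQC - (Q : ℂ) * hPC)
  rw [hbot, div_div_eq_mul_div, div_left_inj' he0]
  linear_combination ((u : ℂ) - n * Q) * d * hw + hbC + (n : ℂ) * hlowC
    + (τ : ℂ) * ((g : ℂ) * hPQC + ((u : ℂ) - n * Q) * hPC + ((v : ℂ) + n * P) * hQC)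

theorem jScaleFun_smul_of_mem {d : ℕ} [NeZero d] {γ : SL(2, ℤ)} (hdvd : (d : ℤ) ∣ γ 1 0) (τ : ℍ) :
    jScaleFun d (γ • τ) = jScaleFun d τ := by
  obtain ⟨C', hC⟩ := hdvd
  have hdet := γ.2
  rw [Matrix.det_fin_two] at hdet
  let δ : SL(2, ℤ) := ⟨!![γ 0 0, (d : ℤ) * γ 0 1; C', γ 1 1], by
    rw [Matrix.det_fin_two_of]; linear_combination hdet + γ 0 1 * hC⟩
  rw [jScaleFun_apply, jScaleFun_apply, ← jFun_smul δ (ModularForm.heckeDiagMatrix d • τ)]
  congr 1
  apply UpperHalfPlane.ext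
  rw [ModularForm.coe_heckeDiagMatrix_smul (NeZero.ne d),
    UpperHalfPlane.coe_specialLinearGroup_apply, UpperHalfPlane.coe_specialLinearGroup_apply,
    ModularForm.coe_heckeDiagMatrix_smul (NeZero.ne d)]
  have hCC : ((γ 1 0 : ℤ) : ℂ) = (d : ℂ) * (C' : ℂ) := by exact_mod_cast hC
  simp only [algebraMap_int_eq, eq_intCast, δ, Matrix.of_apply, Matrix.cons_val',
    Matrix.cons_val_zero, Matrix.cons_val_one, Matrix.cons_val_fin_one, Complex.ofReal_intCast]
  push_cast
  rw [hCC]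
  ring

theorem Gamma0_mem_iff_dvd {N : ℕ} {γ : SL(2, ℤ)} : γ ∈ Gamma0 N ↔ (N : ℤ) ∣ γ 1 0 := by
  rw [Gamma0_mem, ZMod.intCast_zmod_eq_zero_iff_dvd]

theorem mdifferentiable_jScaleFun (d : ℕ) : MDiff (jScaleFun d) :=
  mdifferentiable_jFun.comp (UpperHalfPlane.mdifferentiable_smul
    (ModularForm.det_heckeDiagMatrix_pos d))

theorem jScaleFun_mem_weakMod {N d : ℕ} [NeZero N] (hd : d ∣ N) :
    jScaleFun d ∈ weakMod (Gamma0 N) := by
  haveI : NeZero d := ⟨fun h => NeZero.ne N (Nat.eq_zero_of_zero_dvd (h ▸ hd))⟩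
  refine mem_weakMod.mpr ⟨mdifferentiable_jScaleFun d, fun γ hγ τ => ?_, fun γ => ?_⟩
  · exact jScaleFun_smul_of_mem
      ((Int.natCast_dvd_natCast.mpr hd).trans (Gamma0_mem_iff_dvd.mp hγ)) τ
  · obtain ⟨a, b, e, ha, he, hae, _, _, h⟩ := exists_triangular d γ
    have hj : IsBoundedAtImInfty (jFun * (Δ : ℍ → ℂ) ^ 1) := by
      have h4 : IsBoundedAtImInfty (⇑ModularForm.E₄) := ModularFormClass.bdd_at_infty _
      rw [pow_one, show jFun * (Δ : ℍ → ℂ)
        = ⇑ModularForm.E₄ * ⇑ModularForm.E₄ * ⇑ModularForm.E₄ by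
          ext τ; simp only [Pi.mul_apply, jFun_mul_discriminant]; ring]
      exact BoundedAtFilter.mul (BoundedAtFilter.mul h4 h4) h4
    refine ⟨d * 1, ?_⟩
    rw [show (fun τ => jScaleFun d (γ • τ)) = _ from funext h]
    refine isBoundedAtImInfty_comp_triangular hj ha he ?_
    have h1 : (1 : ℝ) ≤ e := by exact_mod_cast (by exact_mod_cast he : 0 < e)
    rw [div_le_iff₀ he, ← hae, Nat.cast_mul]
    nlinarith [mul_le_mul_of_nonneg_left (show (1 : ℝ) ≤ (e : ℝ) * e by nlinarith) ha.le]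

theorem slope_eq_of_jFun_comp_eq {a b e a' b' e' : ℝ} (ha : 0 < a) (he : 0 < e) (ha' : 0 < a')
    (he' : 0 < e')
    (h : ∀ τ : ℍ, jFun (ModularForm.upperTriangularGL a b e (mul_pos ha he).ne' • τ) =
      jFun (ModularForm.upperTriangularGL a' b' e' (mul_pos ha' he').ne' • τ)) :
    a / e = a' / e' := by
  have h1 := tendsto_norm_jFun.comp (tendsto_upperTriangularGL_smul (b := b) ha he)
  have h2 := tendsto_norm_jFun.comp (tendsto_upperTriangularGL_smul (b := b') ha' he')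
  have h3 := h1.div h2 one_ne_zero
  rw [div_one] at h3
  have h4 : Tendsto (fun τ : ℍ => Real.exp (2 * π * (a' / e' - a / e) * τ.im)) atImInfty (𝓝 1) := by
    refine h3.congr' ?_
    filter_upwards [h2.eventually_ne one_ne_zero] with τ hτ
    simp only [Function.comp_apply] at hτ
    simp only [Pi.div_apply, Function.comp_apply, h τ, im_upperTriangularGL_smul ha he,
      im_upperTriangularGL_smul ha' he']
    rw [mul_div_mul_left _ _ (left_ne_zero_of_mul hτ), ← Real.exp_sub]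
    ring_nf
  have him : Tendsto (fun τ : ℍ => τ.im) atImInfty atTop := tendsto_comap
  have h5 := ((Real.continuousAt_log one_ne_zero).tendsto.comp h4).mul him.inv_tendsto_atTop
  rw [Real.log_one, zero_mul] at h5
  have h6 : Tendsto (fun _ : ℍ => 2 * π * (a' / e' - a / e)) atImInfty (𝓝 0) :=
    h5.congr fun τ => by
      simp [Real.log_exp, mul_assoc, τ.im_pos.ne']
  have h7 := tendsto_nhds_unique h6 tendsto_const_nhds
  nlinarith [Real.pi_pos, h7]

/-- The conjugates `j (N γ τ)` are pairwise distinct over the cosets `Γ₀(N) γ`. -/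
theorem jScaleFun_smul_eq_iff (N : ℕ) [NeZero N] (γ δ : SL(2, ℤ)) :
    (∀ τ : ℍ, jScaleFun N (γ • τ) = jScaleFun N (δ • τ)) ↔ γ * δ⁻¹ ∈ Gamma0 N := by
  constructor
  · intro h
    obtain ⟨a, b, e, ha, he, hae, _, hdvd, hj⟩ := exists_triangular N (γ * δ⁻¹)
    have hN : (0 : ℝ) < N := by exact_mod_cast Nat.pos_of_ne_zero (NeZero.ne N)
    have hs := slope_eq_of_jFun_comp_eq (b := (b : ℝ)) (b' := 0) ha he hN one_pos fun τ => by
      rw [← hj τ, mul_smul, h, smul_inv_smul, jScaleFun_apply]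
      congr 1
      apply UpperHalfPlane.ext
      rw [ModularForm.coe_heckeDiagMatrix_smul (NeZero.ne N), coe_upperTriangularGL_smul hN one_pos]
      simp
    have hN' : (N : ℝ) = a * e := by exact_mod_cast hae.symm
    have he1 : (e : ℝ) = 1 := by
      rw [div_one, hN', div_eq_iff he.ne'] at hs
      have h2 : (e : ℝ) * e = 1 :=
        mul_left_cancel₀ ha.ne' (by linear_combination hs.symm)
      nlinarith
    have he1' : e = 1 := by exact_mod_cast he1
    rw [Gamma0_mem_iff_dvd]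
    rw [he1', mul_one] at hae
    rwa [hae] at hdvd
  · intro h τ
    rw [show γ • τ = (γ * δ⁻¹) • (δ • τ) by rw [mul_smul, inv_smul_smul],
      jScaleFun_smul_of_mem (Gamma0_mem_iff_dvd.mp h)]

/-! ### `q`-expansion of `G (d τ)` -/

theorem comp_diag_mem_qMero {G : ℍ → ℂ} (hG : G ∈ qMero) (d : ℕ) [NeZero d] :
    (fun τ => G (ModularForm.heckeDiagMatrix d • τ)) ∈ qMero := by
  have hper : ∀ (n : ℕ) (z : ℍ), G ((n : ℝ) +ᵥ z) = G z := by
    intro n z
    induction n with
    | zero => simp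
    | succ n ih =>
      rw [Nat.cast_succ, add_comm, add_vadd, hG.1, ih]
  refine mem_qMero.mpr ⟨fun τ => ?_, hG.2.1.comp (UpperHalfPlane.mdifferentiable_smul
    (ModularForm.det_heckeDiagMatrix_pos d)), ?_⟩
  · rw [← hper d (ModularForm.heckeDiagMatrix d • τ)]
    congr 1
    apply UpperHalfPlane.ext
    simp [ModularForm.coe_heckeDiagMatrix_smul (NeZero.ne d), mul_add]
  · obtain ⟨m, hm⟩ := hG.2.2
    have hd : (0 : ℝ) < d := by exact_mod_cast Nat.pos_of_ne_zero (NeZero.ne d)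
    refine ⟨d * m, ?_⟩
    have h := isBoundedAtImInfty_comp_triangular (b := 0) hm hd one_pos (k := d) (by simp)
    simpa [ModularForm.heckeDiagMatrix, NeZero.ne d] using h

theorem isBoundedAtImInfty_comp_diag {G : ℍ → ℂ} (hb : IsBoundedAtImInfty G) (d : ℕ) :
    IsBoundedAtImInfty (fun τ => G (ModularForm.heckeDiagMatrix d • τ)) := by
  refine hb.comp_tendsto (tendsto_smul_atImInfty ?_)
  rcases eq_or_ne d 0 with rfl | hd
  · simp
  · simp [ModularForm.val_heckeDiagMatrix hd]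

theorem qExpansion_coeff_eq_of_hasSum {G : ℍ → ℂ} (ha : AnalyticAt ℂ (cuspFunction 1 G) 0)
    {c : ℕ → ℂ} (hc : ∀ τ : ℍ, HasSum (fun m => c m • Function.Periodic.qParam 1 (τ : ℂ) ^ m) (G τ))
    (m : ℕ) : c m = (qExpansion 1 G).coeff m := by
  have h1 := (UpperHalfPlane.hasFPowerSeriesOnBall_cuspFunction one_pos ha hc).hasFPowerSeriesAt
  have h2 := congr_arg (FormalMultilinearSeries.coeff · m)
    (h1.eq_formalMultilinearSeries ha.hasFPowerSeriesAt)
  simpa [UpperHalfPlane.qExpansion_coeff, FormalMultilinearSeries.coeff_ofScalars, div_eq_mul_inv,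
    mul_comm] using h2

theorem qExpL_comp_diag_of_bounded {G : ℍ → ℂ} (hG : G ∈ qMero) (hb : IsBoundedAtImInfty G)
    (d : ℕ) [NeZero d] :
    qExpL (fun τ => G (ModularForm.heckeDiagMatrix d • τ)) = qExpand ℂ d (qExpL G) := by
  have hd := Nat.pos_of_ne_zero (NeZero.ne d)
  have hmem := comp_diag_mem_qMero hG d
  have hbd := isBoundedAtImInfty_comp_diag hb d
  let c : ℕ → ℂ := fun m => if d ∣ m then (qExpansion 1 G).coeff (m / d) else 0
  have hc : ∀ m, c m = (qExpansion 1 fun τ => G (ModularForm.heckeDiagMatrix d • τ)).coeff m := by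
    intro m
    refine qExpansion_coeff_eq_of_hasSum (c := c)
      (analyticAt_cuspFunction_of_mem hmem hbd) (fun τ => ?_) m
    clear m
    have h := UpperHalfPlane.hasSum_qExpansion one_pos (periodic_comp_ofComplex_of_vadd hG.1) hG.2.1
      hb (ModularForm.heckeDiagMatrix d • τ)
    have hinj : Function.Injective (fun n : ℕ => d * n) := fun x y hxy =>
      Nat.eq_of_mul_eq_mul_left hd hxy
    have hvan : ∀ m : ℕ, m ∉ Set.range (fun n : ℕ => d * n) →
        c m • Function.Periodic.qParam 1 (τ : ℂ) ^ m = 0 := by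
      intro m hm
      have : ¬ d ∣ m := fun ⟨q, hq⟩ => hm ⟨q, hq.symm⟩
      simp [c, this]
    refine (hinj.hasSum_iff hvan).mp ?_
    refine h.congr_fun fun m => ?_
    have hq : Function.Periodic.qParam 1
        ((ModularForm.heckeDiagMatrix d • τ : ℍ) : ℂ) = Function.Periodic.qParam 1 (τ : ℂ) ^ d := by
      rw [ModularForm.coe_heckeDiagMatrix_smul (NeZero.ne d), Function.Periodic.qParam,
        Function.Periodic.qParam, ← Complex.exp_nat_mul]
      congr 1
      ring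
    rw [hq, ← pow_mul, Function.comp_apply,
      show c (d * m) = (qExpansion 1 G).coeff m by simp [c, Nat.mul_div_cancel_left m hd]]
  rw [qExpL_of_bounded hmem hbd, qExpL_of_bounded hG hb]
  ext k
  by_cases hk : (d : ℤ) ∣ k
  · obtain ⟨k', rfl⟩ := hk
    rw [qExpand_coeff_mul]
    rcases le_or_gt 0 k' with hk' | hk'
    · lift k' to ℕ using hk'
      rw [← Nat.cast_mul, HahnSeries.ofPowerSeries_apply_coeff,
        HahnSeries.ofPowerSeries_apply_coeff, ← hc]
      simp [c, Nat.mul_div_cancel_left k' hd]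
    · rw [ofPowerSeries_coeff_of_neg _ hk',
        ofPowerSeries_coeff_of_neg _ (mul_neg_of_pos_of_neg (by exact_mod_cast hd) hk')]
  · rw [qExpand_coeff_of_not_dvd d _ hk]
    rcases le_or_gt 0 k with hk' | hk'
    · lift k to ℕ using hk'
      rw [HahnSeries.ofPowerSeries_apply_coeff, ← hc]
      have : ¬ d ∣ k := fun h => hk (Int.natCast_dvd_natCast.mpr h)
      simp [c, this]
    · rw [ofPowerSeries_coeff_of_neg _ hk']

theorem qExpL_comp_diag {G : ℍ → ℂ} (hG : G ∈ qMero) (d : ℕ) [NeZero d] :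
    qExpL (fun τ => G (ModularForm.heckeDiagMatrix d • τ)) = qExpand ℂ d (qExpL G) := by
  obtain ⟨m, hm⟩ := hG.2.2
  have hΔ := qExpL_comp_diag_of_bounded discriminant_mem_qMero
    ModularForm.discriminant_isZeroAtImInfty.isBoundedAtImInfty d
  have hΔm := comp_diag_mem_qMero discriminant_mem_qMero d
  have hGd := comp_diag_mem_qMero hG d
  have h := qExpL_comp_diag_of_bounded (mul_mem hG (pow_mem discriminant_mem_qMero m)) hm d
  rw [show (fun τ => (G * (Δ : ℍ → ℂ) ^ m) (ModularForm.heckeDiagMatrix d • τ)) =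
      (fun τ => G (ModularForm.heckeDiagMatrix d • τ)) *
        (fun τ => Δ (ModularForm.heckeDiagMatrix d • τ)) ^ m from rfl,
    qExpL_mul hGd (pow_mem hΔm m), qExpL_pow hΔm, hΔ,
    qExpL_mul hG (pow_mem discriminant_mem_qMero m), qExpL_pow discriminant_mem_qMero,
    map_mul, map_pow] at h
  refine mul_right_cancel₀ (pow_ne_zero m ?_) h
  refine (map_ne_zero_iff _ (qExpand_injective d)).mpr ?_
  exact fun h0 => ModularForm.discriminant_ne_zero UpperHalfPlane.I
    (congrFun ((qExpL_eq_zero_iff discriminant_mem_qMero).mp h0) _)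

theorem coeffEmb_qExpand (L : Type*) [Field L] [Algebra ℚ L] (d : ℕ) [NeZero d]
    (x : LaurentSeries ℚ) : coeffEmb L (qExpand ℚ d x) = qExpand L d (coeffEmb L x) := by
  ext k
  by_cases hk : (d : ℤ) ∣ k
  · obtain ⟨k', rfl⟩ := hk
    simp
  · simp [qExpand_coeff_of_not_dvd d _ hk]

/-- `q`-expansion of `j (d τ)`. -/
theorem qExpL_jScaleFun (d : ℕ) [NeZero d] :
    qExpL (jScaleFun d) = coeffEmb ℂ (qExpand ℚ d jq) := by
  rw [coeffEmb_qExpand, ← qExpL_jFun]
  exact qExpL_comp_diag (weakMod_Gamma0_le_qMero 1 (jFun_mem_weakMod _)) d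

end FermatLib.Modular

end
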