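import Mathlib.Analysis.Analytic.Uniqueness
import Mathlib.Analysis.Analytic.IsolatedZeros
import Mathlib.Analysis.Complex.CauchyIntegral
import Fermat.Agent.Modular.Gamma0Coset
import Fermat.Agent.Modular.JScale

/-!
# Conjugates over the cosets of `Γ₀(N)` and level one functions
-/

set_option autoImplicit false

noncomputable section

open UpperHalfPlane Filter ModularCurve CongruenceSubgroup
open scoped MatrixGroups ModularForm Manifold Topology

namespace FermatLib.Modular

local notation "Δ" => ModularForm.discriminant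

/-- Holomorphic functions on `ℍ` have no zero divisors. -/
theorem eq_zero_or_eq_zero_of_mul_eq_zero_mdifferentiable {f g : ℍ → ℂ} (hf : MDiff f)
    (hg : MDiff g) (h : f * g = 0) : f = 0 ∨ g = 0 := by
  have hf' : AnalyticOnNhd ℂ (f ∘ ofComplex) {z : ℂ | 0 < z.im} :=
    (UpperHalfPlane.mdifferentiable_iff.mp hf).analyticOnNhd isOpen_upperHalfPlaneSet
  have hg' : AnalyticOnNhd ℂ (g ∘ ofComplex) {z : ℂ | 0 < z.im} :=
    (UpperHalfPlane.mdifferentiable_iff.mp hg).analyticOnNhd isOpen_upperHalfPlaneSet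
  have hz : ∀ z ∈ {z : ℂ | 0 < z.im}, (f ∘ ofComplex) z * (g ∘ ofComplex) z = 0 :=
    fun z _ => congrFun h _
  rcases hf'.eq_zero_or_eq_zero_of_mul_eq_zero hg' hz
    (convex_halfSpace_im_gt 0).isPreconnected with h' | h'
  · exact Or.inl (funext fun τ => by simpa using h' (τ : ℂ) τ.im_pos)
  · exact Or.inr (funext fun τ => by simpa using h' (τ : ℂ) τ.im_pos)

instance weakMod_noZeroDivisors (Γ : Subgroup SL(2, ℤ)) : NoZeroDivisors (weakMod Γ) where
  eq_zero_or_eq_zero_of_mul_eq_zero {a b} h := by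
    rcases eq_zero_or_eq_zero_of_mul_eq_zero_mdifferentiable (mem_weakMod.mp a.2).1
      (mem_weakMod.mp b.2).1 (congrArg Subtype.val h) with h' | h'
    · exact Or.inl (Subtype.ext h')
    · exact Or.inr (Subtype.ext h')

instance weakMod_isDomain (Γ : Subgroup SL(2, ℤ)) : IsDomain (weakMod Γ) :=
  haveI : Nontrivial (weakMod Γ) := ⟨⟨0, 1, fun h => zero_ne_one (α := ℂ)
    (congrFun (congrArg Subtype.val h) UpperHalfPlane.I)⟩⟩
  NoZeroDivisors.to_isDomain _

/-! ### Level one -/

theorem eq_const_of_mem_weakMod_top_of_bounded {G : ℍ → ℂ} (hG : G ∈ weakMod ⊤)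
    (hb : IsBoundedAtImInfty G) : ∃ c : ℂ, G = fun _ => c := by
  have hinv : ∀ γ : SL(2, ℤ), G ∣[(0 : ℤ)] γ = G := by
    intro γ
    funext τ
    rw [ModularForm.SL_slash_apply, neg_zero, zpow_zero, mul_one]
    exact hG.2.1 γ (Subgroup.mem_top γ) τ
  let f : ModularForm 𝒮ℒ 0 :=
    { toFun := G
      slash_action_eq' := fun _ ⟨γ, hγ⟩ => hγ ▸ hinv γ
      holo' := hG.1
      bdd_at_cusps' := fun {c} hc => by
        rw [Subgroup.IsArithmetic.isCusp_iff_isCusp_SL2Z] at hc
        rw [OnePoint.isBoundedAt_iff_forall_SL2Z hc]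
        intro γ _
        rw [hinv γ]
        exact hb }
  obtain ⟨c, hc⟩ := ModularFormClass.levelOne_weight_zero_const f
  exact ⟨c, hc⟩

/-- A weakly holomorphic modular function of level one is a polynomial in `j`. -/
theorem exists_polynomial_of_mem_weakMod_top {G : ℍ → ℂ} (hG : G ∈ weakMod ⊤) :
    ∃ P : Polynomial ℂ, G = Polynomial.aeval jFun P := by
  obtain ⟨m, hm⟩ := hG.2.2 1
  simp only [one_smul] at hm
  induction m generalizing G with
  | zero =>
    obtain ⟨c, hc⟩ := eq_const_of_mem_weakMod_top_of_bounded hG (by simpa using hm)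
    exact ⟨Polynomial.C c, by rw [hc, Polynomial.aeval_C]; rfl⟩
  | succ m ih =>
    set H := G * (Δ : ℍ → ℂ) ^ (m + 1) with hH
    have hHmem : H ∈ qMero :=
      mul_mem (weakMod_le_qMero (Subgroup.mem_top _) hG) (pow_mem discriminant_mem_qMero _)
    set c := (qExpansion 1 H).coeff 0
    set G' := G - algebraMap ℂ (ℍ → ℂ) c * jFun ^ (m + 1) with hG'
    have hG'mem : G' ∈ weakMod ⊤ :=
      sub_mem hG (mul_mem (Subalgebra.algebraMap_mem _ c) (pow_mem (jFun_mem_weakMod _) _))
    have hE : Tendsto (fun τ => ModularForm.E₄ τ) atImInfty (𝓝 1) := by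
      have h := tendsto_qExpansion_coeff_zero (G := ⇑ModularForm.E₄)
        (mem_qMero.mpr ⟨apply_one_vadd_of_levelOne ModularForm.E₄, ModularFormClass.holo _, 0,
          by simpa using ModularFormClass.bdd_at_infty ModularForm.E₄⟩)
        (ModularFormClass.bdd_at_infty _)
      simpa [qExpansion_E₄] using h
    have h0 : IsZeroAtImInfty (G' * (Δ : ℍ → ℂ) ^ (m + 1)) := by
      have h := (tendsto_qExpansion_coeff_zero hHmem hm).sub
        (((hE.pow 3).pow (m + 1)).const_mul c)
      rw [one_pow, one_pow, mul_one, sub_self] at h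
      refine h.congr fun τ => ?_
      rw [← jFun_mul_discriminant τ, mul_pow]
      simp only [hH, hG', Pi.mul_apply, Pi.sub_apply, Pi.pow_apply, Pi.algebraMap_apply,
        Algebra.algebraMap_self, RingHom.id_apply]
      ring
    have hmem' : G' * (Δ : ℍ → ℂ) ^ (m + 1) ∈ qMero :=
      mul_mem (weakMod_le_qMero (Subgroup.mem_top _) hG'mem) (pow_mem discriminant_mem_qMero _)
    have hdec := UpperHalfPlane.IsZeroAtImInfty.exp_decay_atImInfty (h := 1) h0 one_pos
      (periodic_comp_ofComplex_of_vadd hmem'.1) (mem_qMero.mp hmem').2.1 h0.isBoundedAtImInfty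
    have hb' : IsBoundedAtImInfty (G' * (Δ : ℍ → ℂ) ^ m) := by
      have h := hdec.trans (by simpa using ModularForm.exp_isBigO_discriminant)
      refine ((Asymptotics.div_isBoundedUnder_of_isBigO h).isBigO_one ℝ).congr' ?_ EventuallyEq.rfl
      filter_upwards with τ
      simp only [Pi.mul_apply, Pi.pow_apply]
      field_simp [ModularForm.discriminant_ne_zero τ]
      ring
    obtain ⟨P, hP⟩ := ih hG'mem hb'
    refine ⟨P + Polynomial.C c * Polynomial.X ^ (m + 1), ?_⟩
    rw [map_add, map_mul, map_pow, Polynomial.aeval_C, Polynomial.aeval_X, ← hP, hG',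
      sub_add_cancel]

/-! ### Conjugates over cosets -/

theorem comp_smul_mem_weakMod_bot {Γ : Subgroup SL(2, ℤ)} {G : ℍ → ℂ} (hG : G ∈ weakMod Γ)
    (γ : SL(2, ℤ)) : (fun τ => G (γ • τ)) ∈ weakMod ⊥ := by
  refine mem_weakMod.mpr ⟨?_, fun h hh τ => ?_, fun δ => ?_⟩
  · have hcoe : (fun τ : ℍ => γ • τ) = fun τ : ℍ =>
        ((γ : SL(2, ℤ)) : GL (Fin 2) ℝ) • τ := rfl
    have hs : MDiff (fun τ : ℍ => γ • τ) := by
      rw [hcoe]
      exact UpperHalfPlane.mdifferentiable_smul (by simp)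
    exact hG.1.comp hs
  · rw [Subgroup.mem_bot] at hh
    rw [hh, one_smul]
  · obtain ⟨m, hm⟩ := hG.2.2 (γ * δ)
    exact ⟨m, by simpa only [mul_smul] using hm⟩

variable {N : ℕ}

/-- The translate `G ∘ g⁻¹` attached to the coset `g Γ₀(N)`. -/
def cosetFun (G : ℍ → ℂ) (q : Gamma0Coset N) : ℍ → ℂ := fun τ => G (q.out⁻¹ • τ)

theorem cosetFun_mk {G : ℍ → ℂ} (hG : G ∈ weakMod (Gamma0 N)) (g : SL(2, ℤ)) (τ : ℍ) :
    cosetFun G (g : Gamma0Coset N) τ = G (g⁻¹ • τ) := by
  obtain ⟨h, hh⟩ := QuotientGroup.mk_out_eq_mul (Gamma0 N) g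
  rw [cosetFun, hh, mul_inv_rev, mul_smul, hG.2.1 _ (inv_mem h.2)]

theorem cosetFun_mk_one {G : ℍ → ℂ} (hG : G ∈ weakMod (Gamma0 N)) :
    cosetFun G ((1 : SL(2, ℤ)) : Gamma0Coset N) = G := by
  funext τ
  rw [cosetFun_mk hG, inv_one, one_smul]

theorem cosetFun_smul {G : ℍ → ℂ} (hG : G ∈ weakMod (Gamma0 N)) (q : Gamma0Coset N)
    (γ : SL(2, ℤ)) (τ : ℍ) : cosetFun G q (γ • τ) = cosetFun G (γ⁻¹ • q) τ := by
  induction q using QuotientGroup.induction_on with
  | H g =>
    rw [cosetFun_mk hG, MulAction.Quotient.smul_coe, cosetFun_mk hG]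
    simp [mul_smul]

theorem cosetFun_mem_bot {G : ℍ → ℂ} (hG : G ∈ weakMod (Gamma0 N)) (q : Gamma0Coset N) :
    cosetFun G q ∈ weakMod ⊥ :=
  comp_smul_mem_weakMod_bot hG _

/-- Evaluation at a point. -/
def evalWeak (Γ : Subgroup SL(2, ℤ)) (τ : ℍ) : weakMod Γ →+* ℂ :=
  (Pi.evalRingHom (fun _ : ℍ => ℂ) τ).comp (weakMod Γ).val.toRingHom

@[simp]
theorem evalWeak_apply (Γ : Subgroup SL(2, ℤ)) (τ : ℍ) (G : weakMod Γ) :
    evalWeak Γ τ G = (G : ℍ → ℂ) τ := rfl

/-- A polynomial with invariant coefficients is a polynomial in `j`. -/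
theorem exists_biPolynomial {Q : Polynomial (weakMod ⊥)} {n : ℕ} (hdeg : Q.degree < n)
    (hinv : ∀ (γ : SL(2, ℤ)) (τ : ℍ), Q.map (evalWeak ⊥ (γ • τ)) = Q.map (evalWeak ⊥ τ)) :
    ∃ R : Polynomial (Polynomial ℂ), R.degree < n ∧
      ∀ τ : ℍ, R.map (Polynomial.evalRingHom (jFun τ)) = Q.map (evalWeak ⊥ τ) := by
  have hc : ∀ k, ∃ P : Polynomial ℂ, (Q.coeff k : ℍ → ℂ) = Polynomial.aeval jFun P := by
    intro k
    refine exists_polynomial_of_mem_weakMod_top
      (mem_weakMod.mpr ⟨(Q.coeff k).2.1, fun γ _ τ => ?_, (Q.coeff k).2.2.2⟩)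
    simpa [Polynomial.coeff_map] using congrArg (fun p => p.coeff k) (hinv γ τ)
  choose P hP using hc
  refine ⟨∑ k ∈ Finset.range n, Polynomial.monomial k (P k), ?_, fun τ => ?_⟩
  · refine (Polynomial.degree_sum_le _ _).trans_lt ((Finset.sup_lt_iff ?_).mpr fun k hk => ?_)
    · exact WithBot.bot_lt_coe n
    · exact (Polynomial.degree_monomial_le k _).trans_lt (by exact_mod_cast Finset.mem_range.mp hk)
  · ext k
    rw [Polynomial.coeff_map, Polynomial.coeff_map, Polynomial.finsetSum_coeff, map_sum]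
    simp only [Polynomial.coeff_monomial, apply_ite, map_zero, Finset.sum_ite_eq',
      Finset.mem_range]
    split_ifs with hk
    · rw [evalWeak_apply, hP k, Polynomial.aeval_fn_apply, Polynomial.coe_evalRingHom,
        Polynomial.coe_aeval_eq_eval]
    · rw [Polynomial.coeff_eq_zero_of_degree_lt (hdeg.trans_le (by exact_mod_cast not_lt.mp hk)),
        map_zero]

variable [NeZero N]

theorem jScale_mem : jScaleFun N ∈ weakMod (Gamma0 N) := jScaleFun_mem_weakMod dvd_rfl

theorem cosetFun_jScale_injective :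
    Function.Injective (cosetFun (N := N) (jScaleFun N)) := by
  intro q r h
  induction q using QuotientGroup.induction_on with
  | H g =>
    induction r using QuotientGroup.induction_on with
    | H g' =>
      rw [QuotientGroup.eq]
      have h' := (jScaleFun_smul_eq_iff N g⁻¹ g'⁻¹).mp fun τ => by
        rw [← cosetFun_mk jScale_mem, ← cosetFun_mk jScale_mem, h]
      simpa using h'

theorem card_coset_eq (N : ℕ) [NeZero N] [Fintype (Gamma0Coset N)] :
    Fintype.card (Gamma0Coset N) = dedekindPsi N := by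
  rw [← Nat.card_eq_fintype_card, card_gamma0Coset]

theorem aeval_jFun_eq_zero_imp {P : Polynomial ℂ} (hP : Polynomial.aeval jFun P = 0) : P = 0 := by
  by_contra h
  have hfin : Set.Finite (Set.range jFun) := by
    refine P.roots.toFinset.finite_toSet.subset ?_
    rintro _ ⟨τ, rfl⟩
    have := congrFun hP τ
    simp only [Polynomial.aeval_fn_apply, Pi.zero_apply] at this
    simpa [Polynomial.mem_roots h] using this
  obtain ⟨M, hM⟩ := (hfin.image norm).bddAbove
  have hfb : IsBoundedAtImInfty jFun :=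
    Asymptotics.IsBigO.of_bound M (Eventually.of_forall fun τ => by
      simpa using hM ⟨jFun τ, ⟨τ, rfl⟩, rfl⟩)
  have hz : Tendsto (fun τ : ℍ => Real.exp (-2 * Real.pi * τ.im)) atImInfty (𝓝 0) := by
    refine Real.tendsto_exp_atBot.comp ?_
    exact (tendsto_comap (f := UpperHalfPlane.im) (x := atTop)).const_mul_atTop_of_neg
      (by linarith [Real.pi_pos] : -2 * Real.pi < 0)
  have h0 : Tendsto (fun τ : ℍ => ‖jFun τ‖ * Real.exp (-2 * Real.pi * τ.im)) atImInfty (𝓝 0) := by
    have := hz.const_mul M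
    rw [mul_zero] at this
    exact squeeze_zero (fun τ => by positivity)
      (fun τ => mul_le_mul_of_nonneg_right (hM ⟨jFun τ, ⟨τ, rfl⟩, rfl⟩) (Real.exp_pos _).le) this
  exact zero_ne_one (tendsto_nhds_unique h0 tendsto_norm_jFun)

/-- `j` and `j (N τ)` generate no relation of degree `< ψ(N)` in the second variable. -/
theorem linearIndependent_jScaleFun_pow (N : ℕ) [NeZero N] (P : Polynomial (Polynomial ℂ))
    (hdeg : P.degree < dedekindPsi N)
    (hP : ∀ τ : ℍ, (P.map (Polynomial.evalRingHom (jFun τ))).eval (jScaleFun N τ) = 0) :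
    P = 0 := by
  classical
  letI := Fintype.ofFinite (Gamma0Coset N)
  let θ : Polynomial ℂ →+* weakMod ⊥ :=
    (Polynomial.aeval (⟨jFun, jFun_mem_weakMod ⊥⟩ : weakMod ⊥)).toRingHom
  have hθ : ∀ τ : ℍ, (evalWeak ⊥ τ).comp θ = Polynomial.evalRingHom (jFun τ) := by
    intro τ
    refine Polynomial.ringHom_ext (fun a => ?_) ?_ <;> simp [θ]
  let v : Gamma0Coset N → weakMod ⊥ := fun q =>
    ⟨cosetFun (jScaleFun N) q, cosetFun_mem_bot jScale_mem q⟩
  have hv : Function.Injective v := fun q r h =>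
    cosetFun_jScale_injective (congrArg Subtype.val h)
  have hroot : ∀ q, (P.map θ).eval (v q) = 0 := by
    intro q
    apply Subtype.ext
    funext τ
    show evalWeak ⊥ τ ((P.map θ).eval (v q)) = 0
    rw [← Polynomial.eval_map_apply, Polynomial.map_map, hθ]
    have h := hP (q.out⁻¹ • τ)
    rw [jFun_smul] at h
    exact h
  have hPθ : P.map θ = 0 := by
    by_contra hne
    refine hne (Polynomial.eq_zero_of_natDegree_lt_card_of_eval_eq_zero _ hv hroot ?_)
    rw [card_coset_eq]
    exact (Polynomial.natDegree_lt_iff_degree_lt hne).mpr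
      (lt_of_le_of_lt Polynomial.degree_map_le hdeg)
  ext1 k
  have hk := congrArg (fun p : Polynomial (weakMod ⊥) => ((p.coeff k : weakMod ⊥) : ℍ → ℂ)) hPθ
  simp only [Polynomial.coeff_map, Polynomial.coeff_zero, ZeroMemClass.coe_zero] at hk
  have hθk : ((θ (P.coeff k) : weakMod ⊥) : ℍ → ℂ) = Polynomial.aeval jFun (P.coeff k) := by
    funext τ
    rw [Polynomial.aeval_fn_apply, Polynomial.coe_aeval_eq_eval, ← evalWeak_apply,
      ← RingHom.comp_apply, hθ, Polynomial.coe_evalRingHom]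
  rw [hθk] at hk
  rw [aeval_jFun_eq_zero_imp hk, Polynomial.coeff_zero]

/-- `∏ (Y - j (N g⁻¹ τ))` has coefficients in `ℂ[j]`. -/
theorem exists_conjugatePolynomial (N : ℕ) [NeZero N] [Fintype (Gamma0Coset N)] :
    ∃ R : Polynomial (Polynomial ℂ), R.Monic ∧ R.natDegree = dedekindPsi N ∧
      ∀ τ : ℍ, R.map (Polynomial.evalRingHom (jFun τ)) =
        ∏ q : Gamma0Coset N, (Polynomial.X - Polynomial.C (cosetFun (jScaleFun N) q τ)) := by
  set n := dedekindPsi N
  let v : Gamma0Coset N → weakMod ⊥ := fun q =>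
    ⟨cosetFun (jScaleFun N) q, cosetFun_mem_bot jScale_mem q⟩
  set Q : Polynomial (weakMod ⊥) := ∏ q, (Polynomial.X - Polynomial.C (v q))
  have hev : ∀ τ : ℍ, Q.map (evalWeak ⊥ τ) =
      ∏ q : Gamma0Coset N, (Polynomial.X - Polynomial.C (cosetFun (jScaleFun N) q τ)) := by
    intro τ
    simp [Q, Polynomial.map_prod, v]
  have hQm : Q.Monic := Polynomial.monic_prod_of_monic _ _ fun q _ => Polynomial.monic_X_sub_C _
  have hQd : Q.natDegree = n := by
    simp [Q, Polynomial.natDegree_prod_of_monic _ _ fun q _ => Polynomial.monic_X_sub_C (v q),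
      card_coset_eq, n]
  have hdeg : (Q - Polynomial.X ^ n).degree < (n : WithBot ℕ) := by
    have hd : Q.degree = n := by rw [Polynomial.degree_eq_natDegree hQm.ne_zero, hQd]
    rw [← hd]
    refine Polynomial.degree_sub_lt_left ?_ hQm.ne_zero ?_
    · rw [Polynomial.degree_X_pow, hd]
    · rw [hQm.leadingCoeff, (Polynomial.monic_X_pow n).leadingCoeff]
  obtain ⟨R, hRd, hR⟩ := exists_biPolynomial hdeg fun γ τ => by
    rw [Polynomial.map_sub, Polynomial.map_sub, hev, hev, Polynomial.map_pow, Polynomial.map_pow,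
      Polynomial.map_X, Polynomial.map_X]
    refine congrArg (fun p : Polynomial ℂ => p - Polynomial.X ^ n) ?_
    refine Fintype.prod_equiv (MulAction.toPerm γ⁻¹) _ _ fun q => ?_
    rw [cosetFun_smul jScale_mem, MulAction.toPerm_apply]
  refine ⟨Polynomial.X ^ n + R, Polynomial.monic_X_pow_add hRd, ?_, fun τ => ?_⟩
  · refine Polynomial.natDegree_eq_of_degree_eq_some ?_
    rw [Polynomial.degree_add_eq_left_of_degree_lt (by rwa [Polynomial.degree_X_pow]),
      Polynomial.degree_X_pow]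
  · rw [Polynomial.map_add, hR, Polynomial.map_sub, Polynomial.map_pow, Polynomial.map_X, ← hev,
      Polynomial.map_pow, Polynomial.map_X, add_sub_cancel]

/-- The derivative-type denominator used in interpolation. -/
def otherConjProd (N : ℕ) [NeZero N] [Fintype (Gamma0Coset N)] (τ : ℍ) : ℂ :=
  letI := Classical.decEq (Gamma0Coset N)
  ∏ r ∈ Finset.univ.erase ((1 : SL(2, ℤ)) : Gamma0Coset N),
    (jScaleFun N τ - cosetFun (jScaleFun N) r τ)

theorem otherConjProd_ne_zero (N : ℕ) [NeZero N] [Fintype (Gamma0Coset N)] :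
    otherConjProd N ≠ 0 := by
  letI := Classical.decEq (Gamma0Coset N)
  have hmem : ∀ r : Gamma0Coset N, jScaleFun N - cosetFun (jScaleFun N) r ∈ weakMod ⊥ := fun r =>
    sub_mem (weakMod_mono bot_le jScale_mem) (cosetFun_mem_bot jScale_mem r)
  have hne : (∏ r ∈ Finset.univ.erase ((1 : SL(2, ℤ)) : Gamma0Coset N),
      (⟨_, hmem r⟩ : weakMod ⊥)) ≠ 0 := by
    refine Finset.prod_ne_zero_iff.mpr fun r hr h => (Finset.mem_erase.mp hr).1 ?_
    refine cosetFun_jScale_injective ?_
    rw [cosetFun_mk_one jScale_mem]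
    exact (sub_eq_zero.mp (congrArg Subtype.val h)).symm
  intro h
  apply hne
  apply Subtype.ext
  funext τ
  rw [ZeroMemClass.coe_zero, SubmonoidClass.coe_finsetProd, Finset.prod_apply, Pi.zero_apply]
  have h' := congrFun h τ
  simpa only [otherConjProd, Pi.sub_apply, Pi.zero_apply] using h'

/-- Interpolation: `G · ∏_{r ≠ 1} (jN - jN_r)` is a polynomial in `j`, `jN`. -/
theorem exists_interpolation (N : ℕ) [NeZero N] [Fintype (Gamma0Coset N)] {G : ℍ → ℂ}
    (hG : G ∈ weakMod (Gamma0 N)) :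
    ∃ R : Polynomial (Polynomial ℂ), ∀ τ : ℍ,
      G τ * otherConjProd N τ =
        (R.map (Polynomial.evalRingHom (jFun τ))).eval (jScaleFun N τ) := by
  letI := Classical.decEq (Gamma0Coset N)
  let v : Gamma0Coset N → weakMod ⊥ := fun q =>
    ⟨cosetFun (jScaleFun N) q, cosetFun_mem_bot jScale_mem q⟩
  let w : Gamma0Coset N → weakMod ⊥ := fun q => ⟨cosetFun G q, cosetFun_mem_bot hG q⟩
  set Q : Polynomial (weakMod ⊥) :=
    ∑ q, Polynomial.C (w q) * ∏ r ∈ Finset.univ.erase q, (Polynomial.X - Polynomial.C (v r))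
  have hev : ∀ τ : ℍ, Q.map (evalWeak ⊥ τ) =
      ∑ q : Gamma0Coset N, Polynomial.C (cosetFun G q τ) *
        ∏ r ∈ Finset.univ.erase q,
          (Polynomial.X - Polynomial.C (cosetFun (jScaleFun N) r τ)) := by
    intro τ
    simp [Q, Polynomial.map_sum, Polynomial.map_prod, v, w]
  have hdeg : Q.degree < (dedekindPsi N + 1 : ℕ) := by
    refine lt_of_le_of_lt (b := ((dedekindPsi N : ℕ) : WithBot ℕ)) ?_ (by exact_mod_cast lt_add_one _)
    refine Polynomial.degree_le_of_natDegree_le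
      (Polynomial.natDegree_sum_le_of_forall_le _ _ fun q _ => ?_)
    refine (Polynomial.natDegree_C_mul_le _ _).trans ?_
    refine (Polynomial.natDegree_prod_le _ _).trans ?_
    refine (Finset.sum_le_card_nsmul _ _ 1 fun r _ => Polynomial.natDegree_X_sub_C_le _).trans ?_
    simpa [card_coset_eq] using Finset.card_le_univ (Finset.univ.erase q)
  obtain ⟨R, -, hR⟩ := exists_biPolynomial hdeg fun γ τ => by
    rw [hev, hev]
    refine Fintype.sum_equiv (MulAction.toPerm γ⁻¹) _ _ fun q => ?_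
    rw [cosetFun_smul hG, MulAction.toPerm_apply]
    refine congrArg (Polynomial.C (cosetFun G (γ⁻¹ • q) τ) * ·) ?_
    refine Finset.prod_equiv (MulAction.toPerm γ⁻¹) (fun r => by simp) fun r _ => ?_
    rw [cosetFun_smul jScale_mem, MulAction.toPerm_apply]
  refine ⟨R, fun τ => ?_⟩
  rw [hR, hev, Polynomial.eval_finsetSum,
    Finset.sum_eq_single ((1 : SL(2, ℤ)) : Gamma0Coset N)]
  · simp only [Polynomial.eval_mul, Polynomial.eval_C, Polynomial.eval_prod, Polynomial.eval_sub,
      Polynomial.eval_X, cosetFun_mk_one hG, otherConjProd]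
  · intro q _ hq
    rw [Polynomial.eval_mul, Polynomial.eval_prod]
    refine mul_eq_zero_of_right _ (Finset.prod_eq_zero
      (Finset.mem_erase.mpr ⟨hq.symm, Finset.mem_univ _⟩) ?_)
    simp [cosetFun_mk_one jScale_mem]
  · simp

end FermatLib.Modular

end
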