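import Mathlib.RingTheory.Algebraic.Basic
import Mathlib.RingTheory.IntegralClosure.IsIntegralClosure.Basic
import Mathlib.RingTheory.PowerSeries.Substitution
import Fermat.Prelude.Def_ModularCurve_JqCoeff
import Fermat.Agent.Modular.JScale

/-!
# Integrality of the expansions of `j` and of its conjugates
-/

set_option autoImplicit false

noncomputable section

open UpperHalfPlane Filter ModularCurve CongruenceSubgroup
open scoped MatrixGroups ModularForm Manifold Topology

namespace FermatLib.Modular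

local notation "Δ" => ModularForm.discriminant

/-- Laurent series over `ℂ` with algebraic integer coefficients. -/
def integralSeries : Subring (LaurentSeries ℂ) :=
  (coeffMap (integralClosure ℤ ℂ).val.toRingHom).range

theorem mem_integralSeries_iff {x : LaurentSeries ℂ} :
    x ∈ integralSeries ↔ ∀ k, IsIntegral ℤ (x.coeff k) := by
  constructor
  · rintro ⟨y, rfl⟩ k
    exact (y.coeff k).2
  · intro h
    refine ⟨⟨fun k => ⟨x.coeff k, h k⟩, ?_⟩, ?_⟩
    · refine x.isPWO_support'.mono fun k hk => ?_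
      simpa [Function.mem_support, Subtype.ext_iff] using hk
    · ext k
      rfl

theorem coeffEmb_jq_eq (L : Type*) [Field L] [Algebra ℚ L] :
    coeffEmb L jq = (jqModC ℤ).map (Int.castRingHom L) := by
  rw [← jqModC_eq_map_intCast, ← jqModC_rat, ← map_jqModC (algebraMap ℚ L)]
  rfl

theorem coeffEmb_jq_mem_integralSeries : coeffEmb ℂ jq ∈ integralSeries := by
  rw [mem_integralSeries_iff, coeffEmb_jq_eq]
  exact fun k => by simpa using isIntegral_algebraMap (R := ℤ) (A := ℂ) (x := (jqModC ℤ).coeff k)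

theorem qExpand_mem_integralSeries {x : LaurentSeries ℂ} (hx : x ∈ integralSeries) (d : ℕ)
    [NeZero d] : qExpand ℂ d x ∈ integralSeries := by
  rw [mem_integralSeries_iff] at hx ⊢
  intro k
  by_cases hk : (d : ℤ) ∣ k
  · obtain ⟨k', rfl⟩ := hk
    simpa using hx k'
  · rw [qExpand_coeff_of_not_dvd d _ hk]
    exact isIntegral_zero

/-! ### Triangularity in powers of `j` -/

variable {L : Type*} [Field L] [Algebra ℚ L]

theorem coeff_coeffEmb_jq_pow_mul (c : L) (i : ℕ) (k : ℤ) :
    (algebraMap L (LaurentSeries L) c * coeffEmb L jq ^ i).coeff k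
      = c * algebraMap ℚ L ((jq ^ i).coeff k) := by
  rw [algebraMap_laurentSeries_eq_single, HahnSeries.coeff_single_mul, sub_zero, ← map_pow,
    coeffEmb_coeff]

theorem coeff_aeval_jq_natDegree (P : Polynomial L) :
    (Polynomial.aeval (coeffEmb L jq) P).coeff (-(P.natDegree : ℤ)) = P.leadingCoeff := by
  rw [Polynomial.aeval_eq_sum_range, HahnSeries.coeff_sum,
    Finset.sum_eq_single P.natDegree]
  · rw [Algebra.smul_def, coeff_coeffEmb_jq_pow_mul, coeff_jq_pow_self, map_one, mul_one,
      Polynomial.leadingCoeff]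
  · intro i hi hne
    rw [Algebra.smul_def, coeff_coeffEmb_jq_pow_mul,
      coeff_jq_pow_of_lt (by have := Finset.mem_range.mp hi; omega), map_zero, mul_zero]
  · simp

theorem aeval_coeffEmb_jq_eq_zero_iff (P : Polynomial L) :
    Polynomial.aeval (coeffEmb L jq) P = 0 ↔ P = 0 := by
  refine ⟨fun h => ?_, fun h => by simp [h]⟩
  have h' := coeff_aeval_jq_natDegree P
  rw [h, HahnSeries.coeff_zero] at h'
  exact Polynomial.leadingCoeff_eq_zero.mp h'.symm

/-- A polynomial in `j` with integral expansion has integral coefficients. -/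
theorem isIntegral_coeff_of_aeval_jq_mem {P : Polynomial ℂ}
    (hP : Polynomial.aeval (coeffEmb ℂ jq) P ∈ integralSeries) (i : ℕ) :
    IsIntegral ℤ (P.coeff i) := by
  induction hn : P.natDegree using Nat.strong_induction_on generalizing P i with
  | _ n ih =>
    have hlc : IsIntegral ℤ P.leadingCoeff := by
      rw [← coeff_aeval_jq_natDegree]
      exact mem_integralSeries_iff.mp hP _
    by_cases h0 : n = 0
    · subst h0
      rcases Nat.eq_zero_or_pos i with rfl | hi
      · rwa [Polynomial.leadingCoeff, hn] at hlc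
      · rw [Polynomial.coeff_eq_zero_of_natDegree_lt (by omega)]
        exact isIntegral_zero
    · have he : Polynomial.aeval (coeffEmb ℂ jq) P.eraseLead ∈ integralSeries := by
        rw [← Polynomial.self_sub_C_mul_X_pow, map_sub, map_mul, map_pow, Polynomial.aeval_C,
          Polynomial.aeval_X]
        refine sub_mem hP (mul_mem ?_ (pow_mem coeffEmb_jq_mem_integralSeries _))
        rw [mem_integralSeries_iff, algebraMap_laurentSeries_eq_single]
        intro k
        rw [HahnSeries.coeff_single]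
        split_ifs
        exacts [hlc, isIntegral_zero]
      rcases eq_or_ne i n with rfl | hi
      · rwa [Polynomial.leadingCoeff, hn] at hlc
      · rw [← Polynomial.eraseLead_coeff_of_ne (f := P) i (hn ▸ hi)]
        exact ih _ (lt_of_le_of_lt (Polynomial.eraseLead_natDegree_le P) (by omega)) he i rfl

/-! ### Translates -/

theorem exp_mem_integral {b : ℤ} {e : ℕ} (he : 0 < e) :
    IsIntegral ℤ (Complex.exp (2 * Real.pi * Complex.I * ((b : ℂ) / e))) := by
  refine IsIntegral.of_pow he ?_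
  rw [← Complex.exp_nat_mul, show (e : ℂ) * (2 * Real.pi * Complex.I * ((b : ℂ) / e))
    = (b : ℂ) * (2 * Real.pi * Complex.I) by
      have : (e : ℂ) ≠ 0 := by exact_mod_cast he.ne'
      field_simp]
  rw [Complex.exp_int_mul_two_pi_mul_I]
  exact isIntegral_one

/-- The rotation factor of a real translation. -/
def rot (t : ℝ) : ℂ := Complex.exp (2 * Real.pi * Complex.I * (t : ℂ))

theorem vadd_comm_one (t : ℝ) (τ : ℍ) : t +ᵥ ((1 : ℝ) +ᵥ τ) = (1 : ℝ) +ᵥ (t +ᵥ τ) := by
  rw [← add_vadd, ← add_vadd, add_comm]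

theorem tendsto_vadd_atImInfty (t : ℝ) : Tendsto (fun τ : ℍ => t +ᵥ τ) atImInfty atImInfty := by
  simp only [UpperHalfPlane.atImInfty, tendsto_comap_iff, Function.comp_def,
    UpperHalfPlane.vadd_im]
  exact tendsto_comap

theorem comp_vadd_mem_qMero {G : ℍ → ℂ} (hG : G ∈ qMero) (hb : IsBoundedAtImInfty G) (t : ℝ) :
    (fun τ => G (t +ᵥ τ)) ∈ qMero ∧ IsBoundedAtImInfty (fun τ => G (t +ᵥ τ)) := by
  have hb' : IsBoundedAtImInfty (fun τ => G (t +ᵥ τ)) :=
    hb.comp_tendsto (tendsto_vadd_atImInfty t)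
  refine ⟨mem_qMero.mpr ⟨fun τ => by rw [vadd_comm_one, hG.1], ?_, 0, by simpa using hb'⟩, hb'⟩
  have h := hG.2.1
  rw [UpperHalfPlane.mdifferentiable_iff] at h ⊢
  have hd : DifferentiableOn ℂ (fun z : ℂ => (G ∘ ofComplex) ((t : ℂ) + z)) {z : ℂ | 0 < z.im} :=
    h.comp (by fun_prop) fun z hz => by simpa using hz
  refine hd.congr fun z hz => ?_
  simp only [Function.comp_apply]
  rw [ofComplex_apply_of_im_pos hz, ofComplex_apply_of_im_pos (by simpa using hz)]
  congr 1

theorem qExpansion_comp_vadd {G : ℍ → ℂ} (hG : G ∈ qMero) (hb : IsBoundedAtImInfty G) (t : ℝ) :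
    qExpansion 1 (fun τ => G (t +ᵥ τ)) = PowerSeries.rescale (rot t) (qExpansion 1 G) := by
  ext m
  rw [PowerSeries.coeff_rescale]
  refine (qExpansion_coeff_eq_of_hasSum
    (c := fun m => rot t ^ m * (qExpansion 1 G).coeff m)
    (analyticAt_cuspFunction_of_mem (comp_vadd_mem_qMero hG hb t).1
      (comp_vadd_mem_qMero hG hb t).2) (fun τ => ?_) m).symm
  have h := UpperHalfPlane.hasSum_qExpansion one_pos (periodic_comp_ofComplex_of_vadd hG.1) hG.2.1
    hb (t +ᵥ τ)
  have hq : Function.Periodic.qParam 1 ((t +ᵥ τ : ℍ) : ℂ)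
      = rot t * Function.Periodic.qParam 1 (τ : ℂ) := by
    rw [UpperHalfPlane.coe_vadd, rot, Function.Periodic.qParam, Function.Periodic.qParam,
      ← Complex.exp_add]
    congr 1
    push_cast
    ring
  refine h.congr_fun fun m => ?_
  simp only [smul_eq_mul, hq, mul_pow]
  ring

/-- The expansion of `j (τ + b / e)` is integral. -/
theorem qExpL_jFun_vadd_mem (b : ℤ) {e : ℕ} (he : 0 < e) :
    (fun τ => jFun (((b : ℝ) / e) +ᵥ τ)) ∈ qMero ∧
      qExpL (fun τ => jFun (((b : ℝ) / e) +ᵥ τ)) ∈ integralSeries := by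
  set t : ℝ := (b : ℝ) / e
  have hζ : IsIntegral ℤ (rot t) := by
    have h := exp_mem_integral (b := b) he
    simpa [rot, t] using h
  have hζinv : IsIntegral ℤ (rot t)⁻¹ := by
    have h := exp_mem_integral (b := -b) he
    rw [Int.cast_neg, neg_div, mul_neg, Complex.exp_neg] at h
    simpa [rot, t] using h
  have hζ0 : rot t ≠ 0 := Complex.exp_ne_zero _
  have h4 : (⇑ModularForm.E₄) ∈ qMero :=
    mem_qMero.mpr ⟨apply_one_vadd_of_levelOne ModularForm.E₄, ModularFormClass.holo _, 0,
      by simpa using ModularFormClass.bdd_at_infty ModularForm.E₄⟩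
  have h4b : IsBoundedAtImInfty (⇑ModularForm.E₄) := ModularFormClass.bdd_at_infty _
  have hΔb := ModularForm.discriminant_isZeroAtImInfty.isBoundedAtImInfty
  obtain ⟨h4t, h4tb⟩ := comp_vadd_mem_qMero h4 h4b t
  obtain ⟨hΔt, hΔtb⟩ := comp_vadd_mem_qMero discriminant_mem_qMero hΔb t
  have hjt : (fun τ => jFun (t +ᵥ τ)) ∈ qMero := by
    refine mem_qMero.mpr ⟨fun τ => ?_, ?_, 1, ?_⟩
    · rw [vadd_comm_one, (weakMod_Gamma0_le_qMero 1 (jFun_mem_weakMod _)).1]
    · rw [show (fun τ => jFun (t +ᵥ τ)) =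
        fun τ => (fun τ => ModularForm.E₄ (t +ᵥ τ)) τ ^ 3 / (fun τ => Δ (t +ᵥ τ)) τ from rfl]
      exact (mem_qMero.mp (pow_mem h4t 3)).2.1.div (mem_qMero.mp hΔt).2.1
        fun τ => ModularForm.discriminant_ne_zero _
    · obtain ⟨m, hm⟩ : ∃ m : ℕ, m = 1 := ⟨1, rfl⟩
      have h1 : IsBoundedAtImInfty (fun τ => jFun (t +ᵥ τ) * Δ (t +ᵥ τ)) := by
        simp only [jFun_mul_discriminant]
        exact (pow_mem (show (fun τ => ModularForm.E₄ (t +ᵥ τ)) ∈
          boundedAtImInftySubalgebra ℂ from h4tb) 3 :)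
      have hexp : (fun τ => Δ τ) =O[atImInfty] fun τ => Δ (t +ᵥ τ) := by
        refine isBigO_discriminant_exp.trans ?_
        have h := ModularForm.exp_isBigO_discriminant.comp_tendsto (tendsto_vadd_atImInfty t)
        simpa [Function.comp_def] using h
      have h2 := BoundedAtFilter.mul h1
        ((Asymptotics.div_isBoundedUnder_of_isBigO hexp).isBigO_one ℝ)
      rwa [show (fun τ => jFun (t +ᵥ τ)) * (Δ : ℍ → ℂ) ^ 1 =
        (fun τ => jFun (t +ᵥ τ) * Δ (t +ᵥ τ)) * fun τ => Δ τ / Δ (t +ᵥ τ) by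
          ext τ
          simp only [Pi.mul_apply, pow_one]
          field_simp [ModularForm.discriminant_ne_zero (t +ᵥ τ)]]
  refine ⟨hjt, ?_⟩
  set jn : PowerSeries ℂ := PowerSeries.rescale (rot t) (jNum.map (Int.castRingHom ℂ))
  have key : qExpL (fun τ => jFun (t +ᵥ τ))
      = HahnSeries.single (-1 : ℤ) (rot t)⁻¹ * HahnSeries.ofPowerSeries ℤ ℂ jn := by
    have h := qExpL_mul hjt hΔt
    rw [show ((fun τ => jFun (t +ᵥ τ)) * fun τ => Δ (t +ᵥ τ))
        = (fun τ => ModularForm.E₄ (t +ᵥ τ)) ^ 3 from funext fun τ => jFun_mul_discriminant _,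
      qExpL_pow h4t, qExpL_of_bounded h4t h4tb, qExpL_of_bounded hΔt hΔtb,
      qExpansion_comp_vadd h4 h4b, qExpansion_comp_vadd discriminant_mem_qMero hΔb,
      qExpansion_discriminant, qExpansion_E₄] at h
    have hXC : PowerSeries.rescale (rot t) (PowerSeries.X : PowerSeries ℂ)
        = PowerSeries.C (rot t) * PowerSeries.X := by
      ext n
      rw [PowerSeries.coeff_rescale, PowerSeries.coeff_C_mul, PowerSeries.coeff_X]
      split_ifs with hn
      · simp [hn]
      · simp
    rw [map_mul (PowerSeries.rescale _), hXC, map_mul, map_mul, HahnSeries.ofPowerSeries_C,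
      HahnSeries.ofPowerSeries_X, HahnSeries.C_apply, HahnSeries.single_mul_single] at h
    have hid : jn * PowerSeries.rescale (rot t) (dedekindEtaUnit.map (Int.castRingHom ℂ))
        = PowerSeries.rescale (rot t) (eisenstein4.map (Int.castRingHom ℂ)) ^ 3 := by
      rw [← map_mul, ← map_pow, ← map_mul, ← map_pow, jNum, mul_assoc,
        mul_comm dedekindEtaUnitInv, dedekindEtaUnit_mul_inv, mul_one]
    rw [← map_pow, ← hid, map_mul] at h
    have hU : HahnSeries.ofPowerSeries ℤ ℂ
        (PowerSeries.rescale (rot t) (dedekindEtaUnit.map (Int.castRingHom ℂ))) ≠ 0 := by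
      rw [map_ne_zero_iff _ HahnSeries.ofPowerSeries_injective]
      intro h0
      have := congrArg (PowerSeries.coeff 0) h0
      simp [PowerSeries.coeff_rescale, constantCoeff_dedekindEtaUnit,
        PowerSeries.coeff_zero_eq_constantCoeff] at this
    rw [← mul_assoc] at h
    rw [mul_right_cancel₀ hU h, ← mul_assoc, mul_comm (HahnSeries.single (-1 : ℤ) _),
      mul_assoc, HahnSeries.single_mul_single]
    simp [hζ0]
  rw [key, mem_integralSeries_iff]
  intro k
  rw [HahnSeries.coeff_single_mul]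
  refine hζinv.mul ?_
  rcases le_or_gt 0 (k - -1) with hk | hk
  · obtain ⟨m, hm⟩ := Int.eq_ofNat_of_zero_le hk
    rw [hm, HahnSeries.ofPowerSeries_apply_coeff, PowerSeries.coeff_rescale, PowerSeries.coeff_map]
    exact (hζ.pow m).mul (by simpa using isIntegral_algebraMap (R := ℤ) (A := ℂ))
  · rw [ofPowerSeries_coeff_of_neg _ hk]
    exact isIntegral_zero

/-- Conjugates `j (N γ τ)`, in the variable `τ / N`, have integral expansions. -/
theorem jScaleFun_smul_diag_integral (N : ℕ) [NeZero N] (γ : SL(2, ℤ)) :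
    (fun τ => jScaleFun N (γ • (ModularForm.heckeDiagMatrix N • τ))) ∈ qMero ∧
      qExpL (fun τ => jScaleFun N (γ • (ModularForm.heckeDiagMatrix N • τ))) ∈ integralSeries := by
  obtain ⟨a, b, e, ha, he, hae, _, _, hj⟩ := exists_triangular N γ
  have hepos : 0 < e := by exact_mod_cast he
  have hapos : 0 < a := by exact_mod_cast ha
  haveI : NeZero (a * a) := ⟨(Nat.mul_pos hapos hapos).ne'⟩
  obtain ⟨hmem, hint⟩ := qExpL_jFun_vadd_mem (b : ℤ) hepos
  have heq : (fun τ => jScaleFun N (γ • (ModularForm.heckeDiagMatrix N • τ))) =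
      fun τ => (fun σ => jFun ((((b : ℤ) : ℝ) / e) +ᵥ σ))
        (ModularForm.heckeDiagMatrix (a * a) • τ) := by
    funext τ
    rw [hj]
    congr 1
    apply UpperHalfPlane.ext
    rw [coe_upperTriangularGL_smul ha he, UpperHalfPlane.coe_vadd,
      ModularForm.coe_heckeDiagMatrix_smul (NeZero.ne N),
      ModularForm.coe_heckeDiagMatrix_smul (NeZero.ne (a * a))]
    have he0 : (e : ℂ) ≠ 0 := by exact_mod_cast hepos.ne'
    push_cast [← hae]
    field_simp
    ring
  rw [heq]
  refine ⟨comp_diag_mem_qMero hmem (a * a), ?_⟩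
  rw [qExpL_comp_diag hmem (a * a)]
  exact qExpand_mem_integralSeries hint _

end FermatLib.Modular

end
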