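import Mathlib.RingTheory.Localization.Integral
import Mathlib.RingTheory.Polynomial.RationalRoot
import Fermat.Agent.Modular.CosetPoly
import Fermat.Agent.Modular.CoeffDescent
import Fermat.Agent.Modular.JIntegral

/-!
# The modular polynomial
-/

set_option autoImplicit false

noncomputable section

open UpperHalfPlane ModularCurve CongruenceSubgroup
open scoped MatrixGroups ModularForm

namespace FermatLib.Modular

/-- `P ↦ P (j, jN)` in the functions. -/
def biEval (N : ℕ) [NeZero N] : Polynomial (Polynomial ℂ) →+* weakMod (Gamma0 N) :=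
  Polynomial.eval₂RingHom
    (Polynomial.aeval (⟨jFun, jFun_mem_weakMod _⟩ : weakMod (Gamma0 N))).toRingHom
    ⟨jScaleFun N, jScaleFun_mem_weakMod dvd_rfl⟩

theorem biEval_apply (N : ℕ) [NeZero N] (P : Polynomial (Polynomial ℂ)) (τ : ℍ) :
    (biEval N P : ℍ → ℂ) τ =
      (P.map (Polynomial.evalRingHom (jFun τ))).eval (jScaleFun N τ) := by
  rw [← evalWeak_apply, biEval, Polynomial.coe_eval₂RingHom, Polynomial.hom_eval₂,
    Polynomial.eval_map]
  congr 1
  refine Polynomial.ringHom_ext (fun a => ?_) ?_ <;> simp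

/-- `P ↦ P (jq, jqN)` in Laurent series over `L`. -/
def biSer (L : Type*) [Field L] [Algebra ℚ L] (N : ℕ) [NeZero N] :
    Polynomial (Polynomial L) →+* LaurentSeries L :=
  Polynomial.eval₂RingHom (Polynomial.aeval (coeffEmb L jq)).toRingHom
    (coeffEmb L (qExpand ℚ N jq))

theorem qExpWeak_biEval (N : ℕ) [NeZero N] (P : Polynomial (Polynomial ℂ)) :
    qExpWeak N (biEval N P) = biSer ℂ N P := by
  show (qExpWeak N).toRingHom (biEval N P) = _
  rw [biEval, biSer, Polynomial.coe_eval₂RingHom, Polynomial.coe_eval₂RingHom,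
    Polynomial.hom_eval₂]
  congr 1
  · refine Polynomial.ringHom_ext (fun a => ?_) ?_
    · simp
    · simp [qExpL_jFun]
  · simp [qExpL_jScaleFun]

theorem biSer_eq_zero_imp_pointwise (N : ℕ) [NeZero N] {P : Polynomial (Polynomial ℂ)}
    (h : biSer ℂ N P = 0) (τ : ℍ) :
    (P.map (Polynomial.evalRingHom (jFun τ))).eval (jScaleFun N τ) = 0 := by
  rw [← qExpWeak_biEval, map_eq_zero_iff _ (qExpWeak_injective N)] at h
  rw [← biEval_apply, h]
  rfl

/-- The monomials `j^a jN^b`, `b < ψ(N)`. -/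
def jMonomial (N : ℕ) [NeZero N] (p : Fin (dedekindPsi N) × ℕ) : LaurentSeries ℚ :=
  jq ^ p.2 * qExpand ℚ N jq ^ (p.1 : ℕ)

theorem biSer_monomial (L : Type*) [Field L] [Algebra ℚ L] (N : ℕ) [NeZero N]
    (b a : ℕ) (c : L) :
    biSer L N (Polynomial.monomial b (Polynomial.monomial a c)) =
      algebraMap L (LaurentSeries L) c * coeffEmb L (jq ^ a * qExpand ℚ N jq ^ b) := by
  simp [biSer, Polynomial.aeval_monomial, map_mul, map_pow, mul_assoc]

/-- The `L`-polynomial attached to a finite combination of monomials. -/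
def combPoly (L : Type*) [Field L] (N : ℕ) (s : Finset (Fin (dedekindPsi N) × ℕ))
    (g : Fin (dedekindPsi N) × ℕ → L) : Polynomial (Polynomial L) :=
  ∑ p ∈ s, Polynomial.monomial (p.1 : ℕ) (Polynomial.monomial p.2 (g p))

theorem combPoly_degree_lt (L : Type*) [Field L] (N : ℕ) [NeZero N]
    (s : Finset (Fin (dedekindPsi N) × ℕ)) (g : Fin (dedekindPsi N) × ℕ → L) :
    (combPoly L N s g).degree < (dedekindPsi N : WithBot ℕ) := by
  refine (Polynomial.degree_sum_le _ _).trans_lt ((Finset.sup_lt_iff ?_).mpr fun k _ => ?_)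
  · exact WithBot.bot_lt_coe _
  · exact (Polynomial.degree_monomial_le _ _).trans_lt (by exact_mod_cast k.1.2)

theorem combPoly_coeff (L : Type*) [Field L] (N : ℕ) (s : Finset (Fin (dedekindPsi N) × ℕ))
    (g : Fin (dedekindPsi N) × ℕ → L) {p : Fin (dedekindPsi N) × ℕ} (hp : p ∈ s) :
    ((combPoly L N s g).coeff p.1).coeff p.2 = g p := by
  rw [combPoly, Polynomial.finsetSum_coeff, Polynomial.finsetSum_coeff,
    Finset.sum_eq_single p]
  · simp
  · intro r _ hr
    rcases eq_or_ne (r.1 : ℕ) (p.1 : ℕ) with h1 | h1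
    · have h2 : r.2 ≠ p.2 := fun h2 => hr (Prod.ext (Fin.ext h1) h2)
      simp [h1, Polynomial.coeff_monomial, h2]
    · simp [Polynomial.coeff_monomial, h1]
  · exact fun h => absurd hp h

theorem biSer_combPoly (L : Type*) [Field L] [Algebra ℚ L] (N : ℕ) [NeZero N]
    (s : Finset (Fin (dedekindPsi N) × ℕ)) (g : Fin (dedekindPsi N) × ℕ → L) :
    biSer L N (combPoly L N s g) = ∑ p ∈ s, g p • coeffEmb L (jMonomial N p) := by
  rw [combPoly, map_sum]
  refine Finset.sum_congr rfl fun p _ => ?_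
  rw [biSer_monomial, jMonomial, algebraMap_laurentSeries_eq_single,
    ← HahnSeries.C_apply, HahnSeries.C_mul_eq_smul]

theorem linearIndependent_jMonomial (N : ℕ) [NeZero N] :
    LinearIndependent ℚ (jMonomial N) := by
  rw [linearIndependent_iff']
  intro s g hg p hp
  have h0 : biSer ℂ N (combPoly ℂ N s fun q => algebraMap ℚ ℂ (g q)) = 0 := by
    rw [biSer_combPoly]
    have h := congrArg (coeffEmb ℂ) hg
    rw [map_sum, map_zero] at h
    refine Eq.trans (Finset.sum_congr rfl fun q _ => ?_) h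
    ext k
    simp only [HahnSeries.coeff_smul, coeffEmb_coeff, smul_eq_mul, map_mul]
  have hP := linearIndependent_jScaleFun_pow N _ (combPoly_degree_lt ℂ N s _)
    (biSer_eq_zero_imp_pointwise N h0)
  have hc := combPoly_coeff ℂ N s (fun q => algebraMap ℚ ℂ (g q)) hp
  rw [hP, Polynomial.coeff_zero, Polynomial.coeff_zero] at hc
  exact (map_eq_zero_iff _ (algebraMap ℚ ℂ).injective).mp hc.symm

theorem linearIndependent_coeffEmb_jMonomial (L : Type*) [Field L] [Algebra ℚ L] (N : ℕ)
    [NeZero N] : LinearIndependent L (fun p => coeffEmb L (jMonomial N p)) :=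
  linearIndependent_coeffMap (linearIndependent_jMonomial N)

theorem exists_combPoly_eq (L : Type*) [Field L] (N : ℕ) [NeZero N]
    {P : Polynomial (Polynomial L)} (hdeg : P.degree < (dedekindPsi N : WithBot ℕ)) :
    ∃ s : Finset (Fin (dedekindPsi N) × ℕ),
      P = combPoly L N s fun p => (P.coeff (p.1 : ℕ)).coeff p.2 := by
  refine ⟨Finset.univ.biUnion fun b : Fin (dedekindPsi N) =>
    (P.coeff b).support.image fun a => (b, a), ?_⟩
  ext b a
  rcases lt_or_ge b (dedekindPsi N) with hb | hb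
  · by_cases ha : (P.coeff b).coeff a = 0
    · rw [ha, combPoly, Polynomial.finsetSum_coeff, Polynomial.finsetSum_coeff]
      refine (Finset.sum_eq_zero fun p _ => ?_).symm
      rcases eq_or_ne (p.1 : ℕ) b with h1 | h1
      · rcases eq_or_ne p.2 a with h2 | h2
        · simp [h1, h2, ha]
        · simp [h1, Polynomial.coeff_monomial, h2]
      · simp [Polynomial.coeff_monomial, h1]
    · symm
      refine combPoly_coeff L N _ (fun p => (P.coeff (p.1 : ℕ)).coeff p.2)
        (p := (⟨b, hb⟩, a)) ?_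
      rw [Finset.mem_biUnion]
      exact ⟨⟨b, hb⟩, Finset.mem_univ _, Finset.mem_image.mpr
        ⟨a, Polynomial.mem_support_iff.mpr ha, rfl⟩⟩
  · have h1 : P.coeff b = 0 :=
      Polynomial.coeff_eq_zero_of_degree_lt (hdeg.trans_le (by exact_mod_cast hb))
    rw [h1, Polynomial.coeff_eq_zero_of_degree_lt
      ((combPoly_degree_lt L N _ _).trans_le (by exact_mod_cast hb))]

/-- No relation of degree `< ψ(N)` over any field of characteristic zero. -/
theorem eq_zero_of_biSer_eq_zero (L : Type*) [Field L] [Algebra ℚ L] (N : ℕ) [NeZero N]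
    {P : Polynomial (Polynomial L)} (hdeg : P.degree < (dedekindPsi N : WithBot ℕ))
    (h : biSer L N P = 0) : P = 0 := by
  obtain ⟨s, hs⟩ := exists_combPoly_eq L N hdeg
  rw [hs, biSer_combPoly] at h
  have hz := linearIndependent_iff'.mp (linearIndependent_coeffEmb_jMonomial L N) s _ h
  rw [hs, combPoly]
  exact Finset.sum_eq_zero fun p hp => by simp [hz p hp]

theorem isIntegral_of_mem_integralSeries_coeff_qExpand {N : ℕ} [NeZero N] {x : LaurentSeries ℂ}
    (hx : qExpand ℂ N x ∈ integralSeries) : x ∈ integralSeries := by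
  rw [mem_integralSeries_iff] at hx ⊢
  intro k
  simpa using hx ((N : ℤ) * k)

/-- The coefficients of the conjugate polynomial have integral expansions. -/
theorem aeval_coeff_conjugatePolynomial_mem (N : ℕ) [NeZero N] [Fintype (Gamma0Coset N)]
    {R : Polynomial (Polynomial ℂ)}
    (hR : ∀ τ : ℍ, R.map (Polynomial.evalRingHom (jFun τ)) =
      ∏ q : Gamma0Coset N, (Polynomial.X - Polynomial.C (cosetFun (jScaleFun N) q τ))) (k : ℕ) :
    Polynomial.aeval (coeffEmb ℂ jq) (R.coeff k) ∈ integralSeries := by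
  refine isIntegral_of_mem_integralSeries_coeff_qExpand (N := N) ?_
  have hw : ∀ q : Gamma0Coset N,
      (fun τ => cosetFun (jScaleFun N) q (ModularForm.heckeDiagMatrix N • τ)) ∈ qMero ∧
      qExpL (fun τ => cosetFun (jScaleFun N) q (ModularForm.heckeDiagMatrix N • τ))
        ∈ integralSeries := fun q => jScaleFun_smul_diag_integral N _
  set Qp : Polynomial qMero :=
    ∏ q : Gamma0Coset N, (Polynomial.X - Polynomial.C (⟨_, (hw q).1⟩ : qMero))
  have hmem : Qp.map qExpLHom.toRingHom ∈ Polynomial.lifts (integralSeries.subtype) := by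
    rw [Polynomial.map_prod]
    refine prod_mem fun q _ => ?_
    rw [Polynomial.map_sub, Polynomial.map_X, Polynomial.map_C, Polynomial.mem_lifts]
    refine ⟨Polynomial.X - Polynomial.C ⟨_, (hw q).2⟩, ?_⟩
    simp
  have hjN : jScaleFun N ∈ qMero := weakMod_Gamma0_le_qMero N (jScaleFun_mem_weakMod dvd_rfl)
  have hk : Qp.coeff k = Polynomial.aeval (⟨jScaleFun N, hjN⟩ : qMero) (R.coeff k) := by
    apply Subtype.ext
    funext τ
    let ev : qMero →+* ℂ :=
      (Pi.evalRingHom (fun _ : ℍ => ℂ) τ).comp qMero.val.toRingHom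
    show ev (Qp.coeff k) = ev (Polynomial.aeval (⟨jScaleFun N, hjN⟩ : qMero) (R.coeff k))
    have h1 : Qp.map ev = R.map (Polynomial.evalRingHom (jScaleFun N τ)) := by
      rw [jScaleFun_apply, hR, Polynomial.map_prod]
      simp [ev]
    have h2 : ev (Polynomial.aeval (⟨jScaleFun N, hjN⟩ : qMero) (R.coeff k))
        = Polynomial.evalRingHom (jScaleFun N τ) (R.coeff k) := by
      refine RingHom.congr_fun (f := ev.comp
        (Polynomial.aeval (⟨jScaleFun N, hjN⟩ : qMero)).toRingHom)
        (Polynomial.ringHom_ext (fun a => ?_) ?_) (R.coeff k) <;> simp [ev]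
    rw [h2, ← Polynomial.coeff_map, h1, Polynomial.coeff_map]
  obtain ⟨y, hy⟩ := (Polynomial.lifts_iff_coeff_lifts _).mp hmem k
  rw [Polynomial.coeff_map, hk] at hy
  have hfinal : qExpand ℂ N (Polynomial.aeval (coeffEmb ℂ jq) (R.coeff k)) =
      qExpLHom (Polynomial.aeval (⟨jScaleFun N, hjN⟩ : qMero) (R.coeff k)) := by
    rw [← Polynomial.aeval_algHom_apply qExpLHom]
    simp only [qExpLHom_apply]
    rw [qExpL_jScaleFun, coeffEmb_qExpand,
      Polynomial.aeval_def, Polynomial.aeval_def, Polynomial.hom_eval₂]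
    congr 1
    ext a : 1
    simp [algebraMap_laurentSeries_eq_single]
  rw [hfinal]
  exact hy ▸ y.2

theorem exists_linearMap_map_one : ∃ π : ℂ →ₗ[ℚ] ℚ, π 1 = 1 := by
  obtain ⟨π, hπ⟩ : ∃ π : ℂ →ₗ[ℚ] ℚ, π 1 ≠ 0 := by
    by_contra! h
    exact one_ne_zero ((Module.forall_dual_apply_eq_zero_iff ℚ (1 : ℂ)).mp h)
  exact ⟨(π 1)⁻¹ • π, by simp [hπ]⟩

theorem exists_modularPolynomial (N : ℕ) [NeZero N] [Fintype (Gamma0Coset N)] :
    ∃ Φ : Polynomial (Polynomial ℤ), Φ.Monic ∧ Φ.natDegree = dedekindPsi N ∧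
      Φ.eval₂ evalAtJ (jqN N) = 0 ∧
      ∀ τ : ℍ, Φ.map (Polynomial.aeval (R := ℤ) (jFun τ)).toRingHom =
        ∏ q : Gamma0Coset N, (Polynomial.X - Polynomial.C (cosetFun (jScaleFun N) q τ)) := by
  obtain ⟨R, hRm, hRd, hR⟩ := exists_conjugatePolynomial N
  set n := dedekindPsi N
  obtain ⟨π, hπ⟩ := exists_linearMap_map_one
  -- `R (j, jN) = 0`
  have hvan : biSer ℂ N R = 0 := by
    rw [← qExpWeak_biEval, show biEval N R = 0 from ?_, map_zero]
    apply Subtype.ext
    funext τ
    rw [biEval_apply, hR, Polynomial.eval_prod, ZeroMemClass.coe_zero, Pi.zero_apply]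
    refine Finset.prod_eq_zero (Finset.mem_univ ((1 : SL(2, ℤ)) : Gamma0Coset N)) ?_
    simp [cosetFun_mk_one jScale_mem]
  set R₀ := R.eraseLead
  have hR₀d : R₀.degree < (n : WithBot ℕ) := by
    rw [← hRd, ← Polynomial.degree_eq_natDegree hRm.ne_zero]
    exact Polynomial.degree_eraseLead_lt hRm.ne_zero
  have hsplit : R = Polynomial.X ^ n + R₀ := by
    conv_lhs => rw [← Polynomial.eraseLead_add_monomial_natDegree_leadingCoeff R,
      hRm.leadingCoeff, hRd]
    rw [Polynomial.monomial_one_right_eq_X_pow, add_comm]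
  obtain ⟨s, hs⟩ := exists_combPoly_eq ℂ N hR₀d
  set g : Fin n × ℕ → ℂ := fun p => (R₀.coeff (p.1 : ℕ)).coeff p.2 with hg
  -- apply `π`
  have hrat : ∀ p ∈ s, g p = algebraMap ℚ ℂ (π (g p)) := by
    intro p hp
    set x : LaurentSeries ℚ := qExpand ℚ N jq ^ n
    have hx : biSer ℂ N (Polynomial.X ^ n) = coeffEmb ℂ x := by
      simp [biSer, x, Polynomial.coe_eval₂RingHom, map_pow]
    have h1 : coeffEmb ℂ x + ∑ q ∈ s, g q • coeffEmb ℂ (jMonomial N q) = 0 := by
      rw [← hx, ← biSer_combPoly, ← hs, ← map_add, ← hsplit, hvan]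
    have h2 : x + ∑ q ∈ s, π (g q) • jMonomial N q = 0 := by
      ext k
      have h := congrArg (fun z : LaurentSeries ℂ => π (z.coeff k)) h1
      simp only [HahnSeries.coeff_add, HahnSeries.coeff_sum, HahnSeries.coeff_smul, smul_eq_mul,
        coeffEmb_coeff, map_add, map_sum, HahnSeries.coeff_zero, map_zero] at h
      simp only [HahnSeries.coeff_add, HahnSeries.coeff_sum, HahnSeries.coeff_smul, smul_eq_mul,
        HahnSeries.coeff_zero]
      rw [← h]
      congr 1
      · rw [Algebra.algebraMap_eq_smul_one, map_smul, hπ, smul_eq_mul, mul_one]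
      · refine Finset.sum_congr rfl fun q _ => ?_
        rw [mul_comm (g q), ← Algebra.smul_def, map_smul, smul_eq_mul, mul_comm]
    have h3 : coeffEmb ℂ x + ∑ q ∈ s, algebraMap ℚ ℂ (π (g q)) • coeffEmb ℂ (jMonomial N q)
        = 0 := by
      rw [show coeffEmb ℂ x + ∑ q ∈ s, algebraMap ℚ ℂ (π (g q)) • coeffEmb ℂ (jMonomial N q)
        = coeffEmb ℂ (x + ∑ q ∈ s, π (g q) • jMonomial N q) from ?_, h2, map_zero]
      rw [map_add, map_sum]
      congr 1
      refine Finset.sum_congr rfl fun q _ => ?_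
      ext k
      simp only [HahnSeries.coeff_smul, coeffEmb_coeff, smul_eq_mul, map_mul]
    have h4 : ∑ q ∈ s, (g q - algebraMap ℚ ℂ (π (g q))) • coeffEmb ℂ (jMonomial N q) = 0 := by
      simp only [sub_smul, Finset.sum_sub_distrib]
      exact sub_eq_zero.mpr (add_left_cancel (h1.trans h3.symm))
    exact sub_eq_zero.mp
      (linearIndependent_iff'.mp (linearIndependent_coeffEmb_jMonomial ℂ N) s _ h4 p hp)
  have hint : ∀ p ∈ s, ∃ z : ℤ, g p = (z : ℂ) := by
    intro p hp
    have hi : IsIntegral ℤ (g p) := by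
      have h := isIntegral_coeff_of_aeval_jq_mem
        (aeval_coeff_conjugatePolynomial_mem N hR (p.1 : ℕ)) p.2
      rwa [hsplit, Polynomial.coeff_add, Polynomial.coeff_X_pow,
        if_neg (Nat.ne_of_lt p.1.2), zero_add] at h
    rw [hrat p hp] at hi ⊢
    rw [isIntegral_algebraMap_iff (algebraMap ℚ ℂ).injective] at hi
    obtain ⟨z, hz⟩ := IsIntegrallyClosed.isIntegral_iff.mp hi
    exact ⟨z, by rw [← hz]; simp⟩
  choose! z hz using hint
  set Φ₀ : Polynomial (Polynomial ℤ) :=
    ∑ p ∈ s, Polynomial.monomial (p.1 : ℕ) (Polynomial.monomial p.2 (z p))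
  have hmap : (Polynomial.X ^ n + Φ₀).map (Polynomial.mapRingHom (Int.castRingHom ℂ)) = R := by
    rw [Polynomial.map_add, Polynomial.map_pow, Polynomial.map_X, hsplit, hs, combPoly,
      Polynomial.map_sum]
    congr 1
    refine Finset.sum_congr rfl fun p hp => ?_
    rw [Polynomial.map_monomial, Polynomial.coe_mapRingHom, Polynomial.map_monomial,
      eq_intCast, ← hz p hp]
  have hinj : Function.Injective (Polynomial.mapRingHom (Int.castRingHom ℂ)) :=
    Polynomial.map_injective _ Int.cast_injective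
  refine ⟨Polynomial.X ^ n + Φ₀, Polynomial.monic_of_injective hinj (hmap ▸ hRm), ?_, ?_, ?_⟩
  · rw [← Polynomial.natDegree_map_eq_of_injective hinj, hmap, hRd]
  · have hcomp : (coeffEmb ℂ).comp evalAtJ =
        (Polynomial.aeval (coeffEmb ℂ jq)).toRingHom.comp
          (Polynomial.mapRingHom (Int.castRingHom ℂ)) := by
      refine Polynomial.ringHom_ext' (Subsingleton.elim _ _) ?_
      simp
    refine (map_eq_zero_iff (coeffEmb ℂ) (coeffEmb ℂ).injective).mp ?_
    rw [Polynomial.hom_eval₂, hcomp, ← Polynomial.eval₂_map, hmap]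
    exact hvan
  · intro τ
    have hcomp : (Polynomial.aeval (R := ℤ) (jFun τ)).toRingHom =
        (Polynomial.evalRingHom (jFun τ)).comp (Polynomial.mapRingHom (Int.castRingHom ℂ)) := by
      refine Polynomial.ringHom_ext' (Subsingleton.elim _ _) ?_
      simp
    rw [hcomp, ← Polynomial.map_map, hmap, hR]

/-- The modular polynomial. -/
def modularPolynomialData (N : ℕ) [NeZero N] : ModularPolynomialData N :=
  letI := Fintype.ofFinite (Gamma0Coset N)
  { Φ := (exists_modularPolynomial N).choose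
    monic := (exists_modularPolynomial N).choose_spec.1
    natDegree_eq := (exists_modularPolynomial N).choose_spec.2.1
    eval_eq_zero := (exists_modularPolynomial N).choose_spec.2.2.1 }

end FermatLib.Modular

end
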