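import Fermat.Prelude.Def_ModularCurve_ArithmeticGalois
import Fermat.Agent.Modular.ModularPoly

/-!
# Generation of the function field of `X₀(N)`
-/

set_option autoImplicit false

noncomputable section

open UpperHalfPlane CongruenceSubgroup ModularCurve
open scoped MatrixGroups ModularForm

namespace FermatLib.Modular

/-- The function field of `X₀(N)` over `ℂ`, as a field of `q`-expansions. -/
abbrev modularFunctionFieldCx (N : ℕ) : IntermediateField ℂ (LaurentSeries ℂ) :=
  laurentBaseChange ℂ (modularFunctionFieldFull N)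

variable (L : Type*) [Field L] [Algebra ℚ L] (N : ℕ) [NeZero N]

theorem biSer_mem_adjoin (P : Polynomial (Polynomial L)) :
    biSer L N P ∈ Algebra.adjoin L {coeffEmb L jq, coeffEmb L (qExpand ℚ N jq)} := by
  induction P using Polynomial.induction_on' with
  | add p q hp hq => rw [map_add]; exact add_mem hp hq
  | monomial b p =>
    induction p using Polynomial.induction_on' with
    | add p q hp hq =>
      rw [map_add, map_add]
      exact add_mem hp hq
    | monomial a c =>
      rw [biSer_monomial, map_mul, map_pow, map_pow]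
      refine mul_mem (Subalgebra.algebraMap_mem _ c) (mul_mem (pow_mem ?_ a) (pow_mem ?_ b))
      · exact Algebra.subset_adjoin (Or.inl rfl)
      · exact Algebra.subset_adjoin (Or.inr rfl)

variable {L}

theorem qExpL_mem_adjoin_pair {G : ℍ → ℂ} (hG : G ∈ weakMod (Gamma0 N)) :
    qExpL G ∈ IntermediateField.adjoin ℂ {coeffEmb ℂ jq, coeffEmb ℂ (qExpand ℚ N jq)} := by
  letI := Fintype.ofFinite (Gamma0Coset N)
  obtain ⟨R, hR⟩ := exists_interpolation N hG
  obtain ⟨D, hD⟩ := exists_interpolation N (one_mem (weakMod (Gamma0 N)))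
  have hne : biEval N D ≠ 0 := by
    intro h
    refine otherConjProd_ne_zero N (funext fun τ => ?_)
    have h1 := hD τ
    rw [← biEval_apply, h, Pi.one_apply, one_mul] at h1
    exact h1
  have hmul : (⟨G, hG⟩ : weakMod (Gamma0 N)) * biEval N D = biEval N R := by
    apply Subtype.ext
    funext τ
    simp only [MulMemClass.coe_mul, Pi.mul_apply, biEval_apply, ← hD τ, ← hR τ, Pi.one_apply,
      one_mul]
  have h := congrArg (qExpWeak N) hmul
  rw [map_mul, qExpWeak_biEval, qExpWeak_biEval, qExpWeak_apply] at h
  have hD0 : biSer ℂ N D ≠ 0 := by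
    rw [← qExpWeak_biEval, map_ne_zero_iff _ (qExpWeak_injective N)]
    exact hne
  rw [eq_div_iff hD0 |>.mpr h]
  exact div_mem (IntermediateField.algebra_adjoin_le_adjoin _ _ (biSer_mem_adjoin ℂ N R))
    (IntermediateField.algebra_adjoin_le_adjoin _ _ (biSer_mem_adjoin ℂ N D))

/-- `j (q^d)` is in `ℚ(j (q), j (q^M))` for `d ∣ M`. -/
theorem functionFieldGeneration (M : ℕ) [NeZero M] : FunctionFieldGeneration M := by
  intro d hd hne
  haveI := hne
  show qExpand ℚ d jq ∈ modularFunctionField M
  refine mem_of_coeffEmb_mem_laurentBaseChange (L := ℂ) ?_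
  have h := qExpL_mem_adjoin_pair M (jScaleFun_mem_weakMod (N := M) hd)
  rw [qExpL_jScaleFun] at h
  refine IntermediateField.adjoin_le_iff.mpr ?_ h
  rintro x (rfl | rfl)
  · exact coeffEmb_mem_laurentBaseChange ℂ (jq_mem M)
  · exact coeffEmb_mem_laurentBaseChange ℂ (jqN_mem M)

theorem modularFunctionFieldFull_eq : modularFunctionFieldFull N = modularFunctionField N := by
  refine le_antisymm ?_ (modularFunctionField_le_full N)
  rw [modularFunctionFieldFull, IntermediateField.adjoin_le_iff]
  rintro x ⟨d, hne, hd, rfl⟩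
  exact functionFieldGeneration N d hd hne

variable (L) in
theorem laurentBaseChange_full_eq_adjoin :
    laurentBaseChange L (modularFunctionFieldFull N) =
      IntermediateField.adjoin L {coeffEmb L jq, coeffEmb L (qExpand ℚ N jq)} := by
  refine le_antisymm (IntermediateField.adjoin_le_iff.mpr ?_) ?_
  · rintro _ ⟨x, hx, rfl⟩
    rw [SetLike.mem_coe, modularFunctionFieldFull_eq, modularFunctionField] at hx
    rw [SetLike.mem_coe]
    induction hx using IntermediateField.adjoin_induction with
    | mem y hy =>
      refine IntermediateField.subset_adjoin L _ ?_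
      rcases hy with rfl | rfl
      · exact Set.mem_insert _ _
      · exact Set.mem_insert_of_mem _ rfl
    | algebraMap c =>
      rw [coeffEmb, algebraMap_laurentSeries_eq_single, coeffMap_single,
        ← algebraMap_laurentSeries_eq_single]
      exact IntermediateField.algebraMap_mem _ _
    | add y z _ _ hy hz => rw [map_add]; exact add_mem hy hz
    | inv y _ hy => rw [map_inv₀]; exact inv_mem hy
    | mul y z _ _ hy hz => rw [map_mul]; exact mul_mem hy hz
  · rw [IntermediateField.adjoin_le_iff]
    rintro x (rfl | rfl)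
    · exact coeffEmb_mem_laurentBaseChange L ((modularFunctionField_le_full N) (jq_mem N))
    · exact coeffEmb_mem_laurentBaseChange L (jqd_mem_full N dvd_rfl)

theorem modularFunctionFieldCx_eq_adjoin :
    modularFunctionFieldCx N =
      IntermediateField.adjoin ℂ {coeffEmb ℂ jq, coeffEmb ℂ (qExpand ℚ N jq)} :=
  laurentBaseChange_full_eq_adjoin ℂ N

/-- Expansions of weakly holomorphic modular functions lie in the function field. -/
theorem qExpL_mem_modularFunctionFieldCx {G : ℍ → ℂ} (hG : G ∈ weakMod (Gamma0 N)) :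
    qExpL G ∈ modularFunctionFieldCx N := by
  rw [modularFunctionFieldCx_eq_adjoin]
  exact qExpL_mem_adjoin_pair N hG

/-- Every function is a quotient of weakly holomorphic modular functions. -/
theorem exists_weakMod_div {x : LaurentSeries ℂ} (hx : x ∈ modularFunctionFieldCx N) :
    ∃ A B : weakMod (Gamma0 N), B ≠ 0 ∧ x = qExpWeak N A / qExpWeak N B := by
  rw [modularFunctionFieldCx_eq_adjoin, IntermediateField.mem_adjoin_iff_div] at hx
  obtain ⟨a, ha, b, hb, hab⟩ := hx
  have hle : Algebra.adjoin ℂ {coeffEmb ℂ jq, coeffEmb ℂ (qExpand ℚ N jq)}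
      ≤ (qExpWeak N).range := by
    refine Algebra.adjoin_le ?_
    rintro y (rfl | rfl)
    · exact ⟨⟨jFun, jFun_mem_weakMod _⟩, qExpL_jFun⟩
    · exact ⟨⟨jScaleFun N, jScaleFun_mem_weakMod dvd_rfl⟩, qExpL_jScaleFun N⟩
  obtain ⟨A, hA⟩ := hle ha
  obtain ⟨B, hB⟩ := hle hb
  rcases eq_or_ne B 0 with rfl | hB0
  · refine ⟨0, 1, one_ne_zero, ?_⟩
    have hb0 : b = 0 := hB.symm.trans (map_zero _)
    rw [hab, hb0, div_zero, map_zero, zero_div]
  · exact ⟨A, B, hB0, by rw [hab, ← hA, ← hB]; rfl⟩

/-- Extend an injective map on weakly holomorphic modular functions to the function field. -/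
theorem exists_lift_modularFunctionFieldCx {M : Type*} [Field M]
    (φ : weakMod (Gamma0 N) →+* M) (hφ : Function.Injective φ) :
    ∃ Ψ : modularFunctionFieldCx N →+* M, ∀ (G : weakMod (Gamma0 N))
      (h : qExpWeak N G ∈ modularFunctionFieldCx N), Ψ ⟨qExpWeak N G, h⟩ = φ G := by
  let f : weakMod (Gamma0 N) →+* modularFunctionFieldCx N :=
    (qExpWeak N).toRingHom.codRestrict (modularFunctionFieldCx N)
      fun G => qExpL_mem_modularFunctionFieldCx N G.2
  letI := f.toAlgebra
  have hf : Function.Injective f := fun a b h => qExpWeak_injective N (congrArg Subtype.val h)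
  haveI : FaithfulSMul (weakMod (Gamma0 N)) (modularFunctionFieldCx N) :=
    (faithfulSMul_iff_algebraMap_injective _ _).mpr hf
  haveI : IsFractionRing (weakMod (Gamma0 N)) (modularFunctionFieldCx N) :=
    IsFractionRing.of_field _ _ fun z => by
      obtain ⟨A, B, -, h⟩ := exists_weakMod_div N z.2
      exact ⟨A, B, Subtype.ext h⟩
  refine ⟨IsFractionRing.lift hφ, fun G h => ?_⟩
  exact IsFractionRing.lift_algebraMap hφ G

end FermatLib.Modular

end
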