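import Fermat.Prelude.Thm_CongruenceSubgroup_one_mem_strictPeriods_Gamma0
import Fermat.Agent.Modular.FieldGeneration

/-!
# Function field and quotients of modular forms; polynomial identities between the `j (d τ)`
-/

set_option autoImplicit false

noncomputable section

open UpperHalfPlane Filter CongruenceSubgroup ModularCurve
open scoped MatrixGroups ModularForm Manifold

namespace FermatLib.Modular

local notation "Δ" => ModularForm.discriminant

/-- A polynomial identity between the expansions of the `j (d τ)` holds iff the corresponding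
identity of functions holds. -/
theorem aeval_qExpand_jq_eq_zero_iff {σ : Type*} (d : σ → ℕ) [∀ i, NeZero (d i)]
    (P : MvPolynomial σ ℂ) :
    MvPolynomial.aeval (fun i => coeffEmb ℂ (qExpand ℚ (d i) jq)) P = 0 ↔
      ∀ τ : ℍ, MvPolynomial.aeval (fun i => jScaleFun (d i) τ) P = 0 := by
  let w : σ → qMero := fun i =>
    ⟨jScaleFun (d i), weakMod_Gamma0_le_qMero (d i) (jScaleFun_mem_weakMod dvd_rfl)⟩
  have h1 : qExpLHom (MvPolynomial.aeval w P) =
      MvPolynomial.aeval (fun i => coeffEmb ℂ (qExpand ℚ (d i) jq)) P := by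
    rw [← AlgHom.comp_apply, MvPolynomial.comp_aeval]
    simp [w, qExpL_jScaleFun]
  have h2 : ∀ τ : ℍ, ((MvPolynomial.aeval w P : qMero) : ℍ → ℂ) τ =
      MvPolynomial.aeval (fun i => jScaleFun (d i) τ) P := by
    intro τ
    show ((Pi.evalAlgHom ℂ (fun _ : ℍ => ℂ) τ).comp qMero.val) (MvPolynomial.aeval w P) = _
    rw [← AlgHom.comp_apply, MvPolynomial.comp_aeval]
    rfl
  rw [← h1, map_eq_zero_iff _ qExpLHom_injective]
  exact ⟨fun h τ => by rw [← h2, h]; rfl, fun h => Subtype.ext (funext fun τ => (h2 τ).trans (h τ))⟩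

/-- Rational version of `aeval_qExpand_jq_eq_zero_iff`. -/
theorem aeval_qExpand_jq_rat_eq_zero_iff {σ : Type*} (d : σ → ℕ) [∀ i, NeZero (d i)]
    (P : MvPolynomial σ ℚ) :
    MvPolynomial.aeval (fun i => qExpand ℚ (d i) jq) P = 0 ↔
      ∀ τ : ℍ, MvPolynomial.aeval (fun i => jScaleFun (d i) τ) P = 0 := by
  have h1 : coeffEmb ℂ (MvPolynomial.aeval (fun i => qExpand ℚ (d i) jq) P) =
      MvPolynomial.aeval (fun i => coeffEmb ℂ (qExpand ℚ (d i) jq))
        (MvPolynomial.map (algebraMap ℚ ℂ) P) := by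
    induction P using MvPolynomial.induction_on with
    | C a =>
      rw [MvPolynomial.aeval_C, MvPolynomial.map_C, MvPolynomial.aeval_C, coeffEmb,
        algebraMap_laurentSeries_eq_single, algebraMap_laurentSeries_eq_single, coeffMap_single]
    | add p q hp hq => simp [hp, hq]
    | mul_X p i hp => simp [hp]
  rw [← map_eq_zero_iff _ (coeffEmb ℂ).injective, h1, aeval_qExpand_jq_eq_zero_iff]
  simp_rw [MvPolynomial.aeval_map_algebraMap]

variable {N : ℕ}

/-- A weakly holomorphic function times a power of `Δ` is a modular form. -/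
theorem exists_forall_isBounded_mul_pow [NeZero N] (G : weakMod (Gamma0 N)) :
    ∃ M : ℕ, ∀ m, M ≤ m → ∀ γ : SL(2, ℤ),
      IsBoundedAtImInfty ((fun τ => (G : ℍ → ℂ) (γ • τ)) * Δ ^ m) := by
  classical
  letI := Fintype.ofFinite (Gamma0Coset N)
  have h : ∀ q : Gamma0Coset N, ∃ m : ℕ,
      IsBoundedAtImInfty (cosetFun (G : ℍ → ℂ) q * Δ ^ m) := fun q =>
    (mem_weakMod.mp G.2).2.2 q.out⁻¹
  choose μ hμ using h
  refine ⟨Finset.univ.sup μ, fun m hm γ => ?_⟩
  obtain ⟨d, rfl⟩ := Nat.exists_eq_add_of_le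
    ((Finset.le_sup (f := μ) (Finset.mem_univ ((γ⁻¹ : SL(2, ℤ)) : Gamma0Coset N))).trans hm)
  rw [show (fun τ => (G : ℍ → ℂ) (γ • τ)) = cosetFun (G : ℍ → ℂ)
      ((γ⁻¹ : SL(2, ℤ)) : Gamma0Coset N) from funext fun τ => by rw [cosetFun_mk G.2, inv_inv],
    pow_add, ← mul_assoc]
  exact BoundedAtFilter.mul (hμ _) (isBoundedAtImInfty_discriminant_pow d)

theorem mul_discriminant_pow_slash {G : ℍ → ℂ} (m : ℕ) (γ : SL(2, ℤ)) :
    (G * Δ ^ m) ∣[((12 * m : ℕ) : ℤ)] γ = (fun τ => G (γ • τ)) * Δ ^ m := by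
  funext τ
  have hd : UpperHalfPlane.denom γ τ ≠ 0 := UpperHalfPlane.denom_ne_zero γ τ
  have hΔ := slash_SL_apply_eq (slash_SL_eq_self CuspForm.discriminant γ) τ
  rw [CuspForm.coe_discriminant] at hΔ
  rw [ModularForm.SL_slash_apply]
  simp only [Pi.mul_apply, Pi.pow_apply]
  rw [hΔ, mul_pow, ← zpow_natCast (_ ^ (12 : ℤ)) m, ← zpow_mul, zpow_neg, Nat.cast_mul,
    Nat.cast_ofNat]
  field_simp [zpow_ne_zero]

/-- The modular form `G · Δ^m`. -/
def toModularForm [NeZero N] (G : weakMod (Gamma0 N)) {m : ℕ}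
    (hm : ∀ γ : SL(2, ℤ), IsBoundedAtImInfty ((fun τ => (G : ℍ → ℂ) (γ • τ)) * Δ ^ m)) :
    ModularForm (Gamma0 N) ((12 * m : ℕ) : ℤ) where
  toFun := (G : ℍ → ℂ) * Δ ^ m
  slash_action_eq' A hA := by
    obtain ⟨γ, hγ, rfl⟩ := hA
    show ((G : ℍ → ℂ) * Δ ^ m) ∣[((12 * m : ℕ) : ℤ)] γ = _
    rw [mul_discriminant_pow_slash,
      funext fun τ => (mem_weakMod.mp G.2).2.1 γ hγ τ]
  holo' := (mem_qMero.mp (mul_mem (weakMod_Gamma0_le_qMero N G.2)
    (pow_mem discriminant_mem_qMero m))).2.1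
  bdd_at_cusps' {c} hc := by
    rw [Subgroup.IsArithmetic.isCusp_iff_isCusp_SL2Z] at hc
    rw [OnePoint.isBoundedAt_iff_forall_SL2Z hc]
    intro γ _
    rw [mul_discriminant_pow_slash]
    exact hm γ

@[simp]
theorem coe_toModularForm [NeZero N] (G : weakMod (Gamma0 N)) {m : ℕ}
    (hm : ∀ γ : SL(2, ℤ), IsBoundedAtImInfty ((fun τ => (G : ℍ → ℂ) (γ • τ)) * Δ ^ m)) :
    ⇑(toModularForm G hm) = (G : ℍ → ℂ) * Δ ^ m := rfl

theorem qExpL_mul_qExpDelta_pow [NeZero N] (G : weakMod (Gamma0 N)) {m : ℕ}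
    (hm : ∀ γ : SL(2, ℤ), IsBoundedAtImInfty ((fun τ => (G : ℍ → ℂ) (γ • τ)) * Δ ^ m)) :
    qExpWeak N G * qExpDelta ^ m =
      HahnSeries.ofPowerSeries ℤ ℂ (qExpansion 1 (toModularForm G hm)) := by
  rw [coe_toModularForm, qExpWeak_apply, qExpL_mul_pow (weakMod_Gamma0_le_qMero N G.2)]
  simpa only [one_smul] using hm 1

variable (N) in
/-- Every function is a quotient of modular forms of the same weight `12 m`. -/
theorem exists_modularForm_div [NeZero N] {x : LaurentSeries ℂ}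
    (hx : x ∈ modularFunctionFieldCx N) :
    ∃ (m : ℕ) (g h : ModularForm (Gamma0 N) ((12 * m : ℕ) : ℤ)), h ≠ 0 ∧
      x = HahnSeries.ofPowerSeries ℤ ℂ (qExpansion 1 g) /
        HahnSeries.ofPowerSeries ℤ ℂ (qExpansion 1 h) := by
  obtain ⟨A, B, hB, rfl⟩ := exists_weakMod_div N hx
  obtain ⟨a, ha⟩ := exists_forall_isBounded_mul_pow A
  obtain ⟨b, hb⟩ := exists_forall_isBounded_mul_pow B
  refine ⟨a + b, toModularForm A (ha _ (Nat.le_add_right a b)),
    toModularForm B (hb _ (Nat.le_add_left b a)), fun h => hB (Subtype.ext (funext fun τ => ?_)), ?_⟩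
  · have h' := congrFun (congrArg DFunLike.coe h) τ
    simp only [coe_toModularForm, Pi.mul_apply, Pi.pow_apply, FunLike.coe_zero, Pi.zero_apply,
      mul_eq_zero] at h'
    exact h'.resolve_right (pow_ne_zero _ (ModularForm.discriminant_ne_zero τ))
  · rw [← qExpL_mul_qExpDelta_pow A, ← qExpL_mul_qExpDelta_pow B,
      mul_div_mul_right _ _ (pow_ne_zero _ qExpDelta_ne_zero)]

/-- Periodicity of a modular form on `Γ₀(N)`. -/
theorem modularForm_mem_qMero {k : ℤ} (f : ModularForm (Gamma0 N) k) :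
    (⇑f) ∈ qMero ∧ IsBoundedAtImInfty (⇑f) := by
  have hper : (1 : ℝ) ∈ (Gamma0 N : Subgroup (GL (Fin 2) ℝ)).strictPeriods :=
    CongruenceSubgroup.one_mem_strictPeriods_Gamma0 N
  have hb : IsBoundedAtImInfty (⇑f) := by
    haveI : Fact (IsCusp OnePoint.infty (Gamma0 N : Subgroup (GL (Fin 2) ℝ))) :=
      ⟨Subgroup.isCusp_of_mem_strictPeriods one_pos hper⟩
    exact ModularFormClass.bdd_at_infty f
  refine ⟨mem_qMero.mpr ⟨fun τ => ?_, ModularFormClass.holo f, 0, by simpa using hb⟩, hb⟩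
  have h := SlashInvariantFormClass.periodic_comp_ofComplex f hper (τ : ℂ)
  simp only [Function.comp_apply] at h
  rw [show (τ : ℂ) + ((1 : ℝ) : ℂ) = (((1 : ℝ) +ᵥ τ : ℍ) : ℂ) by simp [add_comm],
    ofComplex_apply, ofComplex_apply] at h
  exact h

variable (N) in
/-- Quotients of modular forms of equal weight are in the function field. -/
theorem div_qExpansion_mem_modularFunctionFieldCx [NeZero N] {k : ℤ}
    (g h : ModularForm (Gamma0 N) k) :
    HahnSeries.ofPowerSeries ℤ ℂ (qExpansion 1 g) /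
      HahnSeries.ofPowerSeries ℤ ℂ (qExpansion 1 h) ∈ modularFunctionFieldCx N := by
  -- clear denominators: multiply by `h ^ 11 / Δ ^ k`
  have key : ∀ f : ModularForm (Gamma0 N) k,
      (fun τ => f τ * h τ ^ 11 * Δ τ ^ (-k)) ∈ weakMod (Gamma0 N) := by
    intro f
    have hinv : ∀ (γ : SL(2, ℤ)) (τ : ℍ),
        f (γ • τ) * h (γ • τ) ^ 11 * Δ (γ • τ) ^ (-k) =
          ((⇑f) ∣[k] γ) τ * ((⇑h) ∣[k] γ) τ ^ 11 * Δ τ ^ (-k) := by
      intro γ τ
      have hd : UpperHalfPlane.denom γ τ ≠ 0 := UpperHalfPlane.denom_ne_zero γ τ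
      have hΔ := slash_SL_apply_eq (slash_SL_eq_self CuspForm.discriminant γ) τ
      rw [CuspForm.coe_discriminant] at hΔ
      rw [hΔ, ModularForm.SL_slash_apply, ModularForm.SL_slash_apply]
      set δ := UpperHalfPlane.denom γ τ
      rw [mul_zpow, ← zpow_mul, mul_pow, ← zpow_natCast (δ ^ (-k)) 11, ← zpow_mul,
        show (12 : ℤ) * (-k) = -k + -k * ((11 : ℕ) : ℤ) by push_cast; ring, zpow_add₀ hd]
      ring
    refine mem_weakMod.mpr ⟨?_, fun γ hγ τ => ?_, fun γ => ⟨k.toNat, ?_⟩⟩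
    · rw [show (fun τ => f τ * h τ ^ 11 * Δ τ ^ (-k)) = (⇑f * ⇑h ^ 11 * Δ ^ (-k).toNat) /
          fun τ => Δ τ ^ k.toNat by
        funext τ
        have hΔ := ModularForm.discriminant_ne_zero τ
        simp only [Pi.mul_apply, Pi.div_apply, Pi.pow_apply]
        rw [mul_div_assoc, ← zpow_natCast _ (-k).toNat, ← zpow_natCast _ k.toNat,
          ← zpow_sub₀ hΔ]
        congr 2
        omega]
      exact ((mem_qMero.mp (mul_mem (mul_mem (modularForm_mem_qMero f).1
        (pow_mem (modularForm_mem_qMero h).1 11)) (pow_mem discriminant_mem_qMero _))).2.1).div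
        (mem_qMero.mp (pow_mem discriminant_mem_qMero k.toNat)).2.1
        fun τ => pow_ne_zero _ (ModularForm.discriminant_ne_zero τ)
    · rw [hinv γ τ]
      have hf : ∀ φ : ModularForm (Gamma0 N) k, (⇑φ) ∣[k] γ = ⇑φ := fun φ => by
        rw [ModularForm.SL_slash]
        exact SlashInvariantFormClass.slash_action_eq φ _ ⟨γ, hγ, rfl⟩
      rw [hf, hf]
    · rw [show (fun τ => (fun σ => f σ * h σ ^ 11 * Δ σ ^ (-k)) (γ • τ)) * Δ ^ k.toNat =
          ((⇑f) ∣[k] γ) * ((⇑h) ∣[k] γ) ^ 11 * Δ ^ (-k).toNat by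
        funext τ
        have hΔ := ModularForm.discriminant_ne_zero τ
        simp only [Pi.mul_apply, Pi.pow_apply, hinv γ τ]
        rw [mul_assoc _ (Δ τ ^ (-k)), ← zpow_natCast _ k.toNat, ← zpow_add₀ hΔ,
          ← zpow_natCast _ (-k).toNat]
        congr 2
        omega]
      exact BoundedAtFilter.mul (BoundedAtFilter.mul
        (ModularFormClass.bdd_at_infty_slash f γ)
        (pow_mem (show (⇑h) ∣[k] γ ∈ boundedAtImInftySubalgebra ℂ from
          ModularFormClass.bdd_at_infty_slash h γ) 11))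
        (isBoundedAtImInfty_discriminant_pow _)
  by_cases hh : h = 0
  · rw [hh, FunLike.coe_zero, qExpansion_zero, map_zero, div_zero]
    exact zero_mem _
  obtain ⟨hgm, hgb⟩ := modularForm_mem_qMero g
  obtain ⟨hhm, hhb⟩ := modularForm_mem_qMero h
  set U : weakMod (Gamma0 N) := ⟨_, key g⟩
  set V : weakMod (Gamma0 N) := ⟨_, key h⟩
  have hV : V ≠ 0 := by
    intro hV
    refine hh (DFunLike.ext _ _ fun τ => ?_)
    have h' := congrFun (congrArg Subtype.val hV) τ
    simp only [V, ZeroMemClass.coe_zero, Pi.zero_apply, mul_eq_zero, pow_eq_zero_iff',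
      zpow_ne_zero (-k) (ModularForm.discriminant_ne_zero τ), or_false] at h'
    simpa using h'
  have hUV : qExpWeak N U * qExpL ⇑h = qExpWeak N V * qExpL ⇑g := by
    rw [qExpWeak_apply, qExpWeak_apply, ← qExpL_mul (weakMod_Gamma0_le_qMero N U.2) hhm,
      ← qExpL_mul (weakMod_Gamma0_le_qMero N V.2) hgm]
    congr 1
    funext τ
    simp only [U, V, Pi.mul_apply]
    ring
  have hh0 : qExpL ⇑h ≠ 0 := fun h0 => hh (DFunLike.ext' ((qExpL_eq_zero_iff hhm).mp h0))
  rw [← qExpL_of_bounded hgm hgb, ← qExpL_of_bounded hhm hhb,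
    show qExpL ⇑g / qExpL ⇑h = qExpWeak N U / qExpWeak N V by
      rw [div_eq_div_iff hh0 ((map_ne_zero_iff _ (qExpWeak_injective N)).mpr hV)]
      linear_combination -hUV]
  exact div_mem (qExpL_mem_modularFunctionFieldCx N U.2) (qExpL_mem_modularFunctionFieldCx N V.2)

end FermatLib.Modular

end
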