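import Fermat.Agent.Modular.FieldDegree
import Fermat.Agent.Modular.FieldForms

/-!
# The function field of `X₀(N)` over `ℂ`

Collects the API: `FieldGeneration` (weakly holomorphic functions), `FieldForms` (quotients of
modular forms), `FieldDegree` (degree over `L(j)`), and the bridge from `ℚ̄` to `ℂ`.
-/

set_option autoImplicit false

noncomputable section

open ModularCurve

namespace FermatLib.Modular

section Bridge

variable (ι : AlgebraicClosure ℚ →+* ℂ)

theorem coeffMap_coeffEmb_of_ringHom (x : LaurentSeries ℚ) :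
    coeffMap ι (coeffEmb (AlgebraicClosure ℚ) x) = coeffEmb ℂ x := by
  rw [coeffEmb, coeffEmb, coeffMap_coeffMap]
  exact coeffMap_congr (Subsingleton.elim _ _) x

theorem coeffMap_mem_modularFunctionFieldCx (N : ℕ)
    {x : LaurentSeries (AlgebraicClosure ℚ)} (hx : x ∈ modularFunctionFieldBar N) :
    coeffMap ι x ∈ modularFunctionFieldCx N := by
  rw [mem_laurentBaseChange_iff] at hx
  induction hx using Subfield.closure_induction with
  | mem y hy =>
      rcases hy with ⟨a, rfl⟩ | ⟨z, hz, rfl⟩
      · rw [algebraMap_laurentSeries_eq_single, coeffMap_single,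
          ← algebraMap_laurentSeries_eq_single]
        exact (modularFunctionFieldCx N).algebraMap_mem _
      · rw [coeffMap_coeffEmb_of_ringHom]
        exact coeffEmb_mem_laurentBaseChange ℂ hz
  | one => simp
  | add x y _ _ hx hy => simpa using add_mem hx hy
  | neg x _ hx => simpa using neg_mem hx
  | inv x _ hx => simpa using inv_mem hx
  | mul x y _ _ hx hy => simpa using mul_mem hx hy

/-- The embedding `ℚ̄(X₀(N)) → ℂ(X₀(N))` attached to `ι`. -/
def barToCx (N : ℕ) : modularFunctionFieldBar N →+* modularFunctionFieldCx N where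
  toFun x := ⟨coeffMap ι (x : LaurentSeries (AlgebraicClosure ℚ)),
    coeffMap_mem_modularFunctionFieldCx ι N x.2⟩
  map_one' := Subtype.ext (map_one _)
  map_mul' x y := Subtype.ext (map_mul (coeffMap ι) _ _)
  map_zero' := Subtype.ext (map_zero _)
  map_add' x y := Subtype.ext (map_add (coeffMap ι) _ _)

@[simp]
theorem coe_barToCx (N : ℕ) (x : modularFunctionFieldBar N) :
    (barToCx ι N x : LaurentSeries ℂ) = coeffMap ι (x : LaurentSeries (AlgebraicClosure ℚ)) := rfl

/-- Descent from `ℂ(X₀(N))` to `ℚ̄(X₀(N))`. -/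
theorem mem_modularFunctionFieldBar_of_coeffMap_mem (N : ℕ)
    {x : LaurentSeries (AlgebraicClosure ℚ)} (hx : coeffMap ι x ∈ modularFunctionFieldCx N) :
    x ∈ modularFunctionFieldBar N := by
  letI := ι.toAlgebra
  refine mem_of_coeffMap_mem_adjoin (L := ℂ) ?_
  show coeffMap ι x ∈ IntermediateField.adjoin ℂ
    (⇑(coeffMap ι) '' (modularFunctionFieldBar N : Set (LaurentSeries (AlgebraicClosure ℚ))))
  refine IntermediateField.adjoin.mono ℂ _ _ ?_ hx
  rintro _ ⟨z, hz, rfl⟩
  exact ⟨coeffEmb _ z, coeffEmb_mem_laurentBaseChange _ hz, coeffMap_coeffEmb_of_ringHom ι z⟩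

end Bridge

end FermatLib.Modular

end
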