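import Mathlib.LinearAlgebra.Matrix.SpecialLinearGroup
import Mathlib.LinearAlgebra.Matrix.Adjugate
import Mathlib.LinearAlgebra.Matrix.Trace
import Mathlib.Dynamics.PeriodicPts.Defs
import Mathlib.GroupTheory.OrderOfElement
import Mathlib.GroupTheory.Perm.Basic
import Mathlib.Algebra.Module.Hom

/-!
# Hecke operators on homomorphisms by transfer

A Hecke system for `Γ ≤ SL(2, ℤ)` is a finite family of integral matrices `α i` representing a
finite union of double cosets: the set of right cosets `Γ α i` is stable under right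
multiplication by `Γ`.  It acts on homomorphisms `φ : Γ → A` by `γ ↦ ∑ i, φ (h i γ)`, where
`α i * γ = h i γ * α (σ γ i)`.
-/

set_option autoImplicit false

open scoped MatrixGroups
open Finset

namespace FermatLib.Modular

local notation "M2Z" => Matrix (Fin 2) (Fin 2) ℤ

theorem matMul_right_cancel {A B δ : M2Z} (hδ : δ.det ≠ 0) (h : A * δ = B * δ) : A = B := by
  have h' := congrArg (fun M => M * δ.adjugate) h
  simp only [Matrix.mul_assoc, Matrix.mul_adjugate, Matrix.mul_smul, mul_one] at h'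
  exact smul_right_injective _ hδ h'

theorem sum_eq_zero_of_forall_cycle {ι A : Type*} [Finite ι] [DecidableEq ι] [AddCommMonoid A]
    (σ : ι → ι) (hσ : Function.Injective σ) (f : ι → A)
    (h : ∀ i, ∀ m, 0 < m → σ^[m] i = i → ∑ t ∈ range m, f (σ^[t] i) = 0)
    (s : Finset ι) (hs : ∀ i ∈ s, σ i ∈ s) : ∑ i ∈ s, f i = 0 := by
  induction s using Finset.strongInduction with
  | H s ih =>
    rcases s.eq_empty_or_nonempty with rfl | ⟨i, hi⟩
    · simp
    set m := Function.minimalPeriod σ i with hm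
    have hper : Function.IsPeriodicPt σ m i := Function.isPeriodicPt_minimalPeriod σ i
    have hmpos : 0 < m := Function.minimalPeriod_pos_of_mem_periodicPts
      (Function.Injective.mem_periodicPts hσ i)
    have hiter : ∀ t, σ^[t] i ∈ s := by
      intro t
      induction t with
      | zero => exact hi
      | succ t iht => rw [Function.iterate_succ_apply']; exact hs _ iht
    set O := (range m).image (fun t => σ^[t] i) with hO
    have hOs : O ⊆ s := fun j hj => by
      obtain ⟨t, -, rfl⟩ := Finset.mem_image.1 hj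
      exact hiter t
    have hsumO : ∑ j ∈ O, f j = 0 := by
      rw [hO, Finset.sum_image]
      · exact h i m hmpos hper
      · intro a ha b hb hab
        exact Function.iterate_injOn_Iio_minimalPeriod (Set.mem_Iio.2 (mem_range.1 ha))
          (Set.mem_Iio.2 (mem_range.1 hb)) hab
    rw [← Finset.sum_sdiff hOs, hsumO, add_zero]
    refine ih _ (Finset.sdiff_ssubset hOs ?_) fun j hj => ?_
    · exact ⟨i, Finset.mem_image.2 ⟨0, mem_range.2 hmpos, rfl⟩⟩
    obtain ⟨hjs, hjO⟩ := Finset.mem_sdiff.1 hj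
    refine Finset.mem_sdiff.2 ⟨hs j hjs, fun hσj => hjO ?_⟩
    obtain ⟨t, ht, hte⟩ := Finset.mem_image.1 hσj
    rw [mem_range] at ht
    cases t with
    | zero =>
      refine Finset.mem_image.2 ⟨m - 1, mem_range.2 (by omega), hσ ?_⟩
      rw [← hte]
      show σ (σ^[m - 1] i) = σ^[0] i
      rw [← Function.iterate_succ_apply' σ (m - 1) i, Nat.succ_eq_add_one,
        Nat.sub_add_cancel hmpos, hper, Function.iterate_zero_apply]
    | succ t =>
      refine Finset.mem_image.2 ⟨t, mem_range.2 (by omega), hσ ?_⟩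
      rw [← hte, Function.iterate_succ_apply']

/-- A finite family of integral matrices whose `Γ`-cosets are permuted by right
multiplication by `Γ`. -/
structure HeckeSystem (Γ : Subgroup SL(2, ℤ)) (ι : Type) where
  rep : ι → Matrix (Fin 2) (Fin 2) ℤ
  det_ne_zero : ∀ i, (rep i).det ≠ 0
  eq_of_mul_rep : ∀ i j (h : SL(2, ℤ)), (h : M2Z) * rep i = rep j → i = j
  exists_mul_eq : ∀ i (γ : Γ), ∃ j : ι, ∃ h : Γ,
    rep i * ((γ : SL(2, ℤ)) : M2Z) = ((h : SL(2, ℤ)) : M2Z) * rep j

namespace HeckeSystem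

variable {Γ : Subgroup SL(2, ℤ)} {ι : Type} (D : HeckeSystem Γ ι)

/-- The index of the coset `Γ α i γ`. -/
noncomputable def next (γ : Γ) (i : ι) : ι := (D.exists_mul_eq i γ).choose

/-- The element `h` with `α i γ = h α (next γ i)`. -/
noncomputable def elt (γ : Γ) (i : ι) : Γ := (D.exists_mul_eq i γ).choose_spec.choose

theorem rep_mul (γ : Γ) (i : ι) :
    D.rep i * ((γ : SL(2, ℤ)) : M2Z) = ((D.elt γ i : SL(2, ℤ)) : M2Z) * D.rep (D.next γ i) :=
  (D.exists_mul_eq i γ).choose_spec.choose_spec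

theorem next_elt_eq_of_eq {γ h : Γ} {i j : ι}
    (e : D.rep i * ((γ : SL(2, ℤ)) : M2Z) = ((h : SL(2, ℤ)) : M2Z) * D.rep j) :
    D.next γ i = j ∧ D.elt γ i = h := by
  have e' := (D.rep_mul γ i).symm.trans e
  have hj : D.next γ i = j := by
    refine D.eq_of_mul_rep _ _ ((h : SL(2, ℤ))⁻¹ * (D.elt γ i : SL(2, ℤ))) ?_
    rw [Matrix.SpecialLinearGroup.coe_mul, Matrix.mul_assoc, e', ← Matrix.mul_assoc,
      ← Matrix.SpecialLinearGroup.coe_mul, inv_mul_cancel, Matrix.SpecialLinearGroup.coe_one,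
      one_mul]
  rw [hj] at e'
  exact ⟨hj, Subtype.ext (Subtype.ext (matMul_right_cancel (D.det_ne_zero j) e'))⟩

theorem next_elt_mul (γ δ : Γ) (i : ι) :
    D.next (γ * δ) i = D.next δ (D.next γ i) ∧
      D.elt (γ * δ) i = D.elt γ i * D.elt δ (D.next γ i) := by
  refine D.next_elt_eq_of_eq ?_
  simp only [Subgroup.coe_mul, Matrix.SpecialLinearGroup.coe_mul]
  rw [← Matrix.mul_assoc, D.rep_mul, Matrix.mul_assoc, D.rep_mul, ← Matrix.mul_assoc]

@[simp]
theorem next_one (i : ι) : D.next 1 i = i :=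
  (D.next_elt_eq_of_eq (γ := 1) (h := 1) (i := i) (j := i) (by simp)).1

@[simp]
theorem elt_one (i : ι) : D.elt 1 i = 1 :=
  (D.next_elt_eq_of_eq (γ := 1) (h := 1) (i := i) (j := i) (by simp)).2

theorem next_bijective (γ : Γ) : Function.Bijective (D.next γ) := by
  refine Function.bijective_iff_has_inverse.2 ⟨D.next γ⁻¹, fun i => ?_, fun i => ?_⟩
  · rw [← (D.next_elt_mul γ γ⁻¹ i).1, mul_inv_cancel, next_one]
  · rw [← (D.next_elt_mul γ⁻¹ γ i).1, inv_mul_cancel, next_one]

theorem next_pow (γ : Γ) (k : ℕ) (i : ι) : D.next (γ ^ k) i = (D.next γ)^[k] i := by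
  induction k with
  | zero => simp
  | succ k ih => rw [pow_succ, (D.next_elt_mul _ _ _).1, ih, Function.iterate_succ_apply']

theorem map_elt_pow {A : Type*} [AddCommGroup A] (φ : Additive Γ →+ A) (γ : Γ) (k : ℕ) (i : ι) :
    φ (Additive.ofMul (D.elt (γ ^ k) i)) =
      ∑ t ∈ range k, φ (Additive.ofMul (D.elt γ ((D.next γ)^[t] i))) := by
  induction k with
  | zero => simp
  | succ k ih =>
    rw [pow_succ, (D.next_elt_mul _ _ _).2, ofMul_mul, map_add, ih, D.next_pow,
      Finset.sum_range_succ]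

/-- At a fixed coset the element `h` has the same trace. -/
theorem trace_elt {γ : Γ} {i : ι} (hi : D.next γ i = i) :
    Matrix.trace ((D.elt γ i : SL(2, ℤ)) : M2Z) = Matrix.trace ((γ : SL(2, ℤ)) : M2Z) := by
  have e := D.rep_mul γ i
  rw [hi] at e
  have e' := congrArg (fun M => (M * (D.rep i).adjugate).trace) e
  simp only [Matrix.mul_assoc, Matrix.mul_adjugate, Matrix.mul_smul, mul_one] at e'
  rw [Matrix.trace_mul_comm, Matrix.mul_assoc, Matrix.adjugate_mul, Matrix.mul_smul, mul_one,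
    Matrix.trace_smul, Matrix.trace_smul] at e'
  exact (smul_right_injective ℤ (D.det_ne_zero i) e').symm

section op

variable [Fintype ι] (R : Type*) [Semiring R] {A : Type*} [AddCommGroup A] [Module R A]

/-- The transfer operator of a Hecke system on homomorphisms `Γ → A`. -/
noncomputable def op : (Additive Γ →+ A) →ₗ[R] (Additive Γ →+ A) where
  toFun φ :=
    { toFun := fun γ => ∑ i, φ (Additive.ofMul (D.elt (Additive.toMul γ) i))
      map_zero' := by simp
      map_add' := fun γ δ => by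
        simp only [toMul_add, (D.next_elt_mul _ _ _).2, ofMul_mul, map_add,
          Finset.sum_add_distrib]
        congr 1
        exact Equiv.sum_comp (Equiv.ofBijective _ (D.next_bijective (Additive.toMul γ)))
          (fun i => φ (Additive.ofMul (D.elt (Additive.toMul δ) i))) }
  map_add' φ ψ := by
    ext γ
    simp [Finset.sum_add_distrib]
  map_smul' c φ := by
    ext γ
    simp [Finset.smul_sum]

@[simp]
theorem op_apply (φ : Additive Γ →+ A) (γ : Γ) :
    D.op R φ (Additive.ofMul γ) = ∑ i, φ (Additive.ofMul (D.elt γ i)) := rfl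

theorem op_comp_left {B : Type*} [AddCommGroup B] [Module R B] (e : A →+ B)
    (φ : Additive Γ →+ A) : D.op R (e.comp φ) = e.comp (D.op R φ) := by
  refine AddMonoidHom.ext fun γ => ?_
  obtain ⟨g, rfl⟩ := Additive.ofMul.surjective γ
  simp [map_sum]

/-- If `φ` vanishes on the elements `h` attached to the fixed cosets of powers of `γ`, then
`T φ` vanishes at `γ`. -/
theorem op_apply_eq_zero (φ : Additive Γ →+ A) (γ : Γ)
    (hγ : ∀ i m, 0 < m → D.next (γ ^ m) i = i → φ (Additive.ofMul (D.elt (γ ^ m) i)) = 0) :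
    D.op R φ (Additive.ofMul γ) = 0 := by
  classical
  rw [op_apply]
  refine sum_eq_zero_of_forall_cycle (D.next γ) (D.next_bijective γ).1 _
    (fun i m hm hfix => ?_) univ fun i _ => mem_univ _
  rw [← D.map_elt_pow]
  exact hγ i m hm (by rw [D.next_pow]; exact hfix)

/-- Compatibility of transfer with a map of groups induced by conjugation by a matrix `δ`. -/
theorem op_comp {Γ' : Subgroup SL(2, ℤ)} {κ : Type} [Fintype κ] (D' : HeckeSystem Γ' κ)
    (e : Γ →* Γ') (δ : M2Z) (hδ : δ.det ≠ 0)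
    (he : ∀ γ : Γ, δ * ((γ : SL(2, ℤ)) : M2Z) = ((e γ : SL(2, ℤ)) : M2Z) * δ)
    (τ : ι ≃ κ) (u : ι → Γ')
    (hτ : ∀ i, δ * D.rep i = ((u i : SL(2, ℤ)) : M2Z) * D'.rep (τ i) * δ)
    (φ : Additive Γ' →+ A) :
    D.op R (φ.comp (MonoidHom.toAdditive e)) = (D'.op R φ).comp (MonoidHom.toAdditive e) := by
  refine AddMonoidHom.ext fun γ => ?_
  obtain ⟨g, rfl⟩ := Additive.ofMul.surjective γ
  have key : ∀ i, D'.elt (e g) (τ i) = (u i)⁻¹ * e (D.elt g i) * u (D.next g i) := by
    intro i
    refine (D'.next_elt_eq_of_eq (j := τ (D.next g i)) ?_).2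
    have h1 := congrArg (δ * ·) (D.rep_mul g i)
    simp only [← Matrix.mul_assoc, hτ, he] at h1
    rw [Matrix.mul_assoc _ δ, he, ← Matrix.mul_assoc, Matrix.mul_assoc _ δ (D.rep _), hτ,
      ← Matrix.mul_assoc] at h1
    have h2 := matMul_right_cancel hδ h1
    have h3 := congrArg (fun M : M2Z => ((((u i)⁻¹ : Γ') : SL(2, ℤ)) : M2Z) * M) h2
    simp only [Subgroup.coe_mul, Matrix.SpecialLinearGroup.coe_mul,
      ← Matrix.mul_assoc] at h3 ⊢
    rw [← Matrix.SpecialLinearGroup.coe_mul, ← Subgroup.coe_mul, inv_mul_cancel,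
      Subgroup.coe_one, Matrix.SpecialLinearGroup.coe_one, one_mul] at h3
    exact h3
  show ∑ i, φ (Additive.ofMul (e (D.elt g i))) = ∑ j, φ (Additive.ofMul (D'.elt (e g) j))
  rw [← Equiv.sum_comp τ]
  simp only [key, ofMul_mul, ofMul_inv, map_add, map_neg, Finset.sum_add_distrib,
    Finset.sum_neg_distrib]
  have hs : ∑ i, φ (Additive.ofMul (u (D.next g i))) = ∑ i, φ (Additive.ofMul (u i)) :=
    Equiv.sum_comp (Equiv.ofBijective _ (D.next_bijective g)) (fun i => φ (Additive.ofMul (u i)))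
  rw [hs]
  abel

/-- Two Hecke systems commute if their products represent the same cosets. -/
theorem op_op_comm {κ : Type} [Fintype κ] (E : HeckeSystem Γ κ) (π : ι × κ ≃ ι × κ)
    (u : ι × κ → Γ)
    (hu : ∀ x : ι × κ, E.rep x.2 * D.rep x.1 =
      ((u x : SL(2, ℤ)) : M2Z) * (D.rep (π x).1 * E.rep (π x).2))
    (hinj : ∀ x y : ι × κ, ∀ h : SL(2, ℤ),
      (h : M2Z) * (D.rep x.1 * E.rep x.2) = D.rep y.1 * E.rep y.2 → x = y)
    (φ : Additive Γ →+ A) : D.op R (E.op R φ) = E.op R (D.op R φ) := by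
  refine AddMonoidHom.ext fun γ => ?_
  obtain ⟨g, rfl⟩ := Additive.ofMul.surjective γ
  set s : ι × κ → ι × κ := fun x => (D.next g x.1, E.next (D.elt g x.1) x.2) with hs
  have hsinj : Function.Injective s := by
    rintro ⟨i, j⟩ ⟨i', j'⟩ h
    simp only [hs, Prod.mk.injEq] at h
    obtain rfl : i = i' := (D.next_bijective g).1 h.1
    exact Prod.ext rfl ((E.next_bijective _).1 h.2)
  have key : ∀ x : ι × κ,
      E.elt (D.elt g x.1) x.2 * u (s x) =
        u x * D.elt (E.elt g (π x).2) (π x).1 := by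
    intro x
    have hL : E.rep x.2 * D.rep x.1 * ((g : SL(2, ℤ)) : M2Z) =
        ((E.elt (D.elt g x.1) x.2 : SL(2, ℤ)) : M2Z) * ((u (s x) : SL(2, ℤ)) : M2Z) *
          (D.rep (π (s x)).1 * E.rep (π (s x)).2) := by
      rw [Matrix.mul_assoc, D.rep_mul, ← Matrix.mul_assoc, E.rep_mul, Matrix.mul_assoc,
        show E.rep (E.next (D.elt g x.1) x.2) * D.rep (D.next g x.1) = _ from hu (s x),
        ← Matrix.mul_assoc]
    have hR : E.rep x.2 * D.rep x.1 * ((g : SL(2, ℤ)) : M2Z) =
        ((u x : SL(2, ℤ)) : M2Z) * ((D.elt (E.elt g (π x).2) (π x).1 : SL(2, ℤ)) : M2Z) *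
          (D.rep (D.next (E.elt g (π x).2) (π x).1) * E.rep (E.next g (π x).2)) := by
      rw [hu x, Matrix.mul_assoc, Matrix.mul_assoc (D.rep _), E.rep_mul,
        ← Matrix.mul_assoc (D.rep _), D.rep_mul]
      simp only [Matrix.mul_assoc]
    have hLR := hR.symm.trans hL
    simp only [← Matrix.SpecialLinearGroup.coe_mul, ← Subgroup.coe_mul] at hLR
    set a : Γ := u x * D.elt (E.elt g (π x).2) (π x).1 with ha
    set b : Γ := E.elt (D.elt g x.1) x.2 * u (s x) with hb
    have heq : (D.next (E.elt g (π x).2) (π x).1, E.next g (π x).2) = π (s x) := by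
      refine hinj _ _ ((b : SL(2, ℤ))⁻¹ * (a : SL(2, ℤ))) ?_
      rw [Matrix.SpecialLinearGroup.coe_mul, Matrix.mul_assoc, hLR, ← Matrix.mul_assoc,
        ← Matrix.SpecialLinearGroup.coe_mul, inv_mul_cancel, Matrix.SpecialLinearGroup.coe_one,
        one_mul]
    rw [← heq] at hLR
    have hdet : (D.rep (D.next (E.elt g (π x).2) (π x).1) * E.rep (E.next g (π x).2)).det ≠ 0 := by
      rw [Matrix.det_mul]
      exact mul_ne_zero (D.det_ne_zero _) (E.det_ne_zero _)
    exact (Subtype.ext (Subtype.ext (matMul_right_cancel hdet hLR))).symm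
  have key' : ∀ x : ι × κ, φ (Additive.ofMul (E.elt (D.elt g x.1) x.2)) +
      φ (Additive.ofMul (u (s x))) = φ (Additive.ofMul (u x)) +
        φ (Additive.ofMul (D.elt (E.elt g (π x).2) (π x).1)) := by
    intro x
    simpa [ofMul_mul, map_add] using congrArg (fun y => φ (Additive.ofMul y)) (key x)
  have hsum := Finset.sum_congr (rfl : (univ : Finset (ι × κ)) = univ) (fun x _ => key' x)
  rw [Finset.sum_add_distrib, Finset.sum_add_distrib,
    (Finite.injective_iff_bijective.1 hsinj).sum_comp (fun x => φ (Additive.ofMul (u x))),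
    Equiv.sum_comp π (fun y : ι × κ => φ (Additive.ofMul (D.elt (E.elt g y.2) y.1))),
    add_comm (∑ x, φ (Additive.ofMul (u x)))] at hsum
  have hsum' := add_right_cancel hsum
  simp only [op_apply]
  rw [← Fintype.sum_prod_type (f := fun x : ι × κ => φ (Additive.ofMul (E.elt (D.elt g x.1) x.2))),
    hsum', Fintype.sum_prod_type, Finset.sum_comm]

end op

end HeckeSystem

end FermatLib.Modular
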