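import Mathlib.NumberTheory.ModularForms.CongruenceSubgroups
import Mathlib.Algebra.Field.ZMod
import Fermat.Prelude.Def_ModularCurve_PeriodHomPair
import Fermat.Agent.Modular.HeckeTransfer

/-!
# The Hecke operators `T p`, `U p` on homomorphisms of `Γ₀(N)`
-/

set_option autoImplicit false

open scoped MatrixGroups
open CongruenceSubgroup ModularCurve.Period

namespace FermatLib.Modular

local notation "M2Z" => Matrix (Fin 2) (Fin 2) ℤ

/-- Index set of the standard representatives: `p + 1` of them for `T p`, `p` for `U p`. -/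
abbrev HeckeIdx (N p : ℕ) : Type := {x : Option (Fin p) // x = none → ¬ p ∣ N}

/-- The standard representatives `!![1, j; 0, p]` and `!![p, 0; 0, 1]`. -/
def heckeRepInt (p : ℕ) : Option (Fin p) → M2Z
  | some j => !![1, (j : ℤ); 0, (p : ℤ)]
  | none => !![(p : ℤ), 0; 0, 1]

theorem det_heckeRepInt (p : ℕ) (x : Option (Fin p)) : (heckeRepInt p x).det = p := by
  cases x <;> simp [heckeRepInt, Matrix.det_fin_two_of]

theorem heckeRepInt_one_zero (p : ℕ) (x : Option (Fin p)) : heckeRepInt p x 1 0 = 0 := by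
  cases x <;> simp [heckeRepInt]

theorem heckeRepInt_zero_zero_pos (p : ℕ) (hp : 0 < p) (x : Option (Fin p)) :
    0 < heckeRepInt p x 0 0 := by
  cases x <;> simp [heckeRepInt, hp]

theorem heckeRepInt_eq_of_mul_eq {p : ℕ} (hp : 1 < p) (x y : Option (Fin p)) (h : SL(2, ℤ))
    (e : (h : M2Z) * heckeRepInt p x = heckeRepInt p y) : x = y := by
  have hd : h 0 0 * h 1 1 - h 0 1 * h 1 0 = 1 := by
    have := h.det_coe
    rwa [Matrix.det_fin_two] at this
  have e' : ∀ i j, ((h : M2Z) * heckeRepInt p x) i j = heckeRepInt p y i j := fun i j => by rw [e]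
  have e00 := e' 0 0
  have e10 := e' 1 0
  have e01 := e' 0 1
  simp only [Matrix.mul_apply, Fin.sum_univ_two, heckeRepInt_one_zero, mul_zero, add_zero]
    at e00 e10 e01
  have hx := heckeRepInt_zero_zero_pos p (by omega) x
  have hy := heckeRepInt_zero_zero_pos p (by omega) y
  have h10 : h 1 0 = 0 := (mul_eq_zero.1 e10).resolve_right hx.ne'
  rw [h10, mul_zero, sub_zero] at hd
  have h00 : h 0 0 = 1 := by
    rcases Int.isUnit_iff.1 (IsUnit.of_mul_eq_one _ hd) with h1 | h1
    · exact h1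
    · rw [h1] at e00; linarith
  rw [h00, one_mul] at e00 e01
  cases x with
  | none =>
    cases y with
    | none => rfl
    | some j => simp [heckeRepInt] at e00; omega
  | some i =>
    cases y with
    | none => simp [heckeRepInt] at e00; omega
    | some j =>
      simp [heckeRepInt] at e01
      have hi := i.isLt
      have hj := j.isLt
      have hdvd : (p : ℤ) ∣ (j : ℤ) - i := ⟨h 0 1, by linarith⟩
      have : (j : ℤ) - i = 0 := Int.eq_zero_of_abs_lt_dvd hdvd (by
        rw [abs_lt]; constructor <;> omega)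
      exact congrArg some (Fin.ext (by omega))

/-- An integral matrix with determinant divisible by `p` and lower left entry divisible by `N`
has one of the standard representatives as a right factor. -/
theorem exists_right_factor {N p : ℕ} (hp : p.Prime) (M : M2Z) (hdet : (p : ℤ) ∣ M.det)
    (hN : (N : ℤ) ∣ M 1 0) (hU : p ∣ N → ¬ (p : ℤ) ∣ M 0 0) :
    ∃ (x : HeckeIdx N p) (M' : M2Z), M = M' * heckeRepInt p x.1 ∧ (N : ℤ) ∣ M' 1 0 := by
  have : Fact p.Prime := ⟨hp⟩
  have hdet' : ((M 0 0 : ZMod p) * M 1 1) - (M 0 1 : ZMod p) * M 1 0 = 0 := by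
    rw [Matrix.det_fin_two, ← ZMod.intCast_zmod_eq_zero_iff_dvd] at hdet
    push_cast at hdet
    exact hdet
  suffices h : (∃ j : ZMod p, (M 0 1 : ZMod p) = M 0 0 * j ∧ (M 1 1 : ZMod p) = M 1 0 * j) ∨
      ((M 0 0 : ZMod p) = 0 ∧ (M 1 0 : ZMod p) = 0) by
    rcases h with ⟨j, h1, h2⟩ | ⟨h1, h2⟩
    · obtain ⟨e1, he1⟩ : (p : ℤ) ∣ M 0 1 - M 0 0 * j.val := by
        rw [← ZMod.intCast_zmod_eq_zero_iff_dvd]; push_cast
        rw [ZMod.natCast_zmod_val, h1, sub_self]
      obtain ⟨e2, he2⟩ : (p : ℤ) ∣ M 1 1 - M 1 0 * j.val := by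
        rw [← ZMod.intCast_zmod_eq_zero_iff_dvd]; push_cast
        rw [ZMod.natCast_zmod_val, h2, sub_self]
      refine ⟨⟨some ⟨j.val, j.val_lt⟩, fun h => (Option.some_ne_none _ h).elim⟩,
        !![M 0 0, e1; M 1 0, e2], ?_, by simpa using hN⟩
      show M = !![M 0 0, e1; M 1 0, e2] * !![1, (j.val : ℤ); 0, (p : ℤ)]
      generalize (j.val : ℤ) = v at he1 he2
      ext a b
      fin_cases a <;> fin_cases b <;> simp [Matrix.mul_apply, Fin.sum_univ_two] <;> linarith
    · obtain ⟨e1, he1⟩ := (ZMod.intCast_zmod_eq_zero_iff_dvd _ _).1 h1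
      obtain ⟨e2, he2⟩ := (ZMod.intCast_zmod_eq_zero_iff_dvd _ _).1 h2
      have hpN : ¬ p ∣ N := fun h => hU h ⟨e1, he1⟩
      refine ⟨⟨none, fun _ => hpN⟩, !![e1, M 0 1; e2, M 1 1], ?_, ?_⟩
      · ext a b
        fin_cases a <;> fin_cases b <;> simp [heckeRepInt, Matrix.mul_apply, Fin.sum_univ_two] <;>
          linarith
      · have hcop : IsCoprime (N : ℤ) (p : ℤ) :=
          Nat.isCoprime_iff_coprime.mpr ((Nat.Prime.coprime_iff_not_dvd hp).mpr hpN).symm
        simpa using hcop.dvd_of_dvd_mul_left (he2 ▸ hN)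
  by_cases hx : (M 0 0 : ZMod p) = 0
  · by_cases hz : (M 1 0 : ZMod p) = 0
    · exact Or.inr ⟨hx, hz⟩
    · refine Or.inl ⟨(M 1 1 : ZMod p) / M 1 0, ?_, ?_⟩
      · have : (M 0 1 : ZMod p) = 0 := by
          rw [hx, zero_mul, zero_sub, neg_eq_zero, mul_eq_zero] at hdet'
          exact hdet'.resolve_right hz
        rw [this, hx, zero_mul]
      · rw [mul_div_cancel₀ _ hz]
  · refine Or.inl ⟨(M 0 1 : ZMod p) / M 0 0, by rw [mul_div_cancel₀ _ hx], ?_⟩
    field_simp
    linear_combination hdet'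

theorem mem_Gamma0_iff_dvd {N : ℕ} {γ : SL(2, ℤ)} :
    γ ∈ Gamma0 N ↔ (N : ℤ) ∣ γ 1 0 := by
  rw [Gamma0_mem, ZMod.intCast_zmod_eq_zero_iff_dvd]

theorem dvd_apply_one_zero {N : ℕ} (γ : Gamma0 N) : (N : ℤ) ∣ (γ : SL(2, ℤ)) 1 0 :=
  mem_Gamma0_iff_dvd.1 γ.2

/-- An integral matrix of determinant `p` with the congruence conditions is `Γ₀(N)` times a
representative. -/
theorem exists_eq_mul_rep {N p : ℕ} (hp : p.Prime) (M : M2Z) (hdet : M.det = p)
    (hN : (N : ℤ) ∣ M 1 0) (hU : p ∣ N → ¬ (p : ℤ) ∣ M 0 0) :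
    ∃ (x : HeckeIdx N p) (h : Gamma0 N),
      M = ((h : SL(2, ℤ)) : M2Z) * heckeRepInt p x.1 := by
  obtain ⟨x, M', rfl, h'⟩ := exists_right_factor hp M (hdet ▸ dvd_rfl) hN hU
  rw [Matrix.det_mul, det_heckeRepInt] at hdet
  have h1 : M'.det = 1 :=
    mul_right_cancel₀ (Nat.cast_ne_zero.2 hp.ne_zero) (hdet.trans (one_mul _).symm)
  exact ⟨x, ⟨⟨M', h1⟩, mem_Gamma0_iff_dvd.2 h'⟩, rfl⟩

theorem not_dvd_zero_zero_of_mem {N p : ℕ} (hp : p.Prime) (hpN : p ∣ N) (γ : Gamma0 N) :
    ¬ (p : ℤ) ∣ (γ : SL(2, ℤ)) 0 0 := by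
  intro h
  have hd : (γ : SL(2, ℤ)) 0 0 * (γ : SL(2, ℤ)) 1 1 - (γ : SL(2, ℤ)) 0 1 * (γ : SL(2, ℤ)) 1 0
      = 1 := by
    have := (γ : SL(2, ℤ)).det_coe
    rwa [Matrix.det_fin_two] at this
  have hc : (p : ℤ) ∣ (γ : SL(2, ℤ)) 1 0 :=
    (Int.natCast_dvd_natCast.2 hpN).trans (dvd_apply_one_zero γ)
  have : (p : ℤ) ∣ 1 := hd ▸ dvd_sub (h.mul_right _) (hc.mul_left _)
  exact hp.not_dvd_one (Int.natCast_dvd_natCast.1 (by exact_mod_cast this))

/-- The Hecke system of `T p` (if `p ∤ N`) or `U p` (if `p ∣ N`). -/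
noncomputable def heckeSystem (N : ℕ) (p : Nat.Primes) :
    HeckeSystem (Gamma0 N) (HeckeIdx N p) where
  rep x := heckeRepInt p x.1
  det_ne_zero x := by
    rw [det_heckeRepInt]
    exact_mod_cast p.2.ne_zero
  eq_of_mul_rep x y h e := Subtype.ext (heckeRepInt_eq_of_mul_eq p.2.one_lt _ _ h e)
  exists_mul_eq x γ := by
    refine exists_eq_mul_rep p.2 _ (by simp [det_heckeRepInt]) ?_ fun hpN => ?_
    · simp only [Matrix.mul_apply, Fin.sum_univ_two, heckeRepInt_one_zero, zero_mul, zero_add]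
      exact (dvd_apply_one_zero γ).mul_left _
    · obtain ⟨x, hx⟩ := x
      cases x with
      | none => exact absurd hpN (hx rfl)
      | some j =>
        simp only [Matrix.mul_apply, Fin.sum_univ_two, heckeRepInt]
        simp only [Matrix.of_apply, Matrix.cons_val_zero, Matrix.cons_val_one, one_mul]
        intro h
        refine not_dvd_zero_zero_of_mem p.2 hpN γ ?_
        have := dvd_sub h (((Int.natCast_dvd_natCast.2 hpN).trans
          (dvd_apply_one_zero γ)).mul_left (j : ℤ))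
        simpa using this

theorem heckeSystem_rep (N : ℕ) (p : Nat.Primes) (x : HeckeIdx N p) :
    (heckeSystem N p).rep x = heckeRepInt p x.1 := rfl

variable (N : ℕ) (R : Type*) [Semiring R] (A : Type*) [AddCommGroup A] [Module R A]

/-- `T p` or `U p` on homomorphisms `Γ₀(N) → A`. -/
noncomputable def heckeHomOp (p : Nat.Primes) :
    (Additive (Gamma0 N) →+ A) →ₗ[R] (Additive (Gamma0 N) →+ A) :=
  (heckeSystem N p).op R

variable {N R A}

theorem heckeHomOp_apply (p : Nat.Primes) (φ : Additive (Gamma0 N) →+ A) (γ : Gamma0 N) :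
    heckeHomOp N R A p φ (Additive.ofMul γ) =
      ∑ x, φ (Additive.ofMul ((heckeSystem N p).elt γ x)) := rfl

/-- Functoriality in the coefficients. -/
theorem heckeHomOp_comp_left {B : Type*} [AddCommGroup B] [Module R B] (p : Nat.Primes)
    (e : A →+ B) (φ : Additive (Gamma0 N) →+ A) :
    heckeHomOp N R B p (e.comp φ) = e.comp (heckeHomOp N R A p φ) :=
  (heckeSystem N p).op_comp_left R e φ

/-- The operator does not depend on the scalar ring. -/
theorem heckeHomOp_eq_int (p : Nat.Primes) (φ : Additive (Gamma0 N) →+ A) :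
    heckeHomOp N R A p φ = heckeHomOp N ℤ A p φ := rfl

theorem coprime_factor_cancel {p q : ℕ} (hpq : Nat.Coprime p q) (hp : p ≠ 0) (hq : q ≠ 0) {D D' E E' : M2Z}
    (hD : D'.det = p) (hE : E.det = q) (hE' : E'.det = q) {h : SL(2, ℤ)}
    (e : (h : M2Z) * (D * E) = D' * E') :
    ∃ X : SL(2, ℤ), (X : M2Z) * E = E' := by
  obtain ⟨s, t, hst⟩ := Nat.isCoprime_iff_coprime.2 hpq
  set Y : M2Z := D'.adjugate * (h : M2Z) * D
  have hY : Y * E = (p : ℤ) • E' := by
    rw [show Y * E = D'.adjugate * ((h : M2Z) * (D * E)) by simp only [Y, Matrix.mul_assoc], e,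
      ← Matrix.mul_assoc, Matrix.adjugate_mul, hD, Matrix.smul_mul, one_mul]
  have hY' : (q : ℤ) • Y = (p : ℤ) • (E' * E.adjugate) := by
    rw [← Matrix.smul_mul (p : ℤ) E', ← hY, Matrix.mul_assoc Y E, Matrix.mul_adjugate, hE,
      Matrix.mul_smul, mul_one]
  set X : M2Z := s • Y + t • (E' * E.adjugate)
  have hpX : (p : ℤ) • X = Y := by
    rw [show (p : ℤ) • X = (s * (p : ℤ)) • Y + t • ((p : ℤ) • (E' * E.adjugate)) by
      simp only [X, smul_add, smul_smul]; rw [mul_comm (p : ℤ) s, mul_comm (p : ℤ) t],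
      ← hY', smul_smul, ← add_smul, hst, one_smul]
  have hp0 : (p : ℤ) ≠ 0 := Nat.cast_ne_zero.2 hp
  have hXE : X * E = E' := by
    have : (p : ℤ) • (X * E) = (p : ℤ) • E' := by rw [← Matrix.smul_mul, hpX, hY]
    exact smul_right_injective _ hp0 this
  have hdet : X.det = 1 := by
    have := congrArg Matrix.det hXE
    rw [Matrix.det_mul, hE, hE'] at this
    exact mul_right_cancel₀ (Nat.cast_ne_zero.2 hq) (this.trans (one_mul _).symm)
  exact ⟨⟨X, hdet⟩, hXE⟩

theorem heckeSystem_mul_inj {p q : Nat.Primes} (hpq : p ≠ q)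
    (x y : HeckeIdx N p × HeckeIdx N q) (h : SL(2, ℤ))
    (e : (h : M2Z) * ((heckeSystem N p).rep x.1 * (heckeSystem N q).rep x.2) =
      (heckeSystem N p).rep y.1 * (heckeSystem N q).rep y.2) : x = y := by
  have hcop : Nat.Coprime p q :=
    (Nat.coprime_primes p.2 q.2).2 fun h => hpq (Subtype.ext h)
  obtain ⟨X, hX⟩ := coprime_factor_cancel hcop p.2.ne_zero q.2.ne_zero (det_heckeRepInt _ _)
    (det_heckeRepInt _ _) (det_heckeRepInt _ _) e
  have h2 : x.2 = y.2 := (heckeSystem N q).eq_of_mul_rep _ _ X hX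
  rw [h2, ← Matrix.mul_assoc] at e
  have h1 := matMul_right_cancel ((heckeSystem N q).det_ne_zero _) e
  exact Prod.ext ((heckeSystem N p).eq_of_mul_rep _ _ h h1) h2

theorem exists_swap_factor {p q : Nat.Primes} (hpq : p ≠ q)
    (x : HeckeIdx N p × HeckeIdx N q) :
    ∃ (y : HeckeIdx N p × HeckeIdx N q) (u : Gamma0 N),
      (heckeSystem N q).rep x.2 * (heckeSystem N p).rep x.1 =
        ((u : SL(2, ℤ)) : M2Z) * ((heckeSystem N p).rep y.1 * (heckeSystem N q).rep y.2) := by
  simp only [heckeSystem_rep]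
  have h00 : ∀ {r : Nat.Primes}, (r : ℕ) ∣ N → ∀ z : HeckeIdx N r,
      heckeRepInt r z.1 0 0 = 1 := by
    rintro r hr ⟨z, hz⟩
    cases z with
    | none => exact absurd hr (hz rfl)
    | some j => simp [heckeRepInt]
  have hne : ∀ {r s : Nat.Primes}, r ≠ s → ∀ z : HeckeIdx N s,
      ¬ ((r : ℕ) : ℤ) ∣ heckeRepInt s z.1 0 0 := by
    rintro r s hrs ⟨z, -⟩
    intro hdvd
    cases z with
    | none =>
      simp [heckeRepInt, Int.natCast_dvd_natCast, Nat.prime_dvd_prime_iff_eq r.2 s.2] at hdvd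
      exact hrs (Subtype.ext hdvd)
    | some j =>
      simp [heckeRepInt] at hdvd
      exact r.2.not_dvd_one (Int.natCast_dvd_natCast.1 (by exact_mod_cast hdvd))
  set M := heckeRepInt q x.2.1 * heckeRepInt p x.1.1 with hM
  have hM10 : M 1 0 = 0 := by
    simp [hM, Matrix.mul_apply, Fin.sum_univ_two, heckeRepInt_one_zero]
  have hM00 : M 0 0 = heckeRepInt q x.2.1 0 0 * heckeRepInt p x.1.1 0 0 := by
    simp [hM, Matrix.mul_apply, Fin.sum_univ_two, heckeRepInt_one_zero]
  obtain ⟨j, M', hMM', hM'⟩ := exists_right_factor (N := N) q.2 M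
    ⟨(p : ℤ), by rw [hM, Matrix.det_mul, det_heckeRepInt, det_heckeRepInt]⟩
    (by rw [hM10]; exact dvd_zero _)
    (fun hq => by rw [hM00, h00 hq x.2, one_mul]; exact hne (Ne.symm hpq) x.1)
  have hM'00 : M 0 0 = M' 0 0 * heckeRepInt q j.1 0 0 := by
    rw [hMM']; simp [Matrix.mul_apply, Fin.sum_univ_two, heckeRepInt_one_zero]
  have hdet : M'.det = (p : ℕ) := by
    have := congrArg Matrix.det hMM'
    rw [hM, Matrix.det_mul, Matrix.det_mul, det_heckeRepInt, det_heckeRepInt, det_heckeRepInt,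
      mul_comm] at this
    exact (mul_right_cancel₀ (Nat.cast_ne_zero.2 q.2.ne_zero) this).symm
  obtain ⟨i, u, rfl⟩ := exists_eq_mul_rep p.2 M' hdet hM' fun hp hdvd => by
    have := hdvd.mul_right (heckeRepInt q j.1 0 0)
    rw [← hM'00, hM00, h00 hp x.1, mul_one] at this
    exact hne hpq x.2 this
  exact ⟨(i, j), u, by rw [hMM', Matrix.mul_assoc]⟩

/-- The Hecke operators commute on all homomorphisms. -/
theorem heckeHomOp_comm (p q : Nat.Primes) (φ : Additive (Gamma0 N) →+ A) :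
    heckeHomOp N R A p (heckeHomOp N R A q φ) = heckeHomOp N R A q (heckeHomOp N R A p φ) := by
  rcases eq_or_ne p q with rfl | hpq
  · rfl
  choose F u hu using exists_swap_factor (N := N) hpq
  have hF : Function.Injective F := by
    intro x y hxy
    have hx := hu x
    have hy := hu y
    rw [hxy] at hx
    have e : ((((u y : SL(2, ℤ)) * (u x : SL(2, ℤ))⁻¹ : SL(2, ℤ))) : M2Z) *
        ((heckeSystem N q).rep x.2 * (heckeSystem N p).rep x.1) =
        (heckeSystem N q).rep y.2 * (heckeSystem N p).rep y.1 := by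
      rw [hx, hy, ← Matrix.mul_assoc, ← Matrix.SpecialLinearGroup.coe_mul, mul_assoc,
        inv_mul_cancel, mul_one]
    simpa [Prod.ext_iff, and_comm] using
      heckeSystem_mul_inj (Ne.symm hpq) (x.2, x.1) (y.2, y.1) _ e
  exact (heckeSystem N p).op_op_comm R (heckeSystem N q)
    (Equiv.ofBijective F (Finite.injective_iff_bijective.1 hF)) u (fun x => hu x)
    (heckeSystem_mul_inj hpq) φ

/-- The Hecke operators commute with the involution `φ ↦ φ ∘ (conjugation by diag(-1,1))`. -/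
theorem heckeHomOp_charInvolution (p : Nat.Primes) (φ : Additive (Gamma0 N) →+ A) :
    heckeHomOp N R A p (charInvolution N R A φ) =
      charInvolution N R A (heckeHomOp N R A p φ) := by
  set δ : M2Z := !![-1, 0; 0, 1] with hδdef
  have hδ : ∀ M : M2Z, δ * M = jConjMat M * δ := fun M => by
    ext i j
    fin_cases i <;> fin_cases j <;> simp [hδdef, Matrix.mul_apply, Fin.sum_univ_two]
  have hex : ∀ x : HeckeIdx N p, ∃ (y : HeckeIdx N p) (u : Gamma0 N),
      jConjMat (heckeRepInt p x.1) = ((u : SL(2, ℤ)) : M2Z) * heckeRepInt p y.1 := by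
    rintro ⟨x, hx⟩
    refine exists_eq_mul_rep p.2 _ (by rw [jConjMat_det, det_heckeRepInt]) ?_ fun hp => ?_
    · rw [jConjMat_apply_one_zero, heckeRepInt_one_zero, neg_zero]; exact dvd_zero _
    · cases x with
      | none => exact absurd hp (hx rfl)
      | some j =>
        simp only [jConjMat_apply_zero_zero, heckeRepInt, Matrix.of_apply, Matrix.cons_val_zero]
        intro h
        exact p.2.not_dvd_one (Int.natCast_dvd_natCast.1 (by simpa using h))
  choose τ u hu using hex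
  have hτ : Function.Injective τ := by
    intro x y hxy
    have hx := hu x
    rw [hxy] at hx
    refine (heckeSystem N p).eq_of_mul_rep x y
      (jConjSL ((u y : SL(2, ℤ)) * (u x : SL(2, ℤ))⁻¹)) ?_
    apply_fun jConjMat using Function.LeftInverse.injective (g := jConjMat) jConjMat_jConjMat
    rw [jConjMat_mul, jConjSL_coe, jConjMat_jConjMat, heckeSystem_rep, heckeSystem_rep, hx,
      hu y, ← Matrix.mul_assoc, ← Matrix.SpecialLinearGroup.coe_mul, mul_assoc, inv_mul_cancel,
      mul_one]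
  refine (heckeSystem N p).op_comp R (heckeSystem N p) (jConjGamma0 N) δ ?_ (fun γ => ?_)
    (Equiv.ofBijective τ (Finite.injective_iff_bijective.1 hτ)) u (fun x => ?_) φ
  · simp [hδdef, Matrix.det_fin_two_of]
  · exact hδ _
  · rw [hδ, heckeSystem_rep, heckeSystem_rep]
    exact congrArg (· * δ) (hu x)

end FermatLib.Modular
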