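import Fermat.Agent.Modular.Gamma0Coset
import Mathlib.NumberTheory.Modular

/-!
# Orbits of `S`, `S T` and `T` on `SL(2, ℤ) ⧸ Γ₀(N)`

The fixed points of `S` and of `S T` are counted by `ν₂`, `ν₃`; the orbits of `T` are the cusps
of `X₀(N)`, the size of an orbit being the width of the cusp.
-/

set_option autoImplicit false

noncomputable section

open CongruenceSubgroup
open scoped MatrixGroups

namespace FermatLib.Modular

variable {N : ℕ}

theorem S_smul_gamma0Coset_eq_iff {g : SL(2, ℤ)} :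
    ModularGroup.S • (g : Gamma0Coset N) = (g : Gamma0Coset N) ↔
      ((g 0 0 ^ 2 + g 1 0 ^ 2 : ℤ) : ZMod N) = 0 := by
  rw [MulAction.Quotient.smul_coe, smul_eq_mul, gamma0Coset_mk_eq_iff]
  simp [ModularGroup.coe_S, Matrix.mul_apply, Fin.sum_univ_two]
  constructor <;> intro h <;> linear_combination -h

theorem ST_smul_gamma0Coset_eq_iff {g : SL(2, ℤ)} :
    (ModularGroup.S * ModularGroup.T) • (g : Gamma0Coset N) = (g : Gamma0Coset N) ↔
      ((g 0 0 ^ 2 + g 0 0 * g 1 0 + g 1 0 ^ 2 : ℤ) : ZMod N) = 0 := by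
  rw [MulAction.Quotient.smul_coe, smul_eq_mul, gamma0Coset_mk_eq_iff]
  simp [ModularGroup.coe_S, ModularGroup.coe_T, Matrix.mul_apply, Fin.sum_univ_two]
  constructor <;> intro h <;> linear_combination -h

/-- The fixed points of a matrix acting as the quadratic form `a² + t a c + c²`. -/
theorem card_fixedBy_quadratic [NeZero N] (z : SL(2, ℤ)) (t : ℤ)
    (hz : ∀ g : SL(2, ℤ), z • (g : Gamma0Coset N) = (g : Gamma0Coset N) ↔
      ((g 0 0 ^ 2 + t * g 0 0 * g 1 0 + g 1 0 ^ 2 : ℤ) : ZMod N) = 0) :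
    Nat.card (MulAction.fixedBy (Gamma0Coset N) z)
      = Nat.card {x : ZMod N // x ^ 2 + t * x + 1 = 0} := by
  have hex : ∀ x : ZMod N, ∃ g : SL(2, ℤ), colMod N g = (1, x) := fun x =>
    exists_colMod_eq isCoprime_one_left
  choose g hg using hex
  have h0 : ∀ x, ((g x 0 0 : ℤ) : ZMod N) = 1 := fun x => congrArg Prod.fst (hg x)
  have h1 : ∀ x, ((g x 1 0 : ℤ) : ZMod N) = x := fun x => congrArg Prod.snd (hg x)
  refine (Nat.card_eq_of_bijective (fun x : {x : ZMod N // x ^ 2 + t * x + 1 = 0} =>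
    (⟨(g x.1 : Gamma0Coset N), ?_⟩ : MulAction.fixedBy (Gamma0Coset N) z)) ⟨?_, ?_⟩).symm
  · rw [MulAction.mem_fixedBy, hz]
    push_cast
    rw [h0, h1]
    linear_combination x.2
  · intro x y h
    have := gamma0Coset_mk_eq_iff.mp (congrArg Subtype.val h)
    rw [h0, h1, h0, h1] at this
    exact Subtype.ext (by linear_combination -this)
  · rintro ⟨q, hq⟩
    induction q using QuotientGroup.induction_on with
    | H k =>
      have hq' := (hz k).mp (MulAction.mem_fixedBy.mp hq)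
      push_cast at hq'
      have hk : ((k 0 0 : ℤ) : ZMod N) * (k 1 1 : ℤ) - (k 0 1 : ℤ) * (k 1 0 : ℤ) = 1 := by
        exact_mod_cast congrArg (Int.cast : ℤ → ZMod N) ((Matrix.det_fin_two _).symm.trans k.2)
      set a : ZMod N := ((k 0 0 : ℤ) : ZMod N) with ha
      set c : ZMod N := ((k 1 0 : ℤ) : ZMod N) with hc
      set b : ZMod N := ((k 0 1 : ℤ) : ZMod N)
      set d : ZMod N := ((k 1 1 : ℤ) : ZMod N)
      obtain ⟨i, hi⟩ : ∃ i, i * a = 1 :=
        ⟨d ^ 2 * a - 2 * d * b * c - b ^ 2 * a - b ^ 2 * (t : ZMod N) * c, by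
          linear_combination -b ^ 2 * hq' + (a * d - b * c + 1) * hk⟩
      refine ⟨⟨i * c, ?_⟩, Subtype.ext (gamma0Coset_mk_eq_iff.mpr ?_)⟩
      · linear_combination i ^ 2 * hq' - (i * a + 1 + i * (t : ZMod N) * c) * hi
      · rw [h0, h1, ← ha, ← hc]
        linear_combination -c * hi

theorem card_fixedBy_S [NeZero N] :
    Nat.card (MulAction.fixedBy (Gamma0Coset N) ModularGroup.S) = ModularCurve.nuTwo N := by
  rw [card_fixedBy_quadratic ModularGroup.S 0 (fun g => by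
    rw [S_smul_gamma0Coset_eq_iff]; simp), ModularCurve.nuTwo]
  simp

theorem card_fixedBy_ST [NeZero N] :
    Nat.card (MulAction.fixedBy (Gamma0Coset N) (ModularGroup.S * ModularGroup.T))
      = ModularCurve.nuThree N := by
  rw [card_fixedBy_quadratic (ModularGroup.S * ModularGroup.T) 1 (fun g => by
    rw [ST_smul_gamma0Coset_eq_iff]; simp), ModularCurve.nuThree]
  simp

/-- Orbits of `S`: the points of `X₀(N)` over `j = 1728`. -/
abbrev OrbitsOverI (N : ℕ) :=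
  MulAction.orbitRel.Quotient (Subgroup.zpowers ModularGroup.S) (Gamma0Coset N)

/-- Orbits of `S T`: the points of `X₀(N)` over `j = 0`. -/
abbrev OrbitsOverRho (N : ℕ) :=
  MulAction.orbitRel.Quotient (Subgroup.zpowers (ModularGroup.S * ModularGroup.T)) (Gamma0Coset N)

/-- Burnside's lemma for the cyclic group generated by an element of finite order. -/
theorem card_orbits_zpowers_mul_orderOf [NeZero N] (z : SL(2, ℤ)) (hz : IsOfFinOrder z) :
    Nat.card (MulAction.orbitRel.Quotient (Subgroup.zpowers z) (Gamma0Coset N)) * orderOf z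
      = ∑ i : Fin (orderOf z),
          Nat.card (MulAction.fixedBy (Gamma0Coset N) (z ^ (i : ℕ))) := by
  classical
  let := Fintype.ofEquiv _ (finEquivZPowers hz)
  let := Fintype.ofFinite (Gamma0Coset N)
  let := Fintype.ofFinite (MulAction.orbitRel.Quotient (Subgroup.zpowers z) (Gamma0Coset N))
  have hB := MulAction.sum_card_fixedBy_eq_card_orbits_mul_card_group (Subgroup.zpowers z)
    (Gamma0Coset N)
  rw [Fintype.card_congr (finEquivZPowers hz).symm, Fintype.card_fin] at hB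
  rw [Nat.card_eq_fintype_card, ← hB]
  refine (Fintype.sum_equiv (finEquivZPowers hz) _ _ fun i => ?_).symm
  rw [Nat.card_eq_fintype_card.symm]
  rfl

theorem orderOf_S_eq_four : orderOf ModularGroup.S = 4 := by
  refine orderOf_eq_prime_pow (p := 2) (n := 1) ?_ ?_
  · decide
  · decide

theorem orderOf_ST_eq_six : orderOf (ModularGroup.S * ModularGroup.T) = 6 := by
  rw [orderOf_eq_iff (by norm_num)]
  refine ⟨by decide, fun m hm hm0 => ?_⟩
  interval_cases m <;> decide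

theorem two_mul_card_orbitsOverI [NeZero N] :
    2 * Nat.card (OrbitsOverI N) = ModularCurve.dedekindPsi N + ModularCurve.nuTwo N := by
  have h := card_orbits_zpowers_mul_orderOf (N := N) ModularGroup.S
    (orderOf_pos_iff.mp (by rw [orderOf_S_eq_four]; norm_num))
  rw [← (Fin.castOrderIso orderOf_S_eq_four.symm).toEquiv.sum_comp, Fin.sum_univ_four] at h
  have e2 : ModularGroup.S ^ 2 = -1 := by decide
  have e3 : ModularGroup.S ^ 3 = -ModularGroup.S := by decide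
  have f1 : MulAction.fixedBy (Gamma0Coset N) (-1 : SL(2, ℤ)) = Set.univ :=
    Set.eq_univ_of_forall gamma0Coset_neg_one_smul
  have f3 : MulAction.fixedBy (Gamma0Coset N) (-ModularGroup.S)
      = MulAction.fixedBy (Gamma0Coset N) ModularGroup.S := by
    ext q; simp [MulAction.mem_fixedBy, gamma0Coset_neg_smul]
  simp only [RelIso.coe_fn_toEquiv, Fin.castOrderIso_apply, Fin.val_cast, Fin.val_zero,
    Fin.val_one, Fin.val_two, show ((3 : Fin 4) : ℕ) = 3 from rfl, pow_zero, pow_one, e2, e3,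
    MulAction.fixedBy_one_eq_univ, f1, f3, Nat.card_coe_set_eq, Set.ncard_univ] at h
  rw [← Nat.card_coe_set_eq, card_fixedBy_S, card_gamma0Coset, orderOf_S_eq_four] at h
  change Nat.card (OrbitsOverI N) * 4 = _ at h
  omega

theorem three_mul_card_orbitsOverRho [NeZero N] :
    3 * Nat.card (OrbitsOverRho N) = ModularCurve.dedekindPsi N + 2 * ModularCurve.nuThree N := by
  set x := ModularGroup.S * ModularGroup.T with hx
  have h := card_orbits_zpowers_mul_orderOf (N := N) x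
    (orderOf_pos_iff.mp (by rw [hx, orderOf_ST_eq_six]; norm_num))
  have hord : orderOf x = 6 := orderOf_ST_eq_six
  rw [← (Fin.castOrderIso hord.symm).toEquiv.sum_comp, Fin.sum_univ_six] at h
  have e3 : x ^ 3 = -1 := by rw [hx]; decide
  have e4 : x ^ 4 = -x := by rw [hx]; decide
  have e5 : x ^ 5 = x⁻¹ := by rw [hx]; decide
  have e2 : x ^ 2 = -x⁻¹ := by rw [hx]; decide
  have f1 : MulAction.fixedBy (Gamma0Coset N) (-1 : SL(2, ℤ)) = Set.univ :=
    Set.eq_univ_of_forall gamma0Coset_neg_one_smul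
  have f2 : ∀ y : SL(2, ℤ), MulAction.fixedBy (Gamma0Coset N) (-y)
      = MulAction.fixedBy (Gamma0Coset N) y := fun y => by
    ext q; simp [MulAction.mem_fixedBy, gamma0Coset_neg_smul]
  simp only [RelIso.coe_fn_toEquiv, Fin.castOrderIso_apply, Fin.val_cast, Fin.val_zero,
    Fin.val_one, Fin.val_two, show ((3 : Fin 6) : ℕ) = 3 from rfl,
    show ((4 : Fin 6) : ℕ) = 4 from rfl, show ((5 : Fin 6) : ℕ) = 5 from rfl, pow_zero, pow_one,
    e2, e3, e4, e5, f1, f2, MulAction.fixedBy_one_eq_univ, MulAction.fixedBy_inv,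
    Nat.card_coe_set_eq, Set.ncard_univ] at h
  rw [← Nat.card_coe_set_eq, hord, hx, card_fixedBy_ST, card_gamma0Coset] at h
  change Nat.card (OrbitsOverRho N) * 6 = _ at h
  omega

/-- Orbits of `T`: the cusps of `X₀(N)`. The coset `g Γ₀(N)` corresponds to the cusp `g⁻¹ ∞`. -/
abbrev CuspOrbit (N : ℕ) :=
  MulAction.orbitRel.Quotient (Subgroup.zpowers ModularGroup.T) (Gamma0Coset N)

/-- The class of `g Γ₀(N)` among the cusps. -/
def cuspOrbitMk (q : Gamma0Coset N) : CuspOrbit N := Quotient.mk'' q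

theorem cuspOrbitMk_eq_iff {q q' : Gamma0Coset N} :
    cuspOrbitMk q = cuspOrbitMk q' ↔ ∃ n : ℤ, ModularGroup.T ^ n • q' = q := by
  rw [cuspOrbitMk, cuspOrbitMk, Quotient.eq'', MulAction.orbitRel_apply, MulAction.mem_orbit_iff]
  exact ⟨fun ⟨⟨y, n, hn⟩, hy⟩ => ⟨n, by rw [← hy]; exact congrArg (· • q') hn⟩,
    fun ⟨n, hn⟩ => ⟨⟨_, n, rfl⟩, hn⟩⟩

theorem cuspOrbitMk_surjective : Function.Surjective (cuspOrbitMk (N := N)) :=
  Quotient.mk''_surjective

/-- The width of a cusp. -/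
def cuspOrbitWidth (c : CuspOrbit N) : ℕ := Nat.card c.orbit

/-- `T ^ n` fixes `g Γ₀(N)` iff `N ∣ n c²`. -/
theorem T_zpow_smul_gamma0Coset_eq_iff {g : SL(2, ℤ)} {n : ℤ} :
    ModularGroup.T ^ n • (g : Gamma0Coset N) = (g : Gamma0Coset N) ↔
      (N : ℤ) ∣ n * g 1 0 ^ 2 := by
  rw [MulAction.Quotient.smul_coe, smul_eq_mul, gamma0Coset_mk_eq_iff,
    ← ZMod.intCast_zmod_eq_zero_iff_dvd]
  simp [ModularGroup.coe_T_zpow, Matrix.mul_apply, Fin.sum_univ_two]
  constructor <;> intro h <;> linear_combination h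

theorem cuspOrbitWidth_mk_eq_minimalPeriod (q : Gamma0Coset N) :
    cuspOrbitWidth (cuspOrbitMk q) = Function.minimalPeriod (ModularGroup.T • ·) q := by
  have h : cuspOrbitWidth (cuspOrbitMk q)
      = Nat.card (MulAction.orbit (Subgroup.zpowers ModularGroup.T) q) := rfl
  exact h.trans ((Nat.card_congr (MulAction.orbitZPowersEquiv ModularGroup.T q)).trans
    (Nat.card_zmod _))

theorem T_zpow_smul_eq_self_iff_width_dvd [NeZero N] {q : Gamma0Coset N} {n : ℤ} :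
    ModularGroup.T ^ n • q = q ↔ (cuspOrbitWidth (cuspOrbitMk q) : ℤ) ∣ n := by
  rw [cuspOrbitWidth_mk_eq_minimalPeriod, MulAction.zpow_smul_eq_iff_minimalPeriod_dvd]

theorem cuspOrbitWidth_pos [NeZero N] (c : CuspOrbit N) : 0 < cuspOrbitWidth c := by
  obtain ⟨q, rfl⟩ := cuspOrbitMk_surjective c
  have : Nonempty (cuspOrbitMk q).orbit :=
    ⟨⟨q, MulAction.mem_orbit_self (M := Subgroup.zpowers ModularGroup.T) q⟩⟩
  exact Nat.card_pos

theorem sum_cuspOrbitWidth [NeZero N] [Fintype (CuspOrbit N)] :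
    ∑ c : CuspOrbit N, cuspOrbitWidth c = ModularCurve.dedekindPsi N := by
  rw [← card_gamma0Coset, Nat.card_congr (MulAction.selfEquivSigmaOrbits'
    (Subgroup.zpowers ModularGroup.T) (Gamma0Coset N)), Nat.card_sigma]
  rfl

/-- `gcd(c, N)` for the bottom row `(c, e)` of `g`. -/
def cuspDiv (N : ℕ) (g : SL(2, ℤ)) : ℕ := Int.gcd (g 1 0) N

/-- `(c / d) e mod gcd(d, N / d)` for the bottom row `(c, e)` of `g`, `d = gcd(c, N)`. -/
def cuspRes (N : ℕ) (g : SL(2, ℤ)) : ℕ :=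
  ((g 1 0 / cuspDiv N g * g 1 1 : ℤ) : ZMod ((cuspDiv N g).gcd (N / cuspDiv N g))).val

theorem cuspDiv_dvd (N : ℕ) (g : SL(2, ℤ)) : cuspDiv N g ∣ N :=
  Int.natCast_dvd_natCast.mp (Int.gcd_dvd_right _ _)

/-- Bottom rows of elements in the same double coset `⟨T⟩ g Γ₀(N)`. -/
theorem exists_of_cuspOrbitMk_eq {g h : SL(2, ℤ)}
    (e : cuspOrbitMk (g : Gamma0Coset N) = cuspOrbitMk (h : Gamma0Coset N)) :
    ∃ α β t δ : ℤ, α * δ - β * (N * t) = 1 ∧ g 1 0 = h 1 0 * α + h 1 1 * (N * t) ∧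
      g 1 1 = h 1 0 * β + h 1 1 * δ := by
  obtain ⟨n, hn⟩ := cuspOrbitMk_eq_iff.mp e
  rw [MulAction.Quotient.smul_coe, smul_eq_mul, QuotientGroup.eq] at hn
  obtain ⟨t, ht⟩ := (ZMod.intCast_zmod_eq_zero_iff_dvd _ N).mp (Gamma0_mem.mp hn)
  set γ := (ModularGroup.T ^ n * h)⁻¹ * g
  have hg : g = ModularGroup.T ^ n * h * γ := (mul_inv_cancel_left _ _).symm
  refine ⟨γ 0 0, γ 0 1, t, γ 1 1, ?_, ?_, ?_⟩
  · rw [← ht]
    exact (Matrix.det_fin_two _).symm.trans γ.2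
  · rw [← ht, hg]
    simp [ModularGroup.coe_T_zpow, Matrix.mul_apply, Fin.sum_univ_two, Matrix.vecMul, dotProduct]
  · rw [hg]
    simp [ModularGroup.coe_T_zpow, Matrix.mul_apply, Fin.sum_univ_two, Matrix.vecMul, dotProduct]

theorem cuspDiv_eq_of_cuspOrbitMk_eq {g h : SL(2, ℤ)}
    (e : cuspOrbitMk (g : Gamma0Coset N) = cuspOrbitMk (h : Gamma0Coset N)) :
    cuspDiv N g = cuspDiv N h := by
  have key : ∀ {g h : SL(2, ℤ)},
      cuspOrbitMk (g : Gamma0Coset N) = cuspOrbitMk (h : Gamma0Coset N) →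
        cuspDiv N h ∣ cuspDiv N g := by
    intro g h e
    obtain ⟨α, β, t, δ, -, hc, -⟩ := exists_of_cuspOrbitMk_eq e
    refine Int.dvd_gcd ?_ (Int.gcd_dvd_right _ _)
    rw [hc]
    exact dvd_add (dvd_mul_of_dvd_left (Int.gcd_dvd_left _ _) _)
      (dvd_mul_of_dvd_right (dvd_mul_of_dvd_left (Int.gcd_dvd_right _ _) _) _)
  exact Nat.dvd_antisymm (key e.symm) (key e)

theorem cuspRes_eq_of_cuspOrbitMk_eq [NeZero N] {g h : SL(2, ℤ)}
    (e : cuspOrbitMk (g : Gamma0Coset N) = cuspOrbitMk (h : Gamma0Coset N)) :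
    cuspRes N g = cuspRes N h := by
  obtain ⟨α, β, t, δ, hdet, hc, he⟩ := exists_of_cuspOrbitMk_eq e
  rw [cuspRes, cuspRes, cuspDiv_eq_of_cuspOrbitMk_eq e]
  congr 1
  obtain ⟨x, hx⟩ : (cuspDiv N h : ℤ) ∣ h 1 0 := Int.gcd_dvd_left _ _
  obtain ⟨M, hM⟩ := cuspDiv_dvd N h
  have hd : cuspDiv N h ≠ 0 := fun h0 => NeZero.ne N (by simpa [h0] using hM)
  rw [hx] at hc he
  generalize cuspDiv N h = d at *
  rw [hx, hc, he, hM, Nat.mul_div_cancel_left M (Nat.pos_of_ne_zero hd)]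
  rw [hM] at hdet
  push_cast at hdet ⊢
  rw [show (d : ℤ) * x * α + h 1 1 * (d * M * t) = d * (x * α + h 1 1 * M * t) by ring,
    Int.mul_ediv_cancel_left _ (Int.natCast_ne_zero.mpr hd),
    Int.mul_ediv_cancel_left _ (Int.natCast_ne_zero.mpr hd)]
  have h1 : ((d : ℕ) : ZMod (d.gcd M)) = 0 :=
    (ZMod.natCast_eq_zero_iff _ _).mpr (Nat.gcd_dvd_left _ _)
  have h2 : ((M : ℕ) : ZMod (d.gcd M)) = 0 :=
    (ZMod.natCast_eq_zero_iff _ _).mpr (Nat.gcd_dvd_right _ _)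
  have h3 : ((α : ℤ) : ZMod (d.gcd M)) * δ = 1 := by
    have := congrArg (Int.cast : ℤ → ZMod (d.gcd M)) hdet
    push_cast at this
    rw [h1] at this
    linear_combination this
  push_cast
  rw [h1, h2]
  linear_combination ((x : ℤ) : ZMod (d.gcd M)) * ((h 1 1 : ℤ) : ZMod (d.gcd M)) * h3

theorem cuspOrbitMk_eq_of_invariants [NeZero N] {g h : SL(2, ℤ)}
    (hd : cuspDiv N g = cuspDiv N h) (hr : cuspRes N g = cuspRes N h) :
    cuspOrbitMk (g : Gamma0Coset N) = cuspOrbitMk (h : Gamma0Coset N) := by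
  obtain ⟨x, hx⟩ : (cuspDiv N h : ℤ) ∣ h 1 0 := Int.gcd_dvd_left _ _
  obtain ⟨x', hx'⟩ : (cuspDiv N h : ℤ) ∣ g 1 0 := hd ▸ Int.gcd_dvd_left _ _
  obtain ⟨M, hM⟩ := cuspDiv_dvd N h
  have hd0 : cuspDiv N h ≠ 0 := fun h0 => NeZero.ne N (by simpa [h0] using hM)
  have cop : ∀ (k : SL(2, ℤ)) (y : ℤ), cuspDiv N k = cuspDiv N h →
      k 1 0 = (cuspDiv N h : ℤ) * y → IsCoprime y (M : ℤ) := fun k y hk hy => by
    have e : Int.gcd ((cuspDiv N h : ℤ) * y) ((cuspDiv N h : ℤ) * (M : ℤ)) = cuspDiv N h := by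
      rw [← hy, ← Nat.cast_mul, ← hM]
      exact hk
    rw [Int.gcd_mul_left, Int.natAbs_natCast] at e
    exact Int.isCoprime_iff_gcd_eq_one.mpr ((mul_eq_left₀ hd0).mp e)
  obtain ⟨p, q, hpq⟩ := cop h x rfl hx
  obtain ⟨p', q', hpq'⟩ := cop g x' hd hx'
  rw [cuspRes, cuspRes, hd, hx, hx'] at hr
  generalize cuspDiv N h = d at *
  rw [hM, Nat.mul_div_cancel_left M (Nat.pos_of_ne_zero hd0),
    Int.mul_ediv_cancel_left _ (Int.natCast_ne_zero.mpr hd0),
    Int.mul_ediv_cancel_left _ (Int.natCast_ne_zero.mpr hd0)] at hr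
  have : NeZero (d.gcd M) :=
    ⟨(Nat.gcd_pos_of_pos_left _ (Nat.pos_of_ne_zero hd0)).ne'⟩
  have hr' := ZMod.val_injective (d.gcd M) hr
  push_cast at hr'
  set G := d.gcd M with hG
  have h1 : ((d : ℕ) : ZMod G) = 0 :=
    (ZMod.natCast_eq_zero_iff _ _).mpr (Nat.gcd_dvd_left _ _)
  have ha : ∀ (k : SL(2, ℤ)) (y : ℤ), k 1 0 = (d : ℤ) * y →
      ((k 0 0 : ℤ) : ZMod G) * (k 1 1 : ℤ) = 1 := fun k y hy => by
    have := congrArg (Int.cast : ℤ → ZMod G) ((Matrix.det_fin_two _).symm.trans k.2)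
    push_cast [hy] at this
    rw [h1] at this
    linear_combination this
  have hw : (G : ℤ) ∣ h 0 0 * x' - x * g 0 0 := by
    rw [← ZMod.intCast_zmod_eq_zero_iff_dvd]
    push_cast
    linear_combination
      (-((h 0 0 : ℤ) : ZMod G) * (x' : ZMod G)) * ha g x' hx'
      + ((x : ZMod G) * (g 0 0 : ℤ)) * ha h x hx
      + ((g 0 0 : ℤ) : ZMod G) * (h 0 0 : ℤ) * hr'
  obtain ⟨k, hk⟩ := hw
  have hbez : (G : ℤ) = d * Nat.gcdA d M + M * Nat.gcdB d M := Nat.gcd_eq_gcd_ab d M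
  set u := Nat.gcdA d M
  set v := Nat.gcdB d M
  refine cuspOrbitMk_eq_iff.mpr ⟨-k * u * p * p', ?_⟩
  rw [MulAction.Quotient.smul_coe, smul_eq_mul, gamma0Coset_mk_eq_iff, ← Int.cast_mul,
    ← Int.cast_mul, ← Int.cast_sub, ZMod.intCast_zmod_eq_zero_iff_dvd]
  simp [ModularGroup.coe_T_zpow, Matrix.mul_apply, Fin.sum_univ_two]
  rw [hx, hx', hM]
  push_cast
  refine ⟨k * v + k * u * d * (q + q' - q * q' * M), ?_⟩
  have e1 : x * p = 1 - q * M := by linear_combination hpq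
  have e2 : x' * p' = 1 - q' * M := by linear_combination hpq'
  linear_combination (d : ℤ) * hk + (d : ℤ) * k * hbez - (d : ℤ) * d * k * u * (x' * p') * e1
    - (d : ℤ) * d * k * u * (1 - q * M) * e2

theorem exists_cusp_invariants_eq [NeZero N] {d r : ℕ} (hd : d ∣ N) (hr : r < d.gcd (N / d))
    (hr' : (d.gcd (N / d)).Coprime r) :
    ∃ g : SL(2, ℤ), cuspDiv N g = d ∧ cuspRes N g = r := by
  obtain ⟨k, u, v, huv⟩ := exists_add_mul_isCoprime (r : ℤ) (d.gcd (N / d))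
      (Nat.pos_of_dvd_of_pos hd (NeZero.pos N)).ne' (fun p hp hpG _ hpr =>
    Nat.not_coprime_of_dvd_of_dvd hp.one_lt hpG (Int.natCast_dvd_natCast.mp hpr) hr')
  let g : SL(2, ℤ) := ⟨!![u, -v; (d : ℤ), r + k * (d.gcd (N / d))], by
    rw [Matrix.det_fin_two_of]; linear_combination huv⟩
  have hg : cuspDiv N g = d := by
    simp [cuspDiv, g, Int.gcd_natCast_natCast, Nat.gcd_eq_left hd]
  refine ⟨g, hg, ?_⟩
  rw [cuspRes, hg]
  simp [g, Nat.pos_of_dvd_of_pos hd (NeZero.pos N) |>.ne', Nat.mod_eq_of_lt hr]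

theorem card_cuspOrbit [NeZero N] : Nat.card (CuspOrbit N) = ModularCurve.cuspCount N := by
  classical
  let F : Finset (Σ _ : ℕ, ℕ) := N.divisors.sigma fun d =>
    (Finset.range (d.gcd (N / d))).filter (d.gcd (N / d)).Coprime
  have hF : F.card = ModularCurve.cuspCount N := Finset.card_sigma _ _
  have hmem : ∀ g : SL(2, ℤ), (⟨cuspDiv N g, cuspRes N g⟩ : Σ _ : ℕ, ℕ) ∈ F := fun g => by
    have hd := cuspDiv_dvd N g
    simp only [F, Finset.mem_sigma, Nat.mem_divisors, Finset.mem_filter, Finset.mem_range]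
    have hd0 : 0 < cuspDiv N g := Nat.pos_of_dvd_of_pos hd (NeZero.pos N)
    have : NeZero ((cuspDiv N g).gcd (N / cuspDiv N g)) :=
      ⟨(Nat.gcd_pos_of_pos_left _ hd0).ne'⟩
    refine ⟨⟨hd, NeZero.ne N⟩, ZMod.val_lt _, ?_⟩
    rw [Nat.coprime_comm, ← ZMod.isUnit_iff_coprime, cuspRes, ZMod.natCast_zmod_val]
    obtain ⟨x, hx⟩ : (cuspDiv N g : ℤ) ∣ g 1 0 := Int.gcd_dvd_left _ _
    obtain ⟨M, hM⟩ := hd
    have hcop : IsCoprime x (M : ℤ) := by
      have e : Int.gcd ((cuspDiv N g : ℤ) * x) ((cuspDiv N g : ℤ) * (M : ℤ)) = cuspDiv N g := by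
        rw [← hx, ← Nat.cast_mul, ← hM]
        rfl
      rw [Int.gcd_mul_left, Int.natAbs_natCast] at e
      exact Int.isCoprime_iff_gcd_eq_one.mpr ((mul_eq_left₀ hd0.ne').mp e)
    have hg : g 0 0 * g 1 1 - g 0 1 * g 1 0 = 1 := (Matrix.det_fin_two _).symm.trans g.2
    rw [hx] at hg ⊢
    generalize cuspDiv N g = d at *
    rw [hM, Nat.mul_div_cancel_left M hd0,
      Int.mul_ediv_cancel_left _ (Int.natCast_ne_zero.mpr hd0.ne'), Int.cast_mul]
    obtain ⟨p, q, hpq⟩ := hcop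
    have h1 : ((d : ℕ) : ZMod (d.gcd M)) = 0 :=
      (ZMod.natCast_eq_zero_iff _ _).mpr (Nat.gcd_dvd_left _ _)
    have h2 : ((M : ℕ) : ZMod (d.gcd M)) = 0 :=
      (ZMod.natCast_eq_zero_iff _ _).mpr (Nat.gcd_dvd_right _ _)
    have e1 := congrArg (Int.cast : ℤ → ZMod (d.gcd M)) hg
    have e2 := congrArg (Int.cast : ℤ → ZMod (d.gcd M)) hpq
    push_cast at e1 e2
    rw [h1] at e1
    rw [h2] at e2
    refine IsUnit.mul (.of_mul_eq_one (p : ZMod (d.gcd M)) (by linear_combination e2))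
      (.of_mul_eq_one ((g 0 0 : ℤ) : ZMod (d.gcd M)) (by linear_combination e1))
  have hout : ∀ g : SL(2, ℤ), cuspOrbitMk (g : Gamma0Coset N) =
      cuspOrbitMk ((cuspOrbitMk (g : Gamma0Coset N)).out.out : Gamma0Coset N) := fun g => by
    rw [QuotientGroup.out_eq']
    exact (Quotient.out_eq' _).symm
  have hK : Function.Bijective (fun c : CuspOrbit N => (⟨_, hmem c.out.out⟩ : F)) := by
    constructor
    · intro c c' h
      simp only [Subtype.mk.injEq, Sigma.mk.injEq, heq_eq_eq] at h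
      have := cuspOrbitMk_eq_of_invariants (N := N) h.1 h.2
      simp only [QuotientGroup.out_eq'] at this
      rwa [cuspOrbitMk, cuspOrbitMk, Quotient.out_eq', Quotient.out_eq'] at this
    · rintro ⟨⟨d, r⟩, hdr⟩
      simp only [F, Finset.mem_sigma, Nat.mem_divisors, Finset.mem_filter, Finset.mem_range] at hdr
      obtain ⟨g, hg1, hg2⟩ := exists_cusp_invariants_eq hdr.1.1 hdr.2.1 hdr.2.2
      refine ⟨cuspOrbitMk (g : Gamma0Coset N), Subtype.ext ?_⟩
      show (⟨_, _⟩ : Σ _ : ℕ, ℕ) = _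
      rw [← cuspDiv_eq_of_cuspOrbitMk_eq (hout g), ← cuspRes_eq_of_cuspOrbitMk_eq (hout g), hg1,
        hg2]
  rw [Nat.card_eq_of_bijective _ hK, Nat.card_eq_finsetCard, hF]

end FermatLib.Modular
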