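import Fermat.Agent.Modular.HomsCocycle
import Mathlib.LinearAlgebra.FiniteDimensional.Lemmas
import Mathlib.LinearAlgebra.FiniteDimensional.Basic

/-!
Dimension of the cuspidal homomorphisms of a point stabiliser, over any field, in terms of the
orbits of `S`, `S * T` and `T` on the transitive set `Q`.
-/

set_option autoImplicit false

noncomputable section

open scoped MatrixGroups
open ModularGroup Module

namespace FermatLib.Modular

variable (K : Type*) [Field K] (Q : Type*) [MulAction SL(2, ℤ) Q]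

/-- `m ↦ m - m ∘ x`. -/
def cobdryLin (x : SL(2, ℤ)) : (Q → K) →ₗ[K] (Q → K) where
  toFun m q := m q - m (x • q)
  map_add' a b := by funext q; simp only [Pi.add_apply]; abel
  map_smul' a b := by funext q; simp [mul_sub]

/-- The orbits of `x` on `Q`. -/
abbrev OrbitsOf (x : SL(2, ℤ)) : Type _ := MulAction.orbitRel.Quotient (Subgroup.zpowers x) Q

theorem finrank_range_cobdryLin_add [Finite Q] (x : SL(2, ℤ)) :
    finrank K (LinearMap.range (cobdryLin K Q x)) + Nat.card (OrbitsOf Q x) = Nat.card Q := by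
  classical
  have := Fintype.ofFinite Q
  have := Fintype.ofFinite (OrbitsOf Q x)
  let π : Q → OrbitsOf Q x := fun q => Quotient.mk'' q
  have hker : LinearMap.ker (cobdryLin K Q x) = LinearMap.range (LinearMap.funLeft K K π) := by
    apply le_antisymm
    · intro m hm
      have hm' : ∀ q, m q = m (x • q) := fun q => sub_eq_zero.1 (congrFun hm q)
      have hinv : ∀ (k : ℤ) q, m (x ^ k • q) = m q := by
        intro k
        induction k using Int.induction_on with
        | zero => simp
        | succ k ih => intro q; rw [zpow_add_one, mul_smul, ih, ← hm']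
        | pred k ih =>
          intro q
          rw [zpow_sub_one, mul_smul, ih, hm' (x⁻¹ • q), smul_inv_smul]
      refine ⟨Quotient.lift (s := MulAction.orbitRel (Subgroup.zpowers x) Q) m ?_, rfl⟩
      rintro a b ⟨⟨g, hg⟩, rfl⟩
      obtain ⟨k, rfl⟩ := Subgroup.mem_zpowers_iff.1 hg
      exact hinv k b
    · rintro _ ⟨h, rfl⟩
      refine funext fun q => sub_eq_zero.2 (congrArg h ?_)
      exact Quotient.sound' ⟨⟨x⁻¹, inv_mem (Subgroup.mem_zpowers x)⟩, inv_smul_smul x q⟩
  have h := LinearMap.finrank_range_add_finrank_ker (cobdryLin K Q x)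
  rw [hker, LinearMap.finrank_range_of_inj
    (LinearMap.funLeft_injective_of_surjective K K π Quotient.mk''_surjective),
    finrank_pi, finrank_pi, ← Nat.card_eq_fintype_card, ← Nat.card_eq_fintype_card] at h
  exact h

/-- The sum of all values. -/
def totalSum [Fintype Q] : (Q → K) →ₗ[K] K := ∑ q, LinearMap.proj q

omit [MulAction SL(2, ℤ) Q] in
theorem totalSum_apply [Fintype Q] (f : Q → K) : totalSum K Q f = ∑ q, f q := by
  simp [totalSum]

theorem totalSum_cobdryLin [Fintype Q] (x : SL(2, ℤ)) (m : Q → K) :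
    totalSum K Q (cobdryLin K Q x m) = 0 := by
  simp only [totalSum_apply, cobdryLin, LinearMap.coe_mk, AddHom.coe_mk,
    Finset.sum_sub_distrib]
  rw [show ∑ q, m (x • q) = ∑ q, m q from Equiv.sum_comp (MulAction.toPerm x) m, sub_self]

theorem ker_totalSum_eq [Fintype Q] [MulAction.IsPretransitive SL(2, ℤ) Q] (q₀ : Q) :
    LinearMap.ker (totalSum K Q) =
      LinearMap.range (cobdryLin K Q ellU) ⊔ LinearMap.range (cobdryLin K Q T) := by
  classical
  apply le_antisymm
  · set P := LinearMap.range (cobdryLin K Q ellU) ⊔ LinearMap.range (cobdryLin K Q T) with hP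
    let H : Subgroup SL(2, ℤ) :=
      { carrier := {x | ∀ q, Pi.single (x • q) (1 : K) - Pi.single q 1 ∈ P}
        one_mem' := fun q => by simp
        mul_mem' := fun {a b} ha hb q => by
          have := P.add_mem (ha (b • q)) (hb q)
          rwa [sub_add_sub_cancel, ← mul_smul] at this
        inv_mem' := fun {a} ha q => by
          have := P.neg_mem (ha (a⁻¹ • q))
          rwa [neg_sub, smul_inv_smul] at this }
    have hcob : ∀ (x : SL(2, ℤ)) q, Pi.single (x • q) (1 : K) - Pi.single q 1 =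
        cobdryLin K Q x (Pi.single (x • q) 1) := by
      intro x q
      funext r
      simp [cobdryLin, Pi.single_apply]
    have hU : ellU ∈ H := fun q => by
      rw [hcob]; exact Submodule.mem_sup_left (LinearMap.mem_range_self _ _)
    have hT : T ∈ H := fun q => by
      rw [hcob]; exact Submodule.mem_sup_right (LinearMap.mem_range_self _ _)
    have hS : S ∈ H := by
      rw [show S = ellU * T⁻¹ by simp [ellU]]
      exact mul_mem hU (inv_mem hT)
    have htop : H = ⊤ := by
      rw [eq_top_iff, ← closure_S_ellU, Subgroup.closure_le]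
      rintro y (rfl | rfl)
      · exact hS
      · exact hU
    intro f hf
    have hf' : ∑ q, f q = 0 := by rw [← totalSum_apply]; exact hf
    have hfe : f = ∑ q, f q • (Pi.single q (1 : K) - Pi.single q₀ 1) := by
      rw [funext_iff]
      intro r
      simp only [Finset.sum_apply, Pi.smul_apply, Pi.sub_apply, smul_sub, smul_eq_mul,
        Finset.sum_sub_distrib, ← Finset.sum_mul, hf', zero_mul, sub_zero]
      simp [Pi.single_apply]
    rw [hfe]
    refine P.sum_mem fun q _ => P.smul_mem _ ?_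
    obtain ⟨g, rfl⟩ := MulAction.exists_smul_eq SL(2, ℤ) q₀ q
    exact (htop ▸ Subgroup.mem_top g : g ∈ H) q₀
  · refine sup_le ?_ ?_ <;>
    · rintro _ ⟨m, rfl⟩
      exact totalSum_cobdryLin K Q _ m

theorem finrank_ker_totalSum [Fintype Q] (q₀ : Q) :
    finrank K (LinearMap.ker (totalSum K Q)) + 1 = Nat.card Q := by
  classical
  have hs : LinearMap.range (totalSum K Q) = ⊤ := by
    rw [LinearMap.range_eq_top]
    exact fun a => ⟨Pi.single q₀ a, by simp [totalSum_apply]⟩
  have h := LinearMap.finrank_range_add_finrank_ker (totalSum K Q)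
  rw [hs, finrank_top, finrank_self, finrank_pi, ← Nat.card_eq_fintype_card] at h
  omega

/-- `(f, g) ↦` the value at `T` of the cocycle with values `f`, `g` at `S`, `S * T`. -/
def cuspValue : (Q → K) × (Q → K) →ₗ[K] (Q → K) :=
  (LinearMap.funLeft K K fun q : Q => ellU • q).comp (LinearMap.fst K _ _) + LinearMap.snd K _ _

/-- The values at `(S, S * T)` of the cocycles giving cuspidal homomorphisms. -/
def cuspPairs : Submodule K ((Q → K) × (Q → K)) :=
  (LinearMap.range (cobdryLin K Q S)).prod (LinearMap.range (cobdryLin K Q ellU)) ⊓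
    (LinearMap.range (cobdryLin K Q T)).comap (cuspValue K Q)

variable {K Q}

theorem cuspPairs_cocycle (hneg : ∀ q : Q, (-1 : SL(2, ℤ)) • q = q) (w : cuspPairs K Q) :
    ∃ c : SL(2, ℤ) → Q → K, IsShapiroCocycle c ∧ c S = w.1.1 ∧ c ellU = w.1.2 ∧
      ∀ q, c (-1) q = 0 := by
  obtain ⟨⟨m, hm⟩, n, hn⟩ := w.2.1
  rw [← hm, ← hn]
  refine exists_shapiroCocycle hneg _ _ (fun q => ?_) fun q => ?_
  · show m q - m (S • q) + (m (S • q) - m (S • S • q)) = 0
    rw [← mul_smul, ← sq, S_pow_two_eq_neg_one, hneg]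
    abel
  · show n q - n (ellU • q) + (n (ellU • q) - n (ellU • ellU • q)) +
      (n (ellU • ellU • q) - n (ellU • ellU • ellU • q)) = 0
    rw [show ellU • ellU • ellU • q = q by
      rw [← mul_smul, ← mul_smul, ← pow_three', ellU_pow_three, hneg]]
    abel

/-- The cocycle attached to a pair. -/
def pairCocycle (hneg : ∀ q : Q, (-1 : SL(2, ℤ)) • q = q) (w : cuspPairs K Q) :
    SL(2, ℤ) → Q → K :=
  (cuspPairs_cocycle hneg w).choose

section Count

variable [Finite Q] [MulAction.IsPretransitive SL(2, ℤ) Q] (hneg : ∀ q : Q, (-1 : SL(2, ℤ)) • q = q)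
  {Γ : Subgroup SL(2, ℤ)} {q₀ : Q} (hΓ : ∀ x, x ∈ Γ ↔ x • q₀ = q₀)

omit [Finite Q] [MulAction.IsPretransitive SL(2, ℤ) Q] in
theorem pairCocycle_spec (w : cuspPairs K Q) :
    IsShapiroCocycle (pairCocycle hneg w) ∧ pairCocycle hneg w S = w.1.1 ∧
      pairCocycle hneg w ellU = w.1.2 ∧ ∀ q, pairCocycle hneg w (-1) q = 0 :=
  (cuspPairs_cocycle hneg w).choose_spec

/-- The map from pairs to cuspidal homomorphisms. -/
def pairsToHom : cuspPairs K Q →ₗ[K] cuspidalHoms K Γ K where
  toFun w := ⟨(pairCocycle_spec hneg w).1.stabHom hΓ, by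
    obtain ⟨hc, hS, hU, h1⟩ := pairCocycle_spec hneg w
    obtain ⟨⟨hmS, hmU⟩, hT⟩ := w.2
    refine hc.isCuspidalHom_stabHom hΓ h1 hneg ?_
    rintro x (rfl | rfl | rfl)
    · obtain ⟨m, hm⟩ := hmS; exact ⟨m, fun q => by rw [hS]; exact congrFun hm q⟩
    · obtain ⟨m, hm⟩ := hmU; exact ⟨m, fun q => by rw [hU]; exact congrFun hm q⟩
    · obtain ⟨m, hm⟩ := hT
      refine ⟨m, fun q => ?_⟩
      rw [hc.map_T h1, hS, hU]
      exact congrFun hm q⟩
  map_add' w w' := by
    obtain ⟨hc, hS, hU, -⟩ := pairCocycle_spec hneg w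
    obtain ⟨hc', hS', hU', -⟩ := pairCocycle_spec hneg w'
    obtain ⟨hc'', hS'', hU'', -⟩ := pairCocycle_spec hneg (w + w')
    have e := hc''.eq_of_S_ellU (c' := fun x q => pairCocycle hneg w x q + pairCocycle hneg w' x q)
      (fun x y q => by simp only []; rw [hc x y q, hc' x y q]; abel)
      (by rw [hS'']; funext q; rw [hS, hS']; rfl) (by rw [hU'']; funext q; rw [hU, hU']; rfl)
    exact Subtype.ext (AddMonoidHom.ext fun γ => congrFun (congrFun e _) q₀)
  map_smul' a w := by
    obtain ⟨hc, hS, hU, -⟩ := pairCocycle_spec hneg w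
    obtain ⟨hc'', hS'', hU'', -⟩ := pairCocycle_spec hneg (a • w)
    have e := hc''.eq_of_S_ellU (c' := fun x q => a * pairCocycle hneg w x q)
      (fun x y q => by simp only []; rw [hc x y q, mul_add])
      (by rw [hS'']; funext q; rw [hS]; rfl) (by rw [hU'']; funext q; rw [hU]; rfl)
    exact Subtype.ext (AddMonoidHom.ext fun γ => congrFun (congrFun e _) q₀)

theorem range_pairsToHom : LinearMap.range (pairsToHom (K := K) hneg hΓ) = ⊤ := by
  rw [eq_top_iff]
  rintro ⟨φ, hφ⟩ -
  obtain ⟨c, hc, hcφ, h1, hcob⟩ := exists_shapiroCocycle_of_hom hΓ hφ hneg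
  have hmem : (c S, c ellU) ∈ cuspPairs K Q := by
    obtain ⟨mS, hmS⟩ := hcob S (Or.inl rfl)
    obtain ⟨mU, hmU⟩ := hcob ellU (Or.inr (Or.inl rfl))
    obtain ⟨mT, hmT⟩ := hcob T (Or.inr (Or.inr rfl))
    refine ⟨⟨⟨mS, funext hmS⟩, ⟨mU, funext hmU⟩⟩, mT, funext fun q => ?_⟩
    rw [show cobdryLin K Q T mT q = c T q from hmT q, hc.map_T h1]
    rfl
  refine ⟨⟨_, hmem⟩, Subtype.ext ?_⟩
  obtain ⟨hc', hS', hU', -⟩ := pairCocycle_spec hneg ⟨_, hmem⟩
  refine AddMonoidHom.ext fun γ => ?_
  show pairCocycle hneg _ _ q₀ = φ γ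
  rw [hc'.eq_of_S_ellU hc hS' hU', ← hcφ]
  rfl

/-- `m ↦` the pair of its coboundaries. -/
def cobdryPair : (Q → K) →ₗ[K] (Q → K) × (Q → K) :=
  (cobdryLin K Q S).prod (cobdryLin K Q ellU)

include hneg in
omit [Finite Q] [MulAction.IsPretransitive SL(2, ℤ) Q] in
theorem range_cobdryPair_le : LinearMap.range (cobdryPair (K := K) (Q := Q)) ≤ cuspPairs K Q := by
  rintro _ ⟨m, rfl⟩
  refine ⟨⟨⟨m, rfl⟩, ⟨m, rfl⟩⟩, m, funext fun q => ?_⟩
  show m q - m (T • q) = m (ellU • q) - m (S • ellU • q) + (m q - m (ellU • q))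
  rw [show S • ellU • q = T • q by
    rw [← mul_smul, show S * ellU = -T by decide, ← neg_one_mul, mul_smul, hneg]]
  abel

theorem ker_pairsToHom : LinearMap.ker (pairsToHom (K := K) hneg hΓ) =
    (LinearMap.range (cobdryPair (K := K) (Q := Q))).comap (cuspPairs K Q).subtype := by
  ext w
  obtain ⟨hc, hS, hU, -⟩ := pairCocycle_spec hneg w
  constructor
  · intro hw
    have hw0 : ∀ γ ∈ Γ, pairCocycle hneg w γ q₀ = 0 := fun γ hγ =>
      congrArg (fun φ : cuspidalHoms K Γ K => φ.1 (Additive.ofMul ⟨γ, hγ⟩))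
        (LinearMap.mem_ker.1 hw)
    choose σ hσ using fun q : Q => MulAction.exists_smul_eq SL(2, ℤ) q₀ q
    set c := pairCocycle hneg w
    let m : Q → K := fun q => -c (σ q) q₀
    have key : ∀ x q, m q - m (x • q) = c x q := by
      intro x q
      have hmem : (σ (x • q))⁻¹ * (x * σ q) ∈ Γ := by
        rw [hΓ, mul_smul, mul_smul, hσ q, inv_smul_eq_iff, hσ]
      have e := hc (σ (x • q)) ((σ (x • q))⁻¹ * (x * σ q)) q₀
      rw [mul_inv_cancel_left, (hΓ _).1 hmem, hw0 _ hmem, add_zero, hc, hσ q] at e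
      show -c (σ q) q₀ - -c (σ (x • q)) q₀ = c x q
      rw [← e]; ring
    refine ⟨m, Prod.ext ?_ ?_⟩
    · rw [Submodule.subtype_apply, ← hS]; exact funext (key S)
    · rw [Submodule.subtype_apply, ← hU]; exact funext (key ellU)
  · rintro ⟨m, hm⟩
    have e := hc.eq_of_S_ellU (isShapiroCocycle_cobdry m)
      (by rw [hS]; exact (congrArg Prod.fst hm).symm)
      (by rw [hU]; exact (congrArg Prod.snd hm).symm)
    refine LinearMap.mem_ker.2 (Subtype.ext (AddMonoidHom.ext fun γ => ?_))
    show pairCocycle hneg w _ q₀ = 0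
    rw [e, shapiroCobdry, (hΓ _).1 (Additive.toMul γ).2, sub_self]

include q₀ in
theorem finrank_range_cobdryPair :
    finrank K (LinearMap.range (cobdryPair (K := K) (Q := Q))) + 1 = Nat.card Q := by
  have := Fintype.ofFinite Q
  have hker : LinearMap.ker (cobdryPair (K := K) (Q := Q)) = K ∙ (fun _ => (1 : K)) := by
    apply le_antisymm
    · intro m hm
      rw [cobdryPair, LinearMap.ker_prod, Submodule.mem_inf] at hm
      let H : Subgroup SL(2, ℤ) :=
        { carrier := {x | ∀ q, m (x • q) = m q}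
          one_mem' := fun q => by rw [one_smul]
          mul_mem' := fun {a b} ha hb q => by rw [mul_smul, ha, hb]
          inv_mem' := fun {a} ha q => by
            have := ha (a⁻¹ • q); rwa [smul_inv_smul, eq_comm] at this }
      have htop : H = ⊤ := by
        rw [eq_top_iff, ← closure_S_ellU, Subgroup.closure_le]
        rintro y (rfl | rfl) <;> intro q
        · exact (sub_eq_zero.1 (congrFun hm.1 q)).symm
        · exact (sub_eq_zero.1 (congrFun hm.2 q)).symm
      rw [Submodule.mem_span_singleton]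
      refine ⟨m q₀, funext fun q => ?_⟩
      obtain ⟨g, rfl⟩ := MulAction.exists_smul_eq SL(2, ℤ) q₀ q
      have := (htop ▸ Subgroup.mem_top g : g ∈ H) q₀
      simpa using this.symm
    · rw [Submodule.span_singleton_le_iff_mem]
      simp [cobdryPair, LinearMap.mem_ker, funext_iff, cobdryLin]
  have h := LinearMap.finrank_range_add_finrank_ker (cobdryPair (K := K) (Q := Q))
  rw [hker, finrank_span_singleton (Function.ne_iff.2 ⟨q₀, one_ne_zero⟩), finrank_pi,
    ← Nat.card_eq_fintype_card] at h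
  exact h

include q₀ in
theorem finrank_cuspPairs :
    finrank K (cuspPairs K Q) + Nat.card (OrbitsOf Q S) + Nat.card (OrbitsOf Q ellU) +
      Nat.card (OrbitsOf Q T) = 2 * Nat.card Q + 1 := by
  have := Fintype.ofFinite Q
  set RS := LinearMap.range (cobdryLin K Q S)
  set RU := LinearMap.range (cobdryLin K Q ellU)
  set RT := LinearMap.range (cobdryLin K Q T)
  set tot := LinearMap.ker (totalSum K Q)
  have hle : RT ≤ tot := by rintro _ ⟨m, rfl⟩; exact totalSum_cobdryLin K Q _ m
  set ψ : RS.prod RU →ₗ[K] (Q → K) ⧸ RT := RT.mkQ.comp ((cuspValue K Q).comp (RS.prod RU).subtype)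
  have hrange : LinearMap.range ψ = tot.map RT.mkQ := by
    apply le_antisymm
    · rintro _ ⟨w, rfl⟩
      obtain ⟨⟨m, hm⟩, n, hn⟩ := w.2
      refine Submodule.mem_map_of_mem (LinearMap.mem_ker.2 ?_)
      simp only [cuspValue, LinearMap.add_apply, LinearMap.comp_apply, LinearMap.fst_apply,
        LinearMap.snd_apply, map_add, Submodule.subtype_apply]
      rw [← hm, ← hn, totalSum_cobdryLin, add_zero, totalSum_apply]
      show ∑ q, cobdryLin K Q S m (ellU • q) = 0
      rw [← totalSum_cobdryLin K Q S m, totalSum_apply]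
      exact Equiv.sum_comp (MulAction.toPerm ellU) (cobdryLin K Q S m)
    · rintro _ ⟨f, hf, rfl⟩
      have hf' : f ∈ RU ⊔ RT := ker_totalSum_eq K Q q₀ ▸ hf
      obtain ⟨g, hg, t, ht, rfl⟩ := Submodule.mem_sup.1 hf'
      refine ⟨⟨(0, g), ⟨zero_mem _, hg⟩⟩, ?_⟩
      show RT.mkQ (cuspValue K Q (0, g)) = RT.mkQ (g + t)
      rw [map_add _ g t, show RT.mkQ t = 0 from (Submodule.Quotient.mk_eq_zero RT).2 ht, add_zero]
      simp [cuspValue]
  have hker : LinearMap.ker ψ = (cuspPairs K Q).comap (RS.prod RU).subtype := by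
    ext w
    simp [ψ, cuspPairs, RS, RU, RT]
  have h1 := LinearMap.finrank_range_add_finrank_ker ψ
  rw [hrange, hker, (Submodule.comapSubtypeEquivOfLe (show cuspPairs K Q ≤ RS.prod RU from
    inf_le_left)).finrank_eq] at h1
  have h2 : finrank K (RS.prod RU) = finrank K RS + finrank K RU := by
    let e : RS.prod RU ≃ₗ[K] RS × RU :=
      { toFun := fun w => (⟨w.1.1, w.2.1⟩, ⟨w.1.2, w.2.2⟩)
        invFun := fun w => ⟨(w.1.1, w.2.1), ⟨w.1.2, w.2.2⟩⟩
        map_add' := fun _ _ => rfl
        map_smul' := fun _ _ => rfl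
        left_inv := fun _ => rfl
        right_inv := fun _ => rfl }
    rw [e.finrank_eq, finrank_prod]
  have h3 := LinearMap.finrank_range_add_finrank_ker (RT.mkQ.comp tot.subtype)
  rw [LinearMap.range_comp, Submodule.range_subtype, LinearMap.ker_comp, Submodule.ker_mkQ,
    (Submodule.comapSubtypeEquivOfLe hle).finrank_eq] at h3
  have h4 := finrank_ker_totalSum K Q q₀
  have hS' := finrank_range_cobdryLin_add K Q S
  have hU' := finrank_range_cobdryLin_add K Q ellU
  have hT' := finrank_range_cobdryLin_add K Q T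
  change finrank K tot + 1 = _ at h4
  change finrank K RS + _ = _ at hS'
  change finrank K RU + _ = _ at hU'
  change finrank K RT + _ = _ at hT'
  omega

include hneg hΓ in
/-- The dimension formula, valid over every field. -/
theorem finrank_cuspidalHoms_add :
    FiniteDimensional K (cuspidalHoms K Γ K) ∧
      finrank K (cuspidalHoms K Γ K) + Nat.card (OrbitsOf Q S) + Nat.card (OrbitsOf Q ellU) +
        Nat.card (OrbitsOf Q T) = Nat.card Q + 2 := by
  have hr := range_pairsToHom (K := K) hneg hΓ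
  refine ⟨Module.Finite.of_surjective _ (LinearMap.range_eq_top.1 hr), ?_⟩
  have h1 := LinearMap.finrank_range_add_finrank_ker (pairsToHom (K := K) hneg hΓ)
  rw [hr, finrank_top, ker_pairsToHom,
    (Submodule.comapSubtypeEquivOfLe (range_cobdryPair_le hneg)).finrank_eq] at h1
  have h2 := finrank_range_cobdryPair (K := K) (q₀ := q₀)
  have h3 := finrank_cuspPairs (K := K) (q₀ := q₀)
  omega

end Count

end FermatLib.Modular
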