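import Fermat.Agent.Modular.HomsDefs
import Mathlib.GroupTheory.Abelianization.Defs
import Mathlib.GroupTheory.FiniteAbelian.Basic
import Mathlib.LinearAlgebra.FiniteDimensional.Basic
import Mathlib.Algebra.Field.ZMod

/-!
If the cuspidal homomorphisms of a finitely generated `Γ` have the same dimension over every
prime field, then `Γ` modulo commutators, parabolic and elliptic elements is free.
-/

set_option autoImplicit false

noncomputable section

open scoped MatrixGroups
open Module

namespace FermatLib.Modular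

variable (Γ : Subgroup SL(2, ℤ))

/-- The classes of the elements with `trace ^ 2 ≤ 4`. -/
def cuspRelations : AddSubgroup (Additive (Abelianization Γ)) :=
  AddSubgroup.closure {x | ∃ γ : Γ,
    ((γ : SL(2, ℤ)) : Matrix (Fin 2) (Fin 2) ℤ).trace ^ 2 ≤ 4 ∧
      Additive.ofMul (Abelianization.of γ) = x}

/-- `Γ` modulo commutators, parabolic and elliptic elements. -/
abbrev CuspLattice : Type := Additive (Abelianization Γ) ⧸ cuspRelations Γ

/-- The projection onto `CuspLattice Γ`. -/
def cuspMk : Additive Γ →+ CuspLattice Γ :=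
  (QuotientAddGroup.mk' _).comp (MonoidHom.toAdditive Abelianization.of)

theorem cuspMk_surjective : Function.Surjective (cuspMk Γ) := by
  intro x
  obtain ⟨a, rfl⟩ := QuotientAddGroup.mk'_surjective _ x
  obtain ⟨g, hg⟩ := QuotientGroup.mk'_surjective (commutator Γ) (Additive.toMul a)
  exact ⟨Additive.ofMul g, congrArg (QuotientAddGroup.mk' _) (congrArg Additive.ofMul hg)⟩

theorem isCuspidalHom_cuspMk : IsCuspidalHom (cuspMk Γ) := fun γ hγ =>
  (QuotientAddGroup.eq_zero_iff _).2 (AddSubgroup.subset_closure ⟨γ, hγ, rfl⟩)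

variable {Γ} {A : Type*} [AddCommGroup A]

/-- A cuspidal homomorphism factors through `CuspLattice Γ`. -/
def cuspLift (φ : Additive Γ →+ A) (h : IsCuspidalHom φ) : CuspLattice Γ →+ A :=
  QuotientAddGroup.lift _
    (MonoidHom.toAdditiveLeft (Abelianization.lift (AddMonoidHom.toMultiplicativeRight φ)))
    (by
      rw [cuspRelations, AddSubgroup.closure_le]
      rintro _ ⟨γ, hγ, rfl⟩
      exact h γ hγ)

theorem cuspLift_cuspMk (φ : Additive Γ →+ A) (h : IsCuspidalHom φ) (g : Additive Γ) :
    cuspLift φ h (cuspMk Γ g) = φ g := rfl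

/-- Cuspidal homomorphisms are the homomorphisms out of `CuspLattice Γ`. -/
def cuspLatticeHomEquiv (R : Type*) [Semiring R] [Module R A] :
    cuspidalHoms R Γ A ≃ₗ[R] (CuspLattice Γ →+ A) where
  toFun φ := cuspLift φ.1 φ.2
  map_add' _ _ := AddMonoidHom.ext fun x => by obtain ⟨g, rfl⟩ := cuspMk_surjective Γ x; rfl
  map_smul' _ _ := AddMonoidHom.ext fun x => by obtain ⟨g, rfl⟩ := cuspMk_surjective Γ x; rfl
  invFun f := ⟨f.comp (cuspMk Γ), (isCuspidalHom_cuspMk Γ).comp f⟩
  left_inv _ := rfl
  right_inv _ := AddMonoidHom.ext fun x => by obtain ⟨g, rfl⟩ := cuspMk_surjective Γ x; rfl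

variable (Γ)

theorem cuspLattice_fg [Group.FG Γ] : AddGroup.FG (CuspLattice Γ) := by
  have : AddGroup.FG (Additive Γ) := GroupFG.iff_add_fg.1 ‹_›
  exact AddGroup.fg_of_surjective (cuspMk_surjective Γ)

/-- A finitely generated abelian group with `Hom(-, K)` of one dimension `D` over every prime
field is free of rank `D`. -/
theorem free_of_finrank_hom_eq {L : Type} [AddCommGroup L] [AddGroup.FG L] (D : ℕ)
    (hD : ∀ (K : Type) [Field K], FiniteDimensional K (L →+ K) ∧ finrank K (L →+ K) = D) :
    Nonempty (L ≃+ (Fin D → ℤ)) := by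
  classical
  obtain ⟨n, ι, hι, p, hp, e, ⟨φ⟩⟩ := AddCommGroup.equiv_free_prod_directSum_zmod L
  let v : Fin n → L := fun i => φ.symm (Finsupp.single i 1, 0)
  let free : ∀ (K : Type) [Field K], (L →+ K) →ₗ[K] (Fin n → K) := fun K _ =>
    { toFun := fun f i => f (v i), map_add' := fun _ _ => rfl, map_smul' := fun _ _ => rfl }
  have hsurj : ∀ (K : Type) [Field K], Function.Surjective (free K) := by
    intro K _ w
    refine ⟨((Finsupp.liftAddHom fun i => zmultiplesHom K (w i)).comp
      (AddMonoidHom.fst _ _)).comp φ.toAddMonoidHom, funext fun i => ?_⟩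
    simp [free, v]
  have hn : n = D := by
    obtain ⟨hf, hd⟩ := hD ℚ
    have hinj : Function.Injective (free ℚ) := by
      rw [injective_iff_map_eq_zero]
      intro f hf
      have h0 : f.comp φ.symm.toAddMonoidHom = 0 := by
        have h1 : (f.comp φ.symm.toAddMonoidHom).comp (AddMonoidHom.inl _ _) = 0 :=
          Finsupp.addHom_ext' fun i => AddMonoidHom.ext_int (congrFun hf i)
        suffices h2 : (f.comp φ.symm.toAddMonoidHom).comp (AddMonoidHom.inr _ _) = 0 by
          rw [← AddMonoidHom.coprod_unique (f.comp φ.symm.toAddMonoidHom), h1, h2]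
          exact AddMonoidHom.ext fun x => add_zero _
        refine DirectSum.addHom_ext fun i y => ?_
        have hy : (p i ^ e i) • y = 0 := by
          rw [nsmul_eq_mul, ZMod.natCast_self, zero_mul]
        set g := (f.comp φ.symm.toAddMonoidHom).comp ((AddMonoidHom.inr _ _).comp
          (DirectSum.of (fun j => ZMod (p j ^ e j)) i)) with hg
        have h1 : (p i ^ e i) • g y = 0 := by rw [← map_nsmul, hy, map_zero]
        show g y = 0
        rcases smul_eq_zero.1 h1 with h1 | h1
        · exact absurd h1 (pow_ne_zero _ (hp i).ne_zero)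
        · exact h1
      refine AddMonoidHom.ext fun x => ?_
      simpa using DFunLike.congr_fun h0 (φ x)
    rw [← hd, (LinearEquiv.ofBijective _ ⟨hinj, hsurj ℚ⟩).finrank_eq, finrank_pi, Fintype.card_fin]
  have he : ∀ i, e i = 0 := by
    intro i
    by_contra hei
    have := Fact.mk (hp i)
    obtain ⟨hf, hd⟩ := hD (ZMod (p i))
    have hinj : Function.Injective (free (ZMod (p i))) :=
      ((LinearMap.injective_iff_surjective_of_finrank_eq_finrank
        (by rw [hd, finrank_pi, Fintype.card_fin, hn])).2 (hsurj _))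
    let f : L →+ ZMod (p i) :=
      (((ZMod.castHom (dvd_pow_self (p i) hei) (ZMod (p i))).toAddMonoidHom.comp
        (DFinsupp.evalAddMonoidHom i)).comp
        (AddMonoidHom.snd _ (DirectSum ι fun j => ZMod (p j ^ e j)))).comp φ.toAddMonoidHom
    have hf0 : f = 0 := hinj (funext fun j => by simp [free, v, f])
    have := DFunLike.congr_fun hf0 (φ.symm (0, DirectSum.of (fun j => ZMod (p j ^ e j)) i 1))
    simp only [f, AddMonoidHom.comp_apply, AddEquiv.coe_toAddMonoidHom, AddEquiv.apply_symm_apply,
      AddMonoidHom.coe_snd, AddMonoidHom.zero_apply] at this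
    change ZMod.castHom (dvd_pow_self (p i) hei) (ZMod (p i))
      ((DirectSum.of (fun j => ZMod (p j ^ e j)) i 1) i) = 0 at this
    rw [DirectSum.of_eq_same, map_one] at this
    exact one_ne_zero this
  subst hn
  have hsub : ∀ i, Subsingleton (ZMod (p i ^ e i)) := fun i => by
    rw [he i, pow_zero]; exact inferInstanceAs (Subsingleton (Fin 1))
  haveI : Unique (DirectSum ι fun j => ZMod (p j ^ e j)) :=
    { default := 0, uniq := fun x => DFinsupp.ext fun i => (hsub i).elim _ _ }
  exact ⟨(φ.trans (AddEquiv.prodUnique)).trans (Finsupp.addEquivFunOnFinite)⟩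

/-- A dual basis of the cuspidal homomorphisms. -/
theorem exists_cuspDualBasis [Group.FG Γ] (D : ℕ)
    (hD : ∀ (K : Type) [Field K],
      FiniteDimensional K (cuspidalHoms K Γ K) ∧ finrank K (cuspidalHoms K Γ K) = D) :
    ∃ (γ : Fin D → Γ) (ε : Fin D → (Additive Γ →+ ℤ)), (∀ i, IsCuspidalHom (ε i)) ∧
      (∀ i j, ε i (Additive.ofMul (γ j)) = if i = j then 1 else 0) ∧
      ∀ g, cuspMk Γ g = ∑ i, ε i g • cuspMk Γ (Additive.ofMul (γ i)) := by
  have := cuspLattice_fg Γ
  have hD' : ∀ (K : Type) [Field K],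
      FiniteDimensional K (CuspLattice Γ →+ K) ∧ finrank K (CuspLattice Γ →+ K) = D := by
    intro K _
    obtain ⟨hf, hd⟩ := hD K
    exact ⟨Module.Finite.equiv (cuspLatticeHomEquiv K),
      by rw [← (cuspLatticeHomEquiv K).finrank_eq, hd]⟩
  obtain ⟨φ⟩ := free_of_finrank_hom_eq D hD'
  choose γ hγ using fun i : Fin D => cuspMk_surjective Γ (φ.symm (Pi.single i 1))
  refine ⟨fun i => Additive.toMul (γ i),
    fun i => (((Pi.evalAddMonoidHom (fun _ : Fin D => ℤ) i).comp φ.toAddMonoidHom).comp (cuspMk Γ)),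
    fun i => (isCuspidalHom_cuspMk Γ).comp _, fun i j => ?_, fun g => ?_⟩
  · simp [hγ, Pi.single_apply]
  · simp only [ofMul_toMul, hγ, ← map_zsmul, ← map_sum]
    refine φ.injective ?_
    rw [AddEquiv.apply_symm_apply]
    funext k
    simp [Pi.single_apply]

end FermatLib.Modular
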