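import Fermat.Agent.Modular.HomsDefs
import Fermat.Agent.Modular.Gamma0Orbits
import Fermat.Agent.Modular.HomsCount
import Fermat.Agent.Modular.HomsLattice
import Mathlib.GroupTheory.Schreier
import Mathlib.LinearAlgebra.FiniteDimensional.Defs
import Mathlib.LinearAlgebra.Dimension.Free

/-!
Cuspidal homomorphisms `Γ₀(N) → A`: they form `A ^ (2 g)`, naturally in `A`.
Interface: `cuspRank`, `cuspBasisElt`, `cuspDualBasis`, `cuspidalHomsEquiv`, `parabolicHomsEquiv`.
-/

set_option autoImplicit false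

noncomputable section

open scoped MatrixGroups
open CongruenceSubgroup ModularCurve.Period Matrix

namespace FermatLib.Modular

section Torsion

variable {N : ℕ} {A : Type*} [AddCommGroup A] [IsAddTorsionFree A]

theorem isCuspidalHom_of_isParabolicHom {Γ : Subgroup SL(2, ℤ)} {φ : Additive Γ →+ A}
    (h : IsParabolicHom Γ φ) : IsCuspidalHom φ := by
  rintro ⟨γ, hγ⟩ htr
  obtain ⟨g, x, k, hx, e⟩ := isConjBasic_of_trace_sq_le_four γ htr
  rcases eq_or_ne ((γ : Matrix (Fin 2) (Fin 2) ℤ).trace ^ 2) 4 with h4 | h4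
  · exact h _ h4
  have hxk : (x ^ k) ^ 12 = 1 := by
    rcases hx with rfl | rfl | rfl
    · rw [← zpow_natCast, ← zpow_mul, mul_comm, zpow_mul,
        show ModularGroup.S ^ ((12 : ℕ) : ℤ) = 1 by decide, _root_.one_zpow]
    · rw [← zpow_natCast, ← zpow_mul, mul_comm, zpow_mul,
        show ellU ^ ((12 : ℕ) : ℤ) = 1 by decide, _root_.one_zpow]
    · refine absurd ?_ h4
      rcases e with rfl | rfl
      · rw [trace_conj, ModularGroup.coe_T_zpow, Matrix.trace_fin_two_of]; norm_num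
      · rw [SpecialLinearGroup.coe_neg, Matrix.trace_neg, neg_sq, trace_conj,
          ModularGroup.coe_T_zpow, Matrix.trace_fin_two_of]
        norm_num
  have h12 : γ ^ 12 = 1 := by
    rcases e with rfl | rfl
    · rw [conj_pow, hxk, mul_one, mul_inv_cancel]
    · rw [Even.neg_pow ⟨6, rfl⟩, conj_pow, hxk, mul_one, mul_inv_cancel]
  have h0 : 12 • φ (Additive.ofMul ⟨γ, hγ⟩) = 0 := by
    rw [← map_nsmul, ← ofMul_pow,
      show (⟨γ, hγ⟩ : Γ) ^ 12 = 1 from Subtype.ext h12, ofMul_one, map_zero]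
  exact (nsmul_eq_zero_iff_right (by norm_num)).1 h0

theorem parabolicHoms_eq_cuspidalHoms (R : Type*) [Semiring R] [Module R A]
    (Γ : Subgroup SL(2, ℤ)) : parabolicHoms R Γ A = cuspidalHoms R Γ A := by
  ext φ
  exact ⟨isCuspidalHom_of_isParabolicHom, IsCuspidalHom.isParabolicHom⟩

end Torsion

/-- The rank `2 g` of the group of cuspidal homomorphisms of `Γ₀(N)`. -/
def cuspRank (N : ℕ) : ℕ := Module.finrank ℚ (cuspidalHoms ℚ (Gamma0 N) ℚ)

theorem gamma0_mem_iff_smul_eq (N : ℕ) (x : SL(2, ℤ)) :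
    x ∈ Gamma0 N ↔ x • ((1 : SL(2, ℤ)) : Gamma0Coset N) = ((1 : SL(2, ℤ)) : Gamma0Coset N) := by
  rw [gamma0Coset_smul_eq_self_iff, inv_one, one_mul, mul_one]

theorem finite_gamma0Coset (N : ℕ) [NeZero N] : Finite (Gamma0Coset N) :=
  Nat.finite_of_card_ne_zero (by rw [card_gamma0Coset]; exact dedekindPsi_pos.ne')

theorem finrank_cuspidalHoms_gamma0_add (N : ℕ) [NeZero N] (K : Type*) [Field K] :
    FiniteDimensional K (cuspidalHoms K (Gamma0 N) K) ∧
    Module.finrank K (cuspidalHoms K (Gamma0 N) K) + Nat.card (OrbitsOverI N) +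
        Nat.card (OrbitsOverRho N) + Nat.card (CuspOrbit N) =
      ModularCurve.dedekindPsi N + 2 := by
  have := finite_gamma0Coset N
  rw [← card_gamma0Coset (N := N)]
  exact finrank_cuspidalHoms_add (K := K) gamma0Coset_neg_one_smul (gamma0_mem_iff_smul_eq N)

/-- For every field, of any characteristic, the dimension is `2 g`. -/
theorem finrank_cuspidalHoms_gamma0 (N : ℕ) [NeZero N] (K : Type*) [Field K] :
    Module.finrank K (cuspidalHoms K (Gamma0 N) K) = cuspRank N := by
  have h1 := (finrank_cuspidalHoms_gamma0_add N K).2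
  have h2 := (finrank_cuspidalHoms_gamma0_add N ℚ).2
  unfold cuspRank
  omega

theorem cast_cuspRank (N : ℕ) [NeZero N] :
    (cuspRank N : ℚ) = 2 * ModularCurve.genusFormula N := by
  have h1 : cuspRank N + _ + _ + _ = _ := (finrank_cuspidalHoms_gamma0_add N ℚ).2
  have h2 := two_mul_card_orbitsOverI (N := N)
  have h3 := three_mul_card_orbitsOverRho (N := N)
  rw [card_cuspOrbit] at h1
  unfold ModularCurve.genusFormula
  qify at h1 h2 h3
  linarith

theorem gamma0_fg (N : ℕ) [NeZero N] : Group.FG (Gamma0 N) := by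
  classical
  have : Group.FG SL(2, ℤ) :=
    ⟨⟨{ModularGroup.S, ModularGroup.T}, by
      rw [Finset.coe_pair]; exact SpecialLinearGroup.SL2Z_generators⟩⟩
  have : (Gamma0 N).FiniteIndex := ⟨by rw [index_Gamma0]; exact dedekindPsi_pos.ne'⟩
  exact Subgroup.fg_of_index_ne_zero (Gamma0 N)

theorem exists_cuspDualBasis_gamma0 (N : ℕ) [NeZero N] :
    ∃ (γ : Fin (cuspRank N) → Gamma0 N) (ε : Fin (cuspRank N) → (Additive (Gamma0 N) →+ ℤ)),
      (∀ i, IsCuspidalHom (ε i)) ∧
      (∀ i j, ε i (Additive.ofMul (γ j)) = if i = j then 1 else 0) ∧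
      ∀ g, cuspMk (Gamma0 N) g =
        ∑ i, ε i g • cuspMk (Gamma0 N) (Additive.ofMul (γ i)) := by
  have := gamma0_fg N
  exact exists_cuspDualBasis (Gamma0 N) (cuspRank N) fun K _ =>
    ⟨(finrank_cuspidalHoms_gamma0_add N K).1, finrank_cuspidalHoms_gamma0 N K⟩

/-- Elements of `Γ₀(N)` forming a basis of `Γ₀(N)` modulo commutators, parabolic and elliptic
elements. -/
def cuspBasisElt (N : ℕ) [NeZero N] (i : Fin (cuspRank N)) : Gamma0 N :=
  (exists_cuspDualBasis_gamma0 N).choose i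

/-- The integral cuspidal homomorphisms dual to `cuspBasisElt`. -/
def cuspDualBasis (N : ℕ) [NeZero N] (i : Fin (cuspRank N)) : Additive (Gamma0 N) →+ ℤ :=
  (exists_cuspDualBasis_gamma0 N).choose_spec.choose i

theorem isCuspidalHom_cuspDualBasis (N : ℕ) [NeZero N] (i : Fin (cuspRank N)) :
    IsCuspidalHom (cuspDualBasis N i) :=
  (exists_cuspDualBasis_gamma0 N).choose_spec.choose_spec.1 i

theorem cuspDualBasis_cuspBasisElt (N : ℕ) [NeZero N] (i j : Fin (cuspRank N)) :
    cuspDualBasis N i (Additive.ofMul (cuspBasisElt N j)) = if i = j then 1 else 0 :=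
  (exists_cuspDualBasis_gamma0 N).choose_spec.choose_spec.2.1 i j

theorem cuspMk_eq_sum (N : ℕ) [NeZero N] (g : Additive (Gamma0 N)) :
    cuspMk (Gamma0 N) g =
      ∑ i, cuspDualBasis N i g • cuspMk (Gamma0 N) (Additive.ofMul (cuspBasisElt N i)) :=
  (exists_cuspDualBasis_gamma0 N).choose_spec.choose_spec.2.2 g

/-- Every cuspidal homomorphism is determined by, and expanded in, its values on the basis. -/
theorem IsCuspidalHom.eq_sum {N : ℕ} [NeZero N] {A : Type*} [AddCommGroup A]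
    {φ : Additive (Gamma0 N) →+ A} (h : IsCuspidalHom φ) (g : Additive (Gamma0 N)) :
    φ g = ∑ i, cuspDualBasis N i g • φ (Additive.ofMul (cuspBasisElt N i)) := by
  rw [← cuspLift_cuspMk φ h g, cuspMk_eq_sum N g, map_sum]
  simp only [map_zsmul, cuspLift_cuspMk]

theorem IsCuspidalHom.ext_basis {N : ℕ} [NeZero N] {A : Type*} [AddCommGroup A]
    {φ ψ : Additive (Gamma0 N) →+ A} (hφ : IsCuspidalHom φ) (hψ : IsCuspidalHom ψ)
    (h : ∀ i, φ (Additive.ofMul (cuspBasisElt N i)) = ψ (Additive.ofMul (cuspBasisElt N i))) :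
    φ = ψ :=
  AddMonoidHom.ext fun g => by rw [hφ.eq_sum g, hψ.eq_sum g]; simp only [h]

/-- Evaluation at the basis: `Hom_cusp(Γ₀(N), A) ≅ A ^ (2 g)`, for any abelian group `A`. -/
def cuspidalHomsEquiv (N : ℕ) [NeZero N] (R : Type*) [Semiring R] (A : Type*) [AddCommGroup A]
    [Module R A] : cuspidalHoms R (Gamma0 N) A ≃ₗ[R] (Fin (cuspRank N) → A) where
  toFun φ i := φ.1 (Additive.ofMul (cuspBasisElt N i))
  map_add' _ _ := rfl
  map_smul' _ _ := rfl
  invFun v := ⟨∑ i, (zmultiplesHom A (v i)).comp (cuspDualBasis N i), by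
    intro γ hγ
    rw [AddMonoidHom.finsetSum_apply]
    refine Finset.sum_eq_zero fun i _ => ?_
    rw [AddMonoidHom.comp_apply, isCuspidalHom_cuspDualBasis N i γ hγ, map_zero]⟩
  left_inv φ := by
    refine Subtype.ext (AddMonoidHom.ext fun g => ?_)
    simp only [AddMonoidHom.finsetSum_apply, AddMonoidHom.comp_apply, zmultiplesHom_apply]
    exact (IsCuspidalHom.eq_sum φ.2 g).symm
  right_inv v := by
    funext i
    simp [AddMonoidHom.finsetSum_apply, cuspDualBasis_cuspBasisElt]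

theorem cuspidalHomsEquiv_apply (N : ℕ) [NeZero N] (R : Type*) [Semiring R] (A : Type*)
    [AddCommGroup A] [Module R A] (φ : cuspidalHoms R (Gamma0 N) A) (i : Fin (cuspRank N)) :
    cuspidalHomsEquiv N R A φ i = φ.1 (Additive.ofMul (cuspBasisElt N i)) := rfl

/-- For torsion-free coefficients the same holds for parabolic homomorphisms. -/
def parabolicHomsEquiv (N : ℕ) [NeZero N] (R : Type*) [Semiring R] (A : Type*) [AddCommGroup A]
    [IsAddTorsionFree A] [Module R A] :
    parabolicHoms R (Gamma0 N) A ≃ₗ[R] (Fin (cuspRank N) → A) :=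
  (LinearEquiv.ofEq _ _ (parabolicHoms_eq_cuspidalHoms R (Gamma0 N))).trans
    (cuspidalHomsEquiv N R A)

theorem finrank_parabolicHoms_gamma0 (N : ℕ) [NeZero N] (K : Type*) [Field K] [CharZero K] :
    Module.finrank K (parabolicHoms K (Gamma0 N) K) = cuspRank N := by
  rw [(parabolicHomsEquiv N K K).finrank_eq, Module.finrank_pi, Fintype.card_fin]

theorem natCard_cuspidalHoms_gamma0 (N : ℕ) [NeZero N] (A : Type*) [AddCommGroup A] :
    Nat.card (cuspidalHoms ℤ (Gamma0 N) A) = Nat.card A ^ cuspRank N := by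
  rw [Nat.card_congr (cuspidalHomsEquiv N ℤ A).toEquiv, Nat.card_fun, Nat.card_fin]

end FermatLib.Modular
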