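import Mathlib
import Fermat.Prelude.Def_AlgebraicCurve_CanonicalDivisor
import Fermat.Prelude.Def_AlgebraicCurve_DivisorClassGroup

/-!
Riemann–Hurwitz count: the degree of the divisor of `dx` from the places over `∞`, over two
branch values `a`, `b`, when there is no other ramification.
-/

set_option autoImplicit false

noncomputable section

open KaehlerDifferential AlgebraicCurve

namespace FermatLib.Modular.GenusCount

variable {K F : Type*} [Field K] [Field F] [Algebra K F]

theorem ord_algebraMap (v : Place K F) {c : K} (hc : c ≠ 0) : v.ord (algebraMap K F c) = 0 := by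
  have hu : IsUnit (algebraMap K v.toValuationSubring c) :=
    (IsUnit.mk0 c hc).map (algebraMap K v.toValuationSubring)
  have h := v.ord_coe_unit hu.unit
  rwa [IsUnit.unit_spec, v.coe_algebraMap] at h

theorem ord_neg (v : Place K F) (f : F) : v.ord (-f) = v.ord f := by
  simp only [Place.ord, Valuation.map_neg]

theorem ord_add_eq_left (v : Place K F) {f g : F} (hf : f ≠ 0) (hg : g ≠ 0)
    (h : v.ord f < v.ord g) : v.ord (f + g) = v.ord f := by
  have hlt : v.adicValuation g < v.adicValuation f := by
    rw [← WithZero.log_lt_log (v.adicValuation_ne_zero hg) (v.adicValuation_ne_zero hf)]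
    unfold Place.ord at h
    omega
  simp only [Place.ord, Valuation.map_add_eq_of_lt_left _ hlt]

theorem ord_sub_const_of_neg (v : Place K F) {x : F} (h : v.ord x < 0) (c : K) :
    v.ord (x - algebraMap K F c) = v.ord x := by
  rcases eq_or_ne c 0 with rfl | hc
  · simp
  have hx : x ≠ 0 := by
    rintro rfl
    simp at h
  have hcF : algebraMap K F c ≠ 0 := by simpa using hc
  rw [sub_eq_add_neg]
  refine ord_add_eq_left v hx (neg_ne_zero.2 hcF) ?_
  rw [ord_neg, ord_algebraMap v hc]
  exact h

theorem ord_sub_const_eq_zero (v : Place K F) {x : F} {c d : K} (hcd : c ≠ d)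
    (h : 0 < v.ord (x - algebraMap K F d)) : v.ord (x - algebraMap K F c) = 0 := by
  have hx : x - algebraMap K F d ≠ 0 := fun h0 => by simp [h0] at h
  have hsub : d - c ≠ 0 := sub_ne_zero.2 hcd.symm
  have hne : algebraMap K F (d - c) ≠ 0 := by rwa [_root_.map_ne_zero]
  rw [show x - algebraMap K F c = algebraMap K F (d - c) + (x - algebraMap K F d) by
    rw [map_sub]; ring, ord_add_eq_left v hne hx (by rwa [ord_algebraMap v hsub]),
    ord_algebraMap v hsub]

/-- The places where `0 < ord f` as a finset. -/
theorem exists_finset_of_principal {f : F} {D : Divisor K F} (hD : ∀ v, D v = v.ord f)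
    (P : ℤ → Prop) [DecidablePred P] (hP : ¬ P 0) :
    ∃ s : Finset (Place K F), (∀ v, v ∈ s ↔ P (v.ord f)) ∧
      Nat.card {v : Place K F // P (v.ord f)} = s.card := by
  refine ⟨D.support.filter fun v => P (v.ord f), ?_, ?_⟩
  · intro v
    simp only [Finset.mem_filter, Finsupp.mem_support_iff, hD, and_iff_right_iff_imp]
    intro h h0
    exact hP (h0 ▸ h)
  · refine Nat.subtype_card _ fun v => ?_
    simp only [Finset.mem_filter, Finsupp.mem_support_iff, hD, and_iff_right_iff_imp]
    intro h h0
    exact hP (h0 ▸ h)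

variable [HasPrincipalDivisors K F] [HasCanonicalDivisor (K := K) (F := F)]

/-- The degree of the divisor of `dx`. -/
theorem degree_divisor_D (x : F) (a b : K) (hab : a ≠ b)
    (hdeg : ∀ v : Place K F, v.deg = 1)
    (hxa : x ≠ algebraMap K F a) (hxb : x ≠ algebraMap K F b) (hD : D K F x ≠ 0)
    (hdiff : ∀ (v : Place K F) (c : K), 0 < v.ord (x - algebraMap K F c) →
      v.ordDifferential (D K F x) = v.ord (x - algebraMap K F c) - 1)
    (hdiffInfty : ∀ v : Place K F, v.ord x < 0 → v.ordDifferential (D K F x) = v.ord x - 1)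
    (hres : ∀ v : Place K F, 0 ≤ v.ord x → ∃ c : K, 0 < v.ord (x - algebraMap K F c))
    (hunram : ∀ (v : Place K F) (c : K), c ≠ a → c ≠ b →
      0 < v.ord (x - algebraMap K F c) → v.ord (x - algebraMap K F c) = 1)
    (n : ℤ) (hn : ∀ s : Finset (Place K F), (∀ v, v ∈ s ↔ v.ord x < 0) →
      ∑ v ∈ s, -(v.ord x) = n) :
    Divisor.degree (canonicalDivisorOf hD) = n - Nat.card {v : Place K F // v.ord x < 0}
      - Nat.card {v : Place K F // 0 < v.ord (x - algebraMap K F a)}
      - Nat.card {v : Place K F // 0 < v.ord (x - algebraMap K F b)} := by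
  classical
  set xa := x - algebraMap K F a with hxa'
  set xb := x - algebraMap K F b with hxb'
  obtain ⟨Da, hDa, hdega⟩ := HasPrincipalDivisors.exists_divisor (K := K) xa (sub_ne_zero.2 hxa)
  obtain ⟨Db, hDb, hdegb⟩ := HasPrincipalDivisors.exists_divisor (K := K) xb (sub_ne_zero.2 hxb)
  obtain ⟨P, hP, hPc⟩ := exists_finset_of_principal hDa (· < 0) (by simp)
  obtain ⟨Za, hZa, hZac⟩ := exists_finset_of_principal hDa (0 < ·) (by simp)
  obtain ⟨Zb, hZb, hZbc⟩ := exists_finset_of_principal hDb (0 < ·) (by simp)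
  have hpole : ∀ v : Place K F, v.ord xa < 0 ↔ v.ord x < 0 := by
    intro v
    constructor
    · intro h
      by_contra hx
      obtain ⟨c, hc⟩ := hres v (not_lt.1 hx)
      rcases eq_or_ne c a with rfl | hca
      · exact absurd h (not_lt.2 hc.le)
      · rw [hxa', ord_sub_const_eq_zero v hca.symm hc] at h
        exact lt_irrefl 0 h
    · intro h
      rw [hxa', ord_sub_const_of_neg v h a]
      exact h
  have hcardP : Nat.card {v : Place K F // v.ord x < 0} = P.card :=
    (Nat.card_congr (Equiv.subtypeEquivRight fun v => (hpole v).symm)).trans hPc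
  have hPx : ∀ v, v ∈ P ↔ v.ord x < 0 := fun v => (hP v).trans (hpole v)
  have key : canonicalDivisorOf hD = Da + Db - ∑ v ∈ P, Finsupp.single v (v.ord x + 1)
      - ∑ v ∈ Za, Finsupp.single v (1 : ℤ) - ∑ v ∈ Zb, Finsupp.single v (1 : ℤ) := by
    ext v
    rw [canonicalDivisorOf_apply]
    simp only [Finsupp.sub_apply, Finsupp.add_apply, Finsupp.finsetSum_apply, hDa, hDb,
      Finsupp.single_apply, Finset.sum_ite_eq']
    by_cases hv : v.ord x < 0
    · have ha : v.ord xa = v.ord x := ord_sub_const_of_neg v hv a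
      have hb : v.ord xb = v.ord x := ord_sub_const_of_neg v hv b
      rw [hdiffInfty v hv, ha, hb, if_pos ((hPx v).2 hv),
        if_neg (fun h => by have := (hZa v).1 h; omega),
        if_neg (fun h => by have := (hZb v).1 h; omega)]
      ring
    · rw [if_neg fun h => hv ((hPx v).1 h)]
      obtain ⟨c, hc⟩ := hres v (not_lt.1 hv)
      rw [hdiff v c hc]
      rcases eq_or_ne c a with rfl | hca
      · have hb : v.ord xb = 0 := ord_sub_const_eq_zero v hab.symm hc
        rw [hb, if_pos ((hZa v).2 hc), if_neg (fun h => by have := (hZb v).1 h; omega)]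
        rw [← hxa']
        ring
      · have ha : v.ord xa = 0 := ord_sub_const_eq_zero v hca.symm hc
        rw [ha, if_neg (fun h => by have := (hZa v).1 h; omega)]
        rcases eq_or_ne c b with rfl | hcb
        · rw [if_pos ((hZb v).2 hc), ← hxb']
          ring
        · have hb : v.ord xb = 0 := ord_sub_const_eq_zero v hcb.symm hc
          rw [hb, hunram v c hca hcb hc, if_neg (fun h => by have := (hZb v).1 h; omega)]
          ring
  rw [key, map_sub, map_sub, map_sub, map_add, hdega, hdegb, map_sum, map_sum, map_sum,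
    hcardP, hZac, hZbc, ← hn P hPx]
  simp only [Divisor.degree_single, hdeg, Nat.cast_one, mul_one, Finset.sum_add_distrib,
    Finset.sum_neg_distrib, Finset.sum_const, nsmul_eq_mul]
  ring

omit [HasPrincipalDivisors K F] in
/-- `genus` computed by any nonzero differential. -/
theorem genus_eq_of_degree [HasPrincipalDivisors K F] {ω : Ω[F⁄K]} (hω : ω ≠ 0)
    [∀ v : Place K F, v.DCoordGenerates]
    (hspan : ∀ ω' : Ω[F⁄K], ∃ f : F, ω' = f • ω) (g : ℕ)
    (h : Divisor.degree (canonicalDivisorOf hω) = 2 * (g : ℤ) - 2) :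
    genus K F = g := by
  have hex : ∃ ω : Ω[F⁄K], ω ≠ 0 := ⟨ω, hω⟩
  have : Nontrivial Ω[F⁄K] := nontrivial_of_ne ω 0 hω
  rw [genus, dif_pos hex]
  obtain ⟨f, hf⟩ := hspan hex.choose
  have hf0 : f ≠ 0 := by
    rintro rfl
    exact hex.choose_spec (by rw [hf, zero_smul])
  obtain ⟨Df, hDf, hdegf⟩ := HasPrincipalDivisors.exists_divisor (K := K) f hf0
  have key : canonicalDivisorOf hex.choose_spec = Df + canonicalDivisorOf hω := by
    ext v
    have hne : v.differentialCoeff ω ≠ 0 := fun h0 => hω (by
      rw [← v.differentialCoeff_smul_dCoord ω, h0, zero_smul])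
    rw [Finsupp.add_apply, canonicalDivisorOf_apply, canonicalDivisorOf_apply, hDf, hf,
      v.ordDifferential_smul hf0 hne]
  rw [key, map_add, hdegf, h]
  omega

end FermatLib.Modular.GenusCount
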