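import Fermat.Agent.Modular.JInvariant

/-!
Values of `j` at the elliptic points and their stabilisers as cyclic groups.
-/

set_option autoImplicit false

noncomputable section

open UpperHalfPlane hiding I
open scoped MatrixGroups

namespace FermatLib.Modular

open ModularGroup in
theorem mem_zpowers_S_iff_smul_I {g : SL(2, ℤ)} :
    g ∈ Subgroup.zpowers S ↔ g • UpperHalfPlane.I = UpperHalfPlane.I := by
  constructor
  · intro hg
    have hS : S • UpperHalfPlane.I = UpperHalfPlane.I := stabilizer_I.mpr (by simp)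
    have hle : Subgroup.zpowers S ≤ MulAction.stabilizer SL(2, ℤ) UpperHalfPlane.I :=
      Subgroup.zpowers_le.mpr hS
    exact hle hg
  · intro hg
    have hmem := stabilizer_I.mp hg
    simp only [Finset.mem_insert, Finset.mem_singleton] at hmem
    rcases hmem with e | e | e | e <;> rw [e]
    · exact Subgroup.mem_zpowers_iff.mpr ⟨0, by decide⟩
    · exact Subgroup.mem_zpowers_iff.mpr ⟨2, by decide⟩
    · exact Subgroup.mem_zpowers_iff.mpr ⟨1, by decide⟩
    · exact Subgroup.mem_zpowers_iff.mpr ⟨3, by decide⟩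

open ModularGroup in
theorem mem_zpowers_ST_iff_smul_rho {g : SL(2, ℤ)} :
    g ∈ Subgroup.zpowers (S * T) ↔ g • UpperHalfPlane.ρ = UpperHalfPlane.ρ := by
  constructor
  · intro hg
    have hST : (S * T) • UpperHalfPlane.ρ = UpperHalfPlane.ρ := stabilizer_ρ.mpr (by simp)
    have hle : Subgroup.zpowers (S * T) ≤ MulAction.stabilizer SL(2, ℤ) UpperHalfPlane.ρ :=
      Subgroup.zpowers_le.mpr hST
    exact hle hg
  · intro hg
    have hmem := stabilizer_ρ.mp hg
    simp only [Finset.mem_insert, Finset.mem_singleton] at hmem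
    rcases hmem with e | e | e | e | e | e <;> rw [e]
    · exact Subgroup.mem_zpowers_iff.mpr ⟨0, by decide⟩
    · exact Subgroup.mem_zpowers_iff.mpr ⟨3, by decide⟩
    · exact Subgroup.mem_zpowers_iff.mpr ⟨1, by decide⟩
    · exact Subgroup.mem_zpowers_iff.mpr ⟨4, by decide⟩
    · exact Subgroup.mem_zpowers_iff.mpr ⟨2, by decide⟩
    · exact Subgroup.mem_zpowers_iff.mpr ⟨5, by decide⟩

theorem jFun_I_eq : jFun UpperHalfPlane.I = 1728 := by
  rw [jFun_eq_1728_iff]
  have hfix : ModularGroup.S • UpperHalfPlane.I = UpperHalfPlane.I :=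
    mem_zpowers_S_iff_smul_I.mp (Subgroup.mem_zpowers _)
  have h := slash_SL_apply_eq (slash_SL_eq_self ModularForm.E₆ ModularGroup.S) UpperHalfPlane.I
  rw [hfix] at h
  have hd : denom (ModularGroup.S : SL(2, ℤ)) (UpperHalfPlane.I : ℍ) = Complex.I := by
    simp [denom, ModularGroup.coe_S]
  rw [hd, zpow_ofNat, show Complex.I ^ 6 = -1 by
    rw [show (6 : ℕ) = 4 + 2 from rfl, pow_add, Complex.I_pow_four, Complex.I_sq]; ring] at h
  linear_combination (1 / 2 : ℂ) * h

theorem jFun_rho_eq : jFun UpperHalfPlane.ρ = 0 := by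
  rw [jFun_eq_zero_iff]
  have hfix : (ModularGroup.S * ModularGroup.T) • UpperHalfPlane.ρ = UpperHalfPlane.ρ :=
    mem_zpowers_ST_iff_smul_rho.mp (Subgroup.mem_zpowers _)
  have h := slash_SL_apply_eq
    (slash_SL_eq_self ModularForm.E₄ (ModularGroup.S * ModularGroup.T)) UpperHalfPlane.ρ
  rw [hfix] at h
  have hd : denom (ModularGroup.S * ModularGroup.T : SL(2, ℤ)) (UpperHalfPlane.ρ : ℍ)
      = (UpperHalfPlane.ρ : ℂ) + 1 := by
    simp [denom, ModularGroup.coe_S, ModularGroup.coe_T, Matrix.mul_apply, Fin.sum_univ_two]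
  have h3 : ((UpperHalfPlane.ρ : ℂ) + 1) ^ 3 = -1 := by
    have hs : (Real.sqrt 3) * (Real.sqrt 3) = 3 := Real.mul_self_sqrt (by norm_num)
    apply Complex.ext <;> simp [UpperHalfPlane.ρ, pow_succ]
    · linear_combination (-(3 / 8) : ℝ) * hs
    · linear_combination (-(Real.sqrt 3 / 8)) * hs
  rw [hd, zpow_ofNat, show ((UpperHalfPlane.ρ : ℂ) + 1) ^ 4 = -((UpperHalfPlane.ρ : ℂ) + 1) by
    rw [pow_succ, h3]; ring] at h
  have hne : (UpperHalfPlane.ρ : ℂ) + 2 ≠ 0 := by
    intro h0
    have := congrArg Complex.re h0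
    norm_num [UpperHalfPlane.ρ] at this
  refine (mul_eq_zero.mp ?_).resolve_left hne
  linear_combination h

end FermatLib.Modular
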