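import Fermat.Agent.Modular.PlaceCusps
import Fermat.Agent.Modular.PlaceCountsAux
import Fermat.Agent.Modular.GenusCount

/-!
Numbers of places of `X₀(N)` over `∞`, `0`, `1728`.
-/

set_option autoImplicit false

noncomputable section

open UpperHalfPlane hiding I
open CongruenceSubgroup ModularCurve AlgebraicCurve
open scoped MatrixGroups Manifold Topology

namespace FermatLib.Modular

variable (L : Type*) [Field L] [Algebra ℚ L] [IsAlgClosed L] (N : ℕ) [NeZero N]

section Fibre

variable (ι : L →+* ℂ)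

theorem exists_ptPlace_of_ord_sub_pos (v : Place L (modularFunctionFieldOver L N)) (c : L)
    (h : 0 < v.ord (jElem L N - algebraMap L _ c)) :
    ∃ (τ : ℍ) (hτ : jFun τ = ι c), ptPlace ι N τ ⟨c, hτ.symm⟩ = v := by
  have hv : 0 ≤ v.ord (jElem L N) := by
    by_contra hneg
    push Not at hneg
    rw [GenusCount.ord_sub_const_of_neg v hneg] at h
    omega
  obtain ⟨τ, hτ, hp⟩ := exists_ptPlace_eq ι N v hv
  subst hp
  obtain ⟨c', hc'⟩ := id hτ
  have hord := ord_jElem_sub_ptPlace ι N τ c' hc'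
  have hpos : 0 < (ptPlace ι N τ hτ).ord (jElem L N - algebraMap L _ c') := by
    have h1 : (0 : ℤ) < (ptIndex N τ : ℤ) := by exact_mod_cast ptIndex_pos N τ
    refine pos_of_mul_pos_right ?_ h1.le
    rw [hord]
    exact_mod_cast jRamIndex_pos _
  have hcc : c' = c := by
    by_contra hne
    rw [GenusCount.ord_sub_const_eq_zero _ hne h] at hpos
    exact lt_irrefl 0 hpos
  subst hcc
  exact ⟨τ, hc'.symm, rfl⟩

theorem ord_sub_ptPlace_pos {τ : ℍ} {c : L} (hc : ι c = jFun τ) :
    0 < (ptPlace ι N τ ⟨c, hc⟩).ord (jElem L N - algebraMap L _ c) := by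
  have h1 : (0 : ℤ) < (ptIndex N τ : ℤ) := by exact_mod_cast ptIndex_pos N τ
  refine pos_of_mul_pos_right ?_ h1.le
  rw [ord_jElem_sub_ptPlace ι N τ c hc]
  exact_mod_cast jRamIndex_pos _

/-- Places over `c` are the orbits of the stabiliser of a point with that value on the cosets. -/
theorem natCard_places_over (c : L) (τ₀ : ℍ) (hτ₀ : jFun τ₀ = ι c) (H : Subgroup SL(2, ℤ))
    (hH : ∀ g, g ∈ H ↔ g • τ₀ = τ₀) :
    Nat.card {v : Place L (modularFunctionFieldOver L N) //
        0 < v.ord (jElem L N - algebraMap L _ c)}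
      = Nat.card (MulAction.orbitRel.Quotient H (Gamma0Coset N)) := by
  classical
  have hval : ∀ g : SL(2, ℤ), ι c = jFun (g⁻¹ • τ₀) := fun g => by rw [jFun_smul, hτ₀]
  let S := {v : Place L (modularFunctionFieldOver L N) //
    0 < v.ord (jElem L N - algebraMap L _ c)}
  let P : SL(2, ℤ) → S := fun g =>
    ⟨ptPlace ι N (g⁻¹ • τ₀) ⟨c, hval g⟩, ord_sub_ptPlace_pos L N ι (hval g)⟩
  have key : ∀ g g' : SL(2, ℤ), P g = P g' ↔
      (Quotient.mk'' (g : Gamma0Coset N) : MulAction.orbitRel.Quotient H (Gamma0Coset N))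
        = Quotient.mk'' (g' : Gamma0Coset N) := by
    intro g g'
    rw [Quotient.eq'', MulAction.orbitRel_apply, Subtype.ext_iff, MulAction.mem_orbit_iff]
    simp only [P, ptPlace_eq_iff ι N ⟨c, hval g⟩ ⟨c, hval g'⟩]
    constructor
    · rintro ⟨γ, hγ, hfix⟩
      have hh : g * γ⁻¹ * g'⁻¹ ∈ H := by
        rw [hH, mul_smul, mul_smul, ← hfix, inv_smul_smul, smul_inv_smul]
      refine ⟨⟨_, hh⟩, ?_⟩
      change (g * γ⁻¹ * g'⁻¹) • (g' : Gamma0Coset N) = (g : Gamma0Coset N)
      rw [MulAction.Quotient.smul_coe, QuotientGroup.eq]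
      rw [show (g * γ⁻¹ * g'⁻¹) • g' = g * γ⁻¹ from by rw [smul_eq_mul]; group]
      simpa using hγ
    · rintro ⟨⟨h, hh⟩, heq⟩
      change h • (g' : Gamma0Coset N) = (g : Gamma0Coset N) at heq
      rw [MulAction.Quotient.smul_coe, QuotientGroup.eq, smul_eq_mul] at heq
      refine ⟨((h * g')⁻¹ * g), heq, ?_⟩
      rw [smul_smul, mul_assoc, mul_inv_cancel, mul_one, mul_inv_rev, mul_smul]
      have hinv : h⁻¹ • τ₀ = τ₀ := by rw [inv_smul_eq_iff, (hH h).mp hh]
      rw [hinv]
  symm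
  refine Nat.card_congr (Equiv.ofBijective (fun q => Quotient.liftOn' q
    (fun x => P x.out) (fun a b hab => ?_)) ⟨?_, ?_⟩)
  · rw [key]
    simp only [QuotientGroup.out_eq']
    exact Quotient.sound' hab
  · intro a b
    induction a using Quotient.inductionOn'
    induction b using Quotient.inductionOn'
    intro hab
    simp only [Quotient.liftOn'_mk'', key, QuotientGroup.out_eq'] at hab
    exact hab
  · rintro ⟨v, hv⟩
    obtain ⟨τ, hτ, rfl⟩ := exists_ptPlace_of_ord_sub_pos L N ι v c hv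
    obtain ⟨g, hg⟩ := exists_smul_eq_of_jFun_eq (hτ₀.trans hτ.symm)
    refine ⟨Quotient.mk'' ((g⁻¹ : SL(2, ℤ)) : Gamma0Coset N), ?_⟩
    have h1 : P ((g⁻¹ : SL(2, ℤ)) : Gamma0Coset N).out = P g⁻¹ := by
      rw [key, QuotientGroup.out_eq']
    simp only [Quotient.liftOn'_mk'']
    rw [h1]
    simp only [P, inv_inv, hg]

end Fibre

theorem card_poles_jElem (ι : L →+* ℂ) :
    Nat.card {v : Place L (modularFunctionFieldOver L N) // v.ord (jElem L N) < 0}
      = cuspCount N := by
  rw [← card_cuspOrbit]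
  symm
  have hneg : ∀ g, (cuspPlace ι N g).ord (jElem L N) < 0 := by
    intro g
    rw [ord_jElem_cuspPlace, neg_lt_zero]
    exact_mod_cast cuspOrbitWidth_pos _
  refine Nat.card_congr (Equiv.ofBijective
    (fun c : CuspOrbit N => (⟨cuspPlace ι N c.out.out, hneg _⟩ :
      {v : Place L (modularFunctionFieldOver L N) // v.ord (jElem L N) < 0})) ⟨?_, ?_⟩)
  · intro a b hab
    have hab' : cuspPlace ι N a.out.out = cuspPlace ι N b.out.out := congrArg Subtype.val hab
    have h := (cuspPlace_eq_iff ι N _ _).mp hab'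
    simpa [QuotientGroup.out_eq', cuspOrbitMk] using h
  · rintro ⟨v, hv⟩
    obtain ⟨g, rfl⟩ := exists_cuspPlace_eq ι N v hv
    refine ⟨cuspOrbitMk (g : Gamma0Coset N), Subtype.ext ((cuspPlace_eq_iff ι N _ _).mpr ?_)⟩
    simp [cuspOrbitMk]

theorem sum_poles_jElem (ι : L →+* ℂ) (s : Finset (Place L (modularFunctionFieldOver L N)))
    (hs : ∀ v, v ∈ s ↔ v.ord (jElem L N) < 0) :
    ∑ v ∈ s, -(v.ord (jElem L N)) = (dedekindPsi N : ℤ) := by
  have : Finite (Gamma0Coset N) :=
    Nat.finite_of_card_ne_zero (by rw [card_gamma0Coset]; exact dedekindPsi_pos.ne')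
  let _ : Fintype (CuspOrbit N) := Fintype.ofFinite _
  rw [← sum_cuspOrbitWidth, Nat.cast_sum]
  symm
  refine Finset.sum_bij (fun c _ => cuspPlace ι N c.out.out) ?_ ?_ ?_ ?_
  · intro c _
    rw [hs, ord_jElem_cuspPlace, neg_lt_zero]
    exact_mod_cast cuspOrbitWidth_pos _
  · intro a _ b _ hab
    simpa [QuotientGroup.out_eq', cuspOrbitMk] using (cuspPlace_eq_iff ι N _ _).mp hab
  · intro v hv
    obtain ⟨g, rfl⟩ := exists_cuspPlace_eq ι N v ((hs v).mp hv)
    refine ⟨cuspOrbitMk (g : Gamma0Coset N), Finset.mem_univ _, (cuspPlace_eq_iff ι N _ _).mpr ?_⟩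
    simp [cuspOrbitMk]
  · intro c _
    rw [ord_jElem_cuspPlace, neg_neg, cuspWidth, QuotientGroup.out_eq']
    congr 2
    exact (Quotient.out_eq' c).symm

theorem three_mul_card_zeros_jElem (ι : L →+* ℂ) :
    3 * Nat.card {v : Place L (modularFunctionFieldOver L N) // 0 < v.ord (jElem L N)}
      = dedekindPsi N + 2 * nuThree N := by
  have h := natCard_places_over L N ι 0 UpperHalfPlane.ρ (by rw [jFun_rho_eq, map_zero])
    (Subgroup.zpowers (ModularGroup.S * ModularGroup.T)) (fun g => mem_zpowers_ST_iff_smul_rho)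
  simp only [map_zero, sub_zero] at h
  rw [h]
  exact three_mul_card_orbitsOverRho

theorem two_mul_card_zeros_jElem_sub (ι : L →+* ℂ) :
    2 * Nat.card {v : Place L (modularFunctionFieldOver L N) //
        0 < v.ord (jElem L N - algebraMap L _ 1728)} = dedekindPsi N + nuTwo N := by
  rw [natCard_places_over L N ι 1728 UpperHalfPlane.I (by rw [jFun_I_eq, map_ofNat])
    (Subgroup.zpowers ModularGroup.S) (fun g => mem_zpowers_S_iff_smul_I)]
  exact two_mul_card_orbitsOverI

theorem ord_jElem_sub_eq_one (ι : L →+* ℂ) (v : Place L (modularFunctionFieldOver L N)) (c : L)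
    (h0 : c ≠ 0) (h1728 : c ≠ 1728) (h : 0 < v.ord (jElem L N - algebraMap L _ c)) :
    v.ord (jElem L N - algebraMap L _ c) = 1 := by
  obtain ⟨τ, hτ, rfl⟩ := exists_ptPlace_of_ord_sub_pos L N ι v c h
  have hord := ord_jElem_sub_ptPlace ι N τ c hτ.symm
  have hram : jRamIndex (jFun τ) = 1 := by
    rw [hτ, jRamIndex, if_neg ((map_ne_zero ι).mpr h0),
      if_neg (by rw [← map_ofNat ι 1728]; exact fun h' => h1728 (ι.injective h'))]
  rw [hram, Nat.cast_one] at hord
  exact Int.eq_one_of_mul_eq_one_left h.le hord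

end FermatLib.Modular
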