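import Fermat.Agent.Modular.GenusX0Curve
import Fermat.Agent.Modular.PlaceCounts
import Fermat.Prelude.Def_ModularCurve_ArithmeticGalois

/-!
The genus of the function field of `X₀(N)` over `ℚ̄`.
-/

set_option autoImplicit false

noncomputable section

open AlgebraicCurve ModularCurve

namespace FermatLib.Modular

theorem genus_modularFunctionFieldOver (L : Type*) [Field L] [Algebra ℚ L] [IsAlgClosed L]
    (ι : L →+* ℂ) (N : ℕ) [NeZero N]
    [HasCanonicalDivisor (K := L) (F := ↥(modularFunctionFieldOver L N))] :
    (genus L ↥(modularFunctionFieldOver L N) : ℚ) = genusFormula N := by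
  have : CharZero L := algebraRat.charZero L
  have : IsCurveOver L (modularFunctionFieldOver L N) := isCurveOver_modularFunctionFieldOver N
  exact genus_eq_genusFormula_of_curve N (jElem L N)
    (fun v c h0 h1728 h => ord_jElem_sub_eq_one L N ι v c h0 h1728 h)
    (fun s hs => sum_poles_jElem L N ι s hs) (card_poles_jElem L N ι)
    (three_mul_card_zeros_jElem L N ι) (two_mul_card_zeros_jElem_sub L N ι)

end FermatLib.Modular
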