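import Fermat.Agent.Modular.S2Cusp
import Fermat.Agent.Modular.GenusBar
import Fermat.Agent.Curve.HurwitzGenus
import Fermat.Agent.Curve.Riemann
import Fermat.Agent.Curve.KaehlerDivisor

/-!
`dim S₂(Γ₀(N)) = genusFormula N`, from Riemann's equation.
-/

set_option autoImplicit false

noncomputable section

open UpperHalfPlane hiding I
open CongruenceSubgroup AlgebraicCurve KaehlerDifferential ModularCurve

namespace FermatLib.Modular

variable (N : ℕ) [NeZero N]

instance isFunctionField_modularFunctionFieldCx :
    FermatLib.Curve.IsFunctionField ℂ (modularFunctionFieldCx N) :=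
  have := finiteDimensional_adjoin_jElem ℂ N
  .of_transcendental (transcendental_jElem ℂ N)

/-- Dimension of `S₂(Γ₀(N))`, given Riemann's equation. -/
theorem finrank_cuspForm_two_of_riemannEquation
    (hR : FermatLib.Curve.RiemannEquation ℂ (modularFunctionFieldCx N)) :
    (Module.finrank ℂ (CuspForm (Gamma0 N) 2) : ℚ) = genusFormula N := by
  refine le_antisymm (finrank_cuspForm_two_le_genusFormula N) ?_
  have hcurve : IsCurveOver ℂ (modularFunctionFieldCx N) := isCurveOver_modularFunctionFieldOver N
  have hfin := finiteDimensional_adjoin_jElem ℂ N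
  have : CharZero ↥(IntermediateField.adjoin ℂ {jElem ℂ N}) :=
    charZero_of_injective_algebraMap (algebraMap ℂ _).injective
  have hsep : Algebra.IsSeparable ↥(IntermediateField.adjoin ℂ {jElem ℂ N})
      ↥(modularFunctionFieldCx N) :=
    have : Algebra.IsAlgebraic ↥(IntermediateField.adjoin ℂ {jElem ℂ N})
      ↥(modularFunctionFieldCx N) := @Algebra.IsAlgebraic.of_finite _ _ _ _ _ _ hfin
    Algebra.IsAlgebraic.isSeparable_of_perfectField
  have hcan : HasCanonicalDivisor (K := ℂ) (F := modularFunctionFieldCx N) :=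
    FermatLib.Curve.hasCanonicalDivisor_of_separating (transcendental_jElem ℂ N)
      IsCurveOver.deg_eq_one_of_isAlgClosed
  have hD : D ℂ (modularFunctionFieldCx N) (jElem ℂ N) ≠ 0 :=
    FermatLib.Curve.D_ne_zero_of_separating (transcendental_jElem ℂ N)
  set W := canonicalDivisorOf hD
  have hW := canonicalDivisorOf_apply (K := ℂ) (F := modularFunctionFieldCx N) hD
  obtain ⟨hdeg, hl⟩ := FermatLib.Curve.degree_ordDifferential_of_riemannEquation hR hD hW
  rw [← genus_modularFunctionFieldOver ℂ (RingHom.id ℂ) N,
    FermatLib.Curve.genus_eq_of_degree_eq hD hW hdeg, ← hl, Nat.cast_le]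
  refine finrank_riemannRochSpace_le_finrank_cuspForm W hW (fun z => ?_)
    (exists_place_cusp_tendsto N)
  refine ⟨ptPlaceCx N z, ptIndex N z, ptIndex_pos N z, fun A hA => ?_⟩
  have hm := meromorphicOrderAt_ptPlace (RingHom.id ℂ) N z ⟨jFun z, rfl⟩
    ((map_ne_zero_iff _ weakElem_injective).mpr hA) A
    (by rw [coeffMap_id]; exact coe_weakElem A)
  rw [ordUHP, hm]
  rfl

/-- `dim S₂(Γ₀(N)) = genusFormula N`. -/
theorem finrank_cuspForm_two_eq_genusFormula :
    (Module.finrank ℂ (CuspForm (Gamma0 N) 2) : ℚ) = genusFormula N :=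
  finrank_cuspForm_two_of_riemannEquation N
    { finite_space := FermatLib.Curve.finite_riemannRochSpace
      finite_H1 := FermatLib.Curve.finite_H1
      eq := FermatLib.Curve.riemann_roch_H1 }

end FermatLib.Modular
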