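import Fermat.Agent.Modular.EichlerShimura
import Fermat.Agent.Modular.S2Formula

/-!
Eichler–Shimura: the range of the period map is the space of parabolic homomorphisms.
-/

set_option autoImplicit false

noncomputable section

open CongruenceSubgroup ModularCurve ModularCurve.Period
open scoped MatrixGroups

namespace FermatLib.Modular

theorem range_periodHomPair_eq (N : ℕ) [NeZero N] :
    LinearMap.range (periodHomPair N) = parabolicHoms ℂ (Gamma0 N) ℂ :=
  range_periodHomPair_eq_of_finrank N (finrank_cuspForm_two_eq_genusFormula N)

end FermatLib.Modular

end
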