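import Fermat.Agent.Modular.HeckePeriodMap
import Fermat.Agent.Modular.Gamma0Homs
import Fermat.Agent.Modular.EichlerShimuraRange

/-!
# The Hecke algebra of weight two acts on cuspidal homomorphisms of `Γ₀(N)`

For every abelian group `A` the operators on `cuspidalHoms R Γ₀(N) A` factor through the Hecke
algebra `heckeAlgebra N 2 ∅` of cusp forms; for torsion-free nontrivial `A` faithfully.
-/

set_option autoImplicit false

noncomputable section

open scoped MatrixGroups
open CongruenceSubgroup ModularCurve ModularCurve.Period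

namespace FermatLib.Modular

section Eval

variable (N : ℕ) (R : Type*) [Semiring R] (A : Type*) [AddCommGroup A] [Module R A]

theorem isMulCommutative_adjoin_heckeHomOp :
    IsMulCommutative (Algebra.adjoin ℤ (Set.range (heckeHomOp N R A))) :=
  Algebra.isMulCommutative_adjoin ℤ (by
    rintro _ ⟨p, rfl⟩ _ ⟨q, rfl⟩
    exact LinearMap.ext fun φ => heckeHomOp_comm p q φ)

open scoped IsMulCommutative in
/-- Evaluation of Hecke polynomials, auxiliary commutative target. -/
def heckeHomEvalAux :
    HeckeAlg →ₐ[ℤ] (Algebra.adjoin ℤ (Set.range (heckeHomOp N R A)) :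
      Subalgebra ℤ (Module.End R (Additive (Gamma0 N) →+ A))) :=
  haveI := isMulCommutative_adjoin_heckeHomOp N R A
  MvPolynomial.aeval fun p =>
    (⟨heckeHomOp N R A p, Algebra.subset_adjoin (Set.mem_range_self p)⟩ :
      Algebra.adjoin ℤ (Set.range (heckeHomOp N R A)))

/-- Evaluation of Hecke polynomials on homomorphisms `Γ₀(N) → A`. -/
def heckeHomEval : HeckeAlg →+* Module.End R (Additive (Gamma0 N) →+ A) :=
  ((Algebra.adjoin ℤ (Set.range (heckeHomOp N R A))).val.comp (heckeHomEvalAux N R A)).toRingHom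

open scoped IsMulCommutative in
theorem heckeHomEval_heckeGen (p : Nat.Primes) :
    heckeHomEval N R A (heckeGen p) = heckeHomOp N R A p := by
  haveI := isMulCommutative_adjoin_heckeHomOp N R A
  show ((heckeHomEvalAux N R A (heckeGen p)) :
    Module.End R (Additive (Gamma0 N) →+ A)) = heckeHomOp N R A p
  exact congrArg Subtype.val (MvPolynomial.aeval_X _ p)

variable {N R A}

theorem heckeHomEval_X_apply (p : Nat.Primes) (φ : Additive (Gamma0 N) →+ A) :
    heckeHomEval N R A (MvPolynomial.X p) φ = heckeHomOp N R A p φ :=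
  LinearMap.congr_fun (heckeHomEval_heckeGen N R A p) φ

theorem heckeHomEval_C_apply (a : ℤ) (φ : Additive (Gamma0 N) →+ A) :
    heckeHomEval N R A (MvPolynomial.C a) φ = a • φ := by
  rw [← MvPolynomial.algebraMap_eq, eq_intCast, map_intCast]
  exact Module.End.intCast_apply a φ

theorem heckeHomEval_comp_left {B : Type*} [AddCommGroup B] [Module R B] (P : HeckeAlg)
    (e : A →+ B) (φ : Additive (Gamma0 N) →+ A) :
    heckeHomEval N R B P (e.comp φ) = e.comp (heckeHomEval N R A P φ) := by
  induction P using MvPolynomial.induction_on generalizing φ with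
  | C a =>
    rw [heckeHomEval_C_apply, heckeHomEval_C_apply]
    exact AddMonoidHom.ext fun x => (map_zsmul e a (φ x)).symm
  | add P Q hP hQ =>
    simp only [map_add, LinearMap.add_apply, hP, hQ, AddMonoidHom.comp_add]
  | mul_X P p hP =>
    simp only [map_mul, Module.End.mul_apply, heckeHomEval_X_apply, heckeHomOp_comp_left, hP]

theorem heckeHomEval_eq_int (P : HeckeAlg) (φ : Additive (Gamma0 N) →+ A) :
    heckeHomEval N R A P φ = heckeHomEval N ℤ A P φ := by
  induction P using MvPolynomial.induction_on generalizing φ with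
  | C a => rw [heckeHomEval_C_apply, heckeHomEval_C_apply]
  | add P Q hP hQ => simp only [map_add, LinearMap.add_apply, hP, hQ]
  | mul_X P p hP =>
    simp only [map_mul, Module.End.mul_apply, heckeHomEval_X_apply, heckeHomOp_eq_int, hP]

theorem heckeHomEval_mem_cuspidalHoms (P : HeckeAlg) {φ : Additive (Gamma0 N) →+ A}
    (hφ : φ ∈ cuspidalHoms R (Gamma0 N) A) :
    heckeHomEval N R A P φ ∈ cuspidalHoms R (Gamma0 N) A := by
  induction P using MvPolynomial.induction_on generalizing φ with
  | C a => rw [heckeHomEval_C_apply]; exact fun γ hγ => by simp [hφ γ hγ]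
  | add P Q hP hQ => rw [map_add, LinearMap.add_apply]; exact add_mem (hP hφ) (hQ hφ)
  | mul_X P p hP =>
    rw [map_mul, Module.End.mul_apply, heckeHomEval_X_apply]
    exact hP (op_mem_cuspidalHoms _ hφ)

theorem heckeHomEval_charInvolution (P : HeckeAlg) (φ : Additive (Gamma0 N) →+ A) :
    heckeHomEval N R A P (charInvolution N R A φ) =
      charInvolution N R A (heckeHomEval N R A P φ) := by
  induction P using MvPolynomial.induction_on generalizing φ with
  | C a => rw [heckeHomEval_C_apply, heckeHomEval_C_apply, map_zsmul]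
  | add P Q hP hQ => simp only [map_add, LinearMap.add_apply, hP, hQ]
  | mul_X P p hP =>
    simp only [map_mul, Module.End.mul_apply, heckeHomEval_X_apply, heckeHomOp_charInvolution, hP]

theorem periodHomPair_heckeHomEval [NeZero N] (P : HeckeAlg) (f g : CuspForm (Gamma0 N) 2) :
    periodHomPair N
        ((CuspForm.heckeEvalForms N 2 P : Module.End ℂ (CuspForm (Gamma0 N) 2)) f,
          (CuspForm.heckeEvalForms N 2 P : Module.End ℂ (CuspForm (Gamma0 N) 2)) g) =
      heckeHomEval N ℂ ℂ P (periodHomPair N (f, g)) := by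
  induction P using MvPolynomial.induction_on generalizing f g with
  | C a =>
    rw [CuspForm.heckeEvalForms_C, heckeHomEval_C_apply, ← map_zsmul]
    simp
  | add P Q hP hQ =>
    rw [map_add (heckeHomEval N ℂ ℂ), LinearMap.add_apply, ← hP, ← hQ, ← map_add, map_add]
    simp
  | mul_X P p hP =>
    rw [map_mul, map_mul, Module.End.mul_apply, heckeHomEval_X_apply,
      ← periodHomPair_heckeFormOp, ← hP,
      show (MvPolynomial.X p : HeckeAlg) = heckeGen p from rfl, CuspForm.heckeEvalForms_heckeGen]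
    rfl

end Eval

section Action

variable (N : ℕ) [NeZero N]

theorem heckeEvalForms_surjective : Function.Surjective (CuspForm.heckeEvalForms N 2) := by
  rintro ⟨t, ht⟩
  suffices ∃ P, (CuspForm.heckeEvalForms N 2 P : Module.End ℂ (CuspForm (Gamma0 N) 2)) = t from
    let ⟨P, hP⟩ := this; ⟨P, Subtype.ext hP⟩
  induction ht using Algebra.adjoin_induction with
  | mem x hx =>
    rcases hx with ⟨ℓ, hℓ, hℓN, -, rfl⟩ | ⟨q, hqN, hq, -, rfl⟩
    · refine ⟨heckeGen ⟨ℓ, hℓ⟩, ?_⟩
      rw [CuspForm.heckeEvalForms_heckeGen_of_not_dvd (ℓ := ⟨ℓ, hℓ⟩) hℓN, CuspForm.heckeAlgebra.coe_T]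
    · refine ⟨heckeGen ⟨q, hq⟩, ?_⟩
      rw [CuspForm.heckeEvalForms_heckeGen_of_dvd (q := ⟨q, hq⟩) hqN, CuspForm.heckeAlgebra.coe_U]
  | algebraMap a => exact ⟨MvPolynomial.C a, by rw [CuspForm.heckeEvalForms_C]; rfl⟩
  | add x y _ _ hx hy =>
    obtain ⟨P, rfl⟩ := hx
    obtain ⟨Q, rfl⟩ := hy
    exact ⟨P + Q, by rw [map_add]; rfl⟩
  | mul x y _ _ hx hy =>
    obtain ⟨P, rfl⟩ := hx
    obtain ⟨Q, rfl⟩ := hy
    exact ⟨P * Q, by rw [map_mul]; rfl⟩

variable {N}

/-- Polynomials acting by zero on cusp forms act by zero on every cuspidal homomorphism. -/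
theorem heckeHomEval_eq_zero {P : HeckeAlg} (hP : CuspForm.heckeEvalForms N 2 P = 0)
    {R : Type*} [Semiring R] {A : Type*} [AddCommGroup A] [Module R A]
    {φ : Additive (Gamma0 N) →+ A} (hφ : IsCuspidalHom φ) :
    heckeHomEval N R A P φ = 0 := by
  have hZ : ∀ j, heckeHomEval N ℤ ℤ P (cuspDualBasis N j) = 0 := by
    intro j
    obtain ⟨⟨f, g⟩, hfg⟩ := (range_periodHomPair_eq N).ge
      (((isCuspidalHom_cuspDualBasis N j).comp (Int.castAddHom ℂ)).isParabolicHom)
    have h := periodHomPair_heckeHomEval P f g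
    rw [hP, hfg, heckeHomEval_eq_int, heckeHomEval_comp_left] at h
    refine AddMonoidHom.ext fun x => ?_
    have := DFunLike.congr_fun h x
    simp only [ZeroMemClass.coe_zero, LinearMap.zero_apply, Prod.mk_zero_zero, map_zero,
      AddMonoidHom.zero_apply, AddMonoidHom.comp_apply, Int.coe_castAddHom] at this ⊢
    exact_mod_cast this.symm
  have hsum : φ = ∑ j, (zmultiplesHom A (φ (Additive.ofMul (cuspBasisElt N j)))).comp
      (cuspDualBasis N j) := AddMonoidHom.ext fun x => by
    simpa [AddMonoidHom.finsetSum_apply] using hφ.eq_sum x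
  rw [hsum, heckeHomEval_eq_int, map_sum]
  exact Finset.sum_eq_zero fun j _ => by rw [heckeHomEval_comp_left, hZ, AddMonoidHom.comp_zero]

variable (N) (R : Type*) [Ring R] (A : Type*) [AddCommGroup A] [Module R A]

/-- Hecke polynomials acting on cuspidal homomorphisms. -/
def heckeCuspEval : HeckeAlg →+* Module.End R (cuspidalHoms R (Gamma0 N) A) where
  toFun P := (heckeHomEval N R A P).restrict fun _ hφ => heckeHomEval_mem_cuspidalHoms P hφ
  map_one' := LinearMap.ext fun φ => Subtype.ext (LinearMap.congr_fun (map_one (heckeHomEval N R A)) φ.1)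
  map_mul' P Q := LinearMap.ext fun φ =>
    Subtype.ext (LinearMap.congr_fun (map_mul (heckeHomEval N R A) P Q) φ.1)
  map_zero' := LinearMap.ext fun φ =>
    Subtype.ext (LinearMap.congr_fun (map_zero (heckeHomEval N R A)) φ.1)
  map_add' P Q := LinearMap.ext fun φ =>
    Subtype.ext (LinearMap.congr_fun (map_add (heckeHomEval N R A) P Q) φ.1)

variable {N R A} in
theorem heckeCuspEval_eq_of_eq {P Q : HeckeAlg}
    (h : CuspForm.heckeEvalForms N 2 P = CuspForm.heckeEvalForms N 2 Q) :
    heckeCuspEval N R A P = heckeCuspEval N R A Q := by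
  rw [← sub_eq_zero, ← map_sub] at h
  refine LinearMap.ext fun φ => Subtype.ext (sub_eq_zero.1 ?_)
  show heckeHomEval N R A P φ.1 - heckeHomEval N R A Q φ.1 = 0
  rw [← LinearMap.sub_apply, ← map_sub]
  exact heckeHomEval_eq_zero h φ.2

/-- The weight two Hecke algebra acting on cuspidal homomorphisms `Γ₀(N) → A`. -/
def heckeCuspAct :
    CuspForm.heckeAlgebra N 2 ∅ →+* Module.End R (cuspidalHoms R (Gamma0 N) A) where
  toFun t := heckeCuspEval N R A (Function.surjInv (heckeEvalForms_surjective N) t)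
  map_one' := by
    rw [heckeCuspEval_eq_of_eq (Q := 1) (by rw [Function.surjInv_eq (heckeEvalForms_surjective N), map_one]), map_one]
  map_mul' s t := by
    rw [← map_mul]
    exact heckeCuspEval_eq_of_eq (by simp only [map_mul, Function.surjInv_eq])
  map_zero' := by
    rw [heckeCuspEval_eq_of_eq (Q := 0) (by rw [Function.surjInv_eq (heckeEvalForms_surjective N), map_zero]), map_zero]
  map_add' s t := by
    rw [← map_add]
    exact heckeCuspEval_eq_of_eq (by simp only [map_add, Function.surjInv_eq])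

theorem heckeCuspAct_heckeEvalForms (P : HeckeAlg) :
    heckeCuspAct N R A (CuspForm.heckeEvalForms N 2 P) = heckeCuspEval N R A P :=
  heckeCuspEval_eq_of_eq (Function.surjInv_eq (heckeEvalForms_surjective N) _)

theorem heckeCuspAct_heckeFormsGen (p : Nat.Primes) :
    heckeCuspAct N R A (CuspForm.heckeFormsGen N 2 p) = heckeCuspOp R A N p := by
  rw [← CuspForm.heckeEvalForms_heckeGen, heckeCuspAct_heckeEvalForms]
  exact LinearMap.ext fun φ => Subtype.ext
    (LinearMap.congr_fun (heckeHomEval_heckeGen N R A p) φ.1)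

theorem heckeCuspAct_T {ℓ : ℕ} (hℓ : ℓ.Prime) (hℓN : ¬ ℓ ∣ N) :
    heckeCuspAct N R A (CuspForm.heckeAlgebra.T hℓ hℓN (Set.notMem_empty _)) =
      heckeCuspOp R A N ⟨ℓ, hℓ⟩ := by
  rw [← heckeCuspAct_heckeFormsGen, CuspForm.heckeFormsGen_of_not_dvd (ℓ := ⟨ℓ, hℓ⟩) hℓN]

theorem heckeCuspAct_U {q : ℕ} (hq : q.Prime) (hqN : q ∣ N) :
    heckeCuspAct N R A (CuspForm.heckeAlgebra.U hq hqN (Set.notMem_empty _)) =
      heckeCuspOp R A N ⟨q, hq⟩ := by
  rw [← heckeCuspAct_heckeFormsGen, CuspForm.heckeFormsGen_of_dvd (q := ⟨q, hq⟩) hqN]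

variable {N R A}

/-- Functoriality in the coefficients. -/
theorem coe_heckeCuspAct_comp {B : Type*} [AddCommGroup B] [Module R B]
    (t : CuspForm.heckeAlgebra N 2 ∅) (e : A →+ B) (φ : cuspidalHoms R (Gamma0 N) A) :
    (heckeCuspAct N R B t ⟨e.comp φ.1, φ.2.comp e⟩ : Additive (Gamma0 N) →+ B) =
      e.comp (heckeCuspAct N R A t φ).1 := by
  obtain ⟨P, rfl⟩ := heckeEvalForms_surjective N t
  rw [heckeCuspAct_heckeEvalForms, heckeCuspAct_heckeEvalForms]
  exact heckeHomEval_comp_left P e φ.1

/-- The action does not depend on the scalar ring. -/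
theorem coe_heckeCuspAct_eq_int (t : CuspForm.heckeAlgebra N 2 ∅)
    (φ : cuspidalHoms R (Gamma0 N) A) :
    (heckeCuspAct N R A t φ : Additive (Gamma0 N) →+ A) =
      (heckeCuspAct N ℤ A t ⟨φ.1, φ.2⟩).1 := by
  obtain ⟨P, rfl⟩ := heckeEvalForms_surjective N t
  rw [heckeCuspAct_heckeEvalForms, heckeCuspAct_heckeEvalForms]
  exact heckeHomEval_eq_int P φ.1

/-- The action commutes with the involution. -/
theorem heckeCuspAct_invol (t : CuspForm.heckeAlgebra N 2 ∅)
    (φ : cuspidalHoms R (Gamma0 N) A) :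
    heckeCuspAct N R A t (involCuspOp R A N φ) = involCuspOp R A N (heckeCuspAct N R A t φ) := by
  obtain ⟨P, rfl⟩ := heckeEvalForms_surjective N t
  rw [heckeCuspAct_heckeEvalForms]
  exact Subtype.ext (heckeHomEval_charInvolution P φ.1)

theorem periodHomPair_mem_cuspidalHoms (x : CuspForm (Gamma0 N) 2 × CuspForm (Gamma0 N) 2) :
    periodHomPair N x ∈ cuspidalHoms ℂ (Gamma0 N) ℂ :=
  isCuspidalHom_of_isParabolicHom (range_periodHomPair_le ⟨x, rfl⟩)

/-- The period isomorphism intertwines the actions. -/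
theorem coe_heckeCuspAct_periodHomPair (t : CuspForm.heckeAlgebra N 2 ∅)
    (f g : CuspForm (Gamma0 N) 2) :
    (heckeCuspAct N ℂ ℂ t ⟨periodHomPair N (f, g), periodHomPair_mem_cuspidalHoms _⟩).1 =
      periodHomPair N ((t : Module.End ℂ (CuspForm (Gamma0 N) 2)) f,
        (t : Module.End ℂ (CuspForm (Gamma0 N) 2)) g) := by
  obtain ⟨P, rfl⟩ := heckeEvalForms_surjective N t
  rw [heckeCuspAct_heckeEvalForms]
  exact (periodHomPair_heckeHomEval P f g).symm

variable (N R A)

/-- The action is faithful on torsion-free nontrivial coefficients. -/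
theorem heckeCuspAct_injective [IsAddTorsionFree A] [Nontrivial A] :
    Function.Injective (heckeCuspAct N R A) := by
  rw [injective_iff_map_eq_zero]
  intro t ht
  obtain ⟨P, rfl⟩ := heckeEvalForms_surjective N t
  rw [heckeCuspAct_heckeEvalForms] at ht
  obtain ⟨a, ha⟩ := exists_ne (0 : A)
  have hZ : ∀ j, heckeHomEval N ℤ ℤ P (cuspDualBasis N j) = 0 := by
    intro j
    have h := congrArg Subtype.val (LinearMap.congr_fun ht
      ⟨(zmultiplesHom A a).comp (cuspDualBasis N j), (isCuspidalHom_cuspDualBasis N j).comp _⟩)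
    change heckeHomEval N R A P ((zmultiplesHom A a).comp (cuspDualBasis N j)) = 0 at h
    rw [heckeHomEval_eq_int, heckeHomEval_comp_left] at h
    refine AddMonoidHom.ext fun x => ?_
    have := DFunLike.congr_fun h x
    simp only [AddMonoidHom.comp_apply, zmultiplesHom_apply, AddMonoidHom.zero_apply] at this
    exact (smul_eq_zero.1 this).resolve_right ha
  refine Subtype.ext (LinearMap.ext fun f => ?_)
  have h0 : heckeHomEval N ℂ ℂ P (periodHomPair N (f, 0)) = 0 := by
    have hc : IsCuspidalHom (periodHomPair N (f, 0)) := periodHomPair_mem_cuspidalHoms (f, 0)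
    have hsum : periodHomPair N (f, 0) = ∑ j,
        (zmultiplesHom ℂ (periodHomPair N (f, 0) (Additive.ofMul (cuspBasisElt N j)))).comp
          (cuspDualBasis N j) := AddMonoidHom.ext fun x => by
      simpa [AddMonoidHom.finsetSum_apply] using hc.eq_sum x
    rw [hsum, heckeHomEval_eq_int, map_sum]
    exact Finset.sum_eq_zero fun j _ => by
      rw [heckeHomEval_comp_left, hZ, AddMonoidHom.comp_zero]
  rw [← periodHomPair_heckeHomEval, ← map_zero (periodHomPair N)] at h0
  exact congrArg Prod.fst (periodHomPair_injective h0)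

end Action

end FermatLib.Modular

end
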