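import Mathlib.NumberTheory.Modular
import Mathlib.NumberTheory.ModularForms.CongruenceSubgroups

/-!
# Elliptic and parabolic elements of `SL(2, ℤ)` up to conjugacy
-/

set_option autoImplicit false

noncomputable section

open UpperHalfPlane
open scoped MatrixGroups

namespace FermatLib.Modular

theorem exists_eq_conj_T_zpow_of_trace_eq_two {γ : SL(2, ℤ)}
    (h : (γ : Matrix (Fin 2) (Fin 2) ℤ).trace = 2) :
    ∃ (g : SL(2, ℤ)) (n : ℤ), γ = g * ModularGroup.T ^ n * g⁻¹ := by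
  rw [Matrix.trace_fin_two] at h
  have hdet : γ 0 0 * γ 1 1 - γ 0 1 * γ 1 0 = 1 := (Matrix.det_fin_two _).symm.trans γ.2
  suffices ∃ g : SL(2, ℤ), γ 1 0 * g 0 0 ^ 2 + (γ 1 1 - γ 0 0) * g 0 0 * g 1 0
      - γ 0 1 * g 1 0 ^ 2 = 0 by
    obtain ⟨g, hg⟩ := this
    set δ := g⁻¹ * γ * g with hδ
    have h10 : δ 1 0 = 0 := by
      rw [hδ, ← hg]
      simp [Matrix.SpecialLinearGroup.SL2_inv_expl, Matrix.mul_apply, Fin.sum_univ_two]
      ring
    have htr : δ 0 0 + δ 1 1 = 2 := by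
      have hdet' : g 0 0 * g 1 1 - g 0 1 * g 1 0 = 1 := (Matrix.det_fin_two _).symm.trans g.2
      rw [hδ]
      simp [Matrix.SpecialLinearGroup.SL2_inv_expl, Matrix.mul_apply, Fin.sum_univ_two]
      linear_combination h + (γ 0 0 + γ 1 1) * hdet'
    have hmul : δ 0 0 * δ 1 1 - δ 0 1 * δ 1 0 = 1 := (Matrix.det_fin_two _).symm.trans δ.2
    rw [h10] at hmul
    have h00 : δ 0 0 = 1 := by nlinarith [sq_nonneg (δ 0 0 - 1)]
    have h11 : δ 1 1 = 1 := by linarith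
    have hn : δ = ModularGroup.T ^ δ 0 1 := by
      ext i j
      fin_cases i <;> fin_cases j <;> simp [ModularGroup.coe_T_zpow, h00, h11, h10]
    exact ⟨g, δ 0 1, by rw [← hn, hδ]; group⟩
  by_cases hc : γ 1 0 = 0
  · exact ⟨1, by simp [hc]⟩
  · obtain ⟨p, q, G, hco, hp, hq⟩ : ∃ p q G : ℤ, IsCoprime p q ∧ γ 0 0 - 1 = p * G ∧
        γ 1 0 = q * G := by
      obtain ⟨p, q, hco, hp, hq⟩ := Int.exists_gcd_one
        (m := γ 0 0 - 1) (n := γ 1 0) (Int.gcd_pos_of_ne_zero_right _ hc)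
      exact ⟨p, q, _, Int.isCoprime_iff_gcd_eq_one.mpr hco, hp, hq⟩
    obtain ⟨u, v, huv⟩ := hco
    refine ⟨⟨!![p, -v; q, u], by rw [Matrix.det_fin_two_of]; linear_combination huv⟩, ?_⟩
    have hG : G ^ 2 ≠ 0 := pow_ne_zero _ (right_ne_zero_of_mul (hq ▸ hc))
    apply (mul_eq_zero.mp (?_ : G ^ 2 * _ = 0)).resolve_left hG
    simp only [Matrix.of_apply, Matrix.cons_val', Matrix.cons_val_zero, Matrix.cons_val_one,
      Matrix.cons_val_fin_one, Fin.isValue]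
    linear_combination
      (-γ 1 0 * (p * G + γ 0 0 - 1) - (γ 1 1 - γ 0 0) * q * G) * hp
      + (-(γ 1 1 - γ 0 0) * (γ 0 0 - 1) + γ 0 1 * (q * G + γ 1 0)) * hq
      + γ 1 0 * hdet - γ 1 0 * h

theorem exists_eq_conj_of_trace_sq_eq_four {γ : SL(2, ℤ)}
    (h : (γ : Matrix (Fin 2) (Fin 2) ℤ).trace ^ 2 = 4) :
    ∃ (g : SL(2, ℤ)) (n : ℤ),
      γ = g * ModularGroup.T ^ n * g⁻¹ ∨ γ = -(g * ModularGroup.T ^ n * g⁻¹) := by
  rcases (sq_eq_sq_iff_eq_or_eq_neg.mp (h.trans (by norm_num : (4 : ℤ) = 2 ^ 2))) with h2 | h2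
  · obtain ⟨g, n, hg⟩ := exists_eq_conj_T_zpow_of_trace_eq_two h2
    exact ⟨g, n, Or.inl hg⟩
  · obtain ⟨g, n, hg⟩ := exists_eq_conj_T_zpow_of_trace_eq_two (γ := -γ) (by
      rw [Matrix.SpecialLinearGroup.coe_neg, Matrix.trace_neg, h2, neg_neg])
    exact ⟨g, n, Or.inr (by rw [← hg, neg_neg])⟩

theorem exists_fixed_point_of_trace_sq_lt_four {γ : SL(2, ℤ)}
    (h : (γ : Matrix (Fin 2) (Fin 2) ℤ).trace ^ 2 < 4) : ∃ τ : ℍ, γ • τ = τ := by
  rw [Matrix.trace_fin_two] at h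
  have hdet : γ 0 0 * γ 1 1 - γ 0 1 * γ 1 0 = 1 := (Matrix.det_fin_two _).symm.trans γ.2
  have hc : γ 1 0 ≠ 0 := by
    intro hc
    rw [hc] at hdet
    nlinarith [sq_nonneg (γ 0 0 - γ 1 1)]
  set a : ℝ := ((γ 0 0 : ℤ) : ℝ) with ha
  set b : ℝ := ((γ 0 1 : ℤ) : ℝ) with hb
  set c : ℝ := ((γ 1 0 : ℤ) : ℝ) with hc'
  set d : ℝ := ((γ 1 1 : ℤ) : ℝ) with hd
  have hcR : c ≠ 0 := Int.cast_ne_zero.mpr hc
  have hD : (a + d) ^ 2 < 4 := by rw [ha, hd]; exact_mod_cast h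
  have hdetR : a * d - b * c = 1 := by rw [ha, hb, hc', hd]; exact_mod_cast hdet
  set y : ℝ := √(4 - (a + d) ^ 2) with hy
  have hy2 : y ^ 2 = 4 - (a + d) ^ 2 := Real.sq_sqrt (by linarith)
  have hypos : 0 < y := Real.sqrt_pos.mpr (by linarith)
  let τ : ℍ := ⟨⟨(a - d) / (2 * c), y / (2 * |c|)⟩, by
    show 0 < y / (2 * |c|)
    positivity⟩
  refine ⟨τ, ?_⟩
  rw [UpperHalfPlane.ext_iff, coe_specialLinearGroup_apply]
  have hne : ((c : ℂ) * (τ : ℂ) + (d : ℂ)) ≠ 0 := by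
    intro h0
    have := congrArg Complex.im h0
    simp [τ, hcR, hypos.ne'] at this
  simp only [algebraMap_int_eq, eq_intCast, Complex.ofReal_intCast]
  have hcast : ∀ n : ℤ, ((n : ℂ)) = (((n : ℤ) : ℝ) : ℂ) := fun n => (Complex.ofReal_intCast n).symm
  rw [hcast (γ 0 0), hcast (γ 0 1), hcast (γ 1 0), hcast (γ 1 1), ← ha, ← hb, ← hc', ← hd,
    div_eq_iff hne]
  apply Complex.ext
  · simp [τ]
    field_simp
    rw [sq_abs]
    nlinarith [hy2, hdetR]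
  · simp [τ]
    field_simp
    ring

/-- A point of `ℍ` has stabilizer `±1` unless it is a translate of `I` or of `ρ`. -/
theorem stabilizer_trichotomy (τ : ℍ) :
    (∃ g : SL(2, ℤ), g • τ = I) ∨ (∃ g : SL(2, ℤ), g • τ = UpperHalfPlane.ρ) ∨
      ∀ γ : SL(2, ℤ), γ • τ = τ → γ = 1 ∨ γ = -1 := by
  obtain ⟨g, hg⟩ := ModularGroup.exists_smul_mem_fd τ
  by_cases hI : g • τ = I
  · exact Or.inl ⟨g, hI⟩
  by_cases hρ : g • τ = ρ
  · exact Or.inr (Or.inl ⟨g, hρ⟩)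
  by_cases hρ' : g • τ = (1 : ℝ) +ᵥ ρ
  · refine Or.inr (Or.inl ⟨ModularGroup.T⁻¹ * g, ?_⟩)
    rw [mul_smul, hρ', inv_smul_eq_iff, modular_T_smul]
  refine Or.inr (Or.inr fun γ hγ => ?_)
  have h2 := ModularGroup.stabilizer_of_ne hg (g := g * γ * g⁻¹)
    (by rw [mul_smul, mul_smul, inv_smul_smul, hγ]) hI hρ hρ'
  rcases h2 with h2 | h2
  · left
    have := congrArg (fun x => g⁻¹ * x * g) h2
    simpa [mul_assoc] using this
  · right
    have := congrArg (fun x => g⁻¹ * x * g) h2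
    simpa [mul_assoc] using this

theorem mem_zpowers_conj_of_trace_sq_lt_four {γ : SL(2, ℤ)}
    (h : (γ : Matrix (Fin 2) (Fin 2) ℤ).trace ^ 2 < 4) :
    ∃ g : SL(2, ℤ), g * γ * g⁻¹ ∈ Subgroup.zpowers ModularGroup.S ∨
      g * γ * g⁻¹ ∈ Subgroup.zpowers (ModularGroup.S * ModularGroup.T) := by
  obtain ⟨τ, hτ⟩ := exists_fixed_point_of_trace_sq_lt_four h
  have hS : ∀ n : ℤ, ModularGroup.S ^ n ∈ Subgroup.zpowers ModularGroup.S :=
    fun n => Subgroup.zpow_mem_zpowers _ n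
  rcases stabilizer_trichotomy τ with ⟨g, hg⟩ | ⟨g, hg⟩ | hst
  · refine ⟨g, Or.inl ?_⟩
    have hfix : (g * γ * g⁻¹) • I = I := by rw [← hg, mul_smul, mul_smul, inv_smul_smul, hτ]
    have hmem := ModularGroup.stabilizer_I.mp hfix
    simp only [Finset.mem_insert, Finset.mem_singleton] at hmem
    rcases hmem with e | e | e | e <;> rw [e]
    · exact Subgroup.mem_zpowers_iff.mpr ⟨0, by decide⟩
    · exact Subgroup.mem_zpowers_iff.mpr ⟨2, by decide⟩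
    · exact Subgroup.mem_zpowers_iff.mpr ⟨1, by decide⟩
    · exact Subgroup.mem_zpowers_iff.mpr ⟨3, by decide⟩
  · refine ⟨g, Or.inr ?_⟩
    have hfix : (g * γ * g⁻¹) • ρ = ρ := by rw [← hg, mul_smul, mul_smul, inv_smul_smul, hτ]
    have hmem := ModularGroup.stabilizer_ρ.mp hfix
    simp only [Finset.mem_insert, Finset.mem_singleton] at hmem
    rcases hmem with e | e | e | e | e | e <;> rw [e]
    · exact Subgroup.mem_zpowers_iff.mpr ⟨0, by decide⟩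
    · exact Subgroup.mem_zpowers_iff.mpr ⟨3, by decide⟩
    · exact Subgroup.mem_zpowers_iff.mpr ⟨1, by decide⟩
    · exact Subgroup.mem_zpowers_iff.mpr ⟨4, by decide⟩
    · exact Subgroup.mem_zpowers_iff.mpr ⟨2, by decide⟩
    · exact Subgroup.mem_zpowers_iff.mpr ⟨5, by decide⟩
  · exfalso
    rcases hst γ hτ with rfl | rfl <;> simp at h

theorem pow_twelve_eq_one_of_trace_sq_lt_four {γ : SL(2, ℤ)}
    (h : (γ : Matrix (Fin 2) (Fin 2) ℤ).trace ^ 2 < 4) : γ ^ 12 = 1 := by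
  obtain ⟨g, hg⟩ := mem_zpowers_conj_of_trace_sq_lt_four h
  have key : (g * γ * g⁻¹) ^ 12 = 1 := by
    rcases hg with hg | hg <;> obtain ⟨n, hn⟩ := Subgroup.mem_zpowers_iff.mp hg <;>
      rw [← hn, ← zpow_natCast, ← zpow_mul, mul_comm, zpow_mul, zpow_natCast,
        show (_ : SL(2, ℤ)) ^ 12 = 1 by decide, one_zpow]
  rw [conj_pow] at key
  simpa using key

end FermatLib.Modular
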