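import Fermat.Agent.MLT.BettiHecke
import Fermat.Agent.Modular.HeckeAction
import Fermat.Agent.Modular.SL2Conj

/-!
# Eigenclasses with trivial character give points of the weight two Hecke algebra

`T l - (l + 1)`, `l ≡ 1 (mod N)`, kills the values at parabolic elements; so an eigenclass in
`H¹(Γ₀(N))` with some such `λ l ≠ l + 1` is cuspidal and its eigenvalues factor through the Hecke
algebra of cusp forms.
-/

set_option autoImplicit false

noncomputable section

open scoped MatrixGroups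
open CongruenceSubgroup FermatLib.MLT ModularCurve ModularCurve.Period

namespace FermatLib.Modular.Twist

local notation "M2Z" => Matrix (Fin 2) (Fin 2) ℤ

section parabolic

variable {N : ℕ} {R : Type*} [Semiring R] {A : Type*} [AddCommGroup A] [Module R A]

/-- The offset of a representative. -/
def repOffset {l : ℕ} : Option (Fin l) → ℤ
  | some j => ((j : ℕ) : ℤ)
  | none => 0

/-- The permutation of the representatives induced by `T ^ N`. -/
def repShift (N : ℕ) {l : ℕ} : Option (Fin l) → Option (Fin l)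
  | some j => some ⟨((j : ℕ) + N) % l, Nat.mod_lt _ (Fin.pos j)⟩
  | none => none

/-- The exponent of `T` created by `T ^ N`. -/
def repQuot (N : ℕ) {l : ℕ} : Option (Fin l) → ℤ
  | some j => ((((j : ℕ) + N) / l : ℕ) : ℤ)
  | none => ((l * N : ℕ) : ℤ)

theorem repShift_bijective (N : ℕ) {l : ℕ} :
    Function.Bijective (repShift N : Option (Fin l) → Option (Fin l)) := by
  refine Finite.injective_iff_bijective.1 ?_
  rintro (_ | i) (_ | j) h <;> simp [repShift] at h ⊢
  exact Fin.ext (Nat.ModEq.eq_of_lt_of_lt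
    (Nat.ModEq.add_right_cancel' N (h : ((i : ℕ) + N) % l = ((j : ℕ) + N) % l)) i.isLt j.isLt)

theorem heckeRepInt_mul_T_zpow (N : ℕ) {l : ℕ} (y : Option (Fin l)) :
    heckeRepInt l y * ((ModularGroup.T ^ (N : ℤ) : SL(2, ℤ)) : M2Z) =
      ((ModularGroup.T ^ repQuot N y : SL(2, ℤ)) : M2Z) * heckeRepInt l (repShift N y) := by
  rw [ModularGroup.coe_T_zpow, ModularGroup.coe_T_zpow]
  cases y with
  | none =>
    simp [heckeRepInt, repShift, repQuot]
  | some j =>
    have h := Nat.mod_add_div ((j : ℕ) + N) l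
    zify at h
    simp [heckeRepInt, repShift, repQuot, -Int.natCast_emod]
    linarith

/-- **`T l` acts as `l + 1` at parabolic elements**, for a prime `l ≡ 1 (mod N)`. -/
theorem heckeHomOp_apply_conj_T [NeZero N] (l : Nat.Primes) (hl : ((l : ℕ) : ZMod N) = 1)
    (g : SL(2, ℤ)) (u : Gamma0 N) (hu : (u : SL(2, ℤ)) = g * ModularGroup.T ^ (N : ℤ) * g⁻¹)
    (φ : Additive (Gamma0 N) →+ A) :
    heckeHomOp N R A l φ (Additive.ofMul u) = ((l : ℕ) + 1) • φ (Additive.ofMul u) := by
  classical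
  have hp := l.2
  have hlN : ¬ (l : ℕ) ∣ N := by
    intro h
    have := congrArg (ZMod.castHom h (ZMod (l : ℕ))) hl
    rw [map_natCast, ZMod.natCast_self, map_one] at this
    haveI := Fact.mk hp
    exact zero_ne_one (α := ZMod (l : ℕ)) (by assumption)
  let X : Option (Fin (l : ℕ)) → HeckeIdx N l := fun x => ⟨x, fun _ => hlN⟩
  have hXb : Function.Bijective X :=
    ⟨fun a b h => congrArg Subtype.val h, fun x => ⟨x.1, Subtype.ext rfl⟩⟩
  have hG : ∀ x : Option (Fin (l : ℕ)), ∃ y : Option (Fin (l : ℕ)), ∃ G : SL(2, ℤ),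
      heckeRepInt l x * (g : M2Z) = (G : M2Z) * heckeRepInt l y := by
    intro x
    obtain ⟨y, h, hy⟩ := exists_eq_mul_rep (N := 1) hp (heckeRepInt l x * (g : M2Z))
      (by rw [Matrix.det_mul, det_heckeRepInt, g.det_coe, mul_one]) (by simp)
      (fun h => absurd (Nat.eq_one_of_dvd_one h) hp.ne_one)
    exact ⟨y.1, h, hy⟩
  choose π G hπ using hG
  have hπb : Function.Bijective π := by
    refine Finite.injective_iff_bijective.1 fun x x' h => ?_
    refine heckeRepInt_eq_of_mul_eq hp.one_lt x x' (G x' * (G x)⁻¹) ?_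
    refine matMul_right_cancel (δ := (g : M2Z)) (by simp) ?_
    rw [Matrix.mul_assoc, hπ x, ← Matrix.mul_assoc, ← Matrix.SpecialLinearGroup.coe_mul,
      inv_mul_cancel_right, hπ x', h]
  let τ : Option (Fin (l : ℕ)) ≃ Option (Fin (l : ℕ)) := Equiv.ofBijective π hπb
  set σ : Option (Fin (l : ℕ)) → Option (Fin (l : ℕ)) := fun x =>
    τ.symm (repShift N (π x)) with hσ
  have hσb : Function.Bijective σ :=
    τ.symm.bijective.comp ((repShift_bijective N).comp hπb)
  have hπσ : ∀ x, π (σ x) = repShift N (π x) := fun x => τ.apply_symm_apply _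
  set f := Matrix.SpecialLinearGroup.map (n := Fin 2) (Int.castRingHom (ZMod N)) with hf
  have hrep : ∀ x : Option (Fin (l : ℕ)), (heckeRepInt l x).map (Int.castRingHom (ZMod N)) =
      (f (ModularGroup.T ^ repOffset x) : Matrix (Fin 2) (Fin 2) (ZMod N)) := by
    intro x
    rw [hf, Matrix.SpecialLinearGroup.map_apply_coe, RingHom.mapMatrix_apply,
      ModularGroup.coe_T_zpow]
    cases x <;> ext i j <;> fin_cases i <;> fin_cases j <;>
      simp [heckeRepInt, repOffset, hl]
  have hfG : ∀ x, f (ModularGroup.T ^ repOffset x) * f g =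
      f (G x) * f (ModularGroup.T ^ repOffset (π x)) := fun x => by
    apply Subtype.ext
    have e := congrArg (fun m : M2Z => m.map (Int.castRingHom (ZMod N))) (hπ x)
    simp only [Matrix.map_mul, hrep] at e
    exact e
  have hγmem : ∀ x, G x * ModularGroup.T ^ repOffset (π x) * g⁻¹ ∈ Gamma0 N := by
    intro x
    have h1 : G x * ModularGroup.T ^ repOffset (π x) * g⁻¹ *
        (ModularGroup.T ^ repOffset x)⁻¹ ∈ Gamma N := by
      show f _ = 1
      simp only [map_mul, map_inv]
      rw [← hfG x]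
      group
    have h2 : (ModularGroup.T ^ repOffset x : SL(2, ℤ)) ∈ Gamma0 N :=
      mem_Gamma0_iff_dvd.2 (by rw [ModularGroup.coe_T_zpow]; simp)
    have h3 : G x * ModularGroup.T ^ repOffset (π x) * g⁻¹ *
        (ModularGroup.T ^ repOffset x)⁻¹ ∈ Gamma0 N :=
      Gamma0_mem.2 (Gamma_mem.1 h1).2.2.1
    simpa using mul_mem h3 h2
  let P : Option (Fin (l : ℕ)) → Gamma0 N := fun x =>
    ⟨G x * ModularGroup.T ^ repOffset (π x) * g⁻¹, hγmem x⟩
  let E : Option (Fin (l : ℕ)) → ℤ := fun y =>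
    (repQuot N y - repOffset y + repOffset (repShift N y)) / N
  have hE : ∀ y : Option (Fin (l : ℕ)),
      (N : ℤ) * E y = repQuot N y - repOffset y + repOffset (repShift N y) := by
    intro y
    refine Int.mul_ediv_cancel' ?_
    rw [← ZMod.intCast_zmod_eq_zero_iff_dvd]
    cases y with
    | none => simp [repQuot, repOffset, repShift]
    | some j =>
      have h := congrArg (Nat.cast : ℕ → ZMod N) (Nat.mod_add_div ((j : ℕ) + N) (l : ℕ))
      simp only [repQuot, repOffset, repShift, Int.cast_add, Int.cast_sub, Int.cast_natCast]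
      push_cast at h
      rw [hl, ZMod.natCast_self, one_mul, add_zero] at h
      linear_combination h
  have helt : ∀ x, (heckeSystem N l).elt u (X x) = P x * u ^ E (π x) * (P (σ x))⁻¹ := by
    intro x
    refine ((heckeSystem N l).next_elt_eq_of_eq (j := X (σ x)) ?_).2
    show heckeRepInt l x * ((u : SL(2, ℤ)) : M2Z) = _ * heckeRepInt l (σ x)
    have hval : ((P x * u ^ E (π x) * (P (σ x))⁻¹ : Gamma0 N) : SL(2, ℤ)) =
        G x * ModularGroup.T ^ repQuot N (π x) * (G (σ x))⁻¹ := by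
      simp only [Subgroup.coe_mul, Subgroup.coe_inv, SubgroupClass.coe_zpow, P, hu, conj_zpow,
        ← zpow_mul, hE, hπσ, mul_inv_rev, inv_inv]
      rw [zpow_add, sub_eq_add_neg, zpow_add]
      group
    rw [hval, hu]
    simp only [Matrix.SpecialLinearGroup.coe_mul, ← Matrix.mul_assoc]
    rw [hπ x, Matrix.mul_assoc _ _ ((ModularGroup.T ^ (N : ℤ) : SL(2, ℤ)) : M2Z),
      heckeRepInt_mul_T_zpow, ← hπσ, ← Matrix.mul_assoc, Matrix.mul_assoc _ _ ((g⁻¹ : SL(2, ℤ)) : M2Z),
      Matrix.mul_assoc _ _ (heckeRepInt l (σ x))]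
    refine congrArg _ ?_
    refine matMul_right_cancel (δ := (g : M2Z)) (by simp) ?_
    rw [Matrix.mul_assoc, ← Matrix.SpecialLinearGroup.coe_mul, inv_mul_cancel,
      Matrix.SpecialLinearGroup.coe_one, mul_one, Matrix.mul_assoc, hπ (σ x), ← Matrix.mul_assoc,
      ← Matrix.SpecialLinearGroup.coe_mul, inv_mul_cancel, Matrix.SpecialLinearGroup.coe_one,
      one_mul]
  have hsumE : ∑ x, E (π x) = ((l : ℕ) : ℤ) + 1 := by
    rw [hπb.sum_comp E]
    refine mul_left_cancel₀ (Int.natCast_ne_zero.2 (NeZero.ne N)) ?_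
    rw [Finset.mul_sum, Finset.sum_congr rfl fun y _ => hE y]
    simp only [Finset.sum_add_distrib, Finset.sum_sub_distrib]
    rw [(repShift_bijective N).sum_comp repOffset, sub_add_cancel, Fintype.sum_option]
    have h1 : ∀ j : Fin (l : ℕ), ((l : ℕ) : ℤ) * repQuot N (some j) =
        (repOffset (some j) + N) - repOffset (repShift N (some j)) := by
      intro j
      have h := Nat.mod_add_div ((j : ℕ) + N) (l : ℕ)
      zify at h
      simp only [repQuot, repOffset, repShift]
      push_cast at h ⊢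
      linarith
    have h2 : ∑ j : Fin (l : ℕ), repQuot N (some j) = (N : ℤ) := by
      refine mul_left_cancel₀ (Int.natCast_ne_zero.2 hp.ne_zero) ?_
      rw [Finset.mul_sum, Finset.sum_congr rfl fun j _ => h1 j, Finset.sum_sub_distrib,
        Finset.sum_add_distrib]
      have h3 := (repShift_bijective N).sum_comp (repOffset (l := (l : ℕ)))
      rw [Fintype.sum_option, Fintype.sum_option] at h3
      simp only [repShift] at h3
      rw [show (∑ j : Fin (l : ℕ), repOffset (repShift N (some j))) =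
        ∑ j : Fin (l : ℕ), repOffset (some j) from add_left_cancel h3]
      simp
    rw [h2]
    simp only [repQuot]
    push_cast
    ring
  rw [heckeHomOp_apply, ← hXb.sum_comp (fun x => φ (Additive.ofMul ((heckeSystem N l).elt u x)))]
  simp only [helt, ofMul_mul, ofMul_inv, ofMul_zpow, map_add, map_neg, map_zsmul,
    Finset.sum_add_distrib, Finset.sum_neg_distrib, ← Finset.sum_smul, hsumE]
  rw [hσb.sum_comp (fun x => φ (Additive.ofMul (P x)))]
  simp [add_smul]
  abel

/-- An eigen homomorphism with an eigenvalue `≠ l + 1` at some `l ≡ 1 (mod N)` is cuspidal. -/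
theorem isCuspidalHom_of_eigen [NeZero N] {K : Type} [Field K] [CharZero K]
    (φ : Additive (Gamma0 N) →+ K) (l : Nat.Primes) (hl : ((l : ℕ) : ZMod N) = 1) {μ : K}
    (hμ : μ ≠ (l : ℕ) + 1) (heig : heckeHomOp N K K l φ = μ • φ) : IsCuspidalHom φ := by
  refine isCuspidalHom_of_isParabolicHom fun γ hγ => ?_
  obtain ⟨g, m, hg⟩ := exists_eq_conj_of_trace_sq_eq_four hγ
  have hmem : g * ModularGroup.T ^ (N : ℤ) * g⁻¹ ∈ Gamma0 N := by
    have h1 : g * ModularGroup.T ^ (N : ℤ) * g⁻¹ ∈ Gamma N :=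
      (Gamma_normal N).conj_mem _ (ModularGroup_T_pow_mem_Gamma N N dvd_rfl) g
    exact Gamma0_mem.2 (Gamma_mem.1 h1).2.2.1
  set u : Gamma0 N := ⟨_, hmem⟩ with hu
  have h0 : φ (Additive.ofMul u) = 0 := by
    have h1 := heckeHomOp_apply_conj_T (R := K) l hl g u rfl φ
    rw [heig, AddMonoidHom.coe_smul, Pi.smul_apply, nsmul_eq_mul, smul_eq_mul] at h1
    push_cast at h1
    by_contra h2
    exact hμ (mul_right_cancel₀ h2 h1)
  have hsq : (γ ^ 2) ^ (N : ℤ) = u ^ (2 * m) := by
    refine Subtype.ext ?_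
    have hg2 : (γ : SL(2, ℤ)) ^ 2 = g * ModularGroup.T ^ (2 * m) * g⁻¹ := by
      rw [two_mul, zpow_add, pow_two]
      rcases hg with h | h <;> rw [h]
      · group
      · rw [neg_mul_neg]
        group
    rw [SubgroupClass.coe_zpow, SubgroupClass.coe_zpow, SubmonoidClass.coe_pow, hg2]
    show _ = (g * ModularGroup.T ^ (N : ℤ) * g⁻¹) ^ (2 * m)
    rw [conj_zpow, conj_zpow, ← zpow_mul, ← zpow_mul, mul_comm]
  have h3 := congrArg (fun z => φ (Additive.ofMul z)) hsq
  simp only [ofMul_zpow, ofMul_pow, map_zsmul, map_nsmul, h0, smul_zero] at h3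
  simpa [NeZero.ne N] using h3

end parabolic

section point

variable {N : ℕ} [NeZero N] {K : Type} [Field K] [CharZero K]

omit [NeZero N] [CharZero K] in
theorem nebenChar_one_apply (γ : Gamma0 N) :
    ((nebenChar (1 : (ZMod N)ˣ →* Kˣ) γ : Kˣ) : K) = 1 := by
  rw [nebenChar_one, MonoidHom.one_apply, Units.val_one]

/-- A cocycle for the trivial character as a homomorphism. -/
def cocycleHom (c : bettiCocycles (Gamma0 N) (nebenChar (1 : (ZMod N)ˣ →* Kˣ)) K) :
    Additive (Gamma0 N) →+ K :=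
  AddMonoidHom.mk' (fun γ => (c : Gamma0 N → K) (Additive.toMul γ)) fun γ δ => by
    rw [toMul_add, bettiCocycles.map_mul, nebenChar_one_apply, one_smul]

omit [NeZero N] [CharZero K] in
theorem heckeHomOp_cocycleHom
    (c : bettiCocycles (Gamma0 N) (nebenChar (1 : (ZMod N)ˣ →* Kˣ)) K) (p : Nat.Primes) :
    heckeHomOp N K K p (cocycleHom c) = cocycleHom
      ((bettiHeckeSystem N p).transferCocycles K (isWeight_heckeWeight 1 p) c) := by
  refine AddMonoidHom.ext fun γ => ?_
  obtain ⟨γ, rfl⟩ := Additive.ofMul.surjective γ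
  rw [heckeHomOp_apply]
  show _ = (((bettiHeckeSystem N p).transferCocycles K (isWeight_heckeWeight 1 p) c :
    bettiCocycles _ _ K) : Gamma0 N → K) γ
  rw [CosetSystem.transferCocycles_apply]
  refine Finset.sum_congr rfl fun x _ => ?_
  rw [show heckeWeight (1 : (ZMod N)ˣ →* Kˣ) p x = 1 by simp [heckeWeight], one_smul,
    ((bettiHeckeSystem N p).next_elt_eq_of_eq (i := x) ((heckeSystem N p).rep_mul γ x)).2]
  rfl

/-- **An eigenclass with trivial character, not Eisenstein at one prime `≡ 1 (mod N)`, gives a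
point of the Hecke algebra of cusp forms of level `N`.** -/
theorem exists_point_of_eigen {x : bettiH1 (Gamma0 N) (nebenChar (1 : (ZMod N)ˣ →* Kˣ)) K}
    (hx : x ≠ 0) (lam : Nat.Primes → K) (heig : ∀ p, bettiHeckeOp N K 1 p x = lam p • x)
    (hnE : ∃ l : Nat.Primes, ((l : ℕ) : ZMod N) = 1 ∧ lam l ≠ (l : ℕ) + 1) :
    ∃ θ : ↥(CuspForm.heckeAlgebra N 2 (∅ : Set ℕ)) →+* K,
      (∀ (ℓ : ℕ) (hℓ : ℓ.Prime) (hℓN : ¬ ℓ ∣ N),
        θ (CuspForm.heckeAlgebra.T hℓ hℓN (Set.notMem_empty ℓ)) = lam ⟨ℓ, hℓ⟩) ∧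
      (∀ (q : ℕ) (hq : q.Prime) (hqN : q ∣ N),
        θ (CuspForm.heckeAlgebra.U hq hqN (Set.notMem_empty q)) = lam ⟨q, hq⟩) := by
  obtain ⟨c, rfl⟩ := Submodule.Quotient.mk_surjective _ x
  set φ := cocycleHom c with hφ
  have hφ0 : φ ≠ 0 := fun h => hx ((Submodule.Quotient.mk_eq_zero _).2
    (mem_bettiBoundaries.2 ⟨0, fun γ => by
      rw [smul_zero, sub_zero]
      exact (DFunLike.congr_fun h (Additive.ofMul γ)).symm⟩))
  have hφeig : ∀ p, heckeHomOp N K K p φ = lam p • φ := by
    intro p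
    have h := heig p
    rw [bettiHeckeOp, CosetSystem.transfer_mk, ← Submodule.Quotient.mk_smul,
      Submodule.Quotient.eq] at h
    obtain ⟨v, hv⟩ := mem_bettiBoundaries.1 h
    rw [hφ, heckeHomOp_cocycleHom]
    refine AddMonoidHom.ext fun γ => ?_
    have := hv (Additive.toMul γ)
    rw [nebenChar_one_apply, one_smul, sub_self,
      Submodule.coe_sub, Pi.sub_apply, eq_comm, sub_eq_zero] at this
    exact this
  obtain ⟨l, hl, hμ⟩ := hnE
  have hcusp : IsCuspidalHom φ := isCuspidalHom_of_eigen φ l hl hμ (hφeig l)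
  let ev : HeckeAlg →+* K := (MvPolynomial.aeval lam).toRingHom
  have hev : ∀ P : HeckeAlg, heckeHomEval N K K P φ = ev P • φ := by
    intro P
    induction P using MvPolynomial.induction_on with
    | C a =>
      rw [heckeHomEval_C_apply, ← Int.cast_smul_eq_zsmul K]
      congr 1
      simp [ev]
    | add P Q hP hQ => rw [map_add, map_add, LinearMap.add_apply, hP, hQ, add_smul]
    | mul_X P p hP =>
      rw [map_mul, map_mul, Module.End.mul_apply, heckeHomEval_X_apply, hφeig p, map_smul, hP,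
        smul_smul, show ev (MvPolynomial.X p) = lam p by simp [ev], mul_comm]
  have hker : RingHom.ker (CuspForm.heckeEvalForms N 2) ≤ RingHom.ker ev := fun P hP => by
    have h := hev P
    rw [heckeHomEval_eq_zero (RingHom.mem_ker.1 hP) hcusp] at h
    exact (smul_eq_zero.1 h.symm).resolve_right hφ0
  let θ := RingHom.liftOfSurjective (CuspForm.heckeEvalForms N 2) (heckeEvalForms_surjective N)
    ⟨ev, hker⟩
  have hθ : ∀ P, θ (CuspForm.heckeEvalForms N 2 P) = ev P := fun P =>
    RingHom.liftOfRightInverse_comp_apply _ _ _ _ P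
  refine ⟨θ, fun ℓ hℓ hℓN => ?_, fun q hq hqN => ?_⟩
  · rw [← CuspForm.heckeEvalForms_heckeGen_of_not_dvd (ℓ := ⟨ℓ, hℓ⟩) hℓN, hθ]
    exact MvPolynomial.aeval_X _ _
  · rw [← CuspForm.heckeEvalForms_heckeGen_of_dvd (q := ⟨q, hq⟩) hqN, hθ]
    exact MvPolynomial.aeval_X _ _

end point

end FermatLib.Modular.Twist

end
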