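import Fermat.Agent.Modular.TwistSystemInjective
import Fermat.Agent.Modular.TwistSystemCusp
import Fermat.Agent.Modular.Newforms.CharacterLift
import Mathlib.NumberTheory.MulChar.Basic

/-!
# Eigen systems with nebentype are twists of systems of `Γ₀(L ∏ Q)`

For a set `Q` of primes exactly dividing `L` with characters `ψ q`, `χ ∏ (ψ q)² = 1`, the iterated
twist is injective and turns an eigenclass of character `χ` into a point of the Hecke algebra of
level `L ∏ Q`, hence into a normalised eigenform.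
-/

set_option autoImplicit false

noncomputable section

open scoped MatrixGroups
open CongruenceSubgroup FermatLib.MLT ModularFormClass

namespace FermatLib.Modular.Twist

variable {K : Type} [Field K]

/-- The product of the characters `ψ q`, `q ∈ Q`, at `n`; zero unless `n` is prime to `Q`. -/
def twistFactor (Q : Finset ℕ) (ψ : (q : ℕ) → (ZMod q)ˣ →* Kˣ) (n : ℕ) : K :=
  ∏ q ∈ Q, MulChar.ofUnitHom (ψ q) (n : ZMod q)

theorem ofUnitHom_natCast {q n : ℕ} (hn : n.Coprime q) (ψ : (ZMod q)ˣ →* Kˣ) :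
    MulChar.ofUnitHom ψ (n : ZMod q) = (ψ (ZMod.unitOfCoprime n hn) : K) := by
  rw [← MulChar.ofUnitHom_coe, ZMod.coe_unitOfCoprime]

theorem ofUnitHom_natCast_of_eq_one {q n : ℕ} (hn : (n : ZMod q) = 1)
    (ψ : (ZMod q)ˣ →* Kˣ) : MulChar.ofUnitHom ψ (n : ZMod q) = 1 := by
  rw [hn, map_one]

theorem twistFactor_eq_one_of_modEq {Q : Finset ℕ} {N n : ℕ} (hQ : ∀ q ∈ Q, q ∣ N)
    (hn : (n : ZMod N) = 1) (ψ : (q : ℕ) → (ZMod q)ˣ →* Kˣ) : twistFactor Q ψ n = 1 := by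
  refine Finset.prod_eq_one fun q hq => ofUnitHom_natCast_of_eq_one ?_ _
  have := congrArg (ZMod.castHom (hQ q hq) (ZMod q)) hn
  rwa [map_natCast, map_one] at this

variable [CharZero K] {V : Type} [AddCommGroup V] [Module K V]

/-- **The iterated twist**: injective, intertwines `T l` with `twistFactor l • T l` for `l ∉ Q`,
and `U q` kills its image for `q ∈ Q`. -/
theorem exists_bettiTwist (Q : Finset ℕ) :
    ∀ (L : ℕ) [NeZero L] (χ : (ZMod L)ˣ →* Kˣ) (ψ : (q : ℕ) → (ZMod q)ˣ →* Kˣ),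
      (∀ q ∈ Q, q.Prime ∧ q ∣ L ∧ ¬ q ^ 2 ∣ L) → (∀ q ∈ Q, ψ q ^ 2 ≠ 1) →
      (∀ (n : ℕ) (hn : n.Coprime L),
        (χ (ZMod.unitOfCoprime n hn) : K) * twistFactor Q ψ n ^ 2 = 1) →
      ∀ N : ℕ, N = L * ∏ q ∈ Q, q →
      ∃ Φ : bettiH1 (Gamma0 L) (nebenChar χ) V →ₗ[K]
          bettiH1 (Gamma0 N) (nebenChar (1 : (ZMod N)ˣ →* Kˣ)) V,
        Function.Injective Φ ∧
        (∀ l : Nat.Primes, (l : ℕ) ∉ Q → ∀ x,
          bettiHeckeOp N V 1 l (Φ x) = twistFactor Q ψ (l : ℕ) • Φ (bettiHeckeOp L V χ l x)) ∧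
        ∀ l : Nat.Primes, (l : ℕ) ∈ Q → ∀ x, bettiHeckeOp N V 1 l (Φ x) = 0 := by
  classical
  induction Q using Finset.induction_on with
  | empty =>
    intro L _ χ ψ _ _ hχ N hN
    rw [Finset.prod_empty, mul_one] at hN
    subst hN
    have hχ1 : χ = 1 := MonoidHom.ext fun t => Units.ext (by
      have hco : (t : ZMod N).val.Coprime N := ZMod.val_coe_unit_coprime t
      have h := hχ _ hco
      rw [twistFactor, Finset.prod_empty, one_pow, mul_one] at h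
      rw [show ZMod.unitOfCoprime _ hco = t from Units.ext (by simp)] at h
      simpa using h)
    subst hχ1
    exact ⟨LinearMap.id, fun _ _ h => h, fun l _ x => by simp [twistFactor],
      fun l hl => absurd hl (by simp)⟩
  | insert q Q hqQ ih =>
    intro L _ χ ψ hQ hψ hχ N hN
    obtain ⟨hq, hqL, hq2⟩ := hQ q (Finset.mem_insert_self q Q)
    have : Fact q.Prime := ⟨hq⟩
    have hψq : ψ q ≠ 1 := fun h => hψ q (Finset.mem_insert_self q Q) (MonoidHom.ext fun u => by simp [h])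
    have : NeZero (L * q) := ⟨mul_ne_zero (NeZero.ne L) hq.ne_zero⟩
    have hpr : ∀ p ∈ Q, p.Prime := fun p hp => (hQ p (Finset.mem_insert_of_mem hp)).1
    set χ₁ := twistChar L q χ (ψ q) with hχ₁
    have hQ₁ : ∀ p ∈ Q, p.Prime ∧ p ∣ L * q ∧ ¬ p ^ 2 ∣ L * q := fun p hp => by
      obtain ⟨hp1, hp2, hp3⟩ := hQ p (Finset.mem_insert_of_mem hp)
      refine ⟨hp1, hp2.mul_right q, fun h => hp3 ?_⟩
      exact ((Nat.coprime_primes hp1 hq).2 fun e => hqQ (e ▸ hp)).pow_left 2 |>.dvd_of_dvd_mul_right h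
    have hχ₁' : ∀ (n : ℕ) (hn : n.Coprime (L * q)),
        (χ₁ (ZMod.unitOfCoprime n hn) : K) * twistFactor Q ψ n ^ 2 = 1 := by
      intro n hn
      have e1 : ∀ (m : ℕ) (hm : m ∣ L * q) (hc : n.Coprime m),
          ZMod.unitsMap hm (ZMod.unitOfCoprime n hn) = ZMod.unitOfCoprime n hc := fun m hm hc =>
        Units.ext (by simp [ZMod.unitsMap_val, ZMod.cast_natCast hm])
      have hcL : n.Coprime L := hn.coprime_dvd_right (dvd_mul_right L q)
      have hcq : n.Coprime q := hn.coprime_dvd_right (dvd_mul_left q L)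
      have h := hχ n hcL
      rw [twistFactor, Finset.prod_insert hqQ, mul_pow, ofUnitHom_natCast hcq, ← mul_assoc] at h
      rw [hχ₁, twistChar, MonoidHom.mul_apply, MonoidHom.pow_apply, MonoidHom.comp_apply,
        MonoidHom.comp_apply, e1 L _ hcL, e1 q _ hcq, Units.val_mul, Units.val_pow_eq_pow_val]
      exact h
    obtain ⟨Φ, hΦi, hΦl, hΦ0⟩ := ih (L * q) χ₁ ψ hQ₁
      (fun p hp => hψ p (Finset.mem_insert_of_mem hp)) hχ₁' N
      (by rw [hN, Finset.prod_insert hqQ, mul_assoc])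
    have hbi : Function.Injective (bettiTwist L q V hqL χ (ψ q)) := by
      refine bettiTwist_injective hqL hq2 hψq ?_
      obtain ⟨u, hu⟩ : ∃ u, ψ q u ^ 2 ≠ 1 := by
        by_contra hall
        push Not at hall
        exact hψ q (Finset.mem_insert_self q Q) (MonoidHom.ext hall)
      set M := L / q with hM
      have hLM : L = q * M := (Nat.mul_div_cancel' hqL).symm
      have hcop : Nat.Coprime q M := (hq.coprime_iff_not_dvd).2 fun h1 =>
        hq2 (by rw [pow_two, hLM]; exact Nat.mul_dvd_mul_left q h1)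
      obtain ⟨n, hnq, hnM⟩ := Nat.chineseRemainder hcop (u : ZMod q).val 1
      have hnq' : (n : ZMod q) = u := by
        rw [(ZMod.natCast_eq_natCast_iff _ _ _).2 hnq, ZMod.natCast_zmod_val]
      have hnM' : (n : ZMod M) = 1 := by
        rw [(ZMod.natCast_eq_natCast_iff _ _ _).2 hnM, Nat.cast_one]
      have hcq : n.Coprime q := by
        rw [← ZMod.isUnit_iff_coprime, hnq']
        exact u.isUnit
      have hcM : n.Coprime M := by
        rw [← ZMod.isUnit_iff_coprime, hnM']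
        exact isUnit_one
      have hcL : n.Coprime L := by rw [hLM]; exact hcq.mul_right hcM
      refine ⟨(n : ℤ), ZMod.unitOfCoprime n hcL, by simp, Nat.modEq_iff_dvd.1 hnM.symm, ?_⟩
      intro h1
      have h := hχ n hcL
      have hQM : twistFactor Q ψ n = 1 :=
        twistFactor_eq_one_of_modEq (N := M) (fun p hp => by
          obtain ⟨hp1, hp2, -⟩ := hQ p (Finset.mem_insert_of_mem hp)
          rw [hLM] at hp2
          exact ((Nat.coprime_primes hp1 hq).2 fun e => hqQ (e ▸ hp)).dvd_of_dvd_mul_left hp2)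
          hnM' ψ
      rw [twistFactor, Finset.prod_insert hqQ, ← twistFactor, hQM, mul_one, h1, Units.val_one,
        one_mul, ofUnitHom_natCast hcq,
        show ZMod.unitOfCoprime n hcq = u from Units.ext hnq'] at h
      exact hu (Units.ext (by rw [Units.val_pow_eq_pow_val, h, Units.val_one]))
    refine ⟨Φ.comp (bettiTwist L q V hqL χ (ψ q)), hΦi.comp hbi, fun l hl x => ?_,
      fun l hl x => ?_⟩
    · rw [Finset.mem_insert, not_or] at hl
      have hlq : ¬ (l : ℕ) ∣ q := fun h => hl.1 ((Nat.prime_dvd_prime_iff_eq l.2 hq).1 h)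
      rw [LinearMap.comp_apply, hΦl l hl.2, bettiHeckeOp_bettiTwist hqL χ (ψ q) l hlq, map_smul,
        smul_smul, twistFactor, twistFactor, Finset.prod_insert hqQ,
        ofUnitHom_natCast (l.2.coprime_iff_not_dvd.2 hlq), mul_comm, LinearMap.comp_apply]
    · rw [LinearMap.comp_apply]
      rcases Finset.mem_insert.1 hl with h | h
      · subst h
        rw [hΦl l hqQ,
          show bettiHeckeOp (L * (l : ℕ)) V χ₁ l (bettiTwist L (l : ℕ) V hqL χ (ψ l) x) = 0 from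
            bettiHeckeOp_self_bettiTwist χ l hqL (ψ l) (sum_twistWeight_eq_zero hψq) x,
          map_zero, smul_zero]
      · exact hΦ0 l h _

section eigen

variable {L : ℕ} [NeZero L] {χ : (ZMod L)ˣ →* Kˣ} {Q : Finset ℕ}
  {ψ : (q : ℕ) → (ZMod q)ˣ →* Kˣ}

/-- **A non-Eisenstein eigenclass with character `χ` gives, twisted, a point of the Hecke algebra
of `Γ₀(L ∏ Q)`**, with `U q ↦ 0` on `Q`. -/
theorem exists_twist_point (hQ : ∀ q ∈ Q, q.Prime ∧ q ∣ L ∧ ¬ q ^ 2 ∣ L)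
    (hψ : ∀ q ∈ Q, ψ q ^ 2 ≠ 1)
    (hχ : ∀ (n : ℕ) (hn : n.Coprime L),
      (χ (ZMod.unitOfCoprime n hn) : K) * twistFactor Q ψ n ^ 2 = 1)
    [NeZero (L * ∏ q ∈ Q, q)]
    {x : bettiH1 (Gamma0 L) (nebenChar χ) K} (hx : x ≠ 0) (lam : Nat.Primes → K)
    (heig : ∀ l : Nat.Primes, (l : ℕ) ∉ Q → bettiHeckeOp L K χ l x = lam l • x)
    (hnE : ∃ l : Nat.Primes, ((l : ℕ) : ZMod (L * ∏ q ∈ Q, q)) = 1 ∧ lam l ≠ (l : ℕ) + 1) :
    ∃ θ : ↥(CuspForm.heckeAlgebra (L * ∏ q ∈ Q, q) 2 (∅ : Set ℕ)) →+* K,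
      (∀ (ℓ : ℕ) (hℓ : ℓ.Prime) (hℓN : ¬ ℓ ∣ L * ∏ q ∈ Q, q),
        θ (CuspForm.heckeAlgebra.T hℓ hℓN (Set.notMem_empty ℓ)) =
          twistFactor Q ψ ℓ * lam ⟨ℓ, hℓ⟩) ∧
      (∀ (r : ℕ) (hr : r.Prime) (hrN : r ∣ L * ∏ q ∈ Q, q), r ∉ Q →
        θ (CuspForm.heckeAlgebra.U hr hrN (Set.notMem_empty r)) =
          twistFactor Q ψ r * lam ⟨r, hr⟩) ∧
      (∀ (r : ℕ) (hr : r.Prime) (hrN : r ∣ L * ∏ q ∈ Q, q), r ∈ Q →
        θ (CuspForm.heckeAlgebra.U hr hrN (Set.notMem_empty r)) = 0) := by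
  classical
  set N := L * ∏ q ∈ Q, q with hN
  obtain ⟨Φ, hΦi, hΦl, hΦ0⟩ := exists_bettiTwist (V := K) Q L χ ψ hQ hψ hχ N hN
  let lam' : Nat.Primes → K := fun l =>
    if (l : ℕ) ∈ Q then 0 else twistFactor Q ψ (l : ℕ) * lam l
  obtain ⟨l₀, hl₀, hμ⟩ := hnE
  have hdvd : ∀ q ∈ Q, q ∣ N := fun q hq => (Finset.dvd_prod_of_mem _ hq).mul_left L
  have hl₀Q : (l₀ : ℕ) ∉ Q := fun h => by
    have := congrArg (ZMod.castHom (hdvd _ h) (ZMod (l₀ : ℕ))) hl₀
    rw [map_natCast, ZMod.natCast_self, map_one] at this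
    have := Fact.mk l₀.2
    exact zero_ne_one (α := ZMod (l₀ : ℕ)) (by assumption)
  obtain ⟨θ, hT, hU⟩ := exists_point_of_eigen (x := Φ x)
    (fun h => hx (hΦi (by rw [h, map_zero]))) lam'
    (fun l => by
      by_cases hl : (l : ℕ) ∈ Q
      · simp [lam', hl, hΦ0 l hl]
      · simp [lam', hl, hΦl l hl, heig l hl, smul_smul])
    ⟨l₀, hl₀, by
      simpa [lam', hl₀Q, twistFactor_eq_one_of_modEq hdvd hl₀] using hμ⟩
  refine ⟨θ, fun ℓ hℓ hℓN => ?_, fun r hr hrN hrQ => ?_, fun r hr hrN hrQ => ?_⟩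
  · rw [hT ℓ hℓ hℓN]
    exact if_neg fun h => hℓN (hdvd ℓ h)
  · rw [hU r hr hrN]
    exact if_neg hrQ
  · rw [hU r hr hrN]
    exact if_pos hrQ

omit [CharZero K] in
/-- A ring map to an algebraically closed field extends along an integral extension. -/
theorem exists_ringHom_extends_field [IsAlgClosed K] {A B : Type*} [CommRing A] [CommRing B]
    [Algebra A B] [Algebra.IsIntegral A B] (hinj : Function.Injective (algebraMap A B))
    (θ : A →+* K) : ∃ ι : B →+* K, ι.comp (algebraMap A B) = θ := by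
  have : (RingHom.ker θ).IsPrime := RingHom.ker_isPrime θ
  obtain ⟨P, -, hP, hPA⟩ := Ideal.exists_ideal_over_prime_of_isIntegral (RingHom.ker θ)
    (⊥ : Ideal B)
    (by rw [← RingHom.ker_eq_comap_bot, (RingHom.injective_iff_ker_eq_bot _).1 hinj]; exact bot_le)
  have : P.LiesOver (RingHom.ker θ) := ⟨hPA.symm⟩
  let : Algebra (A ⧸ RingHom.ker θ) K := (RingHom.kerLift θ).toAlgebra
  have : Module.IsTorsionFree (A ⧸ RingHom.ker θ) K := by
    have : FaithfulSMul (A ⧸ RingHom.ker θ) K :=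
      (faithfulSMul_iff_algebraMap_injective _ _).2 (RingHom.kerLift_injective θ)
    infer_instance
  have : Algebra.IsIntegral (A ⧸ RingHom.ker θ) (B ⧸ P) := inferInstance
  refine ⟨(IsAlgClosed.lift (R := A ⧸ RingHom.ker θ) (S := B ⧸ P) (M := K)).toRingHom.comp
    (Ideal.Quotient.mk P), RingHom.ext fun a => ?_⟩
  have h := (IsAlgClosed.lift (R := A ⧸ RingHom.ker θ) (S := B ⧸ P) (M := K)).commutes
    (Ideal.Quotient.mk (RingHom.ker θ) a)
  simpa [Ideal.Quotient.algebraMap_mk_of_liesOver, RingHom.algebraMap_toAlgebra] using h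

/-- A point of the Hecke algebra in an algebraically closed field of characteristic zero is an
eigenform and an embedding of the algebraic integers. -/
theorem exists_eigenform_embedding [IsAlgClosed K] {N : ℕ} [NeZero N]
    (θ : ↥(CuspForm.heckeAlgebra N 2 (∅ : Set ℕ)) →+* K) :
    ∃ (f : CuspForm (Gamma0 N) 2) (ι : integralClosure ℤ ℂ →+* K), f.IsNormalizedEigenform ∧
      (∀ (ℓ : ℕ) (hℓ : ℓ.Prime) (hℓN : ¬ ℓ ∣ N), ∃ a : integralClosure ℤ ℂ,
        (a : ℂ) = qCoeff ⇑f ℓ ∧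
          ι a = θ (CuspForm.heckeAlgebra.T hℓ hℓN (Set.notMem_empty ℓ))) ∧
      (∀ (r : ℕ) (hr : r.Prime) (hrN : r ∣ N), ∃ a : integralClosure ℤ ℂ,
        (a : ℂ) = qCoeff ⇑f r ∧
          ι a = θ (CuspForm.heckeAlgebra.U hr hrN (Set.notMem_empty r))) := by
  obtain ⟨-, χ', -, hker, -, -⟩ := Newforms.exists_eigenform_of_point θ
  obtain ⟨f, hf, -, hT, hU⟩ := Newforms.exists_normalizedEigenform_of_character χ'
  have : Module.Finite ℤ ↥(CuspForm.heckeAlgebra N 2 (∅ : Set ℕ)) :=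
    heckeAlgebra_moduleFinite N 2 ∅
  have hint : ∀ t, χ' t ∈ integralClosure ℤ ℂ := fun t =>
    (Algebra.IsIntegral.isIntegral (R := ℤ) t).map χ'.toIntAlgHom
  let χ₁ : ↥(CuspForm.heckeAlgebra N 2 (∅ : Set ℕ)) →+* integralClosure ℤ ℂ :=
    χ'.codRestrict (integralClosure ℤ ℂ) hint
  have hker₁ : RingHom.ker χ₁.rangeRestrict ≤ RingHom.ker θ := fun t ht => by
    rw [RingHom.mem_ker] at ht
    rw [← hker, RingHom.mem_ker]
    exact congrArg (fun z : integralClosure ℤ ℂ => (z : ℂ)) (congrArg Subtype.val ht)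
  let θ₁ : ↥χ₁.range →+* K :=
    RingHom.liftOfSurjective χ₁.rangeRestrict χ₁.rangeRestrict_surjective ⟨θ, hker₁⟩
  have hθ₁ : ∀ t, θ₁ (χ₁.rangeRestrict t) = θ t := fun t =>
    RingHom.liftOfRightInverse_comp_apply _ _ _ _ t
  have : Algebra.IsIntegral ↥χ₁.range (integralClosure ℤ ℂ) := Algebra.IsIntegral.tower_top ℤ
  obtain ⟨ι, hι⟩ := exists_ringHom_extends_field (A := ↥χ₁.range) (B := integralClosure ℤ ℂ)
    Subtype.val_injective θ₁
  have hιt : ∀ t, ι (χ₁ t) = θ t := fun t => by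
    rw [← hθ₁, ← hι]
    rfl
  exact ⟨f, ι, hf, fun ℓ hℓ hℓN => ⟨χ₁ _, (hT ℓ hℓ hℓN).symm, hιt _⟩,
    fun r hr hrN => ⟨χ₁ _, (hU r hr hrN).symm, hιt _⟩⟩

/-- **Twist transfer**: a non-Eisenstein eigenclass with character `χ` is a twist of a normalised
eigenform on `Γ₀(L ∏ Q)`. -/
theorem exists_twist_eigenform [IsAlgClosed K] (hQ : ∀ q ∈ Q, q.Prime ∧ q ∣ L ∧ ¬ q ^ 2 ∣ L)
    (hψ : ∀ q ∈ Q, ψ q ^ 2 ≠ 1)
    (hχ : ∀ (n : ℕ) (hn : n.Coprime L),
      (χ (ZMod.unitOfCoprime n hn) : K) * twistFactor Q ψ n ^ 2 = 1)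
    [NeZero (L * ∏ q ∈ Q, q)]
    {x : bettiH1 (Gamma0 L) (nebenChar χ) K} (hx : x ≠ 0) (lam : Nat.Primes → K)
    (heig : ∀ l : Nat.Primes, (l : ℕ) ∉ Q → bettiHeckeOp L K χ l x = lam l • x)
    (hnE : ∃ l : Nat.Primes, ((l : ℕ) : ZMod (L * ∏ q ∈ Q, q)) = 1 ∧ lam l ≠ (l : ℕ) + 1) :
    ∃ (f : CuspForm (Gamma0 (L * ∏ q ∈ Q, q)) 2) (ι : integralClosure ℤ ℂ →+* K),
      f.IsNormalizedEigenform ∧
      ∀ l : Nat.Primes, ∃ a : integralClosure ℤ ℂ, (a : ℂ) = qCoeff ⇑f (l : ℕ) ∧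
        ι a = if (l : ℕ) ∈ Q then 0 else twistFactor Q ψ (l : ℕ) * lam l := by
  classical
  obtain ⟨θ, hT, hU, hU0⟩ := exists_twist_point hQ hψ hχ hx lam heig hnE
  obtain ⟨f, ι, hf, hfT, hfU⟩ := exists_eigenform_embedding θ
  refine ⟨f, ι, hf, fun l => ?_⟩
  by_cases hl : (l : ℕ) ∣ L * ∏ q ∈ Q, q
  · obtain ⟨a, ha, ha'⟩ := hfU (l : ℕ) l.2 hl
    refine ⟨a, ha, ha'.trans ?_⟩
    split_ifs with h
    · exact hU0 _ _ _ h
    · exact hU _ _ _ h
  · obtain ⟨a, ha, ha'⟩ := hfT (l : ℕ) l.2 hl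
    refine ⟨a, ha, ha'.trans ?_⟩
    rw [if_neg fun h => hl ((Finset.dvd_prod_of_mem _ h).mul_left L)]
    exact hT _ _ _

end eigen

end FermatLib.Modular.Twist

end
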