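import Fermat.Agent.Modular.LevelChangeForm
import Fermat.Prelude.Def_CuspForm_Newforms
import Mathlib.Analysis.Complex.Polynomial.Basic
import Mathlib.RingTheory.IntegralClosure.IsIntegralClosure.Basic

/-!
# Stabilisation and level change of normalised eigenforms

A normalised eigenform of level `M` and a root `α` of `X² - a_q X + q` (`q ∤ M`), or `α = a_q`
or `0` (`q ∣ M`), give a normalised eigenform of level `M q` with `a_q = α` and the same
coefficients at the other primes.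
-/

set_option autoImplicit false

noncomputable section

open CongruenceSubgroup ModularFormClass

namespace FermatLib.Modular

variable {M N q : ℕ}

/-- The general stabilisation step: if `a_n` satisfies the Euler factor
`1 - (α + β) X + α β X²` at `q`, then `f(τ) - β f(qτ)` has Euler factor `1 - α X`. -/
theorem exists_eigenform_stabilisation [NeZero N] {f : CuspForm (Gamma0 M) 2}
    (hf : f.IsNormalizedEigenform) (hq : q.Prime) (hMqN : M * q ∣ N)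
    (hNprimes : ∀ p : ℕ, p.Prime → p ∣ N → p ∣ M ∨ p = q) (α β : ℂ)
    (h1 : qCoeff ⇑f q = α + β)
    (hrec : ∀ r : ℕ, qCoeff ⇑f (q ^ (r + 2))
      = (α + β) * qCoeff ⇑f (q ^ (r + 1)) - α * β * qCoeff ⇑f (q ^ r)) :
    ∃ g : CuspForm (Gamma0 N) 2, g.IsNormalizedEigenform ∧ qCoeff ⇑g q = α ∧
      (∀ n : ℕ, ¬ q ∣ n → qCoeff ⇑g n = qCoeff ⇑f n) ∧
      ∀ n : ℕ, qCoeff ⇑g n
        = qCoeff ⇑f n - if q ∣ n then β * qCoeff ⇑f (n / q) else 0 := by
  haveI : NeZero q := ⟨hq.ne_zero⟩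
  let g : CuspForm (Gamma0 N) 2 :=
    levelIncl ((dvd_mul_right M q).trans hMqN) f - β • levelScale hMqN f
  have hg : ∀ n, qCoeff ⇑g n = qCoeff ⇑f n - if q ∣ n then β * qCoeff ⇑f (n / q) else 0 := by
    intro n
    rw [Basic.qCoeff_cusp_sub, Basic.qCoeff_cusp_smul, qCoeff_levelIncl, qCoeff_levelScale,
      mul_ite, mul_zero]
  have hg' : ∀ n, ¬ q ∣ n → qCoeff ⇑g n = qCoeff ⇑f n := fun n hn => by
    rw [hg, if_neg hn, sub_zero]
  have hgq : qCoeff ⇑g q = α := by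
    rw [hg, if_pos dvd_rfl, Nat.div_self hq.pos, hf.qCoeff_one, h1]; ring
  have hgs : ∀ r, qCoeff ⇑g (q ^ (r + 1)) = qCoeff ⇑f (q ^ (r + 1)) - β * qCoeff ⇑f (q ^ r) :=
    fun r => by rw [hg, if_pos (dvd_pow_self q r.succ_ne_zero), pow_succ, Nat.mul_div_cancel _ hq.pos]
  refine ⟨g, ⟨?_, ?_, ?_, ?_⟩, hgq, hg', hg⟩
  · rw [hg' 1 (fun h => hq.ne_one (Nat.dvd_one.mp h)), hf.qCoeff_one]
  · intro m n hmn
    have key : ∀ m n : ℕ, m.Coprime n → q ∣ m →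
        qCoeff ⇑g (m * n) = qCoeff ⇑g m * qCoeff ⇑g n := by
      intro m n hmn hm
      have hn : ¬ q ∣ n := fun hn => hq.ne_one (Nat.eq_one_of_dvd_coprimes hmn hm hn)
      rw [hg (m * n), hg m, hg' n hn, if_pos (hm.mul_right n), if_pos hm,
        Nat.mul_comm m n, Nat.mul_div_assoc n hm, Nat.mul_comm n, Nat.mul_comm n (m / q),
        hf.qCoeff_mul_of_coprime m n hmn,
        hf.qCoeff_mul_of_coprime (m / q) n (hmn.coprime_dvd_left (Nat.div_dvd_of_dvd hm))]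
      ring
    by_cases hm : q ∣ m
    · exact key m n hmn hm
    by_cases hn : q ∣ n
    · rw [Nat.mul_comm, mul_comm (qCoeff ⇑g m)]
      exact key n m hmn.symm hn
    rw [hg' _ (fun h => (hq.dvd_mul.mp h).elim hm hn), hg' m hm, hg' n hn]
    exact hf.qCoeff_mul_of_coprime m n hmn
  · intro p r hp hpN
    have hne : p ≠ q := fun h => hpN (h ▸ (dvd_mul_left q M).trans hMqN)
    have hn : ∀ j, ¬ q ∣ p ^ j := fun j h =>
      hne ((Nat.prime_dvd_prime_iff_eq hq hp).mp (hq.dvd_of_dvd_pow h)).symm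
    have hp' : ¬ q ∣ p := by simpa using hn 1
    rw [hg' _ (hn _), hg' _ hp', hg' _ (hn _), hg' _ (hn _)]
    exact hf.qCoeff_prime_pow_of_not_dvd p r hp
      (fun h => hpN (h.trans ((dvd_mul_right M q).trans hMqN)))
  · intro p r hp hpN
    by_cases hne : p = q
    · subst hne
      rw [hgq, hgs, hgs, hrec r]
      ring
    · have hn : ∀ j, ¬ q ∣ p ^ j := fun j h =>
        hne ((Nat.prime_dvd_prime_iff_eq hq hp).mp (hq.dvd_of_dvd_pow h)).symm
      have hp' : ¬ q ∣ p := by simpa using hn 1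
      rw [hg' _ (hn _), hg' _ hp', hg' _ (hn _)]
      exact hf.qCoeff_prime_pow_of_dvd p r hp ((hNprimes p hp hpN).resolve_right hne)

/-- Stabilisation at `q ∤ M` with a chosen root `α` of `X² - a_q X + q`. -/
theorem exists_eigenform_stabilisation_root [NeZero M] {f : CuspForm (Gamma0 M) 2}
    (hf : f.IsNormalizedEigenform) (hq : q.Prime) (hqM : ¬ q ∣ M) {α : ℂ}
    (hα : α ^ 2 - qCoeff ⇑f q * α + q = 0) :
    ∃ g : CuspForm (Gamma0 (M * q)) 2, g.IsNormalizedEigenform ∧ qCoeff ⇑g q = α ∧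
      ∀ n : ℕ, ¬ q ∣ n → qCoeff ⇑g n = qCoeff ⇑f n := by
  haveI : NeZero (M * q) := ⟨mul_ne_zero (NeZero.ne M) hq.ne_zero⟩
  obtain ⟨g, hg, hgq, hgn, -⟩ := exists_eigenform_stabilisation hf hq dvd_rfl
    (fun p hp h => (hp.dvd_mul.mp h).imp id (fun h => (Nat.prime_dvd_prime_iff_eq hp hq).mp h))
    α (qCoeff ⇑f q - α) (by ring)
    (fun r => by
      rw [hf.qCoeff_prime_pow_of_not_dvd q r hq hqM]
      linear_combination qCoeff ⇑f (q ^ r) * (-hα))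
  exact ⟨g, hg, hgq, hgn⟩

/-- Raising the level at `q ∣ M`, with `a_q` kept or made zero. -/
theorem exists_eigenform_stabilisation_of_dvd [NeZero M] {f : CuspForm (Gamma0 M) 2}
    (hf : f.IsNormalizedEigenform) (hq : q.Prime) (hqM : q ∣ M) {α : ℂ}
    (hα : α = qCoeff ⇑f q ∨ α = 0) :
    ∃ g : CuspForm (Gamma0 (M * q)) 2, g.IsNormalizedEigenform ∧ qCoeff ⇑g q = α ∧
      ∀ n : ℕ, ¬ q ∣ n → qCoeff ⇑g n = qCoeff ⇑f n := by
  haveI : NeZero (M * q) := ⟨mul_ne_zero (NeZero.ne M) hq.ne_zero⟩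
  obtain ⟨g, hg, hgq, hgn, -⟩ := exists_eigenform_stabilisation hf hq dvd_rfl
    (fun p hp h => (hp.dvd_mul.mp h).imp id (fun h => (Nat.prime_dvd_prime_iff_eq hp hq).mp h))
    α (qCoeff ⇑f q - α) (by ring)
    (fun r => by
      rw [hf.qCoeff_prime_pow_of_dvd q r hq hqM]
      rcases hα with rfl | rfl <;> ring)
  exact ⟨g, hg, hgq, hgn⟩

theorem exists_root_hecke_poly (a : ℂ) (q : ℕ) : ∃ α : ℂ, α ^ 2 - a * α + q = 0 := by
  obtain ⟨s, hs⟩ := IsAlgClosed.exists_eq_mul_self (a ^ 2 - 4 * q)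
  exact ⟨(a + s) / 2, by linear_combination (-1 / 4 : ℂ) * hs⟩

/-- An eigenform gives an eigenform at every multiple of its level, with prescribed roots of the
Hecke polynomials at the new primes and the same coefficients at all other primes. -/
theorem exists_eigenform_of_dvd_prescribed (hN : N ≠ 0) (hMN : M ∣ N)
    {f : CuspForm (Gamma0 M) 2} (hf : f.IsNormalizedEigenform) (α : ℕ → ℂ)
    (hα : ∀ ℓ : ℕ, ℓ.Prime → ℓ ∣ N → ¬ ℓ ∣ M → α ℓ ^ 2 - qCoeff ⇑f ℓ * α ℓ + ℓ = 0) :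
    ∃ g : CuspForm (Gamma0 N) 2, g.IsNormalizedEigenform ∧ ∀ ℓ : ℕ, ℓ.Prime →
      qCoeff ⇑g ℓ = if ℓ ∣ N ∧ ¬ ℓ ∣ M then α ℓ else qCoeff ⇑f ℓ := by
  obtain ⟨r, rfl⟩ := hMN
  induction r using Nat.recOnMul generalizing M f with
  | zero => simp at hN
  | one =>
    rw [mul_one]
    exact ⟨f, hf, fun ℓ _ => by simp⟩
  | prime q hq =>
    have hM0 : NeZero M := ⟨left_ne_zero_of_mul hN⟩
    by_cases hqM : q ∣ M
    · obtain ⟨g, hg, hgq, hgn⟩ := exists_eigenform_stabilisation_of_dvd hf hq hqM (Or.inl rfl)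
      refine ⟨g, hg, fun ℓ hℓ => ?_⟩
      have hno : ¬ (ℓ ∣ M * q ∧ ¬ ℓ ∣ M) := fun ⟨h, h'⟩ =>
        h' ((hℓ.dvd_mul.mp h).resolve_right
          (fun h => h' ((Nat.prime_dvd_prime_iff_eq hℓ hq).mp h ▸ hqM)))
      rw [if_neg hno]
      by_cases hℓq : q ∣ ℓ
      · obtain rfl := (Nat.prime_dvd_prime_iff_eq hq hℓ).mp hℓq
        exact hgq
      · exact hgn ℓ hℓq
    · obtain ⟨g, hg, hgq, hgn⟩ :=
        exists_eigenform_stabilisation_root hf hq hqM (hα q hq (dvd_mul_left q M) hqM)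
      refine ⟨g, hg, fun ℓ hℓ => ?_⟩
      by_cases hℓq : q ∣ ℓ
      · obtain rfl := (Nat.prime_dvd_prime_iff_eq hq hℓ).mp hℓq
        rw [if_pos ⟨dvd_mul_left q M, hqM⟩, hgq]
      · rw [if_neg, hgn ℓ hℓq]
        exact fun ⟨h, h'⟩ => hℓq ((Nat.prime_dvd_prime_iff_eq hℓ hq).mp
          ((hℓ.dvd_mul.mp h).resolve_left h') ▸ dvd_rfl)
  | mul a b iha ihb =>
    rw [← mul_assoc] at hN hα ⊢
    obtain ⟨g, hg, hgc⟩ := iha hf (left_ne_zero_of_mul hN)
      (fun ℓ hℓ h h' => hα ℓ hℓ (h.mul_right b) h')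
    obtain ⟨g', hg', hgc'⟩ := ihb hg hN (fun ℓ hℓ h h' => by
      rw [hgc ℓ hℓ, if_neg (fun hh => h' hh.1)]
      exact hα ℓ hℓ h (fun h'' => h' (h''.mul_right a)))
    refine ⟨g', hg', fun ℓ hℓ => ?_⟩
    rw [hgc' ℓ hℓ, hgc ℓ hℓ]
    by_cases hM : ℓ ∣ M
    · simp [hM, hM.mul_right a]
    · by_cases ha : ℓ ∣ M * a
      · simp [hM, ha, ha.mul_right b]
      · simp [hM, ha]

/-- An eigenform gives an eigenform at every nonzero multiple of its level, with the same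
coefficients at all primes outside the new ones. -/
theorem exists_eigenform_of_dvd (hN : N ≠ 0) (hMN : M ∣ N)
    {f : CuspForm (Gamma0 M) 2} (hf : f.IsNormalizedEigenform) :
    ∃ g : CuspForm (Gamma0 N) 2, g.IsNormalizedEigenform ∧
      ∀ ℓ : ℕ, ℓ.Prime → (ℓ ∣ M ∨ ¬ ℓ ∣ N) → qCoeff ⇑g ℓ = qCoeff ⇑f ℓ := by
  choose α hα using fun ℓ : ℕ => exists_root_hecke_poly (qCoeff ⇑f ℓ) ℓ
  obtain ⟨g, hg, hgc⟩ := exists_eigenform_of_dvd_prescribed hN hMN hf α (fun ℓ _ _ _ => hα ℓ)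
  exact ⟨g, hg, fun ℓ hℓ h => by rw [hgc ℓ hℓ, if_neg (by tauto)]⟩

theorem isModularModelOfLevel_of_dvd {W : WeierstrassCurve ℤ} (hN : N ≠ 0) (hMN : M ∣ N)
    (h : W.IsModularModelOfLevel M) : W.IsModularModelOfLevel N := by
  obtain ⟨f, hf, hc⟩ := h
  obtain ⟨g, hg, hgc⟩ := exists_eigenform_of_dvd hN hMN hf
  exact ⟨g, hg, fun p hp hgood hpN =>
    (hgc p hp (Or.inr hpN)).trans (hc p hp hgood (fun h => hpN (h.trans hMN)))⟩

theorem isResiduallyModularOfLevel_of_dvd {W : WeierstrassCurve ℤ} {p : ℕ} (hN : N ≠ 0)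
    (hMN : M ∣ N) (h : W.IsResiduallyModularOfLevel p M) : W.IsResiduallyModularOfLevel p N := by
  obtain ⟨f, 𝔪, hf, h𝔪, hp, hc⟩ := h
  obtain ⟨g, hg, hgc⟩ := exists_eigenform_of_dvd hN hMN hf
  refine ⟨g, 𝔪, hg, h𝔪, hp, fun ℓ hℓ hgood hℓN hℓp => ?_⟩
  obtain ⟨a, ha, hmem⟩ := hc ℓ hℓ hgood (fun h => hℓN (h.trans hMN)) hℓp
  exact ⟨a, by rw [ha, hgc ℓ hℓ (Or.inr hℓN)], hmem⟩

end FermatLib.Modular

namespace FermatLib.Modular

/-- Every normalised eigenform has the good eigensystem of a newform of level dividing its own. -/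
theorem exists_newform_of_eigenform {N : ℕ} (hN : N ≠ 0) {f : CuspForm (Gamma0 N) 2}
    (hf : f.IsNormalizedEigenform) :
    ∃ (M : ℕ) (g : CuspForm (Gamma0 M) 2), M ∣ N ∧ g.IsNewform ∧
      ∀ ℓ : ℕ, ℓ.Prime → ¬ ℓ ∣ N → qCoeff ⇑g ℓ = qCoeff ⇑f ℓ := by
  induction N using Nat.strong_induction_on with
  | _ N ih =>
    by_cases h : ∃ M : ℕ, M ∣ N ∧ M ≠ N ∧ f.GoodEigensystemOccursAt M
    · obtain ⟨M, hMN, hne, g, hg, hc⟩ := h
      have hM0 : M ≠ 0 := fun h0 => hN (by simpa [h0] using hMN)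
      obtain ⟨M', g', hd, hg', hc'⟩ :=
        ih M ((Nat.le_of_dvd (Nat.pos_of_ne_zero hN) hMN).lt_of_ne hne) hM0 hg
      exact ⟨M', g', hd.trans hMN, hg', fun ℓ hℓ hℓN =>
        (hc' ℓ hℓ (fun h' => hℓN (h'.trans hMN))).trans (hc ℓ hℓ hℓN)⟩
    · push Not at h
      exact ⟨N, f, dvd_rfl, ⟨hf, fun M hM hne => h M hM hne⟩, fun _ _ _ => rfl⟩

end FermatLib.Modular
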