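import Fermat.Agent.Modular.EichlerIntegral

/-!
Cusp forms are separated by the periods along cycles.
-/

set_option autoImplicit false

noncomputable section

open UpperHalfPlane hiding I
open Matrix.SpecialLinearGroup CongruenceSubgroup Filter
open scoped Manifold MatrixGroups ModularForm

namespace FermatLib.Modular

theorem denom_mul_smul_sub (g : SL(2, ℤ)) (t z : ℍ) :
    denom (mapGL ℝ g) t * denom (mapGL ℝ g) z
      * (((mapGL ℝ g • t : ℍ) : ℂ) - ((mapGL ℝ g • z : ℍ) : ℂ)) = (t : ℂ) - (z : ℂ) := by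
  have hd : ((g 0 0 : ℤ) : ℂ) * (g 1 1 : ℤ) - (g 0 1 : ℤ) * (g 1 0 : ℤ) = 1 := by
    have := g.det_coe
    rw [Matrix.det_fin_two] at this
    exact_mod_cast this
  have ht := mul_div_cancel₀ (num (mapGL ℝ g) (t : ℂ)) (denom_ne_zero (mapGL ℝ g) t)
  have hz := mul_div_cancel₀ (num (mapGL ℝ g) (z : ℂ)) (denom_ne_zero (mapGL ℝ g) z)
  rw [coe_smul_of_det_pos (det_mapGL_pos g), coe_smul_of_det_pos (det_mapGL_pos g), mul_sub]
  rw [mul_right_comm, ht, mul_assoc, hz]
  simp [num, denom]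
  linear_combination ((t : ℂ) - (z : ℂ)) * hd

/-- The kernel `(t - z) ^ w` is covariant. -/
theorem denom_pow_smul_pullW_kerPoly (w : ℕ) (g : SL(2, ℤ)) (z : ℍ) :
    pullW w (mapGL ℝ g) (denom (mapGL ℝ g) z ^ w • kerPoly w (mapGL ℝ g • z)) = kerPoly w z := by
  funext t
  rw [pullW_apply, Pi.smul_apply, smul_eq_mul, kerPoly, kerPoly, ← mul_pow, ← mul_pow, ← mul_assoc,
    denom_mul_smul_sub]

variable {N w : ℕ}

/-- A cusp form whose cycle periods vanish has coboundary periods. -/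
theorem exists_coboundary_of_periodLattice_eq_zero (f : CuspForm (Gamma0 N) ((w : ℤ) + 2))
    (hf : ∀ l ∈ periodLattice N w, l f = 0) :
    ∃ φ : polyZ w →ₗ[ℤ] ℂ, ∀ γ P, periodFun N w γ P f = φ (pullZ w γ P - P) := by
  let ev : Module.Dual ℂ (CuspForm (Gamma0 N) ((w : ℤ) + 2)) →ₗ[ℤ] ℂ :=
    AddMonoidHom.toIntLinearMap
      { toFun := fun l ↦ l f, map_zero' := rfl, map_add' := fun _ _ ↦ rfl }
  let ell : PeriodChain N w →ₗ[ℤ] ℂ := ev.comp (periodPairing N w)
  have hker : LinearMap.ker (bdryMap N w) ≤ LinearMap.ker ell := fun c hc ↦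
    hf _ ⟨c, hc, rfl⟩
  obtain ⟨φ, hφ⟩ := (Module.Baer.of_divisible ℂ).extension_property
    ((LinearMap.ker (bdryMap N w)).liftQ (bdryMap N w) le_rfl)
    (LinearMap.ker_eq_bot.mp (Submodule.ker_liftQ_eq_bot' _ _ rfl))
    ((LinearMap.ker (bdryMap N w)).liftQ ell hker)
  refine ⟨φ, fun γ P ↦ ?_⟩
  have := LinearMap.congr_fun hφ (Submodule.Quotient.mk (Finsupp.single γ P))
  rw [LinearMap.comp_apply, Submodule.liftQ_apply, Submodule.liftQ_apply, bdryMap_single] at this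
  rw [this]
  simp [ell, ev]

/-- The invariant functional: `P ↦ ∫_I^z f P + φ P`. -/
theorem exists_invariant_functional (f : CuspForm (Gamma0 N) ((w : ℤ) + 2))
    (hf : ∀ l ∈ periodLattice N w, l f = 0) :
    ∃ χ : (ℍ → ℂ) →ₗ[ℂ] ℂ, ∀ (γ : Gamma0 N) (z : ℍ), ∀ P ∈ polyC w,
      (primMul ⇑f (mapGL ℝ (γ : SL(2, ℤ)) • z) + χ) P
        = (primMul ⇑f z + χ) (pullW w (mapGL ℝ (γ : SL(2, ℤ))) P) := by
  classical
  obtain ⟨φ, hφ⟩ := exists_coboundary_of_periodLattice_eq_zero f hf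
  obtain ⟨χ, hχ⟩ := exists_linearMap_monoH w
    fun j ↦ if hj : j ≤ w then φ ⟨monoH j, monoH_mem_polyZ hj⟩ else 0
  have hagree : ∀ P : polyZ w, χ (P : ℍ → ℂ) = φ P := by
    rintro ⟨P, hP⟩
    induction hP using Submodule.span_induction with
    | mem x hx =>
      obtain ⟨j, hj, rfl⟩ := hx
      exact (hχ j hj).trans (dif_pos (Set.mem_Iic.mp hj))
    | zero => exact (map_zero χ).trans (map_zero φ).symm
    | add x y hx' hy' hx hy =>
      exact (map_add χ x y).trans ((congrArg₂ (· + ·) hx hy).trans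
        (map_add φ ⟨x, hx'⟩ ⟨y, hy'⟩).symm)
    | smul n x hx' hx =>
      exact (map_zsmul χ n x).trans ((congrArg (n • ·) hx).trans (map_smul φ n ⟨x, hx'⟩).symm)
  refine ⟨χ, fun γ z P hP ↦ ?_⟩
  rw [← LinearMap.comp_apply (primMul ⇑f z + χ)]
  refine eqOn_polyC (fun j hj ↦ ?_) hP
  set Q : polyZ w := ⟨monoH j, monoH_mem_polyZ hj⟩
  have hseg := LinearMap.congr_fun (segFun_smul γ Q z) f
  rw [LinearMap.add_apply, segFun_apply, segFun_apply, hφ γ Q, map_sub, ← hagree, ← hagree,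
    coe_pullZ] at hseg
  rw [LinearMap.comp_apply, LinearMap.add_apply, LinearMap.add_apply,
    primMul_apply (CuspFormClass.holo f) (mdifferentiable_monoH j),
    primMul_apply (CuspFormClass.holo f)
      (mdifferentiable_pullW w (det_mapGL_pos _) (mdifferentiable_monoH j))]
  linear_combination hseg

theorem Gamma0_conj_T_zpow (N : ℕ) (g : SL(2, ℤ)) :
    g * ModularGroup.T ^ (N : ℤ) * g⁻¹ ∈ Gamma0 N := by
  rw [Gamma0_mem]
  simp only [Matrix.SpecialLinearGroup.coe_mul, ModularGroup.coe_T_zpow]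
  simp [Matrix.SpecialLinearGroup.coe_inv, Matrix.adjugate_fin_two, Matrix.mul_apply,
    Fin.sum_univ_two]
  ring

/-- Cusp forms with vanishing cycle periods are zero. -/
theorem eq_zero_of_periodLattice_eq_zero [NeZero N] (f : CuspForm (Gamma0 N) ((w : ℤ) + 2))
    (hf : ∀ l ∈ periodLattice N w, l f = 0) : f = 0 := by
  obtain ⟨χ, hχ⟩ := exists_invariant_functional f hf
  have hfh : MDiff (⇑f) := CuspFormClass.holo f
  set c : ℕ → ℂ := fun j ↦ χ (monoH j) with hc
  set G : ℍ → ℂ := eichlerSum ⇑f c w with hG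
  have hGdef : ∀ z, G z = (primMul ⇑f z + χ) (kerPoly w z) := fun z ↦
    (apply_kerPoly_eq_eichlerSum hfh χ w z).symm
  have hslash : ∀ (g : SL(2, ℤ)) (z : ℍ),
      (G ∣[-(w : ℤ)] g) z = denom (mapGL ℝ g) z ^ w * G (mapGL ℝ g • z) := by
    intro g z
    rw [ModularForm.SL_slash_apply, neg_neg, zpow_natCast, mul_comm]
    rfl
  -- invariance under `Γ₀(N)`
  have hinv : ∀ γ ∈ Gamma0 N, G ∣[-(w : ℤ)] γ = G := by
    intro γ hγ
    funext z
    rw [hslash, hGdef, hGdef, ← smul_eq_mul, ← map_smul,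
      hχ ⟨γ, hγ⟩ z _ (Submodule.smul_mem _ _ (kerPoly_mem_polyC w _)),
      denom_pow_smul_pullW_kerPoly]
  -- behaviour at the cusps
  have hbdd : ∀ g : SL(2, ℤ), IsBoundedAtImInfty (G ∣[-(w : ℤ)] g) := by
    intro g
    set h : ℍ → ℂ := ⇑f ∣[((w : ℤ) + 2)] g with hh
    have hhol : MDiff h := mdifferentiable_slash_pos w (det_mapGL_pos g) hfh
    set z₁ : ℍ := mapGL ℝ g • UpperHalfPlane.I
    set χ' : (ℍ → ℂ) →ₗ[ℂ] ℂ := (primMul ⇑f z₁ + χ).comp (pullW w (mapGL ℝ g)⁻¹)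
    have heq : G ∣[-(w : ℤ)] g = eichlerSum h (fun j ↦ χ' (monoH j)) w := by
      funext z
      set K : ℍ → ℂ := denom (mapGL ℝ g) z ^ w • kerPoly w (mapGL ℝ g • z)
      have hKC : K ∈ polyC w := Submodule.smul_mem _ _ (kerPoly_mem_polyC w _)
      have hK : pullW w (mapGL ℝ g)⁻¹ (kerPoly w z) = K := by
        rw [← denom_pow_smul_pullW_kerPoly w g z,
          pullW_pullW w _ _ (det_inv_pos (det_mapGL_pos g)), mul_inv_cancel, pullW_one]
      have hKh := mdifferentiable_of_mem_polyC hKC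
      rw [hslash, hGdef, ← smul_eq_mul, ← map_smul, ← apply_kerPoly_eq_eichlerSum hhol,
        LinearMap.add_apply, LinearMap.add_apply, LinearMap.comp_apply, hK, LinearMap.add_apply,
        primMul_apply hfh hKh, primMul_apply hfh hKh,
        primMul_apply hhol (mdifferentiable_of_mem_polyC (kerPoly_mem_polyC w z)),
        primUHP_smul_SL w g hfh hKh, denom_pow_smul_pullW_kerPoly,
        show h = ⇑f ∣[((w : ℤ) + 2)] (mapGL ℝ g : GL (Fin 2) ℝ) from rfl]
      ring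
    rw [heq]
    refine isBoundedAtImInfty_eichlerSum hhol ?_ _ w (T := N)
      (by exact_mod_cast NeZero.pos N) fun z ↦ ?_
    · exact (CuspFormClass.zero_at_infty_slash f g).boundedAtFilter
    have hT : (G ∣[-(w : ℤ)] g) ∣[-(w : ℤ)] (ModularGroup.T ^ (N : ℤ)) = G ∣[-(w : ℤ)] g := by
      rw [← SlashAction.slash_mul,
        show g * ModularGroup.T ^ (N : ℤ) = g * ModularGroup.T ^ (N : ℤ) * g⁻¹ * g by group,
        SlashAction.slash_mul, hinv _ (Gamma0_conj_T_zpow N g)]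
    have := congrFun hT z
    rw [heq, ModularForm.SL_slash_apply, UpperHalfPlane.modular_T_zpow_smul] at this
    have h1 : denom (ModularGroup.T ^ (N : ℤ) : SL(2, ℤ)) z = 1 := by
      have h0 : ∀ γ : SL(2, ℤ), denom γ z = ((γ 1 0 : ℤ) : ℂ) * z + ((γ 1 1 : ℤ) : ℂ) :=
        fun γ ↦ by simp [denom]
      rw [h0, ModularGroup.coe_T_zpow]
      simp
    rw [h1] at this
    simpa using this
  -- the Eichler integral is a modular form of weight `-w`
  let F : ModularForm (Gamma0 N) (-(w : ℤ)) :=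
    { toFun := G
      slash_action_eq' := by
        rintro _ ⟨γ, hγ, rfl⟩
        exact hinv γ hγ
      holo' := mdifferentiable_eichlerSum hfh c w
      bdd_at_cusps' := fun {x} hx ↦ by
        rw [OnePoint.isBoundedAt_iff_forall_SL2Z
          (Subgroup.IsArithmetic.isCusp_iff_isCusp_SL2Z _ |>.mp hx)]
        exact fun g _ ↦ hbdd g }
  obtain ⟨a, ha⟩ : ∃ a, ∀ z, G z = a := by
    rcases Nat.eq_zero_or_pos w with hw | hw
    · subst hw
      obtain ⟨a, ha⟩ := ModularForm.eq_const_of_weight_zero (𝒢 := (Gamma0 N : Subgroup (GL (Fin 2) ℝ)))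
        { toFun := ⇑F
          slash_action_eq' := fun γ hγ ↦ by simpa using F.slash_action_eq' γ hγ
          holo' := F.holo'
          bdd_at_cusps' := fun {x} hx ↦ by simpa using F.bdd_at_cusps' hx }
      exact ⟨a, fun z ↦ congrFun ha z⟩
    · refine ⟨0, fun z ↦ ?_⟩
      have := ModularForm.isZero_of_neg_weight (show -(w : ℤ) < 0 by omega) F
      exact congrArg (fun F : ModularForm (Gamma0 N) (-(w : ℤ)) ↦ F z) this
  exact DFunLike.ext' (eq_zero_of_eichlerSum_eq_const hfh c w ha)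

end FermatLib.Modular

end
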