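import Fermat.Agent.Modular.HeckePeriods
import Fermat.Agent.Modular.PeriodInjective
import Fermat.Prelude.Def_CuspForm_HeckeAlgebra

/-!
The Hecke algebra of cusp forms on `Γ₀(N)` is a finite `ℤ`-module, in every weight.
-/

set_option autoImplicit false

noncomputable section

open UpperHalfPlane hiding I
open Matrix.SpecialLinearGroup CongruenceSubgroup

namespace FermatLib.Modular

variable {V : Type*} [AddCommGroup V] [Module ℂ V]

/-- Endomorphisms whose transpose preserves a lattice of functionals. -/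
def dualStabilizer (L : Submodule ℤ (Module.Dual ℂ V)) : Subalgebra ℤ (Module.End ℂ V) where
  carrier := {T | ∀ l ∈ L, T.dualMap l ∈ L}
  mul_mem' {S T} hS hT l hl := hT _ (hS l hl)
  add_mem' {S T} hS hT l hl := by
    have h : (S + T).dualMap l = S.dualMap l + T.dualMap l := by ext v; simp
    rw [h]
    exact add_mem (hS l hl) (hT l hl)
  algebraMap_mem' n l hl := by
    have h : (algebraMap ℤ (Module.End ℂ V) n).dualMap l = n • l := by
      ext v
      rw [LinearMap.dualMap_apply, Algebra.algebraMap_eq_smul_one, LinearMap.smul_apply,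
        Module.End.one_apply, map_zsmul, LinearMap.smul_apply]
    rw [h]
    exact L.smul_mem n hl

/-- A separating finitely generated lattice of functionals forces finiteness. -/
theorem finite_of_le_dualStabilizer (L : Submodule ℤ (Module.Dual ℂ V)) (hfg : L.FG)
    (hsep : ∀ v, (∀ l ∈ L, l v = 0) → v = 0) (A : Subalgebra ℤ (Module.End ℂ V))
    (hA : A ≤ dualStabilizer L) : Module.Finite ℤ A := by
  have : Module.Finite ℤ L := Module.Finite.of_fg hfg
  have : Module.IsTorsionFree ℤ (Module.Dual ℂ V) :=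
    .of_smul_eq_zero fun n x hx ↦ by
      rw [← Int.cast_smul_eq_zsmul ℂ] at hx
      exact (smul_eq_zero.mp hx).imp_left fun h ↦ by exact_mod_cast h
  have : Module.Free ℤ L := Module.free_of_finite_type_torsion_free'
  let Φ : A →ₗ[ℤ] Module.End ℤ L := AddMonoidHom.toIntLinearMap
    { toFun := fun T ↦ (((T : Module.End ℂ V).dualMap).restrictScalars ℤ).restrict
        fun l hl ↦ hA T.2 l hl
      map_zero' := LinearMap.ext fun l ↦ Subtype.ext (LinearMap.ext fun v ↦ by simp)
      map_add' := fun S T ↦ LinearMap.ext fun l ↦ Subtype.ext (LinearMap.ext fun v ↦ by simp) }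
  refine Module.Finite.of_injective Φ ?_
  rw [injective_iff_map_eq_zero]
  intro T hT
  refine Subtype.ext (LinearMap.ext fun v ↦ hsep _ fun l hl ↦ ?_)
  exact LinearMap.congr_fun (congrArg Subtype.val (LinearMap.congr_fun hT ⟨l, hl⟩)) v

theorem neg_one_mem_Gamma0_GL (N : ℕ) :
    (-1 : GL (Fin 2) ℝ) ∈ (Gamma0 N : Subgroup (GL (Fin 2) ℝ)) :=
  ⟨-1, by simp [Gamma0_mem], by ext; simp⟩

theorem cuspForm_eq_zero_of_weight_le_one {N : ℕ} [NeZero N] {k : ℤ} (hk : k ≤ 1)
    (f : CuspForm (Gamma0 N) k) : f = 0 := by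
  let F : ModularForm (Gamma0 N) k :=
    { toFun := ⇑f
      slash_action_eq' := f.slash_action_eq'
      holo' := f.holo'
      bdd_at_cusps' := fun hc g hg ↦ (f.zero_at_cusps' hc g hg).boundedAtFilter }
  suffices h : ∀ z, F z = 0 from DFunLike.ext _ _ h
  rcases lt_trichotomy k 0 with hk' | rfl | hk'
  · intro z
    rw [ModularForm.isZero_of_neg_weight hk' F]
    rfl
  · obtain ⟨a, ha⟩ := ModularForm.eq_const_of_weight_zero F
    intro z
    have h0 : IsZeroAtImInfty (⇑f) := CuspFormClass.zero_at_infty f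
    rw [show (⇑f : ℍ → ℂ) = Function.const ℍ a from ha] at h0
    have : a = 0 := tendsto_nhds_unique tendsto_const_nhds h0
    simpa [this] using congrFun ha z
  · obtain rfl : k = 1 := by omega
    intro z
    rw [ModularForm.eq_zero_of_neg_one_mem (neg_one_mem_Gamma0_GL N) odd_one F]
    rfl

/-- The Hecke algebra is finite over `ℤ`, in every weight. -/
theorem heckeAlgebra_moduleFinite (N : ℕ) [NeZero N] (k : ℤ) (S : Set ℕ) :
    Module.Finite ℤ (CuspForm.heckeAlgebra N k S) := by
  rcases le_or_gt k 1 with hk | hk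
  · have : Subsingleton (CuspForm (Gamma0 N) k) :=
      ⟨fun a b ↦ (cuspForm_eq_zero_of_weight_le_one hk a).trans
        (cuspForm_eq_zero_of_weight_le_one hk b).symm⟩
    have : Subsingleton (Module.End ℂ (CuspForm (Gamma0 N) k)) :=
      ⟨fun a b ↦ LinearMap.ext fun _ ↦ Subsingleton.elim _ _⟩
    infer_instance
  obtain ⟨w, rfl⟩ : ∃ w : ℕ, k = (w : ℤ) + 2 := ⟨(k - 2).toNat, by omega⟩
  refine finite_of_le_dualStabilizer (periodLattice N w) (periodLattice_fg N w)
    (fun f hf ↦ eq_zero_of_periodLattice_eq_zero f hf) _ (Algebra.adjoin_le ?_)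
  rintro T (⟨ℓ, hℓ, hℓN, -, rfl⟩ | ⟨q, hqN, -, -, rfl⟩) l hl
  · exact heckeTLin_dualMap_mem_periodLattice hℓ hℓN hl
  · exact heckeULin_dualMap_mem_periodLattice hqN hl

end FermatLib.Modular

end
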