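import Fermat.Prelude.Def_ModularCurve_HeckeOperator
import Fermat.Prelude.Thm_ModularCurve_coeffMap_qExpand
import Mathlib.RingTheory.AlgebraicIndependent.Transcendental
import Mathlib.RingTheory.AlgebraicIndependent.Adjoin

/-!
The function fields of `X₀(M)` over an algebraically closed field as subfields of Laurent series:
degeneracy embeddings between arbitrary levels, generators, and transcendence of `j`.
-/

set_option autoImplicit false
set_option linter.style.haveILetI false

noncomputable section

namespace FermatLib.Modular.Corr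

open ModularCurve IntermediateField HahnSeries

variable (L : Type*) [Field L] [Algebra ℚ L]

/-- `F_M`, the function field of `X₀(M)` over `L`. -/
abbrev fieldBar (M : ℕ) : IntermediateField L (LaurentSeries L) :=
  laurentBaseChange L (modularFunctionFieldFull M)

/-- `q ↦ q ^ d` as an `L`-algebra endomorphism of Laurent series. -/
def qExpandBar (d : ℕ) [NeZero d] : LaurentSeries L →ₐ[L] LaurentSeries L where
  __ := qExpand L d
  commutes' a := by
    show qExpand L d (algebraMap L (LaurentSeries L) a) = algebraMap L (LaurentSeries L) a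
    rw [algebraMap_laurentSeries_eq_single, qExpand_single, mul_zero]

omit [Algebra ℚ L] in
@[simp]
theorem qExpandBar_apply (d : ℕ) [NeZero d] (x : LaurentSeries L) :
    qExpandBar L d x = qExpand L d x :=
  rfl

/-- The `q`-expansion of `j` with coefficients in `L`. -/
def jBar : LaurentSeries L := coeffEmb L jq

variable {L}

theorem fieldBar_le {M M' : ℕ} [NeZero M] [NeZero M'] (h : M ∣ M') :
    fieldBar L M ≤ fieldBar L M' :=
  IntermediateField.adjoin.mono L _ _ (Set.image_mono (full_degeneracy_le h))

theorem qExpand_mem_fieldBar {M M' d : ℕ} [NeZero M] [NeZero M'] [NeZero d] (h : M * d ∣ M')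
    {x : LaurentSeries L} (hx : x ∈ fieldBar L M) : qExpand L d x ∈ fieldBar L M' := by
  haveI : NeZero (M * d) := ⟨mul_ne_zero (NeZero.ne M) (NeZero.ne d)⟩
  exact fieldBar_le h (heckeBetaBar L M d ⟨x, hx⟩).2

variable (L) in
/-- Forgetful degeneracy embedding. -/
def barIncl {M M' : ℕ} [NeZero M] [NeZero M'] (h : M ∣ M') : fieldBar L M →ₐ[L] fieldBar L M' :=
  IntermediateField.inclusion (fieldBar_le h)

variable (L) in
/-- The degeneracy embedding `f(τ) ↦ f(dτ)`. -/
def barBeta {M M' : ℕ} [NeZero M] [NeZero M'] (d : ℕ) [NeZero d] (h : M * d ∣ M') :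
    fieldBar L M →ₐ[L] fieldBar L M' :=
  ((qExpandBar L d).comp (fieldBar L M).val).codRestrict (fieldBar L M').toSubalgebra
    (fun x => qExpand_mem_fieldBar h x.2)

@[simp]
theorem coe_barIncl {M M' : ℕ} [NeZero M] [NeZero M'] (h : M ∣ M') (x : fieldBar L M) :
    (barIncl L h x : LaurentSeries L) = x :=
  IntermediateField.coe_inclusion (fieldBar_le h) x

@[simp]
theorem coe_barBeta {M M' : ℕ} [NeZero M] [NeZero M'] (d : ℕ) [NeZero d] (h : M * d ∣ M')
    (x : fieldBar L M) : (barBeta L d h x : LaurentSeries L) = qExpand L d x :=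
  rfl

theorem heckeAlphaBar_eq_barIncl (N l : ℕ) [NeZero N] [NeZero l] :
    haveI : NeZero (N * l) := ⟨mul_ne_zero (NeZero.ne N) (NeZero.ne l)⟩
    heckeAlphaBar L N l = barIncl L (dvd_mul_right N l) :=
  AlgHom.ext fun x => Subtype.ext ((coe_heckeAlphaBar N l x).trans (coe_barIncl _ x).symm)

theorem heckeBetaBar_eq_barBeta (N l : ℕ) [NeZero N] [NeZero l] :
    haveI : NeZero (N * l) := ⟨mul_ne_zero (NeZero.ne N) (NeZero.ne l)⟩
    heckeBetaBar L N l = barBeta L l dvd_rfl :=
  AlgHom.ext fun _ => Subtype.ext rfl

section Generators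

theorem coeffEmb_qExpand (d : ℕ) [NeZero d] (x : LaurentSeries ℚ) :
    coeffEmb L (qExpand ℚ d x) = qExpand L d (coeffEmb L x) :=
  ModularCurve.coeffMap_qExpand _ d x

theorem coeffEmb_mem_adjoin_image {S : Set (LaurentSeries ℚ)} {x : LaurentSeries ℚ}
    (hx : x ∈ IntermediateField.adjoin ℚ S) :
    coeffEmb L x ∈ IntermediateField.adjoin L (⇑(coeffEmb L) '' S) := by
  induction hx using IntermediateField.adjoin_induction with
  | mem y hy => exact subset_adjoin L _ ⟨y, hy, rfl⟩
  | algebraMap c =>
      rw [algebraMap_apply_eq_single, coeffEmb, coeffMap_single,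
        ← algebraMap_laurentSeries_eq_single]
      exact IntermediateField.algebraMap_mem _ _
  | add y z _ _ hy hz => rw [map_add]; exact add_mem hy hz
  | inv y _ hy => rw [map_inv₀]; exact inv_mem hy
  | mul y z _ _ hy hz => rw [map_mul]; exact mul_mem hy hz

theorem jBar_mem_fieldBar (M : ℕ) : jBar L ∈ fieldBar L M := by
  refine coeffEmb_mem_laurentBaseChange L ?_
  simpa [qExpand_one_apply] using jqd_mem_full M (one_dvd M)

theorem qExpand_jBar_mem_fieldBar {M d : ℕ} [NeZero d] (h : d ∣ M) :
    qExpand L d (jBar L) ∈ fieldBar L M := by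
  rw [jBar, ← coeffEmb_qExpand]
  exact coeffEmb_mem_laurentBaseChange L (jqd_mem_full M h)

theorem adjoin_jBar_le (M : ℕ) : L⟮jBar L⟯ ≤ fieldBar L M :=
  IntermediateField.adjoin_simple_le_iff.mpr (jBar_mem_fieldBar M)

/-- Under generation by `j` and `j_M`, `F_M = L(j, j_M)`. -/
theorem fieldBar_eq_adjoin_pair (M : ℕ) [NeZero M] (hgen : FunctionFieldGeneration M) :
    fieldBar L M = IntermediateField.adjoin L {jBar L, qExpand L M (jBar L)} := by
  apply le_antisymm
  · rw [fieldBar, laurentBaseChange, IntermediateField.adjoin_le_iff]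
    rintro _ ⟨y, hy, rfl⟩
    have hle : modularFunctionFieldFull M ≤ IntermediateField.adjoin ℚ {jq, qExpand ℚ M jq} := by
      rw [modularFunctionFieldFull, IntermediateField.adjoin_le_iff]
      rintro x ⟨d, hne, hd, rfl⟩
      exact hgen d hd hne
    have := coeffEmb_mem_adjoin_image (L := L) (hle hy)
    rwa [Set.image_pair, coeffEmb_qExpand] at this
  · rw [IntermediateField.adjoin_le_iff]
    rintro x (rfl | rfl)
    · exact jBar_mem_fieldBar M
    · exact qExpand_jBar_mem_fieldBar dvd_rfl

end Generators

section Transcendence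

theorem transcendental_jBar : Transcendental L (jBar L) := by
  intro h
  obtain ⟨p, hp0, hp⟩ := h
  have hc : (Polynomial.aeval (jBar L) p).coeff (-(p.natDegree : ℤ)) = p.leadingCoeff := by
    rw [Polynomial.aeval_eq_sum_range, HahnSeries.coeff_sum, Finset.sum_eq_single p.natDegree]
    · rw [Algebra.smul_def, algebraMap_laurentSeries_eq_single, HahnSeries.coeff_single_mul,
        sub_zero, jBar, ← map_pow, coeffEmb_coeff, coeff_jq_pow_self, map_one, mul_one,
        Polynomial.leadingCoeff]
    · intro i hi hne
      rw [Algebra.smul_def, algebraMap_laurentSeries_eq_single, HahnSeries.coeff_single_mul,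
        sub_zero, jBar, ← map_pow, coeffEmb_coeff, coeff_jq_pow_of_lt, map_zero, mul_zero]
      have := Finset.mem_range.mp hi
      omega
    · simp
  rw [hp, HahnSeries.coeff_zero] at hc
  exact hp0 (Polynomial.leadingCoeff_eq_zero.mp hc.symm)

theorem transcendental_qExpand_jBar (d : ℕ) [NeZero d] :
    Transcendental L (qExpand L d (jBar L)) := by
  intro h
  refine transcendental_jBar (L := L) ?_
  obtain ⟨p, hp0, hp⟩ := h
  refine ⟨p, hp0, (qExpand_injective (R := L) d) ?_⟩
  rw [map_zero, ← hp, ← qExpandBar_apply, ← qExpandBar_apply, Polynomial.aeval_algHom_apply]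

omit [Algebra ℚ L] in
/-- The exchange property for two elements. -/
theorem isAlgebraic_adjoin_exchange {E : Type*} [Field E] [Algebra L E] {x y : E}
    (hy : Transcendental L y) (h : IsAlgebraic L⟮x⟯ y) : IsAlgebraic L⟮y⟯ x := by
  by_contra hx
  rw [IntermediateField.isAlgebraic_adjoin_iff] at h
  have hx' : Transcendental (Algebra.adjoin L ({y} : Set E)) x := fun h' =>
    hx (IntermediateField.isAlgebraic_adjoin_iff.mpr h')
  have hy' : AlgebraicIndependent L fun _ : Unit => y :=
    algebraicIndependent_unique_type_iff.mpr hy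
  have hxy : AlgebraicIndependent L fun o : Option Unit => o.elim x fun _ => y := by
    refine (hy'.option_iff_transcendental x).mpr ?_
    rwa [Set.range_const]
  have := hxy.transcendental_adjoin (s := {none}) (i := some ()) (by simp)
  rw [Set.image_singleton] at this
  exact this h

end Transcendence

end FermatLib.Modular.Corr
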