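import Fermat.Prelude.Def_AlgebraicCurve_Correspondence
import Fermat.Agent.Modular.CorrField
import Fermat.Agent.Modular.Gamma0Coset
import Mathlib.FieldTheory.Relrank
import Mathlib.FieldTheory.IntermediateField.Adjoin.Basic

/-!
Degrees and finiteness of the degeneracy embeddings of the fields `F_M`.
-/

set_option autoImplicit false
set_option linter.style.haveILetI false
set_option synthInstance.maxHeartbeats 200000

noncomputable section

namespace FermatLib.Modular.Corr

open ModularCurve IntermediateField AlgebraicCurve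

variable {L : Type*} [Field L] [Algebra ℚ L]

variable (L) in
/-- What is used about the field of `X₀(M)`: generation by `j, j_M`, and its degree over `L(j)`. -/
structure LevelFacts : Prop where
  generation : ∀ (M : ℕ) [NeZero M], FunctionFieldGeneration M
  degree : ∀ (M : ℕ) [NeZero M],
    IntermediateField.relfinrank L⟮jBar L⟯ (fieldBar L M) = dedekindPsi M

theorem dedekindPsi_pos' (M : ℕ) [NeZero M] : 0 < dedekindPsi M :=
  FermatLib.Modular.dedekindPsi_pos

theorem dedekindPsi_mul_prime (N : ℕ) [NeZero N] {p : ℕ} (hp : p.Prime) :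
    dedekindPsi (N * p) = (if p ∣ N then p else p + 1) * dedekindPsi N := by
  obtain ⟨a, m, hm, rfl⟩ := Nat.exists_eq_pow_mul_and_not_dvd (NeZero.ne N) p hp.ne_one
  have hc : ∀ k, (p ^ k).Coprime m := fun k => (hp.coprime_iff_not_dvd.mpr hm).pow_left k
  rw [show p ^ a * m * p = p ^ (a + 1) * m by ring, FermatLib.Modular.dedekindPsi_mul (hc _),
    FermatLib.Modular.dedekindPsi_prime_pow hp]
  rcases a with _ | b
  · rw [pow_zero, one_mul, if_neg hm]
    ring
  · rw [if_pos (Dvd.dvd.mul_right (dvd_pow_self p b.succ_ne_zero) m),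
      FermatLib.Modular.dedekindPsi_mul (hc _), FermatLib.Modular.dedekindPsi_prime_pow hp]
    ring

omit [Algebra ℚ L] in
theorem isIntegral_adjoin_trans {E : Type*} [Field E] [Algebra L E] {x y z : E}
    (hx : IsIntegral L⟮y⟯ x) (hz : IsAlgebraic L⟮x⟯ z) : IsIntegral L⟮y⟯ z := by
  haveI := adjoin.finiteDimensional hx
  have hle : L⟮x⟯ ≤ (L⟮y⟯⟮x⟯).restrictScalars L :=
    adjoin_simple_le_iff.mpr (mem_adjoin_simple_self _ x)
  obtain ⟨p, hp0, hp⟩ := hz
  let i : L⟮x⟯ →+* L⟮y⟯⟮x⟯ :=
    { toFun := fun a => ⟨a, hle a.2⟩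
      map_one' := rfl
      map_mul' := fun _ _ => rfl
      map_zero' := rfl
      map_add' := fun _ _ => rfl }
  have halg : IsAlgebraic L⟮y⟯⟮x⟯ z := by
    refine ⟨p.map i, (Polynomial.map_ne_zero_iff i.injective).mpr hp0, ?_⟩
    rw [Polynomial.aeval_def, Polynomial.eval₂_map]
    exact hp
  exact (IsAlgebraic.restrictScalars L⟮y⟯ halg).isIntegral

section Abstract

variable {E : Type*} [Field E] [Algebra L E] {A B : IntermediateField L E}

omit [Algebra ℚ L] in
theorem finrankAlong_eq_relfinrank (φ : A →ₐ[L] B) (hle : A ≤ B)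
    (hφ : ∀ x, (φ x : E) = x) : finrankAlong L φ = relfinrank A B := by
  rw [relfinrank_eq_finrank_of_le hle]
  letI := algebraAlong φ
  refine Algebra.finrank_eq_of_equiv_equiv (RingEquiv.refl _)
    (RingEquiv.refl _ : B ≃+* extendScalars hle) ?_
  exact RingHom.ext fun x => Subtype.ext (hφ x).symm

omit [Algebra ℚ L] in
theorem finrankAlong_eq_relfinrank_map (f : E →ₐ[L] E) (φ : A →ₐ[L] B)
    (hφ : ∀ x, (φ x : E) = f x) : finrankAlong L φ = relfinrank (A.map f) B := by
  have hle : A.map f ≤ B := by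
    rintro _ ⟨x, hx, rfl⟩
    exact (hφ ⟨x, hx⟩) ▸ (φ ⟨x, hx⟩).2
  rw [relfinrank_eq_finrank_of_le hle]
  letI := algebraAlong φ
  refine Algebra.finrank_eq_of_equiv_equiv (A.equivMap f).toRingEquiv
    (RingEquiv.refl _ : B ≃+* extendScalars hle) ?_
  exact RingHom.ext fun x => Subtype.ext (hφ x).symm

end Abstract

section Along

variable {M M' : ℕ} [NeZero M] [NeZero M']

theorem finrankAlong_barIncl_eq_relfinrank (h : M ∣ M') :
    finrankAlong L (barIncl L h) = relfinrank (fieldBar L M) (fieldBar L M') :=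
  finrankAlong_eq_relfinrank _ (fieldBar_le h) (fun x => coe_barIncl h x)

theorem finrankAlong_barBeta_eq_relfinrank (d : ℕ) [NeZero d] (h : M * d ∣ M') :
    finrankAlong L (barBeta L d h) =
      relfinrank ((fieldBar L M).map (qExpandBar L d)) (fieldBar L M') :=
  finrankAlong_eq_relfinrank_map (qExpandBar L d) _
    (fun x => (coe_barBeta d h x).trans (qExpandBar_apply L d _).symm)

theorem finrankAlong_barIncl_mul (hL : LevelFacts L) (h : M ∣ M') :
    finrankAlong L (barIncl L h) * dedekindPsi M = dedekindPsi M' := by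
  rw [← hL.degree M, ← hL.degree M', finrankAlong_barIncl_eq_relfinrank h, mul_comm]
  exact relfinrank_mul_relfinrank (adjoin_jBar_le M) (fieldBar_le h)

omit [Algebra ℚ L] in
theorem finiteAlong_of_finrankAlong_pos {F F' : Type*} [Field F] [Field F'] [Algebra L F]
    [Algebra L F'] {φ : F →ₐ[L] F'} (h : 0 < finrankAlong L φ) : FiniteAlong L φ := by
  letI := algebraAlong φ
  exact Module.finite_of_finrank_pos h

theorem finrankAlong_barIncl_pos (hL : LevelFacts L) (h : M ∣ M') :
    0 < finrankAlong L (barIncl L h) := by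
  refine Nat.pos_of_ne_zero fun h0 => ?_
  have := finrankAlong_barIncl_mul hL h
  rw [h0, zero_mul] at this
  exact absurd this.symm (dedekindPsi_pos' M').ne'

theorem finiteAlong_barIncl (hL : LevelFacts L) (h : M ∣ M') : FiniteAlong L (barIncl L h) :=
  finiteAlong_of_finrankAlong_pos (finrankAlong_barIncl_pos hL h)

theorem isAlgebraic_of_mem_fieldBar (hL : LevelFacts L) {x : LaurentSeries L}
    (hx : x ∈ fieldBar L M) : IsAlgebraic L⟮jBar L⟯ x := by
  have hpos : 0 < Module.finrank L⟮jBar L⟯ (extendScalars (adjoin_jBar_le (L := L) M)) := by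
    rw [← relfinrank_eq_finrank_of_le, hL.degree M]
    exact dedekindPsi_pos' M
  haveI := Module.finite_of_finrank_pos hpos
  have := IsAlgebraic.of_finite L⟮jBar L⟯
    (⟨x, hx⟩ : extendScalars (adjoin_jBar_le (L := L) M))
  exact this.algHom (extendScalars (adjoin_jBar_le (L := L) M)).val

/-- `F_{M'}` is finite over `L(j_d)` for `d ∣ M'`. -/
theorem relfinrank_adjoin_qExpand_pos (hL : LevelFacts L) {d : ℕ} [NeZero d] (hd : d ∣ M') :
    0 < relfinrank L⟮qExpand L d (jBar L)⟯ (fieldBar L M') := by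
  set y := qExpand L d (jBar L) with hy
  have hyM : y ∈ fieldBar L M' := qExpand_jBar_mem_fieldBar hd
  have hle : L⟮y⟯ ≤ fieldBar L M' := adjoin_simple_le_iff.mpr hyM
  set E := IntermediateField.adjoin L⟮y⟯ {jBar L, qExpand L M' (jBar L)} with hE
  have hj : IsIntegral L⟮y⟯ (jBar L) :=
    (isAlgebraic_adjoin_exchange (transcendental_qExpand_jBar d)
      (isAlgebraic_of_mem_fieldBar hL hyM)).isIntegral
  have hjM : IsIntegral L⟮y⟯ (qExpand L M' (jBar L)) := by
    exact isIntegral_adjoin_trans hj (isAlgebraic_of_mem_fieldBar hL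
      (qExpand_jBar_mem_fieldBar (L := L) (dvd_refl M')))
  haveI : FiniteDimensional L⟮y⟯ E :=
    IntermediateField.finiteDimensional_adjoin (by rintro x (rfl | rfl); exacts [hj, hjM])
  have hEeq : E = extendScalars hle := by
    apply le_antisymm
    · rw [hE, adjoin_le_iff]
      rintro x (rfl | rfl)
      · exact jBar_mem_fieldBar M'
      · exact qExpand_jBar_mem_fieldBar dvd_rfl
    · intro x hx
      have hBle : fieldBar L M' ≤ E.restrictScalars L := by
        rw [fieldBar_eq_adjoin_pair M' (hL.generation M'), adjoin_le_iff]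
        exact fun z hz => IntermediateField.subset_adjoin L⟮y⟯ _ hz
      exact hBle hx
  rw [relfinrank_eq_finrank_of_le hle, ← hEeq]
  exact Module.finrank_pos

theorem finiteAlong_barBeta (hL : LevelFacts L) (d : ℕ) [NeZero d] (h : M * d ∣ M') :
    FiniteAlong L (barBeta L d h) := by
  refine finiteAlong_of_finrankAlong_pos ?_
  rw [finrankAlong_barBeta_eq_relfinrank d h]
  refine Nat.pos_of_ne_zero fun h0 => ?_
  have hle : L⟮qExpand L d (jBar L)⟯ ≤ (fieldBar L M).map (qExpandBar L d) :=
    adjoin_simple_le_iff.mpr ⟨jBar L, jBar_mem_fieldBar M, rfl⟩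
  have hle' : (fieldBar L M).map (qExpandBar L d) ≤ fieldBar L M' := by
    rintro _ ⟨x, hx, rfl⟩
    exact qExpand_mem_fieldBar h hx
  have hmul := relfinrank_mul_relfinrank hle hle'
  rw [h0, mul_zero] at hmul
  exact absurd hmul.symm
    (relfinrank_adjoin_qExpand_pos hL ((dvd_mul_left d M).trans h)).ne'

end Along

end FermatLib.Modular.Corr
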