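import Fermat.Prelude.Def_AlgebraicCurve_DivisorPushPull

/-!
Weak approximation for finitely many places of a function field, in the form needed for the
base change formula of divisor correspondences: a function with order one at a given place and
order zero at finitely many other places.
-/

set_option autoImplicit false

namespace FermatLib.Modular.Corr

open AlgebraicCurve

variable {K F : Type*} [Field K] [Field F] [Algebra K F]

theorem ord_nonneg_iff_mem (v : Place K F) {f : F} (hf : f ≠ 0) :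
    0 ≤ v.ord f ↔ f ∈ v.toValuationSubring := by
  obtain ⟨π, hπ⟩ := IsDiscreteValuationRing.exists_irreducible v.toValuationSubring
  constructor
  · intro h
    obtain ⟨u, hu⟩ := v.exists_unit_mul_zpow hf hπ
    rw [hu, show v.ord f = (((v.ord f).toNat : ℕ) : ℤ) from (Int.toNat_of_nonneg h).symm,
      zpow_natCast]
    exact mul_mem (u : v.toValuationSubring).2 (pow_mem (π : v.toValuationSubring).2 _)
  · intro h
    obtain ⟨n, u, hu⟩ := IsDiscreteValuationRing.eq_unit_mul_pow_irreducible
      (x := (⟨f, h⟩ : v.toValuationSubring)) (by simpa [Subtype.ext_iff] using hf) hπ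
    have hcoe : f = ((u : v.toValuationSubring) : F) * ((π : F) ^ (n : ℤ)) := by
      have h' := congrArg Subtype.val hu
      push_cast at h'
      rw [zpow_natCast]
      exact h'
    rw [hcoe, v.ord_unit_smul_zpow u hπ (n : ℤ)]
    exact Int.natCast_nonneg n

theorem exists_ord_eq_one (v : Place K F) : ∃ f : F, f ≠ 0 ∧ v.ord f = 1 := by
  obtain ⟨π, hπ⟩ := IsDiscreteValuationRing.exists_irreducible v.toValuationSubring
  exact ⟨π, by simpa [ne_eq, ZeroMemClass.coe_eq_zero] using hπ.ne_zero,
    v.ord_coe_irreducible hπ⟩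

theorem ord_neg (v : Place K F) (f : F) : v.ord (-f) = v.ord f := by
  simp only [Place.ord, Valuation.map_neg]

theorem le_ord_add (v : Place K F) {f g : F} (hf : f ≠ 0) (hg : g ≠ 0) (hfg : f + g ≠ 0) :
    min (v.ord f) (v.ord g) ≤ v.ord (f + g) := by
  have h := v.adicValuation.map_add f g
  simp only [Place.ord]
  rcases le_total (v.adicValuation f) (v.adicValuation g) with h' | h'
  · rw [max_eq_right h'] at h
    have := (WithZero.log_le_log (v.adicValuation_ne_zero hfg) (v.adicValuation_ne_zero hg)).mpr h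
    exact le_trans (min_le_right _ _) (by omega)
  · rw [max_eq_left h'] at h
    have := (WithZero.log_le_log (v.adicValuation_ne_zero hfg) (v.adicValuation_ne_zero hf)).mpr h
    exact le_trans (min_le_left _ _) (by omega)

theorem ord_add_eq_of_lt (v : Place K F) {f g : F} (hf : f ≠ 0) (hg : g ≠ 0)
    (h : v.ord f < v.ord g) : f + g ≠ 0 ∧ v.ord (f + g) = v.ord f := by
  have hne : f + g ≠ 0 := by
    intro h0
    rw [add_eq_zero_iff_eq_neg] at h0
    rw [h0, ord_neg] at h
    exact lt_irrefl _ h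
  refine ⟨hne, le_antisymm ?_ ?_⟩
  · have h1 := le_ord_add v hne (neg_ne_zero.mpr hg) (by simpa using hf)
    rw [ord_neg, add_neg_cancel_right] at h1
    rcases min_le_iff.mp h1 with h2 | h2 <;> omega
  · exact le_trans (le_min le_rfl h.le) (le_ord_add v hf hg hne)

theorem exists_mem_not_mem {v w : Place K F} (h : v ≠ w) :
    ∃ x : F, x ≠ 0 ∧ 0 ≤ v.ord x ∧ w.ord x < 0 := by
  by_contra hcon
  simp only [not_exists, not_and, not_lt] at hcon
  apply h
  refine Place.ext (SetLike.ext fun y => ?_)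
  rcases eq_or_ne y 0 with rfl | hy
  · simp
  rw [← ord_nonneg_iff_mem v hy, ← ord_nonneg_iff_mem w hy]
  refine ⟨hcon y hy, fun hwy => ?_⟩
  by_contra hvy
  obtain ⟨t, ht0, ht⟩ := exists_ord_eq_one w
  -- y⁻¹ is integral at v, hence at w, so y is a unit at w
  have h1 := hcon y⁻¹ (inv_ne_zero hy) (by rw [v.ord_inv]; omega)
  rw [w.ord_inv] at h1
  -- a high power of y⁻¹ times t⁻¹ is integral at v but not at w
  set n : ℕ := (v.ord t).natAbs
  have hv1 : v.ord y⁻¹ ≥ 1 := by rw [v.ord_inv]; omega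
  have h2 := hcon ((y⁻¹) ^ (n : ℤ) * t⁻¹) (mul_ne_zero (zpow_ne_zero _ (inv_ne_zero hy))
    (inv_ne_zero ht0)) (by
      rw [v.ord_mul (zpow_ne_zero _ (inv_ne_zero hy)) (inv_ne_zero ht0), v.ord_zpow, v.ord_inv t]
      have : (n : ℤ) ≤ (n : ℤ) * v.ord y⁻¹ := le_mul_of_one_le_right (by omega) hv1
      omega)
  rw [w.ord_mul (zpow_ne_zero _ (inv_ne_zero hy)) (inv_ne_zero ht0), w.ord_zpow, w.ord_inv t,
    w.ord_inv y, show w.ord y = 0 by omega, ht] at h2
  simp at h2

theorem exists_pos_neg {v w : Place K F} (h : v ≠ w) :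
    ∃ z : F, z ≠ 0 ∧ 0 < v.ord z ∧ w.ord z < 0 := by
  obtain ⟨x, hx0, hxv, hxw⟩ := exists_mem_not_mem h
  obtain ⟨y, hy0, hyw, hyv⟩ := exists_mem_not_mem (Ne.symm h)
  refine ⟨x * y⁻¹, mul_ne_zero hx0 (inv_ne_zero hy0), ?_, ?_⟩
  · rw [v.ord_mul hx0 (inv_ne_zero hy0), v.ord_inv]; omega
  · rw [w.ord_mul hx0 (inv_ne_zero hy0), w.ord_inv]; omega

theorem exists_pos_forall_neg (v : Place K F) (S : Finset (Place K F)) (hv : v ∉ S) :
    ∃ z : F, z ≠ 0 ∧ 0 < v.ord z ∧ ∀ w ∈ S, w.ord z < 0 := by
  classical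
  induction S using Finset.induction with
  | empty =>
      obtain ⟨f, hf, hf1⟩ := exists_ord_eq_one v
      exact ⟨f, hf, by omega, by simp⟩
  | @insert a S ha ih =>
      simp only [Finset.mem_insert, not_or] at hv
      obtain ⟨z, hz0, hzv, hzS⟩ := ih hv.2
      rcases lt_or_ge (a.ord z) 0 with hza | hza
      · exact ⟨z, hz0, hzv, by simp [hza]; exact hzS⟩
      obtain ⟨y, hy0, hyv, hya⟩ := exists_pos_neg hv.1
      -- exponent making the orders of z and y ^ r distinct at every place of S
      set r : ℕ := 1 + ∑ w ∈ S, (w.ord z).natAbs with hr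
      have hyr : y ^ (r : ℤ) ≠ 0 := zpow_ne_zero _ hy0
      have hr1 : (1 : ℤ) ≤ (r : ℤ) := by omega
      obtain ⟨hsum, hsa⟩ := ord_add_eq_of_lt a hyr hz0 (by
        rw [a.ord_zpow]
        have : (r : ℤ) * a.ord y ≤ -(r : ℤ) := by nlinarith
        omega)
      refine ⟨y ^ (r : ℤ) + z, hsum, ?_, ?_⟩
      · refine lt_of_lt_of_le ?_ (le_ord_add v hyr hz0 hsum)
        rw [v.ord_zpow]
        exact lt_min (mul_pos (by omega) hyv) hzv
      · simp only [Finset.forall_mem_insert]
        refine ⟨?_, fun w hw => ?_⟩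
        · rw [hsa, a.ord_zpow]
          exact mul_neg_of_pos_of_neg (by omega) hya
        · have hwle : ((w.ord z).natAbs : ℤ) < r := by
            have := Finset.single_le_sum (f := fun u => (u.ord z).natAbs)
              (fun u _ => Nat.zero_le _) hw
            omega
          have hwz := hzS w hw
          rcases lt_trichotomy (w.ord y) 0 with hwy | hwy | hwy
          · rw [(ord_add_eq_of_lt w hyr hz0 (by
              rw [w.ord_zpow]
              have : (r : ℤ) * w.ord y ≤ -(r : ℤ) := by nlinarith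
              omega)).2, w.ord_zpow]
            exact mul_neg_of_pos_of_neg (by omega) hwy
          · rw [add_comm, (ord_add_eq_of_lt w hz0 hyr (by
              rw [w.ord_zpow, hwy, mul_zero]; exact hwz)).2]
            exact hwz
          · rw [add_comm, (ord_add_eq_of_lt w hz0 hyr (by
              rw [w.ord_zpow]
              exact lt_trans hwz (mul_pos (by omega) hwy))).2]
            exact hwz

/-- A function with a simple zero at `v` and neither zero nor pole at the places of `S`. -/
theorem exists_ord_one_forall_ord_zero (v : Place K F) (S : Finset (Place K F)) (hv : v ∉ S) :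
    ∃ f : F, f ≠ 0 ∧ v.ord f = 1 ∧ ∀ w ∈ S, w.ord f = 0 := by
  classical
  obtain ⟨z, hz0, hzv, hzS⟩ := exists_pos_forall_neg v S hv
  obtain ⟨t, ht0, htv⟩ := exists_ord_eq_one v
  set k : ℕ := 2 + ∑ w ∈ S, (w.ord t).natAbs with hk
  set y : F := z ^ (k : ℤ) with hy
  have hy0 : y ≠ 0 := zpow_ne_zero _ hz0
  have hk2 : (2 : ℤ) ≤ (k : ℤ) := by omega
  have hyv : 2 ≤ v.ord y := by rw [hy, v.ord_zpow]; nlinarith
  obtain ⟨hne1, hone⟩ := ord_add_eq_of_lt v one_ne_zero hy0 (by rw [v.ord_one]; omega)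
  obtain ⟨hne2, htop⟩ := ord_add_eq_of_lt v ht0 hy0 (by omega)
  refine ⟨(t + y) * (1 + y)⁻¹, mul_ne_zero hne2 (inv_ne_zero hne1), ?_, fun w hw => ?_⟩
  · rw [v.ord_mul hne2 (inv_ne_zero hne1), v.ord_inv, hone, htop, v.ord_one, htv]
    norm_num
  · have hwk : ((w.ord t).natAbs : ℤ) < k := by
      have := Finset.single_le_sum (f := fun u => (u.ord t).natAbs)
        (fun u _ => Nat.zero_le _) hw
      omega
    have hwy : w.ord y ≤ -(k : ℤ) := by
      rw [hy, w.ord_zpow]
      have := hzS w hw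
      nlinarith
    have e1 := ord_add_eq_of_lt w hy0 one_ne_zero (by rw [w.ord_one]; omega)
    have e2 := ord_add_eq_of_lt w hy0 ht0 (by omega)
    rw [w.ord_mul hne2 (inv_ne_zero hne1), w.ord_inv, add_comm t y, add_comm 1 y, e1.2, e2.2]
    ring

end FermatLib.Modular.Corr
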