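import Fermat.Prelude.Def_AlgebraicCurve_Correspondence
import Fermat.Agent.Modular.CorrApprox
import Mathlib.RingTheory.Norm.Basic
import Mathlib.FieldTheory.IntermediateField.Adjoin.Algebra
import Mathlib.LinearAlgebra.FiniteDimensional.Basic
import Mathlib.LinearAlgebra.Dimension.OrzechProperty

/-!
Composition and base change for divisor pullback and pushforward along embeddings of function
fields, and the resulting composition law for correspondences.
-/

set_option autoImplicit false
set_option linter.style.haveILetI false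

noncomputable section

namespace FermatLib.Modular.Corr

open AlgebraicCurve

section Basic

variable {K F F' F'' : Type*} [Field K] [Field F] [Field F'] [Field F'']
  [Algebra K F] [Algebra K F'] [Algebra K F'']
variable {φ : F →ₐ[K] F'} {ψ : F' →ₐ[K] F''}

theorem mem_restrictAlong_iff {hφ : φ.toRingHom.IsIntegral} {w : Place K F'} {x : F} :
    x ∈ (w.restrictAlong φ hφ).toValuationSubring ↔ φ x ∈ w.toValuationSubring :=
  Iff.rfl

theorem restrictAlong_restrictAlong (hφ : φ.toRingHom.IsIntegral) (hψ : ψ.toRingHom.IsIntegral)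
    (h : (ψ.comp φ).toRingHom.IsIntegral) (w : Place K F'') :
    (w.restrictAlong ψ hψ).restrictAlong φ hφ = w.restrictAlong (ψ.comp φ) h :=
  Place.ext (SetLike.ext fun _ => Iff.rfl)

theorem ramificationIndexAlong_comp (hφ : φ.toRingHom.IsIntegral)
    (hψ : ψ.toRingHom.IsIntegral) (h : (ψ.comp φ).toRingHom.IsIntegral) (w : Place K F'') :
    w.ramificationIndexAlong (ψ.comp φ) =
      w.ramificationIndexAlong ψ * (w.restrictAlong ψ hψ).ramificationIndexAlong φ := by
  obtain ⟨f, -, hf⟩ := exists_ord_eq_one (w.restrictAlong (ψ.comp φ) h)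
  have h1 : w.ord (ψ (φ f)) = (w.ramificationIndexAlong (ψ.comp φ) : ℤ) := by
    have := Place.ord_restrictAlong (ψ.comp φ) h w f
    rw [hf, mul_one] at this
    exact this
  rw [Place.ord_restrictAlong ψ hψ, Place.ord_restrictAlong φ hφ,
    restrictAlong_restrictAlong hφ hψ h, hf, mul_one] at h1
  exact_mod_cast h1.symm

theorem deg_eq_deg_restrictAlong_mul (hφ : φ.toRingHom.IsIntegral) (w : Place K F') :
    (w.restrictAlong φ hφ).deg * w.inertiaDegAlong φ hφ = w.deg := by
  letI := algebraAlong φ
  haveI := isScalarTower_along φ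
  haveI := isIntegral_along φ hφ
  exact w.deg_restrict_mul_inertiaDeg (F := F)

theorem inertiaDegAlong_eq_one (hφ : φ.toRingHom.IsIntegral) {w : Place K F'} (hw : w.deg = 1) :
    w.inertiaDegAlong φ hφ = 1 :=
  Nat.eq_one_of_mul_eq_one_left ((deg_eq_deg_restrictAlong_mul hφ w).trans hw)

theorem pushforwardAlong_single_of_deg (hφ : φ.toRingHom.IsIntegral) {w : Place K F'}
    (hw : w.deg = 1) (n : ℤ) :
    Divisor.pushforwardAlong φ hφ (Finsupp.single w n)
      = Finsupp.single (w.restrictAlong φ hφ) n := by
  rw [Divisor.pushforwardAlong_single, inertiaDegAlong_eq_one hφ hw, Nat.cast_one, mul_one]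

theorem pushforwardAlong_pushforwardAlong (hφ : φ.toRingHom.IsIntegral)
    (hψ : ψ.toRingHom.IsIntegral) (h : (ψ.comp φ).toRingHom.IsIntegral)
    (h' : ∀ w : Place K F', w.deg = 1) (h'' : ∀ w : Place K F'', w.deg = 1)
    (D : Divisor K F'') :
    Divisor.pushforwardAlong φ hφ (Divisor.pushforwardAlong ψ hψ D)
      = Divisor.pushforwardAlong (ψ.comp φ) h D := by
  induction D using Finsupp.induction with
  | zero => simp only [map_zero]
  | single_add w n D _ _ ih =>
      simp only [map_add, ih, pushforwardAlong_single_of_deg hψ (h'' w),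
        pushforwardAlong_single_of_deg hφ (h' _), pushforwardAlong_single_of_deg h (h'' w),
        restrictAlong_restrictAlong hφ hψ h]

theorem pullbackAlong_pullbackAlong [HasPrincipalDivisors K F'] [HasPrincipalDivisors K F'']
    (hφ : φ.toRingHom.IsIntegral) (hψ : ψ.toRingHom.IsIntegral)
    (h : (ψ.comp φ).toRingHom.IsIntegral) (D : Divisor K F) :
    Divisor.pullbackAlong ψ hψ (Divisor.pullbackAlong φ hφ D)
      = Divisor.pullbackAlong (ψ.comp φ) h D :=
  Finsupp.ext fun w => by
    rw [Divisor.pullbackAlong_apply, Divisor.pullbackAlong_apply, Divisor.pullbackAlong_apply,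
      restrictAlong_restrictAlong hφ hψ h, ramificationIndexAlong_comp hφ hψ h, Nat.cast_mul,
      mul_assoc]

theorem pullbackAlong_congr [HasPrincipalDivisors K F'] {φ' : F →ₐ[K] F'} (e : φ = φ')
    (hφ : φ.toRingHom.IsIntegral) (hφ' : φ'.toRingHom.IsIntegral) :
    Divisor.pullbackAlong φ hφ = Divisor.pullbackAlong φ' hφ' := by
  subst e; rfl

theorem pushforwardAlong_congr {φ' : F →ₐ[K] F'} (e : φ = φ')
    (hφ : φ.toRingHom.IsIntegral) (hφ' : φ'.toRingHom.IsIntegral) :
    Divisor.pushforwardAlong φ hφ = Divisor.pushforwardAlong φ' hφ' := by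
  subst e; rfl

theorem pushforwardAlong_apply_eq_zero (hφ : φ.toRingHom.IsIntegral) {D : Divisor K F'}
    {v : Place K F} (h : ∀ w, w.restrictAlong φ hφ = v → D w = 0) :
    Divisor.pushforwardAlong φ hφ D v = 0 := by
  classical
  letI := algebraAlong φ
  haveI := isScalarTower_along φ
  haveI := isIntegral_along φ hφ
  show Divisor.pushforward F D v = 0
  rw [Divisor.pushforward_apply]
  exact Finset.sum_eq_zero fun w _ => by
    by_cases hw : w.restrict F = v
    · rw [if_pos hw, h w hw, zero_mul]
    · rw [if_neg hw]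

/-- The norm along an embedding. -/
def normAlong (φ : F →ₐ[K] F') (f : F') : F :=
  letI := algebraAlong φ
  Algebra.norm F f

theorem pushforwardAlong_apply_of_normFormula (hφ : φ.toRingHom.IsIntegral)
    (hfin : FiniteAlong K φ) (hN : NormFormulaAlong K φ hfin) {f : F'} (hf : f ≠ 0)
    {D : Divisor K F'} (hD : ∀ w, D w = w.ord f) (v : Place K F) :
    Divisor.pushforwardAlong φ hφ D v = v.ord (normAlong φ f) := by
  letI := algebraAlong φ
  haveI := isScalarTower_along φ
  haveI := isIntegral_along φ hφ
  haveI : Module.Finite F F' := hfin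
  exact hN f hf D hD v

theorem finrankAlong_pos (hfin : FiniteAlong K φ) : 0 < finrankAlong K φ := by
  letI := algebraAlong φ
  haveI : Module.Finite F F' := hfin
  exact Module.finrank_pos

theorem finiteAlong_isIntegral (hfin : FiniteAlong K φ) : φ.toRingHom.IsIntegral := by
  letI := algebraAlong φ
  haveI : Module.Finite F F' := hfin
  exact fun x => (Algebra.IsIntegral.of_finite F F').isIntegral x

end Basic

section Square

variable {K F₀ F₁ F' F'' : Type*} [Field K] [Field F₀] [Field F₁] [Field F'] [Field F'']
  [Algebra K F₀] [Algebra K F₁] [Algebra K F'] [Algebra K F'']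

/-- A commutative square of function fields which is cocartesian: the top field is the compositum
and the degree does not drop. -/
structure IsCocartesian (a : F₀ →ₐ[K] F') (u : F₀ →ₐ[K] F₁) (u' : F' →ₐ[K] F'')
    (b : F₁ →ₐ[K] F'') : Prop where
  comm : u'.comp a = b.comp u
  finite_left : FiniteAlong K a
  finite_right : FiniteAlong K b
  finrank_eq : finrankAlong K b = finrankAlong K a
  generate : Subfield.closure (Set.range b ∪ Set.range u') = ⊤

variable {a : F₀ →ₐ[K] F'} {u : F₀ →ₐ[K] F₁} {u' : F' →ₐ[K] F''} {b : F₁ →ₐ[K] F''}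

theorem IsCocartesian.normAlong_eq (h : IsCocartesian a u u' b) (f : F') :
    normAlong b (u' f) = u (normAlong a f) := by
  letI := algebraAlong a
  letI := algebraAlong b
  haveI : Module.Finite F₀ F' := h.finite_left
  haveI : Module.Finite F₁ F'' := h.finite_right
  show Algebra.norm F₁ (u' f) = u (Algebra.norm F₀ f)
  have hcomm : ∀ c, u' (algebraMap F₀ F' c) = algebraMap F₁ F'' (u c) := fun c =>
    DFunLike.congr_fun h.comm c
  set e := Module.finBasis F₀ F' with he
  have hcoord : ∀ x : F', u' x = ∑ i, u (e.repr x i) • u' (e i) := fun x => by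
    conv_lhs => rw [← e.sum_repr x]
    rw [map_sum]
    refine Finset.sum_congr rfl fun i _ => ?_
    rw [Algebra.smul_def, map_mul, hcomm, Algebra.smul_def]
  set W : Submodule F₁ F'' := Submodule.span F₁ (Set.range fun i => u' (e i)) with hW
  have hmem : ∀ x : F', u' x ∈ W := fun x => by
    rw [hcoord x]
    exact Submodule.sum_mem _ fun i _ => Submodule.smul_mem _ _ (Submodule.subset_span ⟨i, rfl⟩)
  have hadj : IntermediateField.adjoin F₁ (Set.range u') = ⊤ := by
    refine eq_top_iff.mpr fun x _ => ?_
    have hle : Subfield.closure (Set.range b ∪ Set.range u') ≤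
        (IntermediateField.adjoin F₁ (Set.range u')).toSubfield := by
      rw [Subfield.closure_le]
      rintro y (⟨c, rfl⟩ | hy)
      · exact IntermediateField.algebraMap_mem _ c
      · exact IntermediateField.subset_adjoin F₁ _ hy
    rw [h.generate] at hle
    exact hle trivial
  have halg : Algebra.adjoin F₁ (Set.range u') = ⊤ := by
    have h' := congrArg IntermediateField.toSubalgebra hadj
    rwa [IntermediateField.top_toSubalgebra, IntermediateField.adjoin_toSubalgebra_of_isAlgebraic
      (fun x _ => Algebra.IsAlgebraic.isAlgebraic x)] at h'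
  have hclosure : (Submonoid.closure (Set.range u') : Set F'') ⊆ W := by
    intro y hy
    have : y ∈ MonoidHom.mrange (u' : F' →* F'') :=
      Submonoid.closure_le.mpr (fun z hz => by simpa using hz) hy
    obtain ⟨x, rfl⟩ := this
    exact hmem x
  have hspan : (⊤ : Submodule F₁ F'') ≤ W := by
    rw [← Algebra.top_toSubmodule, ← halg, Algebra.adjoin_eq_span]
    exact Submodule.span_le.mpr hclosure
  have hcard : Fintype.card (Fin (Module.finrank F₀ F')) = Module.finrank F₁ F'' := by
    rw [Fintype.card_fin]
    exact h.finrank_eq.symm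
  set e' := basisOfTopLeSpanOfCardEqFinrank (fun i => u' (e i)) hspan hcard with he'
  have hrepr : ∀ (x : F') i, e'.repr (u' x) i = u (e.repr x i) := fun x i => by
    have : u' x = ∑ j, u (e.repr x j) • e' j := by
      simpa [he'] using hcoord x
    rw [this, e'.repr_sum_self]
  rw [Algebra.norm_eq_matrix_det e, Algebra.norm_eq_matrix_det e', AlgHom.map_det]
  congr 1
  ext i j
  rw [AlgHom.mapMatrix_apply, Matrix.map_apply, Algebra.leftMulMatrix_eq_repr_mul,
    Algebra.leftMulMatrix_eq_repr_mul, ← hrepr, map_mul u']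
  simp [he']

variable [HasPrincipalDivisors K F₁] [HasPrincipalDivisors K F'] [HasPrincipalDivisors K F'']

/-- Base change: pullback commutes with pushforward in a cocartesian square. -/
theorem IsCocartesian.pullback_pushforward (h : IsCocartesian a u u' b)
    (hu : u.toRingHom.IsIntegral) (hu' : u'.toRingHom.IsIntegral)
    (ha : a.toRingHom.IsIntegral) (hb : b.toRingHom.IsIntegral)
    (hNa : NormFormulaAlong K a h.finite_left) (hNb : NormFormulaAlong K b h.finite_right)
    (D : Divisor K F') :
    Divisor.pullbackAlong u hu (Divisor.pushforwardAlong a ha D)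
      = Divisor.pushforwardAlong b hb (Divisor.pullbackAlong u' hu' D) := by
  classical
  have hcomm : ∀ W : Place K F'', (W.restrictAlong u' hu').restrictAlong a ha
      = (W.restrictAlong b hb).restrictAlong u hu := fun W =>
    Place.ext (SetLike.ext fun x => by
      rw [mem_restrictAlong_iff, mem_restrictAlong_iff, mem_restrictAlong_iff,
        mem_restrictAlong_iff, show u' (a x) = b (u x) from DFunLike.congr_fun h.comm x])
  set L := (Divisor.pullbackAlong u hu).comp (Divisor.pushforwardAlong a ha) with hL
  set R := (Divisor.pushforwardAlong b hb).comp (Divisor.pullbackAlong u' hu') with hR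
  show L D = R D
  refine Finsupp.ext fun w => ?_
  have vanish : ∀ E : Divisor K F',
      (∀ P, P.restrictAlong a ha = w.restrictAlong u hu → E P = 0) → L E w = 0 ∧ R E w = 0 := by
    intro E hE
    refine ⟨?_, ?_⟩
    · rw [hL, AddMonoidHom.comp_apply, Divisor.pullbackAlong_apply,
        pushforwardAlong_apply_eq_zero ha hE, mul_zero]
    · rw [hR, AddMonoidHom.comp_apply]
      refine pushforwardAlong_apply_eq_zero hb fun W hW => ?_
      rw [Divisor.pullbackAlong_apply, hE _ (by rw [hcomm, hW]), mul_zero]
  have single : ∀ P : Place K F', L (Finsupp.single P 1) w = R (Finsupp.single P 1) w := by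
    intro P
    by_cases hP : P.restrictAlong a ha = w.restrictAlong u hu
    swap
    · have := vanish (Finsupp.single P 1) fun Q hQ =>
        Finsupp.single_eq_of_ne fun e => hP (e ▸ hQ)
      rw [this.1, this.2]
    set S := (Place.fiberAlong a ha (w.restrictAlong u hu)).erase P with hS
    obtain ⟨f, hf0, hfP, hfS⟩ :=
      exists_ord_one_forall_ord_zero P S (Finset.notMem_erase _ _)
    obtain ⟨E, hE, -⟩ := HasPrincipalDivisors.exists_divisor (K := K) f hf0
    have hres := vanish (E - Finsupp.single P 1) fun Q hQ => by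
      rcases eq_or_ne Q P with rfl | hne
      · simp [hE, hfP]
      · rw [Finsupp.sub_apply, Finsupp.single_eq_of_ne hne, hE, hfS Q
          (Finset.mem_erase.mpr ⟨hne, Place.mem_fiberAlong.mpr hQ⟩), sub_zero]
    rw [map_sub, map_sub, Finsupp.sub_apply, Finsupp.sub_apply, sub_eq_zero, sub_eq_zero] at hres
    rw [← hres.1, ← hres.2, hL, hR, AddMonoidHom.comp_apply, AddMonoidHom.comp_apply,
      Divisor.pullbackAlong_apply, pushforwardAlong_apply_of_normFormula ha h.finite_left hNa hf0 hE,
      pushforwardAlong_apply_of_normFormula hb h.finite_right hNb (f := u' f) (by simpa using hf0)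
        (fun W => by rw [Divisor.pullbackAlong_apply, hE, ← Place.ord_restrictAlong]),
      h.normAlong_eq, Place.ord_restrictAlong u hu]
  induction D using Finsupp.induction with
  | zero => simp
  | single_add P n D _ _ ih =>
      rw [map_add, map_add, Finsupp.add_apply, Finsupp.add_apply, ih,
        ← Finsupp.smul_single_one P n, map_zsmul, map_zsmul, Finsupp.smul_apply,
        Finsupp.smul_apply, single P]

end Square

section Composition

variable {K F₀ F₁ F₂ F'' : Type*} [Field K] [Field F₀] [Field F₁] [Field F₂] [Field F'']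
  [Algebra K F₀] [Algebra K F₁] [Algebra K F₂] [Algebra K F'']
variable [HasPrincipalDivisors K F₁] [HasPrincipalDivisors K F₂] [HasPrincipalDivisors K F'']
variable {a₁ b₁ : F₀ →ₐ[K] F₁} {a₂ b₂ : F₀ →ₐ[K] F₂} {u : F₂ →ₐ[K] F''} {b : F₁ →ₐ[K] F''}

/-- Composition of two correspondences through a cocartesian square. -/
theorem correspondence_comp_correspondence (h : IsCocartesian a₂ b₁ u b)
    (ha₁ : a₁.toRingHom.IsIntegral) (hb₁ : b₁.toRingHom.IsIntegral)
    (ha₂ : a₂.toRingHom.IsIntegral) (hb₂ : b₂.toRingHom.IsIntegral)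
    (hu : u.toRingHom.IsIntegral) (hb : b.toRingHom.IsIntegral)
    (hA : (b.comp a₁).toRingHom.IsIntegral) (hB : (u.comp b₂).toRingHom.IsIntegral)
    (hN₂ : NormFormulaAlong K a₂ h.finite_left) (hN : NormFormulaAlong K b h.finite_right)
    (h₁ : ∀ w : Place K F₁, w.deg = 1) (h'' : ∀ w : Place K F'', w.deg = 1)
    (D : Divisor K F₀) :
    Divisor.correspondence b₁ a₁ hb₁ ha₁ (Divisor.correspondence b₂ a₂ hb₂ ha₂ D)
      = Divisor.correspondence (u.comp b₂) (b.comp a₁) hB hA D := by
  simp only [Divisor.correspondence_apply]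
  rw [h.pullback_pushforward hb₁ hu ha₂ hb hN₂ hN, pullbackAlong_pullbackAlong hb₂ hu hB,
    pushforwardAlong_pushforwardAlong ha₁ hb hA h₁ h'']

end Composition

end FermatLib.Modular.Corr
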