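import Fermat.Prelude.Def_AlgebraicCurve_Correspondence
import Fermat.Agent.Modular.CorrBaseChange

/-!
Correspondences commute with semilinear automorphisms which intertwine both embeddings.
-/

set_option autoImplicit false
set_option linter.style.haveILetI false

noncomputable section

namespace FermatLib.Modular.Corr

open AlgebraicCurve SemilinearAut
open scoped Pointwise

variable {K F F' : Type*} [Field K] [Field F] [Field F'] [Algebra K F] [Algebra K F']
variable {φ : F →ₐ[K] F'} {g : SemilinearAut K F} {g' : SemilinearAut K F'}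

theorem restrictAlong_smul (h : IntertwinesAlong φ.toRingHom g g')
    (hφ : φ.toRingHom.IsIntegral) (w : Place K F') :
    (g' • w).restrictAlong φ hφ = g • w.restrictAlong φ hφ := by
  refine Place.ext (SetLike.ext fun x => ?_)
  rw [mem_restrictAlong_iff, smul_toValuationSubring, smul_toValuationSubring,
    ValuationSubring.mem_pointwise_smul_iff_inv_smul_mem,
    ValuationSubring.mem_pointwise_smul_iff_inv_smul_mem, mem_restrictAlong_iff]
  exact iff_of_eq (congrArg (· ∈ w.toValuationSubring) (h.inv x))

theorem ramificationIndexAlong_smul (h : IntertwinesAlong φ.toRingHom g g')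
    (hφ : φ.toRingHom.IsIntegral) (w : Place K F') :
    (g' • w).ramificationIndexAlong φ = w.ramificationIndexAlong φ := by
  obtain ⟨f, -, hf⟩ := exists_ord_eq_one (w.restrictAlong φ hφ)
  have h1 := Place.ord_restrictAlong φ hφ (g' • w) (g • f)
  rw [restrictAlong_smul h hφ, ord_smul, hf, mul_one, show φ (g • f) = g' • φ f from (h f).symm,
    ord_smul, Place.ord_restrictAlong φ hφ, hf, mul_one] at h1
  exact_mod_cast h1.symm

theorem pullbackAlong_smul [HasPrincipalDivisors K F'] (h : IntertwinesAlong φ.toRingHom g g')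
    (hφ : φ.toRingHom.IsIntegral) (D : Divisor K F) :
    Divisor.pullbackAlong φ hφ (g • D) = g' • Divisor.pullbackAlong φ hφ D := by
  refine Finsupp.ext fun w => ?_
  obtain ⟨w, rfl⟩ : ∃ u, g' • u = w := ⟨g'⁻¹ • w, smul_inv_smul g' w⟩
  rw [Divisor.pullbackAlong_apply, divisor_smul_apply_smul, Divisor.pullbackAlong_apply,
    restrictAlong_smul h hφ, divisor_smul_apply_smul, ramificationIndexAlong_smul h hφ]

theorem pushforwardAlong_smul (h : IntertwinesAlong φ.toRingHom g g')
    (hφ : φ.toRingHom.IsIntegral) (h' : ∀ w : Place K F', w.deg = 1) (D : Divisor K F') :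
    Divisor.pushforwardAlong φ hφ (g' • D) = g • Divisor.pushforwardAlong φ hφ D := by
  induction D using Finsupp.induction with
  | zero => simp only [smul_zero, map_zero]
  | single_add w n D _ _ ih =>
      rw [smul_add, map_add, map_add, smul_add, ih, SemilinearAut.smul_single,
        pushforwardAlong_single_of_deg hφ (h' _), pushforwardAlong_single_of_deg hφ (h' w),
        SemilinearAut.smul_single, restrictAlong_smul h hφ]

variable {ψ : F →ₐ[K] F'}

theorem correspondence_smul [HasPrincipalDivisors K F'] (h : IntertwinesAlong φ.toRingHom g g')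
    (h₂ : IntertwinesAlong ψ.toRingHom g g') (hφ : φ.toRingHom.IsIntegral)
    (hψ : ψ.toRingHom.IsIntegral) (h' : ∀ w : Place K F', w.deg = 1) (D : Divisor K F) :
    Divisor.correspondence φ ψ hφ hψ (g • D) = g • Divisor.correspondence φ ψ hφ hψ D := by
  rw [Divisor.correspondence_apply, Divisor.correspondence_apply, pullbackAlong_smul h hφ,
    pushforwardAlong_smul h₂ hψ h']

theorem pic0_correspondence_smul [HasPrincipalDivisors K F']
    (h : IntertwinesAlong φ.toRingHom g g') (h₂ : IntertwinesAlong ψ.toRingHom g g')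
    (hφ : φ.toRingHom.IsIntegral) (hψ : ψ.toRingHom.IsIntegral)
    (h' : ∀ w : Place K F', w.deg = 1) (hFI : FundamentalIdentityAlong K φ hφ)
    (hfin : FiniteAlong K ψ) (hN : NormFormulaAlong K ψ hfin) (x : Pic0 K F) :
    Pic0.correspondence φ ψ hφ hψ hFI hfin hN (g • x)
      = g • Pic0.correspondence φ ψ hφ hψ hFI hfin hN x := by
  obtain ⟨D, rfl⟩ := Pic0.mk_surjective x
  rw [pic0_smul_mk, Pic0.correspondence_mk, Pic0.correspondence_mk, pic0_smul_mk]
  refine congrArg Pic0.mk (Subtype.ext ?_)
  simp only [Pic0.coe_degZeroCorrespondence, coe_degZeroSMulHom]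
  exact correspondence_smul h h₂ hφ hψ h' _

end FermatLib.Modular.Corr
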