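import Fermat.Prelude.Def_ModularCurve_HeckeModule
import Fermat.Agent.Modular.CorrDegree
import Fermat.Agent.Modular.CorrEquivariant

/-!
The Hecke correspondences on `J₀(N)`: they are defined, they commute with one another and with
the Galois action. The facts about the individual function fields enter as `CurveFacts` and
`LevelFacts`.
-/

set_option autoImplicit false
set_option linter.style.haveILetI false
set_option synthInstance.maxHeartbeats 200000

noncomputable section

namespace FermatLib.Modular.Corr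

open ModularCurve AlgebraicCurve IntermediateField SemilinearAut

variable {L : Type*} [Field L] [Algebra ℚ L]

variable (L) in
/-- What is used about `F_M` as curves over `L`. -/
structure CurveFacts : Prop where
  hasPrincipalDivisors : ∀ (M : ℕ) [NeZero M], HasPrincipalDivisors L (fieldBar L M)
  deg_eq_one : ∀ (M : ℕ) [NeZero M] (w : Place L (fieldBar L M)), w.deg = 1
  fundamentalIdentity : ∀ (M M' : ℕ) [NeZero M] [NeZero M']
    [HasPrincipalDivisors L (fieldBar L M')] (φ : fieldBar L M →ₐ[L] fieldBar L M')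
    (hφ : φ.toRingHom.IsIntegral), FiniteAlong L φ → FundamentalIdentityAlong L φ hφ
  normFormula : ∀ (M M' : ℕ) [NeZero M] [NeZero M'] (φ : fieldBar L M →ₐ[L] fieldBar L M')
    (hfin : FiniteAlong L φ), NormFormulaAlong L φ hfin

omit [Algebra ℚ L] in
theorem closure_range_union_eq_top {X Y E : Type*} [Field X] [Field Y] [Field E] [Algebra L X]
    [Algebra L Y] [Algebra L E] {B : IntermediateField L E} {x y : E}
    (hB : B = IntermediateField.adjoin L {x, y}) (f : X →ₐ[L] B) (g : Y →ₐ[L] B)
    (hx : ∃ a, (f a : E) = x) (hy : ∃ a, (g a : E) = y) :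
    Subfield.closure (Set.range f ∪ Set.range g) = ⊤ := by
  set S := Subfield.closure (Set.range f ∪ Set.range g) with hS
  have hle : B.toSubfield ≤ S.map B.val.toRingHom := by
    conv_lhs => rw [hB]
    rw [IntermediateField.adjoin_toSubfield, Subfield.closure_le]
    rintro z (⟨c, rfl⟩ | rfl | rfl)
    · exact ⟨f (algebraMap L X c), Subfield.subset_closure (Or.inl ⟨_, rfl⟩), by
        rw [f.commutes]; rfl⟩
    · obtain ⟨a, ha⟩ := hx
      exact ⟨f a, Subfield.subset_closure (Or.inl ⟨a, rfl⟩), ha⟩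
    · obtain ⟨a, ha⟩ := hy
      exact ⟨g a, Subfield.subset_closure (Or.inr ⟨a, rfl⟩), ha⟩
  refine eq_top_iff.mpr fun z _ => ?_
  obtain ⟨w, hw, hwz⟩ := hle z.2
  exact (Subtype.ext hwz : w = z) ▸ hw

omit [Algebra ℚ L] in
theorem comp_eq_comp_of_coe {E : Type*} [Field E] [Algebra L E]
    {A B B' C : IntermediateField L E} (u : B →ₐ[L] C) (a : A →ₐ[L] B) (b : B' →ₐ[L] C)
    (v : A →ₐ[L] B') (h : ∀ x, (u (a x) : E) = b (v x)) : u.comp a = b.comp v :=
  AlgHom.ext fun x => Subtype.ext (h x)

omit [Algebra ℚ L] in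
theorem comp_eq_of_coe {E : Type*} [Field E] [Algebra L E] {A B C : IntermediateField L E}
    (u : B →ₐ[L] C) (a : A →ₐ[L] B) (c : A →ₐ[L] C) (h : ∀ x, (u (a x) : E) = c x) :
    u.comp a = c :=
  AlgHom.ext fun x => Subtype.ext (h x)

omit [Algebra ℚ L] in
theorem intertwinesAlong_of_coe {E : Type*} [Field E] [Algebra L E]
    {A B : IntermediateField L E} (φ : A →ₐ[L] B) (g : SemilinearAut L A) (g' : SemilinearAut L B)
    (h : ∀ x, ((g' • φ x : B) : E) = φ (g • x)) : IntertwinesAlong φ.toRingHom g g' :=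
  fun x => Subtype.ext (h x)

theorem neZero_mul' (a b : ℕ) [NeZero a] [NeZero b] : NeZero (a * b) :=
  ⟨mul_ne_zero (NeZero.ne a) (NeZero.ne b)⟩

attribute [local instance] neZero_mul'

variable (hL : LevelFacts L) (hC : CurveFacts L)
include hL

theorem isIntegral_barIncl {M M' : ℕ} [NeZero M] [NeZero M'] (h : M ∣ M') :
    (barIncl L h).toRingHom.IsIntegral :=
  finiteAlong_isIntegral (finiteAlong_barIncl hL h)

theorem isIntegral_barBeta {M M' : ℕ} [NeZero M] [NeZero M'] (d : ℕ) [NeZero d]
    (h : M * d ∣ M') : (barBeta L d h).toRingHom.IsIntegral :=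
  finiteAlong_isIntegral (finiteAlong_barBeta hL d h)

theorem finiteAlong_heckeAlphaBar (N l : ℕ) [NeZero N] [NeZero l] :
    FiniteAlong L (heckeAlphaBar L N l) :=
  (heckeAlphaBar_eq_barIncl (L := L) N l).symm ▸ finiteAlong_barIncl hL (dvd_mul_right N l)

theorem finiteAlong_heckeBetaBar (N l : ℕ) [NeZero N] [NeZero l] :
    FiniteAlong L (heckeBetaBar L N l) :=
  (heckeBetaBar_eq_barBeta (L := L) N l).symm ▸ finiteAlong_barBeta hL l dvd_rfl

include hC

/-- The Hecke correspondence of every index is defined. -/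
theorem heckeInputsAlong_of_facts (N l : ℕ) [NeZero N] [NeZero l] : HeckeInputsAlong L N l := by
  haveI := hC.hasPrincipalDivisors (N * l)
  exact heckeInputsAlong_intro (finiteAlong_isIntegral (finiteAlong_heckeAlphaBar hL N l))
    (finiteAlong_isIntegral (finiteAlong_heckeBetaBar hL N l))
    (hC.fundamentalIdentity N (N * l) _ _ (finiteAlong_heckeBetaBar hL N l))
    (finiteAlong_heckeAlphaBar hL N l) (hC.normFormula N (N * l) _ _)

/-- `T_l` on a divisor class is `α_* β^*`. -/
theorem heckeOperatorAlong_mk (N l : ℕ) [NeZero N] [NeZero l]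
    [HasPrincipalDivisors L (fieldBar L (N * l))]
    (D : Divisor.degZero (K := L) (F := fieldBar L N)) :
    ∃ E : Divisor.degZero (K := L) (F := fieldBar L N),
      (E : Divisor L (fieldBar L N)) =
        Divisor.correspondence (barBeta L l (dvd_refl (N * l))) (barIncl L (dvd_mul_right N l))
          (isIntegral_barBeta hL l dvd_rfl) (isIntegral_barIncl hL (dvd_mul_right N l)) D ∧
      heckeOperatorAlong L N l (Pic0.mk D) = Pic0.mk E := by
  have hβ := finiteAlong_isIntegral (finiteAlong_heckeBetaBar hL N l)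
  have hFI := hC.fundamentalIdentity N (N * l) _ hβ (finiteAlong_heckeBetaBar hL N l)
  have hα := finiteAlong_isIntegral (finiteAlong_heckeAlphaBar hL N l)
  refine ⟨Pic0.degZeroCorrespondence (heckeBetaBar L N l) (heckeAlphaBar L N l) hβ hα hFI D,
    ?_, ?_⟩
  · rw [Pic0.coe_degZeroCorrespondence, Divisor.correspondence_apply, Divisor.correspondence_apply,
      pullbackAlong_congr (heckeBetaBar_eq_barBeta N l) hβ (isIntegral_barBeta hL l dvd_rfl),
      pushforwardAlong_congr (heckeAlphaBar_eq_barIncl N l) hα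
        (isIntegral_barIncl hL (dvd_mul_right N l))]
  · rw [heckeOperatorAlong_eq hα hβ hFI (finiteAlong_heckeAlphaBar hL N l)
      (hC.normFormula N (N * l) _ _)]
    rfl

theorem isCocartesian_hecke (N : ℕ) [NeZero N] {l m : ℕ} [NeZero l] [NeZero m] (hm : m.Prime)
    (hl : l.Prime) (hlm : l ≠ m) {M : ℕ} [NeZero M] (hM : N * l * m = M) :
    IsCocartesian (barIncl L (dvd_mul_right N m)) (barBeta L l (dvd_refl (N * l)))
      (barBeta L l (M' := M) (show N * m * l ∣ M from dvd_of_eq (by rw [← hM]; ring)))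
      (barIncl L (M := N * l) (M' := M) (hM ▸ dvd_mul_right (N * l) m)) where
  comm := comp_eq_comp_of_coe _ _ _ _ fun x => by
    rw [coe_barBeta, coe_barIncl, coe_barIncl, coe_barBeta]
  finite_left := finiteAlong_barIncl hL _
  finite_right := finiteAlong_barIncl hL _
  finrank_eq := by
    have h1 := finrankAlong_barIncl_mul hL (dvd_mul_right N m)
    have h2 := finrankAlong_barIncl_mul hL (M := N * l) (M' := M) (hM ▸ dvd_mul_right (N * l) m)
    have hiff : m ∣ N * l ↔ m ∣ N := by
      rw [hm.dvd_mul, Nat.prime_dvd_prime_iff_eq hm hl]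
      simp [hlm.symm]
    have h3 : dedekindPsi (N * m) = (if m ∣ N then m else m + 1) * dedekindPsi N :=
      dedekindPsi_mul_prime N hm
    have h4 : dedekindPsi M = (if m ∣ N * l then m else m + 1) * dedekindPsi (N * l) :=
      hM ▸ dedekindPsi_mul_prime (N * l) hm
    rw [h3] at h1
    rw [h4] at h2
    simp only [hiff] at h2
    rw [Nat.eq_of_mul_eq_mul_right (dedekindPsi_pos' N) h1,
      Nat.eq_of_mul_eq_mul_right (dedekindPsi_pos' (N * l)) h2]
  generate := by
    refine closure_range_union_eq_top (fieldBar_eq_adjoin_pair M (hL.generation M)) _ _ ?_ ?_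
    · exact ⟨⟨jBar L, jBar_mem_fieldBar _⟩, coe_barIncl _ _⟩
    · refine ⟨⟨qExpand L (N * m) (jBar L), qExpand_jBar_mem_fieldBar dvd_rfl⟩, ?_⟩
      rw [coe_barBeta, qExpand_qExpand]
      exact qExpand_congr (by rw [← hM]; ring) _

theorem correspondence_hecke_comp (N : ℕ) [NeZero N] {l m : ℕ} [NeZero l] [NeZero m]
    (hm : m.Prime) (hl : l.Prime) (hlm : l ≠ m) {M : ℕ} [NeZero M] (hM : N * l * m = M) {d : ℕ}
    [NeZero d] (hd : l * m = d) [HasPrincipalDivisors L (fieldBar L (N * l))]
    [HasPrincipalDivisors L (fieldBar L (N * m))] [HasPrincipalDivisors L (fieldBar L M)]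
    (hN : N ∣ M) (hNd : N * d ∣ M) (D : Divisor L (fieldBar L N)) :
    Divisor.correspondence (barBeta L l (dvd_refl (N * l))) (barIncl L (dvd_mul_right N l))
        (isIntegral_barBeta hL l dvd_rfl) (isIntegral_barIncl hL (dvd_mul_right N l))
        (Divisor.correspondence (barBeta L m (dvd_refl (N * m))) (barIncl L (dvd_mul_right N m))
          (isIntegral_barBeta hL m dvd_rfl) (isIntegral_barIncl hL (dvd_mul_right N m)) D)
      = Divisor.correspondence (barBeta L d hNd) (barIncl L hN)
          (isIntegral_barBeta hL d hNd) (isIntegral_barIncl hL hN) D := by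
  have h := isCocartesian_hecke hL hC N hm hl hlm hM
  set u := barBeta L l (M := N * m) (M' := M)
    (show N * m * l ∣ M from dvd_of_eq (by rw [← hM]; ring)) with hu
  set b := barIncl L (M := N * l) (M' := M) (hM ▸ dvd_mul_right (N * l) m) with hb
  have eA : b.comp (barIncl L (dvd_mul_right N l)) = barIncl L hN :=
    comp_eq_of_coe _ _ _ fun x => by rw [hb, coe_barIncl, coe_barIncl, coe_barIncl]
  have eB : u.comp (barBeta L m (dvd_refl (N * m))) = barBeta L d hNd :=
    comp_eq_of_coe _ _ _ fun x => by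
      rw [hu, coe_barBeta, coe_barBeta, coe_barBeta, qExpand_qExpand]
      exact qExpand_congr hd _
  have hA : (b.comp (barIncl L (dvd_mul_right N l))).toRingHom.IsIntegral :=
    eA ▸ isIntegral_barIncl hL hN
  have hB : (u.comp (barBeta L m (dvd_refl (N * m)))).toRingHom.IsIntegral :=
    eB ▸ isIntegral_barBeta hL d hNd
  rw [correspondence_comp_correspondence h _ _ _ _ (isIntegral_barBeta hL l _)
    (isIntegral_barIncl hL _) hA hB (hC.normFormula _ _ _ _) (hC.normFormula _ _ _ _)
    (hC.deg_eq_one _) (hC.deg_eq_one _), Divisor.correspondence_apply,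
    Divisor.correspondence_apply, pullbackAlong_congr eB hB (isIntegral_barBeta hL d hNd),
    pushforwardAlong_congr eA hA (isIntegral_barIncl hL hN)]

theorem heckeOperatorAlong_comm (N : ℕ) [NeZero N] {l m : ℕ} [NeZero l] [NeZero m]
    (hl : l.Prime) (hm : m.Prime) (x : Pic0 L (fieldBar L N)) :
    heckeOperatorAlong L N l (heckeOperatorAlong L N m x) =
      heckeOperatorAlong L N m (heckeOperatorAlong L N l x) := by
  rcases eq_or_ne l m with rfl | hlm
  · rfl
  haveI := hC.hasPrincipalDivisors (N * l)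
  haveI := hC.hasPrincipalDivisors (N * m)
  haveI := hC.hasPrincipalDivisors (N * l * m)
  obtain ⟨D, rfl⟩ := Pic0.mk_surjective x
  obtain ⟨E₁, hE₁, e₁⟩ := heckeOperatorAlong_mk hL hC N m D
  obtain ⟨E₂, hE₂, e₂⟩ := heckeOperatorAlong_mk hL hC N l E₁
  obtain ⟨E₃, hE₃, e₃⟩ := heckeOperatorAlong_mk hL hC N l D
  obtain ⟨E₄, hE₄, e₄⟩ := heckeOperatorAlong_mk hL hC N m E₃
  rw [e₁, e₂, e₃, e₄]
  refine congrArg Pic0.mk (Subtype.ext ?_)
  have hN : N ∣ N * l * m := (dvd_mul_right N l).trans (dvd_mul_right _ m)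
  have hNd : N * (l * m) ∣ N * l * m := dvd_of_eq (mul_assoc N l m).symm
  rw [hE₂, hE₁, hE₄, hE₃,
    correspondence_hecke_comp hL hC N hm hl hlm (M := N * l * m) rfl (d := l * m) rfl hN hNd,
    correspondence_hecke_comp hL hC N hl hm hlm.symm (M := N * l * m) (by ring) (d := l * m)
      (mul_comm m l) hN hNd]

omit hL in
/-- Hecke operators commute with the action of `Aut(L/ℚ)`. -/
theorem heckeOperatorAlong_galois_smul (N l : ℕ) [NeZero N] [NeZero l] (σ : L ≃ₐ[ℚ] L)
    (x : Pic0 L (fieldBar L N)) :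
    heckeOperatorAlong L N l (σ • x) = σ • heckeOperatorAlong L N l x := by
  by_cases h : HeckeInputsAlong L N l
  swap
  · rw [heckeOperatorAlong_of_not h]
    simp only [AddMonoidHom.zero_apply]
    exact (smul_zero (A := Pic0 L (fieldBar L N)) σ).symm
  obtain ⟨hα, hβ, hP, hfin, hFI, hN⟩ := h
  rw [heckeOperatorAlong_eq hα hβ hFI hfin hN]
  exact pic0_correspondence_smul
    (g' := arithmeticGalois (modularFunctionFieldFull (N * l)) σ)
    (intertwinesAlong_of_coe _ _ _ fun y => by
      rw [coe_arithmeticGalois_smul, coe_heckeBetaBar, coe_heckeBetaBar, coe_arithmeticGalois_smul]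
      exact ModularCurve.coeffMap_qExpand _ l _)
    (intertwinesAlong_of_coe _ _ _ fun y => by
      rw [coe_arithmeticGalois_smul, coe_heckeAlphaBar, coe_heckeAlphaBar,
        coe_arithmeticGalois_smul]) hβ hα (hC.deg_eq_one (N * l)) hFI hfin hN x

end FermatLib.Modular.Corr
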