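import Fermat.Prelude.Def_ModularCurve_HeckeModule
import Fermat.Agent.Modular.CorrHecke
import Fermat.Agent.Modular.FieldCx
import Fermat.Agent.Curve.FiniteExtension
import Fermat.Agent.Curve.PoleDegree

/-!
Hecke correspondences on `J₀(N)`: the inputs hold, the operators commute, and they commute with
the Galois action.
-/

set_option autoImplicit false
set_option linter.style.haveILetI false
set_option synthInstance.maxHeartbeats 200000

noncomputable section

namespace FermatLib.Modular.Corr

open ModularCurve AlgebraicCurve IntermediateField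

variable (L : Type*) [Field L] [Algebra ℚ L]

omit [Algebra ℚ L] in
theorem relfinrank_adjoin_eq_finrank {E : Type*} [Field E] [Algebra L E]
    {B : IntermediateField L E} (x : B) :
    relfinrank L⟮(x : E)⟯ B = Module.finrank L⟮x⟯ B := by
  have e1 : (L⟮x⟯).map B.val = L⟮(x : E)⟯ := by
    rw [adjoin_map, Set.image_singleton]
    rfl
  have e2 : (⊤ : IntermediateField L B).map B.val = B := by
    rw [← AlgHom.fieldRange_eq_map, fieldRange_val]
  calc relfinrank L⟮(x : E)⟯ B
      = relfinrank ((L⟮x⟯).map B.val) ((⊤ : IntermediateField L B).map B.val) := by rw [e1, e2]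
    _ = relfinrank L⟮x⟯ ⊤ := relfinrank_map_map _ _ _
    _ = Module.finrank L⟮x⟯ B := relfinrank_top_right _

theorem levelFacts : LevelFacts L where
  generation M _ := FermatLib.Modular.functionFieldGeneration M
  degree M _ :=
    (relfinrank_adjoin_eq_finrank L (FermatLib.Modular.jElem L M)).trans
      (FermatLib.Modular.finrank_adjoin_jElem L M)

theorem isFunctionFieldOne_fieldBar (M : ℕ) [NeZero M] :
    FermatLib.Curve.IsFunctionField L (fieldBar L M) :=
  haveI := FermatLib.Modular.finiteDimensional_adjoin_jElem L M
  FermatLib.Curve.IsFunctionField.of_transcendental (FermatLib.Modular.transcendental_jElem L M)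

theorem curveFacts [IsAlgClosed L] : CurveFacts L where
  hasPrincipalDivisors M _ :=
    haveI := isFunctionFieldOne_fieldBar L M
    inferInstance
  deg_eq_one M _ w :=
    haveI := isFunctionFieldOne_fieldBar L M
    FermatLib.Curve.deg_eq_one w
  fundamentalIdentity M _ _ _ _ φ hφ hfin :=
    haveI := isFunctionFieldOne_fieldBar L M
    FermatLib.Curve.fundamentalIdentityAlong φ hfin hφ
  normFormula M _ _ _ φ hfin :=
    haveI := isFunctionFieldOne_fieldBar L M
    FermatLib.Curve.normFormulaAlong φ hfin

end FermatLib.Modular.Corr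

namespace FermatLib.Modular

open ModularCurve AlgebraicCurve Corr

/-- All the Hecke correspondences on `J₀(N)` are defined. -/
theorem heckeInputsAlong (L : Type*) [Field L] [Algebra ℚ L] [IsAlgClosed L] (N l : ℕ) [NeZero N]
    [NeZero l] : HeckeInputsAlong L N l :=
  heckeInputsAlong_of_facts (levelFacts L) (curveFacts L) N l

/-- The Hecke operators on `J₀(N)` commute. -/
theorem heckeOperatorsCommuteBar (N : ℕ) [NeZero N] : HeckeOperatorsCommuteBar N := by
  intro l m
  haveI : NeZero (l : ℕ) := ⟨l.2.ne_zero⟩
  haveI : NeZero (m : ℕ) := ⟨m.2.ne_zero⟩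
  refine LinearMap.ext fun x => ?_
  rw [Module.End.mul_apply, Module.End.mul_apply]
  simp only [heckeOperatorBar_apply]
  exact heckeOperatorAlong_comm (levelFacts _) (curveFacts _) N l.2 m.2 x

theorem heckeOperatorBar_galois_smul (N : ℕ) [NeZero N] (l : Nat.Primes)
    (σ : AlgebraicClosure ℚ ≃ₐ[ℚ] AlgebraicClosure ℚ) (x : JZero N) :
    heckeOperatorBar N l (σ • x) = σ • heckeOperatorBar N l x := by
  haveI : NeZero (l : ℕ) := ⟨l.2.ne_zero⟩
  simp only [heckeOperatorBar_apply]
  exact heckeOperatorAlong_galois_smul (curveFacts _) N l σ x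

/-- The Galois action on `J₀(N)` is linear over the Hecke algebra. -/
theorem smulCommClass_heckeModuleBar (N : ℕ) [NeZero N] :
    letI := heckeModuleBar N
    SMulCommClass (AlgebraicClosure ℚ ≃ₐ[ℚ] AlgebraicClosure ℚ) HeckeAlg (JZero N) := by
  letI := heckeModuleBar N
  have hc := heckeOperatorsCommuteBar N
  refine ⟨fun σ t x => ?_⟩
  induction t using MvPolynomial.induction_on generalizing x with
  | C a =>
      rw [heckeModuleBar_C_smul, heckeModuleBar_C_smul]
      exact map_zsmul (DistribSMul.toAddMonoidHom (JZero N) σ) a x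
  | add p q hp hq => rw [add_smul, add_smul, smul_add, hp, hq]
  | mul_X p l hp =>
      rw [mul_smul, mul_smul, hp]
      have hgen : ∀ y : JZero N, (MvPolynomial.X l : HeckeAlg) • y = heckeOperatorBar N l y :=
        fun y => heckeModuleBar_heckeGen_smul hc l y
      rw [hgen, hgen, heckeOperatorBar_galois_smul]

end FermatLib.Modular
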