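import Fermat.Agent.Modular.IntStructLevelOne
import Mathlib.NumberTheory.ModularForms.CongruenceSubgroups

/-!
Every form of level `Γ₀(N)` becomes a combination of integral forms after multiplication by a
fixed nonzero form.
-/

set_option autoImplicit false

noncomputable section

namespace FermatLib.Modular.IntStruct

open UpperHalfPlane CongruenceSubgroup
open scoped MatrixGroups Manifold ModularForm

/-- Elementary symmetric sums over a finset. -/
def esum {ι A : Type*} [CommRing A] (φ : ι → A) (S : Finset ι) (r : ℕ) : A :=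
  ∑ s ∈ S.powersetCard r, ∏ q ∈ s, φ q

theorem prod_sub_eq_sum_esum {ι A : Type*} [CommRing A] (φ : ι → A) (S : Finset ι) (x : A) :
    ∏ q ∈ S, (x - φ q) =
      ∑ r ∈ Finset.range (S.card + 1), (-1 : A) ^ r * esum φ S r * x ^ (S.card - r) := by
  classical
  have h1 : ∏ q ∈ S, (x - φ q) = ∏ q ∈ S, (-φ q + x) :=
    Finset.prod_congr rfl fun q _ => by ring
  rw [h1, Finset.prod_add, Finset.sum_powerset]
  refine Finset.sum_congr rfl fun r _ => ?_
  rw [esum, Finset.mul_sum, Finset.sum_mul]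
  refine Finset.sum_congr rfl fun s hs => ?_
  obtain ⟨hsub, hcard⟩ := Finset.mem_powersetCard.mp hs
  rw [Finset.prod_neg, Finset.prod_const, Finset.card_sdiff_of_subset hsub, hcard]

theorem esum_map {ι A : Type*} [CommRing A] (φ : ι → A) (S : Finset ι) (π : ι ≃ ι) (r : ℕ) :
    esum φ (S.map π.toEmbedding) r = esum (fun q => φ (π q)) S r := by
  simp [esum, Finset.powersetCard_map]

theorem esum_zero {ι A : Type*} [CommRing A] (φ : ι → A) (S : Finset ι) : esum φ S 0 = 1 := by
  simp [esum]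

theorem prod_slash_SL {ι : Type*} (s : Finset ι) (φ : ι → ℍ → ℂ) (w : ℤ) (γ : SL(2, ℤ)) :
    (∏ q ∈ s, φ q) ∣[(s.card : ℤ) * w] γ = ∏ q ∈ s, (φ q ∣[w] γ) := by
  classical
  induction s using Finset.induction_on with
  | empty => simp [ModularForm.is_invariant_one]
  | insert a s ha ih =>
    rw [Finset.prod_insert ha, Finset.prod_insert ha, Finset.card_insert_of_notMem ha,
      show ((s.card + 1 : ℕ) : ℤ) * w = w + (s.card : ℤ) * w by push_cast; ring,
      ModularForm.mul_slash_SL2, ih]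

theorem pow_slash_SL (F : ℍ → ℂ) (w : ℤ) (n : ℕ) (γ : SL(2, ℤ)) :
    (F ^ n) ∣[(n : ℤ) * w] γ = (F ∣[w] γ) ^ n := by
  simpa [Finset.prod_const] using prod_slash_SL (Finset.range n) (fun _ => F) w γ

theorem esum_slash {ι : Type*} (φ : ι → ℍ → ℂ) (S : Finset ι) (r : ℕ) (w : ℤ) (γ : SL(2, ℤ)) :
    esum φ S r ∣[(r : ℤ) * w] γ = esum (fun q => φ q ∣[w] γ) S r := by
  rw [esum, esum, SlashAction.sum_slash]
  refine Finset.sum_congr rfl fun s hs => ?_
  rw [← (Finset.mem_powersetCard.mp hs).2]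
  exact prod_slash_SL s φ w γ

variable {N : ℕ} [NeZero N]

/-- The cosets of `Γ₀(N)`. -/
abbrev Cos (N : ℕ) : Type := SL(2, ℤ) ⧸ Gamma0 N

instance : Finite (Cos N) :=
  Subgroup.finite_quotient_of_finiteIndex

/-- The translates of a form by the cosets. -/
def trans (w : ℤ) (F : ℍ → ℂ) (q : Cos N) : ℍ → ℂ := F ∣[w] (q.out)⁻¹

theorem trans_mk {w : ℤ} {F : ℍ → ℂ} (hF : IsForm N w F) (γ : SL(2, ℤ)) :
    trans w F (QuotientGroup.mk γ : Cos N) = F ∣[w] γ⁻¹ := by
  obtain ⟨⟨x, hx⟩, h⟩ := QuotientGroup.mk_out_eq_mul (Gamma0 N) γ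
  simp only at h
  rw [trans, h, mul_inv_rev, SlashAction.slash_mul, hF.slash _ (inv_mem hx)]

theorem trans_one {w : ℤ} {F : ℍ → ℂ} (hF : IsForm N w F) :
    trans w F (QuotientGroup.mk 1 : Cos N) = F := by
  rw [trans_mk hF, inv_one, SlashAction.slash_one]

theorem trans_slash {w : ℤ} {F : ℍ → ℂ} (hF : IsForm N w F) (q : Cos N) (γ : SL(2, ℤ)) :
    trans w F q ∣[w] γ = trans w F (γ⁻¹ • q) := by
  induction q using QuotientGroup.induction_on with
  | _ a =>
    rw [show γ⁻¹ • (QuotientGroup.mk a : Cos N) = QuotientGroup.mk (γ⁻¹ * a) from rfl,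
      trans_mk hF, trans_mk hF, mul_inv_rev, inv_inv, SlashAction.slash_mul]

theorem mdiff_trans {w : ℤ} {F : ℍ → ℂ} (hF : IsForm N w F) (q : Cos N) :
    MDiff (trans w F q) :=
  mdiff_slash_SL hF.mdiff w _

variable [Fintype (Cos N)]

theorem isBoundedAtImInfty_sum {ι : Type*} (s : Finset ι) {φ : ι → ℍ → ℂ}
    (h : ∀ q ∈ s, IsBoundedAtImInfty (φ q)) : IsBoundedAtImInfty (∑ q ∈ s, φ q) :=
  Finset.sum_induction φ _ (fun _ _ ha hb => ha.add hb) zero_form_isBoundedAtImInfty h

theorem isBoundedAtImInfty_prod {ι : Type*} (s : Finset ι) {φ : ι → ℍ → ℂ}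
    (h : ∀ q ∈ s, IsBoundedAtImInfty (φ q)) : IsBoundedAtImInfty (∏ q ∈ s, φ q) :=
  Finset.prod_induction φ _ (fun _ _ ha hb => ha.mul hb)
    (Filter.const_boundedAtFilter _ (1 : ℂ)) h

theorem isBoundedAtImInfty_esum {ι : Type*} {φ : ι → ℍ → ℂ} (S : Finset ι) (r : ℕ)
    (h : ∀ q, IsBoundedAtImInfty (φ q)) : IsBoundedAtImInfty (esum φ S r) :=
  isBoundedAtImInfty_sum _ fun s _ => isBoundedAtImInfty_prod s fun q _ => h q

theorem mdiff_finset_sum {ι : Type*} (s : Finset ι) {φ : ι → ℍ → ℂ}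
    (h : ∀ q ∈ s, MDiff (φ q)) : MDiff (∑ q ∈ s, φ q) :=
  Finset.sum_induction φ _ (fun _ _ ha hb => ha.add hb) mdifferentiable_const h

theorem mdiff_finset_prod {ι : Type*} (s : Finset ι) {φ : ι → ℍ → ℂ}
    (h : ∀ q ∈ s, MDiff (φ q)) : MDiff (∏ q ∈ s, φ q) :=
  Finset.prod_induction φ _ (fun _ _ ha hb => ha.mul hb) mdifferentiable_const h

theorem mdiff_esum {ι : Type*} {φ : ι → ℍ → ℂ} (S : Finset ι) (r : ℕ)
    (h : ∀ q, MDiff (φ q)) : MDiff (esum φ S r) :=
  mdiff_finset_sum _ fun s _ => mdiff_finset_prod s fun q _ => h q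

/-- Symmetric functions of the translates are level one forms. -/
theorem isForm_esum_trans {w : ℤ} {F : ℍ → ℂ} (hF : IsForm N w F) (r : ℕ) :
    IsForm 1 ((r : ℤ) * w) (esum (trans w F) (Finset.univ : Finset (Cos N)) r) := by
  have hinv : ∀ γ : SL(2, ℤ), esum (trans w F) (Finset.univ : Finset (Cos N)) r ∣[(r : ℤ) * w] γ
      = esum (trans w F) (Finset.univ : Finset (Cos N)) r := by
    intro γ
    have h := esum_map (trans w F) (Finset.univ : Finset (Cos N)) (MulAction.toPerm γ⁻¹) r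
    rw [Finset.map_univ_equiv] at h
    rw [esum_slash, h]
    congr 1
    funext q
    exact trans_slash hF q γ
  refine ⟨mdiff_esum _ _ (mdiff_trans hF), fun γ _ => hinv γ, fun γ => ?_⟩
  rw [hinv γ]
  exact isBoundedAtImInfty_esum _ _ fun q => hF.bdd _

open Classical in
/-- The coefficients of `f Φ'(g)`. -/
theorem isForm_descend {k w : ℤ} {f g : ℍ → ℂ} (hf : IsForm N k f) (hg : IsForm N w g) (r : ℕ) :
    IsForm 1 (k + (r : ℤ) * w)
      (∑ q : Cos N, trans k f q * esum (trans w g) (Finset.univ.erase q) r) := by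
  have hinv : ∀ γ : SL(2, ℤ),
      (∑ q : Cos N, trans k f q * esum (trans w g) (Finset.univ.erase q) r) ∣[k + (r : ℤ) * w] γ =
        ∑ q : Cos N, trans k f q * esum (trans w g) (Finset.univ.erase q) r := by
    intro γ
    set π : Cos N ≃ Cos N := MulAction.toPerm γ⁻¹ with hπ
    rw [SlashAction.sum_slash]
    conv_rhs => rw [← Equiv.sum_comp π]
    refine Finset.sum_congr rfl fun q _ => ?_
    rw [ModularForm.mul_slash_SL2, trans_slash hf, esum_slash]
    have h : (Finset.univ.erase (π q) : Finset (Cos N))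
        = (Finset.univ.erase q).map π.toEmbedding := by
      rw [Finset.map_erase, Finset.map_univ_equiv]; rfl
    rw [h, esum_map]
    congr 2
    funext q'
    exact trans_slash hg q' γ
  refine ⟨mdiff_finset_sum _ fun q _ => (mdiff_trans hf q).mul (mdiff_esum _ _ (mdiff_trans hg)),
    fun γ _ => hinv γ, fun γ => ?_⟩
  rw [hinv γ]
  exact isBoundedAtImInfty_sum _ fun q _ =>
    (hf.bdd _).mul (isBoundedAtImInfty_esum _ _ fun q' => hg.bdd _)

open Classical in
theorem mul_prod_sub_mem_intSpan {k w : ℤ} {f g : ℍ → ℂ} (hf : IsForm N k f)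
    (hg : g ∈ intSpan N w) :
    f * ∏ q ∈ (Finset.univ : Finset (Cos N)).erase (QuotientGroup.mk 1), (g - trans w g q) ∈
      intSpan N (k + (((Finset.univ : Finset (Cos N)).card - 1 : ℕ) : ℤ) * w) := by
  have hgf := isForm_of_mem_intSpan hg
  set q₀ : Cos N := QuotientGroup.mk 1
  have hsum : f * ∏ q ∈ (Finset.univ : Finset (Cos N)).erase q₀, (g - trans w g q)
      = ∑ q : Cos N, trans k f q * ∏ q' ∈ Finset.univ.erase q, (g - trans w g q') := by
    rw [Finset.sum_eq_single q₀]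
    · rw [trans_one hf]
    · intro q _ hq
      rw [Finset.prod_eq_zero (i := q₀) (Finset.mem_erase.mpr ⟨hq.symm, Finset.mem_univ _⟩)
        (by rw [trans_one hgf, sub_self]), mul_zero]
    · simp
  set n := (Finset.univ : Finset (Cos N)).card - 1 with hn
  have hsum2 : f * ∏ q ∈ (Finset.univ : Finset (Cos N)).erase q₀, (g - trans w g q)
      = ∑ r ∈ Finset.range (n + 1), ((-1 : ℂ) ^ r) •
        ((∑ q : Cos N, trans k f q * esum (trans w g) (Finset.univ.erase q) r) * g ^ (n - r)) := by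
    rw [hsum]
    simp only [prod_sub_eq_sum_esum, Finset.card_erase_of_mem (Finset.mem_univ _), ← hn,
      Finset.mul_sum, Finset.sum_mul, Finset.smul_sum]
    rw [Finset.sum_comm]
    refine Finset.sum_congr rfl fun r _ => Finset.sum_congr rfl fun q _ => ?_
    funext τ
    simp only [Pi.mul_apply, Pi.pow_apply, Pi.smul_apply, Pi.neg_apply, Pi.one_apply,
      smul_eq_mul]
    ring
  rw [hsum2]
  refine sum_mem fun r hr => Submodule.smul_mem _ _ ?_
  have hr' : r ≤ n := Nat.lt_succ_iff.mp (Finset.mem_range.mp hr)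
  refine intSpan_cast (mul_mem_intSpan
    (intSpan_one_le N _ (mem_intSpan_one (isForm_descend hf hgf r))) (pow_mem_intSpan hg (n - r))) ?_
  rw [Nat.cast_sub hr']
  ring

/-- There is a nonzero form `D` such that `f * D` is a combination of integral forms for every
form `f`. -/
theorem exists_multiplier (N : ℕ) [NeZero N] :
    ∃ (u : ℤ) (D : ℍ → ℂ), D ∈ intSpan N u ∧ D ≠ 0 ∧
      ∀ (k : ℤ) (f : ℍ → ℂ), IsForm N k f → f * D ∈ intSpan N (k + u) := by
  classical
  letI := Fintype.ofFinite (Cos N)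
  set g := scaleFn N ModularForm.discriminant
  have hg : g ∈ intSpan N 12 := scale_mem_intSpan discriminant_mem_intSpan
  refine ⟨(((Finset.univ : Finset (Cos N)).card - 1 : ℕ) : ℤ) * 12,
    ∏ q ∈ (Finset.univ : Finset (Cos N)).erase (QuotientGroup.mk 1), (g - trans 12 g q),
    ?_, ?_, fun k f hf => mul_prod_sub_mem_intSpan hf hg⟩
  · simpa using mul_prod_sub_mem_intSpan (k := 0) (isForm_one N) hg
  · have hgf := isForm_of_mem_intSpan hg
    intro h
    rw [UpperHalfPlane.prod_eq_zero_iff (fun q _ => hgf.mdiff.sub (mdiff_trans hgf q))] at h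
    obtain ⟨q, hq, hq0⟩ := h
    obtain ⟨a, rfl⟩ := QuotientGroup.mk_surjective q
    rw [sub_eq_zero, trans_mk hgf] at hq0
    have ha := mem_Gamma0_of_scale_discriminant_slash_eq a⁻¹ hq0.symm
    refine (Finset.mem_erase.mp hq).1 (QuotientGroup.eq.mpr ?_)
    simpa using ha

end FermatLib.Modular.IntStruct
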