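import Mathlib.FieldTheory.Galois.Infinite
import Mathlib.FieldTheory.IsAlgClosed.Classification
import Mathlib.Algebra.MvPolynomial.Funext
import Mathlib.Analysis.Complex.Polynomial.Basic
import Mathlib.FieldTheory.IsAlgClosed.Basic
import Mathlib.LinearAlgebra.Dual.Lemmas
import Mathlib.RingTheory.PowerSeries.Basic

/-!
The fixed field of all ring endomorphisms of `ℂ` is `ℚ`, and descent to `ℚ` of finite dimensional
complex vector spaces of sequences stable under all of them.
-/

set_option autoImplicit false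

noncomputable section

namespace FermatLib.Modular.IntStruct

open scoped IntermediateField

/-- Translation of the variables of a polynomial ring. -/
def shiftVars {ι : Type*} (a : ι → ℚ) : MvPolynomial ι ℚ ≃ₐ[ℚ] MvPolynomial ι ℚ :=
  AlgEquiv.ofAlgHom
    (MvPolynomial.aeval fun i => MvPolynomial.X i + MvPolynomial.C (a i))
    (MvPolynomial.aeval fun i => MvPolynomial.X i - MvPolynomial.C (a i))
    (by ext i; simp [MvPolynomial.algebraMap_eq])
    (by ext i; simp [MvPolynomial.algebraMap_eq])

theorem eval_shiftVars {ι : Type*} (a b : ι → ℚ) (P : MvPolynomial ι ℚ) :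
    MvPolynomial.eval b (shiftVars a P) = MvPolynomial.eval (b + a) P := by
  show (MvPolynomial.aeval b : MvPolynomial ι ℚ →ₐ[ℚ] ℚ)
      ((MvPolynomial.aeval fun i => MvPolynomial.X i + MvPolynomial.C (a i)) P) = _
  rw [MvPolynomial.comp_aeval_apply]
  simp
  rfl

/-- A complex number fixed by every ring endomorphism of `ℂ` is rational. -/
theorem exists_rat_eq_of_forall_fixed (x : ℂ) (hx : ∀ σ : ℂ →+* ℂ, σ x = x) :
    ∃ r : ℚ, (r : ℂ) = x := by
  obtain ⟨ι, b, hb⟩ := exists_isTranscendenceBasis' ℚ ℂ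
  by_cases hK : x ∈ IntermediateField.adjoin ℚ (Set.range b)
  · obtain ⟨P, Q, hPQ⟩ := (IntermediateField.mem_adjoin_range_iff ℚ b x).mp hK
    by_cases hQ : MvPolynomial.aeval b Q = 0
    · exact ⟨0, by simp [hPQ, hQ]⟩
    have hmul : x * MvPolynomial.aeval b Q = MvPolynomial.aeval b P := by
      rw [hPQ, div_mul_cancel₀ _ hQ]
    have key : ∀ a : ι → ℚ, shiftVars a P * Q = P * shiftVars a Q := by
      intro a
      let e : Algebra.adjoin ℚ (Set.range b) ≃+* Algebra.adjoin ℚ (Set.range b) :=
        (hb.1.aevalEquiv.symm.trans ((shiftVars a).trans hb.1.aevalEquiv)).toRingEquiv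
      have := IsAlgClosed.isAlgClosure_of_transcendence_basis b hb
      let σ : ℂ →+* ℂ := (IsAlgClosure.equivOfEquiv ℂ ℂ e).toRingHom
      have hσ : ∀ R : MvPolynomial ι ℚ,
          σ (MvPolynomial.aeval b R) = MvPolynomial.aeval b (shiftVars a R) := by
        intro R
        have h := IsAlgClosure.equivOfEquiv_algebraMap ℂ ℂ e (hb.1.aevalEquiv R)
        change σ (MvPolynomial.aeval b R) = _ at h
        simpa [e] using h
      have h1 : x * MvPolynomial.aeval b (shiftVars a Q)
          = MvPolynomial.aeval b (shiftVars a P) := by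
        rw [← hσ, ← hσ, ← hmul, map_mul, hx σ]
      apply algebraicIndependent_iff_injective_aeval.mp hb.1
      simp only [map_mul]
      rw [← h1, ← hmul]
      ring
    obtain ⟨b₀, hb₀⟩ : ∃ b₀ : ι → ℚ, MvPolynomial.eval b₀ Q ≠ 0 := by
      by_contra! h
      exact hQ (by simp [MvPolynomial.funext (p := Q) (q := 0) (by simpa using h)])
    refine ⟨MvPolynomial.eval b₀ P / MvPolynomial.eval b₀ Q, ?_⟩
    have hP : P = MvPolynomial.C (MvPolynomial.eval b₀ P / MvPolynomial.eval b₀ Q) * Q := by
      refine MvPolynomial.funext fun y => ?_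
      have h := congrArg (MvPolynomial.eval b₀) (key (y - b₀))
      simp only [map_mul, eval_shiftVars, add_sub_cancel] at h
      simp only [map_mul, MvPolynomial.eval_C]
      field_simp
      linear_combination h
    generalize hr : MvPolynomial.eval b₀ P / MvPolynomial.eval b₀ Q = r at hP ⊢
    rw [hPQ, hP, map_mul, MvPolynomial.aeval_C, mul_div_assoc, div_self hQ, mul_one,
      eq_ratCast]
  · exfalso
    set K := IntermediateField.adjoin ℚ (Set.range b) with hKdef
    have : Algebra.IsAlgebraic K ℂ := hb.isAlgebraic_field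
    have : IsAlgClosure K ℂ := ⟨inferInstance, inferInstance⟩
    have : IsGalois K ℂ := IsGalois.mk
    apply hK
    have h := (InfiniteGalois.mem_bot_iff_fixed (k := K) x).mpr
      fun f => hx (f : ℂ →+* ℂ)
    obtain ⟨y, rfl⟩ := IntermediateField.mem_bot.mp h
    exact y.2

/-- A finite-dimensional space with a jointly injective family of coordinates, stable under all
ring endomorphisms of `ℂ`, is spanned by vectors with rational coordinates. -/
theorem span_rational_eq_top {V : Type*} [AddCommGroup V] [Module ℂ V] [FiniteDimensional ℂ V]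
    (a : ℕ → V →ₗ[ℂ] ℂ) (hinj : ∀ v, (∀ n, a n v = 0) → v = 0)
    (hσ : ∀ (σ : ℂ →+* ℂ) (v : V), ∃ w : V, ∀ n, a n w = σ (a n v)) :
    Submodule.span ℂ {v : V | ∀ n, ∃ r : ℚ, (r : ℂ) = a n v} = ⊤ := by
  classical
  have htop : Submodule.span ℂ (Set.range a) = ⊤ := by
    refine Submodule.dualAnnihilator_eq_bot_iff.mp ?_
    rw [eq_bot_iff]
    intro φ hφ
    obtain ⟨v, rfl⟩ := (Module.evalEquiv ℂ V).surjective φ
    rw [Submodule.mem_dualAnnihilator] at hφ
    simp [hinj v fun n => by simpa using hφ _ (Submodule.subset_span ⟨n, rfl⟩)]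
  obtain ⟨s, hs, hspan, hli⟩ := exists_linearIndependent ℂ (Set.range a)
  rw [htop] at hspan
  let B : Module.Basis s ℂ (Module.Dual ℂ V) := .mk hli (by simp [hspan])
  haveI : Fintype s := FiniteDimensional.fintypeBasisIndex B
  let e : Module.Basis s ℂ V := B.dualBasis.map (Module.evalEquiv ℂ V).symm
  have he : ∀ i j : s, (j : V →ₗ[ℂ] ℂ) (e i) = if j = i then 1 else 0 := by
    intro i j
    have hj : (j : V →ₗ[ℂ] ℂ) = B j := by simp [B]
    rw [hj, ← Module.Dual.eval_apply ℂ V (e i) (B j)]
    simp [e, Finsupp.single_apply]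
  rw [← top_le_iff, ← e.span_eq, Submodule.span_le]
  rintro _ ⟨i, rfl⟩
  refine Submodule.subset_span fun n => ?_
  refine exists_rat_eq_of_forall_fixed _ fun σ => ?_
  obtain ⟨w, hw⟩ := hσ σ (e i)
  have hB : ∀ j : s, (j : V →ₗ[ℂ] ℂ) w = (j : V →ₗ[ℂ] ℂ) (e i) := by
    intro j
    obtain ⟨m, hm⟩ := hs j.2
    rw [← hm, hw, hm, he]
    split_ifs <;> simp
  have hwe : w = e i := by
    apply (Module.evalEquiv ℂ V).injective
    exact B.ext fun j => by simpa [B] using hB j
  rw [← hw, hwe]

/-- There is a `ℚ`-linear functional on `ℂ` taking the value `1` at a given nonzero number. -/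
theorem exists_ratLinear_eq_one {c : ℂ} (hc : c ≠ 0) : ∃ l : ℂ →ₗ[ℚ] ℚ, l c = 1 := by
  obtain ⟨l, hl⟩ := LinearMap.exists_leftInverse_of_injective (LinearMap.toSpanSingleton ℚ ℂ c)
    (LinearMap.ker_toSpanSingleton (R := ℚ) hc)
  exact ⟨l, by simpa using LinearMap.congr_fun hl 1⟩

end FermatLib.Modular.IntStruct
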