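import Mathlib.Analysis.Complex.RemovableSingularity
import Fermat.Agent.Modular.IntStructCosets
import Fermat.Agent.Modular.IntStructFixed

/-!
Stability of forms under field endomorphisms of `ℂ`, and bounded denominators.
-/

set_option autoImplicit false

noncomputable section

namespace FermatLib.Modular.IntStruct

open UpperHalfPlane CongruenceSubgroup Filter
open scoped MatrixGroups Manifold ModularForm Topology

/-- Extension across the zeros of the denominator. -/
theorem exists_quotient {u v : ℍ → ℂ} (hu : MDiff u) (hv : MDiff v) (hv0 : v ≠ 0)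
    {B : ℍ → ℝ} (hB : Continuous B) (hbd : ∀ τ, v τ ≠ 0 → ‖u τ / v τ‖ ≤ B τ) :
    ∃ h : ℍ → ℂ, MDiff h ∧ h * v = u := by
  set U := u ∘ UpperHalfPlane.ofComplex with hU
  set V := v ∘ UpperHalfPlane.ofComplex with hV
  set q : ℂ → ℂ := fun z => U z / V z with hq
  set H : ℂ → ℂ := fun z => limUnder (𝓝[≠] z) q with hH
  have hUd := UpperHalfPlane.mdifferentiable_iff.mp hu
  have hVd := UpperHalfPlane.mdifferentiable_iff.mp hv
  have hopen := isOpen_upperHalfPlaneSet
  have hqd : ∀ z ∈ upperHalfPlaneSet, V z ≠ 0 → DifferentiableAt ℂ q z := fun z hz h =>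
    (hUd.differentiableAt (hopen.mem_nhds hz)).div (hVd.differentiableAt (hopen.mem_nhds hz)) h
  have hval : ∀ z ∈ upperHalfPlaneSet, V z ≠ 0 → H z = q z := fun z hz h =>
    ((hqd z hz h).continuousAt.tendsto.mono_left nhdsWithin_le_nhds).limUnder_eq
  have hmd : MDiff fun τ : ℍ => H τ := by
    rw [UpperHalfPlane.mdifferentiable_iff]
    intro z₀ hz₀
    refine DifferentiableAt.differentiableWithinAt ?_
    suffices hd : DifferentiableAt ℂ H z₀ from hd.congr_of_eventuallyEq <| by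
      filter_upwards [hopen.mem_nhds hz₀] with z hz
      simp [ofComplex_apply_of_im_pos (show 0 < z.im from hz)]
    set τ₀ : ℍ := ⟨z₀, hz₀⟩ with hτ₀
    have hne : ∀ᶠ τ in 𝓝[≠] τ₀, v τ ≠ 0 := by
      by_contra h
      exact hv0 (eq_zero_of_frequently hv (τ := τ₀)
        ((Filter.not_eventually.mp h).mono fun _ => not_not.mp))
    have hcont : ContinuousAt (UpperHalfPlane.ofComplex : ℂ → ℍ) z₀ :=
      (mdifferentiableAt_ofComplex (show 0 < z₀.im from hz₀)).continuousAt
    have hz₀' : UpperHalfPlane.ofComplex z₀ = τ₀ := ofComplex_apply_of_im_pos hz₀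
    have hne' : ∀ᶠ z in 𝓝 z₀, z ≠ z₀ → V z ≠ 0 := by
      rw [eventually_nhdsWithin_iff] at hne
      rw [← hz₀'] at hne
      filter_upwards [hcont.eventually hne, hopen.mem_nhds hz₀] with z hz hzu hzne
      refine hz ?_
      simp only [Set.mem_compl_iff, Set.mem_singleton_iff]
      intro h
      rw [hz₀', ofComplex_apply_of_im_pos (show 0 < z.im from hzu)] at h
      exact hzne (congrArg UpperHalfPlane.coe h)
    have hB' : ∀ᶠ z in 𝓝 z₀, B (UpperHalfPlane.ofComplex z) < B τ₀ + 1 := by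
      have h := (hB.continuousAt.comp hcont).eventually_lt_const
        (show B (UpperHalfPlane.ofComplex z₀) < B τ₀ + 1 by rw [hz₀']; linarith)
      exact h
    obtain ⟨s, hs, hsp⟩ := (hne'.and (hB'.and (hopen.eventually_mem hz₀))).exists_mem
    have hd : DifferentiableOn ℂ q (s \ {z₀}) := fun z hz =>
      (hqd z (hsp z hz.1).2.2 ((hsp z hz.1).1 hz.2)).differentiableWithinAt
    have hb : BddAbove (norm ∘ q '' (s \ {z₀})) := by
      refine ⟨B τ₀ + 1, ?_⟩
      rintro _ ⟨z, hz, rfl⟩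
      exact (hbd _ ((hsp z hz.1).1 hz.2)).trans (hsp z hz.1).2.1.le
    have hw := Complex.differentiableOn_update_limUnder_of_bddAbove hs hd hb
    refine (hw.differentiableAt hs).congr_of_eventuallyEq ?_
    filter_upwards [hs] with z hz
    by_cases h : z = z₀
    · subst h; simp [hH]
    · rw [Function.update_of_ne h, hval z (hsp z hz).2.2 ((hsp z hz).1 h)]
  refine ⟨fun τ => H τ, hmd, ?_⟩
  have hkey : ((fun τ : ℍ => H τ) * v - u) * v = 0 := by
    funext τ
    by_cases hvτ : v τ = 0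
    · simp [hvτ]
    · have h := hval τ τ.im_pos (by simpa [hV] using hvτ)
      simp only [Pi.mul_apply, Pi.sub_apply, Pi.zero_apply, h, hq, hU, hV, Function.comp_apply,
        ofComplex_apply]
      field_simp
      ring
  exact sub_eq_zero.mp
    (((UpperHalfPlane.mul_eq_zero_iff ((hmd.mul hv).sub hu) hv).mp hkey).resolve_right hv0)

/-- A root of a monic polynomial is small when its coefficients are small. -/
theorem norm_lt_of_root {x : ℂ} {c : ℕ → ℂ} {m : ℕ} {ε : ℝ} (hε : 0 < ε) (hc0 : c 0 = 1)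
    (h : ∑ r ∈ Finset.range (m + 1), c r * x ^ (m - r) = 0)
    (hc : ∑ r ∈ Finset.range m, ‖c (r + 1)‖ / ε ^ (r + 1) < 1) : ‖x‖ < ε := by
  by_contra! hx
  have hx0 : 0 < ‖x‖ := hε.trans_le hx
  rw [Finset.sum_range_succ', hc0, one_mul, Nat.sub_zero] at h
  have h1 : ‖x‖ ^ m ≤ ∑ r ∈ Finset.range m, ‖c (r + 1)‖ * ‖x‖ ^ (m - (r + 1)) := by
    calc ‖x‖ ^ m = ‖∑ r ∈ Finset.range m, c (r + 1) * x ^ (m - (r + 1))‖ := by
          rw [← norm_pow, eq_neg_of_add_eq_zero_left h, norm_neg]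
      _ ≤ _ := (norm_sum_le _ _).trans (by simp)
  have h2 : ∑ r ∈ Finset.range m, ‖c (r + 1)‖ * ‖x‖ ^ (m - (r + 1))
      ≤ ‖x‖ ^ m * ∑ r ∈ Finset.range m, ‖c (r + 1)‖ / ε ^ (r + 1) := by
    rw [Finset.mul_sum]
    refine Finset.sum_le_sum fun r hr => ?_
    have hr' : r + 1 ≤ m := Finset.mem_range.mp hr
    rw [← Nat.sub_add_cancel hr', pow_add]
    simp only [Nat.add_sub_cancel]
    rw [mul_comm (‖c (r + 1)‖), mul_assoc]
    refine mul_le_mul_of_nonneg_left ?_ (by positivity)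
    rw [← mul_div_assoc, le_div_iff₀ (by positivity), mul_comm]
    exact mul_le_mul_of_nonneg_right (pow_le_pow_left₀ hε.le hx _) (norm_nonneg _)
  have h3 := h1.trans h2
  nlinarith [pow_pos hx0 m]

variable {N : ℕ} [NeZero N] {k : ℤ} {f : ℍ → ℂ}

/-- The monic relation with level one coefficients satisfied by a form. -/
theorem exists_relation (hf : IsForm N k f) :
    ∃ (m : ℕ) (R : ℕ → ℍ → ℂ), R 0 = 1 ∧ (∀ r : ℕ, IsForm 1 ((r : ℤ) * k) (R r)) ∧
      (∑ r ∈ Finset.range (m + 1), R r * f ^ (m - r) = 0) ∧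
      ((∀ γ : SL(2, ℤ), IsZeroAtImInfty (f ∣[k] γ)) →
        ∀ r, IsZeroAtImInfty (R (r + 1))) := by
  classical
  letI := Fintype.ofFinite (Cos N)
  set φ := trans (N := N) k f
  refine ⟨(Finset.univ : Finset (Cos N)).card,
    fun r => ((-1 : ℂ) ^ r) • esum φ Finset.univ r, by simp [esum_zero],
    fun r => (isForm_esum_trans hf r).smul _, ?_, fun hz r => ?_⟩
  · have h := prod_sub_eq_sum_esum φ (Finset.univ : Finset (Cos N)) f
    rw [Finset.prod_eq_zero (Finset.mem_univ (QuotientGroup.mk 1))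
      (by simp only [φ]; rw [trans_one hf, sub_self])] at h
    refine Eq.trans (Finset.sum_congr rfl fun r _ => ?_) h.symm
    funext τ
    simp
  · have hz' : IsZeroAtImInfty (esum φ (Finset.univ : Finset (Cos N)) (r + 1)) := by
      refine Finset.sum_induction _ _ (fun _ _ => Filter.ZeroAtFilter.add)
        (Filter.zero_zeroAtFilter _) fun s hs => ?_
      obtain ⟨q, hq⟩ : s.Nonempty := by
        rw [← Finset.card_pos, (Finset.mem_powersetCard.mp hs).2]; omega
      rw [← Finset.mul_prod_erase s φ hq]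
      have h1 : IsZeroAtImInfty (φ q) := hz _
      have h2 : IsBoundedAtImInfty (∏ q' ∈ s.erase q, φ q') :=
        isBoundedAtImInfty_prod _ fun q' _ => hf.bdd _
      exact Filter.ZeroAtFilter.mul_boundedAtFilter h1 h2
    exact Filter.ZeroAtFilter.smul _ hz'

theorem isZeroAtImInfty_of_coeff_zero {w : ℤ} {R : ℍ → ℂ} (hR : IsForm 1 w R)
    (h : PowerSeries.coeff 0 (qS R) = 0) : IsZeroAtImInfty R :=
  CuspFormClass.zero_at_infty (ModularForm.toCuspForm hR.toLevelOne h)

theorem coeff_zero_of_isZeroAtImInfty {w : ℤ} {R : ℍ → ℂ} (hR : IsForm N w R)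
    (h : IsZeroAtImInfty R) : PowerSeries.coeff 0 (qS R) = 0 := by
  rw [qS, UpperHalfPlane.qExpansion_coeff_zero one_pos hR.analyticAt hR.periodic]
  exact h.valueAtInfty_eq_zero

/-- Cusp forms are stable under endomorphisms of `ℂ` applied to the `q`-expansion. -/
theorem exists_map_qS (hf : IsForm N k f) (hz : ∀ γ : SL(2, ℤ), IsZeroAtImInfty (f ∣[k] γ))
    (σ : ℂ →+* ℂ) :
    ∃ h, IsForm N k h ∧ (∀ γ : SL(2, ℤ), IsZeroAtImInfty (h ∣[k] γ)) ∧
      qS h = PowerSeries.map σ (qS f) := by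
  classical
  obtain ⟨u, D, hD, hD0, hmul⟩ := exists_multiplier N
  obtain ⟨m, R, hR0, hR, hrel, hRz⟩ := exists_relation hf
  have hP := hmul k f hf
  obtain ⟨D', hD', hD'q⟩ := exists_mapCoeff hD σ.toAddMonoidHom
  obtain ⟨P', hP', hP'q⟩ := exists_mapCoeff hP σ.toAddMonoidHom
  choose R' hR' hR'q using fun r => exists_mapCoeff (mem_intSpan_one (hR r)) σ.toAddMonoidHom
  rw [mapCoeff_ringHom] at hD'q hP'q
  simp only [mapCoeff_ringHom] at hR'q
  have hDf := isForm_of_mem_intSpan hD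
  have hD'f := isForm_of_mem_intSpan hD'
  have hP'f := isForm_of_mem_intSpan hP'
  have hR'f := fun r => isForm_of_mem_intSpan (hR' r)
  have hD'0 : D' ≠ 0 := by
    rw [Ne, ← hD'f.qS_eq_zero_iff, hD'q, map_eq_zero_iff _
      (PowerSeries.map_injective σ σ.injective), hDf.qS_eq_zero_iff]
    exact hD0
  -- the homogeneous relation
  have hterm : ∀ {A P Q : ℍ → ℂ} {r : ℕ}, IsForm 1 ((r : ℤ) * k) A → IsForm N (k + u) P →
      IsForm N u Q → r ∈ Finset.range (m + 1) →
      IsForm N ((m : ℤ) * (k + u)) (A * P ^ (m - r) * Q ^ r) ∧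
      qS (A * P ^ (m - r) * Q ^ r) = qS A * qS P ^ (m - r) * qS Q ^ r := by
    intro A P Q r hA hP hQ hr
    have hA' : IsForm N ((r : ℤ) * k) A := hA.of_one
    refine ⟨((hA'.mul (hP.pow (m - r))).mul (hQ.pow r)).cast ?_, ?_⟩
    · rw [Nat.cast_sub (Nat.lt_succ_iff.mp (Finset.mem_range.mp hr))]; ring
    · rw [(hA'.mul (hP.pow (m - r))).qS_mul (hQ.pow r), hA'.qS_mul (hP.pow (m - r)),
        hP.qS_pow, hQ.qS_pow]
  have hhom : ∑ r ∈ Finset.range (m + 1), R r * (f * D) ^ (m - r) * D ^ r = 0 := by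
    have : ∀ r ∈ Finset.range (m + 1), R r * (f * D) ^ (m - r) * D ^ r
        = R r * f ^ (m - r) * D ^ m := by
      intro r hr
      rw [mul_pow, mul_assoc, mul_assoc, ← pow_add,
        Nat.sub_add_cancel (Nat.lt_succ_iff.mp (Finset.mem_range.mp hr)), mul_assoc]
    rw [Finset.sum_congr rfl this, ← Finset.sum_mul, hrel, zero_mul]
  have hhom' : ∑ r ∈ Finset.range (m + 1), R' r * P' ^ (m - r) * D' ^ r = 0 := by
    have hF' : IsForm N ((m : ℤ) * (k + u))
        (∑ r ∈ Finset.range (m + 1), R' r * P' ^ (m - r) * D' ^ r) :=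
      isForm_sum _ fun r hr => (hterm (hR'f r) hP'f hD'f hr).1
    rw [← hF'.qS_eq_zero_iff, qS_sum _ fun r hr => (hterm (hR'f r) hP'f hD'f hr).1]
    have h0 := congrArg qS hhom
    rw [qS_sum _ fun r hr => (hterm (hR r) (hf.mul hDf) hDf hr).1] at h0
    rw [show qS (0 : ℍ → ℂ) = 0 from UpperHalfPlane.qExpansion_zero _] at h0
    have h1 := congrArg (PowerSeries.map σ) h0
    rw [map_sum, map_zero] at h1
    refine Eq.trans (Finset.sum_congr rfl fun r hr => ?_) h1
    rw [(hterm (hR'f r) hP'f hD'f hr).2]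
    rw [show qS (R r * (f * D) ^ (m - r) * D ^ r)
      = qS (R r) * qS (f * D) ^ (m - r) * qS D ^ r from (hterm (hR r) (hf.mul hDf) hDf hr).2]
    rw [map_mul, map_mul, map_pow, map_pow, hR'q, hP'q, hD'q]
  have hR'0 : R' 0 = 1 := by
    have h1 : IsForm 1 0 (1 : ℍ → ℂ) := isForm_one 1
    have h2 : IsForm 1 0 (R' 0 + (-1 : ℂ) • (1 : ℍ → ℂ)) :=
      ((hR'f 0).cast (by simp)).add (h1.smul _)
    have h3 : qS (R' 0 + (-1 : ℂ) • (1 : ℍ → ℂ)) = 0 := by
      rw [((hR'f 0).cast (by simp : ((0 : ℕ) : ℤ) * k = 0)).qS_add (h1.smul _), h1.qS_smul,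
        hR'q, hR0, qS, UpperHalfPlane.qExpansion_one, map_one]
      simp
    have h4 := (h2.qS_eq_zero_iff).mp h3
    funext τ
    have := congrFun h4 τ
    simpa [← sub_eq_add_neg, sub_eq_zero] using this
  -- the quotient
  have hcR : ∀ r, Continuous (R' r) := fun r => (hR'f r).mdiff.continuous
  obtain ⟨h, hmd, hprod⟩ := exists_quotient hP'f.mdiff hD'f.mdiff hD'0
    (B := fun τ => 1 + ∑ r ∈ Finset.range m, ‖R' (r + 1) τ‖)
    (continuous_const.add (continuous_finsetSum _ fun r _ => (hcR _).norm)) (by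
      intro τ hτ
      set ε := 1 + ∑ r ∈ Finset.range m, ‖R' (r + 1) τ‖ with hεdef
      have hε1 : 1 ≤ ε := le_add_of_nonneg_right (by positivity)
      refine (norm_lt_of_root (c := fun r => R' r τ) (m := m) (lt_of_lt_of_le one_pos hε1)
        (by rw [hR'0]; rfl) ?_ ?_).le
      · have h0 := congrFun hhom' τ
        simp only [Finset.sum_apply, Pi.mul_apply, Pi.pow_apply, Pi.zero_apply] at h0
        apply mul_right_cancel₀ (pow_ne_zero m hτ)
        rw [zero_mul, Finset.sum_mul, ← h0]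
        refine Finset.sum_congr rfl fun r hr => ?_
        rw [← Nat.sub_add_cancel (Nat.lt_succ_iff.mp (Finset.mem_range.mp hr)), pow_add,
          Nat.add_sub_cancel, div_pow]
        field_simp
      · calc ∑ r ∈ Finset.range m, ‖R' (r + 1) τ‖ / ε ^ (r + 1)
            ≤ ∑ r ∈ Finset.range m, ‖R' (r + 1) τ‖ / ε :=
              Finset.sum_le_sum fun r _ => div_le_div_of_nonneg_left (norm_nonneg _)
                (by linarith) (le_self_pow₀ hε1 (Nat.succ_ne_zero r))
          _ < 1 := by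
              rw [← Finset.sum_div, div_lt_one (by linarith), hεdef]; linarith)
  have hrel' : ∑ r ∈ Finset.range (m + 1), R' r * h ^ (m - r) = 0 := by
    have h1 : (∑ r ∈ Finset.range (m + 1), R' r * h ^ (m - r)) * D' ^ m = 0 := by
      rw [Finset.sum_mul, ← hhom']
      refine Finset.sum_congr rfl fun r hr => ?_
      rw [← hprod, mul_pow, mul_assoc, mul_assoc (R' r), mul_assoc, ← pow_add,
        Nat.sub_add_cancel (Nat.lt_succ_iff.mp (Finset.mem_range.mp hr))]
    have hmd' : MDiff (∑ r ∈ Finset.range (m + 1), R' r * h ^ (m - r)) :=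
      mdiff_finset_sum _ fun r _ => (hR'f r).mdiff.mul (hmd.pow _)
    rcases (UpperHalfPlane.mul_eq_zero_iff hmd' (hD'f.mdiff.pow m)).mp h1 with h2 | h2
    · exact h2
    · exact absurd (eq_zero_of_pow_eq_zero h2) hD'0
  have hinv : ∀ γ ∈ Gamma0 N, h ∣[k] γ = h := by
    intro γ hγ
    have h1 : (h ∣[k] γ - h) * D' = 0 := by
      rw [sub_mul, sub_eq_zero]
      have := hP'f.slash γ hγ
      rwa [← hprod, ModularForm.mul_slash_SL2, hD'f.slash γ hγ] at this
    rcases (UpperHalfPlane.mul_eq_zero_iff ((mdiff_slash_SL hmd k γ).sub hmd) hD'f.mdiff).mp h1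
      with h2 | h2
    · exact sub_eq_zero.mp h2
    · exact absurd h2 hD'0
  have hzero : ∀ γ : SL(2, ℤ), IsZeroAtImInfty (h ∣[k] γ) := by
    intro γ
    have hrelγ : ∑ r ∈ Finset.range (m + 1), R' r * (h ∣[k] γ) ^ (m - r) = 0 := by
      have h1 := congrArg (fun F : ℍ → ℂ => F ∣[(m : ℤ) * k] γ) hrel'
      simp only [SlashAction.sum_slash, SlashAction.zero_slash] at h1
      refine Eq.trans (Finset.sum_congr rfl fun r hr => ?_) h1
      rw [show (m : ℤ) * k = (r : ℤ) * k + ((m - r : ℕ) : ℤ) * k by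
        rw [Nat.cast_sub (Nat.lt_succ_iff.mp (Finset.mem_range.mp hr))]; ring,
        ModularForm.mul_slash_SL2, pow_slash_SL, (hR'f r).slash_one]
    rw [IsZeroAtImInfty, Filter.ZeroAtFilter, Metric.tendsto_nhds]
    intro ε hε
    have hz0 : ∀ r, IsZeroAtImInfty (R' (r + 1)) := by
      intro r
      refine isZeroAtImInfty_of_coeff_zero (hR'f _) ?_
      rw [hR'q, PowerSeries.coeff_map, coeff_zero_of_isZeroAtImInfty (hR _) (hRz hz r), map_zero]
    have hlim : Tendsto (fun τ => ∑ r ∈ Finset.range m, ‖R' (r + 1) τ‖ / ε ^ (r + 1))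
        atImInfty (𝓝 0) := by
      simpa using tendsto_finsetSum (Finset.range m)
        (fun r _ => ((hz0 r).norm).div_const (ε ^ (r + 1)))
    filter_upwards [hlim.eventually_lt_const one_pos] with τ hτ
    rw [dist_zero_right]
    refine norm_lt_of_root (c := fun r => R' r τ) hε (by rw [hR'0]; rfl) ?_ hτ
    simpa using congrFun hrelγ τ
  have hh : IsForm N k h := ⟨hmd, hinv, fun γ =>
    (hzero γ).boundedAtFilter⟩
  refine ⟨h, hh, hzero, ?_⟩
  have h1 : qS h * qS D' = qS P' := by rw [← hh.qS_mul hD'f, hprod]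
  apply mul_right_cancel₀ ((not_iff_not.mpr hD'f.qS_eq_zero_iff).mpr hD'0)
  rw [h1, hP'q, hD'q, hf.qS_mul hDf, map_mul]

/-- A rational monic relation gives bounded denominators. -/
theorem hasBddDenom_of_root {y d : PowerSeries ℂ} (hd : HasBddDenom d) (hd0 : d ≠ 0)
    (hyd : HasBddDenom (y * d)) (m : ℕ) (a : ℕ → PowerSeries ℂ) (ha : ∀ r, HasBddDenom (a r))
    (ha0 : a 0 = 1) (hroot : ∑ r ∈ Finset.range (m + 1), a r * y ^ (m - r) = 0) :
    HasBddDenom y := by
  obtain ⟨Md, hMd, hd⟩ := hd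
  obtain ⟨Mp, hMp, hyd⟩ := hyd
  choose Ma hMa ha using ha
  set L := ∏ r ∈ Finset.range (m + 1), Ma r with hL
  set M := Mp * L with hM
  refine ⟨M, Nat.mul_pos hMp (Finset.prod_pos fun r _ => hMa r), ?_⟩
  refine isIntSeries_of_root (d := (Md : ℂ) • d) hd ?_ ?_ m
    (fun r => if r ≤ m then ((M : ℂ) ^ r) • a r else 0) ?_ (by simp [ha0]) ?_
  · exact smul_ne_zero (by exact_mod_cast hMd.ne') hd0
  · have h := hyd.smul_int ((L * Md : ℕ) : ℤ)
    rw [smul_smul] at h
    rw [smul_mul_smul_comm, hM]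
    rw [show ((Mp * L : ℕ) : ℂ) * (Md : ℂ) = (((L * Md : ℕ) : ℤ) : ℂ) * (Mp : ℂ) by push_cast; ring]
    exact h
  · intro r
    split_ifs with hr
    · rcases Nat.eq_zero_or_pos r with rfl | hrpos
      · exact ⟨1, by simp [ha0]⟩
      · obtain ⟨t, ht⟩ : Ma r ∣ M ^ r :=
          ((Finset.dvd_prod_of_mem _ (Finset.mem_range.mpr (Nat.lt_succ_iff.mpr hr))).trans
            (Dvd.intro_left Mp rfl)).trans (dvd_pow_self M hrpos.ne')
        have h := (ha r).smul_int (t : ℤ)
        rw [smul_smul] at h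
        convert h using 3
        rw [← Nat.cast_pow, ht]; push_cast; ring
    · exact ⟨0, map_zero _⟩
  · have h := congrArg (fun v : PowerSeries ℂ => ((M : ℂ) ^ m) • v) hroot
    simp only [smul_zero, Finset.smul_sum] at h
    refine Eq.trans (Finset.sum_congr rfl fun r hr => ?_) h
    have hr' : r ≤ m := Nat.lt_succ_iff.mp (Finset.mem_range.mp hr)
    rw [if_pos hr', smul_pow, smul_mul_smul_comm, ← pow_add, Nat.add_sub_cancel' hr']

/-- Forms with rational coefficients have bounded denominators. -/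
theorem hasBddDenom_qS (hf : IsForm N k f) (hr : IsRatSeries (qS f)) : HasBddDenom (qS f) := by
  obtain ⟨u, D, hD, hD0, hmul⟩ := exists_multiplier N
  obtain ⟨m, R, hR0, hR, hrel, -⟩ := exists_relation hf
  have hDf := isForm_of_mem_intSpan hD
  have hqD : qS D ≠ 0 := (not_iff_not.mpr hDf.qS_eq_zero_iff).mpr hD0
  obtain ⟨n, hn⟩ : ∃ n, PowerSeries.coeff n (qS D) ≠ 0 := by
    by_contra! h
    exact hqD (PowerSeries.ext fun n => by simpa using h n)
  obtain ⟨l, hl⟩ := exists_ratLinear_eq_one hn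
  obtain ⟨l₁, hl₁⟩ := exists_ratLinear_one
  have hd0 : mapCoeff (ratFun l) (qS D) ≠ 0 := fun h => by
    simpa [hl] using congrArg (PowerSeries.coeff n) h
  refine hasBddDenom_of_root (hasBddDenom_mapCoeff_ratFun (qS_mem_span hD) l) hd0 ?_ m
    (fun r => mapCoeff (ratFun l₁) (qS (R r)))
    (fun r => hasBddDenom_mapCoeff_ratFun (qS_mem_span (mem_intSpan_one (hR r))) l₁) ?_ ?_
  · rw [← mapCoeff_ratFun_mul_of_isRat l hr, ← hf.qS_mul hDf]
    exact hasBddDenom_mapCoeff_ratFun (qS_mem_span (hmul k f hf)) l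
  · show mapCoeff (ratFun l₁) (qS (R 0)) = 1
    rw [hR0, qS, UpperHalfPlane.qExpansion_one, mapCoeff_ratFun_of_isRat l₁ hl₁ isRatSeries_one]
  · have hterm : ∀ r ∈ Finset.range (m + 1),
        IsForm N ((m : ℤ) * k) (R r * f ^ (m - r)) := fun r hr =>
      ((hR r).of_one.mul (hf.pow (m - r))).cast (by
        rw [Nat.cast_sub (Nat.lt_succ_iff.mp (Finset.mem_range.mp hr))]; ring)
    have h0 := congrArg (fun F => mapCoeff (ratFun l₁) (qS F)) hrel
    simp only [qS_sum _ hterm, map_sum] at h0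
    rw [show qS (0 : ℍ → ℂ) = 0 from UpperHalfPlane.qExpansion_zero _, map_zero] at h0
    refine Eq.trans (Finset.sum_congr rfl fun r _ => ?_) h0
    rw [(hR r).of_one.qS_mul (hf.pow (m - r)), hf.qS_pow, mul_comm (qS (R r)),
      mapCoeff_ratFun_mul_of_isRat l₁ (hr.pow _), mul_comm]

end FermatLib.Modular.IntStruct
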