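import Fermat.Prelude.Def_CuspForm_IntegralStructure
import Fermat.Prelude.Def_CuspForm_IntegralLattice
import Fermat.Prelude.Thm_ModularForm_sturm_bound_Gamma0
import Fermat.Agent.Modular.IntStructDescent

/-!
The space of cusp forms of level `Γ₀(N)` of any weight has a basis with integral `q`-expansions.
-/

set_option autoImplicit false

noncomputable section

namespace FermatLib.Modular.IntStruct

open UpperHalfPlane CongruenceSubgroup Filter
open scoped MatrixGroups Manifold ModularForm Topology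

variable {N : ℕ} [NeZero N] {k : ℤ}

/-- A cusp form, seen as a modular form. -/
def cuspToModular (f : CuspForm (Gamma0 N) k) : ModularForm (Gamma0 N) k where
  toFun := f
  slash_action_eq' := f.slash_action_eq'
  holo' := f.holo'
  bdd_at_cusps' hc γ hγ := ((f.zero_at_cusps' hc) γ hγ).isBoundedAtImInfty

theorem isForm_cusp (f : CuspForm (Gamma0 N) k) : IsForm N k f :=
  isForm_of_modularForm (cuspToModular f)

theorem isZeroAtImInfty_cusp_slash (f : CuspForm (Gamma0 N) k) (γ : SL(2, ℤ)) :
    IsZeroAtImInfty ((f : ℍ → ℂ) ∣[k] γ) := by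
  rw [ModularForm.SL_slash]
  exact OnePoint.isZeroAt_infty_iff.mp (OnePoint.IsZeroAt.smul_iff.mp
    (f.zero_at_cusps' (c := (γ : GL (Fin 2) ℝ) • OnePoint.infty) (by
      rw [Subgroup.IsArithmetic.isCusp_iff_isCusp_SL2Z, isCusp_SL2Z_iff']
      exact ⟨γ, rfl⟩)))

/-- Bundle a form vanishing at all cusps. -/
def cuspOfForm {F : ℍ → ℂ} (hF : IsForm N k F)
    (hz : ∀ γ : SL(2, ℤ), IsZeroAtImInfty (F ∣[k] γ)) : CuspForm (Gamma0 N) k where
  toFun := F
  slash_action_eq' := hF.toModularForm.slash_action_eq'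
  holo' := hF.mdiff
  zero_at_cusps' {c} hc := by
    rw [Subgroup.IsArithmetic.isCusp_iff_isCusp_SL2Z] at hc
    rw [OnePoint.isZeroAt_iff_forall_SL2Z hc]
    exact fun γ _ => hz γ

/-- The coefficient functionals. -/
def coeffLin (N : ℕ) [NeZero N] (k : ℤ) (n : ℕ) : CuspForm (Gamma0 N) k →ₗ[ℂ] ℂ where
  toFun f := PowerSeries.coeff n (qS f)
  map_add' f g := by
    rw [FunLike.coe_add, (isForm_cusp f).qS_add (isForm_cusp g), map_add]
  map_smul' c f := by
    rw [FunLike.coe_smul, (isForm_cusp f).qS_smul, PowerSeries.coeff_smul]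
    rfl

theorem eq_zero_of_coeff_le (f : CuspForm (Gamma0 N) k)
    (h : ∀ n ≤ (k * (Gamma0 N).index).toNat / 12, coeffLin N k n f = 0) : f = 0 := by
  have h0 := ModularForm.sturm_bound_Gamma0 N (cuspToModular f) h
  ext τ
  exact congrArg (fun g : ModularForm (Gamma0 N) k => g τ) h0

instance finiteDimensional_cuspForm : FiniteDimensional ℂ (CuspForm (Gamma0 N) k) := by
  refine FiniteDimensional.of_injective
    (LinearMap.pi fun n : Fin ((k * (Gamma0 N).index).toNat / 12 + 1) => coeffLin N k n) ?_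
  rw [← LinearMap.ker_eq_bot, LinearMap.ker_eq_bot']
  intro f hf
  exact eq_zero_of_coeff_le f fun n hn => congrFun hf ⟨n, Nat.lt_succ_of_le hn⟩

theorem hasIntegralStructure (N : ℕ) [NeZero N] (k : ℤ) : CuspForm.HasIntegralStructure N k := by
  rw [CuspForm.HasIntegralStructure, eq_top_iff,
    ← span_rational_eq_top (coeffLin N k)
      (fun f hf => eq_zero_of_coeff_le f fun n _ => hf n) ?_]
  · refine Submodule.span_le.mpr fun f hf => ?_
    obtain ⟨M, hM, hint⟩ := hasBddDenom_qS (isForm_cusp f) hf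
    have hMf : ((M : ℂ) • f) ∈ CuspForm.intLattice N k := by
      refine Submodule.subset_span fun n => ?_
      obtain ⟨z, hz⟩ := (isIntSeries_iff.mp hint) n
      refine ⟨z, ?_⟩
      show coeffLin N k n ((M : ℂ) • f) = _
      rw [map_smul, ← hz, PowerSeries.coeff_smul]
      rfl
    have h := Submodule.smul_mem _ (M : ℂ)⁻¹ (Submodule.subset_span (R := ℂ) hMf)
    rwa [smul_smul, inv_mul_cancel₀ (Nat.cast_ne_zero.mpr hM.ne'), one_smul] at h
  · intro σ f
    obtain ⟨F, hF, hz, hq⟩ := exists_map_qS (isForm_cusp f) (isZeroAtImInfty_cusp_slash f) σ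
    refine ⟨cuspOfForm hF hz, fun n => ?_⟩
    show PowerSeries.coeff n (qS F) = σ (PowerSeries.coeff n (qS f))
    rw [hq, PowerSeries.coeff_map]

theorem qIntegralSet_eq (N : ℕ) :
    CuspForm.qIntegralSet N =
      {f : CuspForm (Gamma0 N) 2 | ∀ n : ℕ, ∃ m : ℤ, ModularFormClass.qCoeff f n = (m : ℂ)} := by
  ext f
  refine forall_congr' fun n => ?_
  rw [Subring.mem_bot]
  exact exists_congr fun m => eq_comm

theorem hasIntegralBasis (N : ℕ) [NeZero N] : CuspForm.HasIntegralBasis N := by
  have h := hasIntegralStructure N 2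
  rw [CuspForm.HasIntegralStructure, CuspForm.intLattice, Submodule.span_span_of_tower] at h
  rw [CuspForm.HasIntegralBasis, qIntegralSet_eq]
  exact h

end FermatLib.Modular.IntStruct

namespace FermatLib.Modular

/-- `S_k(Γ₀(N))` is spanned by forms with integral `q`-expansion. -/
theorem hasIntegralStructure (N : ℕ) [NeZero N] (k : ℤ) : CuspForm.HasIntegralStructure N k :=
  IntStruct.hasIntegralStructure N k

/-- `S₂(Γ₀(N))` has an integral basis. -/
theorem hasIntegralBasis (N : ℕ) [NeZero N] : CuspForm.HasIntegralBasis N :=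
  IntStruct.hasIntegralBasis N

end FermatLib.Modular
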