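import Fermat.Agent.Basic.EigenformLift
import Fermat.Prelude.Thm_ModularForm_sturm_bound_Gamma0

/-!
# From eigensystems away from a set of primes to normalised eigenforms
-/

set_option autoImplicit false

noncomputable section

open CongruenceSubgroup ModularFormClass

namespace FermatLib.Modular

variable {N : ℕ} [NeZero N]

/-- `S_k(Γ₀(N))` is finite dimensional, by the Sturm bound. -/
theorem finiteDimensional_cuspForm_Gamma0 (k : ℤ) :
    FiniteDimensional ℂ (CuspForm (Gamma0 N) k) := by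
  let B : ℕ := (k * ((Gamma0 N).index : ℤ)).toNat / 12
  let φ : CuspForm (Gamma0 N) k →ₗ[ℂ] (Fin (B + 1) → ℂ) :=
    { toFun := fun f i => qCoeff ⇑f i
      map_add' := fun f g => funext fun i => Basic.qCoeff_cusp_add f g i
      map_smul' := fun c f => funext fun i => Basic.qCoeff_cusp_smul c f i }
  refine FiniteDimensional.of_injective φ ((injective_iff_map_eq_zero φ).mpr fun f hf => ?_)
  have h : (ModularFormClass.modularForm f : ModularForm (Gamma0 N) k) = 0 :=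
    ModularForm.sturm_bound_Gamma0 N _ fun n hn => by
      simpa [qCoeff, φ] using congrFun hf ⟨n, Nat.lt_succ_of_le hn⟩
  have hcoe : (⇑f : UpperHalfPlane → ℂ) = 0 := by
    simpa using congrArg (fun F : ModularForm (Gamma0 N) k => (⇑F : UpperHalfPlane → ℂ)) h
  exact DFunLike.coe_injective (hcoe.trans FunLike.coe_zero.symm)

variable {S : Set ℕ}

/-- An eigensystem of the Hecke algebra away from `S` occurring in `S₂(Γ₀(N))` is that of a
normalised eigenform of level `N`. -/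
theorem exists_normalizedEigenform_of_eigensystem (v : CuspForm (Gamma0 N) 2) (hv : v ≠ 0)
    (χ : ↥(CuspForm.heckeAlgebra N 2 S) →+* ℂ)
    (heig : ∀ t : ↥(CuspForm.heckeAlgebra N 2 S),
      (t : Module.End ℂ (CuspForm (Gamma0 N) 2)) v = χ t • v) :
    ∃ f : CuspForm (Gamma0 N) 2, f.IsNormalizedEigenform ∧
      (∀ t : ↥(CuspForm.heckeAlgebra N 2 S),
        (t : Module.End ℂ (CuspForm (Gamma0 N) 2)) f = χ t • f) ∧
      (∀ (ℓ : ℕ) (hℓ : ℓ.Prime) (hℓN : ¬ ℓ ∣ N) (hℓS : ℓ ∉ S),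
        qCoeff ⇑f ℓ = χ (CuspForm.heckeAlgebra.T hℓ hℓN hℓS)) ∧
      (∀ (q : ℕ) (hq : q.Prime) (hqN : q ∣ N) (hqS : q ∉ S),
        qCoeff ⇑f q = χ (CuspForm.heckeAlgebra.U hq hqN hqS)) := by
  have := finiteDimensional_cuspForm_Gamma0 (N := N) 2
  let W : Submodule ℂ (CuspForm (Gamma0 N) 2) := ⨅ t : ↥(CuspForm.heckeAlgebra N 2 S),
    LinearMap.ker ((t : Module.End ℂ (CuspForm (Gamma0 N) 2)) - χ t • 1)
  have hW : ∀ {w}, w ∈ W ↔ ∀ t : ↥(CuspForm.heckeAlgebra N 2 S),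
      (t : Module.End ℂ (CuspForm (Gamma0 N) 2)) w = χ t • w := fun {w} => by
    simp [W, Submodule.mem_iInf, sub_eq_zero]
  have hle : CuspForm.heckeAlgebra N 2 S ≤ CuspForm.heckeAlgebra N 2 (∅ : Set ℕ) :=
    CuspForm.heckeAlgebra_mono (Set.empty_subset S)
  have hst : ∀ (a : ↥(CuspForm.heckeAlgebra N 2 (∅ : Set ℕ))), ∀ w ∈ W,
      (a : Module.End ℂ (CuspForm (Gamma0 N) 2)) w ∈ W := fun a w hw => hW.mpr fun t => by
    have hc : (a : Module.End ℂ (CuspForm (Gamma0 N) 2)) * t.1 = t.1 * a.1 :=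
      congrArg Subtype.val (mul_comm a ⟨t.1, hle t.2⟩)
    rw [← Module.End.mul_apply, ← hc, Module.End.mul_apply, hW.mp hw t, map_smul]
  let ρ : ↥(CuspForm.heckeAlgebra N 2 (∅ : Set ℕ)) →+* Module.End ℂ W :=
    { toFun := fun a => (a : Module.End ℂ (CuspForm (Gamma0 N) 2)).restrict (hst a)
      map_one' := LinearMap.ext fun x => Subtype.ext rfl
      map_mul' := fun a b => LinearMap.ext fun x => Subtype.ext rfl
      map_zero' := LinearMap.ext fun x => Subtype.ext rfl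
      map_add' := fun a b => LinearMap.ext fun x => Subtype.ext rfl }
  have hWne : W ≠ ⊥ := fun h => hv ((Submodule.mem_bot ℂ).mp (h ▸ hW.mpr heig))
  haveI : Nontrivial W := Submodule.nontrivial_iff_ne_bot.mpr hWne
  have hker : RingHom.ker ρ ≠ ⊤ := RingHom.ker_ne_top ρ
  obtain ⟨P, hP, hPle⟩ := Ideal.exists_le_maximal _ hker
  obtain ⟨w, ψ, hw, hψ, -⟩ := Basic.exists_eigenchar_ker_le ρ P hPle
  have hw0 : (w : CuspForm (Gamma0 N) 2) ≠ 0 := fun h => hw (Subtype.ext h)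
  have hψ' : ∀ a : ↥(CuspForm.heckeAlgebra N 2 (∅ : Set ℕ)),
      (a : Module.End ℂ (CuspForm (Gamma0 N) 2)) (w : CuspForm (Gamma0 N) 2) = ψ a • (w : CuspForm (Gamma0 N) 2) :=
    fun a => congrArg Subtype.val (hψ a)
  obtain ⟨f, hf, hfe, hT, hU⟩ := Basic.exists_normalizedEigenform_of_eigenchar _ hw0 ψ hψ'
  have hagree : ∀ t : ↥(CuspForm.heckeAlgebra N 2 S), ψ ⟨t.1, hle t.2⟩ = χ t := fun t =>
    smul_left_injective ℂ hw0 ((hψ' ⟨t.1, hle t.2⟩).symm.trans (hW.mp w.2 t))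
  refine ⟨f, hf, fun t => by rw [← hagree t]; exact hfe ⟨t.1, hle t.2⟩, ?_, ?_⟩
  · intro ℓ hℓ hℓN hℓS
    rw [hT ℓ hℓ hℓN, ← hagree]
    rfl
  · intro q hq hqN hqS
    rw [hU q hq hqN, ← hagree]
    rfl

/-- Every maximal ideal of the weight-2 Hecke algebra away from `S` comes from a normalised
eigenform and a maximal ideal of the ring of algebraic integers. -/
theorem exists_normalizedEigenform_lift_maximal_away (hint : CuspForm.HasIntegralStructure N 2)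
    (M : Ideal ↥(CuspForm.heckeAlgebra N 2 S)) [M.IsMaximal] :
    ∃ (f : CuspForm (Gamma0 N) 2)
      (χ : ↥(CuspForm.heckeAlgebra N 2 S) →+* integralClosure ℤ ℂ)
      (𝔪 : Ideal (integralClosure ℤ ℂ)),
      f.IsNormalizedEigenform ∧ 𝔪.IsMaximal ∧ 𝔪.comap χ = M ∧
      (∀ t : ↥(CuspForm.heckeAlgebra N 2 S),
        (t : Module.End ℂ (CuspForm (Gamma0 N) 2)) f = (χ t : ℂ) • f) ∧
      (∀ (ℓ : ℕ) (hℓ : ℓ.Prime) (hℓN : ¬ ℓ ∣ N) (hℓS : ℓ ∉ S),
        (χ (CuspForm.heckeAlgebra.T hℓ hℓN hℓS) : ℂ) = qCoeff ⇑f ℓ) ∧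
      (∀ (q : ℕ) (hq : q.Prime) (hqN : q ∣ N) (hqS : q ∉ S),
        (χ (CuspForm.heckeAlgebra.U hq hqN hqS) : ℂ) = qCoeff ⇑f q) := by
  obtain ⟨v, χ, 𝔪, hv, heig, h𝔪, hcomap⟩ := Basic.exists_eigenchar_lift_maximal hint M
  obtain ⟨f, hf, hfe, hT, hU⟩ := exists_normalizedEigenform_of_eigensystem v hv
    ((integralClosure ℤ ℂ).val.toRingHom.comp χ) heig
  exact ⟨f, χ, 𝔪, hf, h𝔪, hcomap, hfe, fun ℓ h h' h'' => (hT ℓ h h' h'').symm,
    fun q h h' h'' => (hU q h h' h'').symm⟩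

end FermatLib.Modular
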