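import Mathlib.RingTheory.LaurentSeries
import Mathlib.FieldTheory.IntermediateField.Basic

/-!
# Shortcuts for the algebra structures on `K((q))` and its intermediate fields

These are the default instances; instance search for them is slow. They are scoped:
activate with `open scoped FermatLib.LaurentInstances`.
-/

set_option autoImplicit false

noncomputable section

namespace FermatLib.LaurentInstances

variable {K : Type*} [Field K]

scoped instance (priority := 100000) seriesAlgebra : Algebra K (LaurentSeries K) :=
  inferInstance

scoped instance (priority := 100000) seriesModule : Module K (LaurentSeries K) :=
  inferInstance

scoped instance (priority := 100000) subfieldAlgebra (G : IntermediateField K (LaurentSeries K)) :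
    Algebra K G :=
  inferInstance

scoped instance (priority := 100000) subfieldModule (G : IntermediateField K (LaurentSeries K)) :
    Module K G :=
  inferInstance

end FermatLib.LaurentInstances
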