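/-
The two push-forwards of divisor classes from level `q M` to level `M`.
-/
import Fermat.Agent.Modular.CorrFacts

/-!
# Degeneracy push-forwards on `J₀`

`pushAlpha q M` and `pushBeta q M : JZero (q * M) →+ JZero M` are the push-forwards along the
inclusion and along `u ↦ u ^ q` of function fields; both commute with the Galois action.
-/

set_option autoImplicit false
set_option linter.style.haveILetI false
set_option synthInstance.maxHeartbeats 200000

noncomputable section

namespace FermatLib.Modular.Corr

open ModularCurve AlgebraicCurve IntermediateField SemilinearAut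

section Generic

variable {K F F' : Type*} [Field K] [Field F] [Field F'] [Algebra K F] [Algebra K F']
variable (φ : F →ₐ[K] F') (hφ : φ.toRingHom.IsIntegral)

/-- Push-forward of divisors of degree zero. -/
def degZeroPush : Divisor.degZero (K := K) (F := F') →+ Divisor.degZero (K := K) (F := F) :=
  ((Divisor.pushforwardAlong φ hφ).comp (AddSubgroup.subtype _)).codRestrict _
    fun D => Divisor.pushforwardAlong_mem_degZero φ hφ D.2

@[simp] theorem coe_degZeroPush (D : Divisor.degZero (K := K) (F := F')) :
    (degZeroPush φ hφ D : Divisor K F) = Divisor.pushforwardAlong φ hφ D :=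
  rfl

variable (hfin : FiniteAlong K φ) (hN : NormFormulaAlong K φ hfin)

/-- Push-forward of divisor classes. -/
def pic0Push : Pic0 K F' →+ Pic0 K F :=
  QuotientAddGroup.map _ _ (degZeroPush φ hφ) (by
    rintro ⟨D, hD0⟩ hD
    simp only [AddSubgroup.mem_addSubgroupOf] at hD ⊢
    exact Divisor.isPrincipal_pushforwardAlong φ hφ hfin hN hD)

theorem pic0Push_mk (D : Divisor.degZero (K := K) (F := F')) :
    pic0Push φ hφ hfin hN (Pic0.mk D) = Pic0.mk (degZeroPush φ hφ D) :=
  rfl

/-- A class killed by push-forward pushes forward to the divisor of a function. -/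
theorem isPrincipal_of_pic0Push_eq_zero {D : Divisor.degZero (K := K) (F := F')}
    (h : pic0Push φ hφ hfin hN (Pic0.mk D) = 0) :
    (Divisor.pushforwardAlong φ hφ (D : Divisor K F')).IsPrincipal := by
  rw [pic0Push_mk] at h
  have h1 := (QuotientAddGroup.eq_zero_iff _).mp h
  rwa [AddSubgroup.mem_addSubgroupOf] at h1

variable {φ}

theorem pic0Push_smul {g : SemilinearAut K F} {g' : SemilinearAut K F'}
    (h : IntertwinesAlong φ.toRingHom g g') (h' : ∀ w : Place K F', w.deg = 1) (x : Pic0 K F') :
    pic0Push φ hφ hfin hN (g' • x) = g • pic0Push φ hφ hfin hN x := by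
  obtain ⟨D, rfl⟩ := Pic0.mk_surjective x
  rw [pic0_smul_mk, pic0Push_mk, pic0Push_mk, pic0_smul_mk]
  refine congrArg Pic0.mk (Subtype.ext ?_)
  simp only [coe_degZeroPush, coe_degZeroSMulHom]
  exact pushforwardAlong_smul h hφ h' _

end Generic

attribute [local instance] neZero_mul'

local notation "Qbar" => AlgebraicClosure ℚ

variable (q M : ℕ) [NeZero q] [NeZero M]

/-- The inclusion of the level `M` field into the level `q M` field. -/
abbrev alphaMap : fieldBar Qbar M →ₐ[Qbar] fieldBar Qbar (q * M) :=
  barIncl Qbar (dvd_mul_left M q)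

/-- `u ↦ u ^ q` from the level `M` field into the level `q M` field. -/
abbrev betaMap : fieldBar Qbar M →ₐ[Qbar] fieldBar Qbar (q * M) :=
  barBeta Qbar q (dvd_of_eq (mul_comm M q))

theorem finiteAlong_alphaMap : FiniteAlong Qbar (alphaMap q M) :=
  finiteAlong_barIncl (levelFacts Qbar) _

theorem finiteAlong_betaMap : FiniteAlong Qbar (betaMap q M) :=
  finiteAlong_barBeta (levelFacts Qbar) q _

theorem isIntegral_alphaMap : (alphaMap q M).toRingHom.IsIntegral :=
  finiteAlong_isIntegral (finiteAlong_alphaMap q M)

theorem isIntegral_betaMap : (betaMap q M).toRingHom.IsIntegral :=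
  finiteAlong_isIntegral (finiteAlong_betaMap q M)

/-- Push-forward to level `M` along the inclusion. -/
def pushAlpha : JZero (q * M) →+ JZero M :=
  pic0Push (alphaMap q M) (isIntegral_alphaMap q M) (finiteAlong_alphaMap q M)
    ((curveFacts Qbar).normFormula M (q * M) _ _)

/-- Push-forward to level `M` along `u ↦ u ^ q`. -/
def pushBeta : JZero (q * M) →+ JZero M :=
  pic0Push (betaMap q M) (isIntegral_betaMap q M) (finiteAlong_betaMap q M)
    ((curveFacts Qbar).normFormula M (q * M) _ _)

theorem pushAlpha_smul (σ : Qbar ≃ₐ[ℚ] Qbar) (x : JZero (q * M)) :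
    pushAlpha q M (σ • x) = σ • pushAlpha q M x :=
  pic0Push_smul (g := arithmeticGalois (modularFunctionFieldFull M) σ)
    (g' := arithmeticGalois (modularFunctionFieldFull (q * M)) σ) _ _ _
    (intertwinesAlong_of_coe _ _ _ fun y => by
      rw [coe_arithmeticGalois_smul, coe_barIncl, coe_barIncl, coe_arithmeticGalois_smul])
    ((curveFacts Qbar).deg_eq_one (q * M)) x

theorem pushBeta_smul (σ : Qbar ≃ₐ[ℚ] Qbar) (x : JZero (q * M)) :
    pushBeta q M (σ • x) = σ • pushBeta q M x :=
  pic0Push_smul (g := arithmeticGalois (modularFunctionFieldFull M) σ)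
    (g' := arithmeticGalois (modularFunctionFieldFull (q * M)) σ) _ _ _
    (intertwinesAlong_of_coe _ _ _ fun y => by
      rw [coe_arithmeticGalois_smul, coe_barBeta, coe_barBeta, coe_arithmeticGalois_smul]
      exact ModularCurve.coeffMap_qExpand _ q _)
    ((curveFacts Qbar).deg_eq_one (q * M)) x

end FermatLib.Modular.Corr
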