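import Fermat.Prelude.Def_ModularCurve_PeriodHomPair
import Mathlib.Algebra.Group.Torsion
import Mathlib.LinearAlgebra.Matrix.Trace

/-!
Cuspidal homomorphisms of a subgroup of `SL(2, ℤ)`: homomorphisms to an abelian group which
kill every parabolic and every elliptic element (and `±1`), i.e. every `γ` with `trace ^ 2 ≤ 4`.
-/

set_option autoImplicit false

open scoped MatrixGroups
open ModularCurve.Period

namespace FermatLib.Modular

/-- `φ` kills every element of `trace ^ 2 ≤ 4` (parabolic, elliptic and `±1`). -/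
def IsCuspidalHom {Γ : Subgroup SL(2, ℤ)} {A : Type*} [AddCommGroup A]
    (φ : Additive Γ →+ A) : Prop :=
  ∀ γ : Γ, ((γ : SL(2, ℤ)) : Matrix (Fin 2) (Fin 2) ℤ).trace ^ 2 ≤ 4 → φ (Additive.ofMul γ) = 0

/-- The submodule of cuspidal homomorphisms. -/
def cuspidalHoms (R : Type*) [Semiring R] (Γ : Subgroup SL(2, ℤ)) (A : Type*) [AddCommGroup A]
    [Module R A] : Submodule R (Additive Γ →+ A) where
  carrier := {φ | IsCuspidalHom φ}
  zero_mem' := fun _ _ => rfl
  add_mem' := by
    intro φ ψ hφ hψ γ hγ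
    show φ (Additive.ofMul γ) + ψ (Additive.ofMul γ) = 0
    rw [hφ γ hγ, hψ γ hγ, add_zero]
  smul_mem' := by
    intro c φ hφ γ hγ
    show c • φ (Additive.ofMul γ) = 0
    rw [hφ γ hγ, smul_zero]

variable {R : Type*} [Semiring R] {Γ : Subgroup SL(2, ℤ)} {A : Type*} [AddCommGroup A]

theorem IsCuspidalHom.isParabolicHom {φ : Additive Γ →+ A} (h : IsCuspidalHom φ) :
    IsParabolicHom Γ φ :=
  fun γ hγ => h γ hγ.le

theorem IsCuspidalHom.comp {B : Type*} [AddCommGroup B] {φ : Additive Γ →+ A}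
    (h : IsCuspidalHom φ) (f : A →+ B) : IsCuspidalHom (f.comp φ) :=
  fun γ hγ => by rw [AddMonoidHom.comp_apply, h γ hγ, map_zero]

end FermatLib.Modular
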