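import Mathlib.LinearAlgebra.Matrix.Notation
import Fermat.Agent.Modular.HeckeReps
import Fermat.Agent.Modular.HomsDefs

/-!
# Hecke operators on parabolic homomorphisms, and on those also killing elliptic elements
-/

set_option autoImplicit false

open scoped MatrixGroups
open CongruenceSubgroup ModularCurve.Period

namespace FermatLib.Modular

local notation "M2Z" => Matrix (Fin 2) (Fin 2) ℤ

theorem trace_pow_succ_succ (γ : SL(2, ℤ)) (k : ℕ) :
    Matrix.trace ((γ ^ (k + 2) : SL(2, ℤ)) : M2Z) =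
      Matrix.trace (γ : M2Z) * Matrix.trace ((γ ^ (k + 1) : SL(2, ℤ)) : M2Z) -
        Matrix.trace ((γ ^ k : SL(2, ℤ)) : M2Z) := by
  have hd : γ 0 0 * γ 1 1 - γ 0 1 * γ 1 0 = 1 := by
    have := γ.det_coe
    rwa [Matrix.det_fin_two] at this
  rw [pow_succ' γ (k + 1), pow_succ' γ k]
  simp only [Matrix.SpecialLinearGroup.coe_mul, Matrix.trace_fin_two, Matrix.mul_apply,
    Fin.sum_univ_two]
  linear_combination (-((γ ^ k : SL(2, ℤ)) 0 0) - (γ ^ k : SL(2, ℤ)) 1 1) * hd

/-- Powers of elements of trace of absolute value at most two have the same property, with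
equality preserved. -/
theorem trace_pow_sq (γ : SL(2, ℤ)) (hγ : Matrix.trace (γ : M2Z) ^ 2 ≤ 4) (k : ℕ) :
    Matrix.trace ((γ ^ k : SL(2, ℤ)) : M2Z) ^ 2 ≤ 4 ∧
      (Matrix.trace (γ : M2Z) ^ 2 = 4 → Matrix.trace ((γ ^ k : SL(2, ℤ)) : M2Z) ^ 2 = 4) := by
  set t := Matrix.trace (γ : M2Z) with ht
  set u : ℕ → ℤ := fun k => Matrix.trace ((γ ^ k : SL(2, ℤ)) : M2Z) with hu
  have hinv : ∀ k, u k ^ 2 - t * u k * u (k + 1) + u (k + 1) ^ 2 = 4 - t ^ 2 := by
    intro k
    induction k with
    | zero =>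
      have h0 : u 0 = 2 := by simp [hu, Matrix.trace_fin_two]
      have h1 : u 1 = t := by simp [hu, ht]
      rw [h0, h1]; ring
    | succ k ih =>
      rw [show u (k + 1 + 1) = t * u (k + 1) - u k from trace_pow_succ_succ γ k]
      linear_combination ih
  have h4 : t ^ 2 = 4 → u k ^ 2 = 4 := by
    intro h
    induction k with
    | zero => simp [hu, Matrix.trace_fin_two]
    | succ k ih =>
      have := hinv k
      have hsq : (2 * u (k + 1) - t * u k) ^ 2 = 0 := by
        linear_combination 4 * this + (u k ^ 2 - 4) * h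
      have h2 := pow_eq_zero_iff two_ne_zero |>.1 hsq
      have : 4 * u (k + 1) ^ 2 = t ^ 2 * u k ^ 2 := by
        linear_combination (2 * u (k + 1) + t * u k) * h2
      rw [h, ih] at this
      linarith
  refine ⟨?_, h4⟩
  rcases hγ.lt_or_eq with hlt | heq
  · have := hinv k
    by_contra hc
    push Not at hc
    nlinarith [sq_nonneg (2 * u (k + 1) - t * u k)]
  · exact (h4 heq).le

variable (R : Type*) [Semiring R] (Γ : Subgroup SL(2, ℤ)) (A : Type*) [AddCommGroup A] [Module R A]

variable {R Γ A}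

theorem op_mem_parabolicHoms {ι : Type} [Fintype ι] (D : HeckeSystem Γ ι)
    {φ : Additive Γ →+ A} (hφ : φ ∈ parabolicHoms R Γ A) : D.op R φ ∈ parabolicHoms R Γ A := by
  intro γ hγ
  refine D.op_apply_eq_zero R φ γ fun i m _ hi => hφ _ ?_
  rw [D.trace_elt hi, Subgroup.coe_pow]
  exact (trace_pow_sq _ hγ.le m).2 hγ

theorem op_mem_cuspidalHoms {ι : Type} [Fintype ι] (D : HeckeSystem Γ ι)
    {φ : Additive Γ →+ A} (hφ : φ ∈ cuspidalHoms R Γ A) : D.op R φ ∈ cuspidalHoms R Γ A := by
  intro γ hγ
  refine D.op_apply_eq_zero R φ γ fun i m _ hi => hφ _ ?_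
  rw [D.trace_elt hi, Subgroup.coe_pow]
  exact (trace_pow_sq _ hγ m).1

variable (R A) (N : ℕ)

/-- `T p` or `U p` on parabolic homomorphisms. -/
noncomputable def heckeParOp (p : Nat.Primes) : Module.End R (parabolicHoms R (Gamma0 N) A) :=
  (heckeHomOp N R A p).restrict fun _ hφ => op_mem_parabolicHoms _ hφ

/-- `T p` or `U p` on homomorphisms killing parabolic and elliptic elements. -/
noncomputable def heckeCuspOp (p : Nat.Primes) : Module.End R (cuspidalHoms R (Gamma0 N) A) :=
  (heckeHomOp N R A p).restrict fun _ hφ => op_mem_cuspidalHoms _ hφ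

/-- The involution on parabolic homomorphisms. -/
noncomputable def involParOp : Module.End R (parabolicHoms R (Gamma0 N) A) :=
  (charInvolution N R A).restrict fun _ hφ => charInvolution_mem_parabolicHoms N R A hφ

theorem charInvolution_mem_cuspidalHoms {φ : Additive (Gamma0 N) →+ A}
    (hφ : φ ∈ cuspidalHoms R (Gamma0 N) A) :
    charInvolution N R A φ ∈ cuspidalHoms R (Gamma0 N) A := by
  intro γ hγ
  refine hφ (jConjGamma0 N γ) ?_
  rw [jConjGamma0_coe, jConjSL_coe, jConjMat_trace]
  exact hγ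

/-- The involution on homomorphisms killing parabolic and elliptic elements. -/
noncomputable def involCuspOp : Module.End R (cuspidalHoms R (Gamma0 N) A) :=
  (charInvolution N R A).restrict fun _ hφ => charInvolution_mem_cuspidalHoms R A N hφ

variable {R A N}

@[simp]
theorem coe_heckeParOp (p : Nat.Primes) (φ : parabolicHoms R (Gamma0 N) A) :
    (heckeParOp R A N p φ : Additive (Gamma0 N) →+ A) = heckeHomOp N R A p φ := rfl

@[simp]
theorem coe_heckeCuspOp (p : Nat.Primes) (φ : cuspidalHoms R (Gamma0 N) A) :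
    (heckeCuspOp R A N p φ : Additive (Gamma0 N) →+ A) = heckeHomOp N R A p φ := rfl

@[simp]
theorem coe_involParOp (φ : parabolicHoms R (Gamma0 N) A) :
    (involParOp R A N φ : Additive (Gamma0 N) →+ A) = charInvolution N R A φ := rfl

@[simp]
theorem coe_involCuspOp (φ : cuspidalHoms R (Gamma0 N) A) :
    (involCuspOp R A N φ : Additive (Gamma0 N) →+ A) = charInvolution N R A φ := rfl

end FermatLib.Modular
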