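import Fermat.Agent.Modular.CorrKummer
import Fermat.Agent.Modular.CorrConstExt
import Fermat.Agent.Modular.Kummer.KummerEquiv
import Fermat.Agent.Modular.HeckeParabolic
import Fermat.Agent.Curve.Descent.LaurentExt
import Fermat.Agent.Curve.ConstExt.Genus
import Fermat.Agent.Curve.RiemannRoch

/-!
`J₀(N)[n] ≅ Hom_cusp(Γ₀(N), μₙ)`, compatibly with all Hecke operators.
-/

set_option autoImplicit false
set_option linter.style.haveILetI false
set_option synthInstance.maxHeartbeats 200000

noncomputable section

open Complex hiding I
open CongruenceSubgroup ModularCurve AlgebraicCurve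
open scoped MatrixGroups

namespace FermatLib.Modular.Corr

open FermatLib.Curve FermatLib.Modular.Kummer

attribute [local instance] neZero_mul' qbarAlgebraComplex

variable (N : ℕ) [NeZero N]

theorem barToComplex_heckeAlphaBar (l : ℕ) [NeZero l] (f : modularFunctionFieldBar N) :
    barToComplex (N * l) (heckeAlphaBar (AlgebraicClosure ℚ) N l f)
      = heckeAlphaBar ℂ N l (barToComplex N f) :=
  Subtype.ext (by rw [coe_barToComplex, coe_heckeAlphaBar, coe_heckeAlphaBar, coe_barToComplex])

omit [NeZero N] in
theorem barToComplex_heckeBetaBar (l : ℕ) [NeZero l] (f : modularFunctionFieldBar N) :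
    barToComplex (N * l) (heckeBetaBar (AlgebraicClosure ℚ) N l f)
      = heckeBetaBar ℂ N l (barToComplex N f) :=
  Subtype.ext (by
    rw [coe_barToComplex, coe_heckeBetaBar, coe_heckeBetaBar, coe_barToComplex,
      ModularCurve.coeffMap_qExpand])

end FermatLib.Modular.Corr
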