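import Mathlib.NumberTheory.ModularForms.Discriminant
import Mathlib.RingTheory.LaurentSeries
import Fermat.Prelude.Def_ModularCurve_LaurentCoeff

/-!
# Laurent `q`-expansions

`qMero` is the algebra of `1`-periodic holomorphic functions on the upper half plane which are
meromorphic at `i∞` (bounded after multiplication by a power of `Δ`); `qExpL` sends such a function
to its expansion in `LaurentSeries ℂ`.
-/

set_option autoImplicit false

noncomputable section

open UpperHalfPlane Filter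
open scoped MatrixGroups ModularForm Manifold Topology

namespace FermatLib.Modular

local notation "Δ" => ModularForm.discriminant

theorem periodic_comp_ofComplex_of_vadd {G : ℍ → ℂ}
    (hG : ∀ τ : ℍ, G ((1 : ℝ) +ᵥ τ) = G τ) :
    Function.Periodic (G ∘ ofComplex) ((1 : ℝ) : ℂ) := by
  intro z
  rcases le_or_gt z.im 0 with hz | hz
  · have hz' : (z + ((1 : ℝ) : ℂ)).im ≤ 0 := by simpa using hz
    simp only [Function.comp_apply, ofComplex_apply_of_im_nonpos hz,
      ofComplex_apply_of_im_nonpos hz']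
  · have hz' : 0 < (z + ((1 : ℝ) : ℂ)).im := by simpa using hz
    simp only [Function.comp_apply, ofComplex_apply_of_im_pos hz, ofComplex_apply_of_im_pos hz']
    rw [← hG ⟨z, hz⟩]
    congr 1
    apply UpperHalfPlane.ext
    simp [add_comm]

/-- `1`-periodic holomorphic functions which are meromorphic at `i∞`. -/
def qMero : Subalgebra ℂ (ℍ → ℂ) where
  carrier := {G | (∀ τ : ℍ, G ((1 : ℝ) +ᵥ τ) = G τ) ∧ MDiff G ∧
    ∃ m : ℕ, IsBoundedAtImInfty (G * Δ ^ m)}
  mul_mem' := by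
    rintro a b ⟨ha, ha', m, ham⟩ ⟨hb, hb', n, hbn⟩
    refine ⟨fun τ => by simp only [Pi.mul_apply, ha, hb], ha'.mul hb', m + n, ?_⟩
    have h : IsBoundedAtImInfty ((a * Δ ^ m) * (b * Δ ^ n)) := BoundedAtFilter.mul ham hbn
    rwa [show a * b * Δ ^ (m + n) = (a * Δ ^ m) * (b * Δ ^ n) by rw [pow_add]; ring]
  add_mem' := by
    rintro a b ⟨ha, ha', m, ham⟩ ⟨hb, hb', n, hbn⟩
    refine ⟨fun τ => by simp only [Pi.add_apply, ha, hb], ha'.add hb', m + n, ?_⟩
    have hΔ := ModularForm.discriminant_isZeroAtImInfty.isBoundedAtImInfty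
    have hp : ∀ i : ℕ, IsBoundedAtImInfty (Δ ^ i) := fun i =>
      pow_mem (show (Δ : ℍ → ℂ) ∈ boundedAtImInftySubalgebra ℂ from hΔ) i
    have h : IsBoundedAtImInfty ((a * Δ ^ m) * Δ ^ n + (b * Δ ^ n) * Δ ^ m) :=
      BoundedAtFilter.add (BoundedAtFilter.mul ham (hp n)) (BoundedAtFilter.mul hbn (hp m))
    rwa [show (a + b) * Δ ^ (m + n) = (a * Δ ^ m) * Δ ^ n + (b * Δ ^ n) * Δ ^ m by
      rw [pow_add]; ring]
  algebraMap_mem' r := by
    refine ⟨fun τ => rfl, mdifferentiable_const, 0, ?_⟩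
    simpa using! (const_boundedAtFilter atImInfty r)

theorem mem_qMero {G : ℍ → ℂ} : G ∈ qMero ↔ (∀ τ : ℍ, G ((1 : ℝ) +ᵥ τ) = G τ) ∧ MDiff G ∧
    ∃ m : ℕ, IsBoundedAtImInfty (G * Δ ^ m) := Iff.rfl

theorem qParam_one_vadd (τ : ℍ) :
    Function.Periodic.qParam 1 (((1 : ℝ) +ᵥ τ : ℍ) : ℂ) = Function.Periodic.qParam 1 (τ : ℂ) := by
  rw [UpperHalfPlane.coe_vadd]
  simp [Function.Periodic.qParam, mul_add, Complex.exp_add, Complex.exp_two_pi_mul_I]

theorem discriminant_vadd_one (τ : ℍ) : Δ ((1 : ℝ) +ᵥ τ) = Δ τ := by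
  rw [ModularForm.discriminant_eq_q_prod, ModularForm.discriminant_eq_q_prod]
  simp only [ModularForm.eta_q, qParam_one_vadd]

theorem discriminant_mem_qMero : (Δ : ℍ → ℂ) ∈ qMero := by
  refine mem_qMero.mpr ⟨discriminant_vadd_one, ?_, 0, ?_⟩
  · exact ModularFormClass.holo CuspForm.discriminant
  · simpa using ModularForm.discriminant_isZeroAtImInfty.isBoundedAtImInfty

theorem analyticAt_cuspFunction_of_mem {G : ℍ → ℂ} (hG : G ∈ qMero) (hb : IsBoundedAtImInfty G) :
    AnalyticAt ℂ (cuspFunction 1 G) 0 :=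
  UpperHalfPlane.analyticAt_cuspFunction_zero one_pos (periodic_comp_ofComplex_of_vadd hG.1) hG.2.1
    hb

/-- The `q`-expansion of `Δ` in `LaurentSeries ℂ`. -/
def qExpDelta : LaurentSeries ℂ := HahnSeries.ofPowerSeries ℤ ℂ (qExpansion 1 Δ)

theorem qExpDelta_ne_zero : qExpDelta ≠ 0 := by
  rw [qExpDelta, map_ne_zero_iff _ HahnSeries.ofPowerSeries_injective]
  intro h
  simpa [h] using ModularForm.discriminant_qExpansion_coeff_one

open scoped Classical in
/-- The Laurent `q`-expansion (meaningful on `qMero`). -/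
def qExpL (G : ℍ → ℂ) : LaurentSeries ℂ :=
  if h : ∃ m : ℕ, IsBoundedAtImInfty (G * Δ ^ m) then
    HahnSeries.ofPowerSeries ℤ ℂ (qExpansion 1 (G * Δ ^ (Nat.find h))) / qExpDelta ^ (Nat.find h)
  else 0

theorem qExpansion_mul_discriminant_pow {G : ℍ → ℂ} (hG : G ∈ qMero) (hb : IsBoundedAtImInfty G)
    (n : ℕ) : qExpansion 1 (G * Δ ^ n) = qExpansion 1 G * qExpansion 1 Δ ^ n := by
  induction n generalizing G with
  | zero => simp
  | succ n ih =>
    have hΔ := ModularForm.discriminant_isZeroAtImInfty.isBoundedAtImInfty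
    rw [pow_succ' (Δ : ℍ → ℂ), ← mul_assoc,
      ih (mul_mem hG discriminant_mem_qMero) (BoundedAtFilter.mul hb hΔ),
      qExpansion_mul (analyticAt_cuspFunction_of_mem hG hb)
        (analyticAt_cuspFunction_of_mem discriminant_mem_qMero hΔ), pow_succ']
    ring

theorem qExpL_mul_pow {G : ℍ → ℂ} (hG : G ∈ qMero) {m : ℕ}
    (hm : IsBoundedAtImInfty (G * Δ ^ m)) :
    qExpL G * qExpDelta ^ m = HahnSeries.ofPowerSeries ℤ ℂ (qExpansion 1 (G * Δ ^ m)) := by
  classical
  have h : ∃ m : ℕ, IsBoundedAtImInfty (G * Δ ^ m) := ⟨m, hm⟩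
  obtain ⟨d, hd⟩ := Nat.exists_eq_add_of_le (Nat.find_min' h hm)
  rw [qExpL, dif_pos h]
  generalize hk : Nat.find h = k at hd ⊢
  subst hd
  have hkb : IsBoundedAtImInfty (G * Δ ^ k) := hk ▸ Nat.find_spec h
  rw [pow_add (Δ : ℍ → ℂ), ← mul_assoc,
    qExpansion_mul_discriminant_pow (mul_mem hG (pow_mem discriminant_mem_qMero _)) hkb d, map_mul,
    map_pow, pow_add, ← qExpDelta, ← mul_assoc, div_mul_cancel₀ _ (pow_ne_zero k qExpDelta_ne_zero)]

theorem qExpL_of_bounded {G : ℍ → ℂ} (hG : G ∈ qMero) (hb : IsBoundedAtImInfty G) :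
    qExpL G = HahnSeries.ofPowerSeries ℤ ℂ (qExpansion 1 G) := by
  have h := qExpL_mul_pow hG (m := 0) (by simpa using hb)
  simpa using h

theorem qExpL_one : qExpL 1 = 1 := by
  rw [qExpL_of_bounded (one_mem qMero) (const_boundedAtFilter atImInfty 1), qExpansion_one, map_one]

theorem qExpL_zero : qExpL 0 = 0 := by
  rw [qExpL_of_bounded (zero_mem qMero) (zero_form_isBoundedAtImInfty), qExpansion_zero, map_zero]

theorem qExpL_mul {a b : ℍ → ℂ} (ha : a ∈ qMero) (hb : b ∈ qMero) :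
    qExpL (a * b) = qExpL a * qExpL b := by
  obtain ⟨m, hm⟩ := ha.2.2
  obtain ⟨n, hn⟩ := hb.2.2
  have e : a * b * Δ ^ (m + n) = (a * Δ ^ m) * (b * Δ ^ n) := by rw [pow_add]; ring
  have hbd : IsBoundedAtImInfty (a * b * Δ ^ (m + n)) := e ▸ BoundedAtFilter.mul hm hn
  apply mul_right_cancel₀ (pow_ne_zero (m + n) qExpDelta_ne_zero)
  rw [qExpL_mul_pow (mul_mem ha hb) hbd, e,
    qExpansion_mul
      (analyticAt_cuspFunction_of_mem (mul_mem ha (pow_mem discriminant_mem_qMero _)) hm)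
      (analyticAt_cuspFunction_of_mem (mul_mem hb (pow_mem discriminant_mem_qMero _)) hn),
    map_mul, ← qExpL_mul_pow ha hm, ← qExpL_mul_pow hb hn, pow_add]
  ring

theorem qExpL_add {a b : ℍ → ℂ} (ha : a ∈ qMero) (hb : b ∈ qMero) :
    qExpL (a + b) = qExpL a + qExpL b := by
  obtain ⟨m, hm⟩ := ha.2.2
  obtain ⟨n, hn⟩ := hb.2.2
  have hp : ∀ i : ℕ, IsBoundedAtImInfty ((Δ : ℍ → ℂ) ^ i) := fun i =>
    pow_mem (show (Δ : ℍ → ℂ) ∈ boundedAtImInftySubalgebra ℂ from
      ModularForm.discriminant_isZeroAtImInfty.isBoundedAtImInfty) i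
  have ham : IsBoundedAtImInfty (a * Δ ^ (m + n)) := by
    rw [pow_add, ← mul_assoc]; exact BoundedAtFilter.mul hm (hp n)
  have hbm : IsBoundedAtImInfty (b * Δ ^ (m + n)) := by
    rw [pow_add, mul_left_comm, mul_comm]; exact BoundedAtFilter.mul hn (hp m)
  have e : (a + b) * Δ ^ (m + n) = a * Δ ^ (m + n) + b * Δ ^ (m + n) := add_mul _ _ _
  have hbd : IsBoundedAtImInfty ((a + b) * Δ ^ (m + n)) := e ▸ BoundedAtFilter.add ham hbm
  apply mul_right_cancel₀ (pow_ne_zero (m + n) qExpDelta_ne_zero)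
  rw [qExpL_mul_pow (add_mem ha hb) hbd, e,
    qExpansion_add
      (analyticAt_cuspFunction_of_mem (mul_mem ha (pow_mem discriminant_mem_qMero _)) ham)
      (analyticAt_cuspFunction_of_mem (mul_mem hb (pow_mem discriminant_mem_qMero _)) hbm),
    map_add, ← qExpL_mul_pow ha ham, ← qExpL_mul_pow hb hbm]
  ring

theorem qExpL_algebraMap (r : ℂ) :
    qExpL (algebraMap ℂ (ℍ → ℂ) r) = algebraMap ℂ (LaurentSeries ℂ) r := by
  have hb : IsBoundedAtImInfty (1 : ℍ → ℂ) := const_boundedAtFilter atImInfty 1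
  rw [Algebra.algebraMap_eq_smul_one, qExpL_of_bounded (Subalgebra.smul_mem _ (one_mem qMero) r)
      (Submodule.smul_mem (Subalgebra.toSubmodule (boundedAtImInftySubalgebra ℂ)) r hb),
    qExpansion_smul (analyticAt_cuspFunction_of_mem (one_mem qMero) hb), qExpansion_one,
    ModularCurve.algebraMap_laurentSeries_eq_single, PowerSeries.smul_eq_C_mul, mul_one,
    HahnSeries.ofPowerSeries_C]
  rfl

/-- The `q`-expansion as an algebra homomorphism. -/
def qExpLHom : qMero →ₐ[ℂ] LaurentSeries ℂ where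
  toFun G := qExpL G
  map_one' := qExpL_one
  map_mul' a b := qExpL_mul a.2 b.2
  map_zero' := qExpL_zero
  map_add' a b := qExpL_add a.2 b.2
  commutes' r := qExpL_algebraMap r

@[simp]
theorem qExpLHom_apply (G : qMero) : qExpLHom G = qExpL G := rfl

theorem qExpL_eq_zero_iff {G : ℍ → ℂ} (hG : G ∈ qMero) : qExpL G = 0 ↔ G = 0 := by
  refine ⟨fun h => ?_, fun h => h ▸ qExpL_zero⟩
  obtain ⟨m, hm⟩ := hG.2.2
  have h' := qExpL_mul_pow hG hm
  rw [h, zero_mul, eq_comm, map_eq_zero_iff _ HahnSeries.ofPowerSeries_injective] at h'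
  have hmem := mul_mem hG (pow_mem discriminant_mem_qMero m)
  have h0 := (qExpansion_eq_zero_iff one_pos (periodic_comp_ofComplex_of_vadd hmem.1) hmem.2.1 hm).mp h'
  funext τ
  have h1 := congrFun h0 τ
  simp only [Pi.mul_apply, Pi.pow_apply, Pi.zero_apply, mul_eq_zero] at h1
  exact h1.resolve_right (pow_ne_zero m (ModularForm.discriminant_ne_zero τ))

theorem qExpLHom_injective : Function.Injective qExpLHom := by
  rw [injective_iff_map_eq_zero]
  intro G hG
  exact Subtype.ext ((qExpL_eq_zero_iff G.2).mp hG)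

end FermatLib.Modular

end
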