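import Mathlib.NumberTheory.ModularForms.CongruenceSubgroups
import Fermat.Agent.Modular.JFunction
import Fermat.Agent.Modular.QSeries

/-!
# Weakly holomorphic modular functions

`weakMod Γ` is the algebra of holomorphic `Γ`-invariant functions on the upper half plane which
are meromorphic at all cusps.
-/

set_option autoImplicit false

noncomputable section

open UpperHalfPlane Filter CongruenceSubgroup
open scoped MatrixGroups ModularForm Manifold Topology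

namespace FermatLib.Modular

local notation "Δ" => ModularForm.discriminant

theorem isBoundedAtImInfty_discriminant_pow (n : ℕ) :
    IsBoundedAtImInfty ((Δ : ℍ → ℂ) ^ n) :=
  pow_mem (show (Δ : ℍ → ℂ) ∈ boundedAtImInftySubalgebra ℂ from
    ModularForm.discriminant_isZeroAtImInfty.isBoundedAtImInfty) n

/-- Holomorphic `Γ`-invariant functions on `ℍ`, meromorphic at every cusp. -/
def weakMod (Γ : Subgroup SL(2, ℤ)) : Subalgebra ℂ (ℍ → ℂ) where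
  carrier := {G | MDiff G ∧ (∀ γ ∈ Γ, ∀ τ : ℍ, G (γ • τ) = G τ) ∧
    ∀ γ : SL(2, ℤ), ∃ m : ℕ, IsBoundedAtImInfty ((fun τ => G (γ • τ)) * Δ ^ m)}
  mul_mem' := by
    rintro a b ⟨ha, ha', hac⟩ ⟨hb, hb', hbc⟩
    refine ⟨ha.mul hb, fun γ hγ τ => by simp only [Pi.mul_apply, ha' γ hγ, hb' γ hγ],
      fun γ => ?_⟩
    obtain ⟨m, hm⟩ := hac γ
    obtain ⟨n, hn⟩ := hbc γ
    refine ⟨m + n, ?_⟩
    have h := BoundedAtFilter.mul hm hn
    rwa [show (fun τ => (a * b) (γ • τ)) * Δ ^ (m + n)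
        = ((fun τ => a (γ • τ)) * Δ ^ m) * ((fun τ => b (γ • τ)) * Δ ^ n) by
      ext τ; simp [pow_add]; ring]
  add_mem' := by
    rintro a b ⟨ha, ha', hac⟩ ⟨hb, hb', hbc⟩
    refine ⟨ha.add hb, fun γ hγ τ => by simp only [Pi.add_apply, ha' γ hγ, hb' γ hγ],
      fun γ => ?_⟩
    obtain ⟨m, hm⟩ := hac γ
    obtain ⟨n, hn⟩ := hbc γ
    refine ⟨m + n, ?_⟩
    have h := BoundedAtFilter.add
      (BoundedAtFilter.mul hm (isBoundedAtImInfty_discriminant_pow n))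
      (BoundedAtFilter.mul hn (isBoundedAtImInfty_discriminant_pow m))
    rwa [show (fun τ => (a + b) (γ • τ)) * Δ ^ (m + n)
        = ((fun τ => a (γ • τ)) * Δ ^ m) * Δ ^ n + ((fun τ => b (γ • τ)) * Δ ^ n) * Δ ^ m by
      ext τ; simp [pow_add]; ring]
  algebraMap_mem' r := by
    refine ⟨mdifferentiable_const, fun γ _ τ => rfl, fun γ => ⟨0, ?_⟩⟩
    simpa using! (const_boundedAtFilter atImInfty r)

theorem mem_weakMod {Γ : Subgroup SL(2, ℤ)} {G : ℍ → ℂ} :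
    G ∈ weakMod Γ ↔ MDiff G ∧ (∀ γ ∈ Γ, ∀ τ : ℍ, G (γ • τ) = G τ) ∧
      ∀ γ : SL(2, ℤ), ∃ m : ℕ, IsBoundedAtImInfty ((fun τ => G (γ • τ)) * Δ ^ m) := Iff.rfl

theorem weakMod_mono {Γ Γ' : Subgroup SL(2, ℤ)} (h : Γ ≤ Γ') : weakMod Γ' ≤ weakMod Γ :=
  fun _ hG => ⟨hG.1, fun γ hγ τ => hG.2.1 γ (h hγ) τ, hG.2.2⟩

theorem modularGroup_T_mem_Gamma0 (N : ℕ) : ModularGroup.T ∈ Gamma0 N := by
  rw [Gamma0_mem]
  simp [ModularGroup.T]

theorem weakMod_le_qMero {Γ : Subgroup SL(2, ℤ)} (hT : ModularGroup.T ∈ Γ) :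
    weakMod Γ ≤ qMero := fun G hG => by
  refine mem_qMero.mpr ⟨fun τ => ?_, hG.1, ?_⟩
  · rw [← UpperHalfPlane.modular_T_smul]
    exact hG.2.1 _ hT τ
  · simpa using hG.2.2 1

theorem weakMod_Gamma0_le_qMero (N : ℕ) : weakMod (Gamma0 N) ≤ qMero :=
  weakMod_le_qMero (modularGroup_T_mem_Gamma0 N)

/-- The `q`-expansion on `weakMod (Γ₀(N))`. -/
def qExpWeak (N : ℕ) : weakMod (Gamma0 N) →ₐ[ℂ] LaurentSeries ℂ :=
  qExpLHom.comp (Subalgebra.inclusion (weakMod_Gamma0_le_qMero N))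

@[simp]
theorem qExpWeak_apply {N : ℕ} (G : weakMod (Gamma0 N)) :
    qExpWeak N G = qExpL (G : ℍ → ℂ) := rfl

theorem qExpWeak_injective (N : ℕ) : Function.Injective (qExpWeak N) :=
  qExpLHom_injective.comp (Subalgebra.inclusion_injective (weakMod_Gamma0_le_qMero N))

theorem jFun_mem_weakMod (Γ : Subgroup SL(2, ℤ)) : jFun ∈ weakMod Γ := by
  refine ⟨mdifferentiable_jFun, fun γ _ τ => jFun_smul γ τ, fun γ => ⟨1, ?_⟩⟩
  have h4 : IsBoundedAtImInfty (⇑ModularForm.E₄) := ModularFormClass.bdd_at_infty _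
  have h := BoundedAtFilter.mul (BoundedAtFilter.mul h4 h4) h4
  rwa [show (fun τ => jFun (γ • τ)) * Δ ^ 1
      = ⇑ModularForm.E₄ * ⇑ModularForm.E₄ * ⇑ModularForm.E₄ by
    ext τ
    simp only [Pi.mul_apply, pow_one, jFun_smul, jFun_mul_discriminant]
    ring]

/-- A holomorphic `Γ`-slash invariant function of weight `12 m`, bounded at all cusps, divided by
`Δ ^ m`, is in `weakMod Γ`. -/
theorem div_discriminant_pow_mem {Γ : Subgroup SL(2, ℤ)} (m : ℕ) {F : ℍ → ℂ} (hF : MDiff F)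
    (hinv : ∀ γ ∈ Γ, F ∣[((12 * m : ℕ) : ℤ)] γ = F)
    (hbdd : ∀ γ : SL(2, ℤ), IsBoundedAtImInfty (F ∣[((12 * m : ℕ) : ℤ)] γ)) :
    (fun τ => F τ / Δ τ ^ m) ∈ weakMod Γ := by
  have hΔd : MDiff fun τ : ℍ => Δ τ ^ m :=
    (mem_qMero.mp (pow_mem discriminant_mem_qMero m)).2.1
  have key : ∀ (γ : SL(2, ℤ)) (τ : ℍ),
      F (γ • τ) / Δ (γ • τ) ^ m = (F ∣[((12 * m : ℕ) : ℤ)] γ) τ / Δ τ ^ m := by
    intro γ τ
    have hd : UpperHalfPlane.denom γ τ ≠ 0 := UpperHalfPlane.denom_ne_zero γ τ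
    have hΔ := slash_SL_apply_eq (slash_SL_eq_self CuspForm.discriminant γ) τ
    rw [CuspForm.coe_discriminant] at hΔ
    rw [hΔ, ModularForm.SL_slash_apply, mul_pow, ← zpow_natCast (_ ^ (12 : ℤ)) m, ← zpow_mul,
      zpow_neg, Nat.cast_mul, Nat.cast_ofNat]
    field_simp [zpow_ne_zero, ModularForm.discriminant_ne_zero τ]
  refine ⟨hF.div hΔd fun τ => pow_ne_zero m (ModularForm.discriminant_ne_zero τ),
    fun γ hγ τ => ?_, fun γ => ⟨m, ?_⟩⟩
  · exact (key γ τ).trans (by rw [hinv γ hγ])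
  · rw [show (fun τ => F (γ • τ) / Δ (γ • τ) ^ m) * Δ ^ m = F ∣[((12 * m : ℕ) : ℤ)] γ by
      ext τ
      simp only [Pi.mul_apply, Pi.pow_apply, key,
        div_mul_cancel₀ _ (pow_ne_zero m (ModularForm.discriminant_ne_zero τ))]]
    exact hbdd γ

end FermatLib.Modular

end
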