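import Mathlib.NumberTheory.ModularForms.EisensteinSeries.QExpansion
import Mathlib.Analysis.Complex.LocallyUniformLimit
import Mathlib.Analysis.Calculus.IteratedDeriv.Lemmas
import Fermat.Prelude.Def_ModularCurve_X0
import Fermat.Prelude.Def_ModularCurve_ModularUnit
import Fermat.Agent.Modular.WeakModular

/-!
# `q`-expansions of `Δ`, `E₄` and `j`
-/

set_option autoImplicit false

noncomputable section

open UpperHalfPlane Filter ModularCurve
open scoped MatrixGroups ModularForm Manifold Topology

namespace FermatLib.Modular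

local notation "Δ" => ModularForm.discriminant

/-- The Taylor series at `0`. -/
def taylorZero (F : ℂ → ℂ) : PowerSeries ℂ :=
  .mk fun m => (↑m.factorial)⁻¹ * iteratedDeriv m F 0

/-- A function of `q = e^{2πiτ}`. -/
def compQ (F : ℂ → ℂ) : ℍ → ℂ := fun τ => F (Function.Periodic.qParam 1 (τ : ℂ))

theorem qExpansion_compQ {F : ℂ → ℂ} (hF : DifferentiableOn ℂ F (Metric.ball 0 1)) :
    qExpansion 1 (compQ F) = taylorZero F := by
  have hne : ∀ q : ℂ, ‖q‖ < 1 → q ≠ 0 → cuspFunction 1 (compQ F) q = F q := by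
    intro q hq hq0
    have him := Function.Periodic.im_invQParam_pos_of_norm_lt_one one_pos hq hq0
    rw [cuspFunction, Function.Periodic.cuspFunction_eq_of_nonzero 1 _ hq0]
    simp [compQ, ofComplex_apply_of_im_pos him,
      Function.Periodic.qParam_right_inv one_ne_zero hq0]
  have h0 : cuspFunction 1 (compQ F) 0 = F 0 := by
    rw [cuspFunction, Function.Periodic.cuspFunction, Function.update_self]
    refine Tendsto.limUnder_eq ?_
    have hc : Tendsto F (𝓝[≠] (0 : ℂ)) (𝓝 (F 0)) :=
      ((hF.differentiableAt (Metric.ball_mem_nhds 0 one_pos)).continuousAt.tendsto).mono_left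
        nhdsWithin_le_nhds
    refine hc.congr' ?_
    rw [EventuallyEq, eventually_nhdsWithin_iff]
    filter_upwards [Metric.ball_mem_nhds (0 : ℂ) one_pos] with q hq hq0
    rw [mem_ball_zero_iff] at hq
    have him := Function.Periodic.im_invQParam_pos_of_norm_lt_one one_pos hq hq0
    simp [compQ, ofComplex_apply_of_im_pos him,
      Function.Periodic.qParam_right_inv one_ne_zero hq0]
  have heq : cuspFunction 1 (compQ F) =ᶠ[𝓝 (0 : ℂ)] F := by
    filter_upwards [Metric.ball_mem_nhds (0 : ℂ) one_pos] with q hq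
    rcases eq_or_ne q 0 with rfl | hq0
    · exact h0
    · exact hne q (mem_ball_zero_iff.mp hq) hq0
  ext m
  rw [qExpansion_coeff, heq.iteratedDeriv_eq m, taylorZero, PowerSeries.coeff_mk]

theorem compQ_mem_qMero {F : ℂ → ℂ} (hF : DifferentiableOn ℂ F (Metric.ball 0 1)) :
    compQ F ∈ qMero ∧ IsBoundedAtImInfty (compQ F) := by
  have hb : IsBoundedAtImInfty (compQ F) := by
    have hc : Tendsto F (𝓝 (0 : ℂ)) (𝓝 (F 0)) :=
      (hF.differentiableAt (Metric.ball_mem_nhds 0 one_pos)).continuousAt.tendsto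
    exact (hc.comp (UpperHalfPlane.qParam_tendsto_atImInfty one_pos)).isBigO_one ℝ
  refine ⟨mem_qMero.mpr ⟨fun τ => by rw [compQ, compQ, qParam_one_vadd], ?_, 0, ?_⟩, hb⟩
  · rw [UpperHalfPlane.mdifferentiable_iff]
    have hd : DifferentiableOn ℂ (fun z : ℂ => F (Function.Periodic.qParam 1 z))
        {z : ℂ | 0 < z.im} :=
      hF.comp (Function.Periodic.differentiable_qParam.differentiableOn)
        fun z hz => mem_ball_zero_iff.mpr (Function.Periodic.norm_qParam_lt_one one_pos hz)
    exact hd.congr fun z hz => by simp [compQ, ofComplex_apply_of_im_pos hz]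
  · simpa using hb

theorem tendsto_iteratedDeriv_zero {ι : Type*} {φ : Filter ι} [φ.NeBot] {F : ι → ℂ → ℂ}
    {f : ℂ → ℂ} (hf : TendstoLocallyUniformlyOn F f φ (Metric.ball 0 1))
    (hF : ∀ i, DifferentiableOn ℂ (F i) (Metric.ball 0 1)) (m : ℕ) :
    Tendsto (fun i => iteratedDeriv m (F i) 0) φ (𝓝 (iteratedDeriv m f 0)) := by
  suffices h : TendstoLocallyUniformlyOn (fun i => iteratedDeriv m (F i)) (iteratedDeriv m f) φ
      (Metric.ball 0 1) ∧ ∀ i, DifferentiableOn ℂ (iteratedDeriv m (F i)) (Metric.ball 0 1) from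
    h.1.tendsto_at (Metric.mem_ball_self one_pos)
  induction m with
  | zero => simpa only [iteratedDeriv_zero] using! ⟨hf, hF⟩
  | succ m ih =>
    simp only [iteratedDeriv_succ]
    exact ⟨ih.1.deriv (.of_forall ih.2) Metric.isOpen_ball,
      fun i => (ih.2 i).deriv Metric.isOpen_ball⟩

theorem taylorZero_polynomial (P : Polynomial ℂ) :
    taylorZero (fun q => P.eval q) = (P : PowerSeries ℂ) := by
  have hd : ∀ m : ℕ, iteratedDeriv m (fun q => P.eval q) =
      fun q => (Polynomial.derivative^[m] P).eval q := by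
    intro m
    induction m with
    | zero => rfl
    | succ m ih =>
      funext q
      rw [iteratedDeriv_succ, ih, Polynomial.deriv, Function.iterate_succ_apply']
  ext m
  rw [taylorZero, PowerSeries.coeff_mk, hd, Polynomial.coeff_coe]
  beta_reduce
  rw [← Polynomial.coeff_zero_eq_eval_zero, Polynomial.coeff_iterate_derivative]
  simp [Nat.descFactorial_self, Nat.factorial_ne_zero]

theorem taylorZero_etaProd :
    taylorZero (fun q => ∏' n : ℕ, (1 - q ^ (n + 1))) = etaProd.map (Int.castRingHom ℂ) := by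
  ext m
  set P : Finset ℕ → Polynomial ℂ := fun s => ∏ i ∈ s, (1 - Polynomial.X ^ (i + 1)) with hP
  have h1 : Tendsto (fun s => ((P s : PowerSeries ℂ)).coeff m) atTop
      (𝓝 ((taylorZero fun q => ∏' n : ℕ, (1 - q ^ (n + 1))).coeff m)) := by
    have hu := ModularForm.multipliableLocallyUniformlyOn_one_sub_pow.hasProdLocallyUniformlyOn
    rw [HasProdLocallyUniformlyOn] at hu
    have h := (tendsto_iteratedDeriv_zero hu (fun s => by fun_prop) m).const_mul
      ((↑m.factorial : ℂ)⁻¹)
    simp only [taylorZero, PowerSeries.coeff_mk]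
    refine h.congr fun s => ?_
    rw [← taylorZero_polynomial (P s), taylorZero, PowerSeries.coeff_mk]
    congr 3
    funext q
    simp [hP, Polynomial.eval_prod]
  have h2 : Tendsto (fun s => ((P s : PowerSeries ℂ)).coeff m) atTop
      (𝓝 ((etaProd.map (Int.castRingHom ℂ)).coeff m)) := by
    open scoped PowerSeries.WithPiTopology in
    have h : Tendsto (fun s : Finset ℕ => PowerSeries.coeff m
        (∏ i ∈ s, (1 - PowerSeries.X ^ (i + 1) : PowerSeries ℤ))) atTop
        (𝓝 (PowerSeries.coeff m etaProd)) :=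
      ((PowerSeries.WithPiTopology.continuous_coeff ℤ m).tendsto _).comp
        (PowerSeries.WithPiTopology.multipliable_one_sub_X_pow ℤ).hasProd
    rw [PowerSeries.coeff_map]
    refine ((continuous_of_discreteTopology (f := Int.castRingHom ℂ)).tendsto _ |>.comp h).congr
      fun s => ?_
    rw [Function.comp_apply, ← PowerSeries.coeff_map, map_prod]
    congr 1
    rw [hP]
    simp only [← Polynomial.coeToPowerSeries.ringHom_apply, map_prod, map_sub, map_one, map_pow,
      PowerSeries.map_X]
    simp [Polynomial.coeToPowerSeries.ringHom_apply]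
  exact tendsto_nhds_unique h1 h2

theorem taylorZero_mul {F G : ℂ → ℂ} (hF : DifferentiableOn ℂ F (Metric.ball 0 1))
    (hG : DifferentiableOn ℂ G (Metric.ball 0 1)) :
    taylorZero (fun q => F q * G q) = taylorZero F * taylorZero G := by
  rw [← qExpansion_compQ hF, ← qExpansion_compQ hG, ← qExpansion_compQ (F := fun q => F q * G q)
    (hF.mul hG), show compQ (fun q => F q * G q) = compQ F * compQ G from rfl]
  exact qExpansion_mul
    (analyticAt_cuspFunction_of_mem (compQ_mem_qMero hF).1 (compQ_mem_qMero hF).2)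
    (analyticAt_cuspFunction_of_mem (compQ_mem_qMero hG).1 (compQ_mem_qMero hG).2)

theorem taylorZero_pow {F : ℂ → ℂ} (hF : DifferentiableOn ℂ F (Metric.ball 0 1)) (n : ℕ) :
    taylorZero (fun q => F q ^ n) = taylorZero F ^ n := by
  induction n with
  | zero =>
    have h := taylorZero_polynomial 1
    simp only [Polynomial.eval_one, Polynomial.coe_one] at h
    simpa using h
  | succ n ih => simp only [pow_succ]; rw [← ih]; exact taylorZero_mul (hF.fun_pow n) hF

/-- `Δ = q ∏ (1 - q^n)^24` as series. -/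
theorem qExpansion_discriminant :
    qExpansion 1 (Δ : ℍ → ℂ)
      = PowerSeries.X * dedekindEtaUnit.map (Int.castRingHom ℂ) := by
  have he := ModularForm.differentiableOn_tprod_one_sub_pow
  have hΔ : (Δ : ℍ → ℂ) = compQ (fun q => q * (∏' n : ℕ, (1 - q ^ (n + 1))) ^ 24) := by
    funext τ
    rw [compQ, ModularForm.discriminant_eq_q_prod]
    simp only [ModularForm.eta_q]
    rw [Multipliable.tprod_pow (ModularForm.multipliable_one_sub_pow
      (Function.Periodic.norm_qParam_lt_one one_pos τ.im_pos))]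
  have hX : taylorZero (fun q => q) = PowerSeries.X := by
    simpa using taylorZero_polynomial Polynomial.X
  rw [hΔ, qExpansion_compQ (F := fun q => q * (∏' n : ℕ, (1 - q ^ (n + 1))) ^ 24)
      (differentiableOn_id.mul (he.fun_pow 24)),
    taylorZero_mul (F := fun q => q) differentiableOn_id (he.fun_pow 24), hX,
    taylorZero_pow he, taylorZero_etaProd, dedekindEtaUnit, map_pow]

theorem ofPowerSeries_map_intCast_complex (f : PowerSeries ℤ) :
    HahnSeries.ofPowerSeries ℤ ℂ (f.map (Int.castRingHom ℂ)) =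
      coeffEmb ℂ (HahnSeries.ofPowerSeries ℤ ℚ (f.map (Int.castRingHom ℚ))) := by
  ext k
  rw [coeffEmb_coeff]
  rcases le_or_gt 0 k with hk | hk
  · lift k to ℕ using hk
    simp [HahnSeries.ofPowerSeries_apply_coeff]
  · rw [ofPowerSeries_coeff_of_neg _ hk, ofPowerSeries_coeff_of_neg _ hk, map_zero]

theorem qExpDelta_eq : qExpDelta = coeffEmb ℂ deltaSeries := by
  rw [qExpDelta, qExpansion_discriminant, map_mul, ofPowerSeries_map_intCast_complex,
    deltaSeries, map_mul, dedekindEtaUnitQ, HahnSeries.ofPowerSeries_X]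
  congr 1
  rw [coeffEmb, coeffMap_single]
  simp

theorem qExpansion_E₄ :
    qExpansion 1 (⇑ModularForm.E₄) = eisenstein4.map (Int.castRingHom ℂ) := by
  ext m
  rw [EisensteinSeries.E_qExpansion_coeff (by norm_num) (by decide), PowerSeries.coeff_map,
    eisenstein4, PowerSeries.coeff_mk]
  split
  · simp
  · rw [bernoulli_eq_bernoulli'_of_ne_one (by norm_num), bernoulli'_four,
      ArithmeticFunction.sigma_apply]
    push_cast
    norm_num

theorem qExpL_pow {G : ℍ → ℂ} (hG : G ∈ qMero) (n : ℕ) : qExpL (G ^ n) = qExpL G ^ n := by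
  induction n with
  | zero => simpa using qExpL_one
  | succ n ih => rw [pow_succ G, qExpL_mul (pow_mem hG n) hG, ih, pow_succ]

theorem apply_one_vadd_of_levelOne {F : Type*} [FunLike F ℍ ℂ] {k : ℤ}
    [SlashInvariantFormClass F 𝒮ℒ k] (f : F) (τ : ℍ) : f ((1 : ℝ) +ᵥ τ) = f τ := by
  have h := SlashInvariantFormClass.periodic_comp_ofComplex f one_mem_strictPeriods_SL (τ : ℂ)
  simp only [Function.comp_apply] at h
  rw [show (τ : ℂ) + ((1 : ℝ) : ℂ) = (((1 : ℝ) +ᵥ τ : ℍ) : ℂ) by simp [add_comm],
    ofComplex_apply, ofComplex_apply] at h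
  exact h

/-- `q`-expansion of `j`. -/
theorem qExpL_jFun : qExpL jFun = coeffEmb ℂ jq := by
  have hmem : jFun ∈ qMero := weakMod_Gamma0_le_qMero 1 (jFun_mem_weakMod _)
  have h4 : (⇑ModularForm.E₄) ∈ qMero ∧ IsBoundedAtImInfty (⇑ModularForm.E₄) := by
    refine ⟨mem_qMero.mpr ⟨fun τ => ?_, ModularFormClass.holo _, 0, ?_⟩,
      ModularFormClass.bdd_at_infty _⟩
    · exact apply_one_vadd_of_levelOne ModularForm.E₄ τ
    · simpa using ModularFormClass.bdd_at_infty ModularForm.E₄
  have key := qExpL_mul hmem discriminant_mem_qMero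
  rw [show jFun * (Δ : ℍ → ℂ) = (⇑ModularForm.E₄) ^ 3 from funext jFun_mul_discriminant,
    qExpL_pow h4.1 3,
    qExpL_of_bounded h4.1 h4.2, qExpansion_E₄,
    qExpL_of_bounded discriminant_mem_qMero
      ModularForm.discriminant_isZeroAtImInfty.isBoundedAtImInfty,
    ← qExpDelta, qExpDelta_eq, ofPowerSeries_map_intCast_complex, ← map_pow] at key
  have hid : jq * deltaSeries
      = (HahnSeries.ofPowerSeries ℤ ℚ (eisenstein4.map (Int.castRingHom ℚ))) ^ 3 := by
    rw [jq, deltaSeries, dedekindEtaUnitQ, jNumQ, mul_mul_mul_comm, HahnSeries.single_mul_single,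
      ← map_mul, ← map_mul, jNum, mul_assoc, mul_comm dedekindEtaUnitInv, dedekindEtaUnit_mul_inv]
    simp
  rw [← hid, map_mul] at key
  exact (mul_right_cancel₀ (by rw [← qExpDelta_eq]; exact qExpDelta_ne_zero) key.symm)

end FermatLib.Modular

end
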