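import Mathlib
import Fermat.Agent.Modular.JOrder
import Fermat.Agent.Modular.QSeriesJ

/-!
# The Ramanujan identities for `E₂`, `E₄`, `E₆`

`D E₂ = (E₂² - E₄)/12`, `D E₄ = (E₂E₄ - E₆)/3`, `D E₆ = (E₂E₆ - E₄²)/2`, pointwise and on
`q`-expansions.
-/

set_option autoImplicit false

noncomputable section

open UpperHalfPlane hiding I
open Complex ModularForm EisensteinSeries Derivative Filter
open scoped MatrixGroups Topology Manifold

namespace FermatLib.Modular

/-- `D` is `q d/dq` on `q`-expansions. -/
theorem coeff_qExpansion_normalizedDeriv {F : ℍ → ℂ} (hper : Function.Periodic (F ∘ ofComplex) 1)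
    (hF : MDiff F) (hb : IsBoundedAtImInfty F) (m : ℕ) :
    (qExpansion 1 (normalizedDerivOfComplex F)).coeff m = m * (qExpansion 1 F).coeff m := by
  have hper' : Function.Periodic (F ∘ ofComplex) ((1 : ℝ) : ℂ) := by simpa using hper
  set C := cuspFunction 1 F with hC
  have hdC : DifferentiableOn ℂ C (Metric.ball 0 1) :=
    differentiableOn_cuspFunction_ball one_pos hper' hF hb
  have hCd : DifferentiableOn ℂ (fun q => q * deriv C q) (Metric.ball 0 1) :=
    differentiableOn_id.mul (hdC.deriv Metric.isOpen_ball)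
  have heq : normalizedDerivOfComplex F = compQ fun q => q * deriv C q := by
    funext τ
    have hq : ‖Function.Periodic.qParam 1 (τ : ℂ)‖ < 1 :=
      Function.Periodic.norm_qParam_lt_one one_pos τ.im_pos
    have hder : HasDerivAt (fun w : ℂ => Function.Periodic.qParam 1 w)
        (2 * (Real.pi : ℂ) * I * Function.Periodic.qParam 1 (τ : ℂ)) (τ : ℂ) := by
      simp only [Function.Periodic.qParam, Complex.ofReal_one, div_one]
      refine (((hasDerivAt_id (τ : ℂ)).const_mul (2 * (Real.pi : ℂ) * I)).cexp).congr_deriv ?_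
      simp [mul_comm]
    have hcomp := ((hdC.differentiableAt (Metric.isOpen_ball.mem_nhds
      (mem_ball_zero_iff.mpr hq))).hasDerivAt).comp (τ : ℂ) hder
    have hev : (F ∘ ofComplex) =ᶠ[𝓝 (τ : ℂ)] C ∘ fun w => Function.Periodic.qParam 1 w := by
      filter_upwards [isOpen_upperHalfPlaneSet.mem_nhds τ.im_pos] with w hw
      simp [hC, ofComplex_apply_of_im_pos hw, ← eq_cuspFunction ⟨w, hw⟩ one_ne_zero hper']
    rw [normalizedDerivOfComplex, (hcomp.congr_of_eventuallyEq hev).deriv, compQ]
    field_simp [two_pi_I_ne_zero]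
  rw [heq, qExpansion_compQ hCd, taylorZero, PowerSeries.coeff_mk, qExpansion_coeff]
  rcases m with _ | m
  · simp
  · have hA : ContDiffAt ℂ (m + 1) (fun q : ℂ => q) 0 := contDiffAt_id
    have hB : ContDiffAt ℂ (m + 1) (deriv C) 0 :=
      ((hdC.deriv Metric.isOpen_ball).analyticAt
        (Metric.ball_mem_nhds 0 one_pos)).contDiffAt
    rw [iteratedDeriv_fun_mul hA hB, Finset.sum_eq_single 1]
    · rw [iteratedDeriv_one, deriv_id'', Nat.add_sub_cancel, ← iteratedDeriv_succ', ← hC,
        Nat.choose_one_right]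
      push_cast
      ring
    · intro i _ hi
      rcases i with _ | _ | i
      · simp
      · exact absurd rfl hi
      · have h2 : iteratedDeriv (i + 1 + 1) (fun q : ℂ => q) 0 = 0 := by
          rw [iteratedDeriv_succ', deriv_id'', iteratedDeriv_const]
          simp
        rw [h2, mul_zero, zero_mul]
    · simp

end FermatLib.Modular
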