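import Mathlib
import Fermat.Agent.Modular.FieldCx

/-!
A field of meromorphic functions on the upper half plane (the fraction field of the holomorphic
ones), with the order at a point as an additive valuation, and the evaluation of
`ℂ(X₀(N))` in it along a translate.
-/

set_option autoImplicit false

noncomputable section

open UpperHalfPlane hiding I
open CongruenceSubgroup ModularCurve
open scoped MatrixGroups Manifold Topology nonZeroDivisors

namespace FermatLib.Modular

/-- Holomorphic functions on the upper half plane. -/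
def holFun : Subalgebra ℂ (ℍ → ℂ) where
  carrier := {G | MDiff G}
  mul_mem' ha hb := ha.mul hb
  add_mem' ha hb := ha.add hb
  algebraMap_mem' _ := mdifferentiable_const

theorem analyticOnNhd_holFun (G : holFun) :
    AnalyticOnNhd ℂ ((G : ℍ → ℂ) ∘ ofComplex) upperHalfPlaneSet :=
  (UpperHalfPlane.mdifferentiable_iff.mp G.2).analyticOnNhd isOpen_upperHalfPlaneSet

theorem eq_zero_of_analyticOrderAt_eq_top {G : holFun} {τ : ℍ}
    (h : analyticOrderAt ((G : ℍ → ℂ) ∘ ofComplex) (τ : ℂ) = ⊤) : G = 0 := by
  have h2 := (analyticOnNhd_holFun G).eqOn_zero_of_preconnected_of_eventuallyEq_zero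
    (convex_halfSpace_im_gt 0).isPreconnected τ.im_pos (analyticOrderAt_eq_top.mp h)
  refine Subtype.ext (funext fun z => ?_)
  simpa using h2 z.im_pos

/-- Order of vanishing at `τ`, on holomorphic functions. -/
def ordHol (τ : ℍ) : AddValuation holFun (WithTop ℤ) :=
  AddValuation.of (fun G => meromorphicOrderAt ((G : ℍ → ℂ) ∘ ofComplex) (τ : ℂ))
    (by
      show meromorphicOrderAt ((0 : ℍ → ℂ) ∘ ofComplex) (τ : ℂ) = ⊤
      rw [meromorphicOrderAt_eq_top_iff]
      exact Filter.Eventually.of_forall fun _ => rfl)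
    (by
      show meromorphicOrderAt ((1 : ℍ → ℂ) ∘ ofComplex) (τ : ℂ) = 0
      classical
      rw [show ((1 : ℍ → ℂ) ∘ ofComplex) = fun _ => (1 : ℂ) from rfl,
        meromorphicOrderAt_const, if_neg one_ne_zero])
    (fun a b => meromorphicOrderAt_add ((analyticOnNhd_holFun a) _ τ.im_pos).meromorphicAt
      ((analyticOnNhd_holFun b) _ τ.im_pos).meromorphicAt)
    (fun a b => meromorphicOrderAt_mul ((analyticOnNhd_holFun a) _ τ.im_pos).meromorphicAt
      ((analyticOnNhd_holFun b) _ τ.im_pos).meromorphicAt)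

theorem ordHol_apply (τ : ℍ) (G : holFun) :
    ordHol τ G = meromorphicOrderAt ((G : ℍ → ℂ) ∘ ofComplex) (τ : ℂ) := rfl

theorem ordHol_eq_top_iff (τ : ℍ) {G : holFun} : ordHol τ G = ⊤ ↔ G = 0 := by
  refine ⟨fun h => ?_, fun h => h ▸ AddValuation.map_zero _⟩
  rw [ordHol_apply, ((analyticOnNhd_holFun G) _ τ.im_pos).meromorphicOrderAt_eq,
    ENat.map_eq_top_iff] at h
  exact eq_zero_of_analyticOrderAt_eq_top h

instance : IsDomain holFun := by
  have : Nontrivial holFun :=
    ⟨0, 1, fun h => by simpa using congrFun (congrArg Subtype.val h) UpperHalfPlane.I⟩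
  have : NoZeroDivisors holFun := ⟨fun {a b} hab => by
    have h := (ordHol UpperHalfPlane.I).map_mul a b
    rw [hab, AddValuation.map_zero, eq_comm, WithTop.add_eq_top] at h
    exact h.imp (ordHol_eq_top_iff _).mp (ordHol_eq_top_iff _).mp⟩
  exact NoZeroDivisors.to_isDomain _

/-- Meromorphic functions on the upper half plane. -/
abbrev MeroH : Type := FractionRing holFun

/-- `ordHol`, multiplicatively. -/
def valHol (τ : ℍ) : Valuation holFun (Multiplicative (WithTop ℤ)ᵒᵈ) :=
  AddValuation.toValuation (ordHol τ)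

theorem ordHol_nonZeroDivisors (τ : ℍ) :
    (holFun)⁰ ≤ (valHol τ).supp.primeCompl := fun _ hx h =>
  nonZeroDivisors.ne_zero hx ((ordHol_eq_top_iff τ).mp ((Valuation.mem_supp_iff (valHol τ) _).mp h))

/-- Order of vanishing at `τ`, on meromorphic functions. -/
def ordAtH (τ : ℍ) : AddValuation MeroH (WithTop ℤ) :=
  AddValuation.ofValuation
    ((valHol τ).extendToLocalization (ordHol_nonZeroDivisors τ) MeroH)

@[simp]
theorem ordAtH_algebraMap (τ : ℍ) (G : holFun) :
    ordAtH τ (algebraMap holFun MeroH G)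
      = meromorphicOrderAt ((G : ℍ → ℂ) ∘ ofComplex) (τ : ℂ) :=
  Valuation.extendToLocalization_apply_map_apply (valHol τ) (ordHol_nonZeroDivisors τ) MeroH G

variable (N : ℕ)

theorem mdifferentiable_comp_smul {G : ℍ → ℂ} (hG : MDiff G) (g : SL(2, ℤ)) :
    MDiff (fun τ => G (g • τ)) := by
  rw [UpperHalfPlane.mdifferentiable_iff] at hG ⊢
  intro z hz
  have hd : DifferentiableAt ℂ (fun w => ((g • ofComplex w : ℍ) : ℂ)) z :=
    (hasStrictDerivAt_smul (g := (g : GL (Fin 2) ℝ)) (by simp [← Int.cast_det]) ⟨z, hz⟩).hasDerivAt.differentiableAt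
  have h2 := DifferentiableAt.comp z (((hG _ (g • ofComplex z).im_pos).differentiableAt
    (isOpen_upperHalfPlaneSet.mem_nhds (g • ofComplex z).im_pos))) hd
  exact (h2.congr_of_eventuallyEq (Filter.Eventually.of_forall fun w => by simp)).differentiableWithinAt

/-- `G ↦ G ∘ g`, from weakly holomorphic modular functions to holomorphic functions. -/
def weakToHol (g : SL(2, ℤ)) : weakMod (Gamma0 N) →+* holFun where
  toFun G := ⟨fun τ => (G : ℍ → ℂ) (g • τ), mdifferentiable_comp_smul G.2.1 g⟩
  map_one' := rfl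
  map_mul' _ _ := rfl
  map_zero' := rfl
  map_add' _ _ := rfl

theorem weakToHol_injective (g : SL(2, ℤ)) : Function.Injective (weakToHol N g) := by
  intro a b h
  refine Subtype.ext (funext fun τ => ?_)
  have := congrFun (congrArg Subtype.val h) (g⁻¹ • τ)
  simpa [weakToHol, ← mul_smul] using this

variable [NeZero N]

/-- Evaluation of `ℂ(X₀(N))` as meromorphic functions, along `τ ↦ g τ`. -/
def meroEval (g : SL(2, ℤ)) : modularFunctionFieldCx N →+* MeroH :=
  (exists_lift_modularFunctionFieldCx N ((algebraMap holFun MeroH).comp (weakToHol N g))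
    ((IsFractionRing.injective holFun MeroH).comp (weakToHol_injective N g))).choose

theorem meroEval_qExpWeak (g : SL(2, ℤ)) (G : weakMod (Gamma0 N))
    (h : qExpWeak N G ∈ modularFunctionFieldCx N) :
    meroEval N g ⟨qExpWeak N G, h⟩ = algebraMap holFun MeroH (weakToHol N g G) :=
  (exists_lift_modularFunctionFieldCx N ((algebraMap holFun MeroH).comp (weakToHol N g))
    ((IsFractionRing.injective holFun MeroH).comp (weakToHol_injective N g))).choose_spec G h

end FermatLib.Modular
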