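import Mathlib.NumberTheory.ModularForms.EisensteinSeries.Basic
import Mathlib.Analysis.Normed.Group.Tannery

/-!
Weighted Eisenstein sums: `∑' v : Fin 2 → ℤ, a v * (v₀ τ + v₁) ^ (-k)` for bounded weights `a`.
-/

set_option autoImplicit false

noncomputable section

open UpperHalfPlane EisensteinSeries Filter Topology Matrix Complex
open scoped MatrixGroups ModularForm Manifold

namespace FermatLib.Modular

/-- Eisenstein sum with arbitrary weights. -/
def weightedEis (a : (Fin 2 → ℤ) → ℂ) (k : ℤ) (z : ℍ) : ℂ :=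
  ∑' v : Fin 2 → ℤ, a v * eisSummand k v z

variable {a : (Fin 2 → ℤ) → ℂ} {k : ℤ}

lemma norm_weightedEis_term_le (ha : ∀ v, ‖a v‖ ≤ 1) (v : Fin 2 → ℤ) (z : ℍ) :
    ‖a v * eisSummand k v z‖ ≤ ‖eisSummand k v z‖ := by
  rw [norm_mul]
  exact mul_le_of_le_one_left (norm_nonneg _) (ha v)

/-- Slashing permutes the weights. -/
lemma weightedEis_slash (a : (Fin 2 → ℤ) → ℂ) (k : ℤ) (A : SL(2, ℤ)) :
    weightedEis a k ∣[k] A = weightedEis (fun v ↦ a (v ᵥ* (A⁻¹ : SL(2, ℤ)).1)) k := by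
  have hA : A.1 * (A⁻¹ : SL(2, ℤ)).1 = 1 := congrArg Subtype.val (mul_inv_cancel A)
  have hA' : (A⁻¹ : SL(2, ℤ)).1 * A.1 = 1 := congrArg Subtype.val (inv_mul_cancel A)
  let e : (Fin 2 → ℤ) ≃ (Fin 2 → ℤ) :=
    { toFun := fun v ↦ v ᵥ* A.1
      invFun := fun v ↦ v ᵥ* (A⁻¹ : SL(2, ℤ)).1
      left_inv := fun v ↦ by
        simp only [vecMul_vecMul, hA, vecMul_one]
      right_inv := fun v ↦ by
        simp only [vecMul_vecMul, hA', vecMul_one] }
  ext1 z
  rw [ModularForm.SL_slash_apply, zpow_neg,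
    mul_inv_eq_iff_eq_mul₀ (zpow_ne_zero _ <| denom_ne_zero _ z)]
  simp only [weightedEis, eisSummand_SL2_apply]
  rw [← e.tsum_eq (fun v ↦ a (v ᵥ* (A⁻¹ : SL(2, ℤ)).1) * eisSummand k v z)]
  simp only [e, Equiv.coe_fn_mk, vecMul_vecMul, hA, vecMul_one]
  rw [mul_comm _ (_ ^ k), ← tsum_mul_left]
  exact tsum_congr fun v ↦ by ring

/-- The sum of norms of all summands is invariant under integer translations. -/
lemma tsum_norm_eisSummand_vadd (k : ℤ) (n : ℤ) (z : ℍ) :
    ∑' v : Fin 2 → ℤ, ‖eisSummand k v ((n : ℝ) +ᵥ z)‖ = ∑' v : Fin 2 → ℤ, ‖eisSummand k v z‖ := by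
  let e : (Fin 2 → ℤ) ≃ (Fin 2 → ℤ) :=
    { toFun := fun v ↦ ![v 0, v 1 + n * v 0]
      invFun := fun v ↦ ![v 0, v 1 - n * v 0]
      left_inv := fun v ↦ by ext i; fin_cases i <;> simp
      right_inv := fun v ↦ by ext i; fin_cases i <;> simp }
  rw [← e.tsum_eq (fun v ↦ ‖eisSummand k v z‖)]
  refine tsum_congr fun v ↦ ?_
  simp only [e, Equiv.coe_fn_mk, eisSummand, Matrix.cons_val_zero, Matrix.cons_val_one,
    UpperHalfPlane.coe_vadd]
  congr 2
  push_cast
  ring

lemma isBoundedAtImInfty_weightedEis (ha : ∀ v, ‖a v‖ ≤ 1) (hk : 3 ≤ k) :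
    IsBoundedAtImInfty (weightedEis a k) := by
  have hk' : (2 : ℝ) < k := by norm_cast
  rw [UpperHalfPlane.isBoundedAtImInfty_iff]
  refine ⟨∑' x : Fin 2 → ℤ, r ⟨⟨1, 2⟩, Nat.ofNat_pos⟩ ^ (-k) * ‖x‖ ^ (-k), 2, fun z hz ↦ ?_⟩
  have h1 : ‖weightedEis a k z‖ ≤ ∑' v : Fin 2 → ℤ, ‖eisSummand k v z‖ :=
    tsum_of_norm_bounded (summable_norm_eisSummand hk z).hasSum
      fun v ↦ norm_weightedEis_term_le ha v z
  set n : ℤ := ⌊z.re⌋ with hn
  set w : ℍ := ((-n : ℤ) : ℝ) +ᵥ z with hw
  have hmem : w ∈ verticalStrip 1 2 := by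
    constructor
    · rw [hw, UpperHalfPlane.vadd_re, abs_le]
      push_cast
      constructor <;> [linarith [Int.floor_le z.re]; linarith [Int.lt_floor_add_one z.re]]
    · rw [hw, UpperHalfPlane.vadd_im]
      exact hz
  refine h1.trans ?_
  rw [← tsum_norm_eisSummand_vadd k (-n) z]
  apply (summable_norm_eisSummand hk _).tsum_le_tsum
  · intro x
    simp_rw [eisSummand, norm_zpow]
    exact_mod_cast summand_bound_of_mem_verticalStrip (lt_trans two_pos hk').le x two_pos hmem
  · exact_mod_cast (summable_one_div_norm_rpow hk').mul_left <| r ⟨⟨1, 2⟩, Nat.ofNat_pos⟩ ^ (-k)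

lemma weightedEis_tendstoLocallyUniformly (ha : ∀ v, ‖a v‖ ≤ 1) (hk : 3 ≤ k) :
    TendstoLocallyUniformly
      (fun s : Finset (Fin 2 → ℤ) ↦ (∑ v ∈ s, a v * eisSummand k v ·))
      (weightedEis a k ·) atTop := by
  have hk' : (2 : ℝ) < k := by norm_cast
  have p_sum : Summable fun x : Fin 2 → ℤ ↦ ‖x‖ ^ (-k) :=
    mod_cast summable_one_div_norm_rpow hk'
  simp only [tendstoLocallyUniformly_iff_forall_isCompact, weightedEis]
  intro K hK
  obtain ⟨A, B, hB, HABK⟩ := subset_verticalStrip_of_isCompact hK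
  refine (tendstoUniformlyOn_tsum (hu := p_sum.mul_left <| r ⟨⟨A, B⟩, hB⟩ ^ (-k : ℝ))
    (fun p z hz ↦ ?_)).mono HABK
  refine (norm_weightedEis_term_le ha p z).trans ?_
  simpa only [eisSummand, one_div, ← zpow_neg, norm_zpow, ← Real.rpow_intCast,
    Int.cast_neg] using summand_bound_of_mem_verticalStrip (by positivity) p hB hz

lemma mdifferentiable_weightedEis (ha : ∀ v, ‖a v‖ ≤ 1) (hk : 3 ≤ k) :
    MDiff (weightedEis a k) := by
  rw [UpperHalfPlane.mdifferentiable_iff]
  refine TendstoLocallyUniformlyOn.differentiableOn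
    (F := fun s : Finset (Fin 2 → ℤ) ↦
      ↑ₕ(fun z : ℍ ↦ ∑ v ∈ s, a v * eisSummand k v z))
    (φ := atTop) ?_ (Eventually.of_forall fun s ↦ ?_) isOpen_upperHalfPlaneSet
  · rw [show {z : ℂ | 0 < z.im} = upperHalfPlaneSet from rfl, ← range_coe, ← Set.image_univ]
    apply TendstoLocallyUniformlyOn.comp (s := Set.univ) _ _ _
      (OpenPartialHomeomorph.continuousOn_symm _)
    · rw [tendstoLocallyUniformlyOn_univ]
      exact weightedEis_tendstoLocallyUniformly ha hk
    · simp only [IsOpenEmbedding.toOpenPartialHomeomorph_target,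
        Set.mapsTo_range_iff, Set.mem_univ, forall_const]
  · exact DifferentiableOn.fun_sum fun v _ ↦
      (eisSummand_extension_differentiableOn k v).const_mul (a v)

/-- Along the imaginary axis only the vectors with `v 0 = 0` survive. -/
lemma tendsto_weightedEis_I_mul (ha : ∀ v, ‖a v‖ ≤ 1) (hk : 3 ≤ k) :
    Tendsto (fun y : ℝ ↦ (↑ₕ(weightedEis a k)) (Complex.I * y)) atTop
      (𝓝 (∑' v : Fin 2 → ℤ, if v 0 = 0 then a v * ((v 1 : ℂ) ^ (-k)) else 0)) := by
  have hval : ∀ y : ℝ, 0 < y → (↑ₕ(weightedEis a k)) (Complex.I * y) =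
      ∑' v : Fin 2 → ℤ, a v * ((v 0 : ℂ) * (Complex.I * y) + v 1) ^ (-k) := by
    intro y hy
    have : 0 < (Complex.I * y).im := by simpa using hy
    simp only [Function.comp_apply, ofComplex_apply_of_im_pos this, weightedEis, eisSummand]
  have key : Tendsto (fun y : ℝ ↦
      ∑' v : Fin 2 → ℤ, a v * ((v 0 : ℂ) * (Complex.I * y) + v 1) ^ (-k)) atTop
      (𝓝 (∑' v : Fin 2 → ℤ, if v 0 = 0 then a v * ((v 1 : ℂ) ^ (-k)) else 0)) := by
    refine tendsto_tsum_of_dominated_convergence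
      (bound := fun v ↦ ‖eisSummand k v UpperHalfPlane.I‖) (summable_norm_eisSummand hk _)
      (fun v ↦ ?_) ?_
    · split_ifs with h
      · simp [h]
      · rw [tendsto_zero_iff_norm_tendsto_zero]
        have hlim : Tendsto (fun y : ℝ ↦ (|(v 0 : ℝ)| * y) ^ (-k)) atTop (𝓝 0) := by
          have h0 : 0 < |(v 0 : ℝ)| := by simpa using h
          exact (tendsto_zpow_atTop_zero (by omega)).comp (tendsto_id.const_mul_atTop h0)
        refine squeeze_zero' (Eventually.of_forall fun _ ↦ norm_nonneg _) ?_ hlim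
        filter_upwards [eventually_gt_atTop (0 : ℝ)] with y hy
        rw [norm_mul, norm_zpow]
        refine (mul_le_of_le_one_left (by positivity) (ha v)).trans ?_
        rw [zpow_neg, zpow_neg]
        have h0 : 0 < |(v 0 : ℝ)| * y := by
          have : 0 < |(v 0 : ℝ)| := by simpa using h
          positivity
        refine inv_anti₀ (zpow_pos h0 _) (zpow_le_zpow_left₀ (by lia) h0.le ?_)
        refine le_trans ?_ (Complex.abs_im_le_norm _)
        simp [abs_mul, abs_of_pos hy]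
    · filter_upwards [eventually_ge_atTop (1 : ℝ)] with y hy v
      rw [norm_mul]
      refine (mul_le_of_le_one_left (norm_nonneg _) (ha v)).trans ?_
      simp only [eisSummand, norm_zpow, UpperHalfPlane.coe_I]
      by_cases hv : v = 0
      · simp [hv]
      · rw [zpow_neg, zpow_neg]
        have hpos : 0 < ‖(v 0 : ℂ) * Complex.I + v 1‖ := by
          have := linear_ne_zero UpperHalfPlane.I (cd := fun i ↦ (v i : ℝ))
            (by simpa [funext_iff] using hv)
          simpa using this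
        refine inv_anti₀ (zpow_pos hpos _) (zpow_le_zpow_left₀ (by lia) hpos.le ?_)
        rw [Complex.norm_def, Complex.norm_def]
        gcongr
        simp only [Complex.normSq_apply, Complex.add_re, Complex.add_im, Complex.mul_re,
          Complex.mul_im, Complex.I_re, Complex.I_im, Complex.ofReal_re, Complex.ofReal_im,
          Complex.intCast_re, Complex.intCast_im]
        nlinarith [sq_nonneg (v 0 : ℝ), mul_le_mul_of_nonneg_left (one_le_pow₀ (n := 2) hy)
          (sq_nonneg (v 0 : ℝ))]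
  exact key.congr' (by filter_upwards [eventually_gt_atTop 0] with y hy using (hval y hy).symm)

end FermatLib.Modular
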