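import Fermat.Agent.Modular.Kummer.Forms
import Fermat.Agent.Modular.HeckeTransfer

/-!
Pullback of functions on `ℍ` along matrices of positive determinant, with the automorphy factor
but without the determinant, and products over a Hecke system.
-/

set_option autoImplicit false

noncomputable section

open Complex hiding I
open UpperHalfPlane hiding I
open CongruenceSubgroup Filter Function
open scoped Topology MatrixGroups ModularForm Manifold

namespace FermatLib.Modular.Corr

open FermatLib.Modular.Kummer (IsTwisted)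

local notation "M2Z" => Matrix (Fin 2) (Fin 2) ℤ

/-- The element of `GL(2, ℝ)` of an integral matrix (`1` if singular). -/
def glOfInt (M : M2Z) : GL (Fin 2) ℝ :=
  if h : M.det = 0 then 1 else
    Matrix.GeneralLinearGroup.mkOfDetNeZero (M.map (Int.castRingHom ℝ))
      (by rw [← RingHom.mapMatrix_apply, ← RingHom.map_det, eq_intCast]; exact_mod_cast h)

theorem val_glOfInt {M : M2Z} (h : M.det ≠ 0) :
    ((glOfInt M : GL (Fin 2) ℝ) : Matrix (Fin 2) (Fin 2) ℝ) = M.map (Int.castRingHom ℝ) := by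
  rw [glOfInt, dif_neg h]
  rfl

theorem det_glOfInt_pos {M : M2Z} (h : 0 < M.det) : 0 < (glOfInt M).det.val := by
  rw [Matrix.GeneralLinearGroup.val_det_apply, val_glOfInt h.ne', ← RingHom.mapMatrix_apply,
    ← RingHom.map_det, eq_intCast]
  exact_mod_cast h

theorem glOfInt_mul {M M' : M2Z} (h : M.det ≠ 0) (h' : M'.det ≠ 0) :
    glOfInt (M * M') = glOfInt M * glOfInt M' :=
  Units.ext (by
    rw [Units.val_mul, val_glOfInt (by rw [Matrix.det_mul]; exact mul_ne_zero h h'),
      val_glOfInt h, val_glOfInt h', Matrix.map_mul])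

theorem det_coe_ne_zero (g : SL(2, ℤ)) : (g : M2Z).det ≠ 0 := by
  rw [g.det_coe]; exact one_ne_zero

theorem glOfInt_coe (g : SL(2, ℤ)) :
    glOfInt (g : M2Z) = (Matrix.SpecialLinearGroup.mapGL ℝ g : GL (Fin 2) ℝ) :=
  Units.ext (by rw [val_glOfInt (det_coe_ne_zero g)]; rfl)

/-- Pullback along `α` with automorphy factor, weight `k`. -/
def pullSlash (α : GL (Fin 2) ℝ) (k : ℤ) (f : ℍ → ℂ) : ℍ → ℂ :=
  fun τ => f (α • τ) * denom α τ ^ (-k)

theorem pullSlash_apply (α : GL (Fin 2) ℝ) (k : ℤ) (f : ℍ → ℂ) (τ : ℍ) :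
    pullSlash α k f τ = f (α • τ) * denom α τ ^ (-k) :=
  rfl

variable {α β : GL (Fin 2) ℝ} {k k' : ℤ} {f g : ℍ → ℂ}

theorem pullSlash_pullSlash (hβ : 0 < β.det.val) :
    pullSlash β k (pullSlash α k f) = pullSlash (α * β) k f := by
  funext τ
  have h : denom (α * β) τ = denom α ((β • τ : ℍ) : ℂ) * denom β τ := by
    rw [denom_cocycle_σ, σ, if_pos hβ, ContinuousAlgEquiv.refl_apply]
  simp only [pullSlash, mul_smul, h, mul_zpow, mul_assoc]

theorem pullSlash_mapGL (A : SL(2, ℤ)) :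
    pullSlash (Matrix.SpecialLinearGroup.mapGL ℝ A : GL (Fin 2) ℝ) k f = f ∣[k] A :=
  (ModularForm.SL_slash_def _ _).symm

theorem pullSlash_mul : pullSlash α (k + k') (f * g) = pullSlash α k f * pullSlash α k' g := by
  funext τ
  simp only [pullSlash, Pi.mul_apply, neg_add, zpow_add₀ (denom_ne_zero α τ)]
  ring

theorem pullSlash_pow (n : ℕ) : pullSlash α ((n : ℤ) * k) (f ^ n) = pullSlash α k f ^ n := by
  funext τ
  simp only [pullSlash, Pi.pow_apply, mul_pow]
  rw [← zpow_natCast (denom α τ ^ (-k)) n, ← zpow_mul]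
  congr 2
  ring

theorem pullSlash_const_smul (c : ℂ) : pullSlash α k (c • f) = c • pullSlash α k f := by
  funext τ
  simp only [pullSlash, Pi.smul_apply, smul_eq_mul, mul_assoc]

theorem slash_eq_smul_pullSlash (hα : 0 < α.det.val) :
    f ∣[k] α = ((α.det.val : ℂ) ^ (k - 1)) • pullSlash α k f := by
  funext τ
  rw [ModularForm.slash_apply, σ, if_pos hα, ContinuousAlgEquiv.refl_apply, abs_of_pos hα,
    Pi.smul_apply, pullSlash, smul_eq_mul]
  ring

theorem mdifferentiable_pullSlash (hα : 0 < α.det.val) (hf : MDiff f) :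
    MDiff (pullSlash α k f) := by
  have hc : (α.det.val : ℂ) ^ (k - 1) ≠ 0 := zpow_ne_zero _ (by exact_mod_cast hα.ne')
  have h := (hf.slash k α).const_smul ((α.det.val : ℂ) ^ (k - 1))⁻¹
  rw [slash_eq_smul_pullSlash hα] at h
  have he : ((α.det.val : ℂ) ^ (k - 1))⁻¹ • ((α.det.val : ℂ) ^ (k - 1)) • pullSlash α k f
      = pullSlash α k f := inv_smul_smul₀ hc _
  rw [← he]
  exact h

theorem pullSlash_ne_zero (hf : f ≠ 0) : pullSlash α k f ≠ 0 := by
  obtain ⟨z, hz⟩ := Function.ne_iff.mp hf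
  refine Function.ne_iff.mpr ⟨α⁻¹ • z, ?_⟩
  rw [pullSlash, smul_inv_smul, Pi.zero_apply]
  exact mul_ne_zero hz (zpow_ne_zero _ (denom_ne_zero _ _))

/-- An integral matrix is upper triangular up to left multiplication by `SL(2, ℤ)`. -/
theorem exists_upperTriangular (M : M2Z) (h : 0 < M.det) :
    ∃ (A : SL(2, ℤ)) (U : M2Z), M = (A : M2Z) * U ∧ U 1 0 = 0 ∧ 0 < U.det := by
  have hd : M 0 0 * M 1 1 - M 0 1 * M 1 0 ≠ 0 := by rw [← Matrix.det_fin_two]; exact h.ne'
  have hne : Int.gcd (M 0 0) (M 1 0) ≠ 0 := fun h0 => by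
    rw [Int.gcd_eq_zero_iff] at h0
    rw [h0.1, h0.2] at hd
    simp at hd
  obtain ⟨a', c', hcop, ha, hc⟩ :=
    Int.exists_gcd_one (m := M 0 0) (n := M 1 0) (Nat.pos_of_ne_zero hne)
  obtain ⟨A, hA0, hA1⟩ := (Int.isCoprime_iff_gcd_eq_one.mpr hcop).exists_SL2_col 0
  generalize Int.gcd (M 0 0) (M 1 0) = g at ha hc
  refine ⟨A, ((A⁻¹ : SL(2, ℤ)) : M2Z) * M, ?_, ?_, ?_⟩
  · rw [← Matrix.mul_assoc, ← Matrix.SpecialLinearGroup.coe_mul, mul_inv_cancel,
      Matrix.SpecialLinearGroup.coe_one, one_mul]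
  · rw [Matrix.SpecialLinearGroup.coe_inv, Matrix.mul_apply, Fin.sum_univ_two,
      Matrix.adjugate_fin_two]
    simp only [Matrix.of_apply, Matrix.cons_val_one, Matrix.cons_val_zero]
    rw [ha, hc, hA0, hA1]
    ring
  · rw [Matrix.det_mul, Matrix.SpecialLinearGroup.det_coe, one_mul]
    exact h

/-- The pullback along an integral matrix of positive determinant is bounded at `i∞`. -/
theorem isBoundedAtImInfty_pullSlash {M : M2Z} (hM : 0 < M.det)
    (hf : ∀ A : SL(2, ℤ), IsBoundedAtImInfty (f ∣[k] A)) :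
    IsBoundedAtImInfty (pullSlash (glOfInt M) k f) := by
  obtain ⟨A, U, hMU, hU0, hU⟩ := exists_upperTriangular M hM
  have hpos := det_glOfInt_pos hU
  rw [hMU, glOfInt_mul (det_coe_ne_zero A) hU.ne', ← pullSlash_pullSlash hpos, glOfInt_coe,
    pullSlash_mapGL]
  have hval : ∀ i j, (glOfInt U : GL (Fin 2) ℝ).val i j = (U i j : ℝ) := fun i j => by
    rw [val_glOfInt hU.ne']; rfl
  have hUd : (0 : ℤ) < U 0 0 * U 1 1 := by
    have := Matrix.det_fin_two U
    rw [hU0, mul_zero, sub_zero] at this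
    rw [← this]; exact hU
  have hd : ∀ τ : ℍ, denom (glOfInt U) τ = (U 1 1 : ℂ) := fun τ => by
    simp [denom, hval, hU0]
  obtain ⟨C, T, hCT⟩ := isBoundedAtImInfty_iff.mp (hf A)
  rw [isBoundedAtImInfty_iff]
  refine ⟨C * ‖((U 1 1 : ℤ) : ℂ) ^ (-k)‖, T * (U 1 1 : ℝ) / (U 0 0 : ℝ), fun τ hτ => ?_⟩
  rw [pullSlash_apply, norm_mul, hd]
  refine mul_le_mul_of_nonneg_right (hCT _ ?_) (norm_nonneg _)
  have him : (glOfInt U • τ).im = (U 0 0 : ℝ) / (U 1 1 : ℝ) * τ.im := by
    have h1 : (U 1 1 : ℝ) ≠ 0 := by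
      exact_mod_cast (mul_ne_zero_iff.mp hUd.ne').2
    have hsmul : ((glOfInt U • τ : ℍ) : ℂ)
        = ((U 0 0 : ℂ) * τ + (U 0 1 : ℂ)) / (U 1 1 : ℂ) := by
      rw [coe_smul_of_det_pos hpos]
      simp [num, denom, hval, hU0]
    rw [← UpperHalfPlane.coe_im, hsmul,
      show (U 1 1 : ℂ) = (((U 1 1 : ℤ) : ℝ) : ℂ) by simp, Complex.div_ofReal_im]
    simp
    ring
  rw [him]
  have hq : (0 : ℝ) < (U 0 0 : ℝ) / (U 1 1 : ℝ) := by
    have h2 : (0 : ℝ) < (U 0 0 : ℝ) * (U 1 1 : ℝ) := by exact_mod_cast hUd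
    rcases pos_and_pos_or_neg_and_neg_of_mul_pos h2 with ⟨ha, hb⟩ | ⟨ha, hb⟩
    · exact div_pos ha hb
    · exact div_pos_of_neg_of_neg ha hb
  rw [← div_le_iff₀' hq]
  rw [show T / ((U 0 0 : ℝ) / (U 1 1 : ℝ)) = T * (U 1 1 : ℝ) / (U 0 0 : ℝ) by
    rw [div_div_eq_mul_div]]
  exact hτ

section HeckeProduct

variable {N : ℕ} {ι : Type} [Fintype ι] (S : HeckeSystem (Gamma0 N) ι)

/-- The transferred character `γ ↦ ∏ χ (h i γ)`. -/
def transferChar (χ : Gamma0 N →* ℂˣ) : Gamma0 N →* ℂˣ where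
  toFun γ := ∏ i, χ (S.elt γ i)
  map_one' := by simp
  map_mul' γ δ := by
    simp only [(S.next_elt_mul _ _ _).2, map_mul, Finset.prod_mul_distrib]
    congr 1
    exact Equiv.prod_comp (Equiv.ofBijective _ (S.next_bijective γ)) (fun i => χ (S.elt δ i))

/-- The product of the translates of `f` by the matrices of the system. -/
def heckeProd (k : ℤ) (f : ℍ → ℂ) : ℍ → ℂ :=
  ∏ i, pullSlash (glOfInt (S.rep i)) k f

theorem pullSlash_prod {ι' : Type*} (s : Finset ι') (α : GL (Fin 2) ℝ) (k : ℤ)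
    (F : ι' → ℍ → ℂ) :
    pullSlash α ((s.card : ℤ) * k) (∏ i ∈ s, F i) = ∏ i ∈ s, pullSlash α k (F i) := by
  classical
  induction s using Finset.induction with
  | empty =>
      funext τ
      simp [pullSlash]
  | @insert a s ha ih =>
      rw [Finset.prod_insert ha, Finset.prod_insert ha, ← ih, ← pullSlash_mul,
        Finset.card_insert_of_notMem ha]
      congr 1
      push_cast
      ring

variable {S}

theorem isTwisted_heckeProd (hdet : ∀ i, 0 < (S.rep i).det) {χ : Gamma0 N →* ℂˣ} {r : ℍ → ℂ}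
    (hr : IsTwisted χ k r) :
    IsTwisted (transferChar S χ) ((Fintype.card ι : ℤ) * k) (heckeProd S k r) where
  mdiff := by
    unfold heckeProd
    classical
    induction (Finset.univ : Finset ι) using Finset.induction with
    | empty => rw [Finset.prod_empty]; exact mdifferentiable_const
    | @insert a s ha ih =>
        rw [Finset.prod_insert ha]
        exact (mdifferentiable_pullSlash (det_glOfInt_pos (hdet a)) hr.mdiff).mul ih
  slash γ := by
    rw [← pullSlash_mapGL, heckeProd, show (Fintype.card ι : ℤ) = (Finset.univ.card : ℤ) from rfl,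
      pullSlash_prod, ← glOfInt_coe]
    have key : ∀ i, pullSlash (glOfInt ((γ : SL(2, ℤ)) : M2Z)) k
          (pullSlash (glOfInt (S.rep i)) k r)
        = (χ (S.elt γ i) : ℂ) • pullSlash (glOfInt (S.rep (S.next γ i))) k r := by
      intro i
      rw [pullSlash_pullSlash (det_glOfInt_pos (by simp)),
        ← glOfInt_mul (hdet i).ne' (det_coe_ne_zero _), S.rep_mul,
        glOfInt_mul (det_coe_ne_zero _) (hdet _).ne',
        ← pullSlash_pullSlash (det_glOfInt_pos (hdet _)), glOfInt_coe, pullSlash_mapGL, hr.slash,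
        pullSlash_const_smul]
    simp only [key]
    funext τ
    simp only [Finset.prod_apply, Pi.smul_apply, smul_eq_mul, Finset.prod_mul_distrib]
    rw [show ((transferChar S χ γ : ℂˣ) : ℂ) = ∏ i, (χ (S.elt γ i) : ℂ) by
      simp [transferChar]]
    congr 1
    exact Equiv.prod_comp (Equiv.ofBijective _ (S.next_bijective γ))
      (fun i => pullSlash (glOfInt (S.rep i)) k r τ)
  bdd A := by
    rw [← pullSlash_mapGL, heckeProd, show (Fintype.card ι : ℤ) = (Finset.univ.card : ℤ) from rfl,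
      pullSlash_prod]
    classical
    induction (Finset.univ : Finset ι) using Finset.induction with
    | empty => rw [Finset.prod_empty]; exact const_boundedAtFilter _ 1
    | @insert a s ha ih =>
        rw [Finset.prod_insert ha]
        refine Filter.BoundedAtFilter.mul ?_ ih
        rw [pullSlash_pullSlash (by rw [← glOfInt_coe]; exact det_glOfInt_pos (by simp)),
          ← glOfInt_coe, ← glOfInt_mul (hdet a).ne' (det_coe_ne_zero A)]
        exact isBoundedAtImInfty_pullSlash (by simp [hdet a]) hr.bdd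

theorem heckeProd_mul (k k' : ℤ) (f g : ℍ → ℂ) :
    heckeProd S (k + k') (f * g) = heckeProd S k f * heckeProd S k' g := by
  simp only [heckeProd, pullSlash_mul, Finset.prod_mul_distrib]

theorem heckeProd_pow (k : ℤ) (f : ℍ → ℂ) (n : ℕ) :
    heckeProd S ((n : ℤ) * k) (f ^ n) = heckeProd S k f ^ n := by
  simp only [heckeProd, pullSlash_pow, Finset.prod_pow]

theorem transferChar_one : transferChar S (1 : Gamma0 N →* ℂˣ) = 1 := by
  ext γ
  simp [transferChar]

end HeckeProduct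

end FermatLib.Modular.Corr
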