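import Fermat.Agent.Modular.PeriodCusp

/-!
The period map: independence of the primitive, linearity, parabolicity, the conjugate form.
-/

set_option autoImplicit false

noncomputable section

open UpperHalfPlane hiding I
open CongruenceSubgroup ModularCurve ModularCurve.Period Filter
open scoped MatrixGroups Topology Manifold ModularForm ComplexConjugate

namespace FermatLib.Modular

variable {N : ℕ}

theorem period_eq_of_isPrimUHP {h F G : ℍ → ℂ} {Γ : Subgroup SL(2, ℤ)}
    (hF : IsPrimUHP h F) (hG : IsPrimUHP h G)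
    (hFe : IsEquivariantPrimitive Γ F) (hGe : IsEquivariantPrimitive Γ G) (γ : Γ) :
    hFe.period γ = hGe.period γ := by
  have := hF.sub_eq hG ((γ : SL(2, ℤ)) • UpperHalfPlane.I) UpperHalfPlane.I
  rw [IsEquivariantPrimitive.period, IsEquivariantPrimitive.period]
  linear_combination this

/-- `periodMap` is computed by any primitive. -/
theorem periodMap_apply_of_isPrimUHP [NeZero N] (f : CuspForm (Gamma0 N) 2) {F : ℍ → ℂ}
    (hF : IsPrimUHP f F) (γ : Gamma0 N) :
    periodMap N f (Additive.ofMul γ) = F ((γ : SL(2, ℤ)) • UpperHalfPlane.I) - F UpperHalfPlane.I := by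
  obtain ⟨F₁, hF₁⟩ := exists_hasEquivariantPrimitive f
  obtain ⟨F₀, h₀, he⟩ := periodMap_def N f hF₁
  rw [he, IsEquivariantPrimitive.periodHom_apply]
  exact period_eq_of_isPrimUHP h₀.1 hF h₀.2.2.1 (isEquivariantPrimitive_of_isPrimUHP f hF) γ

theorem periodMap_eq_periodHom [NeZero N] (f : CuspForm (Gamma0 N) 2) {F : ℍ → ℂ}
    (hF : HasEquivariantPrimitive N f F) : periodMap N f = hF.2.2.1.periodHom := by
  refine AddMonoidHom.ext fun γ ↦ ?_
  exact periodMap_apply_of_isPrimUHP f hF.1 (Additive.toMul γ)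

theorem periodMap_add [NeZero N] (f g : CuspForm (Gamma0 N) 2) :
    periodMap N (f + g) = periodMap N f + periodMap N g := by
  refine AddMonoidHom.ext fun γ ↦ ?_
  obtain ⟨F, hF, -⟩ := exists_isPrimUHP (ModularFormClass.holo f)
  obtain ⟨G, hG, -⟩ := exists_isPrimUHP (ModularFormClass.holo g)
  have hFG : IsPrimUHP ⇑(f + g) (F + G) := fun τ ↦ by
    simpa using! (hF τ).add (hG τ)
  rw [← ofMul_toMul γ, AddMonoidHom.add_apply, periodMap_apply_of_isPrimUHP _ hFG,
    periodMap_apply_of_isPrimUHP f hF, periodMap_apply_of_isPrimUHP g hG]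
  simp only [Pi.add_apply]
  ring

theorem periodMap_smul [NeZero N] (c : ℂ) (f : CuspForm (Gamma0 N) 2) :
    periodMap N (c • f) = c • periodMap N f := by
  refine AddMonoidHom.ext fun γ ↦ ?_
  obtain ⟨F, hF, -⟩ := exists_isPrimUHP (ModularFormClass.holo f)
  have hcF : IsPrimUHP ⇑(c • f) (c • F) := fun τ ↦ by
    simpa using! (hF τ).const_mul c
  rw [← ofMul_toMul γ, AddMonoidHom.smul_apply, periodMap_apply_of_isPrimUHP _ hcF,
    periodMap_apply_of_isPrimUHP f hF]
  simp only [Pi.smul_apply, smul_eq_mul]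
  ring

variable (N) in
/-- The period map as a linear map. -/
def periodMapLin [NeZero N] :
    CuspForm (Gamma0 N) 2 →ₗ[ℂ] (Additive (Gamma0 N) →+ ℂ) where
  toFun := periodMap N
  map_add' := periodMap_add
  map_smul' := periodMap_smul

@[simp] theorem periodMapLin_apply [NeZero N] (f : CuspForm (Gamma0 N) 2) :
    periodMapLin N f = periodMap N f := rfl

variable (N) in
theorem existsPeriodMapLinear [NeZero N] : ExistsPeriodMapLinear N :=
  ⟨periodMapLin N, fun _ ↦ rfl⟩

theorem periodMap_mem_parabolicHoms [NeZero N] (f : CuspForm (Gamma0 N) 2) :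
    periodMap N f ∈ parabolicHoms ℂ (Gamma0 N) ℂ := by
  obtain ⟨F, hF⟩ := exists_hasEquivariantPrimitive f
  rw [periodMap_eq_periodHom f hF]
  exact isParabolicHom_periodHom f hF

theorem periodHomPair_apply [NeZero N] (f g : CuspForm (Gamma0 N) 2) :
    periodHomPair N (f, g) = periodMap N f + charInvolution N ℂ ℂ (periodMap N f)
      + (periodMap N g - charInvolution N ℂ ℂ (periodMap N g)) := by
  obtain ⟨pml, hpml, he⟩ := periodHomPair_def N (existsPeriodMapLinear N)
  rw [he]
  simp [hpml]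

theorem range_periodHomPair_le [NeZero N] :
    LinearMap.range (periodHomPair N) ≤ parabolicHoms ℂ (Gamma0 N) ℂ := by
  rintro _ ⟨⟨f, g⟩, rfl⟩
  rw [periodHomPair_apply]
  exact add_mem (add_mem (periodMap_mem_parabolicHoms f)
      (charInvolution_mem_parabolicHoms N ℂ ℂ (periodMap_mem_parabolicHoms f)))
    (sub_mem (periodMap_mem_parabolicHoms g)
      (charInvolution_mem_parabolicHoms N ℂ ℂ (periodMap_mem_parabolicHoms g)))

/-! ### The conjugate form `f*(τ) = conj (f (-conj τ))` -/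

theorem J_mul_coe (γ : SL(2, ℤ)) :
    UpperHalfPlane.J * (γ : GL (Fin 2) ℝ) = (jConjSL γ : GL (Fin 2) ℝ) * UpperHalfPlane.J := by
  ext i j
  fin_cases i <;> fin_cases j <;>
    simp [UpperHalfPlane.J, Matrix.mul_apply, Fin.sum_univ_two, jConjMat]

theorem J_smul_I : UpperHalfPlane.J • UpperHalfPlane.I = UpperHalfPlane.I :=
  UpperHalfPlane.ext (by simp [UpperHalfPlane.coe_J_smul])

theorem J_smul_SL_smul (γ : SL(2, ℤ)) (τ : ℍ) :
    UpperHalfPlane.J • γ • τ = jConjSL γ • UpperHalfPlane.J • τ := by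
  rw [ModularGroup.sl_moeb, ModularGroup.sl_moeb, ← mul_smul, ← mul_smul, J_mul_coe]

theorem im_J_smul (τ : ℍ) : (UpperHalfPlane.J • τ).im = τ.im := by
  rw [← UpperHalfPlane.coe_im, UpperHalfPlane.coe_J_smul]
  simp

theorem slash_J_apply (g : ℍ → ℂ) (τ : ℍ) :
    (g ∣[(2 : ℤ)] UpperHalfPlane.J) τ = conj (g (UpperHalfPlane.J • τ)) := by
  rw [ModularForm.slash_apply]
  have h : ¬(1 : ℝ) < 0 := by norm_num
  simp [UpperHalfPlane.σ, UpperHalfPlane.denom, h]

theorem isZeroAtImInfty_slash_J {g : ℍ → ℂ} (hg : IsZeroAtImInfty g) :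
    IsZeroAtImInfty (g ∣[(2 : ℤ)] UpperHalfPlane.J) := by
  have hJ : Tendsto (fun τ : ℍ ↦ UpperHalfPlane.J • τ) atImInfty atImInfty := by
    refine tendsto_comap_iff.mpr ?_
    simp only [Function.comp_def, im_J_smul]
    exact tendsto_comap
  have := (Complex.continuous_conj.tendsto 0).comp (hg.comp hJ)
  rw [IsZeroAtImInfty, ZeroAtFilter, funext (slash_J_apply g)]
  simpa [Function.comp_def] using this

/-- The conjugate cusp form. -/
def conjForm (f : CuspForm (Gamma0 N) 2) [NeZero N] : CuspForm (Gamma0 N) 2 where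
  toFun := (f : ℍ → ℂ) ∣[(2 : ℤ)] UpperHalfPlane.J
  slash_action_eq' := by
    rintro _ ⟨γ, hγ, rfl⟩
    show ((f : ℍ → ℂ) ∣[(2 : ℤ)] UpperHalfPlane.J) ∣[(2 : ℤ)] (γ : GL (Fin 2) ℝ) = _
    rw [← SlashAction.slash_mul, J_mul_coe, SlashAction.slash_mul]
    congr 1
    exact SlashInvariantFormClass.slash_action_eq f _
      (Subgroup.mem_map_of_mem _ (jConjSL_mem_Gamma0 hγ))
  holo' := (ModularFormClass.holo f).slash 2 _
  zero_at_cusps' {c} hc := by
    rw [Subgroup.IsArithmetic.isCusp_iff_isCusp_SL2Z] at hc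
    refine (OnePoint.isZeroAt_iff_forall_SL2Z hc).mpr fun γ _ ↦ ?_
    rw [ModularForm.SL_slash, ← SlashAction.slash_mul, J_mul_coe, SlashAction.slash_mul]
    exact isZeroAtImInfty_slash_J (CuspFormClass.zero_at_infty_slash f (jConjSL γ))

variable [NeZero N]

theorem conjForm_apply (f : CuspForm (Gamma0 N) 2) (τ : ℍ) :
    conjForm f τ = conj (f (UpperHalfPlane.J • τ)) := slash_J_apply _ τ

theorem conjForm_conjForm (f : CuspForm (Gamma0 N) 2) : conjForm (conjForm f) = f := by
  ext τ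
  rw [conjForm_apply, conjForm_apply, Complex.conj_conj, ← mul_smul]
  simp [← pow_two]

theorem conjForm_eq_zero_iff {f : CuspForm (Gamma0 N) 2} : conjForm f = 0 ↔ f = 0 := by
  have h0 : conjForm (0 : CuspForm (Gamma0 N) 2) = 0 := by
    ext τ
    simp [conjForm_apply]
  exact ⟨fun h ↦ by rw [← conjForm_conjForm f, h, h0], fun h ↦ h ▸ h0⟩

theorem isPrimUHP_conjForm {f : CuspForm (Gamma0 N) 2} {F : ℍ → ℂ} (hF : IsPrimUHP f F) :
    IsPrimUHP (conjForm f) (fun τ ↦ -conj (F (UpperHalfPlane.J • τ))) := by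
  intro τ
  have hneg : HasDerivAt (fun u ↦ F (ofComplex (-u))) (-(f (UpperHalfPlane.J • τ)))
      (conj (τ : ℂ)) := by
    have h := hF (UpperHalfPlane.J • τ)
    rw [UpperHalfPlane.coe_J_smul] at h
    simpa [Function.comp_def] using! h.comp (conj (τ : ℂ)) (hasDerivAt_neg _)
  have h2 := hneg.conj_conj.neg
  rw [Complex.conj_conj] at h2
  refine HasDerivAt.congr_of_eventuallyEq (h2.congr_deriv ?_) ?_
  · rw [conjForm_apply, map_neg, neg_neg]
  · filter_upwards [isOpen_upperHalfPlaneSet.mem_nhds τ.im_pos] with z hz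
    simp [UpperHalfPlane.J_smul, ofComplex_apply_of_im_pos hz]

/-- Periods of the conjugate form. -/
theorem periodMap_conjForm (f : CuspForm (Gamma0 N) 2) (γ : Gamma0 N) :
    periodMap N (conjForm f) (Additive.ofMul γ)
      = -conj (periodMap N f (Additive.ofMul (jConjGamma0 N γ))) := by
  obtain ⟨F, hF, -⟩ := exists_isPrimUHP (ModularFormClass.holo f)
  rw [periodMap_apply_of_isPrimUHP _ (isPrimUHP_conjForm hF), periodMap_apply_of_isPrimUHP f hF,
    jConjGamma0_coe, map_sub]
  simp only [J_smul_SL_smul, J_smul_I]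
  ring

theorem charInvolution_periodMap (f : CuspForm (Gamma0 N) 2) (γ : Gamma0 N) :
    charInvolution N ℂ ℂ (periodMap N f) (Additive.ofMul γ)
      = -conj (periodMap N (conjForm f) (Additive.ofMul γ)) := by
  rw [periodMap_conjForm, map_neg, Complex.conj_conj, neg_neg]
  rfl

end FermatLib.Modular

end
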