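import Fermat.Prelude.Def_CuspForm_HeckeEvalForms
import Fermat.Prelude.Def_ModularCurve_PeriodMapBundled
import Fermat.Agent.Modular.PeriodMap
import Fermat.Agent.Modular.HeckeParabolic

/-!
# Periods intertwine the Hecke operators
-/

set_option autoImplicit false

noncomputable section

open scoped MatrixGroups Topology ModularForm
open CongruenceSubgroup ModularCurve ModularCurve.Period UpperHalfPlane Filter
open Matrix.SpecialLinearGroup (mapGL)

namespace FermatLib.Modular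

local notation "M2Z" => Matrix (Fin 2) (Fin 2) ℤ

variable {N : ℕ}

/-- The representatives of `T p`, `U p` in `GL(2, ℝ)`, as used by the operators on forms. -/
def heckeRepGL (p : ℕ) : Option (Fin p) → GL (Fin 2) ℝ
  | some j => ModularForm.heckeMatrix p j
  | none => ModularForm.heckeDiagMatrix p

theorem val_heckeRepGL {p : ℕ} (hp : p ≠ 0) (x : Option (Fin p)) :
    (heckeRepGL p x : Matrix (Fin 2) (Fin 2) ℝ) = (heckeRepInt p x).map (Int.cast : ℤ → ℝ) := by
  cases x <;> ext i j <;> fin_cases i <;> fin_cases j <;>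
    simp [heckeRepGL, heckeRepInt, hp]

theorem val_mapGL_int (g : SL(2, ℤ)) :
    ((mapGL ℝ g : GL (Fin 2) ℝ) : Matrix (Fin 2) (Fin 2) ℝ) =
      (g : M2Z).map (Int.cast : ℤ → ℝ) := by
  ext i j
  simp

theorem map_intCast_mul (A B : M2Z) :
    (A * B).map (Int.cast : ℤ → ℝ) = A.map (Int.cast : ℤ → ℝ) * B.map (Int.cast : ℤ → ℝ) :=
  Matrix.map_mul (f := Int.castRingHom ℝ)

theorem sl_smul_eq_mapGL_smul (g : SL(2, ℤ)) (z : ℍ) : g • z = (mapGL ℝ g) • z := rfl

/-- The sum of the translates of a function by the representatives. -/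
def heckeSumFun (N : ℕ) (p : Nat.Primes) (F : ℍ → ℂ) (z : ℍ) : ℂ :=
  ∑ x : HeckeIdx N p, F (heckeRepGL p x.1 • z)

/-- The operator `T p` or `U p` on weight two cusp forms. -/
def heckeFormOp (N : ℕ) [NeZero N] (p : Nat.Primes) : Module.End ℂ (CuspForm (Gamma0 N) 2) :=
  ((CuspForm.heckeFormsGen N 2 p : CuspForm.heckeAlgebra N 2 ∅) :
    Module.End ℂ (CuspForm (Gamma0 N) 2))

theorem sum_heckeIdx {M : Type*} [AddCommMonoid M] (N p : ℕ) (g : Option (Fin p) → M) :
    ∑ x : HeckeIdx N p, g x.1 =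
      (∑ j : Fin p, g (some j)) + if p ∣ N then 0 else g none := by
  classical
  rw [← Finset.sum_subtype (Finset.univ.filter fun x : Option (Fin p) => x = none → ¬ p ∣ N)
    (by simp) g, Finset.sum_filter, Fintype.sum_option, add_comm]
  by_cases h : p ∣ N <;> simp [h]

theorem coe_heckeFormOp [NeZero N] (p : Nat.Primes) (f : CuspForm (Gamma0 N) 2) :
    ⇑(heckeFormOp N p f) = ∑ x : HeckeIdx N p, (⇑f) ∣[(2 : ℤ)] heckeRepGL p x.1 := by
  rw [sum_heckeIdx N p (fun x => (⇑f) ∣[(2 : ℤ)] heckeRepGL p x)]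
  simp only [heckeRepGL]
  rw [Fin.sum_univ_eq_sum_range (fun j => (⇑f) ∣[(2 : ℤ)] ModularForm.heckeMatrix p j)]
  by_cases h : (p : ℕ) ∣ N
  · rw [heckeFormOp, CuspForm.heckeFormsGen_of_dvd h, CuspForm.heckeAlgebra.coe_U,
      CuspForm.coe_heckeULin_apply, if_pos h, add_zero, ModularForm.heckeU_def]
  · rw [heckeFormOp, CuspForm.heckeFormsGen_of_not_dvd h, CuspForm.heckeAlgebra.coe_T,
      CuspForm.coe_heckeTLin_apply, if_neg h, ModularForm.heckeT_def]

theorem hasDerivAt_comp_heckeRep {f F : ℍ → ℂ}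
    (hF : ∀ τ : ℍ, HasDerivAt (F ∘ ofComplex) (f τ) τ) {p : ℕ} (hp : p ≠ 0) (x : Option (Fin p))
    (τ : ℍ) :
    HasDerivAt ((fun z => F (heckeRepGL p x • z)) ∘ ofComplex)
      ((f ∣[(2 : ℤ)] heckeRepGL p x) τ) τ := by
  have hp' : (p : ℂ) ≠ 0 := Nat.cast_ne_zero.2 hp
  obtain ⟨A, hA, hval, hslash⟩ : ∃ A : ℂ → ℂ,
      (∃ c : ℂ, HasDerivAt A c τ ∧
        (f ∣[(2 : ℤ)] heckeRepGL p x) τ = f (heckeRepGL p x • τ) * c) ∧
      (∀ z : ℍ, ((heckeRepGL p x • z : ℍ) : ℂ) = A z) ∧ True := by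
    cases x with
    | some j =>
      refine ⟨fun z => (z + (j : ℕ)) / p, ⟨1 / p, ?_, ?_⟩,
        fun z => ModularForm.coe_heckeMatrix_smul hp j z, trivial⟩
      · exact ((hasDerivAt_id _).add_const _).div_const _
      · rw [heckeRepGL, ModularForm.slash_heckeMatrix_apply 2 hp]
        ring
    | none =>
      refine ⟨fun z => (p : ℂ) * z, ⟨(p : ℂ), ?_, ?_⟩,
        fun z => ModularForm.coe_heckeDiagMatrix_smul hp z, trivial⟩
      · simpa using (hasDerivAt_id (τ : ℂ)).const_mul (p : ℂ)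
      · rw [heckeRepGL, ModularForm.slash_heckeDiagMatrix_apply 2 hp]
        norm_num [mul_comm]
  obtain ⟨c, hc, hcs⟩ := hA
  have hd := hF (heckeRepGL p x • τ)
  rw [hval τ] at hd
  rw [hcs]
  refine (hd.comp (τ : ℂ) hc).congr_of_eventuallyEq ?_
  filter_upwards [isOpen_upperHalfPlaneSet.mem_nhds τ.im_pos] with z hz
  simp only [Function.comp_apply, ofComplex_apply_of_im_pos hz]
  have := hval ⟨z, hz⟩
  rw [show A z = ((heckeRepGL p x • (⟨z, hz⟩ : ℍ) : ℍ) : ℂ) from this.symm, ofComplex_apply]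

theorem exists_upperTriangular_factor (M : M2Z) :
    ∃ (δ : SL(2, ℤ)) (B : M2Z), M = (δ : M2Z) * B ∧ B 1 0 = 0 := by
  rcases eq_or_ne (M 1 0) 0 with h0 | h0
  · exact ⟨1, M, by simp, h0⟩
  obtain ⟨g, a, c, -, hac, ha, hc⟩ :=
    Int.exists_gcd_one' (m := M 0 0) (n := M 1 0) (Int.gcd_pos_of_ne_zero_right _ h0)
  obtain ⟨s, t, hst⟩ := (Int.isCoprime_iff_gcd_eq_one).2 hac
  refine ⟨⟨!![a, -t; c, s], by rw [Matrix.det_fin_two_of]; linear_combination hst⟩,
    !![s, t; -c, a] * M, ?_, ?_⟩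
  · show M = !![a, -t; c, s] * (!![s, t; -c, a] * M)
    rw [← Matrix.mul_assoc, show !![a, -t; c, s] * !![s, t; -c, a] = (1 : M2Z) from ?_, one_mul]
    ext i j
    fin_cases i <;> fin_cases j <;> simp [Matrix.mul_apply, Fin.sum_univ_two] <;>
      first
        | linear_combination hst
        | linear_combination -hst
        | ring
  · simp [Matrix.mul_apply, Fin.sum_univ_two, ha, hc]
    ring

/-- A primitive of `f` gives one of `T p f`, with periods obtained by transfer. -/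
theorem hasEquivariantPrimitive_heckeFormOp [NeZero N] (p : Nat.Primes)
    {f : CuspForm (Gamma0 N) 2} {F : ℍ → ℂ} (hF : HasEquivariantPrimitive N f F) :
    ∃ h : HasEquivariantPrimitive N (heckeFormOp N p f) (heckeSumFun N p F),
      h.2.2.1.periodHom = heckeHomOp N ℂ ℂ p hF.2.2.1.periodHom := by
  have hp := p.2.ne_zero
  have hper : ∀ (γ : Gamma0 N) (z : ℍ),
      heckeSumFun N p F ((γ : SL(2, ℤ)) • z) - heckeSumFun N p F z =
        heckeHomOp N ℂ ℂ p hF.2.2.1.periodHom (Additive.ofMul γ) := by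
    intro γ z
    set D := heckeSystem N p
    have hx : ∀ x : HeckeIdx N p, F (heckeRepGL p x.1 • ((γ : SL(2, ℤ)) • z)) =
        F (heckeRepGL p (D.next γ x).1 • z) + hF.2.2.1.periodHom (Additive.ofMul (D.elt γ x)) := by
      intro x
      have hmul : heckeRepGL p x.1 * mapGL ℝ (γ : SL(2, ℤ)) =
          mapGL ℝ (D.elt γ x : SL(2, ℤ)) * heckeRepGL p (D.next γ x).1 := by
        apply Units.ext
        rw [Units.val_mul, Units.val_mul, val_heckeRepGL hp, val_heckeRepGL hp, val_mapGL_int,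
          val_mapGL_int, ← map_intCast_mul, ← map_intCast_mul]
        exact congrArg (fun M : M2Z => M.map (Int.cast : ℤ → ℝ)) (D.rep_mul γ x)
      rw [show heckeRepGL p x.1 • ((γ : SL(2, ℤ)) • z) =
        (D.elt γ x : SL(2, ℤ)) • (heckeRepGL p (D.next γ x).1 • z) by
          simp only [sl_smul_eq_mapGL_smul, ← mul_smul, hmul]]
      rw [IsEquivariantPrimitive.periodHom_apply,
        ← hF.2.2.1.sub_eq_period (D.elt γ x) (heckeRepGL p (D.next γ x).1 • z)]
      ring
    rw [heckeHomOp_apply, sub_eq_iff_eq_add']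
    simp only [heckeSumFun]
    rw [Finset.sum_congr rfl fun x _ => hx x, Finset.sum_add_distrib]
    congr 1
    exact Equiv.sum_comp (Equiv.ofBijective _ (D.next_bijective γ))
      (fun x : HeckeIdx N p => F (heckeRepGL p x.1 • z))
  have hup : ∀ {g : GL (Fin 2) ℝ}, g 1 0 = 0 →
      Tendsto (fun w : ℍ => g • w) atImInfty atImInfty := fun hg => tendsto_smul_atImInfty hg
  refine ⟨⟨fun τ => ?_, ?_, fun γ => ⟨_, hper γ⟩, fun δ => ?_⟩, ?_⟩
  · rw [coe_heckeFormOp, Finset.sum_apply]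
    have := HasDerivAt.sum (u := Finset.univ) fun x (_ : x ∈ Finset.univ) =>
      hasDerivAt_comp_heckeRep hF.1 hp (x : HeckeIdx N p).1 τ
    refine this.congr_of_eventuallyEq (Eventually.of_forall fun z => ?_)
    simp [heckeSumFun]
  · have h0 : (0 : ℂ) = ∑ x : HeckeIdx N p, (0 : ℂ) := by simp
    rw [h0]
    refine tendsto_finsetSum _ fun x _ => hF.2.1.comp (hup ?_)
    rw [val_heckeRepGL hp, Matrix.map_apply, heckeRepInt_one_zero, Int.cast_zero]
  · have hlim : ∀ x : HeckeIdx N p, ∃ L : ℂ,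
        Tendsto (fun w : ℍ => F (heckeRepGL p x.1 • (δ • w))) atImInfty (𝓝 L) := by
      intro x
      obtain ⟨δ', B, hB, hB10⟩ := exists_upperTriangular_factor (heckeRepInt p x.1 * (δ : M2Z))
      obtain ⟨L, hL⟩ := hF.2.2.2 δ'
      refine ⟨L, ?_⟩
      set g : GL (Fin 2) ℝ := (mapGL ℝ δ')⁻¹ * (heckeRepGL p x.1 * mapGL ℝ δ) with hg
      have hgval : (g : Matrix (Fin 2) (Fin 2) ℝ) = B.map (Int.cast : ℤ → ℝ) := by
        rw [hg, Units.val_mul, Units.val_mul, val_heckeRepGL hp, val_mapGL_int, ← map_intCast_mul,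
          hB, map_intCast_mul, ← val_mapGL_int, ← Matrix.mul_assoc, ← Units.val_mul,
          inv_mul_cancel, Units.val_one, one_mul]
      have hg10 : g 1 0 = 0 := by rw [hgval, Matrix.map_apply, hB10, Int.cast_zero]
      refine (hL.comp (hup hg10)).congr fun w => ?_
      simp only [Function.comp_apply, sl_smul_eq_mapGL_smul, ← mul_smul, hg, mul_inv_cancel_left]
    choose L hL using hlim
    exact ⟨∑ x, L x, tendsto_finsetSum _ fun x _ => hL x⟩
  · refine AddMonoidHom.ext fun γ => ?_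
    exact hper (Additive.toMul γ) UpperHalfPlane.I

/-- The period map intertwines `T p`, `U p` on forms and on homomorphisms. -/
theorem periodMap_heckeFormOp [NeZero N] (p : Nat.Primes) (f : CuspForm (Gamma0 N) 2) :
    periodMap N (heckeFormOp N p f) = heckeHomOp N ℂ ℂ p (periodMap N f) := by
  obtain ⟨F, hF⟩ := exists_hasEquivariantPrimitive f
  obtain ⟨h, e⟩ := hasEquivariantPrimitive_heckeFormOp p hF
  rw [periodMap_eq_periodHom _ h, periodMap_eq_periodHom _ hF, e]

/-- `periodHomPair` intertwines the diagonal action. -/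
theorem periodHomPair_heckeFormOp [NeZero N] (p : Nat.Primes) (f g : CuspForm (Gamma0 N) 2) :
    periodHomPair N (heckeFormOp N p f, heckeFormOp N p g) =
      heckeHomOp N ℂ ℂ p (periodHomPair N (f, g)) := by
  simp only [periodHomPair_apply, periodMap_heckeFormOp, map_add, map_sub,
    heckeHomOp_charInvolution]

end FermatLib.Modular

end
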