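import Fermat.Agent.Modular.CorrBaseChange
import Fermat.Agent.Modular.MeroField
import Mathlib.FieldTheory.PrimitiveElement
import Mathlib.FieldTheory.IsAlgClosed.AlgebraicClosure

/-!
Norms along an embedding as products over embeddings into meromorphic functions, and evaluation
of quotients of holomorphic functions.
-/

set_option autoImplicit false
set_option linter.style.haveILetI false

noncomputable section

open UpperHalfPlane hiding I
open CongruenceSubgroup ModularCurve
open scoped MatrixGroups Manifold Topology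

namespace FermatLib.Modular.Corr

open AlgebraicCurve

/-- The norm along `φ` is the product over a full set of distinct embeddings lifting `ψ₀`. -/
theorem map_normAlong_eq_prod {K F F' E ι : Type*} [Field K] [Field F] [Field F'] [Field E]
    [Algebra K F] [Algebra K F'] [CharZero F] [Fintype ι] (φ : F →ₐ[K] F')
    (hfin : FiniteAlong K φ) (ψ₀ : F →+* E) (ψ : ι → F' →+* E)
    (hψ : ∀ i x, ψ i (φ x) = ψ₀ x) (hinj : Function.Injective ψ)
    (hcard : Fintype.card ι = finrankAlong K φ) (x : F') :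
    ψ₀ (normAlong φ x) = ∏ i, ψ i x := by
  classical
  letI := algebraAlong φ
  haveI : Module.Finite F F' := hfin
  let c : E →+* AlgebraicClosure E := algebraMap E (AlgebraicClosure E)
  letI : Algebra F (AlgebraicClosure E) := (c.comp ψ₀).toAlgebra
  let T : ι → (F' →ₐ[F] AlgebraicClosure E) := fun i =>
    { (c.comp (ψ i)) with commutes' := fun a => congrArg c (hψ i a) }
  have hT : Function.Injective T := fun i j h =>
    hinj (RingHom.ext fun y => c.injective (DFunLike.congr_fun h y))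
  have hbij : Function.Bijective T :=
    (Fintype.bijective_iff_injective_and_card T).mpr
      ⟨hT, by rw [AlgHom.card F F' (AlgebraicClosure E)]; exact hcard⟩
  apply c.injective
  rw [map_prod]
  show algebraMap F (AlgebraicClosure E) (Algebra.norm F x) = _
  rw [Algebra.norm_eq_prod_embeddings F (AlgebraicClosure E) x]
  exact (Equiv.prod_comp (Equiv.ofBijective T hbij) (fun σ => σ x)).symm

/-- A holomorphic function as a meromorphic one. -/
def toMero (G : ℍ → ℂ) (hG : MDiff G) : MeroH :=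
  algebraMap holFun MeroH ⟨G, hG⟩

theorem toMero_injective {G H : ℍ → ℂ} {hG : MDiff G} {hH : MDiff H}
    (h : toMero G hG = toMero H hH) : G = H :=
  congrArg Subtype.val (IsFractionRing.injective holFun MeroH h)

theorem toMero_mul {G H : ℍ → ℂ} (hG : MDiff G) (hH : MDiff H) :
    toMero (G * H) (hG.mul hH) = toMero G hG * toMero H hH :=
  (map_mul (algebraMap holFun MeroH) ⟨G, hG⟩ ⟨H, hH⟩)

theorem toMero_congr {G H : ℍ → ℂ} (h : G = H) (hG : MDiff G) (hH : MDiff H) :
    toMero G hG = toMero H hH := by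
  subst h; rfl

theorem toMero_ne_zero {G : ℍ → ℂ} {hG : MDiff G} (h : G ≠ 0) : toMero G hG ≠ 0 := fun h0 =>
  h (toMero_injective (hH := mdifferentiable_const) (h0.trans (map_zero _).symm))

variable {M : ℕ} [NeZero M]

theorem qExpWeak_mem (W : weakMod (Gamma0 M)) : qExpWeak M W ∈ modularFunctionFieldCx M :=
  qExpL_mem_modularFunctionFieldCx M W.2

theorem meroEval_qExpWeak_toMero (g : SL(2, ℤ)) (W : weakMod (Gamma0 M)) :
    meroEval M g ⟨qExpWeak M W, qExpWeak_mem W⟩
      = toMero (fun τ => (W : ℍ → ℂ) (g • τ)) (mdifferentiable_comp_smul W.2.1 g) :=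
  meroEval_qExpWeak M g W _

theorem exists_eq_qExpWeak_div (x : modularFunctionFieldCx M) :
    ∃ W₁ W₂ : weakMod (Gamma0 M), W₂ ≠ 0 ∧
      x = (⟨qExpWeak M W₁, qExpWeak_mem W₁⟩ : modularFunctionFieldCx M) /
        ⟨qExpWeak M W₂, qExpWeak_mem W₂⟩ := by
  obtain ⟨W₁, W₂, hW, hx⟩ := exists_weakMod_div M x.2
  exact ⟨W₁, W₂, hW, Subtype.ext hx⟩

/-- If `x = G / H` on expansions then the same holds after evaluation along `g`. -/
theorem meroEval_mul_toMero (g : SL(2, ℤ)) (x : modularFunctionFieldCx M) {G H : ℍ → ℂ}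
    (hG : G ∈ qMero) (hH : H ∈ qMero) (h : (x : LaurentSeries ℂ) * qExpL H = qExpL G) :
    meroEval M g x * toMero (fun τ => H (g • τ)) (mdifferentiable_comp_smul hH.2.1 g)
      = toMero (fun τ => G (g • τ)) (mdifferentiable_comp_smul hG.2.1 g) := by
  obtain ⟨W₁, W₂, hW, hx⟩ := exists_eq_qExpWeak_div x
  have hW2 : qExpWeak M W₂ ≠ 0 := fun h0 => hW (qExpWeak_injective M (by rw [h0, map_zero]))
  have hW2' : (W₂ : ℍ → ℂ) ≠ 0 := fun h0 => hW (Subtype.ext h0)
  have hq := weakMod_Gamma0_le_qMero M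
  have hx' : (x : LaurentSeries ℂ) = qExpWeak M W₁ / qExpWeak M W₂ := by rw [hx]; rfl
  rw [hx', div_mul_eq_mul_div, div_eq_iff hW2, qExpWeak_apply, qExpWeak_apply,
    ← qExpL_mul (hq W₁.2) hH, ← qExpL_mul hG (hq W₂.2)] at h
  have hfun : (W₁ : ℍ → ℂ) * H = G * (W₂ : ℍ → ℂ) := sub_eq_zero.mp
    ((qExpL_eq_zero_iff (sub_mem (mul_mem (hq W₁.2) hH) (mul_mem hG (hq W₂.2)))).mp (by
      show qExpLHom (⟨_, mul_mem (hq W₁.2) hH⟩ - ⟨_, mul_mem hG (hq W₂.2)⟩) = 0
      rw [map_sub, qExpLHom_apply, qExpLHom_apply]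
      exact sub_eq_zero.mpr h))
  have hne : (fun τ => (W₂ : ℍ → ℂ) (g • τ)) ≠ 0 := fun h0 =>
    hW2' (funext fun τ => by simpa using congrFun h0 (g⁻¹ • τ))
  rw [hx, map_div₀, meroEval_qExpWeak_toMero, meroEval_qExpWeak_toMero, div_mul_eq_mul_div,
    div_eq_iff (toMero_ne_zero hne), ← toMero_mul, ← toMero_mul]
  exact toMero_congr (funext fun τ => congrFun hfun (g • τ)) _ _

/-- Conversely an identity of functions gives the identity of expansions. -/
theorem mul_qExpL_of_meroEval (x : modularFunctionFieldCx M) {G H : ℍ → ℂ}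
    (hG : G ∈ qMero) (hH : H ∈ qMero)
    (h : meroEval M 1 x * toMero H hH.2.1 = toMero G hG.2.1) :
    (x : LaurentSeries ℂ) * qExpL H = qExpL G := by
  obtain ⟨W₁, W₂, hW, hx⟩ := exists_eq_qExpWeak_div x
  have hW2 : qExpWeak M W₂ ≠ 0 := fun h0 => hW (qExpWeak_injective M (by rw [h0, map_zero]))
  have hW2' : (W₂ : ℍ → ℂ) ≠ 0 := fun h0 => hW (Subtype.ext h0)
  have hq := weakMod_Gamma0_le_qMero M
  have e : ∀ W : weakMod (Gamma0 M), (fun τ => (W : ℍ → ℂ) ((1 : SL(2, ℤ)) • τ)) = (W : ℍ → ℂ) :=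
    fun W => funext fun τ => by rw [one_smul]
  rw [hx, map_div₀, meroEval_qExpWeak_toMero, meroEval_qExpWeak_toMero,
    toMero_congr (e W₁) _ W₁.2.1, toMero_congr (e W₂) _ W₂.2.1,
    div_mul_eq_mul_div, div_eq_iff (toMero_ne_zero hW2'), ← toMero_mul, ← toMero_mul] at h
  have hfun := toMero_injective h
  have hx' : (x : LaurentSeries ℂ) = qExpWeak M W₁ / qExpWeak M W₂ := by rw [hx]; rfl
  rw [hx', div_mul_eq_mul_div, div_eq_iff hW2, qExpWeak_apply, qExpWeak_apply,
    ← qExpL_mul (hq W₁.2) hH, ← qExpL_mul hG (hq W₂.2), hfun]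

end FermatLib.Modular.Corr
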