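import Fermat.Agent.Modular.PeterssonHecke
import Mathlib.NumberTheory.ModularForms.QExpansion
import Mathlib.Analysis.SpecialFunctions.Exp

/-!
# `± (ℓ + 1)` is not an eigenvalue of `T ℓ` on `S₂(Γ₀(N))`, `ℓ ∤ N`

If `T ℓ f = ε (ℓ + 1) f` with `ε = ± 1`, equality holds in the Cauchy–Schwarz inequality for the
two pull-backs of `f` to level `ℓ N`, so `ℓ f(ℓ τ) = ε f(τ)`, and then `f` is zero by its decay at
infinity.
-/

set_option autoImplicit false

noncomputable section

open CongruenceSubgroup UpperHalfPlane Filter Topology Asymptotics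
open scoped MatrixGroups ModularForm

namespace FermatLib.Modular

open Newforms

variable {N ℓ : ℕ} [NeZero N]

/-- The sum of the translates of a lowered translate. -/
theorem traceDown_atkinLehner_levelRaise [NeZero (ℓ * N)] (hℓ : ℓ.Prime) (L : ALData ℓ N)
    (h : N * 1 ∣ ℓ * N) (f : CuspForm (Gamma0 N) 2) :
    traceDown L hℓ rfl (atkinLehner rfl L (levelRaise (d := 1) h f)) =
      ((ℓ : ℂ) + 1) • f := by
  refine DFunLike.coe_injective ?_
  rw [traceDown, coe_slashSumLin, one_smul]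
  have hW : L.mat.det ≠ 0 := by rw [L.det_mat]; exact_mod_cast hℓ.ne_zero
  have hterm : ∀ i : Option (Fin ℓ),
      (⇑(atkinLehner rfl L (levelRaise (d := 1) h f)) : ℍ → ℂ) ∣[(2 : ℤ)] intGL (traceMat L i) =
        ⇑f := fun i => by
    rw [traceMat_eq, intGL_mul hW (by rw [det_traceRepMat]; exact one_ne_zero),
      SlashAction.slash_mul, ← coe_atkinLehner rfl, atkinLehner_atkinLehner, levelRaise_one_apply]
    exact SlashInvariantFormClass.slash_action_eq f _
      (intGL_mem_Gamma0 (det_traceRepMat L i) (dvd_traceRepMat L i))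
  rw [Finset.sum_congr rfl fun i _ => hterm i, Finset.sum_const, Finset.card_univ,
    Fintype.card_option, Fintype.card_fin, FunLike.coe_smul]
  funext τ
  simp [nsmul_eq_mul]

/-- The norm at level `ℓ N` of a form of level `N`. -/
theorem peterssonProd_levelRaise_self [NeZero (ℓ * N)] (hℓ : ℓ.Prime) (L : ALData ℓ N)
    (h : N * 1 ∣ ℓ * N) (f : CuspForm (Gamma0 N) 2) :
    peterssonProd (levelRaise (d := 1) h f) (levelRaise (d := 1) h f) =
      ((ℓ : ℂ) + 1) * peterssonProd f f := by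
  have h1 := peterssonProd_traceDown hℓ rfl L (atkinLehner rfl L (levelRaise (d := 1) h f)) f
  rw [traceDown_atkinLehner_levelRaise hℓ L h f, atkinLehner_atkinLehner,
    peterssonProd_smul_left] at h1
  rw [show ((ℓ : ℂ) + 1) = starRingEnd ℂ ((ℓ : ℂ) + 1) by simp]
  exact h1.symm

/-- The translate of `f` is `ℓ f(ℓ τ)`. -/
theorem atkinLehner_levelRaise_apply [NeZero (ℓ * N)] (hℓ : ℓ.Prime) (L : ALData ℓ N)
    (h : N * 1 ∣ ℓ * N) (f : CuspForm (Gamma0 N) 2) (τ : ℍ) :
    atkinLehner rfl L (levelRaise (d := 1) h f) τ =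
      (ℓ : ℂ) * f (ModularForm.heckeDiagMatrix ℓ • τ) := by
  have hD : (!![(ℓ : ℤ), 0; 0, 1] : Matrix (Fin 2) (Fin 2) ℤ).det ≠ 0 := by
    simp [Matrix.det_fin_two_of, hℓ.ne_zero]
  have hg : (!![L.α, L.x; (N : ℤ) * L.z, (ℓ : ℤ) * L.w] : Matrix (Fin 2) (Fin 2) ℤ).det = 1 := by
    rw [Matrix.det_fin_two_of]
    linear_combination L.eq
  have hmul : L.mat = !![L.α, L.x; (N : ℤ) * L.z, (ℓ : ℤ) * L.w] * !![(ℓ : ℤ), 0; 0, 1] := by
    ext i j
    fin_cases i <;> fin_cases j <;>
      simp [ALData.mat, Matrix.mul_apply, Fin.sum_univ_two] <;> ring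
  have hdvd : N * ℓ ∣ ℓ * N := dvd_of_eq (mul_comm _ _)
  have hlev : levelRaise (d := ℓ) hdvd f τ = f (ModularForm.heckeDiagMatrix ℓ • τ) :=
    levelRaise_apply_apply hdvd f τ
  rw [← hlev, coe_atkinLehner, levelRaise_one_apply, hmul,
    intGL_mul (by rw [hg]; exact one_ne_zero) hD, SlashAction.slash_mul,
    SlashInvariantFormClass.slash_action_eq f _ (intGL_mem_Gamma0 hg (by simp))]
  simp only [levelRaise, coe_slashSumLin, Fintype.sum_unique, Pi.smul_apply, smul_eq_mul]
  rw [← mul_assoc, mul_inv_cancel₀ (Nat.cast_ne_zero.2 hℓ.ne_zero), one_mul]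

omit [NeZero N] in
/-- A cusp form with `ℓ ‖f (ℓ τ)‖ = ‖f τ‖` is zero. -/
theorem eq_zero_of_norm_smul_diag (hℓ : ℓ.Prime) (f : CuspForm (Gamma0 N) 2)
    (h : ∀ τ : ℍ, (ℓ : ℝ) * ‖f (ModularForm.heckeDiagMatrix ℓ • τ)‖ = ‖f τ‖) : f = 0 := by
  have hO : (⇑f : ℍ → ℂ) =O[atImInfty] fun τ => Real.exp (-2 * Real.pi * τ.im / 1) :=
    CuspFormClass.exp_decay_atImInfty f one_pos (by simp)
  have hlim : Tendsto (fun τ : ℍ => τ.im * ‖f τ‖) atImInfty (𝓝 0) := by
    have hO' : (fun τ : ℍ => τ.im * ‖f τ‖) =O[atImInfty]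
        fun τ => τ.im * Real.exp (-2 * Real.pi * τ.im / 1) :=
      (isBigO_refl _ _).mul hO.norm_left
    refine hO'.trans_tendsto ?_
    have h1 : Tendsto (fun x : ℝ => x * Real.exp (-2 * Real.pi * x / 1)) atTop (𝓝 0) := by
      have h2 := (Real.tendsto_pow_mul_exp_neg_atTop_nhds_zero 1).comp
        (tendsto_id.const_mul_atTop Real.two_pi_pos)
      have h3 := h2.const_mul (2 * Real.pi)⁻¹
      rw [mul_zero] at h3
      refine h3.congr fun x => ?_
      simp only [Function.comp, id, pow_one, div_one, neg_mul]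
      field_simp
    exact h1.comp tendsto_comap
  refine DFunLike.ext _ _ fun τ => ?_
  set seq : ℕ → ℍ := fun n => (fun σ => ModularForm.heckeDiagMatrix ℓ • σ)^[n] τ with hseq
  have hsucc : ∀ n, seq (n + 1) = ModularForm.heckeDiagMatrix ℓ • seq n := fun n =>
    Function.iterate_succ_apply' _ n τ
  have him : ∀ n, (seq n).im = (ℓ : ℝ) ^ n * τ.im := by
    intro n
    induction n with
    | zero => simp [seq]
    | succ n ih =>
      have hc := congrArg Complex.im
        (ModularForm.coe_heckeDiagMatrix_smul hℓ.ne_zero (seq n))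
      rw [← hsucc] at hc
      simp only [coe_im, Complex.mul_im, Complex.natCast_re, Complex.natCast_im, zero_mul,
        add_zero] at hc
      rw [hc, ih, pow_succ]
      ring
  have hconst : ∀ n, (seq n).im * ‖f (seq n)‖ = τ.im * ‖f τ‖ := by
    intro n
    induction n with
    | zero => simp [seq]
    | succ n ih =>
      have h1 := h (seq n)
      rw [← hsucc] at h1
      rw [← ih, ← h1, him, him, pow_succ]
      ring
  have htend : Tendsto seq atTop atImInfty := by
    refine tendsto_comap_iff.2 ?_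
    refine Tendsto.congr (fun n => (him n).symm) ?_
    exact Tendsto.atTop_mul_const τ.im_pos
      (tendsto_pow_atTop_atTop_of_one_lt (by exact_mod_cast hℓ.one_lt))
  have h0 := tendsto_nhds_unique ((hlim.comp htend).congr hconst) tendsto_const_nhds
  rcases mul_eq_zero.1 h0.symm with h1 | h1
  · exact absurd h1 τ.im_ne_zero
  · simpa using h1

/-- **`± (ℓ + 1)` is not an eigenvalue of `T ℓ`.** -/
theorem eq_zero_of_heckeTLin_eq_sign_smul (hℓ : ℓ.Prime) (hℓN : ¬ ℓ ∣ N) {ε : ℤ} (hε : ε ^ 2 = 1)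
    {f : CuspForm (Gamma0 N) 2}
    (hf : CuspForm.heckeTLin 2 hℓ hℓN f = ((ε : ℂ) * ((ℓ : ℂ) + 1)) • f) : f = 0 := by
  have : NeZero (ℓ * N) := ⟨mul_ne_zero hℓ.ne_zero (NeZero.ne N)⟩
  obtain ⟨L⟩ := exists_alData (hℓ.coprime_iff_not_dvd.mpr hℓN)
  have h : N * 1 ∣ ℓ * N := by simp
  set v := levelRaise (d := 1) h f
  set u := atkinLehner rfl L v
  have huu : peterssonProd u u = ((ℓ : ℂ) + 1) * peterssonProd f f := by
    rw [peterssonProd_atkinLehner rfl L, peterssonProd_levelRaise_self hℓ L h f]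
  have hvv : peterssonProd v v = ((ℓ : ℂ) + 1) * peterssonProd f f :=
    peterssonProd_levelRaise_self hℓ L h f
  have huv : peterssonProd u v = ((ε : ℂ) * ((ℓ : ℂ) + 1)) * peterssonProd f f := by
    rw [← peterssonProd_traceDown hℓ rfl L v f, ← heckeTLin_eq_traceDown hℓ hℓN L h f, hf,
      peterssonProd_smul_left]
    simp
  have hvu : peterssonProd v u = ((ε : ℂ) * ((ℓ : ℂ) + 1)) * peterssonProd f f := by
    rw [← peterssonProd_conj_symm v u, huv, map_mul, peterssonProd_conj_symm]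
    simp
  have hεC : (ε : ℂ) ^ 2 = 1 := by exact_mod_cast hε
  have hw : u + (-(ε : ℂ)) • v = 0 := eq_zero_of_peterssonProd_self (by
    simp only [peterssonProd_add_left, peterssonProd_add_right, peterssonProd_smul_left,
      peterssonProd_smul_right, huu, hvv, huv, hvu, map_neg, map_intCast]
    linear_combination (-((ℓ : ℂ) + 1) * peterssonProd f f) * hεC)
  refine eq_zero_of_norm_smul_diag hℓ f fun τ => ?_
  have hτ := DFunLike.congr_fun hw τ
  rw [add_apply, smul_apply, zero_apply,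
    atkinLehner_levelRaise_apply hℓ L h f τ, smul_eq_mul, levelRaise_one_apply, neg_mul,
    ← sub_eq_add_neg, sub_eq_zero] at hτ
  have hn := congrArg (‖·‖) hτ
  simp only [norm_mul, Complex.norm_natCast, Complex.norm_intCast] at hn
  rw [hn]
  have : |(ε : ℝ)| = 1 := by
    rcases sq_eq_one_iff.1 hε with rfl | rfl <;> simp
  simp [this]

end FermatLib.Modular
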