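import Fermat.Agent.Modular.CorrTranslate
import Fermat.Agent.Modular.HeckeReps
import Fermat.Agent.Modular.JScale

/-!
The Fricke matrix, and the translates occurring in the divisor correspondence `α_* β^*`.
-/

set_option autoImplicit false

noncomputable section

open Complex hiding I
open UpperHalfPlane hiding I
open CongruenceSubgroup Filter Function
open scoped Topology MatrixGroups ModularForm Manifold

namespace FermatLib.Modular.Corr

open FermatLib.Modular.Kummer (IsTwisted)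

local notation "M2Z" => Matrix (Fin 2) (Fin 2) ℤ

variable (N : ℕ) [NeZero N]

/-- `!![0, -1; N, 0]`. -/
def wMat : M2Z := !![0, -1; (N : ℤ), 0]

omit [NeZero N] in
theorem det_wMat : (wMat N).det = (N : ℤ) := by
  simp [wMat, Matrix.det_fin_two_of]

theorem det_wMat_pos : 0 < (wMat N).det := by
  rw [det_wMat]; exact_mod_cast Nat.pos_of_ne_zero (NeZero.ne N)

/-- The matrix `w γ w⁻¹`. -/
def conjWFun (γ : Gamma0 N) : Gamma0 N :=
  ⟨⟨!![(γ : SL(2, ℤ)) 1 1, -((γ : SL(2, ℤ)) 1 0 / N); -(N * (γ : SL(2, ℤ)) 0 1),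
      (γ : SL(2, ℤ)) 0 0], by
    have h := (γ : SL(2, ℤ)).det_coe
    rw [Matrix.det_fin_two] at h
    obtain ⟨c, hc⟩ := dvd_apply_one_zero γ
    rw [Matrix.det_fin_two_of, hc, Int.mul_ediv_cancel_left _ (by exact_mod_cast NeZero.ne N)]
    rw [hc] at h
    linear_combination h⟩, mem_Gamma0_iff_dvd.2 (by simp)⟩

theorem wMat_mul (γ : Gamma0 N) :
    wMat N * ((γ : SL(2, ℤ)) : M2Z) = ((conjWFun N γ : SL(2, ℤ)) : M2Z) * wMat N := by
  obtain ⟨c, hc⟩ := dvd_apply_one_zero γ
  ext i j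
  fin_cases i <;> fin_cases j <;>
    simp [wMat, conjWFun, Matrix.mul_apply, Fin.sum_univ_two, hc,
      Int.mul_ediv_cancel_left _ (show (N : ℤ) ≠ 0 by exact_mod_cast NeZero.ne N)] <;> ring

/-- Conjugation by the Fricke matrix. -/
def conjW : Gamma0 N →* Gamma0 N where
  toFun := conjWFun N
  map_one' := Subtype.ext (Subtype.ext (matMul_right_cancel (det_wMat_pos N).ne'
    (by rw [← wMat_mul]; simp)))
  map_mul' γ δ := Subtype.ext (Subtype.ext (matMul_right_cancel (det_wMat_pos N).ne' (by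
    rw [← wMat_mul, Subgroup.coe_mul, Subgroup.coe_mul, Matrix.SpecialLinearGroup.coe_mul,
      Matrix.SpecialLinearGroup.coe_mul, ← Matrix.mul_assoc, wMat_mul, Matrix.mul_assoc, wMat_mul,
      ← Matrix.mul_assoc])))

theorem conjW_conjW (γ : Gamma0 N) : conjW N (conjW N γ) = γ := by
  refine Subtype.ext (Subtype.ext ?_)
  obtain ⟨c, hc⟩ := dvd_apply_one_zero γ
  ext i j
  fin_cases i <;> fin_cases j <;>
    simp [conjW, conjWFun, hc, ← mul_neg,
      Int.mul_ediv_cancel_left _ (show (N : ℤ) ≠ 0 by exact_mod_cast NeZero.ne N)]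

theorem wMat_mul_conjW (γ : Gamma0 N) :
    wMat N * ((γ : SL(2, ℤ)) : M2Z) = ((conjW N γ : SL(2, ℤ)) : M2Z) * wMat N :=
  wMat_mul N γ

theorem isTwisted_pullW {χ : Gamma0 N →* ℂˣ} {k : ℤ} {r : ℍ → ℂ} (hr : IsTwisted χ k r) :
    IsTwisted (χ.comp (conjW N)) k (pullSlash (glOfInt (wMat N)) k r) where
  mdiff := mdifferentiable_pullSlash (det_glOfInt_pos (det_wMat_pos N)) hr.mdiff
  slash γ := by
    rw [← pullSlash_mapGL, ← glOfInt_coe, pullSlash_pullSlash (det_glOfInt_pos (by simp)),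
      ← glOfInt_mul (det_wMat_pos N).ne' (det_coe_ne_zero _), wMat_mul_conjW,
      glOfInt_mul (det_coe_ne_zero _) (det_wMat_pos N).ne',
      ← pullSlash_pullSlash (det_glOfInt_pos (det_wMat_pos N)), glOfInt_coe, pullSlash_mapGL,
      hr.slash, pullSlash_const_smul, MonoidHom.comp_apply]
  bdd A := by
    rw [← pullSlash_mapGL, ← glOfInt_coe, pullSlash_pullSlash (det_glOfInt_pos (by simp)),
      ← glOfInt_mul (det_wMat_pos N).ne' (det_coe_ne_zero _)]
    exact isBoundedAtImInfty_pullSlash (by simp [det_wMat_pos N]) hr.bdd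

variable {N} (p : Nat.Primes)

omit [NeZero N] in
theorem det_heckeSystem_pos (x : HeckeIdx N p) : 0 < ((heckeSystem N p).rep x).det := by
  rw [heckeSystem_rep, det_heckeRepInt]
  exact_mod_cast p.2.pos

/-- `f ↦ w^* (∏ α^* (w^* f))`. -/
def corrProd (k : ℤ) (f : ℍ → ℂ) : ℍ → ℂ :=
  pullSlash (glOfInt (wMat N)) ((Fintype.card (HeckeIdx N p) : ℤ) * k)
    (heckeProd (heckeSystem N p) k (pullSlash (glOfInt (wMat N)) k f))

/-- The character of `corrProd`. -/
def corrChar (χ : Gamma0 N →* ℂˣ) : Gamma0 N →* ℂˣ :=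
  (transferChar (heckeSystem N p) (χ.comp (conjW N))).comp (conjW N)

theorem corrChar_one : corrChar p (1 : Gamma0 N →* ℂˣ) = 1 := by
  rw [corrChar, MonoidHom.one_comp, transferChar_one, MonoidHom.one_comp]

theorem isTwisted_corrProd {χ : Gamma0 N →* ℂˣ} {k : ℤ} {r : ℍ → ℂ} (hr : IsTwisted χ k r) :
    IsTwisted (corrChar p χ) ((Fintype.card (HeckeIdx N p) : ℤ) * k) (corrProd (N := N) p k r) :=
  isTwisted_pullW N (isTwisted_heckeProd (det_heckeSystem_pos p) (isTwisted_pullW N hr))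

omit [NeZero N] in
theorem corrProd_mul (k k' : ℤ) (f g : ℍ → ℂ) :
    corrProd (N := N) p (k + k') (f * g) = corrProd (N := N) p k f * corrProd (N := N) p k' g := by
  simp only [corrProd, mul_add, pullSlash_mul, heckeProd_mul]

omit [NeZero N] in
theorem corrProd_pow (k : ℤ) (f : ℍ → ℂ) (n : ℕ) :
    corrProd (N := N) p ((n : ℤ) * k) (f ^ n) = corrProd (N := N) p k f ^ n := by
  simp only [corrProd, pullSlash_pow, heckeProd_pow]
  rw [mul_left_comm, pullSlash_pow]

/-- Coset representatives of `Γ₀(N p) \ Γ₀(N)`. -/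
theorem exists_cosetRep (x : HeckeIdx N p) :
    ∃ (γ h : Gamma0 N), wMat N * (heckeSystem N p).rep x * wMat N =
      ((h : SL(2, ℤ)) : M2Z) * !![-((N : ℤ) * p), 0; 0, -(N : ℤ)] * ((γ : SL(2, ℤ)) : M2Z) ∧
      (match x.1 with
        | some j => (γ : SL(2, ℤ)) 1 0 = -((N : ℤ) * j) ∧ (γ : SL(2, ℤ)) 1 1 = 1
        | none => (γ : SL(2, ℤ)) 1 0 = (N : ℤ) ∧ (γ : SL(2, ℤ)) 1 1 = (p : ℤ)) := by
  obtain ⟨x, hx⟩ := x
  cases x with
  | some j =>
      refine ⟨⟨⟨!![1, 0; -((N : ℤ) * j), 1], by simp [Matrix.det_fin_two_of]⟩,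
        mem_Gamma0_iff_dvd.2 (by simp)⟩, 1, ?_, by simp⟩
      rw [heckeSystem_rep]
      ext a b
      fin_cases a <;> fin_cases b <;>
        simp [wMat, heckeRepInt, Matrix.mul_apply, Fin.sum_univ_two] <;> ring
  | none =>
      obtain ⟨a, b, hab⟩ :=
        (Nat.isCoprime_iff_coprime.2 ((p.2.coprime_iff_not_dvd).2 (hx rfl)) :
          IsCoprime ((p : ℕ) : ℤ) (N : ℤ))
      refine ⟨⟨⟨!![a, -b; (N : ℤ), (p : ℤ)], by
          rw [Matrix.det_fin_two_of]; linear_combination hab⟩, mem_Gamma0_iff_dvd.2 (by simp)⟩,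
        ⟨⟨!![1, b; -(N : ℤ), (p : ℤ) * a], by
          rw [Matrix.det_fin_two_of]; linear_combination hab⟩, mem_Gamma0_iff_dvd.2 (by simp)⟩,
        ?_, by simp⟩
      rw [heckeSystem_rep]
      ext i j
      fin_cases i <;> fin_cases j <;>
        simp [wMat, heckeRepInt, Matrix.mul_apply, Fin.sum_univ_two] <;>
        first
          | ring1
          | linear_combination (N : ℤ) * hab
          | linear_combination ((N : ℤ) * (p : ℤ)) * hab

/-- The representative of `exists_cosetRep`. -/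
def cosetRep (x : HeckeIdx N p) : Gamma0 N := (exists_cosetRep p x).choose

theorem eq_of_cosetRep {x y : HeckeIdx N p}
    (h : (cosetRep p x : SL(2, ℤ)) * (cosetRep p y : SL(2, ℤ))⁻¹ ∈ Gamma0 (N * p)) : x = y := by
  have hx := (exists_cosetRep p x).choose_spec.choose_spec.2
  have hy := (exists_cosetRep p y).choose_spec.choose_spec.2
  rw [mem_Gamma0_iff_dvd, Matrix.SpecialLinearGroup.coe_mul, Matrix.mul_apply, Fin.sum_univ_two,
    Matrix.SpecialLinearGroup.coe_inv, Matrix.adjugate_fin_two] at h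
  simp only [Matrix.of_apply, Matrix.cons_val_zero, Matrix.cons_val_one] at h
  change ((N * (p : ℕ) : ℕ) : ℤ) ∣ (cosetRep p x : SL(2, ℤ)) 1 0 * (cosetRep p y : SL(2, ℤ)) 1 1
    + (cosetRep p x : SL(2, ℤ)) 1 1 * -(cosetRep p y : SL(2, ℤ)) 1 0 at h
  have hN : (N : ℤ) ≠ 0 := by exact_mod_cast NeZero.ne N
  obtain ⟨x, hx'⟩ := x
  obtain ⟨y, hy'⟩ := y
  unfold cosetRep at h
  cases x with
  | none =>
    cases y with
    | none => rfl
    | some j =>
      simp only at hx hy
      rw [hx.1, hx.2, hy.1, hy.2] at h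
      have h' : ((N : ℤ) * (p : ℕ)) ∣ (N : ℤ) * (1 + ((p : ℕ) : ℤ) * j) := by
        refine (dvd_of_eq (Nat.cast_mul _ _).symm).trans (h.trans (dvd_of_eq ?_)); ring
      rw [mul_dvd_mul_iff_left hN] at h'
      have := (Int.dvd_add_left (dvd_mul_right _ _)).1 h'
      exact absurd (Int.natCast_dvd_natCast.1 (by exact_mod_cast this)) p.2.not_dvd_one
  | some i =>
    cases y with
    | none =>
      simp only at hx hy
      rw [hx.1, hx.2, hy.1, hy.2] at h
      have h' : ((N : ℤ) * (p : ℕ)) ∣ (N : ℤ) * -(1 + ((p : ℕ) : ℤ) * i) := by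
        refine (dvd_of_eq (Nat.cast_mul _ _).symm).trans (h.trans (dvd_of_eq ?_)); ring
      rw [mul_dvd_mul_iff_left hN, dvd_neg] at h'
      have := (Int.dvd_add_left (dvd_mul_right _ _)).1 h'
      exact absurd (Int.natCast_dvd_natCast.1 (by exact_mod_cast this)) p.2.not_dvd_one
    | some j =>
      simp only at hx hy
      rw [hx.1, hx.2, hy.1, hy.2] at h
      have h' : ((N : ℤ) * (p : ℕ)) ∣ (N : ℤ) * ((j : ℤ) - (i : ℤ)) := by
        refine (dvd_of_eq (Nat.cast_mul _ _).symm).trans (h.trans (dvd_of_eq ?_)); ring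
      rw [mul_dvd_mul_iff_left hN] at h'
      have hi := i.isLt
      have hj := j.isLt
      have h0 : (j : ℤ) - i = 0 := Int.eq_zero_of_abs_lt_dvd h' (by
        rw [abs_lt]; constructor <;> omega)
      exact Subtype.ext (congrArg some (Fin.ext (by omega)))

/-- The common automorphy factor of the translates. -/
def corrFactor (k : ℤ) : ℍ → ℂ :=
  ∏ x : HeckeIdx N p,
    pullSlash (glOfInt (!![-((N : ℤ) * p), 0; 0, -(N : ℤ)] * ((cosetRep p x : SL(2, ℤ)) : M2Z))) k 1

/-- The product of `f (p γ τ)` over the cosets. -/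
def translateProd (f : ℍ → ℂ) : ℍ → ℂ :=
  ∏ x : HeckeIdx N p,
    fun τ => f (ModularForm.heckeDiagMatrix p • ((cosetRep p x : SL(2, ℤ)) • τ))

theorem det_scaledDiag_pos : 0 < (!![-((N : ℤ) * p), 0; 0, -(N : ℤ)] : M2Z).det := by
  rw [Matrix.det_fin_two_of]
  have h1 : (0 : ℤ) < N := by exact_mod_cast Nat.pos_of_ne_zero (NeZero.ne N)
  have h2 : (0 : ℤ) < (p : ℕ) := by exact_mod_cast p.2.pos
  nlinarith [mul_pos (mul_pos h1 h2) h1]

theorem scaledDiag_smul (τ : ℍ) :
    glOfInt !![-((N : ℤ) * p), 0; 0, -(N : ℤ)] • τ = ModularForm.heckeDiagMatrix p • τ := by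
  apply UpperHalfPlane.ext
  rw [coe_smul_of_det_pos (det_glOfInt_pos (det_scaledDiag_pos p)),
    ModularForm.coe_heckeDiagMatrix_smul p.2.ne_zero]
  have hv := val_glOfInt (det_scaledDiag_pos (N := N) p).ne'
  have hN : ((N : ℂ)) ≠ 0 := by exact_mod_cast NeZero.ne N
  simp [num, denom, hv]
  field_simp

theorem corrProd_eq {k : ℤ} {f : ℍ → ℂ} (hf : ∀ γ : Gamma0 N, f ∣[k] (γ : SL(2, ℤ)) = f) :
    corrProd (N := N) p k f = corrFactor (N := N) p k * translateProd (N := N) p f := by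
  have hw := det_glOfInt_pos (det_wMat_pos N)
  have hwne := (det_wMat_pos N).ne'
  rw [corrProd, heckeProd, show (Fintype.card (HeckeIdx N p) : ℤ)
    = ((Finset.univ : Finset (HeckeIdx N p)).card : ℤ) from rfl, pullSlash_prod, corrFactor,
    translateProd, ← Finset.prod_mul_distrib]
  refine Finset.prod_congr rfl fun x _ => ?_
  have hrne := (det_heckeSystem_pos (N := N) p x).ne'
  rw [pullSlash_pullSlash hw, ← glOfInt_mul hrne hwne,
    pullSlash_pullSlash (det_glOfInt_pos (by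
      rw [Matrix.det_mul]; exact mul_pos (det_heckeSystem_pos p x) (det_wMat_pos N))),
    ← glOfInt_mul hwne (by rw [Matrix.det_mul]; exact mul_ne_zero hrne hwne), ← Matrix.mul_assoc]
  set h := (exists_cosetRep p x).choose_spec.choose with hh
  rw [show wMat N * (heckeSystem N p).rep x * wMat N =
    ((h : SL(2, ℤ)) : M2Z) * !![-((N : ℤ) * p), 0; 0, -(N : ℤ)] *
      ((cosetRep p x : SL(2, ℤ)) : M2Z) from (exists_cosetRep p x).choose_spec.choose_spec.1]
  set D : M2Z := !![-((N : ℤ) * p), 0; 0, -(N : ℤ)] with hD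
  have hDpos : 0 < D.det := det_scaledDiag_pos p
  have hDne : D.det ≠ 0 := hDpos.ne'
  rw [Matrix.mul_assoc, glOfInt_mul (det_coe_ne_zero _) (by simp [hDne]),
    ← pullSlash_pullSlash (det_glOfInt_pos (by simp [hDpos])), glOfInt_coe, pullSlash_mapGL, hf]
  funext τ
  simp only [pullSlash, Pi.mul_apply, Pi.one_apply, one_mul]
  rw [glOfInt_mul hDne (det_coe_ne_zero _), mul_smul, glOfInt_coe, scaledDiag_smul, mul_comm]
  rfl

end FermatLib.Modular.Corr
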