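import Fermat.Agent.Modular.Kummer.KummerChar
import Fermat.Agent.Modular.CorrFacts
import Fermat.Agent.Modular.CorrNorm
import Fermat.Agent.Modular.CorrAtkinLehner

/-!
Over `ℂ` the divisor correspondence `α_* β^*` acts on Kummer characters by the transfer operator
conjugated by the Fricke matrix.
-/

set_option autoImplicit false
set_option linter.style.haveILetI false
set_option synthInstance.maxHeartbeats 200000

noncomputable section

open Complex hiding I
open UpperHalfPlane hiding I
open CongruenceSubgroup ModularCurve AlgebraicCurve Filter Function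
open scoped Topology MatrixGroups ModularForm Manifold

namespace FermatLib.Modular.Corr

open FermatLib.Modular.Kummer (IsTwisted IsKummerChar cxField qL)

variable {N : ℕ} [NeZero N] (p : Nat.Primes)

attribute [local instance] neZero_mul'

instance neZeroPrime (q : Nat.Primes) : NeZero (q : ℕ) := ⟨q.2.ne_zero⟩

omit [NeZero N] in
theorem card_heckeIdx : Fintype.card (HeckeIdx N p) = if (p : ℕ) ∣ N then (p : ℕ) else p + 1 := by
  classical
  split_ifs with h
  · refine (Fintype.card_congr ?_).trans (Fintype.card_fin _)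
    exact
      { toFun := fun x => match x with
          | ⟨some j, _⟩ => j
          | ⟨none, hx⟩ => absurd h (hx rfl)
        invFun := fun j => ⟨some j, fun e => by cases e⟩
        left_inv := fun x => by
          obtain ⟨x, hx⟩ := x
          cases x with
          | none => exact absurd h (hx rfl)
          | some j => rfl
        right_inv := fun j => rfl }
  · rw [Fintype.card_congr (Equiv.subtypeUnivEquiv fun x _ => h), Fintype.card_option,
      Fintype.card_fin]

theorem card_heckeIdx_eq_finrankAlong :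
    Fintype.card (HeckeIdx N p) = finrankAlong ℂ (heckeAlphaBar ℂ N p) := by
  have h := finrankAlong_barIncl_mul (L := ℂ) (levelFacts ℂ) (dvd_mul_right N (p : ℕ))
  rw [dedekindPsi_mul_prime N p.2, ← card_heckeIdx p] at h
  rw [heckeAlphaBar_eq_barIncl]
  exact (Nat.eq_of_mul_eq_mul_right (dedekindPsi_pos' N) h).symm

/-- `meroEval` along the coset representatives restricts to evaluation on level `N`. -/
theorem meroEval_heckeAlphaBar (x : HeckeIdx N p) (f : modularFunctionFieldCx N) :
    meroEval (N * p) (cosetRep p x : SL(2, ℤ)) (heckeAlphaBar ℂ N p f) = meroEval N 1 f := by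
  obtain ⟨W₁, W₂, hW, hf⟩ := exists_eq_qExpWeak_div f
  have hne : qExpWeak N W₂ ≠ 0 := fun h0 => hW (qExpWeak_injective N (by rw [h0, map_zero]))
  have hq := weakMod_Gamma0_le_qMero N
  have hW2 : (W₂ : ℍ → ℂ) ≠ 0 := fun h0 => hW (Subtype.ext h0)
  have h : (f : LaurentSeries ℂ) * qExpL (W₂ : ℍ → ℂ) = qExpL (W₁ : ℍ → ℂ) := by
    rw [show (f : LaurentSeries ℂ) = qExpWeak N W₁ / qExpWeak N W₂ by rw [hf]; rfl]
    exact div_mul_cancel₀ _ hne
  have e : ∀ W : weakMod (Gamma0 N),
      (fun τ => (W : ℍ → ℂ) ((cosetRep p x : SL(2, ℤ)) • τ))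
        = fun τ => (W : ℍ → ℂ) ((1 : SL(2, ℤ)) • τ) := fun W => funext fun τ => by
    rw [W.2.2.1 _ (cosetRep p x).2, one_smul]
  have h1 := meroEval_mul_toMero 1 f (hq W₁.2) (hq W₂.2) h
  have h2 := meroEval_mul_toMero (cosetRep p x : SL(2, ℤ)) (heckeAlphaBar ℂ N p f)
    (hq W₁.2) (hq W₂.2) (by rw [coe_heckeAlphaBar]; exact h)
  rw [toMero_congr (e W₁) _ (mdifferentiable_comp_smul W₁.2.1 1),
    toMero_congr (e W₂) _ (mdifferentiable_comp_smul W₂.2.1 1), ← h1] at h2
  refine mul_right_cancel₀ (toMero_ne_zero ?_) h2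
  intro h0
  exact hW2 (funext fun τ => by simpa using congrFun h0 τ)

theorem meroEval_cosetRep_injective :
    Injective fun x : HeckeIdx N p => meroEval (N * p) (cosetRep p x : SL(2, ℤ)) := by
  intro x y h
  refine eq_of_cosetRep p ((jScaleFun_smul_eq_iff (N * p) _ _).mp fun τ => ?_)
  set W : weakMod (Gamma0 (N * p)) := ⟨jScaleFun (N * p), jScaleFun_mem_weakMod dvd_rfl⟩ with hW
  have h1 := RingHom.congr_fun h ⟨qExpWeak _ W, qExpWeak_mem W⟩
  simp only [meroEval_qExpWeak_toMero] at h1
  exact congrFun (toMero_injective h1) τ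

theorem toMero_prod {ι : Type} (s : Finset ι) (G : ι → ℍ → ℂ) (hG : ∀ i, MDiff (G i))
    (h : MDiff (∏ i ∈ s, G i)) : toMero (∏ i ∈ s, G i) h = ∏ i ∈ s, toMero (G i) (hG i) := by
  show algebraMap holFun MeroH _ = _
  simp only [toMero, ← map_prod]
  refine congrArg _ (Subtype.ext ?_)
  simp

theorem mdifferentiable_finset_prod {ι : Type} (s : Finset ι) (G : ι → ℍ → ℂ)
    (hG : ∀ i, MDiff (G i)) : MDiff (∏ i ∈ s, G i) :=
  Subalgebra.prod_mem holFun fun i _ => hG i

theorem finset_prod_ne_zero {ι : Type} (s : Finset ι) (G : ι → ℍ → ℂ) (hG : ∀ i, MDiff (G i))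
    (hG0 : ∀ i, G i ≠ 0) : ∏ i ∈ s, G i ≠ 0 := by
  intro h
  have h1 := toMero_prod s G hG (mdifferentiable_finset_prod s G hG)
  rw [toMero_congr h _ mdifferentiable_const] at h1
  exact Finset.prod_ne_zero_iff.mpr (fun i _ => toMero_ne_zero (hG := hG i) (hG0 i))
    (h1.symm.trans (map_zero _))

theorem mdifferentiable_diag_smul {G : ℍ → ℂ} (hG : MDiff G) (d : ℕ) (g : SL(2, ℤ)) :
    MDiff (fun τ => G (ModularForm.heckeDiagMatrix d • (g • τ))) :=
  mdifferentiable_comp_smul
    (hG.comp (UpperHalfPlane.mdifferentiable_smul (ModularForm.det_heckeDiagMatrix_pos d))) g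

theorem mdifferentiable_corrFactor (k : ℤ) : MDiff (corrFactor (N := N) p k) :=
  mdifferentiable_finset_prod _ _ fun x =>
    mdifferentiable_pullSlash (det_glOfInt_pos (by
      rw [Matrix.det_mul, Matrix.SpecialLinearGroup.det_coe, mul_one]
      exact det_scaledDiag_pos p)) mdifferentiable_const

theorem mdifferentiable_translateProd {f : ℍ → ℂ} (hf : MDiff f) :
    MDiff (translateProd (N := N) p f) :=
  mdifferentiable_finset_prod _ _ fun x => mdifferentiable_diag_smul hf p _

omit [NeZero N] in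
/-- Trivial-character forms are in `qMero`. -/
theorem isTwisted_one_mem_qMero {k : ℤ} {f : ℍ → ℂ} (hf : IsTwisted (1 : Gamma0 N →* ℂˣ) k f) :
    f ∈ qMero ∧ IsBoundedAtImInfty f := by
  have hb : IsBoundedAtImInfty f := (hf.isCuspFn_one fun _ => rfl).bdd
  refine ⟨mem_qMero.mpr ⟨fun τ => ?_, hf.mdiff, 0, by simpa using hb⟩, hb⟩
  have hT : ModularGroup.T ^ ((1 : ℕ) : ℤ) ∈ Gamma0 N := by
    simpa using modularGroup_T_mem_Gamma0 N
  have h := congrFun (hf.slash ⟨_, hT⟩) τ
  rw [MonoidHom.one_apply, Units.val_one, one_smul,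
    FermatLib.Modular.Kummer.slash_T_zpow_apply] at h
  simpa using h

theorem qL_eq_qExpL {k : ℤ} {f : ℍ → ℂ} (hf : IsTwisted (1 : Gamma0 N →* ℂˣ) k f) :
    qL f = qExpL f :=
  (qExpL_of_bounded (isTwisted_one_mem_qMero hf).1 (isTwisted_one_mem_qMero hf).2).symm

theorem corrProd_ne_zero {k : ℤ} {f : ℍ → ℂ} (hf : IsTwisted (1 : Gamma0 N →* ℂˣ) k f)
    (hf0 : f ≠ 0) : corrProd (N := N) p k f ≠ 0 :=
  pullSlash_ne_zero (finset_prod_ne_zero _ _
    (fun x => mdifferentiable_pullSlash (det_glOfInt_pos (det_heckeSystem_pos p x))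
      (mdifferentiable_pullSlash (det_glOfInt_pos (det_wMat_pos N)) hf.mdiff))
    fun x => pullSlash_ne_zero (pullSlash_ne_zero hf0))

/-- The norm of `β f` is the quotient of the translates of numerator and denominator. -/
theorem normAlong_mul_qExpL {k : ℤ} {A B : ℍ → ℂ} (hA : IsTwisted (1 : Gamma0 N →* ℂˣ) k A)
    (hB : IsTwisted (1 : Gamma0 N →* ℂˣ) k B) (f : cxField N)
    (hf : (f : LaurentSeries ℂ) * qExpL B = qExpL A) :
    ((normAlong (heckeAlphaBar ℂ N p) (heckeBetaBar ℂ N p f) : cxField N) : LaurentSeries ℂ) *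
        qExpL (corrProd (N := N) p k B) = qExpL (corrProd (N := N) p k A) := by
  have hA' := isTwisted_corrProd p hA
  have hB' := isTwisted_corrProd p hB
  rw [corrChar_one] at hA' hB'
  refine mul_qExpL_of_meroEval _ (isTwisted_one_mem_qMero hA').1 (isTwisted_one_mem_qMero hB').1 ?_
  have hnorm := map_normAlong_eq_prod (heckeAlphaBar ℂ N p)
    (finiteAlong_heckeAlphaBar (levelFacts ℂ) N p) (meroEval N 1)
    (fun x : HeckeIdx N p => meroEval (N * p) (cosetRep p x : SL(2, ℤ)))
    (meroEval_heckeAlphaBar p) (meroEval_cosetRep_injective p) (card_heckeIdx_eq_finrankAlong p)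
    (heckeBetaBar ℂ N p f)
  have hAm := (isTwisted_one_mem_qMero hA).1
  have hBm := (isTwisted_one_mem_qMero hB).1
  have hstep : ∀ x : HeckeIdx N p,
      meroEval (N * p) (cosetRep p x : SL(2, ℤ)) (heckeBetaBar ℂ N p f) *
        toMero _ (mdifferentiable_diag_smul hB.mdiff p (cosetRep p x : SL(2, ℤ)))
      = toMero _ (mdifferentiable_diag_smul hA.mdiff p (cosetRep p x : SL(2, ℤ))) := fun x =>
    meroEval_mul_toMero _ _ (comp_diag_mem_qMero hAm p) (comp_diag_mem_qMero hBm p) (by
      rw [coe_heckeBetaBar, qExpL_comp_diag hBm p, qExpL_comp_diag hAm p, ← map_mul, hf])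
  have hfix : ∀ {C : ℍ → ℂ}, IsTwisted (1 : Gamma0 N →* ℂˣ) k C →
      ∀ γ : Gamma0 N, C ∣[k] (γ : SL(2, ℤ)) = C := fun hC γ => by
    rw [hC.slash, MonoidHom.one_apply, Units.val_one, one_smul]
  rw [toMero_congr (corrProd_eq p (hfix hA)) _
      ((mdifferentiable_corrFactor p k).mul (mdifferentiable_translateProd p hA.mdiff)),
    toMero_congr (corrProd_eq p (hfix hB)) _
      ((mdifferentiable_corrFactor p k).mul (mdifferentiable_translateProd p hB.mdiff)),
    toMero_mul (mdifferentiable_corrFactor p k) (mdifferentiable_translateProd p hA.mdiff),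
    toMero_mul (mdifferentiable_corrFactor p k) (mdifferentiable_translateProd p hB.mdiff),
    mul_left_comm]
  congr 1
  rw [hnorm]
  have e1 := toMero_prod (Finset.univ : Finset (HeckeIdx N p))
    (fun x τ => B (ModularForm.heckeDiagMatrix p • ((cosetRep p x : SL(2, ℤ)) • τ)))
    (fun x => mdifferentiable_diag_smul hB.mdiff p _) (mdifferentiable_translateProd p hB.mdiff)
  have e2 := toMero_prod (Finset.univ : Finset (HeckeIdx N p))
    (fun x τ => A (ModularForm.heckeDiagMatrix p • ((cosetRep p x : SL(2, ℤ)) • τ)))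
    (fun x => mdifferentiable_diag_smul hA.mdiff p _) (mdifferentiable_translateProd p hA.mdiff)
  unfold translateProd
  rw [e1, e2, ← Finset.prod_mul_distrib]
  exact Finset.prod_congr rfl fun x _ => hstep x

/-- The Hecke correspondence on Kummer characters. -/
theorem isKummerChar_correspondence {n : ℕ} (hn : n ≠ 0)
    [HasPrincipalDivisors ℂ (cxField (N * p))]
    (hβ : (heckeBetaBar ℂ N p).toRingHom.IsIntegral)
    (hα : (heckeAlphaBar ℂ N p).toRingHom.IsIntegral)
    {D : Divisor ℂ (cxField N)} {χ : Gamma0 N →* ℂˣ} (h : IsKummerChar n D χ) :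
    IsKummerChar n (Divisor.correspondence (heckeBetaBar ℂ N p) (heckeAlphaBar ℂ N p) hβ hα D)
      (corrChar p χ) := by
  obtain ⟨k, A, B, f, r, hA, hB, hfAB, hD, hr, hpow⟩ := h
  have hAt := IsTwisted.of_modularForm A
  have hBt := IsTwisted.of_modularForm B
  have hA' := isTwisted_corrProd p hAt
  have hB' := isTwisted_corrProd p hBt
  rw [corrChar_one] at hA' hB'
  have hfin := finiteAlong_heckeAlphaBar (L := ℂ) (levelFacts ℂ) N p
  set φ := normAlong (heckeAlphaBar ℂ N p) (heckeBetaBar ℂ N p f) with hφ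
  refine ⟨(Fintype.card (HeckeIdx N p) : ℤ) * k, hA'.toModularForm fun _ => rfl,
    hB'.toModularForm fun _ => rfl, φ, corrProd (N := N) p k r, ?_, ?_, ?_, ?_,
    isTwisted_corrProd p hr, ?_⟩
  · intro h0
    exact corrProd_ne_zero p hAt (FermatLib.Modular.Kummer.modularForm_coe_ne_zero hA)
      (by simpa using congrArg DFunLike.coe h0)
  · intro h0
    exact corrProd_ne_zero p hBt (FermatLib.Modular.Kummer.modularForm_coe_ne_zero hB)
      (by simpa using congrArg DFunLike.coe h0)
  · rw [IsTwisted.coe_toModularForm, IsTwisted.coe_toModularForm, qL_eq_qExpL hA', qL_eq_qExpL hB']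
    refine normAlong_mul_qExpL p hAt hBt f ?_
    rw [← qL_eq_qExpL hAt, ← qL_eq_qExpL hBt]
    exact hfAB
  · intro v
    have hf0 := FermatLib.Modular.Kummer.ne_zero_of_eq hA hfAB
    have := pushforwardAlong_apply_of_normFormula hα hfin
      ((curveFacts ℂ).normFormula N (N * p) _ hfin)
      (f := heckeBetaBar ℂ N p f) (by simpa using hf0)
      (D := (n : ℤ) • Divisor.pullbackAlong (heckeBetaBar ℂ N p) hβ D)
      (fun w => by
        rw [Finsupp.smul_apply, Divisor.pullbackAlong_apply, Place.ord_restrictAlong _ hβ, hD]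
        rw [smul_eq_mul]
        ring) v
    rw [map_zsmul, Finsupp.smul_apply, smul_eq_mul] at this
    rw [Divisor.correspondence_apply]
    exact this.symm
  · rw [IsTwisted.coe_toModularForm, IsTwisted.coe_toModularForm, ← corrProd_pow, hpow,
      show (n : ℤ) * k = k + ((n - 1 : ℕ) : ℤ) * k by
        rw [Nat.cast_sub (Nat.one_le_iff_ne_zero.mpr hn)]; push_cast; ring,
      corrProd_mul, corrProd_pow]

end FermatLib.Modular.Corr
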