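import Fermat.Agent.Modular.HeckeDualityForms
import Mathlib.Algebra.MvPolynomial.Funext

/-!
# Rational homology of `X₀(N)` is free of rank two over the Hecke algebra

There are two elements of `Γ₀(N)` (one even, one odd for the involution) such that evaluation of
`t φ` at them identifies `cuspidalHoms` with pairs of additive functions on the Hecke algebra,
for coefficients in a rational vector space.  In particular every eigen-system has multiplicity
exactly two, one in each eigenspace of the involution.
-/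

set_option autoImplicit false

noncomputable section

open scoped MatrixGroups
open CongruenceSubgroup ModularCurve ModularCurve.Period ModularFormClass

namespace FermatLib.Modular

theorem det_smul_eq_zero_of_sum_smul_eq_zero {ι A : Type*} [Fintype ι] [DecidableEq ι]
    [AddCommGroup A] (M : Matrix ι ι ℤ) (x : ι → A) (h : ∀ i, ∑ j, M i j • x j = 0) (l : ι) :
    M.det • x l = 0 := by
  calc M.det • x l = ∑ j, (M.adjugate * M) l j • x j := by
        simp [Matrix.adjugate_mul, Matrix.smul_apply, Matrix.one_apply]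
    _ = ∑ i, M.adjugate l i • ∑ j, M i j • x j := by
        simp only [Matrix.mul_apply, Finset.sum_smul, Finset.smul_sum, ← smul_smul]
        rw [Finset.sum_comm]
    _ = 0 := by simp [h]

theorem exists_sum_smul_eq {ι A : Type*} [Fintype ι] [DecidableEq ι] [AddCommGroup A] [Module ℚ A]
    (M : Matrix ι ι ℤ) (hM : M.det ≠ 0) (y : ι → A) :
    ∃ x : ι → A, ∀ i, ∑ j, M i j • x j = y i := by
  refine ⟨fun l => ((M.det : ℚ)⁻¹) • ∑ k, M.adjugate l k • y k, fun i => ?_⟩
  have : ∑ j, M i j • ∑ k, M.adjugate j k • y k = M.det • y i := by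
    simp only [Finset.smul_sum, smul_smul]
    rw [Finset.sum_comm]
    simp only [← Finset.sum_smul, ← Matrix.mul_apply, Matrix.mul_adjugate, Matrix.smul_apply]
    simp [Matrix.one_apply]
  simp only [smul_comm _ ((M.det : ℚ)⁻¹), ← Finset.smul_sum, this]
  rw [← Int.cast_smul_eq_zsmul ℚ, inv_smul_smul₀ (Int.cast_ne_zero.2 hM)]

variable (N : ℕ) [NeZero N]

local notation "TZ" => CuspForm.heckeAlgebra N 2 (∅ : Set ℕ)

/-- The dual basis as elements of the module of cuspidal homomorphisms. -/
def cuspDualHom (j : Fin (cuspRank N)) : cuspidalHoms ℤ (Gamma0 N) ℤ :=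
  ⟨cuspDualBasis N j, isCuspidalHom_cuspDualBasis N j⟩

variable {N} in
theorem heckeCuspAct_apply_eq_sum {R : Type*} [Ring R] {A : Type*} [AddCommGroup A] [Module R A]
    (t : TZ) (φ : cuspidalHoms R (Gamma0 N) A) (g : Additive (Gamma0 N)) :
    (heckeCuspAct N R A t φ).1 g =
      ∑ j, (heckeCuspAct N ℤ ℤ t (cuspDualHom N j)).1 g •
        φ.1 (Additive.ofMul (cuspBasisElt N j)) := by
  rw [coe_heckeCuspAct_eq_int]
  set φ' : cuspidalHoms ℤ (Gamma0 N) A := ⟨φ.1, φ.2⟩
  have hsum : φ' = ∑ j, ⟨(zmultiplesHom A (φ.1 (Additive.ofMul (cuspBasisElt N j)))).comp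
      (cuspDualHom N j).1, (cuspDualHom N j).2.comp _⟩ :=
    Subtype.ext (AddMonoidHom.ext fun x => by
      simpa [φ', cuspDualHom, AddMonoidHom.finsetSum_apply] using
        IsCuspidalHom.eq_sum φ.2 x)
  rw [hsum, map_sum, AddSubmonoidClass.coe_finsetSum, AddMonoidHom.finsetSum_apply]
  exact Finset.sum_congr rfl fun j _ => by rw [coe_heckeCuspAct_comp]; rfl

theorem exists_elt_forall_hom_eq_sum {κ : Type*} (s : Finset κ) (γ : κ → Gamma0 N) (w : κ → ℤ) :
    ∃ g : Gamma0 N, ∀ ψ : Additive (Gamma0 N) →+ ℤ,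
      ψ (Additive.ofMul g) = ∑ m ∈ s, w m * ψ (Additive.ofMul (γ m)) := by
  classical
  induction s using Finset.induction_on with
  | empty => exact ⟨1, fun ψ => by simp⟩
  | insert a s ha ih =>
    obtain ⟨g, hg⟩ := ih
    refine ⟨γ a ^ w a * g, fun ψ => ?_⟩
    rw [Finset.sum_insert ha, ofMul_mul, map_add, hg, ofMul_zpow, map_zsmul, smul_eq_mul]

/-- The sign of the involution on the two generators. -/
def cyclicSign (s : Fin 2) : ℤ := if s = 0 then 1 else -1

/-- Symmetrisation of an element: `g * j(g)` or `g * j(g)⁻¹`. -/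
def symmElt (s : Fin 2) (g : Gamma0 N) : Gamma0 N :=
  g * jConjGamma0 N g ^ cyclicSign s

variable {N} in
theorem apply_symmElt {A : Type*} [AddCommGroup A] (ψ : Additive (Gamma0 N) →+ A) (s : Fin 2)
    (g : Gamma0 N) : ψ (Additive.ofMul (symmElt N s g)) =
      ψ (Additive.ofMul g) + cyclicSign s • ψ (Additive.ofMul (jConjGamma0 N g)) := by
  rw [symmElt, ofMul_mul, map_add, ofMul_zpow, map_zsmul]

variable {N} in
theorem apply_jConj_symmElt {A : Type*} [AddCommGroup A] (ψ : Additive (Gamma0 N) →+ A)
    (s : Fin 2) (g : Gamma0 N) : ψ (Additive.ofMul (jConjGamma0 N (symmElt N s g))) =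
      cyclicSign s • ψ (Additive.ofMul (symmElt N s g)) := by
  rw [apply_symmElt, symmElt, map_mul, map_zpow, jConjGamma0_jConjGamma0, ofMul_mul, map_add,
    ofMul_zpow, map_zsmul, smul_add, smul_smul]
  have : cyclicSign s * cyclicSign s = 1 := by
    unfold cyclicSign; split_ifs <;> rfl
  rw [this, one_smul, add_comm]

/-- Periods give `S₂ × S₂ ≅ cuspidal homomorphisms`. -/
def periodCuspEquiv :
    (CuspForm (Gamma0 N) 2 × CuspForm (Gamma0 N) 2) ≃ₗ[ℂ] cuspidalHoms ℂ (Gamma0 N) ℂ :=
  LinearEquiv.ofBijective ((periodHomPair N).codRestrict _ periodHomPair_mem_cuspidalHoms)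
    ⟨fun x y h => periodHomPair_injective (congrArg Subtype.val h), fun φ => by
      obtain ⟨x, hx⟩ := (range_periodHomPair_eq N).ge (IsCuspidalHom.isParabolicHom φ.2)
      exact ⟨x, Subtype.ext hx⟩⟩

theorem coe_periodCuspEquiv (x : CuspForm (Gamma0 N) 2 × CuspForm (Gamma0 N) 2) :
    (periodCuspEquiv N x : Additive (Gamma0 N) →+ ℂ) = periodHomPair N x := rfl

theorem involCuspOp_periodCuspEquiv (f g : CuspForm (Gamma0 N) 2) :
    involCuspOp ℂ ℂ N (periodCuspEquiv N (f, g)) = periodCuspEquiv N (f, -g) := by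
  refine Subtype.ext ?_
  rw [coe_involCuspOp, coe_periodCuspEquiv, coe_periodCuspEquiv, periodHomPair_apply,
    periodHomPair_apply, ← periodMapLin_apply (-g), map_neg, periodMapLin_apply]
  simp only [map_add, map_sub, map_neg, charInvolution_charInvolution]
  abel

/-- An identification of the index set of the square matrix below. -/
def cyclicIndex : Fin (cuspRank N) ≃ Fin (heckeRank N) × Fin 2 :=
  Fintype.equivOfCardEq (by simp [cuspRank_eq_two_mul_heckeRank, mul_comm])

/-- The matrix of `φ ↦ ((t_k φ) (g s))` in the dual basis. -/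
def cyclicMatrix (g : Fin 2 → Gamma0 N) : Matrix (Fin (cuspRank N)) (Fin (cuspRank N)) ℤ :=
  Matrix.of fun i j =>
    (heckeCuspAct N ℤ ℤ (heckeBasis N (cyclicIndex N i).1) (cuspDualHom N j)).1
      (Additive.ofMul (symmElt N (cyclicIndex N i).2 (g (cyclicIndex N i).2)))

open MvPolynomial in
theorem exists_cyclicMatrix_det_ne_zero :
    ∃ g : Fin 2 → Gamma0 N, (cyclicMatrix N g).det ≠ 0 := by
  classical
  set coef : Fin (cuspRank N) → Fin (cuspRank N) → Fin (cuspRank N) → ℤ := fun i j m =>
    (heckeCuspAct N ℤ ℤ (heckeBasis N (cyclicIndex N i).1) (cuspDualHom N j)).1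
        (Additive.ofMul (cuspBasisElt N m)) +
      cyclicSign (cyclicIndex N i).2 *
        (heckeCuspAct N ℤ ℤ (heckeBasis N (cyclicIndex N i).1) (cuspDualHom N j)).1
          (Additive.ofMul (jConjGamma0 N (cuspBasisElt N m))) with hcoef
  set P : Matrix (Fin (cuspRank N)) (Fin (cuspRank N))
      (MvPolynomial (Fin 2 × Fin (cuspRank N)) ℤ) := Matrix.of fun i j =>
    ∑ m, X ((cyclicIndex N i).2, m) * C (coef i j m) with hP
  have hne : P.det ≠ 0 := by
    intro h0
    -- the witness: coordinates of the functionals `a₁` on the two factors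
    let L : Fin 2 → cuspidalHoms ℂ (Gamma0 N) ℂ → ℂ := fun s ψ =>
      cuspFormHeckePairing N (if s = 0 then ((periodCuspEquiv N).symm ψ).1
        else ((periodCuspEquiv N).symm ψ).2) 1 / 2
    let w : Fin 2 × Fin (cuspRank N) → ℂ := fun x =>
      L x.1 ((cuspidalHomsEquiv N ℂ ℂ).symm (Pi.single x.2 1))
    have hw : ∀ s ψ, L s ψ = ∑ m, w (s, m) * ψ.1 (Additive.ofMul (cuspBasisElt N m)) := by
      intro s ψ
      have hψ : ψ = ∑ m, ψ.1 (Additive.ofMul (cuspBasisElt N m)) •
          (cuspidalHomsEquiv N ℂ ℂ).symm (Pi.single m 1) := by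
        apply (cuspidalHomsEquiv N ℂ ℂ).injective
        rw [map_sum]
        funext i
        simp [Pi.single_apply, cuspidalHomsEquiv_apply]
      conv_lhs => rw [hψ]
      have hlin : ∀ (c : Fin (cuspRank N) → ℂ)
          (v : Fin (cuspRank N) → cuspidalHoms ℂ (Gamma0 N) ℂ),
          L s (∑ m, c m • v m) = ∑ m, c m * L s (v m) := by
        intro c v
        simp only [L]
        split_ifs
        · simp only [map_sum, map_smul, Prod.fst_sum, Prod.smul_fst, AddMonoidHom.finsetSum_apply,
            AddMonoidHom.smul_apply, smul_eq_mul, Finset.sum_div, mul_div_assoc]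
        · simp only [map_sum, map_smul, Prod.snd_sum, Prod.smul_snd, AddMonoidHom.finsetSum_apply,
            AddMonoidHom.smul_apply, smul_eq_mul, Finset.sum_div, mul_div_assoc]
      rw [hlin]
      exact Finset.sum_congr rfl fun m _ => mul_comm _ _
    set Q : Matrix (Fin (cuspRank N)) (Fin (cuspRank N)) ℂ :=
      (MvPolynomial.eval₂Hom (Int.castRingHom ℂ) w).mapMatrix P with hQ
    have hdet : Q.det = 0 := by rw [hQ, ← RingHom.map_det, h0, map_zero]
    obtain ⟨x, hx0, hx⟩ := Matrix.exists_mulVec_eq_zero_iff.2 hdet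
    set φ := (cuspidalHomsEquiv N ℂ ℂ).symm x with hφ
    have hφv : ∀ j, φ.1 (Additive.ofMul (cuspBasisElt N j)) = x j := fun j => by
      rw [← cuspidalHomsEquiv_apply, hφ, LinearEquiv.apply_symm_apply]
    obtain ⟨⟨f, f'⟩, hff⟩ := (periodCuspEquiv N).surjective φ
    have key : ∀ k (s : Fin 2), cuspFormHeckePairing N (if s = 0 then f else f') (heckeBasis N k) = 0 := by
      intro k s
      have hrow := congrFun hx ((cyclicIndex N).symm (k, s))
      set ψ := heckeCuspAct N ℂ ℂ (heckeBasis N k) φ
      have hψ : ψ = periodCuspEquiv N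
          ((heckeBasis N k : Module.End ℂ (CuspForm (Gamma0 N) 2)) f,
            (heckeBasis N k : Module.End ℂ (CuspForm (Gamma0 N) 2)) f') := by
        refine Subtype.ext ?_
        rw [coe_periodCuspEquiv, ← coe_heckeCuspAct_periodHomPair]
        simp only [ψ, ← hff]
        rfl
      have hLs : ∑ j, Q ((cyclicIndex N).symm (k, s)) j * x j =
          L s ψ + cyclicSign s * L s (involCuspOp ℂ ℂ N ψ) := by
        rw [hw, hw, Finset.mul_sum, ← Finset.sum_add_distrib]
        simp only [hQ, hP, RingHom.mapMatrix_apply, Matrix.map_apply, Matrix.of_apply,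
          Equiv.apply_symm_apply, map_sum, map_mul, eval₂Hom_X', hcoef,
          Finset.sum_mul, map_add, map_intCast, eq_intCast]
        rw [Finset.sum_comm]
        refine Finset.sum_congr rfl fun m _ => ?_
        have e1 := heckeCuspAct_apply_eq_sum (heckeBasis N k) φ
          (Additive.ofMul (cuspBasisElt N m))
        have e2 := heckeCuspAct_apply_eq_sum (heckeBasis N k) φ
          (Additive.ofMul (jConjGamma0 N (cuspBasisElt N m)))
        simp only [zsmul_eq_mul, hφv] at e1 e2
        simp only [ψ, coe_involCuspOp, charInvolution_apply, toMul_ofMul, e1, e2, Finset.mul_sum,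
          ← Finset.sum_add_distrib]
        exact Finset.sum_congr rfl fun j _ => by ring
      rw [Matrix.mulVec, dotProduct, hLs, Pi.zero_apply] at hrow
      simp only [L, hψ, involCuspOp_periodCuspEquiv, LinearEquiv.symm_apply_apply,
        cuspFormHeckePairing_apply, OneMemClass.coe_one, Module.End.one_apply] at hrow
      rw [cuspFormHeckePairing_apply]
      by_cases hs : s = 0
      · subst hs
        simp [cyclicSign] at hrow ⊢
        exact hrow
      · simp only [cyclicSign, if_neg hs, Int.cast_neg, Int.cast_one, neg_mul, one_mul] at hrow ⊢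
        rw [show qCoeff ⇑(-((heckeBasis N k : Module.End ℂ (CuspForm (Gamma0 N) 2)) f')) 1 =
            -qCoeff ⇑((heckeBasis N k : Module.End ℂ (CuspForm (Gamma0 N) 2)) f') 1 by
          rw [← neg_one_smul ℂ, Basic.qCoeff_cusp_smul, neg_one_mul]] at hrow
        linear_combination hrow
    have hzero : ∀ s : Fin 2, cuspFormHeckePairing N (if s = 0 then f else f') = 0 := fun s =>
      (heckeHomsEquiv N).injective (by rw [map_zero]; exact _root_.funext fun k => key k s)
    have hf : f = 0 := cuspFormHeckePairing_injective N (by simpa using hzero 0)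
    have hf' : f' = 0 := cuspFormHeckePairing_injective N (by simpa using hzero 1)
    subst hf; subst hf'
    rw [Prod.mk_zero_zero, map_zero] at hff
    exact hx0 (_root_.funext fun j => by rw [← hφv, ← hff]; rfl)
  obtain ⟨v, hv⟩ : ∃ v : Fin 2 × Fin (cuspRank N) → ℤ, eval v P.det ≠ 0 := by
    by_contra h
    push Not at h
    exact hne (MvPolynomial.funext fun v => by rw [h v, map_zero])
  choose g hg using fun s => exists_elt_forall_hom_eq_sum N Finset.univ (cuspBasisElt N)
    (fun m => v (s, m))
  refine ⟨g, ?_⟩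
  have : cyclicMatrix N g = (eval v).mapMatrix P := by
    ext i j
    set ψ := (heckeCuspAct N ℤ ℤ (heckeBasis N (cyclicIndex N i).1) (cuspDualHom N j)).1 with hψ
    have e1 := hg (cyclicIndex N i).2 ψ
    have e2 := hg (cyclicIndex N i).2 (charInvolution N ℤ ℤ ψ)
    simp only [charInvolution_apply, toMul_ofMul] at e2
    rw [cyclicMatrix, Matrix.of_apply, ← hψ, apply_symmElt, e1, e2]
    simp only [hP, RingHom.mapMatrix_apply, Matrix.map_apply, Matrix.of_apply, map_sum, map_mul,
      eval_X, eval_C, hcoef, smul_eq_mul, Finset.mul_sum, ← Finset.sum_add_distrib, ← hψ]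
    exact Finset.sum_congr rfl fun m _ => by ring
  rw [this, ← RingHom.map_det]
  exact hv

/-- The two chosen generators: `cyclicElt N 0` is even and `cyclicElt N 1` odd. -/
def cyclicElt (s : Fin 2) : Gamma0 N :=
  symmElt N s ((exists_cyclicMatrix_det_ne_zero N).choose s)

variable (R : Type*) [Ring R] (A : Type*) [AddCommGroup A] [Module R A]

/-- `φ ↦ (s ↦ t ↦ (t φ) (cyclicElt N s))`. -/
def cyclicMap : cuspidalHoms R (Gamma0 N) A →ₗ[R] (Fin 2 → TZ →+ A) where
  toFun φ s :=
    { toFun := fun t => (heckeCuspAct N R A t φ).1 (Additive.ofMul (cyclicElt N s))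
      map_zero' := by rw [map_zero]; rfl
      map_add' := fun t t' => by rw [map_add]; rfl }
  map_add' φ ψ := funext fun s => AddMonoidHom.ext fun t => by
    show (heckeCuspAct N R A t (φ + ψ)).1 _ = _
    rw [map_add]; rfl
  map_smul' c φ := funext fun s => AddMonoidHom.ext fun t => by
    show (heckeCuspAct N R A t (c • φ)).1 _ = _
    rw [map_smul]; rfl

variable {N R A}

@[simp]
theorem cyclicMap_apply (φ : cuspidalHoms R (Gamma0 N) A) (s : Fin 2) (t : TZ) :
    cyclicMap N R A φ s t = (heckeCuspAct N R A t φ).1 (Additive.ofMul (cyclicElt N s)) := rfl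

theorem cyclicMap_heckeCuspAct (u : TZ) (φ : cuspidalHoms R (Gamma0 N) A) (s : Fin 2) (t : TZ) :
    cyclicMap N R A (heckeCuspAct N R A u φ) s t = cyclicMap N R A φ s (t * u) := by
  simp [map_mul]

theorem apply_jConj_cyclicElt {B : Type*} [AddCommGroup B] (ψ : Additive (Gamma0 N) →+ B)
    (s : Fin 2) : ψ (Additive.ofMul (jConjGamma0 N (cyclicElt N s))) =
      cyclicSign s • ψ (Additive.ofMul (cyclicElt N s)) :=
  apply_jConj_symmElt ψ s _

theorem cyclicMap_invol (φ : cuspidalHoms R (Gamma0 N) A) (s : Fin 2) :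
    cyclicMap N R A (involCuspOp R A N φ) s = cyclicSign s • cyclicMap N R A φ s :=
  AddMonoidHom.ext fun t => by
    rw [cyclicMap_apply, heckeCuspAct_invol, coe_involCuspOp, charInvolution_apply, toMul_ofMul,
      apply_jConj_cyclicElt]
    rfl

theorem cyclicMap_eq_sum (φ : cuspidalHoms R (Gamma0 N) A) (i : Fin (cuspRank N)) :
    cyclicMap N R A φ (cyclicIndex N i).2 (heckeBasis N (cyclicIndex N i).1) =
      ∑ j, cyclicMatrix N (exists_cyclicMatrix_det_ne_zero N).choose i j •
        φ.1 (Additive.ofMul (cuspBasisElt N j)) := by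
  rw [cyclicMap_apply, heckeCuspAct_apply_eq_sum]
  rfl

variable (N R A)

/-- Injectivity for torsion-free coefficients. -/
theorem cyclicMap_injective [IsAddTorsionFree A] : Function.Injective (cyclicMap N R A) := by
  rw [injective_iff_map_eq_zero]
  intro φ hφ
  refine Subtype.ext (IsCuspidalHom.ext_basis φ.2 (fun γ _ => rfl) fun j => ?_)
  have h := det_smul_eq_zero_of_sum_smul_eq_zero
    (cyclicMatrix N (exists_cyclicMatrix_det_ne_zero N).choose)
    (fun j => φ.1 (Additive.ofMul (cuspBasisElt N j)))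
    (fun i => by rw [← cyclicMap_eq_sum, hφ]; rfl) j
  exact (smul_eq_zero.1 h).resolve_left (exists_cyclicMatrix_det_ne_zero N).choose_spec

/-- Surjectivity for rational vector spaces. -/
theorem cyclicMap_surjective [Module ℚ A] : Function.Surjective (cyclicMap N R A) := by
  intro χ
  obtain ⟨x, hx⟩ := exists_sum_smul_eq (cyclicMatrix N (exists_cyclicMatrix_det_ne_zero N).choose)
    (exists_cyclicMatrix_det_ne_zero N).choose_spec
    (fun i => χ (cyclicIndex N i).2 (heckeBasis N (cyclicIndex N i).1))
  refine ⟨(cuspidalHomsEquiv N R A).symm x, funext fun s => ?_⟩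
  apply AddMonoidHom.toIntLinearMap_injective
  refine (heckeBasis N).ext fun k => ?_
  obtain ⟨i, hi⟩ := (cyclicIndex N).surjective (k, s)
  have h := cyclicMap_eq_sum ((cuspidalHomsEquiv N R A).symm x) i
  simp only [← cuspidalHomsEquiv_apply, LinearEquiv.apply_symm_apply, hx, hi] at h
  exact h

variable (K : Type*) [Field K] (χ : CuspForm.heckeAlgebra N 2 (∅ : Set ℕ) →+* K)

/-- The eigenspace of a system of Hecke eigenvalues. -/
def heckeEigenspace : Submodule K (cuspidalHoms K (Gamma0 N) K) :=
  ⨅ t, LinearMap.ker (heckeCuspAct N K K t - χ t • 1)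

theorem mem_heckeEigenspace {φ : cuspidalHoms K (Gamma0 N) K} :
    φ ∈ heckeEigenspace N K χ ↔ ∀ t, heckeCuspAct N K K t φ = χ t • φ := by
  simp [heckeEigenspace, sub_eq_zero]

/-- Multiplicity two: an eigenclass is determined by its values at the two generators, which
are arbitrary. -/
def heckeEigenspaceEquiv [CharZero K] : heckeEigenspace N K χ ≃ₗ[K] (Fin 2 → K) :=
  LinearEquiv.ofBijective
    { toFun := fun φ s => φ.1.1 (Additive.ofMul (cyclicElt N s))
      map_add' := fun _ _ => rfl
      map_smul' := fun _ _ => rfl }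
    ⟨fun φ ψ h => Subtype.ext (cyclicMap_injective N K K (funext fun s => AddMonoidHom.ext fun t => by
        rw [cyclicMap_apply, cyclicMap_apply, (mem_heckeEigenspace N K χ).1 φ.2 t,
          (mem_heckeEigenspace N K χ).1 ψ.2 t]
        exact congrArg (χ t * ·) (congrFun h s))),
      fun v => by
      obtain ⟨φ, hφ⟩ := cyclicMap_surjective N K K fun s =>
        (AddMonoidHom.mulRight (v s)).comp χ.toAddMonoidHom
      have hval : ∀ s t, cyclicMap N K K φ s t = χ t * v s := fun s t => by rw [hφ]; rfl
      refine ⟨⟨φ, (mem_heckeEigenspace N K χ).2 fun t =>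
        cyclicMap_injective N K K (funext fun s => AddMonoidHom.ext fun t' => ?_)⟩,
        funext fun s => ?_⟩
      · rw [cyclicMap_heckeCuspAct, map_smul, Pi.smul_apply, AddMonoidHom.smul_apply, hval, hval,
          map_mul, smul_eq_mul]
        ring
      · have := hval s 1
        rw [cyclicMap_apply, map_one, map_one, one_mul] at this
        exact this⟩

@[simp]
theorem heckeEigenspaceEquiv_apply [CharZero K] (φ : heckeEigenspace N K χ) (s : Fin 2) :
    heckeEigenspaceEquiv N K χ φ s = φ.1.1 (Additive.ofMul (cyclicElt N s)) := rfl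

end FermatLib.Modular

end
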