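import Mathlib.NumberTheory.ModularForms.EisensteinSeries.QExpansion
import Mathlib.NumberTheory.ModularForms.ArithmeticSubgroups
import Mathlib.NumberTheory.ModularForms.LevelOne.DimensionFormula
import Mathlib.Analysis.Meromorphic.Basic
import Fermat.Agent.Modular.WeightedEisenstein

/-!
Modular forms with character on `Gamma0 N`, and twisted meromorphic functions.

For a homomorphism `ψ : Gamma0 N →* ℂˣ` with `‖ψ γ‖ = 1` which kills every `γ` of trace `±2`,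
`twistedEis ψ k` is holomorphic, bounded at every cusp, satisfies `F ∣[k] γ = ψ γ • F` and is
nonzero; `twistedFun ψ = twistedEis ψ 4 / E₄` is a nonzero `ψ`-equivariant meromorphic function.
-/

set_option autoImplicit false

noncomputable section

open UpperHalfPlane EisensteinSeries Filter Topology Matrix Complex CongruenceSubgroup
open scoped MatrixGroups ModularForm Manifold

namespace FermatLib.Modular

variable {N : ℕ} (ψ : Gamma0 N →* ℂˣ)

/-- `ψ` kills all elements of trace `±2` (i.e. `±1` and the parabolic elements). -/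
def KillsParabolic : Prop :=
  ∀ γ : Gamma0 N, ((γ : SL(2, ℤ)) : Matrix (Fin 2) (Fin 2) ℤ).trace ^ 2 = 4 → ψ γ = 1

lemma eq_of_bottomRow_eq (hψ : KillsParabolic ψ) {γ γ' : Gamma0 N}
    (h : (γ : SL(2, ℤ)).1 1 = (γ' : SL(2, ℤ)).1 1) : ψ γ = ψ γ' := by
  set M : SL(2, ℤ) := ((γ' * γ⁻¹ : Gamma0 N) : SL(2, ℤ)) with hM
  have hrow : M.1 1 = (1 : Matrix (Fin 2) (Fin 2) ℤ) 1 := by
    have h1 : (γ : SL(2, ℤ)).1 * ((γ : SL(2, ℤ))⁻¹).1 = 1 :=
      congrArg Subtype.val (mul_inv_cancel (γ : SL(2, ℤ)))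
    rw [← h1]
    funext j
    show ((γ' : SL(2, ℤ)).1 * ((γ : SL(2, ℤ))⁻¹).1) 1 j = _
    simp only [Matrix.mul_apply, h]
  have h10 : M.1 1 0 = 0 := by rw [hrow]; rfl
  have h11 : M.1 1 1 = 1 := by rw [hrow]; rfl
  have hdet := M.2
  rw [Matrix.det_fin_two, h10, h11, mul_zero, sub_zero, mul_one] at hdet
  have : ψ (γ' * γ⁻¹) = 1 := hψ _ (by
    show M.1.trace ^ 2 = 4
    rw [Matrix.trace_fin_two, hdet, h11]; norm_num)
  rw [map_mul, map_inv, mul_inv_eq_one] at this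
  exact this.symm

/-- `conj ψ` as a function of the bottom row, extended by zero. -/
def twistWeight (v : Fin 2 → ℤ) : ℂ :=
  open Classical in
  if h : ∃ γ : Gamma0 N, (γ : SL(2, ℤ)).1 1 = v then ((ψ h.choose)⁻¹ : ℂˣ) else 0

lemma twistWeight_bottomRow (hψ : KillsParabolic ψ) (γ : Gamma0 N) :
    twistWeight ψ ((γ : SL(2, ℤ)).1 1) = ((ψ γ)⁻¹ : ℂˣ) := by
  have h : ∃ γ' : Gamma0 N, (γ' : SL(2, ℤ)).1 1 = (γ : SL(2, ℤ)).1 1 := ⟨γ, rfl⟩
  rw [twistWeight, dif_pos h, eq_of_bottomRow_eq ψ hψ h.choose_spec]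

lemma norm_twistWeight_le (hu : ∀ γ, ‖(ψ γ : ℂ)‖ = 1) (v : Fin 2 → ℤ) :
    ‖twistWeight ψ v‖ ≤ 1 := by
  rw [twistWeight]
  split_ifs with h
  · rw [← map_inv, hu]
  · simp

lemma bottomRow_vecMul (γ A : SL(2, ℤ)) : γ.1 1 ᵥ* A.1 = (γ * A).1 1 := by
  funext j
  simp [Matrix.vecMul, dotProduct, Matrix.mul_apply]

lemma twistWeight_vecMul (hψ : KillsParabolic ψ) (γ : Gamma0 N) (v : Fin 2 → ℤ) :
    twistWeight ψ (v ᵥ* ((γ : SL(2, ℤ))⁻¹).1) = (ψ γ : ℂ) * twistWeight ψ v := by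
  by_cases h : ∃ δ : Gamma0 N, (δ : SL(2, ℤ)).1 1 = v
  · obtain ⟨δ, rfl⟩ := h
    rw [bottomRow_vecMul,
      show (δ : SL(2, ℤ)) * (γ : SL(2, ℤ))⁻¹ = ((δ * γ⁻¹ : Gamma0 N) : SL(2, ℤ)) from rfl,
      twistWeight_bottomRow ψ hψ, twistWeight_bottomRow ψ hψ, ← Units.val_mul, map_mul, map_inv,
      _root_.mul_inv_rev, inv_inv]
  · have h' : ¬ ∃ δ : Gamma0 N, (δ : SL(2, ℤ)).1 1 = v ᵥ* ((γ : SL(2, ℤ))⁻¹).1 := by
      rintro ⟨δ, hδ⟩
      refine h ⟨δ * γ, ?_⟩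
      have hγ : ((γ : SL(2, ℤ))⁻¹).1 * (γ : SL(2, ℤ)).1 = 1 :=
        congrArg Subtype.val (inv_mul_cancel (γ : SL(2, ℤ)))
      rw [Subgroup.coe_mul, ← bottomRow_vecMul, hδ, vecMul_vecMul, hγ, vecMul_one]
    rw [twistWeight, twistWeight, dif_neg h, dif_neg h', mul_zero]

/-- The Eisenstein series with character `ψ`. -/
def twistedEis (k : ℤ) : ℍ → ℂ := weightedEis (twistWeight ψ) k

variable {ψ} {k : ℤ}

lemma twistedEis_slash (hψ : KillsParabolic ψ) (k : ℤ) (γ : Gamma0 N) :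
    twistedEis ψ k ∣[k] (γ : SL(2, ℤ)) = (ψ γ : ℂ) • twistedEis ψ k := by
  rw [twistedEis, weightedEis_slash]
  funext z
  simp only [weightedEis, Pi.smul_apply, smul_eq_mul, twistWeight_vecMul ψ hψ γ, mul_assoc,
    tsum_mul_left]

lemma mdifferentiable_twistedEis (hu : ∀ γ, ‖(ψ γ : ℂ)‖ = 1) (hk : 3 ≤ k) :
    MDiff (twistedEis ψ k) :=
  mdifferentiable_weightedEis (norm_twistWeight_le ψ hu) hk

lemma isBoundedAtImInfty_twistedEis_slash (hu : ∀ γ, ‖(ψ γ : ℂ)‖ = 1) (hk : 3 ≤ k)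
    (A : SL(2, ℤ)) : IsBoundedAtImInfty (twistedEis ψ k ∣[k] A) := by
  rw [twistedEis, weightedEis_slash]
  exact isBoundedAtImInfty_weightedEis (fun v ↦ norm_twistWeight_le ψ hu _) hk

lemma tendsto_twistedEis_I_mul (hψ : KillsParabolic ψ) (hu : ∀ γ, ‖(ψ γ : ℂ)‖ = 1) (hk : 3 ≤ k)
    (hk2 : Even k) :
    Tendsto (fun y : ℝ ↦ (↑ₕ(twistedEis ψ k)) (Complex.I * y)) atTop (𝓝 2) := by
  convert! tendsto_weightedEis_I_mul (norm_twistWeight_le ψ hu) hk using 2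
  have hne : ![(0 : ℤ), 1] ≠ ![0, -1] := fun h ↦ by simpa using congrFun h 1
  rw [tsum_eq_sum (s := {![0, 1], ![0, -1]}) ?_, Finset.sum_pair hne]
  · have e1 : twistWeight ψ ![0, 1] = 1 := by
      have : ((1 : Gamma0 N) : SL(2, ℤ)).1 1 = ![0, 1] := by
        funext j; fin_cases j <;> rfl
      rw [← this, twistWeight_bottomRow ψ hψ, map_one, inv_one, Units.val_one]
    have e2 : twistWeight ψ ![0, -1] = 1 := by
      have hmem : (-1 : SL(2, ℤ)) ∈ Gamma0 N := by simp [Gamma0_mem]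
      have : ((⟨-1, hmem⟩ : Gamma0 N) : SL(2, ℤ)).1 1 = ![0, -1] := by
        funext j; fin_cases j <;> simp
      rw [← this, twistWeight_bottomRow ψ hψ, hψ ⟨-1, hmem⟩ (by simp),
        inv_one, Units.val_one]
    simp only [Matrix.cons_val_zero, Matrix.cons_val_one, if_true, e1, e2, one_mul, Int.cast_one,
      Int.cast_neg, _root_.one_zpow, (hk2.neg).neg_one_zpow]
    norm_num
  · intro v hv
    split_ifs with h0
    · rw [twistWeight, dif_neg ?_, zero_mul]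
      rintro ⟨γ, hγ⟩
      have hdet := (γ : SL(2, ℤ)).2
      rw [Matrix.det_fin_two, hγ, h0, mul_zero, sub_zero] at hdet
      rcases Int.eq_one_or_neg_one_of_mul_eq_one (mul_comm (v 1) _ ▸ hdet) with h1 | h1 <;>
        apply hv <;> simp only [Finset.mem_insert, Finset.mem_singleton]
      · left; funext j; fin_cases j <;> simp [h0, h1]
      · right; funext j; fin_cases j <;> simp [h0, h1]
    · rfl

lemma twistedEis_ne_zero (hψ : KillsParabolic ψ) (hu : ∀ γ, ‖(ψ γ : ℂ)‖ = 1) (hk : 3 ≤ k)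
    (hk2 : Even k) : twistedEis ψ k ≠ 0 := by
  intro h
  have := tendsto_twistedEis_I_mul hψ hu hk hk2
  rw [h] at this
  simpa using tendsto_nhds_unique this (tendsto_const_nhds (x := (0 : ℂ)))

variable (ψ) in
/-- The kernel of `ψ` inside `SL(2, ℤ)`. -/
def twistKer : Subgroup SL(2, ℤ) := ψ.ker.map (Gamma0 N).subtype

lemma finiteIndex_twistKer [NeZero N] {n : ℕ} (hn : n ≠ 0) (hψn : ∀ γ, ψ γ ^ n = 1) :
    (twistKer ψ).FiniteIndex := by
  have : NeZero n := ⟨hn⟩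
  have hfin : Finite ψ.range := by
    refine Finite.of_injective (β := rootsOfUnity n ℂ) (fun x ↦ ⟨x.1, ?_⟩)
      fun x y h ↦ Subtype.ext (Subtype.mk.inj h)
    obtain ⟨γ, hγ⟩ := x.2
    rw [mem_rootsOfUnity, ← hγ, hψn]
  constructor
  rw [twistKer, Subgroup.index_map_subtype]
  refine mul_ne_zero ?_ (Subgroup.FiniteIndex.index_ne_zero)
  rw [Subgroup.index_ker]
  exact Nat.card_pos.ne'

lemma norm_eq_one_of_pow_eq_one {n : ℕ} (hn : n ≠ 0) (hψn : ∀ γ, ψ γ ^ n = 1) (γ : Gamma0 N) :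
    ‖(ψ γ : ℂ)‖ = 1 :=
  Complex.norm_eq_one_of_pow_eq_one (by rw [← Units.val_pow_eq_pow_val, hψn, Units.val_one]) hn

/-- A form with a character is a modular form on the kernel of the character. -/
def kernelForm {F : ℍ → ℂ} (hF : MDiff F)
    (hslash : ∀ γ : Gamma0 N, F ∣[k] (γ : SL(2, ℤ)) = (ψ γ : ℂ) • F)
    (hbdd : ∀ A : SL(2, ℤ), IsBoundedAtImInfty (F ∣[k] A))
    [(twistKer ψ).FiniteIndex] : ModularForm (twistKer ψ) k where
  toFun := F
  slash_action_eq' A hA := by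
    obtain ⟨A, hA, rfl⟩ := hA
    obtain ⟨γ, hγ, rfl⟩ := hA
    show F ∣[k] (γ : SL(2, ℤ)) = F
    rw [hslash, MonoidHom.mem_ker.mp hγ, Units.val_one, one_smul]
  holo' := hF
  bdd_at_cusps' {c} hc := by
    rw [Subgroup.IsArithmetic.isCusp_iff_isCusp_SL2Z] at hc
    rw [OnePoint.isBoundedAt_iff_forall_SL2Z hc]
    exact fun A _ ↦ hbdd A

@[simp]
lemma coe_kernelForm {F : ℍ → ℂ} (hF : MDiff F)
    (hslash : ∀ γ : Gamma0 N, F ∣[k] (γ : SL(2, ℤ)) = (ψ γ : ℂ) • F)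
    (hbdd : ∀ A : SL(2, ℤ), IsBoundedAtImInfty (F ∣[k] A))
    [(twistKer ψ).FiniteIndex] : ⇑(kernelForm hF hslash hbdd) = F := rfl

/-- The `n`-th power of a form with a character of order dividing `n`, on `Gamma0 N`. -/
lemma exists_modularForm_eq_pow [NeZero N] {n : ℕ} {F : ℍ → ℂ} (hn : n ≠ 0)
    (hψn : ∀ γ, ψ γ ^ n = 1) (hF : MDiff F)
    (hslash : ∀ γ : Gamma0 N, F ∣[k] (γ : SL(2, ℤ)) = (ψ γ : ℂ) • F)
    (hbdd : ∀ A : SL(2, ℤ), IsBoundedAtImInfty (F ∣[k] A)) :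
    ∃ G : ModularForm (Gamma0 N) (n * k), ⇑G = F ^ n := by
  have := finiteIndex_twistKer hn hψn
  set P : ModularForm (twistKer ψ) (n * k) := (kernelForm hF hslash hbdd).pow n with hP
  have hPc : ⇑P = F ^ n := by rw [hP, ModularForm.coe_pow, coe_kernelForm]
  refine ⟨{ toFun := F ^ n, slash_action_eq' := ?_, holo' := ?_, bdd_at_cusps' := ?_ }, rfl⟩
  · intro A hA
    obtain ⟨A, hA, rfl⟩ := hA
    show (F ^ n) ∣[(n * k : ℤ)] A = F ^ n
    funext z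
    have h := congrFun (hslash ⟨A, hA⟩) z
    simp only [ModularForm.SL_slash_apply, Pi.smul_apply, smul_eq_mul, Pi.pow_apply] at h ⊢
    rw [show -((n : ℤ) * k) = -k * (n : ℤ) by ring, _root_.zpow_mul, zpow_natCast, ← mul_pow, h,
      mul_pow, ← Units.val_pow_eq_pow_val, hψn, Units.val_one, one_mul]
  · show MDiff (F ^ n)
    rw [← hPc]
    exact P.holo'
  · intro c hc
    rw [Subgroup.IsArithmetic.isCusp_iff_isCusp_SL2Z] at hc
    rw [← hPc]
    exact P.bdd_at_cusps' ((Subgroup.IsArithmetic.isCusp_iff_isCusp_SL2Z _).mpr hc)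

/-- At every cusp a form with character killing parabolics has trivial multiplier: if
`A T^h A⁻¹ ∈ Gamma0 N`, then `F ∣[k] A` is `h`-periodic. -/
lemma slash_slash_T_zpow (hψ : KillsParabolic ψ) {F : ℍ → ℂ}
    (hslash : ∀ γ : Gamma0 N, F ∣[k] (γ : SL(2, ℤ)) = (ψ γ : ℂ) • F) (A : SL(2, ℤ)) {h : ℤ}
    (hh : A * ModularGroup.T ^ h * A⁻¹ ∈ Gamma0 N) :
    (F ∣[k] A) ∣[k] (ModularGroup.T ^ h) = F ∣[k] A := by
  have h1 : ψ ⟨_, hh⟩ = 1 := by
    refine hψ _ ?_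
    have hA : (A⁻¹ : SL(2, ℤ)).1 * A.1 = 1 := congrArg Subtype.val (inv_mul_cancel A)
    show (A.1 * (ModularGroup.T ^ h : SL(2, ℤ)).1 * (A⁻¹ : SL(2, ℤ)).1).trace ^ 2 = 4
    rw [Matrix.trace_mul_comm, ← Matrix.mul_assoc, hA, Matrix.one_mul, ModularGroup.coe_T_zpow,
      Matrix.trace_fin_two]
    norm_num
  have h2 := hslash ⟨_, hh⟩
  rw [h1, Units.val_one, one_smul] at h2
  rw [← SlashAction.slash_mul, show A * ModularGroup.T ^ h = A * ModularGroup.T ^ h * A⁻¹ * A by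
    group, SlashAction.slash_mul, h2]

end FermatLib.Modular
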