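import Fermat.Agent.MLT.BettiHecke
import Fermat.Agent.MLT.BettiComposite

/-!
# Twisting Betti cohomology with a nebentype by a character modulo `q`

The matrices `(q u; 0 q)`, `u ∈ (ℤ/q)ˣ`, with weights `ψ u⁻¹` map `H¹(Γ₀(L), χ)` to
`H¹(Γ₀(L q), χ ψ²)`; `T l` is intertwined with `ψ l • T l` for `l ∤ q` and `U q` kills the
image.
-/

set_option autoImplicit false

noncomputable section

open scoped MatrixGroups
open CongruenceSubgroup FermatLib.MLT

namespace FermatLib.Modular.Twist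

local notation "M2Z" => Matrix (Fin 2) (Fin 2) ℤ

/-- The unipotent element `(1 k; 0 1)`. -/
def upperElt (L : ℕ) (k : ℤ) : Gamma0 L :=
  ⟨⟨!![1, k; 0, 1], by simp [Matrix.det_fin_two_of]⟩, mem_Gamma0_iff_dvd.2 (by simp)⟩

@[simp] theorem coe_upperElt (L : ℕ) (k : ℤ) :
    (((upperElt L k : Gamma0 L) : SL(2, ℤ)) : M2Z) = !![1, k; 0, 1] := rfl

@[simp] theorem gamma0UnitsHom_upperElt (L : ℕ) (k : ℤ) :
    gamma0UnitsHom L (upperElt L k) = 1 :=
  Units.ext (by rw [coe_gamma0UnitsHom]; simp [upperElt])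

theorem nebenChar_upperElt {A : Type} [CommRing A] {L : ℕ} (χ : (ZMod L)ˣ →* Aˣ) (k : ℤ) :
    nebenChar χ (upperElt L k) = 1 := by
  simp [nebenChar]

theorem coe_entries_det (h : SL(2, ℤ)) : h 0 0 * h 1 1 - h 0 1 * h 1 0 = 1 := by
  have := h.det_coe
  rwa [Matrix.det_fin_two] at this

/-- Upper triangular matrices with positive upper left entries in the same coset differ by an
upper unipotent matrix. -/
theorem upperTri_of_mul_eq {h : SL(2, ℤ)} {a b d a' b' d' : ℤ} (ha : 0 < a) (ha' : 0 < a')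
    (e : (h : M2Z) * !![a, b; 0, d] = !![a', b'; 0, d']) :
    a = a' ∧ d = d' ∧ b + h 0 1 * d = b' := by
  have e' : ∀ i j, ((h : M2Z) * !![a, b; 0, d]) i j = !![a', b'; 0, d'] i j := fun i j => by rw [e]
  have e00 := e' 0 0
  have e01 := e' 0 1
  have e10 := e' 1 0
  have e11 := e' 1 1
  simp [Matrix.mul_apply, Fin.sum_univ_two] at e00 e01 e10 e11
  have h10 : h 1 0 = 0 := e10.resolve_right ha.ne'
  have hd := coe_entries_det h
  rw [h10, mul_zero, sub_zero] at hd
  rw [h10, zero_mul, zero_add] at e11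
  rcases Int.mul_eq_one_iff_eq_one_or_neg_one.1 hd with ⟨h1, h2⟩ | ⟨h1, h2⟩
  · rw [h1, one_mul] at e00 e01
    rw [h2, one_mul] at e11
    exact ⟨e00, e11, e01⟩
  · rw [h1, neg_one_mul] at e00
    omega

/-- An upper triangular matrix is a unipotent times the one with offset changed by a multiple of
the lower right entry. -/
theorem upperTri_eq_mul (L : ℕ) (a b b' d k : ℤ) (h : b = b' + k * d) :
    !![a, b; 0, d] = ((upperElt L k : SL(2, ℤ)) : M2Z) * !![a, b'; 0, d] := by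
  rw [coe_upperElt, Matrix.mul_fin_two, h]
  simp

section system

variable (L q : ℕ) [NeZero q]

/-- The matrices `(q s; 0 q)`. -/
def offsetRep (s : ZMod q) : M2Z := !![(q : ℤ), (s.val : ℤ); 0, (q : ℤ)]

/-- The matrices `(q u; 0 q)`, `u` a unit. -/
abbrev twistRep (u : (ZMod q)ˣ) : M2Z := offsetRep q (u : ZMod q)

theorem exists_offsetRep_mul (hqL : q ∣ L) (s : ZMod q) (γ : Gamma0 (L * q)) :
    ∃ h : Gamma0 L,
      offsetRep q s * ((γ : SL(2, ℤ)) : M2Z) = ((h : SL(2, ℤ)) : M2Z) * offsetRep q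
        (s * (ZMod.unitsMap (dvd_mul_left q L) (gamma0UnitsHom (L * q) γ) : ZMod q) ^ 2) ∧
      gamma0UnitsHom L h = ZMod.unitsMap (dvd_mul_right L q) (gamma0UnitsHom (L * q) γ) ∧
      (h : SL(2, ℤ)) 1 0 = (γ : SL(2, ℤ)) 1 0 := by
  set e : (ZMod q)ˣ := ZMod.unitsMap (dvd_mul_left q L) (gamma0UnitsHom (L * q) γ) with he
  set s' : ZMod q := s * (e : ZMod q) ^ 2 with hs'
  set a := (γ : SL(2, ℤ)) 0 0 with ha
  set b := (γ : SL(2, ℤ)) 0 1 with hb
  set c := (γ : SL(2, ℤ)) 1 0 with hc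
  set d := (γ : SL(2, ℤ)) 1 1 with hd
  have hdet : a * d - b * c = 1 := coe_entries_det _
  obtain ⟨k, hk⟩ : (L * q : ℤ) ∣ c := by
    have := dvd_apply_one_zero γ
    push_cast at this
    exact this
  have hed : (e : ZMod q) = (d : ZMod q) := by
    rw [he, ZMod.unitsMap_val, coe_gamma0UnitsHom, ZMod.cast_intCast (dvd_mul_left q L)]
  have hcq : (c : ZMod q) = 0 := by rw [hk]; simp
  have had : (a : ZMod q) * d = 1 := by
    have := congrArg (Int.cast : ℤ → ZMod q) hdet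
    push_cast at this
    rw [hcq, mul_zero, sub_zero] at this
    exact this
  set v : ℤ := (s.val : ℤ) with hv
  set v' : ℤ := (s'.val : ℤ) with hv'
  obtain ⟨f, hf⟩ : (q : ℤ) ∣ (q : ℤ) * b + v * d - (a + v * (L * k)) * v' := by
    rw [← ZMod.intCast_zmod_eq_zero_iff_dvd]
    have hL0 : ((L : ℕ) : ZMod q) = 0 := (ZMod.natCast_eq_zero_iff _ _).2 hqL
    rw [hv, hv']
    push_cast
    rw [ZMod.natCast_zmod_val, ZMod.natCast_zmod_val, ZMod.natCast_self, zero_mul, zero_add, hs',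
      hed, hL0]
    linear_combination (-s * d) * had
  refine ⟨⟨⟨!![a + v * (L * k), f; c, d - (L * k) * v'], ?_⟩, ?_⟩, ?_, ?_, rfl⟩
  · rw [Matrix.det_fin_two_of]
    apply mul_left_cancel₀ (Int.natCast_ne_zero.2 (NeZero.ne q))
    linear_combination (q : ℤ) * hdet + c * hf + (v' * a + v' * v * L * k - v * d) * hk
  · exact mem_Gamma0_iff_dvd.2 (by simp [hk, mul_assoc])
  · show offsetRep q s * ((γ : SL(2, ℤ)) : M2Z) = !![a + v * (L * k), f; c, d - (L * k) * v'] *
      offsetRep q s'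
    rw [Matrix.eta_fin_two ((γ : SL(2, ℤ)) : M2Z), offsetRep, offsetRep, Matrix.mul_fin_two,
      Matrix.mul_fin_two, ← hv, ← hv']
    show !![(q : ℤ) * a + v * c, (q : ℤ) * b + v * d; 0 * a + (q : ℤ) * c, 0 * b + (q : ℤ) * d] = _
    ext i j
    fin_cases i <;> fin_cases j <;> simp
    · linear_combination v * hk
    · linear_combination hf
    · ring
    · linear_combination -v' * hk
  · refine Units.ext ?_
    rw [coe_gamma0UnitsHom, ZMod.unitsMap_val, coe_gamma0UnitsHom,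
      ZMod.cast_intCast (dvd_mul_right L q)]
    show ((d - (L * k) * v' : ℤ) : ZMod L) = (d : ZMod L)
    simp

theorem exists_twistRep_mul (hqL : q ∣ L) (u : (ZMod q)ˣ) (γ : Gamma0 (L * q)) :
    ∃ u' : (ZMod q)ˣ, ∃ h : Gamma0 L,
    twistRep q u * ((γ : SL(2, ℤ)) : M2Z) = ((h : SL(2, ℤ)) : M2Z) * twistRep q u' ∧
      u' = u * ZMod.unitsMap (dvd_mul_left q L) (gamma0UnitsHom (L * q) γ) ^ 2 ∧
      gamma0UnitsHom L h = ZMod.unitsMap (dvd_mul_right L q) (gamma0UnitsHom (L * q) γ) :=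
  let ⟨h, e, hh, _⟩ := exists_offsetRep_mul L q hqL u γ
  ⟨u * _ ^ 2, h, by rw [twistRep, twistRep, Units.val_mul, Units.val_pow_eq_pow_val]; exact e,
    rfl, hh⟩

theorem twistRep_eq_of_mul (u u' : (ZMod q)ˣ) (h : SL(2, ℤ))
    (e : (h : M2Z) * twistRep q u = twistRep q u') : u = u' := by
  have hq : (0 : ℤ) < q := by exact_mod_cast NeZero.pos q
  obtain ⟨-, -, hb⟩ := upperTri_of_mul_eq hq hq e
  have := congrArg (Int.cast : ℤ → ZMod q) hb
  push_cast at this
  rw [ZMod.natCast_zmod_val, ZMod.natCast_zmod_val, ZMod.natCast_self, mul_zero, add_zero] at this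
  exact Units.ext this

/-- The coset system of the twist. -/
def twistSystem (hqL : q ∣ L) : CosetSystem (Gamma0 (L * q)) (Gamma0 L) (ZMod q)ˣ where
  rep := twistRep q
  det_ne_zero u := by simp [offsetRep, Matrix.det_fin_two_of, NeZero.ne q]
  eq_of_mul_rep u u' h _ e := twistRep_eq_of_mul q u u' h e
  exists_mul_eq u γ := let ⟨u', h, e, _⟩ := exists_twistRep_mul L q hqL u γ; ⟨u', h, e⟩

@[simp] theorem twistSystem_rep (hqL : q ∣ L) (u : (ZMod q)ˣ) : (twistSystem L q hqL).rep u = twistRep q u := rfl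

variable {A : Type} [CommRing A]

/-- The character `χ ψ²` of level `L q`. -/
def twistChar (χ : (ZMod L)ˣ →* Aˣ) (ψ : (ZMod q)ˣ →* Aˣ) : (ZMod (L * q))ˣ →* Aˣ :=
  χ.comp (ZMod.unitsMap (dvd_mul_right L q)) * (ψ.comp (ZMod.unitsMap (dvd_mul_left q L))) ^ 2

/-- The weights `ψ u⁻¹`. -/
def twistWeight (ψ : (ZMod q)ˣ →* Aˣ) (u : (ZMod q)ˣ) : A := ((ψ u)⁻¹ : Aˣ)

theorem isWeight_twistWeight (hqL : q ∣ L) (χ : (ZMod L)ˣ →* Aˣ) (ψ : (ZMod q)ˣ →* Aˣ) :
    (twistSystem L q hqL).IsWeight (nebenChar (twistChar L q χ ψ)) (nebenChar χ)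
      (twistWeight q ψ) := by
  intro γ u
  obtain ⟨u', h, e, hu', hh⟩ := exists_twistRep_mul L q hqL u γ
  obtain ⟨h1, h2⟩ := (twistSystem L q hqL).next_elt_eq_of_eq e
  rw [h1, h2, twistWeight, twistWeight, nebenChar, nebenChar, MonoidHom.comp_apply,
    MonoidHom.comp_apply, hh, ← Units.val_mul, ← Units.val_mul, hu', twistChar,
    MonoidHom.mul_apply, MonoidHom.pow_apply, MonoidHom.comp_apply, MonoidHom.comp_apply,
    map_mul, map_pow]
  refine congrArg Units.val ?_
  rw [mul_inv]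
  generalize χ (ZMod.unitsMap (dvd_mul_right L q) (gamma0UnitsHom (L * q) γ)) = x
  generalize (ψ (ZMod.unitsMap (dvd_mul_left q L) (gamma0UnitsHom (L * q) γ))) ^ 2 = y
  rw [show x * y * ((ψ u)⁻¹ * y⁻¹) = (y * y⁻¹) * ((ψ u)⁻¹ * x) by
    simp only [mul_assoc, mul_comm, mul_left_comm], mul_inv_cancel, one_mul]

variable (V : Type) [AddCommGroup V] [Module A V]

/-- The twist on `H¹`. -/
def bettiTwist (hqL : q ∣ L) (χ : (ZMod L)ˣ →* Aˣ) (ψ : (ZMod q)ˣ →* Aˣ) :
    bettiH1 (Gamma0 L) (nebenChar χ) V →ₗ[A]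
      bettiH1 (Gamma0 (L * q)) (nebenChar (twistChar L q χ ψ)) V :=
  (twistSystem L q hqL).transfer V (isWeight_twistWeight L q hqL χ ψ)

end system

section smul

variable {Γ' Γ : Subgroup SL(2, ℤ)} {ι : Type} [Fintype ι] {A : Type} [CommRing A]
  {χ' : Γ' →* Aˣ} {χ : Γ →* Aˣ} {w : ι → A} (D : CosetSystem Γ' Γ ι)

omit [Fintype ι] in
theorem isWeight_const_mul (a : A) (hw : D.IsWeight χ' χ w) :
    D.IsWeight χ' χ (fun i => a * w i) := fun γ i => by
  show a * w i * _ = _ * (a * w _)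
  rw [mul_assoc, hw γ i]
  ring

theorem transfer_const_mul {V : Type} [AddCommGroup V] [Module A V] (a : A)
    (hw : D.IsWeight χ' χ w) (x : bettiH1 Γ χ V) :
    D.transfer V (isWeight_const_mul D a hw) x = a • D.transfer V hw x := by
  obtain ⟨c, rfl⟩ := Submodule.Quotient.mk_surjective _ x
  simp only [CosetSystem.transfer_mk, ← Submodule.Quotient.mk_smul]
  refine congrArg Submodule.Quotient.mk (Subtype.ext (funext fun γ => ?_))
  simp [CosetSystem.transferCocycles_apply, Finset.smul_sum, smul_smul]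

theorem transfer_zero_weight {V : Type} [AddCommGroup V] [Module A V]
    (hw : D.IsWeight χ' χ (fun _ => (0 : A))) (x : bettiH1 Γ χ V) :
    D.transfer V hw x = 0 := by
  obtain ⟨c, rfl⟩ := Submodule.Quotient.mk_surjective _ x
  rw [CosetSystem.transfer_mk, Submodule.Quotient.mk_eq_zero]
  refine mem_bettiBoundaries.2 ⟨0, fun γ => ?_⟩
  simp [CosetSystem.transferCocycles_apply]

end smul

section hecke

variable {L q : ℕ} [NeZero q] {A : Type} [CommRing A] {V : Type} [AddCommGroup V] [Module A V]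

theorem heckeRepInt_mul_twistRep_inj (l : Nat.Primes) (hl : ¬ (l : ℕ) ∣ q)
    (x y : (ZMod q)ˣ × HeckeIdx L l) (h : SL(2, ℤ))
    (e : (h : M2Z) * (heckeRepInt l x.2.1 * twistRep q x.1) =
      heckeRepInt l y.2.1 * twistRep q y.1) : x = y := by
  have hq : (0 : ℤ) < q := by exact_mod_cast NeZero.pos q
  have hl0 : (0 : ℤ) < (l : ℕ) := by exact_mod_cast l.2.pos
  have hl1 : (1 : ℤ) < (l : ℕ) := by exact_mod_cast l.2.one_lt
  obtain ⟨u, ⟨x, hx⟩⟩ := x
  obtain ⟨u', ⟨y, hy⟩⟩ := y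
  cases x with
  | none =>
    cases y with
    | none =>
      simp only [heckeRepInt, twistRep, offsetRep, Matrix.mul_fin_two, mul_zero, add_zero, zero_mul,
        zero_add, one_mul] at e
      obtain ⟨-, -, hb⟩ := upperTri_of_mul_eq (mul_pos hl0 hq) (mul_pos hl0 hq) e
      have := congrArg (Int.cast : ℤ → ZMod q) hb
      push_cast at this
      rw [ZMod.natCast_zmod_val, ZMod.natCast_zmod_val, ZMod.natCast_self, mul_zero,
        add_zero] at this
      have hu : IsUnit ((l : ℕ) : ZMod q) :=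
        (ZMod.isUnit_iff_coprime _ _).2 (l.2.coprime_iff_not_dvd.2 hl)
      rw [Units.ext (hu.mul_left_cancel this)]
    | some j =>
      simp only [heckeRepInt, twistRep, offsetRep, Matrix.mul_fin_two, mul_zero, add_zero, zero_mul,
        zero_add, one_mul] at e
      obtain ⟨ha, -, -⟩ := upperTri_of_mul_eq (mul_pos hl0 hq) hq e
      nlinarith
  | some i =>
    cases y with
    | none =>
      simp only [heckeRepInt, twistRep, offsetRep, Matrix.mul_fin_two, mul_zero, add_zero, zero_mul,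
        zero_add, one_mul] at e
      obtain ⟨ha, -, -⟩ := upperTri_of_mul_eq hq (mul_pos hl0 hq) e
      nlinarith
    | some j =>
      simp only [heckeRepInt, twistRep, offsetRep, Matrix.mul_fin_two, mul_zero, add_zero, zero_mul,
        zero_add, one_mul] at e
      obtain ⟨-, -, hb⟩ := upperTri_of_mul_eq hq hq e
      have := congrArg (Int.cast : ℤ → ZMod q) hb
      push_cast at this
      rw [ZMod.natCast_zmod_val, ZMod.natCast_zmod_val, ZMod.natCast_self] at this
      simp only [mul_zero, add_zero] at this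
      obtain rfl : u = u' := Units.ext this
      have hq' : (q : ℤ) ≠ 0 := hq.ne'
      have hdvd : ((l : ℕ) : ℤ) ∣ (j : ℤ) - i :=
        ⟨h 0 1, mul_right_cancel₀ hq' (by linear_combination -hb)⟩
      have hi := i.isLt
      have hj := j.isLt
      have : (j : ℤ) - i = 0 := Int.eq_zero_of_abs_lt_dvd hdvd (by
        rw [abs_lt]; constructor <;> omega)
      obtain rfl : i = j := Fin.ext (by omega)
      rfl

/-- **The twist intertwines `T l` with `ψ l • T l`**, `l` a prime not dividing `q`. -/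
theorem bettiHeckeOp_bettiTwist (hqL : q ∣ L) (χ : (ZMod L)ˣ →* Aˣ) (ψ : (ZMod q)ˣ →* Aˣ) (l : Nat.Primes)
    (hl : ¬ (l : ℕ) ∣ q) (x : bettiH1 (Gamma0 L) (nebenChar χ) V) :
    bettiHeckeOp (L * q) V (twistChar L q χ ψ) l (bettiTwist L q V hqL χ ψ x) =
      (ψ (ZMod.unitOfCoprime (l : ℕ) (l.2.coprime_iff_not_dvd.2 hl)) : A) •
        bettiTwist L q V hqL χ ψ (bettiHeckeOp L V χ l x) := by
  classical
  set el : (ZMod q)ˣ := ZMod.unitOfCoprime (l : ℕ) (l.2.coprime_iff_not_dvd.2 hl) with hel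
  have : NeZero (l : ℕ) := ⟨l.2.ne_zero⟩
  have hinj : ∀ (x y : (ZMod q)ˣ × HeckeIdx L l) (h : SL(2, ℤ)),
      (h : M2Z) * ((bettiHeckeSystem L l).rep x.2 * (twistSystem L q hqL).rep x.1) =
        (bettiHeckeSystem L l).rep y.2 * (twistSystem L q hqL).rep y.1 → x = y :=
    fun x y h e => heckeRepInt_mul_twistRep_inj l hl x y h e
  rw [bettiTwist, bettiHeckeOp, bettiHeckeOp,
    (bettiHeckeSystem L l).transfer_comp (twistSystem L q hqL) hinj, ← transfer_const_mul]
  have hdvd : (l : ℕ) ∣ L * q → (l : ℕ) ∣ L := fun h => (l.2.dvd_mul.1 h).resolve_right hl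
  let δ : (ZMod q)ˣ → ℤ := fun u =>
    (((u : ZMod q).val : ℤ) * (l : ℕ) - ((u * el : (ZMod q)ˣ) : ZMod q).val) / q
  have hδ : ∀ u : (ZMod q)ˣ, ((u : ZMod q).val : ℤ) * (l : ℕ) =
      ((u * el : (ZMod q)ˣ) : ZMod q).val + δ u * q := by
    intro u
    have : (q : ℤ) ∣ ((u : ZMod q).val : ℤ) * (l : ℕ) - ((u * el : (ZMod q)ˣ) : ZMod q).val := by
      rw [← ZMod.intCast_zmod_eq_zero_iff_dvd]
      push_cast
      simp [hel]
    rw [Int.ediv_mul_cancel this]
    ring
  let π : HeckeIdx (L * q) l × (ZMod q)ˣ → (ZMod q)ˣ × HeckeIdx L l := fun x => match x with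
    | (⟨some j, _⟩, u) => (u * el,
        ⟨some ⟨((((j : ℕ) : ℤ) + δ u : ℤ) : ZMod (l : ℕ)).val, ZMod.val_lt _⟩,
          fun h => (Option.some_ne_none _ h).elim⟩)
    | (⟨none, h⟩, u) => (u * el⁻¹, ⟨none, fun _ h' => h rfl (h'.mul_right q)⟩)
  let k : HeckeIdx (L * q) l × (ZMod q)ˣ → ℤ := fun x => match x with
    | (⟨some j, _⟩, u) => (((j : ℕ) : ℤ) + δ u) / (l : ℕ)
    | (⟨none, _⟩, u) =>
        (((u : ZMod q).val : ℤ) - (l : ℕ) * ((u * el⁻¹ : (ZMod q)ˣ) : ZMod q).val) / q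
  refine CosetSystem.transfer_transfer_eq _ _ _ π (fun x => upperElt L (k x)) ?_ _ _ _ ?_ x
  · rintro ⟨⟨_ | j, hj⟩, u⟩
    · have : (q : ℤ) ∣ ((u : ZMod q).val : ℤ) -
          (l : ℕ) * ((u * el⁻¹ : (ZMod q)ˣ) : ZMod q).val := by
        rw [← ZMod.intCast_zmod_eq_zero_iff_dvd]
        push_cast
        rw [ZMod.natCast_zmod_val, ZMod.natCast_zmod_val, ← ZMod.coe_unitOfCoprime (l : ℕ)
          (l.2.coprime_iff_not_dvd.2 hl), ← hel, mul_left_comm, Units.mul_inv,
          mul_one, sub_self]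
      show twistRep q u * heckeRepInt l none =
        _ * (heckeRepInt l none * twistRep q (u * el⁻¹))
      simp only [heckeRepInt, twistRep, offsetRep, Matrix.mul_fin_two, mul_zero, add_zero, zero_mul, zero_add,
        one_mul, mul_one]
      rw [mul_comm (q : ℤ)]
      refine upperTri_eq_mul L _ _ _ _ _ ?_
      show _ = _ + _ / (q : ℤ) * _
      rw [Int.ediv_mul_cancel this]
      ring
    · show twistRep q u * heckeRepInt l (some j) =
        _ * (heckeRepInt l (some _) * twistRep q (u * el))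
      simp only [heckeRepInt, twistRep, offsetRep, Matrix.mul_fin_two, mul_zero, add_zero, zero_mul, zero_add,
        one_mul, mul_one]
      rw [mul_comm ((l : ℕ) : ℤ) (q : ℤ)]
      refine upperTri_eq_mul L _ _ _ _ _ ?_
      show _ = _ + _ / ((l : ℕ) : ℤ) * _
      rw [ZMod.val_intCast, hδ u]
      linear_combination (-(q : ℤ)) * Int.mul_ediv_add_emod (((j : ℕ) : ℤ) + δ u) ((l : ℕ) : ℤ)
  · have hinj' : Function.Injective π := by
      rintro ⟨⟨_ | i, hi⟩, u⟩ ⟨⟨_ | j, hj⟩, u'⟩ h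
      · simp only [π, Prod.mk.injEq, mul_left_inj] at h
        rw [h.1]
      · simp [π] at h
      · simp [π] at h
      · simp only [π, Prod.mk.injEq, mul_left_inj, Subtype.mk.injEq, Option.some.injEq,
          Fin.mk.injEq] at h
        obtain ⟨rfl, h⟩ := h
        have h' := ZMod.val_injective _ h
        push_cast at h'
        rw [add_left_inj] at h'
        have h'' := congrArg ZMod.val h'
        rw [ZMod.val_natCast_of_lt i.isLt, ZMod.val_natCast_of_lt j.isLt] at h''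
        obtain rfl : i = j := Fin.ext h''
        rfl
    have hcard : Fintype.card (HeckeIdx (L * q) l × (ZMod q)ˣ) =
        Fintype.card ((ZMod q)ˣ × HeckeIdx L l) := by
      rw [Fintype.card_prod, Fintype.card_prod, mul_comm]
      congr 1
      exact Fintype.card_congr (Equiv.subtypeEquivRight fun x =>
        ⟨fun h hx h' => h hx (h'.mul_right q), fun h hx h' => h hx (hdvd h')⟩)
    have hbij : Function.Bijective π :=
      (Fintype.bijective_iff_injective_and_card π).2 ⟨hinj', hcard⟩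
    intro m
    obtain ⟨x, rfl⟩ := hbij.2 m
    rw [Finset.sum_eq_single x (fun y hy hyx => absurd (hinj' (Finset.mem_filter.1 hy).2) hyx)
      (fun h => absurd (Finset.mem_filter.2 ⟨Finset.mem_univ x, rfl⟩ : x ∈ Finset.univ.filter (π · = π x)) h)]
    rw [nebenChar_upperElt, Units.val_one, mul_one]
    obtain ⟨⟨_ | j, hj⟩, u⟩ := x
    · simp only [π, heckeWeight, heckeUnit, twistWeight, twistChar, MonoidHom.mul_apply,
        MonoidHom.pow_apply, MonoidHom.comp_apply, map_mul, map_inv]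
      rw [← Units.val_mul, ← Units.val_mul, ← Units.val_mul]
      refine congrArg Units.val ?_
      have e1 : ∀ (m : ℕ) (hm : m ∣ L * q) (hc : (l : ℕ).Coprime (L * q)),
          ZMod.unitsMap hm (ZMod.unitOfCoprime (l : ℕ) hc) =
            ZMod.unitOfCoprime (l : ℕ) (hc.coprime_dvd_right hm) := fun m hm hc =>
        Units.ext (by simp [ZMod.unitsMap_val, ZMod.cast_natCast hm])
      rw [e1, e1, mul_inv, inv_inv]
      simp only [pow_two, hel]
      ac_rfl
    · simp only [π, heckeWeight, heckeUnit, twistWeight, map_one, Units.val_one, one_mul, mul_one,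
        map_mul, mul_inv]
      rw [← Units.val_mul]
      refine congrArg Units.val ?_
      rw [hel, mul_comm (ψ u)⁻¹, mul_inv_cancel_left]

/-- `q (1 j; 0 q)`, the common cosets of the composite `U q ∘ twist`. -/
def scaledHeckeSystem (L : ℕ) (q : Nat.Primes) :
    CosetSystem (Gamma0 (L * (q : ℕ))) (Gamma0 L) (HeckeIdx (L * (q : ℕ)) q) where
  rep x := ((q : ℕ) : ℤ) • heckeRepInt q x.1
  det_ne_zero x := by
    rw [Matrix.det_smul, det_heckeRepInt]
    simp [q.2.ne_zero]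
  eq_of_mul_rep x y h _ e := by
    rw [Matrix.mul_smul] at e
    exact Subtype.ext (heckeRepInt_eq_of_mul_eq q.2.one_lt _ _ h
      (smul_right_injective _ (Int.natCast_ne_zero.2 q.2.ne_zero) e))
  exists_mul_eq x γ := by
    obtain ⟨y, h, e⟩ := (bettiHeckeSystem (L * (q : ℕ)) q).exists_mul_eq x γ
    refine ⟨y, ⟨h, mem_Gamma0_iff_dvd.2 ((Int.natCast_dvd_natCast.2
      (dvd_mul_right L (q : ℕ))).trans (dvd_apply_one_zero h))⟩, ?_⟩
    rw [Matrix.smul_mul, Matrix.mul_smul]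
    exact congrArg _ e

/-- **`U q` kills the twist**, for a prime `q` and a nontrivial `ψ`. -/
theorem bettiHeckeOp_self_bettiTwist (χ : (ZMod L)ˣ →* Aˣ) (q : Nat.Primes)
    [NeZero (q : ℕ)] (hqL : (q : ℕ) ∣ L) (ψ : (ZMod (q : ℕ))ˣ →* Aˣ)
    (hψ : ∑ u, twistWeight (q : ℕ) ψ u = 0) (x : bettiH1 (Gamma0 L) (nebenChar χ) V) :
    bettiHeckeOp (L * (q : ℕ)) V (twistChar L q χ ψ) q (bettiTwist L q V hqL χ ψ x) = 0 := by
  classical
  rw [bettiTwist, bettiHeckeOp]
  let π : HeckeIdx (L * (q : ℕ)) q × (ZMod (q : ℕ))ˣ → HeckeIdx (L * (q : ℕ)) q := fun x =>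
    match x with
    | (⟨some j, _⟩, u) => ⟨some ⟨(((j : ℕ) : ZMod (q : ℕ)) + u).val, ZMod.val_lt _⟩,
        fun h => (Option.some_ne_none _ h).elim⟩
    | (⟨none, h⟩, _) => ⟨none, h⟩
  let k : HeckeIdx (L * (q : ℕ)) q × (ZMod (q : ℕ))ˣ → ℤ := fun x => match x with
    | (⟨some j, _⟩, u) => (((j : ℕ) : ℤ) + (u : ZMod (q : ℕ)).val -
        (((j : ℕ) : ZMod (q : ℕ)) + u).val) / (q : ℕ)
    | (⟨none, _⟩, _) => 0
  have hnone : ∀ x : HeckeIdx (L * (q : ℕ)) q, ∃ j, x.1 = some j := by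
    rintro ⟨_ | j, h⟩
    · exact absurd (dvd_mul_left _ _) (h rfl)
    · exact ⟨j, rfl⟩
  have hw0 : (scaledHeckeSystem L q).IsWeight (nebenChar (twistChar L q χ ψ)) (nebenChar χ)
      (fun _ => (0 : A)) := fun γ i => by simp
  rw [CosetSystem.transfer_transfer_eq (twistSystem L q hqL) (bettiHeckeSystem (L * (q : ℕ)) q)
    (scaledHeckeSystem L q) π (fun x => upperElt L (k x)) ?_ _ _ hw0 ?_ x]
  · exact transfer_zero_weight _ hw0 x
  · rintro ⟨y, u⟩
    obtain ⟨j, hj⟩ := hnone y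
    obtain ⟨_, hy⟩ := y
    subst hj
    show twistRep (q : ℕ) u * heckeRepInt q (some j) =
      _ * (((q : ℕ) : ℤ) • heckeRepInt q (some _))
    simp only [heckeRepInt, twistRep, offsetRep, Matrix.mul_fin_two, mul_zero, add_zero, zero_mul, zero_add,
      mul_one, Matrix.smul_of, Matrix.smul_cons, smul_eq_mul, Matrix.smul_empty]
    refine upperTri_eq_mul L _ _ _ _ _ ?_
    show _ = _ + _ / ((q : ℕ) : ℤ) * _
    have : ((q : ℕ) : ℤ) ∣ ((j : ℕ) : ℤ) + (u : ZMod (q : ℕ)).val -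
        (((j : ℕ) : ZMod (q : ℕ)) + u).val := by
      rw [← ZMod.intCast_zmod_eq_zero_iff_dvd]
      simp
    obtain ⟨t, ht⟩ := this
    simp only [ht, Int.mul_ediv_cancel_left _ (Int.natCast_ne_zero.2 q.2.ne_zero)]
    linear_combination ((q : ℕ) : ℤ) * ht
  · intro m
    obtain ⟨i, hi⟩ := hnone m
    obtain ⟨_, hm⟩ := m
    subst hi
    rw [Finset.sum_filter, Fintype.sum_prod_type, Finset.sum_comm]
    refine Eq.trans (Finset.sum_congr rfl fun u _ => ?_) hψ
    let j0 : HeckeIdx (L * (q : ℕ)) q :=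
      ⟨some ⟨(((i : ℕ) : ZMod (q : ℕ)) - u).val, ZMod.val_lt _⟩,
        fun h => (Option.some_ne_none _ h).elim⟩
    rw [Finset.sum_eq_single j0]
    · rw [if_pos, nebenChar_upperElt, Units.val_one, mul_one]
      · simp [j0, heckeWeight, heckeUnit]
      · simp [π, j0, ZMod.val_natCast_of_lt i.isLt]
    · intro y _ hy
      rw [if_neg]
      intro h
      obtain ⟨j, hj⟩ := hnone y
      obtain ⟨_, hy'⟩ := y
      subst hj
      simp only [π, Subtype.mk.injEq, Option.some.injEq, Fin.ext_iff] at h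
      refine hy (Subtype.ext (congrArg some (Fin.ext ?_)))
      show (j : ℕ) = (((i : ℕ) : ZMod (q : ℕ)) - u).val
      rw [← h, ZMod.natCast_zmod_val, add_sub_cancel_right, ZMod.val_natCast_of_lt j.isLt]
    · exact fun h => absurd (Finset.mem_univ _) h

end hecke

theorem sum_twistWeight_eq_zero {q : ℕ} [NeZero q] {A : Type} [CommRing A] [IsDomain A]
    {ψ : (ZMod q)ˣ →* Aˣ} (hψ : ψ ≠ 1) : ∑ u, twistWeight q ψ u = 0 := by
  refine sum_hom_units_eq_zero ((Units.coeHom A).comp ψ⁻¹) fun h => hψ ?_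
  refine MonoidHom.ext fun u => ?_
  have := DFunLike.congr_fun h u
  simp only [MonoidHom.comp_apply, MonoidHom.inv_apply, Units.coeHom_apply, MonoidHom.one_apply,
    Units.val_eq_one, inv_eq_one] at this
  simpa using this

end FermatLib.Modular.Twist

end
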