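import Fermat.Agent.Modular.PlaceFibre

/-!
The places of `X₀(N)` over the finite part of the `j`-line: `Γ₀(N)`-orbits of points of `ℍ`.
-/

set_option autoImplicit false

noncomputable section

open UpperHalfPlane hiding I
open CongruenceSubgroup ModularCurve AlgebraicCurve
open scoped MatrixGroups Manifold Topology

namespace FermatLib.Modular

variable {L : Type*} [Field L] [Algebra ℚ L] [IsAlgClosed L] (ι : L →+* ℂ) (N : ℕ) [NeZero N]

theorem exists_ptPlace (τ : ℍ) (hτ : jFun τ ∈ Set.range ι) :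
    ∃ v : Place L (modularFunctionFieldOver L N), InducesPlace (ordAtH τ) (ptHom ι N 1) v := by
  obtain ⟨c, hc⟩ := hτ
  exact (exists_inducesPlace_point ι N τ c hc).imp fun v hv => hv.1

theorem inducesPlace_ptPlace (τ : ℍ) (hτ : jFun τ ∈ Set.range ι) :
    InducesPlace (ordAtH τ) (ptHom ι N 1) (Classical.choose (exists_ptPlace ι N τ hτ)) :=
  Classical.choose_spec (exists_ptPlace ι N τ hτ)

/-- The place attached to a point of `ℍ`. -/
def ptPlace (τ : ℍ) (hτ : jFun τ ∈ Set.range ι) : Place L (modularFunctionFieldOver L N) :=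
  (exists_ptPlace ι N τ hτ).choose

/-- The place of `ℂ(X₀(N))` attached to a point of `ℍ`. -/
def ptPlaceCx (τ : ℍ) : Place ℂ (modularFunctionFieldCx N) :=
  ptPlace (RingHom.id ℂ) N τ ⟨jFun τ, rfl⟩

theorem ordAtH_ptPlace (τ : ℍ) (hτ : jFun τ ∈ Set.range ι)
    {x : modularFunctionFieldOver L N} (hx : x ≠ 0) :
    ordAtH τ (ptHom ι N 1 x) = (((ptIndex N τ : ℤ) * (ptPlace ι N τ hτ).ord x : ℤ) : WithTop ℤ) := by
  obtain ⟨c, hc⟩ := id hτ
  exact (point_fibre ι N τ c hc _ (inducesPlace_ptPlace ι N τ hτ)).1 x hx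

/-- The order at `τ` of a weakly holomorphic modular function. -/
theorem meromorphicOrderAt_ptPlace (τ : ℍ) (hτ : jFun τ ∈ Set.range ι)
    {x : modularFunctionFieldOver L N} (hx : x ≠ 0) (G : weakMod (Gamma0 N))
    (hG : coeffMap ι (x : LaurentSeries L) = qExpWeak N G) :
    meromorphicOrderAt ((G : ℍ → ℂ) ∘ ofComplex) (τ : ℂ)
      = (((ptIndex N τ : ℤ) * (ptPlace ι N τ hτ).ord x : ℤ) : WithTop ℤ) := by
  have h : baseToCx ι N x = ⟨qExpWeak N G, qExpL_mem_modularFunctionFieldCx N G.2⟩ :=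
    Subtype.ext hG
  rw [← ordAtH_ptPlace ι N τ hτ hx, ptHom, RingHom.comp_apply, h, meroEval_qExpWeak,
    ordAtH_algebraMap]
  congr 1
  funext w
  simp [weakToHol]

theorem ord_jElem_sub_ptPlace_pos (τ : ℍ) (hτ : jFun τ ∈ Set.range ι) (c : L) (hc : ι c = jFun τ) :
    0 < (ptPlace ι N τ hτ).ord (jElem L N - algebraMap L _ c) := by
  obtain ⟨v, hv, hpos⟩ := exists_inducesPlace_point ι N τ c hc
  rwa [show ptPlace ι N τ hτ = v from (inducesPlace_ptPlace ι N τ hτ).unique hv]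

omit [IsAlgClosed L] in
theorem eq_of_ord_jElem_sub_pos {v : Place L (modularFunctionFieldOver L N)} {c c' : L}
    (h : 0 < v.ord (jElem L N - algebraMap L _ c))
    (h' : 0 < v.ord (jElem L N - algebraMap L _ c')) : c = c' := by
  by_contra hne
  have h1 := sub_mem (FermatLib.Curve.mem_ordGE_of_le (v := v) (n := 1) h')
    (FermatLib.Curve.mem_ordGE_of_le (v := v) (n := 1) h)
  rw [sub_sub_sub_cancel_left, ← map_sub,
    FermatLib.Curve.mem_ordGE_of_ne_zero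
      ((map_ne_zero (algebraMap L _)).mpr (sub_ne_zero.mpr hne)),
    FermatLib.Curve.ord_algebraMap] at h1
  omega

theorem ptPlace_eq_iff {τ τ' : ℍ} (hτ : jFun τ ∈ Set.range ι) (hτ' : jFun τ' ∈ Set.range ι) :
    ptPlace ι N τ hτ = ptPlace ι N τ' hτ' ↔ ∃ γ ∈ Gamma0 N, γ • τ = τ' := by
  constructor
  · intro h
    obtain ⟨c, hc⟩ := id hτ
    obtain ⟨c', hc'⟩ := id hτ'
    have hcc : c = c' := eq_of_ord_jElem_sub_pos (N := N) (ord_jElem_sub_ptPlace_pos ι N τ hτ c hc)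
      (h ▸ ord_jElem_sub_ptPlace_pos ι N τ' hτ' c' hc')
    obtain ⟨g, rfl⟩ := jFun_eq_iff.mp (show jFun τ = jFun τ' by rw [← hc, ← hc', hcc])
    exact (point_fibre ι N τ c hc _ (inducesPlace_ptPlace ι N τ hτ)).2.2 g
      (by
        have h2 : InducesPlace _ _ (ptPlace ι N (g • τ) hτ') := inducesPlace_ptPlace ι N _ hτ'
        rw [← h] at h2
        exact h2)
  · rintro ⟨γ, hγ, rfl⟩
    refine (inducesPlace_ptPlace ι N τ hτ).unique fun f => ?_
    rw [← ordAtH_ptHom_Gamma0_smul ι N hγ τ f]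
    exact inducesPlace_ptPlace ι N _ hτ' f

theorem ord_jElem_sub_ptPlace (τ : ℍ) (c : L) (hc : ι c = jFun τ) :
    (ptIndex N τ : ℤ) * (ptPlace ι N τ ⟨c, hc⟩).ord (jElem L N - algebraMap L _ c)
      = jRamIndex (jFun τ) :=
  (point_fibre ι N τ c hc _ (inducesPlace_ptPlace ι N τ ⟨c, hc⟩)).2.1

theorem exists_ptPlace_eq (v : Place L (modularFunctionFieldOver L N))
    (hv : 0 ≤ v.ord (jElem L N)) :
    ∃ (τ : ℍ) (hτ : jFun τ ∈ Set.range ι), ptPlace ι N τ hτ = v := by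
  obtain ⟨c, hc⟩ := exists_const_sub_mem_ordGE N v (jElem L N) (Curve.mem_ordGE_of_le hv)
  have hne : jElem L N - algebraMap L _ c ≠ 0 := fun h => transcendental_jElem L N (by
    rw [sub_eq_zero.mp h]; exact isAlgebraic_algebraMap c)
  have hpos : 0 < v.ord (jElem L N - algebraMap L _ c) := by
    have := Curve.le_ord_of_mem hc hne
    omega
  obtain ⟨τ₀, hτ₀⟩ := jFun_surjective (ι c)
  obtain ⟨p, hp, hv', -⟩ := exists_fibre_places ι N τ₀ c hτ₀.symm
  obtain ⟨q, rfl⟩ := (hv' v).mp hpos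
  obtain ⟨g, rfl⟩ := QuotientGroup.mk_surjective q
  have hmem : jFun (g⁻¹ • τ₀) ∈ Set.range ι := ⟨c, by rw [jFun_smul, hτ₀]⟩
  exact ⟨g⁻¹ • τ₀, hmem, (inducesPlace_ptPlace ι N _ hmem).unique
    ((inducesPlace_cosetHom_mk ι N τ₀ g _).mp (hp _))⟩

/-- A point with non-trivial index is fixed by an element acting as a primitive root of unity. -/
theorem exists_elliptic_of_ptIndex_ne_one (τ : ℍ) (h : ptIndex N τ ≠ 1) :
    ∃ γ : SL(2, ℤ), γ ∈ Gamma0 N ∧ γ • τ = τ ∧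
      IsPrimitiveRoot ((UpperHalfPlane.denom γ τ) ^ (-2 : ℤ)) (ptIndex N τ) := by
  have hstab : ¬ ∀ γ ∈ Gamma0 N, γ • τ = τ → γ = 1 ∨ γ = -1 := fun h' => h (if_pos h')
  have hidx : ptIndex N τ = jRamIndex (jFun τ) := if_neg hstab
  push Not at hstab
  obtain ⟨γ, hγ, hfix, hne1, hne2⟩ := hstab
  refine ⟨γ, hγ, hfix, ?_⟩
  set ζ := (denom γ τ) ^ (-2 : ℤ) with hζ
  have hζ1 : ζ ≠ 1 := fun h1 => (eq_one_or_neg_one_of_multiplier hfix h1).elim hne1 hne2
  obtain ⟨v, hv⟩ := exists_ptPlace (RingHom.id ℂ) N τ ⟨jFun τ, rfl⟩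
  have hord := (point_fibre (RingHom.id ℂ) N τ (jFun τ) rfl v hv).1 _ (Curve.unif_ne_zero v)
  rw [Curve.ord_unif, mul_one] at hord
  have hpow := zpow_multiplier_ptHom (RingHom.id ℂ) N hγ hfix _ hord
  rw [zpow_natCast] at hpow
  have hcases : jRamIndex (jFun τ) = 3 ∨ jRamIndex (jFun τ) = 2 ∨ jRamIndex (jFun τ) = 1 := by
    unfold jRamIndex; split_ifs <;> simp
  rw [← hidx] at hcases
  refine IsPrimitiveRoot.iff (ptIndex_pos N τ) |>.mpr ⟨hpow, fun l hl0 hlE hl => ?_⟩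
  rcases hcases with e | e | e <;> rw [e] at hlE hpow
  · have : l = 1 ∨ l = 2 := by omega
    rcases this with rfl | rfl
    · exact hζ1 (by simpa using hl)
    · exact hζ1 (by rw [← hζ] at hpow; rw [pow_succ, hl, one_mul] at hpow; exact hpow)
  · obtain rfl : l = 1 := by omega
    exact hζ1 (by simpa using hl)
  · exact h e

end FermatLib.Modular
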