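/-
Expansions at a cusp in a parameter `q^{1/k}`, `T^k` fixing the coset, and their orders.
-/
import Fermat.Agent.Modular.PlacePoints
import Fermat.Agent.Modular.Gamma0Orbits

set_option autoImplicit false

noncomputable section

open UpperHalfPlane hiding I
open CongruenceSubgroup ModularCurve
open scoped MatrixGroups Manifold Topology

namespace FermatLib.Modular

local notation "Δ" => ModularForm.discriminant

/-! ### Orders of Laurent series -/

theorem orderTop_eq_of_coeff_zero_iff {R S : Type*} [Zero R] [Zero S] {x : LaurentSeries R}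
    {y : LaurentSeries S} (h : ∀ n, x.coeff n = 0 ↔ y.coeff n = 0) : x.orderTop = y.orderTop := by
  refine le_antisymm (HahnSeries.le_orderTop_iff_forall.mpr fun n hn => ?_)
    (HahnSeries.le_orderTop_iff_forall.mpr fun n hn => ?_)
  · exact (h n).mp (HahnSeries.coeff_eq_zero_of_lt_orderTop hn)
  · exact (h n).mpr (HahnSeries.coeff_eq_zero_of_lt_orderTop hn)

theorem orderTop_coeffMap {R S : Type*} [CommRing R] [CommRing S] (φ : R →+* S)
    (hφ : Function.Injective φ) (x : LaurentSeries R) :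
    (coeffMap φ x).orderTop = x.orderTop :=
  orderTop_eq_of_coeff_zero_iff fun n => map_eq_zero_iff φ hφ

theorem orderTop_coeffEmb_jq (L : Type*) [Field L] [Algebra ℚ L] :
    (coeffEmb L jq).orderTop = ((-1 : ℤ) : WithTop ℤ) := by
  rw [coeffEmb, orderTop_coeffMap _ (algebraMap ℚ L).injective]
  refine HahnSeries.orderTop_eq_of_le ?_ fun k hk => ?_
  · rw [HahnSeries.mem_support, coeff_jq_neg_one]
    exact one_ne_zero
  · by_contra hlt
    exact hk (coeff_jq_of_lt (not_le.mp hlt))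

theorem addVal_qExpand_of_eq {k : ℕ} [NeZero k] {x : LaurentSeries ℂ} {n : ℤ}
    (h : HahnSeries.addVal ℤ ℂ x = (n : WithTop ℤ)) :
    HahnSeries.addVal ℤ ℂ (qExpand ℂ k x) = (((k : ℤ) * n : ℤ) : WithTop ℤ) := by
  rw [HahnSeries.addVal_apply] at h ⊢
  show (HahnSeries.embDomain _ x).orderTop = _
  rw [HahnSeries.orderTop_embDomain, h]
  rfl

theorem addVal_qExpand_nonneg_iff {k : ℕ} [NeZero k] (x : LaurentSeries ℂ) :
    0 ≤ HahnSeries.addVal ℤ ℂ (qExpand ℂ k x) ↔ 0 ≤ HahnSeries.addVal ℤ ℂ x := by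
  rcases eq_or_ne x 0 with rfl | hx
  · simp
  obtain ⟨n, hn⟩ := WithTop.ne_top_iff_exists.mp
    ((AddValuation.ne_top_iff (HahnSeries.addVal ℤ ℂ)).mpr hx)
  rw [addVal_qExpand_of_eq hn.symm, ← hn, ← WithTop.coe_zero, WithTop.coe_le_coe,
    WithTop.coe_le_coe]
  have hk : (0 : ℤ) < k := by exact_mod_cast Nat.pos_of_ne_zero (NeZero.ne k)
  exact mul_nonneg_iff_of_pos_left hk

theorem addVal_algebraMap_nonneg (a : ℂ) :
    0 ≤ HahnSeries.addVal ℤ ℂ (algebraMap ℂ (LaurentSeries ℂ) a) := by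
  rw [HahnSeries.addVal_apply, algebraMap_laurentSeries_eq_single]
  exact HahnSeries.orderTop_single_le

/-! ### Translates -/

theorem comp_vadd_mem {F : ℍ → ℂ} (hF : F ∈ qMero) (t : ℝ) :
    (fun τ => F (t +ᵥ τ)) ∈ qMero := by
  have e : (fun τ : ℍ => F (t +ᵥ τ)) = fun τ =>
      F (ModularForm.upperTriangularGL 1 t 1 (mul_pos one_pos one_pos).ne' • τ) := by
    funext τ
    congr 1
    apply UpperHalfPlane.ext
    rw [coe_upperTriangularGL_smul one_pos one_pos]
    simp [add_comm]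
  refine mem_qMero.mpr ⟨fun τ => ?_, ?_, ?_⟩
  · rw [vadd_comm, hF.1]
  · rw [e]
    exact hF.2.1.comp (UpperHalfPlane.mdifferentiable_smul (by simp))
  · obtain ⟨m, hm⟩ := hF.2.2
    refine ⟨m, ?_⟩
    rw [e]
    simpa using isBoundedAtImInfty_comp_triangular (b := t) hm one_pos one_pos (k := 1) (by simp)

theorem addVal_qExpL_comp_vadd_of_bounded {F : ℍ → ℂ} (hF : F ∈ qMero)
    (hb : IsBoundedAtImInfty F) (t : ℝ) :
    HahnSeries.addVal ℤ ℂ (qExpL fun τ => F (t +ᵥ τ)) = HahnSeries.addVal ℤ ℂ (qExpL F) := by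
  obtain ⟨hmem, hbd⟩ := comp_vadd_mem_qMero hF hb t
  rw [qExpL_of_bounded hmem hbd, qExpL_of_bounded hF hb, qExpansion_comp_vadd hF hb,
    HahnSeries.addVal_apply, HahnSeries.addVal_apply]
  refine orderTop_eq_of_coeff_zero_iff fun n => ?_
  rcases le_or_gt 0 n with hn | hn
  · lift n to ℕ using hn
    rw [HahnSeries.ofPowerSeries_apply_coeff, HahnSeries.ofPowerSeries_apply_coeff,
      PowerSeries.coeff_rescale]
    simp [rot, Complex.exp_ne_zero]
  · rw [ofPowerSeries_coeff_of_neg _ hn, ofPowerSeries_coeff_of_neg _ hn]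

theorem addVal_qExpL_comp_vadd {F : ℍ → ℂ} (hF : F ∈ qMero) (t : ℝ) :
    HahnSeries.addVal ℤ ℂ (qExpL fun τ => F (t +ᵥ τ)) = HahnSeries.addVal ℤ ℂ (qExpL F) := by
  obtain ⟨m, hm⟩ := hF.2.2
  have hΔm := pow_mem discriminant_mem_qMero m
  have h : HahnSeries.addVal ℤ ℂ (qExpL fun τ => F (t +ᵥ τ))
      + HahnSeries.addVal ℤ ℂ (qExpL fun τ => (Δ ^ m : ℍ → ℂ) (t +ᵥ τ))
      = HahnSeries.addVal ℤ ℂ (qExpL F) + HahnSeries.addVal ℤ ℂ (qExpL (Δ ^ m : ℍ → ℂ)) := by
    rw [← AddValuation.map_mul, ← AddValuation.map_mul, ← qExpL_mul hF hΔm,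
      ← qExpL_mul (comp_vadd_mem hF t) (comp_vadd_mem hΔm t)]
    exact addVal_qExpL_comp_vadd_of_bounded (mul_mem hF hΔm) hm t
  rw [addVal_qExpL_comp_vadd_of_bounded hΔm (isBoundedAtImInfty_discriminant_pow m)] at h
  refine (WithTop.add_right_inj ((AddValuation.ne_top_iff _).mpr fun h0 => ?_)).mp h
  exact pow_ne_zero m (ModularForm.discriminant_ne_zero UpperHalfPlane.I)
    (congrFun ((qExpL_eq_zero_iff hΔm).mp h0) UpperHalfPlane.I)

/-! ### Expansions at a cusp -/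

variable (N k : ℕ) [NeZero k]

/-- `τ ↦ G (g⁻¹ (k τ))`. -/
def cuspFunK (g : SL(2, ℤ)) (G : ℍ → ℂ) : ℍ → ℂ :=
  fun τ => G (g⁻¹ • (ModularForm.heckeDiagMatrix k • τ))

theorem diag_smul_vadd_one (τ : ℍ) :
    ModularForm.heckeDiagMatrix k • ((1 : ℝ) +ᵥ τ)
      = ModularGroup.T ^ (k : ℤ) • (ModularForm.heckeDiagMatrix k • τ) := by
  rw [modular_T_zpow_smul]
  apply UpperHalfPlane.ext
  rw [ModularForm.coe_heckeDiagMatrix_smul (NeZero.ne k), coe_vadd, coe_vadd,
    ModularForm.coe_heckeDiagMatrix_smul (NeZero.ne k)]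
  push_cast
  ring

variable {N}

theorem cuspFunK_mem {g : SL(2, ℤ)}
    (hk : ModularGroup.T ^ (k : ℤ) • (g : Gamma0Coset N) = (g : Gamma0Coset N))
    {G : ℍ → ℂ} (hG : G ∈ weakMod (Gamma0 N)) : cuspFunK k g G ∈ qMero := by
  refine mem_qMero.mpr ⟨fun τ => ?_, ?_, ?_⟩
  · show G (g⁻¹ • _) = G (g⁻¹ • _)
    rw [diag_smul_vadd_one,
      ← hG.2.1 _ (gamma0Coset_smul_eq_self_iff.mp hk) (g⁻¹ • (ModularForm.heckeDiagMatrix k • τ))]
    congr 1
    rw [mul_smul, mul_smul, smul_inv_smul]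
  · exact (mdifferentiable_comp_smul hG.1 g⁻¹).comp
      (UpperHalfPlane.mdifferentiable_smul (ModularForm.det_heckeDiagMatrix_pos k))
  · obtain ⟨m, hm⟩ := hG.2.2 g⁻¹
    have hd : (0 : ℝ) < k := by exact_mod_cast Nat.pos_of_ne_zero (NeZero.ne k)
    refine ⟨k * m, ?_⟩
    have h := isBoundedAtImInfty_comp_triangular (b := 0) hm hd one_pos (k := k) (by simp)
    unfold cuspFunK
    simpa [ModularForm.heckeDiagMatrix, NeZero.ne k] using h

theorem cuspFunK_injective (g : SL(2, ℤ)) : Function.Injective (cuspFunK k g) := by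
  intro a b h
  funext z
  have := congrFun h ((ModularForm.heckeDiagMatrix k)⁻¹ • (g • z))
  simpa [cuspFunK] using this

/-- `G ↦ cuspFunK k g G` as a ring homomorphism. -/
def cuspHomK (g : SL(2, ℤ))
    (hk : ModularGroup.T ^ (k : ℤ) • (g : Gamma0Coset N) = (g : Gamma0Coset N)) :
    weakMod (Gamma0 N) →+* qMero where
  toFun G := ⟨cuspFunK k g G, cuspFunK_mem k hk G.2⟩
  map_one' := rfl
  map_mul' _ _ := rfl
  map_zero' := rfl
  map_add' _ _ := rfl

variable [NeZero N]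

theorem exists_cuspEvalK (g : SL(2, ℤ))
    (hk : ModularGroup.T ^ (k : ℤ) • (g : Gamma0Coset N) = (g : Gamma0Coset N)) :
    ∃ Ψ : modularFunctionFieldCx N →+* LaurentSeries ℂ, ∀ (G : weakMod (Gamma0 N))
      (h : qExpWeak N G ∈ modularFunctionFieldCx N),
        Ψ ⟨qExpWeak N G, h⟩ = qExpL (cuspFunK k g G) :=
  exists_lift_modularFunctionFieldCx N (qExpLHom.toRingHom.comp (cuspHomK k g hk))
    (qExpLHom_injective.comp fun _ _ h =>
      Subtype.ext (cuspFunK_injective k g (congrArg Subtype.val h)))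

omit k [NeZero k] in
/-- Homomorphisms on `ℂ(X₀(N))` agreeing on expansions of weakly holomorphic functions agree. -/
theorem cxHom_ext {M : Type*} [Field M] {Φ Ψ : modularFunctionFieldCx N →+* M}
    (h : ∀ G : weakMod (Gamma0 N),
      Φ ⟨qExpWeak N G, qExpL_mem_modularFunctionFieldCx N G.2⟩
        = Ψ ⟨qExpWeak N G, qExpL_mem_modularFunctionFieldCx N G.2⟩) : Φ = Ψ := by
  refine RingHom.ext fun y => ?_
  obtain ⟨A, B, -, e⟩ := exists_div_qExpWeak N y
  rw [e, map_div₀, map_div₀, h A, h B]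

omit k [NeZero k] in
/-- Valuations of two homomorphisms agreeing on weakly holomorphic functions agree. -/
theorem addVal_cxHom_congr {Φ Ψ : modularFunctionFieldCx N →+* LaurentSeries ℂ}
    (h : ∀ G : weakMod (Gamma0 N),
      HahnSeries.addVal ℤ ℂ (Φ ⟨qExpWeak N G, qExpL_mem_modularFunctionFieldCx N G.2⟩)
        = HahnSeries.addVal ℤ ℂ (Ψ ⟨qExpWeak N G, qExpL_mem_modularFunctionFieldCx N G.2⟩))
    (y : modularFunctionFieldCx N) :
    HahnSeries.addVal ℤ ℂ (Φ y) = HahnSeries.addVal ℤ ℂ (Ψ y) := by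
  obtain ⟨A, B, -, e⟩ := exists_div_qExpWeak N y
  rw [e, map_div₀ Φ, map_div₀ Ψ]
  simp only [div_eq_mul_inv, AddValuation.map_mul, AddValuation.map_inv, h A, h B]

end FermatLib.Modular
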