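import Fermat.Agent.Modular.HeckeReps
import Fermat.Agent.Modular.Residue.Cocycle
import Mathlib.NumberTheory.ModularForms.CongruenceSubgroups
import Mathlib.LinearAlgebra.Matrix.SpecialLinearGroup

/-!
# Degeneracy maps and the Atkin–Lehner automorphism at a prime not dividing the level
-/

set_option autoImplicit false
set_option linter.unusedSectionVars false
set_option linter.unnecessarySeqFocus false

noncomputable section

open scoped MatrixGroups
open CongruenceSubgroup Matrix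

namespace FermatLib.Modular.Degeneracy

local notation "M2Z" => Matrix (Fin 2) (Fin 2) ℤ

variable (N q : ℕ)

theorem Gamma0_mul_le_left : Gamma0 (N * q) ≤ Gamma0 N := by
  intro γ hγ
  rw [mem_Gamma0_iff_dvd] at hγ ⊢
  exact (dvd_mul_right (N : ℤ) q).trans (by exact_mod_cast hγ)

/-- The matrix `diag (q, 1)`. -/
def degMat : M2Z := !![(q : ℤ), 0; 0, 1]

theorem det_degMat : (degMat q).det = q := by simp [degMat, Matrix.det_fin_two_of]

/-- The entries of the conjugate of `γ` by `diag (q, 1)`. -/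
def degConjMat (γ : SL(2, ℤ)) : M2Z := !![γ 0 0, (q : ℤ) * γ 0 1; γ 1 0 / q, γ 1 1]

theorem natCast_q_dvd {γ : SL(2, ℤ)} (hγ : γ ∈ Gamma0 (N * q)) : (q : ℤ) ∣ γ 1 0 := by
  rw [mem_Gamma0_iff_dvd] at hγ
  push_cast at hγ
  exact (dvd_mul_left _ _).trans hγ

theorem degMat_mul {γ : SL(2, ℤ)} (hγ : γ ∈ Gamma0 (N * q)) :
    degMat q * (γ : M2Z) = degConjMat q γ * degMat q := by
  have h := Int.ediv_mul_cancel (natCast_q_dvd N q hγ)
  ext i j
  fin_cases i <;> fin_cases j <;> simp [degMat, degConjMat, Matrix.mul_apply, Fin.sum_univ_two]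
  · ring
  · exact h.symm

variable [NeZero q]

theorem natCast_q_ne_zero : (q : ℤ) ≠ 0 := Nat.cast_ne_zero.2 (NeZero.ne q)

theorem det_degConjMat {γ : SL(2, ℤ)} (hγ : γ ∈ Gamma0 (N * q)) : (degConjMat q γ).det = 1 := by
  have h := congrArg Matrix.det (degMat_mul N q hγ)
  rw [Matrix.det_mul, Matrix.det_mul, det_degMat, γ.det_coe, mul_one] at h
  exact mul_right_cancel₀ (natCast_q_ne_zero q) (h.symm.trans (one_mul _).symm)

/-- Conjugation by `diag (q, 1)`. -/
def degSL {γ : SL(2, ℤ)} (hγ : γ ∈ Gamma0 (N * q)) : SL(2, ℤ) :=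
  ⟨degConjMat q γ, det_degConjMat N q hγ⟩

theorem degSL_mem {γ : SL(2, ℤ)} (hγ : γ ∈ Gamma0 (N * q)) : degSL N q hγ ∈ Gamma0 N := by
  rw [mem_Gamma0_iff_dvd] at *
  show (N : ℤ) ∣ γ 1 0 / q
  push_cast at hγ
  obtain ⟨k, hk⟩ := hγ
  rw [hk, mul_comm (N : ℤ), mul_assoc, Int.mul_ediv_cancel_left _ (natCast_q_ne_zero q)]
  exact dvd_mul_right _ _

/-- The degeneracy homomorphism `Γ₀(N q) → Γ₀(N)`. -/
def degHom : Gamma0 (N * q) →* Gamma0 N where
  toFun γ := ⟨degSL N q γ.2, degSL_mem N q γ.2⟩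
  map_one' := by
    refine Subtype.ext (Subtype.ext (matMul_right_cancel (δ := degMat q) ?_ ?_))
    · rw [det_degMat]; exact natCast_q_ne_zero q
    · show degConjMat q ((1 : Gamma0 (N * q)) : SL(2, ℤ)) * degMat q = (1 : M2Z) * degMat q
      rw [← degMat_mul N q (1 : Gamma0 (N * q)).2]
      simp
  map_mul' a b := by
    refine Subtype.ext (Subtype.ext (matMul_right_cancel (δ := degMat q) ?_ ?_))
    · rw [det_degMat]; exact natCast_q_ne_zero q
    · show degConjMat q ((a * b : Gamma0 (N * q)) : SL(2, ℤ)) * degMat q =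
        (degConjMat q a * degConjMat q b) * degMat q
      rw [← degMat_mul N q (a * b).2, Matrix.mul_assoc, ← degMat_mul N q b.2, ← Matrix.mul_assoc,
        ← degMat_mul N q a.2, Subgroup.coe_mul, Matrix.SpecialLinearGroup.coe_mul,
        Matrix.mul_assoc]

theorem degHom_spec (γ : Gamma0 (N * q)) :
    degMat q * ((γ : SL(2, ℤ)) : M2Z) = ((degHom N q γ : SL(2, ℤ)) : M2Z) * degMat q :=
  degMat_mul N q γ.2

variable [Fact (Nat.Coprime q N)]

theorem exists_al_coeff : ∃ cd : ℤ × ℤ, (q : ℤ) * cd.2 - (N : ℤ) * cd.1 = 1 := by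
  obtain ⟨a, b, h⟩ := Nat.isCoprime_iff_coprime.2 (Fact.out : Nat.Coprime q N)
  exact ⟨(-b, a), by linarith⟩

/-- An integer `c` with `q d - N c = 1`. -/
def alC : ℤ := (exists_al_coeff N q).choose.1

/-- An integer `d` with `q d - N c = 1`. -/
def alD : ℤ := (exists_al_coeff N q).choose.2

theorem al_eq : (q : ℤ) * alD N q - (N : ℤ) * alC N q = 1 := (exists_al_coeff N q).choose_spec

/-- The Atkin–Lehner matrix at `q`. -/
def alMat : M2Z := !![(q : ℤ), 1; (N : ℤ) * q * alC N q, (q : ℤ) * alD N q]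

theorem det_alMat : (alMat N q).det = q := by
  rw [alMat, Matrix.det_fin_two_of]
  linear_combination (q : ℤ) * al_eq N q

/-- The unimodular factor of the Atkin–Lehner matrix. -/
def alS : SL(2, ℤ) :=
  ⟨!![1, 1; (N : ℤ) * alC N q, (q : ℤ) * alD N q], by
    rw [Matrix.det_fin_two_of]; linear_combination al_eq N q⟩

theorem alS_mem : alS N q ∈ Gamma0 N := by
  rw [mem_Gamma0_iff_dvd]
  exact dvd_mul_right _ _

theorem alMat_eq : alMat N q = (alS N q : M2Z) * degMat q := by
  ext i j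
  fin_cases i <;> fin_cases j <;> simp [alMat, alS, degMat, Matrix.mul_apply, Fin.sum_univ_two] <;>
    ring

theorem al_conj_mem (γ : Gamma0 (N * q)) :
    alS N q * (degHom N q γ : SL(2, ℤ)) * (alS N q)⁻¹ ∈ Gamma0 (N * q) := by
  obtain ⟨k, hk⟩ := mem_Gamma0_iff_dvd.1 (degHom N q γ).2
  rw [mem_Gamma0_iff_dvd]
  have h01 : (degHom N q γ : SL(2, ℤ)) 0 1 = (q : ℤ) * (γ : SL(2, ℤ)) 0 1 := rfl
  rw [Matrix.SpecialLinearGroup.coe_mul, Matrix.SpecialLinearGroup.coe_mul,
    Matrix.SpecialLinearGroup.coe_inv]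
  generalize (degHom N q γ : SL(2, ℤ)) = e at hk h01 ⊢
  simp [alS, Matrix.mul_apply, Fin.sum_univ_two, Matrix.adjugate_fin_two, Matrix.vecMul, dotProduct, hk, h01]
  refine ⟨alC N q * e 0 0 * alD N q + (q : ℤ) * alD N q * k * alD N q
    - (N : ℤ) * alC N q * (γ : SL(2, ℤ)) 0 1 * alC N q
    - alD N q * e 1 1 * alC N q, ?_⟩
  ring

/-- The Atkin–Lehner automorphism of `Γ₀(N q)`. -/
def alHom : Gamma0 (N * q) →* Gamma0 (N * q) where
  toFun γ := ⟨_, al_conj_mem N q γ⟩
  map_one' := Subtype.ext (by simp)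
  map_mul' a b := Subtype.ext (by simp [mul_assoc])

theorem coe_alHom (γ : Gamma0 (N * q)) :
    (alHom N q γ : SL(2, ℤ)) = alS N q * (degHom N q γ : SL(2, ℤ)) * (alS N q)⁻¹ := rfl

theorem alHom_spec (γ : Gamma0 (N * q)) :
    alMat N q * ((γ : SL(2, ℤ)) : M2Z) = ((alHom N q γ : SL(2, ℤ)) : M2Z) * alMat N q := by
  rw [alMat_eq, Matrix.mul_assoc, degHom_spec, ← Matrix.mul_assoc, ← Matrix.mul_assoc, coe_alHom,
    ← Matrix.SpecialLinearGroup.coe_mul, ← Matrix.SpecialLinearGroup.coe_mul, inv_mul_cancel_right]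

/-- The unimodular part of the square of the Atkin–Lehner matrix. -/
def alV : Gamma0 (N * q) :=
  ⟨⟨!![(q : ℤ) + N * alC N q, 1 + alD N q;
      (N : ℤ) * q * (alC N q * (1 + alD N q)), (N : ℤ) * alC N q + q * alD N q ^ 2], by
    rw [Matrix.det_fin_two_of]
    linear_combination ((q : ℤ) * alD N q - (N : ℤ) * alC N q + 1) * al_eq N q⟩,
    mem_Gamma0_iff_dvd.2 (by exact ⟨alC N q * (1 + alD N q), by push_cast; rfl⟩)⟩

theorem alHom_alHom (γ : Gamma0 (N * q)) :
    alHom N q (alHom N q γ) = alV N q * γ * (alV N q)⁻¹ := by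
  have hdw : alMat N q * alMat N q = (q : ℤ) • ((alV N q : SL(2, ℤ)) : M2Z) := by
    ext i j
    fin_cases i <;> fin_cases j <;>
      simp [alMat, alV, Matrix.mul_apply, Fin.sum_univ_two] <;> ring
  have h : alMat N q * alMat N q * ((γ : SL(2, ℤ)) : M2Z) =
      ((alHom N q (alHom N q γ) : SL(2, ℤ)) : M2Z) * (alMat N q * alMat N q) := by
    rw [Matrix.mul_assoc, alHom_spec, ← Matrix.mul_assoc, alHom_spec, Matrix.mul_assoc]
  rw [hdw, Matrix.mul_smul, Matrix.smul_mul,
    ← Matrix.SpecialLinearGroup.coe_mul, ← Matrix.SpecialLinearGroup.coe_mul] at h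
  have h' := Subtype.ext (smul_right_injective M2Z (natCast_q_ne_zero q) h)
  refine Subtype.ext ?_
  simp only [Subgroup.coe_mul, Subgroup.coe_inv]
  rw [eq_mul_inv_iff_mul_eq]
  exact h'.symm

section Homs

omit [Fact (Nat.Coprime q N)]

variable (R : Type*) [Semiring R] (A : Type*) [AddCommGroup A] [Module R A]

/-- Pullback of homomorphisms along a group homomorphism. -/
def pullHom {G H : Type*} [Group G] [Group H] (e : G →* H) :
    (Additive H →+ A) →ₗ[R] (Additive G →+ A) where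
  toFun φ := φ.comp (MonoidHom.toAdditive e)
  map_add' _ _ := rfl
  map_smul' _ _ := rfl

/-- Restriction to `Γ₀(N q)`. -/
def degRes : (Additive (Gamma0 N) →+ A) →ₗ[R] (Additive (Gamma0 (N * q)) →+ A) :=
  pullHom R A (Subgroup.inclusion (Gamma0_mul_le_left N q))

/-- Pullback along the second degeneracy map. -/
def degTwist : (Additive (Gamma0 N) →+ A) →ₗ[R] (Additive (Gamma0 (N * q)) →+ A) :=
  pullHom R A (degHom N q)

variable {A}

open Classical in
/-- A homomorphism on `Γ` extended by zero. -/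
def extFun {Γ : Subgroup SL(2, ℤ)} (φ : Additive Γ →+ A) (g : SL(2, ℤ)) : A :=
  if h : g ∈ Γ then φ (Additive.ofMul ⟨g, h⟩) else 0

theorem extFun_coe {Γ : Subgroup SL(2, ℤ)} (φ : Additive Γ →+ A) (γ : Γ) :
    extFun φ (γ : SL(2, ℤ)) = φ (Additive.ofMul γ) := by
  rw [extFun, dif_pos γ.2]

theorem extFun_of_mem {Γ : Subgroup SL(2, ℤ)} (φ : Additive Γ →+ A) {g : SL(2, ℤ)} (h : g ∈ Γ) :
    extFun φ g = φ (Additive.ofMul ⟨g, h⟩) := by
  rw [extFun, dif_pos h]

theorem isHomOn_extFun {Γ : Subgroup SL(2, ℤ)} (φ : Additive Γ →+ A) :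
    Residue.IsHomOn Γ (extFun φ) := by
  intro a ha b hb
  rw [extFun_of_mem φ (Γ.mul_mem ha hb), extFun_of_mem φ ha, extFun_of_mem φ hb, ← map_add,
    ← ofMul_mul]
  rfl

variable (A) [NeZero N]

instance finite_coset_mul : Finite (SL(2, ℤ) ⧸ Gamma0 (N * q)) := by
  have : NeZero (N * q) := ⟨mul_ne_zero (NeZero.ne N) (NeZero.ne q)⟩
  exact Subgroup.finite_quotient_of_finiteIndex

/-- The fintype structure on cosets used for corestriction. -/
@[implicit_reducible]
def cosetFintype : Fintype (SL(2, ℤ) ⧸ Gamma0 (N * q)) := Fintype.ofFinite _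

attribute [local instance] cosetFintype

/-- Corestriction from `Γ₀(N q)` to `Γ₀(N)`. -/
def degCores : (Additive (Gamma0 (N * q)) →+ A) →ₗ[R] (Additive (Gamma0 N) →+ A) where
  toFun ψ :=
    AddMonoidHom.mk'
      (fun γ => Residue.coresHom (Gamma0 (N * q)) (Gamma0 N) (extFun ψ) (Additive.toMul γ).1)
      fun a b => Residue.coresHom_isHomOn (Gamma0_mul_le_left N q) (isHomOn_extFun ψ) _
        (Additive.toMul a).2 _ (Additive.toMul b).2
  map_add' ψ ψ' := AddMonoidHom.ext fun γ => by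
    simp only [AddMonoidHom.mk'_apply, AddMonoidHom.add_apply, Residue.coresHom,
      ← Finset.sum_add_distrib]
    refine Finset.sum_congr rfl fun i _ => ?_
    simp only [extFun_of_mem _ (Residue.cosetElt_mem _ _ i), AddMonoidHom.add_apply]
  map_smul' a ψ := AddMonoidHom.ext fun γ => by
    simp only [AddMonoidHom.mk'_apply, RingHom.id_apply, AddMonoidHom.smul_apply,
      Residue.coresHom, Finset.smul_sum]
    refine Finset.sum_congr rfl fun i _ => ?_
    simp only [extFun_of_mem _ (Residue.cosetElt_mem _ _ i), AddMonoidHom.smul_apply]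

theorem degCores_apply (ψ : Additive (Gamma0 (N * q)) →+ A) (γ : Gamma0 N) :
    degCores N q R A ψ (Additive.ofMul γ) =
      Residue.coresHom (Gamma0 (N * q)) (Gamma0 N) (extFun ψ) (γ : SL(2, ℤ)) := rfl

end Homs

section AtkinLehner

variable (R : Type*) [Semiring R] (A : Type*) [AddCommGroup A] [Module R A]

/-- The Atkin–Lehner operator on homomorphisms. -/
def alOp : (Additive (Gamma0 (N * q)) →+ A) →ₗ[R] (Additive (Gamma0 (N * q)) →+ A) :=
  pullHom R A (alHom N q)

theorem apply_conj_eq {G : Type*} [Group G] (φ : Additive G →+ A) (u g : G) :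
    φ (Additive.ofMul (u * g * u⁻¹)) = φ (Additive.ofMul g) := by
  rw [ofMul_mul, ofMul_mul, ofMul_inv, map_add, map_add, map_neg]
  abel

theorem alOp_alOp (ψ : Additive (Gamma0 (N * q)) →+ A) : alOp N q R A (alOp N q R A ψ) = ψ := by
  refine AddMonoidHom.ext fun γ => ?_
  obtain ⟨g, rfl⟩ := Additive.ofMul.surjective γ
  show ψ (Additive.ofMul (alHom N q (alHom N q g))) = _
  rw [alHom_alHom, apply_conj_eq]

theorem alOp_degRes (c : Additive (Gamma0 N) →+ A) :
    alOp N q R A (degRes N q R A c) = degTwist N q R A c := by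
  refine AddMonoidHom.ext fun γ => ?_
  obtain ⟨g, rfl⟩ := Additive.ofMul.surjective γ
  show c (Additive.ofMul (Subgroup.inclusion (Gamma0_mul_le_left N q) (alHom N q g))) =
    c (Additive.ofMul (degHom N q g))
  have h : Subgroup.inclusion (Gamma0_mul_le_left N q) (alHom N q g) =
      ⟨alS N q, alS_mem N q⟩ * degHom N q g * ⟨alS N q, alS_mem N q⟩⁻¹ := Subtype.ext rfl
  rw [h, apply_conj_eq]

theorem alOp_degTwist (c : Additive (Gamma0 N) →+ A) :
    alOp N q R A (degTwist N q R A c) = degRes N q R A c := by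
  rw [← alOp_degRes, alOp_alOp]

end AtkinLehner

end FermatLib.Modular.Degeneracy
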