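import Fermat.Agent.Modular.TwistSystemOp
import Mathlib.GroupTheory.Index

/-!
# The twist is injective on all of `H¹`

For a prime `q` exactly dividing `L` at which `χ` is nontrivial, a class killed by the twist is,
on `Γ₀(L q)`, the pull back by `(q 0; 0 1)` of a class of level `L`; the two groups then generate
enough of `Γ₀(L / q)` to force the class to vanish.
-/

set_option autoImplicit false

noncomputable section

open scoped MatrixGroups
open CongruenceSubgroup FermatLib.MLT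

namespace FermatLib.Modular.Twist

local notation "M2Z" => Matrix (Fin 2) (Fin 2) ℤ

section averaging

variable {G : Type*} [Group G] {K : Type} [Field K] [CharZero K]
  {V : Type} [AddCommGroup V] [Module K V]

/-- A cocycle vanishing on a subgroup of finite index is a coboundary. -/
theorem exists_cobdry_of_finiteIndex (χ : G →* Kˣ) (g : G → V)
    (hg : ∀ a b, g (a * b) = g a + (χ a : K) • g b) (H : Subgroup G) [H.FiniteIndex]
    (hH : ∀ h ∈ H, g h = 0) : ∃ v : V, ∀ a, g a = (χ a : K) • v - v := by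
  classical
  have : Fintype (G ⧸ H) := Fintype.ofFinite _
  let F : G ⧸ H → V := fun x => Quotient.liftOn' x g fun a b hab => by
    rw [QuotientGroup.leftRel_apply] at hab
    have := hg a (a⁻¹ * b)
    rw [mul_inv_cancel_left, hH _ hab, smul_zero, add_zero] at this
    exact this.symm
  set n : K := (Fintype.card (G ⧸ H) : K) with hn
  have hn0 : n ≠ 0 := Nat.cast_ne_zero.2 Fintype.card_ne_zero
  refine ⟨-(n⁻¹ • ∑ x, F x), fun a => ?_⟩
  have key : ∀ x : G ⧸ H, F (a • x) = g a + (χ a : K) • F x := by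
    intro x
    induction x using QuotientGroup.induction_on with
    | H b => exact hg a b
  have h : ∑ x, F x = n • g a + (χ a : K) • ∑ x, F x := by
    conv_lhs => rw [← Equiv.sum_comp (MulAction.toPerm a) F]
    simp only [MulAction.toPerm_apply, key, Finset.sum_add_distrib, Finset.sum_const,
      Finset.card_univ, ← Finset.smul_sum, hn, Nat.cast_smul_eq_nsmul]
  have h' : n • g a = ∑ x, F x - (χ a : K) • ∑ x, F x := eq_sub_of_add_eq h.symm
  calc g a = n⁻¹ • (n • g a) := (inv_smul_smul₀ hn0 _).symm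
    _ = _ := by
      rw [h', smul_sub, smul_neg, smul_comm (χ a : K)]
      abel

end averaging

theorem cocycle_conj {G : Type*} [Group G] {K : Type} [CommRing K] {V : Type} [AddCommGroup V]
    [Module K V] (χ : G →* Kˣ) (g : G → V) (hg : ∀ a b, g (a * b) = g a + (χ a : K) • g b)
    (k δ : G) (hδ : χ δ = 1) : g (k * δ * k⁻¹) = (χ k : K) • g δ := by
  have h1 : g 1 = 0 := by
    have := hg 1 1
    rwa [one_mul, map_one, Units.val_one, one_smul, left_eq_add] at this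
  have h2 := hg k k⁻¹
  rw [mul_inv_cancel, h1] at h2
  rw [mul_assoc, hg, hg, hδ, Units.val_one, one_smul, smul_add, add_left_comm, ← h2, add_zero]

/-- The matrix `(q 0; 0 1)`. -/
def diagQ (q : ℕ) : M2Z := !![(q : ℤ), 0; 0, 1]

/-- `Γ₀(L q) ⊆ Γ₀(L)`. -/
def levelDown {L q : ℕ} : Gamma0 (L * q) →* Gamma0 L :=
  Subgroup.inclusion fun _γ hγ => mem_Gamma0_iff_dvd.2
    ((Int.natCast_dvd_natCast.2 (dvd_mul_right L q)).trans (mem_Gamma0_iff_dvd.1 hγ))

@[simp] theorem coe_levelDown {L q : ℕ} (γ : Gamma0 (L * q)) :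
    (levelDown γ : SL(2, ℤ)) = (γ : SL(2, ℤ)) := rfl

theorem gamma0UnitsHom_levelDown {L q : ℕ} (γ : Gamma0 (L * q)) :
    gamma0UnitsHom L (levelDown γ) = ZMod.unitsMap (dvd_mul_right L q) (gamma0UnitsHom (L * q) γ) :=
  Units.ext (by
    rw [coe_gamma0UnitsHom, ZMod.unitsMap_val, coe_gamma0UnitsHom,
      ZMod.cast_intCast (dvd_mul_right L q), coe_levelDown])

section identity

variable {L q : ℕ} [Fact q.Prime] {K : Type} [Field K] [CharZero K]
  {V : Type} [AddCommGroup V] [Module K V] {χ : (ZMod L)ˣ →* Kˣ} {ψ : (ZMod q)ˣ →* Kˣ}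

omit [CharZero K] in
theorem apply_upperElt (c : bettiCocycles (Gamma0 L) (nebenChar χ) V) (k : ℤ) :
    (c : Gamma0 L → V) (upperElt L k) = (k : K) • (c : Gamma0 L → V) (upperElt L 1) := by
  let φ : ℤ →+ V := AddMonoidHom.mk' (fun k => (c : Gamma0 L → V) (upperElt L k)) fun i j => by
    have : upperElt L (i + j) = upperElt L i * upperElt L j := by
      refine Subtype.ext (Subtype.ext ?_)
      rw [Subgroup.coe_mul, Matrix.SpecialLinearGroup.coe_mul, coe_upperElt, coe_upperElt,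
        coe_upperElt, Matrix.mul_fin_two]
      simp [add_comm]
    rw [this, bettiCocycles.map_mul, nebenChar_upperElt, Units.val_one, one_smul]
  have := map_zsmul φ k 1
  rw [smul_eq_mul, mul_one, ← Int.cast_smul_eq_zsmul K] at this
  exact this

/-- The carry of the addition of two residues. -/
def carry (u v : ZMod q) : ℤ := (((u.val : ℤ) + v.val) - (u + v).val) / q

theorem offsetRep_mul (u v : ZMod q) : offsetRep q u * offsetRep q v =
    (q : ℤ) • (((upperElt L (carry u v) : SL(2, ℤ)) : M2Z) * offsetRep q (u + v)) := by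
  have h : (q : ℤ) ∣ ((u.val : ℤ) + v.val) - (u + v).val := by
    rw [← ZMod.intCast_zmod_eq_zero_iff_dvd]
    simp
  obtain ⟨t, ht⟩ := h
  have hk : carry u v = t := by
    rw [carry, ht, Int.mul_ediv_cancel_left _ (Int.natCast_ne_zero.2 (Fact.out : q.Prime).ne_zero)]
  rw [coe_upperElt, hk, offsetRep, offsetRep, offsetRep, Matrix.mul_fin_two, Matrix.mul_fin_two]
  ext i j
  fin_cases i <;> fin_cases j <;> simp [-ZMod.natCast_val]
  linear_combination (q : ℤ) * ht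

theorem sum_univ_eq_zero_add_units (f : ZMod q → V) :
    ∑ s, f s = f 0 + ∑ u : (ZMod q)ˣ, f u := by
  classical
  rw [← Finset.add_sum_erase _ f (Finset.mem_univ 0)]
  congr 1
  refine (Finset.sum_bij (fun (u : (ZMod q)ˣ) _ => (u : ZMod q))
    (fun u _ => Finset.mem_erase.2 ⟨u.ne_zero, Finset.mem_univ _⟩)
    (fun u _ v _ h => Units.ext h)
    (fun s hs => ⟨Units.mk0 s (Finset.mem_erase.1 hs).1, Finset.mem_univ _, rfl⟩)
    (fun u _ => rfl)).symm

/-- A class killed by the twist is, on `Γ₀(L q)`, pulled back by `(q 0; 0 1)` from level `L`. -/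
theorem exists_pullback_of_twist_eq_cobdry (hqL : q ∣ L) (hψ : ψ ≠ 1)
    (c : bettiCocycles (Gamma0 L) (nebenChar χ) V) (x : V)
    (hx : ∀ γ : Gamma0 (L * q), (nebenChar (twistChar L q χ ψ) γ : K) • x - x =
      ∑ u, twistWeight q ψ u • (c : Gamma0 L → V) ((twistSystem L q hqL).elt γ u)) :
    ∃ g : Gamma0 L → V, (∀ a b, g (a * b) = g a + (nebenChar χ a : K) • g b) ∧
      ∀ (γ : Gamma0 (L * q)) (γ' : Gamma0 L),
        diagQ q * ((γ : SL(2, ℤ)) : M2Z) = ((γ' : SL(2, ℤ)) : M2Z) * diagQ q →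
        (c : Gamma0 L → V) (levelDown γ) = g γ' := by
  classical
  have hq : q.Prime := Fact.out
  have hq0 : (q : K) ≠ 0 := Nat.cast_ne_zero.2 hq.ne_zero
  have hqz : (q : ℤ) ≠ 0 := Int.natCast_ne_zero.2 hq.ne_zero
  set cf : Gamma0 L → V := (c : Gamma0 L → V)
  set τ : V := cf (upperElt L 1)
  choose h hmat hunit h10 using fun (γ : Gamma0 (L * q)) (s : ZMod q) =>
    exists_offsetRep_mul L q hqL s γ
  let e : Gamma0 (L * q) → (ZMod q)ˣ := fun γ =>
    ZMod.unitsMap (dvd_mul_left q L) (gamma0UnitsHom (L * q) γ)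
  have he : ∀ γ, e γ = ZMod.unitsMap hqL (gamma0UnitsHom L (levelDown γ)) := fun γ => by
    rw [gamma0UnitsHom_levelDown, ← MonoidHom.comp_apply, ZMod.unitsMap_comp]
  let up : Gamma0 (L * q) → ZMod q → Gamma0 (L * q) := fun γ v =>
    ⟨(h γ v : SL(2, ℤ)), mem_Gamma0_iff_dvd.2 (by rw [h10]; exact dvd_apply_one_zero γ)⟩
  have hdown : ∀ γ v, levelDown (up γ v) = h γ v := fun γ v => Subtype.ext rfl
  have hunitsL : ∀ γ v, gamma0UnitsHom L (levelDown (up γ v)) =
      gamma0UnitsHom L (levelDown γ) := fun γ v => by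
    rw [hdown, hunit, gamma0UnitsHom_levelDown]
  have heup : ∀ γ v, e (up γ v) = e γ := fun γ v => by rw [he, he, hunitsL]
  let X : Gamma0 (L * q) → K := fun γ => (nebenChar χ (levelDown γ) : K)
  have htw : ∀ γ v, nebenChar (twistChar L q χ ψ) (up γ v) =
      nebenChar (twistChar L q χ ψ) γ := fun γ v => by
    simp only [nebenChar, twistChar, MonoidHom.comp_apply, MonoidHom.mul_apply,
      MonoidHom.pow_apply, ← gamma0UnitsHom_levelDown, hunitsL]
    exact congrArg (fun z => χ (gamma0UnitsHom L (levelDown γ)) * ψ z ^ 2) (heup γ v)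
  -- translation of the offsets
  have hshift : ∀ γ u v, cf (h γ (u + v)) = cf (h (up γ v) u) +
      (X γ • ((carry (u * (e γ : ZMod q) ^ 2) (v * (e γ : ZMod q) ^ 2) : ℤ) : K) • τ -
        ((carry u v : ℤ) : K) • τ) := by
    intro γ u v
    set E2 : ZMod q := (e γ : ZMod q) ^ 2 with hE2
    set k := carry u v with hk
    set k' := carry (u * E2) (v * E2) with hk'
    set H := h (up γ v) u with hH
    have hp1 : offsetRep q v * ((γ : SL(2, ℤ)) : M2Z) =
        (((up γ v : Gamma0 (L * q)) : SL(2, ℤ)) : M2Z) * offsetRep q (v * E2) := hmat γ v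
    have hp2 : offsetRep q u * (((up γ v : Gamma0 (L * q)) : SL(2, ℤ)) : M2Z) =
        ((H : SL(2, ℤ)) : M2Z) * offsetRep q (u * E2) := by
      have := hmat (up γ v) u
      rwa [show ZMod.unitsMap (dvd_mul_left q L) (gamma0UnitsHom (L * q) (up γ v)) = e γ from
        heup γ v] at this
    have hp3 : ((upperElt L k : SL(2, ℤ)) : M2Z) * (offsetRep q (u + v) * ((γ : SL(2, ℤ)) : M2Z))
        = ((H : SL(2, ℤ)) : M2Z) * (((upperElt L k' : SL(2, ℤ)) : M2Z) *
          offsetRep q ((u + v) * E2)) := by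
      refine smul_right_injective M2Z hqz ?_
      show (q : ℤ) • _ = (q : ℤ) • _
      rw [← Matrix.mul_assoc, ← Matrix.smul_mul, ← offsetRep_mul, Matrix.mul_assoc, hp1,
        ← Matrix.mul_assoc, hp2, Matrix.mul_assoc, offsetRep_mul (L := L), Matrix.mul_smul,
        add_mul]
    have hp4 : h γ (u + v) = (upperElt L k)⁻¹ * (H * upperElt L k') := by
      refine Subtype.ext (Subtype.ext ?_)
      refine matMul_right_cancel (δ := offsetRep q ((u + v) * E2))
        (by simp [offsetRep, Matrix.det_fin_two_of, hq.ne_zero]) ?_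
      rw [← hmat γ (u + v)]
      have := congrArg (fun M : M2Z => ((((upperElt L k)⁻¹ : Gamma0 L) : SL(2, ℤ)) : M2Z) * M) hp3
      simp only [← Matrix.mul_assoc, ← Matrix.SpecialLinearGroup.coe_mul, ← Subgroup.coe_mul,
        inv_mul_cancel, Subgroup.coe_one, Matrix.SpecialLinearGroup.coe_one, one_mul] at this
      exact this
    have hX : (nebenChar χ H : K) = X γ := by
      rw [hH, ← hdown]
      simp only [X, nebenChar, MonoidHom.comp_apply, hunitsL]
    rw [hp4]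
    simp only [cf, bettiCocycles.map_mul, bettiCocycles.map_inv, map_inv,
      nebenChar_upperElt, inv_one, Units.val_one, one_smul, apply_upperElt c k,
      apply_upperElt c k', hX]
    abel
  -- the class `g`
  let E : (ZMod q)ˣ → K := fun t => ∑ u : (ZMod q)ˣ, ((carry (u : ZMod q) (t * u : ZMod q) : ℤ) : K)
  set Y : V := ∑ t, (ψ t : K) • E t • τ with hY
  set f := ((bettiHeckeSystem L ⟨q, hq⟩).transferCocycles V
    (isWeight_heckeWeight χ ⟨q, hq⟩) c) with hf
  set y : V := (q : K)⁻¹ • ((ψ (-1) : K))⁻¹ • Y with hy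
  refine ⟨fun a => (q : K)⁻¹ • (f : Gamma0 L → V) a + ((nebenChar χ a : K) • y - y),
    fun a b => ?_, fun γ γ' hrel => ?_⟩
  · simp only [bettiCocycles.map_mul, map_mul, Units.val_mul, smul_add, smul_sub, smul_smul]
    rw [mul_comm (q : K)⁻¹]
    abel
  have helt : ∀ (u : (ZMod q)ˣ) (δ : Gamma0 (L * q)),
      (twistSystem L q hqL).elt δ u = h δ u := fun u δ =>
    ((twistSystem L q hqL).next_elt_eq_of_eq (i := u) (j := u * e δ ^ 2) (h := h δ u) (by
      rw [twistSystem_rep, twistSystem_rep, twistRep, twistRep, Units.val_mul,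
        Units.val_pow_eq_pow_val]
      exact hmat δ u)).2
  set φ : ZMod q → V := fun s => cf (h γ s) with hφ
  let Z : (ZMod q)ˣ → (ZMod q)ˣ → V := fun u v =>
    X γ • ((carry ((u : ZMod q) * (e γ : ZMod q) ^ 2) ((v : ZMod q) * (e γ : ZMod q) ^ 2) : ℤ) : K) • τ
      - ((carry (u : ZMod q) (v : ZMod q) : ℤ) : K) • τ
  have hsum : ∑ v : (ZMod q)ˣ, (ψ v : K) •
      ∑ u, twistWeight q ψ u • cf ((twistSystem L q hqL).elt (up γ v) u) = 0 := by
    simp only [← hx, htw, ← Finset.sum_smul]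
    rw [show ∑ v : (ZMod q)ˣ, (ψ v : K) = 0 from ?_, zero_smul]
    refine sum_hom_units_eq_zero ((Units.coeHom K).comp ψ) fun h1 => hψ (MonoidHom.ext fun u => ?_)
    exact Units.ext (by simpa using DFunLike.congr_fun h1 u)
  have hmain : ∑ t, (ψ t : K) • ∑ u : (ZMod q)ˣ, φ ((1 + t) * u) = X γ • Y - Y := by
    have hE : ∀ t : (ZMod q)ˣ, ∑ u, Z u (t * u) = X γ • E t • τ - E t • τ := by
      intro t
      simp only [Z, E, Finset.sum_sub_distrib, ← Finset.smul_sum, ← Finset.sum_smul, Units.val_mul]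
      congr 3
      refine Eq.trans (Finset.sum_congr rfl fun u _ => ?_) (Equiv.sum_comp (Equiv.mulRight (e γ ^ 2))
        (fun u : (ZMod q)ˣ => ((carry (u : ZMod q) (t * u : ZMod q) : ℤ) : K)))
      simp [mul_assoc]
    have h1 : ∀ v u : (ZMod q)ˣ, cf ((twistSystem L q hqL).elt (up γ v) u) =
        φ (u + v) - Z u v := fun v u => by
      rw [helt, hφ]
      show _ = cf (h γ (u + v)) - _
      rw [hshift γ u v]
      simp only [Z]
      abel
    simp only [h1, Finset.smul_sum, smul_smul] at hsum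
    rw [Finset.sum_comm] at hsum
    have h2 : ∑ u : (ZMod q)ˣ, ∑ t : (ZMod q)ˣ,
        (ψ t : K) • (φ ((1 + t) * u) - Z u (t * u)) = 0 := by
      refine Eq.trans (Finset.sum_congr rfl fun u _ => ?_) hsum
      refine Eq.trans (Finset.sum_congr rfl fun t _ => ?_)
        (Equiv.sum_comp (Equiv.mulRight u) (fun v : (ZMod q)ˣ =>
          ((ψ v : K) * twistWeight q ψ u) • (φ ((u : ZMod q) + v) - Z u v)))
      simp [twistWeight, add_mul]
    rw [Finset.sum_comm] at h2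
    simp only [smul_sub, Finset.sum_sub_distrib, ← Finset.smul_sum, hE] at h2
    rw [sub_eq_zero] at h2
    rw [h2, hY, Finset.smul_sum]
    exact congrArg₂ (· - ·) (Finset.sum_congr rfl fun t _ => smul_comm _ _ _) rfl
  set U : V := ∑ u : (ZMod q)ˣ, φ u with hU
  have hleft : ∑ t, (ψ t : K) • ∑ u : (ZMod q)ˣ, φ ((1 + t) * u) =
      (ψ (-1) : K) • (((q : K) - 1) • φ 0 - U) := by
    have hz : ∑ t : (ZMod q)ˣ, (ψ t : K) • U = 0 := by
      rw [← Finset.sum_smul, show ∑ v : (ZMod q)ˣ, (ψ v : K) = 0 from ?_, zero_smul]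
      refine sum_hom_units_eq_zero ((Units.coeHom K).comp ψ) fun h1 => hψ (MonoidHom.ext fun u => ?_)
      exact Units.ext (by simpa using DFunLike.congr_fun h1 u)
    rw [← sub_zero (Finset.sum _ _), ← hz, ← Finset.sum_sub_distrib]
    rw [Finset.sum_eq_single (-1 : (ZMod q)ˣ)]
    · rw [← smul_sub]
      congr 2
      simp only [Units.val_neg, Units.val_one, add_neg_cancel, zero_mul, Finset.sum_const,
        Finset.card_univ, ZMod.card_units_eq_totient, Nat.totient_prime hq]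
      rw [← Nat.cast_smul_eq_nsmul K, Nat.cast_sub hq.one_le, Nat.cast_one]
    · intro t _ ht
      have h1 : (1 : ZMod q) + t ≠ 0 := fun h1 =>
        ht (Units.ext (by rw [Units.val_neg, Units.val_one]; exact eq_neg_of_add_eq_zero_right h1))
      rw [hU, ← Equiv.sum_comp (Equiv.mulLeft (Units.mk0 _ h1)) (fun u : (ZMod q)ˣ => φ u)]
      simp
    · exact fun h1 => absurd (Finset.mem_univ _) h1
  have hφ0 : φ 0 = cf (levelDown γ) := by
    refine congrArg cf (Subtype.ext (Subtype.ext ?_))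
    refine matMul_right_cancel (δ := offsetRep q 0)
      (by simp [offsetRep, Matrix.det_fin_two_of, hq.ne_zero]) ?_
    have h0 := hmat γ 0
    rw [zero_mul] at h0
    rw [← h0, coe_levelDown]
    have : offsetRep q (0 : ZMod q) = (q : ℤ) • (1 : M2Z) := by
      ext i j; fin_cases i <;> fin_cases j <;> simp [offsetRep]
    rw [this, Matrix.smul_mul, Matrix.mul_smul, one_mul, mul_one]
  have hfsum : (f : Gamma0 L → V) γ' = ∑ s, φ s := by
    rw [hf, CosetSystem.transferCocycles_apply]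
    let π : ZMod q → HeckeIdx L q := fun s =>
      ⟨some ⟨s.val, s.val_lt⟩, fun h1 => (Option.some_ne_none _ h1).elim⟩
    have hπ : Function.Bijective π := by
      refine ⟨fun s t hst => ?_, ?_⟩
      · simp only [π, Subtype.mk.injEq, Option.some.injEq, Fin.mk.injEq] at hst
        exact ZMod.val_injective _ hst
      · rintro ⟨_ | j, hj⟩
        · exact absurd hqL (hj rfl)
        · exact ⟨((j : ℕ) : ZMod q), Subtype.ext (congrArg some (Fin.ext
            (ZMod.val_natCast_of_lt j.isLt)))⟩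
    refine (Fintype.sum_bijective π hπ _ _ fun s => ?_).symm
    have hw : heckeWeight χ ⟨q, hq⟩ (π s) = (1 : K) := by simp [heckeWeight, heckeUnit, π]
    rw [hw, one_smul]
    refine congrArg cf ((bettiHeckeSystem L ⟨q, hq⟩).next_elt_eq_of_eq
      (j := π (s * (e γ : ZMod q) ^ 2)) ?_).2.symm
    have hD : ∀ t : ZMod q, heckeRepInt q (some ⟨t.val, t.val_lt⟩) * diagQ q = offsetRep q t := by
      intro t
      simp [heckeRepInt, diagQ, offsetRep]
    refine matMul_right_cancel (δ := diagQ q)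
      (by simp [diagQ, Matrix.det_fin_two_of, hq.ne_zero]) ?_
    show heckeRepInt q (some ⟨s.val, s.val_lt⟩) * _ * diagQ q = _ * heckeRepInt q (some _) * diagQ q
    rw [Matrix.mul_assoc, ← hrel, ← Matrix.mul_assoc, hD, Matrix.mul_assoc _ _ (diagQ q), hD]
    exact hmat γ s
  have hXγ : X γ = (nebenChar χ γ' : K) := by
    have h11 : (γ : SL(2, ℤ)) 1 1 = (γ' : SL(2, ℤ)) 1 1 := by
      have := congrFun (congrFun hrel 1) 1
      simpa [diagQ, Matrix.mul_apply, Fin.sum_univ_two] using this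
    simp only [X, nebenChar, MonoidHom.comp_apply]
    congr 2
    exact Units.ext (by rw [coe_gamma0UnitsHom, coe_gamma0UnitsHom, coe_levelDown, h11])
  show cf (levelDown γ) = _ • (f : Gamma0 L → V) γ' + ((nebenChar χ γ' : K) • y - y)
  rw [← hφ0, ← hXγ, hfsum, sum_univ_eq_zero_add_units φ, ← hU]
  rw [hleft] at hmain
  have hm1 : (ψ (-1) : K) ≠ 0 := Units.ne_zero _
  have h3 := congrArg (fun z => (q : K)⁻¹ • ((ψ (-1) : K))⁻¹ • z) hmain
  simp only [inv_smul_smul₀ hm1] at h3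
  have h4 : (q : K)⁻¹ • (((q : K) - 1) • φ 0 - U) = φ 0 - (q : K)⁻¹ • (φ 0 + U) := by
    rw [sub_smul, one_smul, smul_sub, smul_sub, inv_smul_smul₀ hq0, smul_add]
    abel
  rw [h4, smul_sub, smul_sub, smul_comm _ (X γ), smul_comm _ (X γ), ← hy] at h3
  rw [← h3]
  abel

end identity

/-- The lower unipotent matrix `(1 0; m 1)`. -/
def lowerSL (m : ℤ) : SL(2, ℤ) := ⟨!![1, 0; m, 1], by simp [Matrix.det_fin_two_of]⟩

@[simp] theorem coe_lowerSL (m : ℤ) : (lowerSL m : M2Z) = !![1, 0; m, 1] := rfl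

theorem lowerSL_inv (m : ℤ) : (lowerSL m)⁻¹ = lowerSL (-m) :=
  inv_eq_of_mul_eq_one_right (Subtype.ext (by
    rw [Matrix.SpecialLinearGroup.coe_mul, coe_lowerSL, coe_lowerSL, Matrix.mul_fin_two]
    ext i j; fin_cases i <;> fin_cases j <;> simp))

theorem diagQ_mul_lowerSL (q : ℕ) (m : ℤ) :
    diagQ q * (lowerSL ((q : ℤ) * m) : M2Z) = (lowerSL m : M2Z) * diagQ q := by
  rw [coe_lowerSL, coe_lowerSL, diagQ, Matrix.mul_fin_two, Matrix.mul_fin_two]
  ext i j; fin_cases i <;> fin_cases j <;> simp [mul_comm]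

section injective

variable {L q : ℕ} [NeZero L] [Fact q.Prime] {K : Type} [Field K] [CharZero K]
  {V : Type} [AddCommGroup V] [Module K V] {χ : (ZMod L)ˣ →* Kˣ} {ψ : (ZMod q)ˣ →* Kˣ}

omit [NeZero L] [CharZero K] in
theorem nebenChar_of_mem_Gamma (δ : Gamma0 L) (hδ : (δ : SL(2, ℤ)) ∈ Gamma L) :
    nebenChar χ δ = 1 := by
  have : gamma0UnitsHom L δ = 1 := Units.ext (by
    rw [coe_gamma0UnitsHom, (Gamma_mem.1 hδ).2.2.2, Units.val_one])
  simp [nebenChar, this]

omit [NeZero L] [Fact q.Prime] in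
theorem exists_diagQ_conj (γ : Gamma0 (L * q)) : ∃ γ' : Gamma0 L,
    diagQ q * ((γ : SL(2, ℤ)) : M2Z) = ((γ' : SL(2, ℤ)) : M2Z) * diagQ q := by
  obtain ⟨k, hk⟩ : (L * q : ℤ) ∣ (γ : SL(2, ℤ)) 1 0 := by exact_mod_cast dvd_apply_one_zero γ
  refine ⟨⟨⟨!![(γ : SL(2, ℤ)) 0 0, (q : ℤ) * (γ : SL(2, ℤ)) 0 1; (L : ℤ) * k,
    (γ : SL(2, ℤ)) 1 1], ?_⟩, mem_Gamma0_iff_dvd.2 (by simp)⟩, ?_⟩
  · rw [Matrix.det_fin_two_of]
    linear_combination coe_entries_det (γ : SL(2, ℤ)) + ((γ : SL(2, ℤ)) 0 1) * hk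
  · ext i j
    fin_cases i <;> fin_cases j <;> simp [diagQ, Matrix.mul_apply, Fin.sum_univ_two, mul_comm]
    linear_combination hk

omit [NeZero L] in
theorem exists_of_mem_Gamma (hqL : q ∣ L) (δ : SL(2, ℤ)) (hδ : δ ∈ Gamma L) :
    ∃ γ : Gamma0 (L * q), nebenChar χ (levelDown γ) = 1 ∧
      diagQ q * ((γ : SL(2, ℤ)) : M2Z) = (δ : M2Z) * diagQ q := by
  obtain ⟨h00, h01, h10, h11⟩ := Gamma_mem.1 hδ
  obtain ⟨b, hb⟩ : (q : ℤ) ∣ δ 0 1 :=
    (Int.natCast_dvd_natCast.2 hqL).trans ((ZMod.intCast_zmod_eq_zero_iff_dvd _ _).1 h01)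
  obtain ⟨k, hk⟩ := (ZMod.intCast_zmod_eq_zero_iff_dvd _ _).1 h10
  refine ⟨⟨⟨!![δ 0 0, b; (q : ℤ) * δ 1 0, δ 1 1], ?_⟩, mem_Gamma0_iff_dvd.2 ?_⟩, ?_, ?_⟩
  · rw [Matrix.det_fin_two_of]
    linear_combination coe_entries_det δ + δ 1 0 * hb
  · show ((L * q : ℕ) : ℤ) ∣ (q : ℤ) * δ 1 0
    rw [hk]
    exact ⟨k, by push_cast; ring⟩
  · have : gamma0UnitsHom L (levelDown (⟨⟨!![δ 0 0, b; (q : ℤ) * δ 1 0, δ 1 1], by
        rw [Matrix.det_fin_two_of]
        linear_combination coe_entries_det δ + δ 1 0 * hb⟩, mem_Gamma0_iff_dvd.2 (by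
          show ((L * q : ℕ) : ℤ) ∣ (q : ℤ) * δ 1 0
          rw [hk]
          exact ⟨k, by push_cast; ring⟩)⟩ : Gamma0 (L * q))) = 1 := Units.ext (by
      rw [coe_gamma0UnitsHom, coe_levelDown, Units.val_one]
      exact h11)
    simp [nebenChar, this]
  · ext i j
    fin_cases i <;> fin_cases j <;> simp [diagQ, Matrix.mul_apply, Fin.sum_univ_two, mul_comm]
    linear_combination -hb

/-- **Injectivity of the twist.** -/
theorem bettiTwist_injective (hqL : q ∣ L) (hq2 : ¬ q ^ 2 ∣ L) (hψ : ψ ≠ 1)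
    (hχ : ∃ (n : ℤ) (t : (ZMod L)ˣ), (t : ZMod L) = n ∧ ((L / q : ℕ) : ℤ) ∣ n - 1 ∧ χ t ≠ 1) :
    Function.Injective (bettiTwist L q V hqL χ ψ) := by
  classical
  have hq : q.Prime := Fact.out
  refine (injective_iff_map_eq_zero _).2 fun z hz => ?_
  obtain ⟨c, rfl⟩ := Submodule.Quotient.mk_surjective _ z
  rw [bettiTwist, CosetSystem.transfer_mk, Submodule.Quotient.mk_eq_zero] at hz
  obtain ⟨x, hx⟩ := mem_bettiBoundaries.1 hz
  simp only [CosetSystem.transferCocycles_apply] at hx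
  obtain ⟨g, hg, hrel⟩ := exists_pullback_of_twist_eq_cobdry hqL hψ c x hx
  set M := L / q with hM
  have hLM : L = q * M := (Nat.mul_div_cancel' hqL).symm
  have hcop : Nat.Coprime q M := (hq.coprime_iff_not_dvd).2 fun h1 =>
    hq2 (by rw [pow_two, hLM]; exact Nat.mul_dvd_mul_left q h1)
  have hicop : IsCoprime (q : ℤ) (M : ℤ) := Nat.isCoprime_iff_coprime.2 hcop
  let φ : SL(2, ℤ) → V := fun δ => if h1 : δ ∈ Gamma0 L then g ⟨δ, h1⟩ else 0
  have hmem : ∀ {δ : SL(2, ℤ)}, δ ∈ Gamma L → δ ∈ Gamma0 L := fun {δ} h1 =>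
    Gamma0_mem.2 (Gamma_mem.1 h1).2.2.1
  let S : Subgroup SL(2, ℤ) :=
    { carrier := {k | ∀ δ ∈ Gamma L, φ (k * δ * k⁻¹) = φ δ}
      one_mem' := fun δ _ => by simp
      mul_mem' := fun {a b} ha hb δ hδ => by
        rw [show a * b * δ * (a * b)⁻¹ = a * (b * δ * b⁻¹) * a⁻¹ by group,
          ha _ ((Gamma_normal L).conj_mem δ hδ b), hb δ hδ]
      inv_mem' := fun {a} ha δ hδ => by
        have := ha (a⁻¹ * δ * a⁻¹⁻¹) ((Gamma_normal L).conj_mem δ hδ a⁻¹)
        rw [show a * (a⁻¹ * δ * a⁻¹⁻¹) * a⁻¹ = δ by group] at this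
        exact this.symm }
  have hK1 : ∀ (k : Gamma0 L) (δ : SL(2, ℤ)), δ ∈ Gamma L →
      φ ((k : SL(2, ℤ)) * δ * (k : SL(2, ℤ))⁻¹) = (nebenChar χ k : K) • φ δ := by
    intro k δ hδ
    have h1 := hmem ((Gamma_normal L).conj_mem δ hδ (k : SL(2, ℤ)))
    simp only [φ, dif_pos h1, dif_pos (hmem hδ)]
    exact cocycle_conj (nebenChar χ) g hg k ⟨δ, hmem hδ⟩ (nebenChar_of_mem_Gamma _ hδ)
  have hupper : ∀ i : ℤ, (upperElt L i : SL(2, ℤ)) ∈ S := fun i δ hδ => by
    rw [hK1 _ δ hδ, nebenChar_upperElt, Units.val_one, one_smul]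
  have hlower : ∀ j : ℤ, lowerSL ((M : ℤ) * j) ∈ S := by
    intro j δ hδ
    obtain ⟨γ, hγχ, hγ⟩ := exists_of_mem_Gamma (χ := χ) hqL δ hδ
    let k : Gamma0 L := ⟨lowerSL ((L : ℤ) * j), mem_Gamma0_iff_dvd.2 (by simp [lowerSL])⟩
    have hk : nebenChar χ k = 1 := by
      have : gamma0UnitsHom L k = 1 := Units.ext (by simp [k, lowerSL])
      simp [nebenChar, this]
    let γ2 : Gamma0 (L * q) := ⟨(k : SL(2, ℤ)) * (γ : SL(2, ℤ)) * (k : SL(2, ℤ))⁻¹, by
      obtain ⟨a, ha⟩ := dvd_apply_one_zero γ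
      refine mem_Gamma0_iff_dvd.2 ?_
      simp only [k, lowerSL_inv, Matrix.SpecialLinearGroup.coe_mul, coe_lowerSL]
      rw [Matrix.eta_fin_two ((γ : SL(2, ℤ)) : M2Z), Matrix.mul_fin_two, Matrix.mul_fin_two]
      show ((L * q : ℕ) : ℤ) ∣ ((L : ℤ) * j * (γ : SL(2, ℤ)) 0 0 + 1 * (γ : SL(2, ℤ)) 1 0) * 1 +
        ((L : ℤ) * j * (γ : SL(2, ℤ)) 0 1 + 1 * (γ : SL(2, ℤ)) 1 1) * (-((L : ℤ) * j))
      obtain ⟨q', hq'⟩ : (q : ℤ) ∣ (γ : SL(2, ℤ)) 0 0 - (γ : SL(2, ℤ)) 1 1 := by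
        have e := congrArg (fun N : M2Z => N 0 0) hγ
        have e' := congrArg (fun N : M2Z => N 1 1) hγ
        simp [diagQ, Matrix.mul_apply, Fin.sum_univ_two] at e e'
        obtain ⟨h00, -, -, h11⟩ := Gamma_mem.1 hδ
        have hqa : ((δ 0 0 : ℤ) : ZMod q) = 1 := by
          have := congrArg (ZMod.castHom hqL (ZMod q)) h00
          rwa [map_intCast, map_one] at this
        have hqd : ((δ 1 1 : ℤ) : ZMod q) = 1 := by
          have := congrArg (ZMod.castHom hqL (ZMod q)) h11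
          rwa [map_intCast, map_one] at this
        have hq0 : (q : ℤ) ≠ 0 := Int.natCast_ne_zero.2 hq.ne_zero
        rw [← ZMod.intCast_zmod_eq_zero_iff_dvd, mul_left_cancel₀ hq0 (e.trans (mul_comm _ _)),
          e']
        push_cast
        rw [hqa, hqd, sub_self]
      obtain ⟨l, hl⟩ : (q : ℤ) ∣ (L : ℤ) := Int.natCast_dvd_natCast.2 hqL
      refine ⟨a + j * q' - l * j ^ 2 * (γ : SL(2, ℤ)) 0 1, ?_⟩
      push_cast at ha ⊢
      linear_combination ha + (L : ℤ) * j * hq' - (L : ℤ) * j ^ 2 * (γ : SL(2, ℤ)) 0 1 * hl⟩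
    have hUδ : diagQ q * ((γ2 : SL(2, ℤ)) : M2Z) =
        ((lowerSL ((M : ℤ) * j) * δ * (lowerSL ((M : ℤ) * j))⁻¹ : SL(2, ℤ)) : M2Z) * diagQ q := by
      simp only [γ2, k, lowerSL_inv, Matrix.SpecialLinearGroup.coe_mul]
      have e1 : (L : ℤ) * j = (q : ℤ) * ((M : ℤ) * j) := by rw [hLM]; push_cast; ring
      have e2 : -((q : ℤ) * ((M : ℤ) * j)) = (q : ℤ) * (-((M : ℤ) * j)) := by ring
      rw [e1, e2, ← Matrix.mul_assoc, ← Matrix.mul_assoc, diagQ_mul_lowerSL,
        Matrix.mul_assoc _ (diagQ q), hγ, ← Matrix.mul_assoc, Matrix.mul_assoc _ (diagQ q),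
        diagQ_mul_lowerSL, ← Matrix.mul_assoc]
    have h1 := hmem ((Gamma_normal L).conj_mem δ hδ (lowerSL ((M : ℤ) * j)))
    simp only [φ, dif_pos h1, dif_pos (hmem hδ)]
    rw [← hrel γ2 ⟨_, h1⟩ hUδ, ← hrel γ ⟨δ, hmem hδ⟩ hγ]
    have : levelDown γ2 = k * levelDown γ * k⁻¹ := Subtype.ext rfl
    rw [this, cocycle_conj (nebenChar χ) (c : Gamma0 L → V)
      (fun a b => bettiCocycles.map_mul c a b) k _ hγχ, hk, Units.val_one, one_smul]
  obtain ⟨n, t, hn, hn1, htχ⟩ := hχ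
  have hnq : IsUnit (n : ZMod q) := by
    have := (ZMod.unitsMap hqL t).isUnit
    rwa [ZMod.unitsMap_val, hn, ZMod.cast_intCast hqL] at this
  have hMq : IsUnit ((M : ℕ) : ZMod q) := (ZMod.isUnit_iff_coprime _ _).2 hcop.symm
  obtain ⟨j1, hj1⟩ : ∃ j1 : ℤ, ((M : ℕ) : ZMod q) * j1 = 1 :=
    ⟨((((M : ℕ) : ZMod q))⁻¹).val, by simpa using ZMod.mul_inv_of_unit _ hMq⟩
  obtain ⟨a', ha'⟩ : ∃ a' : ℤ, (n : ZMod q) * a' = -1 :=
    ⟨(-((n : ZMod q))⁻¹).val, by simpa using ZMod.mul_inv_of_unit _ hnq⟩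
  set y1 : ℤ := (M : ℤ) * j1 with hy1
  set i2 : ℤ := n - 1 with hi2
  set y2 : ℤ := (M : ℤ) * (j1 * a') with hy2
  set k : SL(2, ℤ) := lowerSL y1 * (upperElt L i2 : SL(2, ℤ)) * lowerSL y2 with hk
  have hkS : k ∈ S := mul_mem (mul_mem (hlower j1) (hupper i2)) (hlower _)
  have hk10 : k 1 0 = y1 + (y1 * i2 + 1) * y2 := by
    rw [hk, Matrix.SpecialLinearGroup.coe_mul, Matrix.SpecialLinearGroup.coe_mul, coe_lowerSL,
      coe_upperElt, coe_lowerSL, Matrix.mul_fin_two, Matrix.mul_fin_two]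
    simp
  have hk11 : k 1 1 = y1 * i2 + 1 := by
    rw [hk, Matrix.SpecialLinearGroup.coe_mul, Matrix.SpecialLinearGroup.coe_mul, coe_lowerSL,
      coe_upperElt, coe_lowerSL, Matrix.mul_fin_two, Matrix.mul_fin_two]
    simp
  have hy1q : (y1 : ZMod q) = 1 := by rw [hy1]; push_cast; exact hj1
  have hy2q : (y2 : ZMod q) = a' := by
    rw [hy2]; push_cast; rw [← mul_assoc, hj1, one_mul]
  have hkL : k ∈ Gamma0 L := by
    refine mem_Gamma0_iff_dvd.2 ?_
    rw [hk10, hLM]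
    push_cast
    refine hicop.mul_dvd ?_ ?_
    · rw [← ZMod.intCast_zmod_eq_zero_iff_dvd]
      push_cast
      rw [hy1q, hy2q, hi2]
      push_cast
      linear_combination ha'
    · exact dvd_add ⟨j1, rfl⟩ ((dvd_mul_right _ _).mul_left _)
  have hkt : gamma0UnitsHom L ⟨k, hkL⟩ = t := by
    refine Units.ext ?_
    rw [coe_gamma0UnitsHom, hn]
    rw [← sub_eq_zero, ← Int.cast_sub, ZMod.intCast_zmod_eq_zero_iff_dvd]
    show (L : ℤ) ∣ k 1 1 - n
    rw [hk11, hLM]
    push_cast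
    refine hicop.mul_dvd ?_ ?_
    · rw [← ZMod.intCast_zmod_eq_zero_iff_dvd]
      push_cast
      rw [hy1q, hi2]
      push_cast
      ring
    · have h1 : (M : ℤ) ∣ y1 * i2 := ⟨j1 * i2, by rw [hy1]; ring⟩
      have h2 := dvd_sub h1 hn1
      rwa [show y1 * i2 + 1 - n = y1 * i2 - (n - 1) by ring]
  have hφ0 : ∀ δ ∈ Gamma L, φ δ = 0 := by
    intro δ hδ
    have h1 := hK1 ⟨k, hkL⟩ δ hδ
    rw [hkS δ hδ, nebenChar, MonoidHom.comp_apply, hkt] at h1
    have h2 : ((χ t : K) - 1) • φ δ = 0 := by rw [sub_smul, one_smul, ← h1, sub_self]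
    exact (smul_eq_zero.1 h2).resolve_left (sub_ne_zero.2 fun h3 => htχ (Units.ext h3))
  obtain ⟨v, hv⟩ := exists_cobdry_of_finiteIndex (nebenChar χ) g hg
    ((Gamma L).subgroupOf (Gamma0 L)) fun δ hδ => by
      have := hφ0 (δ : SL(2, ℤ)) hδ
      simp only [φ] at this
      rwa [dif_pos δ.2] at this
  have : NeZero (L * q) := ⟨mul_ne_zero (NeZero.ne L) hq.ne_zero⟩
  obtain ⟨v', hv'⟩ := exists_cobdry_of_finiteIndex (nebenChar χ)
    (fun γ => (c : Gamma0 L → V) γ - ((nebenChar χ γ : K) • v - v))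
    (fun a b => by
      simp only [bettiCocycles.map_mul, map_mul, Units.val_mul, smul_sub, smul_smul]
      abel)
    ((Gamma0 (L * q)).subgroupOf (Gamma0 L)) fun γ hγ => by
      obtain ⟨γ', hγ'⟩ := exists_diagQ_conj (⟨(γ : SL(2, ℤ)), hγ⟩ : Gamma0 (L * q))
      have hd : levelDown (⟨(γ : SL(2, ℤ)), hγ⟩ : Gamma0 (L * q)) = γ := Subtype.ext rfl
      have h1 := hrel _ γ' hγ'
      rw [hd, hv] at h1
      have h11 : (γ : SL(2, ℤ)) 1 1 = (γ' : SL(2, ℤ)) 1 1 := by
        have := congrFun (congrFun hγ' 1) 1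
        simpa [diagQ, Matrix.mul_apply, Fin.sum_univ_two] using this
      have h2 : nebenChar χ γ' = nebenChar χ γ := by
        simp only [nebenChar, MonoidHom.comp_apply]
        exact congrArg χ (Units.ext (by rw [coe_gamma0UnitsHom, coe_gamma0UnitsHom, h11]))
      rw [h1, h2, sub_self]
  rw [Submodule.Quotient.mk_eq_zero]
  refine mem_bettiBoundaries.2 ⟨v + v', fun γ => ?_⟩
  have h1 := hv' γ
  rw [sub_eq_iff_eq_add] at h1
  rw [h1, smul_add]
  abel

end injective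

end FermatLib.Modular.Twist

end
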