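import Fermat.Agent.Modular.PeriodPairInjective
import Fermat.Agent.Modular.Gamma0Homs
import Fermat.Prelude.Def_ModularCurve_GenusNumerics

/-!
Eichler–Shimura: `S₂ × S₂ ≃ Hom_par(Γ₀(N), ℂ)`, from injectivity and the dimension count.
-/

set_option autoImplicit false

noncomputable section

open CongruenceSubgroup ModularCurve ModularCurve.Period
open scoped MatrixGroups

namespace FermatLib.Modular

variable (N : ℕ) [NeZero N]

instance finite_parabolicHoms_complex :
    Module.Finite ℂ (parabolicHoms ℂ (Gamma0 N) ℂ) :=
  Module.Finite.equiv (parabolicHomsEquiv N ℂ ℂ).symm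

/-- `periodHomPair` with values in the parabolic homomorphisms. -/
def periodHomPairPar :
    (CuspForm (Gamma0 N) 2 × CuspForm (Gamma0 N) 2) →ₗ[ℂ] parabolicHoms ℂ (Gamma0 N) ℂ :=
  (periodHomPair N).codRestrict _ fun x ↦ range_periodHomPair_le ⟨x, rfl⟩

theorem periodHomPairPar_injective : Function.Injective (periodHomPairPar N) :=
  fun _ _ h ↦ periodHomPair_injective (congrArg Subtype.val h)

theorem finiteDimensional_cuspForm_two : FiniteDimensional ℂ (CuspForm (Gamma0 N) 2) :=
  Module.Finite.of_injective
    ((periodHomPairPar N).comp (LinearMap.inl ℂ _ _))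
    ((periodHomPairPar_injective N).comp LinearMap.inl_injective)

theorem two_mul_finrank_le_cuspRank :
    2 * Module.finrank ℂ (CuspForm (Gamma0 N) 2) ≤ cuspRank N := by
  have := finiteDimensional_cuspForm_two N
  rw [two_mul, ← Module.finrank_prod, ← finrank_parabolicHoms_gamma0 N ℂ]
  exact LinearMap.finrank_le_finrank_of_injective (periodHomPairPar_injective N)

/-- Half of the dimension formula: `dim S₂(Γ₀(N)) ≤ genusFormula N`. -/
theorem finrank_cuspForm_two_le_genusFormula :
    (Module.finrank ℂ (CuspForm (Gamma0 N) 2) : ℚ) ≤ genusFormula N := by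
  have h : ((2 * Module.finrank ℂ (CuspForm (Gamma0 N) 2) : ℕ) : ℚ) ≤ cuspRank N := by
    exact_mod_cast two_mul_finrank_le_cuspRank N
  rw [cast_cuspRank] at h
  push_cast at h
  linarith

/-- Surjectivity follows from the dimension formula for `S₂(Γ₀(N))`. -/
theorem range_periodHomPair_eq_of_finrank
    (h : (Module.finrank ℂ (CuspForm (Gamma0 N) 2) : ℚ) = genusFormula N) :
    LinearMap.range (periodHomPair N) = parabolicHoms ℂ (Gamma0 N) ℂ := by
  have := finiteDimensional_cuspForm_two N
  refine Submodule.eq_of_le_of_finrank_eq (range_periodHomPair_le (N := N)) ?_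
  rw [LinearMap.finrank_range_of_inj (periodHomPair_injective (N := N)), Module.finrank_prod,
    finrank_parabolicHoms_gamma0]
  have h2 := cast_cuspRank N
  rw [← h] at h2
  have h3 : cuspRank N = 2 * Module.finrank ℂ (CuspForm (Gamma0 N) 2) := by exact_mod_cast h2
  omega

end FermatLib.Modular

end
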