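import Fermat.Agent.Modular.PeterssonForms
import Fermat.Agent.Modular.EichlerShimura
import Fermat.Prelude.Def_CuspForm_HeckeAlgebra
import Mathlib.LinearAlgebra.Eigenspace.Basic

/-!
# Self-adjointness of the good Hecke operators

For `ℓ ∤ N` the operator `T ℓ` on `S₂(Γ₀(N))` is symmetric for the Petersson product; hence it is
semisimple and the Hecke algebra generated by good operators is reduced.
-/

set_option autoImplicit false

noncomputable section

open CongruenceSubgroup UpperHalfPlane MeasureTheory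
open scoped MatrixGroups ModularForm ComplexConjugate

namespace FermatLib.Modular

variable {N : ℕ} [NeZero N]

theorem peterssonProd_add_right (f g h : CuspForm (Gamma0 N) 2) :
    peterssonProd f (g + h) = peterssonProd f g + peterssonProd f h := by
  rw [peterssonProd, FunLike.coe_add, petersson_add_right]
  exact peterssonIntegral_add (isPeterssonFun_petersson f g) (isPeterssonFun_petersson f h)

theorem peterssonProd_smul_right (c : ℂ) (f g : CuspForm (Gamma0 N) 2) :
    peterssonProd f (c • g) = c * peterssonProd f g := by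
  simp only [peterssonProd, peterssonIntegral, Finset.mul_sum]
  refine Finset.sum_congr rfl fun q _ => ?_
  rw [← integral_const_mul]
  congr 1
  funext τ
  simp only [petersson, FunLike.coe_smul, Pi.smul_apply, smul_eq_mul]
  ring

theorem peterssonProd_conj_symm (f g : CuspForm (Gamma0 N) 2) :
    (starRingEnd ℂ) (peterssonProd g f) = peterssonProd f g := by
  exact peterssonProd_conj f g

/-- The Petersson product is positive definite. -/
theorem peterssonProd_self_re_pos {f : CuspForm (Gamma0 N) 2} (hf : f ≠ 0) :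
    0 < (peterssonProd f f).re := by
  exact peterssonProd_self_pos hf

theorem eq_zero_of_peterssonProd_self {f : CuspForm (Gamma0 N) 2} (h : peterssonProd f f = 0) :
    f = 0 := by
  by_contra hf
  have := peterssonProd_self_re_pos hf
  rw [h] at this
  simp at this

theorem peterssonProd_add_left (f g h : CuspForm (Gamma0 N) 2) :
    peterssonProd (f + g) h = peterssonProd f h + peterssonProd g h := by
  rw [← peterssonProd_conj_symm (f + g) h, peterssonProd_add_right, map_add,
    peterssonProd_conj_symm, peterssonProd_conj_symm]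

theorem peterssonProd_smul_left (c : ℂ) (f g : CuspForm (Gamma0 N) 2) :
    peterssonProd (c • f) g = conj c * peterssonProd f g := by
  rw [← peterssonProd_conj_symm (c • f) g, peterssonProd_smul_right, map_mul,
    peterssonProd_conj_symm]

theorem peterssonProd_zero_right (f : CuspForm (Gamma0 N) 2) :
    peterssonProd f 0 = 0 := by
  simpa using peterssonProd_smul_right 0 f f

/-- `T ℓ` is the trace from level `ℓN` of the Atkin–Lehner translate. -/
theorem heckeTLin_eq_traceDown {ℓ : ℕ} [NeZero (ℓ * N)] (hℓ : ℓ.Prime) (hℓN : ¬ ℓ ∣ N)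
    (L : Newforms.ALData ℓ N) (h : N * 1 ∣ ℓ * N) (f : CuspForm (Gamma0 N) 2) :
    CuspForm.heckeTLin 2 hℓ hℓN f
      = Newforms.traceDown L hℓ rfl (Newforms.levelRaise (d := 1) h f) := by
  refine DFunLike.coe_injective ?_
  have hD : (!![(ℓ : ℤ), 0; 0, 1] : Matrix (Fin 2) (Fin 2) ℤ).det ≠ 0 := by
    simp [Matrix.det_fin_two_of, hℓ.ne_zero]
  have hg : (!![L.α, L.x; (N : ℤ) * L.z, (ℓ : ℤ) * L.w] : Matrix (Fin 2) (Fin 2) ℤ).det = 1 := by
    rw [Matrix.det_fin_two_of]
    linear_combination L.eq
  have hmul : L.mat = !![L.α, L.x; (N : ℤ) * L.z, (ℓ : ℤ) * L.w] * !![(ℓ : ℤ), 0; 0, 1] := by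
    ext i j
    fin_cases i <;> fin_cases j <;>
      simp [Newforms.ALData.mat, Matrix.mul_apply, Fin.sum_univ_two] <;> ring
  rw [CuspForm.coe_heckeTLin_apply, Newforms.coe_traceDown, Newforms.coe_atkinLehner,
    Newforms.levelRaise_one_apply, ModularForm.heckeT_eq_heckeU_add, hmul,
    Newforms.intGL_mul (by rw [hg]; exact one_ne_zero) hD, SlashAction.slash_mul,
    SlashInvariantFormClass.slash_action_eq f _ (Newforms.intGL_mem_Gamma0 hg (by simp)),
    ← Newforms.heckeDiagMatrix_eq_intGL hℓ.ne_zero, add_comm]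

/-- `T ℓ` is symmetric for the Petersson product when `ℓ ∤ N`. -/
theorem peterssonProd_heckeTLin {ℓ : ℕ} (hℓ : ℓ.Prime) (hℓN : ¬ ℓ ∣ N)
    (f g : CuspForm (Gamma0 N) 2) :
    peterssonProd (CuspForm.heckeTLin 2 hℓ hℓN f) g
      = peterssonProd f (CuspForm.heckeTLin 2 hℓ hℓN g) := by
  have : NeZero (ℓ * N) := ⟨mul_ne_zero hℓ.ne_zero (NeZero.ne N)⟩
  obtain ⟨L⟩ := Newforms.exists_alData (hℓ.coprime_iff_not_dvd.mpr hℓN)
  have h : N * 1 ∣ ℓ * N := by simp
  have key : ∀ u v : CuspForm (Gamma0 N) 2, peterssonProd (CuspForm.heckeTLin 2 hℓ hℓN u) v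
      = peterssonProd (Newforms.atkinLehner rfl L (Newforms.levelRaise (d := 1) h u))
          (Newforms.levelRaise (d := 1) h v) := fun u v => by
    rw [heckeTLin_eq_traceDown hℓ hℓN L h u, peterssonProd_traceDown hℓ rfl L]
  rw [← peterssonProd_conj_symm f, key, key, peterssonProd_conj_symm]
  conv_lhs =>
    arg 2
    rw [← Newforms.atkinLehner_atkinLehner rfl L (Newforms.levelRaise (d := 1) h g)]
  exact peterssonProd_atkinLehner rfl L _ _

/-- Every element of a Hecke algebra generated by good operators is symmetric. -/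
theorem peterssonProd_of_mem_heckeAlgebra {S : Set ℕ}
    (hS : ∀ q : ℕ, q.Prime → q ∣ N → q ∈ S)
    {x : Module.End ℂ (CuspForm (Gamma0 N) 2)} (hx : x ∈ CuspForm.heckeAlgebra N 2 S)
    (f g : CuspForm (Gamma0 N) 2) : peterssonProd (x f) g = peterssonProd f (x g) := by
  revert f g
  induction hx using Algebra.adjoin_induction with
  | mem x hx =>
    intro f g
    rcases hx with ⟨ℓ, hℓ, hℓN, -, rfl⟩ | ⟨q, hqN, hq, hqS, rfl⟩
    · exact peterssonProd_heckeTLin hℓ hℓN f g
    · exact absurd (hS q hq hqN) hqS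
  | algebraMap z =>
    intro f g
    rw [eq_intCast, Module.End.intCast_apply, Module.End.intCast_apply,
      ← Int.cast_smul_eq_zsmul ℂ, ← Int.cast_smul_eq_zsmul ℂ, peterssonProd_smul_left,
      peterssonProd_smul_right, map_intCast]
  | add x y _ _ hx hy =>
    intro f g
    rw [LinearMap.add_apply, LinearMap.add_apply, peterssonProd_add_left,
      peterssonProd_add_right, hx, hy]
  | mul x y hxm hym hx hy =>
    intro f g
    have hc : x * y = y * x :=
      congrArg Subtype.val (mul_comm (⟨x, hxm⟩ : CuspForm.heckeAlgebra N 2 S) ⟨y, hym⟩)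
    conv_rhs => rw [hc]
    rw [Module.End.mul_apply, Module.End.mul_apply, hx, hy]

/-- A generalised eigenvector of `T ℓ`, `ℓ ∤ N`, is an eigenvector. -/
theorem heckeTLin_apply_eq_smul_of_pow {ℓ : ℕ} (hℓ : ℓ.Prime) (hℓN : ¬ ℓ ∣ N) {c : ℂ}
    {n : ℕ} {f : CuspForm (Gamma0 N) 2}
    (h : ((CuspForm.heckeTLin 2 hℓ hℓN - c • (1 : Module.End ℂ (CuspForm (Gamma0 N) 2))) ^ n) f
      = 0) :
    CuspForm.heckeTLin 2 hℓ hℓN f = c • f := by
  set T : Module.End ℂ (CuspForm (Gamma0 N) 2) := CuspForm.heckeTLin 2 hℓ hℓN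
  have step : ∀ v, T (T v - c • v) = c • (T v - c • v) → T v = c • v := by
    intro v hv
    set u := T v - c • v with hu
    by_contra hne
    have hu0 : u ≠ 0 := sub_ne_zero.mpr hne
    have hp : peterssonProd u u ≠ 0 := fun h0 => hu0 (eq_zero_of_peterssonProd_self h0)
    have h1 := peterssonProd_heckeTLin hℓ hℓN u u
    rw [hv, peterssonProd_smul_left, peterssonProd_smul_right] at h1
    have hc : conj c = c := mul_right_cancel₀ hp h1
    have h2 := peterssonProd_heckeTLin hℓ hℓN v u
    rw [hv, show T v = u + c • v by rw [hu, sub_add_cancel], peterssonProd_add_left,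
      peterssonProd_smul_left, peterssonProd_smul_right, hc, add_eq_right] at h2
    exact hp h2
  induction n generalizing f with
  | zero =>
    rw [pow_zero, Module.End.one_apply] at h
    simp [h]
  | succ n ih =>
    rw [pow_succ, Module.End.mul_apply] at h
    have := ih h
    simp only [LinearMap.sub_apply, LinearMap.smul_apply, Module.End.one_apply] at this
    exact step f this

theorem maxGenEigenspace_heckeTLin {ℓ : ℕ} (hℓ : ℓ.Prime) (hℓN : ¬ ℓ ∣ N) (c : ℂ) :
    Module.End.maxGenEigenspace (CuspForm.heckeTLin 2 hℓ hℓN) c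
      = Module.End.eigenspace (CuspForm.heckeTLin 2 hℓ hℓN) c := by
  refine le_antisymm (fun f hf => ?_) ((Module.End.genEigenspace _ c).monotone le_top)
  obtain ⟨n, hn⟩ := (Module.End.mem_maxGenEigenspace _ c f).mp hf
  rw [Module.End.mem_eigenspace_iff]
  exact heckeTLin_apply_eq_smul_of_pow hℓ hℓN hn

theorem iSup_eigenspace_heckeTLin {ℓ : ℕ} (hℓ : ℓ.Prime) (hℓN : ¬ ℓ ∣ N) :
    ⨆ c : ℂ, Module.End.eigenspace (CuspForm.heckeTLin 2 hℓ hℓN :
      Module.End ℂ (CuspForm (Gamma0 N) 2)) c = ⊤ := by
  have : FiniteDimensional ℂ (CuspForm (Gamma0 N) 2) := finiteDimensional_cuspForm_two N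
  simp_rw [← maxGenEigenspace_heckeTLin hℓ hℓN]
  exact Module.End.iSup_maxGenEigenspace_eq_top _

/-- The good Hecke algebra is reduced. -/
theorem isReduced_heckeAlgebra {S : Set ℕ} (hS : ∀ q : ℕ, q.Prime → q ∣ N → q ∈ S) :
    IsReduced (CuspForm.heckeAlgebra N 2 S) := by
  refine isReduced_iff_pow_one_lt 2 one_lt_two |>.mpr fun x hx => Subtype.ext ?_
  refine LinearMap.ext fun f => eq_zero_of_peterssonProd_self ?_
  have h2 : (x : Module.End ℂ (CuspForm (Gamma0 N) 2))
      ((x : Module.End ℂ (CuspForm (Gamma0 N) 2)) f) = 0 := by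
    have := congrArg Subtype.val hx
    rw [SubmonoidClass.coe_pow, sq] at this
    exact LinearMap.congr_fun this f
  rw [peterssonProd_of_mem_heckeAlgebra hS x.2, h2, peterssonProd_zero_right]

end FermatLib.Modular
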