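import Fermat.Agent.Modular.HeckeAction
import Fermat.Agent.Modular.HeckeFinite
import Fermat.Agent.Basic.EigenformLift
import Mathlib.LinearAlgebra.Matrix.ToLinearEquiv
import Mathlib.LinearAlgebra.FreeModule.PID

/-!
# `S₂(Γ₀(N))` is the dual of its Hecke algebra
-/

set_option autoImplicit false

noncomputable section

open scoped MatrixGroups
open CongruenceSubgroup ModularCurve ModularCurve.Period ModularFormClass

namespace FermatLib.Modular

/-- Integer vectors which are independent over `ℤ` are independent over `ℂ`. -/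
theorem eq_zero_of_sum_intCast_eq_zero {κ ι : Type*} [Fintype κ] [Fintype ι] (v : κ → ι → ℤ)
    (hv : ∀ n : κ → ℤ, (∀ i, ∑ k, n k * v k i = 0) → n = 0) (c : κ → ℂ)
    (hc : ∀ i, ∑ k, c k * (v k i : ℂ) = 0) : c = 0 := by
  classical
  set G : Matrix κ κ ℤ := Matrix.of fun k l => ∑ i, v k i * v l i with hG
  have hdet : G.det ≠ 0 := by
    intro h
    obtain ⟨n, hn0, hn⟩ := Matrix.exists_vecMul_eq_zero_iff.2 h
    refine hn0 (hv n fun i => ?_)
    have h0 : ∑ i, (∑ k, n k * v k i) * (∑ k, n k * v k i) = 0 := by
      calc ∑ i, (∑ k, n k * v k i) * (∑ k, n k * v k i)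
          = ∑ l, (∑ k, n k * G k l) * n l := by
            simp only [hG, Matrix.of_apply, Finset.sum_mul, Finset.mul_sum]
            rw [Finset.sum_comm]
            refine Finset.sum_congr rfl fun l _ => ?_
            rw [Finset.sum_comm]
            refine Finset.sum_congr rfl fun k _ => Finset.sum_congr rfl fun i _ => by ring
        _ = 0 := Finset.sum_eq_zero fun l _ => by
            have := congrFun hn l
            simp only [Matrix.vecMul, dotProduct, Pi.zero_apply] at this
            rw [this, zero_mul]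
    exact mul_self_eq_zero.1 ((Finset.sum_eq_zero_iff_of_nonneg
      fun i _ => mul_self_nonneg _).1 h0 i (Finset.mem_univ i))
  by_contra hne
  have hvm : Matrix.vecMul c (G.map (Int.castRingHom ℂ)) = 0 := by
    funext l
    simp only [Matrix.vecMul, dotProduct, Matrix.map_apply, hG, Matrix.of_apply,
      eq_intCast, Int.cast_sum, Int.cast_mul, Finset.mul_sum, Pi.zero_apply]
    rw [Finset.sum_comm]
    refine Finset.sum_eq_zero fun i _ => ?_
    simp only [← mul_assoc]
    rw [← Finset.sum_mul, hc, zero_mul]
  have := Matrix.exists_vecMul_eq_zero_iff.1 ⟨c, hne, hvm⟩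
  rw [← RingHom.mapMatrix_apply, ← RingHom.map_det, eq_intCast, Int.cast_eq_zero] at this
  exact hdet this

variable (N : ℕ) [NeZero N]

local notation "TZ" => CuspForm.heckeAlgebra N 2 (∅ : Set ℕ)

/-- The pairing `(f, t) ↦ a₁ (t f)`. -/
def cuspFormHeckePairing : CuspForm (Gamma0 N) 2 →ₗ[ℂ] (TZ →+ ℂ) where
  toFun f :=
    { toFun := fun t => qCoeff ⇑((t : Module.End ℂ (CuspForm (Gamma0 N) 2)) f) 1
      map_zero' := by
        have h := Basic.qCoeff_cusp_smul (N := N) (k := 2) 0 (0 : CuspForm (Gamma0 N) 2) 1
        rw [zero_smul, zero_mul] at h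
        show qCoeff ⇑((0 : Module.End ℂ (CuspForm (Gamma0 N) 2)) f) 1 = 0
        rw [LinearMap.zero_apply]
        exact h
      map_add' := fun s t => by
        rw [← Basic.qCoeff_cusp_add]
        rfl }
  map_add' f g := AddMonoidHom.ext fun t => by
    show qCoeff ⇑((t : Module.End ℂ (CuspForm (Gamma0 N) 2)) (f + g)) 1 = _
    rw [map_add, Basic.qCoeff_cusp_add]
    rfl
  map_smul' c f := AddMonoidHom.ext fun t => by
    show qCoeff ⇑((t : Module.End ℂ (CuspForm (Gamma0 N) 2)) (c • f)) 1 = _
    rw [map_smul, Basic.qCoeff_cusp_smul]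
    rfl

@[simp]
theorem cuspFormHeckePairing_apply (f : CuspForm (Gamma0 N) 2) (t : TZ) :
    cuspFormHeckePairing N f t =
      qCoeff ⇑((t : Module.End ℂ (CuspForm (Gamma0 N) 2)) f) 1 := rfl

theorem qCoeff_eq_zero_of_pairing (n : ℕ) (f : CuspForm (Gamma0 N) 2)
    (hf : cuspFormHeckePairing N f = 0) : qCoeff ⇑f n = 0 := by
  induction n using Nat.strong_induction_on generalizing f with
  | _ n ih =>
    rcases Nat.lt_or_ge n 2 with hn | hn
    · interval_cases n
      · exact Basic.qCoeff_cusp_zero_index f
      · simpa using DFunLike.congr_fun hf (1 : TZ)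
    obtain ⟨p, hp, m, rfl⟩ := Nat.exists_prime_and_dvd (show n ≠ 1 by omega)
    have hm : m < p * m := by
      have := hp.two_le
      have : 0 < m := Nat.pos_of_ne_zero (by rintro rfl; omega)
      nlinarith
    have hT : ∀ s : TZ,
        cuspFormHeckePairing N ((s : Module.End ℂ (CuspForm (Gamma0 N) 2)) f) = 0 := fun s =>
      AddMonoidHom.ext fun t => by
        simpa using DFunLike.congr_fun hf (t * s)
    by_cases hN : p ∣ N
    · have := ih m hm _ (hT (CuspForm.heckeAlgebra.U hp hN (Set.notMem_empty _)))
      rw [CuspForm.heckeAlgebra.coe_U, Basic.qCoeff_heckeULin_apply hp hN, Nat.mul_comm] at this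
      exact this
    · have := ih m hm _ (hT (CuspForm.heckeAlgebra.T hp hN (Set.notMem_empty _)))
      rw [CuspForm.heckeAlgebra.coe_T, Basic.qCoeff_heckeTLin_two hp hN, Nat.mul_comm,
        ih (m / p) ((Nat.div_le_self m p).trans_lt hm) f hf] at this
      simpa using this

theorem cuspFormHeckePairing_injective : Function.Injective (cuspFormHeckePairing N) := by
  rw [injective_iff_map_eq_zero]
  exact fun f hf => Basic.cusp_eq_zero_of_qCoeff_eq_zero f
    fun n => qCoeff_eq_zero_of_pairing N n f hf

instance moduleFinite_heckeAlgebra_two : Module.Finite ℤ TZ := heckeAlgebra_moduleFinite N 2 ∅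

instance moduleFree_heckeAlgebra_two : Module.Free ℤ TZ := Module.free_of_finite_type_torsion_free'

/-- The rank of the Hecke algebra. -/
def heckeRank : ℕ := Module.finrank ℤ TZ

/-- An integral basis of the Hecke algebra. -/
def heckeBasis : Module.Basis (Fin (heckeRank N)) ℤ TZ := Module.finBasis ℤ TZ

/-- Integrally independent Hecke operators are independent over `ℂ` on cusp forms. -/
theorem heckeBasis_complex_indep (c : Fin (heckeRank N) → ℂ)
    (hc : ∀ f : CuspForm (Gamma0 N) 2,
      ∑ k, c k • (heckeBasis N k : Module.End ℂ (CuspForm (Gamma0 N) 2)) f = 0) : c = 0 := by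
  refine eq_zero_of_sum_intCast_eq_zero (ι := Fin (cuspRank N) × Fin (cuspRank N))
    (fun k x => (heckeCuspAct N ℤ ℤ (heckeBasis N k)
      ⟨cuspDualBasis N x.1, isCuspidalHom_cuspDualBasis N x.1⟩).1
        (Additive.ofMul (cuspBasisElt N x.2))) (fun n hn => ?_) c fun x => ?_
  · have h0 : ∑ k, n k • heckeBasis N k = 0 := by
      apply heckeCuspAct_injective N ℤ ℤ
      rw [map_zero]
      refine LinearMap.ext fun φ => ?_
      have hφ : φ = ∑ j, (φ.1 (Additive.ofMul (cuspBasisElt N j))) •
          (⟨cuspDualBasis N j, isCuspidalHom_cuspDualBasis N j⟩ :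
            cuspidalHoms ℤ (Gamma0 N) ℤ) := by
        refine Subtype.ext (AddMonoidHom.ext fun g => ?_)
        rw [IsCuspidalHom.eq_sum φ.2 g]
        simp [AddMonoidHom.finsetSum_apply, mul_comm]
      rw [hφ, map_sum, LinearMap.zero_apply]
      refine Finset.sum_eq_zero fun j _ => ?_
      rw [map_zsmul]
      refine smul_eq_zero_of_right _ (Subtype.ext ?_)
      refine IsCuspidalHom.ext_basis (Subtype.prop _) (fun γ _ => rfl) fun i => ?_
      simp only [map_sum, map_zsmul, LinearMap.sum_apply, LinearMap.smul_apply,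
        AddSubmonoidClass.coe_finsetSum, SetLike.val_smul, AddMonoidHom.finsetSum_apply,
        AddMonoidHom.smul_apply, smul_eq_mul, ZeroMemClass.coe_zero, AddMonoidHom.zero_apply]
      exact hn (j, i)
    funext k
    exact (Fintype.linearIndependent_iff.1 (heckeBasis N).linearIndependent n h0 k)
  · obtain ⟨⟨f, g⟩, hfg⟩ := (range_periodHomPair_eq N).ge
      (((isCuspidalHom_cuspDualBasis N x.1).comp (Int.castAddHom ℂ)).isParabolicHom)
    have key : ∀ k, ((((heckeCuspAct N ℤ ℤ (heckeBasis N k)
          ⟨cuspDualBasis N x.1, isCuspidalHom_cuspDualBasis N x.1⟩).1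
          (Additive.ofMul (cuspBasisElt N x.2)) : ℤ)) : ℂ) =
        periodHomPair N ((heckeBasis N k : Module.End ℂ (CuspForm (Gamma0 N) 2)) f,
          (heckeBasis N k : Module.End ℂ (CuspForm (Gamma0 N) 2)) g)
          (Additive.ofMul (cuspBasisElt N x.2)) := by
      intro k
      rw [← coe_heckeCuspAct_periodHomPair]
      simp only [hfg]
      rw [coe_heckeCuspAct_eq_int (R := ℂ)]
      exact (DFunLike.congr_fun (coe_heckeCuspAct_comp (R := ℤ) (heckeBasis N k)
        (Int.castAddHom ℂ) ⟨cuspDualBasis N x.1, isCuspidalHom_cuspDualBasis N x.1⟩)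
        (Additive.ofMul (cuspBasisElt N x.2))).symm
    simp only [key]
    have := congrArg₂ (fun a b => periodHomPair N (a, b) (Additive.ofMul (cuspBasisElt N x.2)))
      (hc f) (hc g)
    simp only [Prod.mk_zero_zero, map_zero, AddMonoidHom.zero_apply] at this
    rw [← this, show ((∑ k, c k • (heckeBasis N k : Module.End ℂ (CuspForm (Gamma0 N) 2)) f),
        (∑ k, c k • (heckeBasis N k : Module.End ℂ (CuspForm (Gamma0 N) 2)) g)) =
      ∑ k, c k • ((heckeBasis N k : Module.End ℂ (CuspForm (Gamma0 N) 2)) f,
        (heckeBasis N k : Module.End ℂ (CuspForm (Gamma0 N) 2)) g) from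
      Prod.ext (by simp [Prod.fst_sum]) (by simp [Prod.snd_sum]), map_sum,
      AddMonoidHom.finsetSum_apply]
    exact Finset.sum_congr rfl fun k _ => by rw [map_smul]; rfl

/-- Evaluation of additive functions on `T` at the integral basis. -/
def heckeHomsEquiv : (TZ →+ ℂ) ≃ₗ[ℂ] (Fin (heckeRank N) → ℂ) where
  toFun χ k := χ (heckeBasis N k)
  map_add' _ _ := rfl
  map_smul' _ _ := rfl
  invFun v := ((heckeBasis N).constr ℤ v).toAddMonoidHom
  left_inv χ := by
    have : (heckeBasis N).constr ℤ (fun k => χ (heckeBasis N k)) = χ.toIntLinearMap :=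
      (heckeBasis N).ext fun k => by simp
    exact AddMonoidHom.ext fun t => by
      show (heckeBasis N).constr ℤ (fun k => χ (heckeBasis N k)) t = χ t
      rw [this]; rfl
  right_inv v := funext fun k => (heckeBasis N).constr_basis ℤ v k

/-- `rank T = dim S₂`. -/
theorem heckeRank_eq_finrank_cuspForm :
    heckeRank N = Module.finrank ℂ (CuspForm (Gamma0 N) 2) := by
  have := finiteDimensional_cuspForm_two N
  apply le_antisymm
  · let B : (Fin (heckeRank N) → ℂ) →ₗ[ℂ] Module.Dual ℂ (CuspForm (Gamma0 N) 2) :=
      { toFun := fun c =>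
          { toFun := fun f => ∑ k, c k * cuspFormHeckePairing N f (heckeBasis N k)
            map_add' := fun f g => by simp [map_add, mul_add, Finset.sum_add_distrib]
            map_smul' := fun a f => by
              simp [map_smul, Finset.mul_sum, mul_left_comm] }
        map_add' := fun c d => LinearMap.ext fun f => by
          simp [add_mul, Finset.sum_add_distrib]
        map_smul' := fun a c => LinearMap.ext fun f => by
          simp [Finset.mul_sum, mul_assoc] }
    have hB : Function.Injective B := by
      rw [injective_iff_map_eq_zero]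
      intro c hc
      refine heckeBasis_complex_indep N c fun f => cuspFormHeckePairing_injective N ?_
      rw [map_zero, map_sum]
      refine AddMonoidHom.ext fun t => ?_
      have := LinearMap.congr_fun hc ((t : Module.End ℂ (CuspForm (Gamma0 N) 2)) f)
      simp only [B, LinearMap.coe_mk, AddHom.coe_mk, LinearMap.zero_apply] at this
      rw [AddMonoidHom.zero_apply, ← this, AddMonoidHom.finsetSum_apply]
      refine Finset.sum_congr rfl fun k _ => ?_
      rw [map_smul, AddMonoidHom.smul_apply, smul_eq_mul]
      congr 1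
      rw [cuspFormHeckePairing_apply, cuspFormHeckePairing_apply, ← Module.End.mul_apply,
        ← Module.End.mul_apply, ← MulMemClass.coe_mul, ← MulMemClass.coe_mul, mul_comm]
    simpa [Subspace.dual_finrank_eq] using LinearMap.finrank_le_finrank_of_injective hB
  · simpa using LinearMap.finrank_le_finrank_of_injective
      (f := (heckeHomsEquiv N).toLinearMap.comp (cuspFormHeckePairing N))
      ((heckeHomsEquiv N).injective.comp (cuspFormHeckePairing_injective N))

/-- `S₂(Γ₀(N)) ≅ Hom(T, ℂ)` by `f ↦ (t ↦ a₁ (t f))`. -/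
theorem cuspFormHeckePairing_bijective : Function.Bijective (cuspFormHeckePairing N) := by
  have := finiteDimensional_cuspForm_two N
  have hinj := (heckeHomsEquiv N).injective.comp (cuspFormHeckePairing_injective N)
  have := (LinearMap.injective_iff_surjective_of_finrank_eq_finrank
    (f := (heckeHomsEquiv N).toLinearMap.comp (cuspFormHeckePairing N))
    (by rw [Module.finrank_fin_fun, heckeRank_eq_finrank_cuspForm])).1 hinj
  refine ⟨cuspFormHeckePairing_injective N, fun χ => ?_⟩
  obtain ⟨f, hf⟩ := this (heckeHomsEquiv N χ)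
  exact ⟨f, (heckeHomsEquiv N).injective hf⟩

theorem cuspRank_eq_two_mul_heckeRank : cuspRank N = 2 * heckeRank N := by
  have := finiteDimensional_cuspForm_two N
  rw [heckeRank_eq_finrank_cuspForm, two_mul, ← Module.finrank_prod,
    ← LinearMap.finrank_range_of_inj (periodHomPair_injective (N := N)), range_periodHomPair_eq,
    finrank_parabolicHoms_gamma0]

end FermatLib.Modular

end
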