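import Fermat.Agent.Modular.WeightPoly
import Mathlib.NumberTheory.ModularForms.Basic
import Mathlib.LinearAlgebra.Matrix.FixedDetMatrices
import Mathlib.GroupTheory.Schreier
import Mathlib.RingTheory.Noetherian.Basic
import Mathlib.LinearAlgebra.Dual.Defs

/-!
Periods of weight `w + 2` cusp forms on `Γ₀(N)` with base point `I`: the cocycle, cycles and the
finitely generated lattice of functionals given by the cycles.
-/

set_option autoImplicit false

noncomputable section

open UpperHalfPlane hiding I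
open Matrix.SpecialLinearGroup CongruenceSubgroup
open scoped Manifold MatrixGroups ModularForm

namespace FermatLib.Modular

theorem slash_weight_add_two_apply (w : ℕ) {α : GL (Fin 2) ℝ} (hα : 0 < α.det.val) (f : ℍ → ℂ)
    (z : ℍ) :
    (f ∣[((w : ℤ) + 2)] α) z
      = f (α • z) * (α.det.val : ℂ) ^ (w + 1) / denom α z ^ (w + 2) := by
  rw [ModularForm.slash_apply, σ, if_pos hα, ContinuousAlgEquiv.refl_apply, abs_of_pos hα,
    show ((w : ℤ) + 2 - 1) = ((w + 1 : ℕ) : ℤ) by push_cast; ring, zpow_natCast,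
    show ((w : ℤ) + 2) = ((w + 2 : ℕ) : ℤ) by push_cast; ring, zpow_neg, zpow_natCast,
    div_eq_mul_inv]

theorem mdifferentiable_slash_pos (w : ℕ) {α : GL (Fin 2) ℝ} (hα : 0 < α.det.val) {f : ℍ → ℂ}
    (hf : MDiff f) : MDiff (f ∣[((w : ℤ) + 2)] α) := by
  have h := ((hf.comp (mdifferentiable_smul hα)).mul
    (mdifferentiable_denom_zpow α (-((w + 2 : ℕ) : ℤ)))).const_smul ((α.det.val : ℂ) ^ (w + 1))
  have he : (f ∣[((w : ℤ) + 2)] α) = fun z ↦ (α.det.val : ℂ) ^ (w + 1) •
      (f (α • z) * denom α z ^ (-((w + 2 : ℕ) : ℤ))) := by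
    funext z
    rw [slash_weight_add_two_apply w hα, zpow_neg, zpow_natCast, div_eq_mul_inv, smul_eq_mul]
    ring
  rw [he]
  exact h

open Complex in
/-- Change of variables `u = α • t` in `∫ f(u) (pullAdjW α Q)(u) du`. -/
theorem primUHP_change (w : ℕ) {α : GL (Fin 2) ℝ} (hα : 0 < α.det.val) {f Q : ℍ → ℂ}
    (hf : MDiff f) (hQ : MDiff Q) (z : ℍ) :
    primUHP (f * pullAdjW w α Q) (α • z) - primUHP (f * pullAdjW w α Q) (α • UpperHalfPlane.I)
      = primUHP ((f ∣[((w : ℤ) + 2)] α) * Q) z := by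
  have hh : MDiff (f * pullAdjW w α Q) := hf.mul (mdifferentiable_pullAdjW w hα hQ)
  refine IsPrimUHP.sub_eq_primUHP (F := fun z ↦ primUHP (f * pullAdjW w α Q) (α • z))
    ((mdifferentiable_slash_pos w hα hf).mul hQ) (fun τ ↦ ?_) z
  have h2 := (hasStrictDerivAt_smul (g := α) hα τ).hasDerivAt
  have h1 : HasDerivAt (primUHP (f * pullAdjW w α Q) ∘ ofComplex)
      ((f * pullAdjW w α Q) (α • τ)) ((fun u : ℂ ↦ ((α • ofComplex u : ℍ) : ℂ)) τ) := by
    simpa [ofComplex_apply] using! isPrimUHP_primUHP hh (α • τ)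
  have h3 := h1.comp (τ : ℂ) h2
  have hfun : ((fun z ↦ primUHP (f * pullAdjW w α Q) (α • z)) ∘ ofComplex)
      = (primUHP (f * pullAdjW w α Q) ∘ ofComplex) ∘
          (fun u : ℂ ↦ ((α • ofComplex u : ℍ) : ℂ)) := by
    funext u; simp [ofComplex_apply]
  rw [hfun]
  refine h3.congr_deriv ?_
  have hden : denom α⁻¹ ((α • τ : ℍ) : ℂ) = (denom α τ)⁻¹ := by
    refine eq_inv_of_mul_eq_one_left ?_
    have := denom_cocycle_σ α⁻¹ α τ
    rw [inv_mul_cancel, denom_one, σ, if_pos hα, ContinuousAlgEquiv.refl_apply] at this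
    exact this.symm
  have hne : denom α τ ≠ 0 := denom_ne_zero α τ
  simp only [Pi.mul_apply, pullAdjW_apply, Pi.smul_apply, pullW_apply, inv_smul_smul, hden,
    slash_weight_add_two_apply w hα, smul_eq_mul]
  rw [show α.val.det = α.det.val from rfl, inv_pow]
  field_simp
  ring

theorem pullAdjW_pullW_mapGL (w : ℕ) (γ : SL(2, ℤ)) (P : ℍ → ℂ) :
    pullAdjW w (mapGL ℝ γ) (pullW w (mapGL ℝ γ) P) = P := by
  rw [pullAdjW_apply, det_mapGL_val, Complex.ofReal_one, one_pow, one_smul,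
    pullW_pullW w _ _ (det_inv_pos (det_mapGL_pos γ)), mul_inv_cancel, pullW_one]

/-- Change of variables for an element of `SL(2, ℤ)`. -/
theorem primUHP_smul_SL (w : ℕ) (γ : SL(2, ℤ)) {f P : ℍ → ℂ} (hf : MDiff f) (hP : MDiff P)
    (z : ℍ) :
    primUHP (f * P) (mapGL ℝ γ • z) = primUHP (f * P) (mapGL ℝ γ • UpperHalfPlane.I)
      + primUHP ((f ∣[((w : ℤ) + 2)] (mapGL ℝ γ : GL (Fin 2) ℝ)) * pullW w (mapGL ℝ γ) P) z := by
  have h := primUHP_change w (det_mapGL_pos γ) hf
    (mdifferentiable_pullW w (det_mapGL_pos γ) hP) z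
  rw [pullAdjW_pullW_mapGL] at h
  linear_combination h

variable {N w : ℕ}

theorem slash_Gamma0_eq (f : CuspForm (Gamma0 N) ((w : ℤ) + 2)) (γ : Gamma0 N) :
    (⇑f ∣[((w : ℤ) + 2)] (mapGL ℝ (γ : SL(2, ℤ)) : GL (Fin 2) ℝ)) = ⇑f :=
  SlashInvariantFormClass.slash_action_eq f _ (Subgroup.mem_map_of_mem (mapGL ℝ) γ.2)

theorem mapGL_coe_mul (γ δ : Gamma0 N) :
    (mapGL ℝ ((γ * δ : Gamma0 N) : SL(2, ℤ)) : GL (Fin 2) ℝ)
      = mapGL ℝ (γ : SL(2, ℤ)) * mapGL ℝ (δ : SL(2, ℤ)) := by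
  rw [Subgroup.coe_mul, map_mul]

theorem mapGL_coe_one : (mapGL ℝ ((1 : Gamma0 N) : SL(2, ℤ)) : GL (Fin 2) ℝ) = 1 := by
  rw [OneMemClass.coe_one, map_one]

/-- The action of `γ` on the integral polynomials. -/
def pullZ (w : ℕ) (γ : Gamma0 N) : polyZ w →ₗ[ℤ] polyZ w :=
  (((pullW w (mapGL ℝ (γ : SL(2, ℤ)))).restrictScalars ℤ).domRestrict (polyZ w)).codRestrict
    (polyZ w) fun P ↦ pullW_mem_polyZ (det_mapGL_pos _) (intEntries_mapGL _) P.2

@[simp] theorem coe_pullZ (γ : Gamma0 N) (P : polyZ w) :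
    (pullZ w γ P : ℍ → ℂ) = pullW w (mapGL ℝ (γ : SL(2, ℤ))) P := rfl

theorem pullZ_one (P : polyZ w) : pullZ w (1 : Gamma0 N) P = P :=
  Subtype.ext (by rw [coe_pullZ, mapGL_coe_one, pullW_one])

theorem pullZ_mul (γ δ : Gamma0 N) (P : polyZ w) :
    pullZ w (γ * δ) P = pullZ w δ (pullZ w γ P) :=
  Subtype.ext (by
    rw [coe_pullZ, coe_pullZ, coe_pullZ, mapGL_coe_mul, pullW_pullW w _ _ (det_mapGL_pos _)])

variable (N w)

/-- The functional `f ↦ ∫_I^z f(u) P(u) du` on cusp forms. -/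
def segFun (z : ℍ) : polyZ w →ₗ[ℤ] Module.Dual ℂ (CuspForm (Gamma0 N) ((w : ℤ) + 2)) :=
  AddMonoidHom.toIntLinearMap
    { toFun := fun P ↦
        { toFun := fun f ↦ primUHP (⇑f * (P : ℍ → ℂ)) z
          map_add' := fun f g ↦ by
            rw [FunLike.coe_add, add_mul,
              primUHP_add ((CuspFormClass.holo f).mul (mdifferentiable_of_mem_polyZ P.2))
                ((CuspFormClass.holo g).mul (mdifferentiable_of_mem_polyZ P.2)),
              Pi.add_apply]
          map_smul' := fun c f ↦ by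
            rw [FunLike.coe_smul, smul_mul_assoc,
              primUHP_smul c ((CuspFormClass.holo f).mul (mdifferentiable_of_mem_polyZ P.2))]
            rfl }
      map_zero' := by
        ext f
        show primUHP (⇑f * ((0 : polyZ w) : ℍ → ℂ)) z = 0
        rw [ZeroMemClass.coe_zero, mul_zero]
        exact congrFun (map_zero primUHPLin) z
      map_add' := fun P Q ↦ by
        ext f
        show primUHP (⇑f * ((P + Q : polyZ w) : ℍ → ℂ)) z = _
        rw [Submodule.coe_add, mul_add,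
          primUHP_add ((CuspFormClass.holo f).mul (mdifferentiable_of_mem_polyZ P.2))
            ((CuspFormClass.holo f).mul (mdifferentiable_of_mem_polyZ Q.2))]
        rfl }

/-- The period `(γ, P) ↦ (f ↦ ∫_I^{γ I} f(u) P(u) du)`. -/
def periodFun (γ : Gamma0 N) :
    polyZ w →ₗ[ℤ] Module.Dual ℂ (CuspForm (Gamma0 N) ((w : ℤ) + 2)) :=
  segFun N w (mapGL ℝ (γ : SL(2, ℤ)) • UpperHalfPlane.I)

variable {N w}

@[simp] theorem segFun_apply (z : ℍ) (P : polyZ w) (f : CuspForm (Gamma0 N) ((w : ℤ) + 2)) :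
    segFun N w z P f = primUHP (⇑f * (P : ℍ → ℂ)) z := rfl

theorem periodFun_apply (γ : Gamma0 N) (P : polyZ w) (f : CuspForm (Gamma0 N) ((w : ℤ) + 2)) :
    periodFun N w γ P f
      = primUHP (⇑f * (P : ℍ → ℂ)) (mapGL ℝ (γ : SL(2, ℤ)) • UpperHalfPlane.I) := rfl

theorem segFun_smul (γ : Gamma0 N) (P : polyZ w) (z : ℍ) :
    segFun N w (mapGL ℝ (γ : SL(2, ℤ)) • z) P
      = periodFun N w γ P + segFun N w z (pullZ w γ P) := by
  ext f
  rw [LinearMap.add_apply, segFun_apply, segFun_apply, periodFun_apply, coe_pullZ]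
  have := primUHP_smul_SL w (γ : SL(2, ℤ)) (CuspFormClass.holo f)
    (mdifferentiable_of_mem_polyZ P.2) z
  rwa [slash_Gamma0_eq f γ] at this

theorem periodFun_one (P : polyZ w) : periodFun N w 1 P = 0 := by
  ext f
  rw [periodFun_apply, mapGL_coe_one, one_smul, primUHP_I, LinearMap.zero_apply]

/-- The cocycle relation. -/
theorem periodFun_mul (γ δ : Gamma0 N) (P : polyZ w) :
    periodFun N w (γ * δ) P = periodFun N w γ P + periodFun N w δ (pullZ w γ P) := by
  rw [periodFun, mapGL_coe_mul, mul_smul, segFun_smul]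
  rfl

theorem fg_Gamma0 (N : ℕ) [NeZero N] : Group.FG (Gamma0 N) := by
  have : Group.FG SL(2, ℤ) :=
    Group.fg_iff.mpr ⟨{ModularGroup.S, ModularGroup.T}, SpecialLinearGroup.SL2Z_generators,
      Set.toFinite _⟩
  infer_instance

variable (N w)

/-- Chains `Σ (γ, P)`. -/
abbrev PeriodChain := Gamma0 N →₀ polyZ w

/-- The boundary `(γ, P) ↦ P|γ - P`. -/
def bdryMap : PeriodChain N w →ₗ[ℤ] polyZ w :=
  Finsupp.lsum ℤ fun γ ↦ pullZ w γ - LinearMap.id

/-- Evaluation of chains as functionals on cusp forms. -/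
def periodPairing : PeriodChain N w →ₗ[ℤ] Module.Dual ℂ (CuspForm (Gamma0 N) ((w : ℤ) + 2)) :=
  Finsupp.lsum ℤ fun γ ↦ periodFun N w γ

/-- The functionals given by cycles. -/
def periodLattice : Submodule ℤ (Module.Dual ℂ (CuspForm (Gamma0 N) ((w : ℤ) + 2))) :=
  (LinearMap.ker (bdryMap N w)).map (periodPairing N w)

variable {N w}

@[simp] theorem bdryMap_single (γ : Gamma0 N) (P : polyZ w) :
    bdryMap N w (Finsupp.single γ P) = pullZ w γ P - P := by
  simp [bdryMap]

@[simp] theorem periodPairing_single (γ : Gamma0 N) (P : polyZ w) :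
    periodPairing N w (Finsupp.single γ P) = periodFun N w γ P := by
  simp [periodPairing]

theorem exists_fg_periodFun_mem [NeZero N] :
    ∃ M : Submodule ℤ (Module.Dual ℂ (CuspForm (Gamma0 N) ((w : ℤ) + 2))), M.FG ∧
      ∀ γ P, periodFun N w γ P ∈ M := by
  obtain ⟨s, hs, hsfin⟩ := Group.fg_iff.mp (fg_Gamma0 N)
  refine ⟨⨆ g ∈ hsfin.toFinset, LinearMap.range (periodFun N w g),
    Submodule.fg_biSup _ _ fun g _ ↦ ?_, ?_⟩
  · rw [LinearMap.range_eq_map]
    exact (Module.Finite.fg_top (R := ℤ) (M := polyZ w)).map _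
  intro γ
  have hγ : γ ∈ Subgroup.closure s := by rw [hs]; exact Subgroup.mem_top γ
  induction hγ using Subgroup.closure_induction with
  | mem x hx =>
    intro P
    exact Submodule.mem_iSup_of_mem x
      (Submodule.mem_iSup_of_mem (hsfin.mem_toFinset.mpr hx) ⟨P, rfl⟩)
  | one => intro P; rw [periodFun_one]; exact zero_mem _
  | mul x y _ _ hx hy => intro P; rw [periodFun_mul]; exact add_mem (hx P) (hy _)
  | inv x _ hx =>
    intro P
    have h1 := periodFun_mul x x⁻¹ (pullZ w x⁻¹ P)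
    rw [mul_inv_cancel, periodFun_one, ← pullZ_mul, inv_mul_cancel, pullZ_one] at h1
    rw [eq_neg_of_add_eq_zero_right h1.symm]
    exact neg_mem (hx _)

theorem periodLattice_fg (N w : ℕ) [NeZero N] : (periodLattice N w).FG := by
  obtain ⟨M, hM, hmem⟩ := exists_fg_periodFun_mem (N := N) (w := w)
  have : Module.Finite ℤ M := Module.Finite.of_fg hM
  have hle : periodLattice N w ≤ M := by
    rintro _ ⟨c, -, rfl⟩
    induction c using Finsupp.induction_linear with
    | zero => rw [map_zero]; exact zero_mem _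
    | add a b ha hb => rw [map_add]; exact add_mem ha hb
    | single γ P => rw [periodPairing_single]; exact hmem γ P
  have : Module.Finite ℤ ((periodLattice N w).comap M.subtype) :=
    Module.IsNoetherian.finite ℤ _
  rw [← inf_eq_right.mpr hle, ← Submodule.map_comap_subtype]
  exact (Module.Finite.iff_fg.mp inferInstance).map _

end FermatLib.Modular

end
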