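import Fermat.Agent.Modular.DegeneracyHecke

/-!
# The degeneracy maps commute with the good Hecke operators
-/

set_option autoImplicit false
set_option linter.unusedSectionVars false
set_option linter.unnecessarySeqFocus false

noncomputable section

open scoped MatrixGroups
open CongruenceSubgroup Matrix Finset

namespace FermatLib.Modular.Degeneracy

local notation "M2Z" => Matrix (Fin 2) (Fin 2) ℤ

variable {N q : ℕ} [NeZero N] [NeZero q] [hq : Fact q.Prime] [Fact (Nat.Coprime q N)]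
  {A : Type*} [AddCommGroup A] {R : Type*} [Semiring R] [Module R A] (ℓ : Nat.Primes)

attribute [local instance] cosetFintype

theorem not_dvd_of_not_dvd_mul (hℓ : ¬ (ℓ : ℕ) ∣ N * q) : ¬ (ℓ : ℕ) ∣ N :=
  fun h => hℓ (h.mul_right q)

theorem ne_q_of_not_dvd_mul (hℓ : ¬ (ℓ : ℕ) ∣ N * q) : (ℓ : ℕ) ≠ q :=
  fun h => hℓ (h ▸ dvd_mul_left q N)

/-- The index sets of the two levels agree. -/
def idxEquiv (hℓ : ¬ (ℓ : ℕ) ∣ N * q) : HeckeIdx (N * q) ℓ ≃ HeckeIdx N ℓ :=
  Equiv.subtypeEquivRight fun _ =>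
    ⟨fun _ _ => not_dvd_of_not_dvd_mul ℓ hℓ, fun _ _ => hℓ⟩

theorem idxEquiv_val (hℓ : ¬ (ℓ : ℕ) ∣ N * q) (x : HeckeIdx (N * q) ℓ) :
    (idxEquiv ℓ hℓ x).1 = x.1 := rfl

theorem degRes_heckeHomOp (hℓ : ¬ (ℓ : ℕ) ∣ N * q) (c : Additive (Gamma0 N) →+ A) :
    heckeHomOp (N * q) R A ℓ (degRes N q R A c) = degRes N q R A (heckeHomOp N R A ℓ c) := by
  refine (heckeSystem (N * q) ℓ).op_comp R (heckeSystem N ℓ)
    (Subgroup.inclusion (Gamma0_mul_le_left N q)) 1 (by simp) (fun γ => by simp) (idxEquiv ℓ hℓ)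
    (fun _ => 1) (fun x => ?_) c
  simp [heckeSystem_rep, idxEquiv_val]

theorem degTwist_heckeHomOp (hℓ : ¬ (ℓ : ℕ) ∣ N * q) (c : Additive (Gamma0 N) →+ A) :
    heckeHomOp (N * q) R A ℓ (degTwist N q R A c) = degTwist N q R A (heckeHomOp N R A ℓ c) := by
  have hex : ∀ x : HeckeIdx (N * q) ℓ, ∃ (y : HeckeIdx N ℓ) (u : Gamma0 N),
      degMat q * heckeRepInt ℓ x.1 =
        ((u : SL(2, ℤ)) : M2Z) * heckeRepInt ℓ y.1 * degMat q := by
    intro x
    set r := heckeRepInt ℓ x.1 with hr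
    set M' : M2Z := !![r 0 0, (q : ℤ) * r 0 1; 0, r 1 1] with hM'
    have h10 : r 1 0 = 0 := heckeRepInt_one_zero _ _
    have hmul : degMat q * r = M' * degMat q := by
      ext a b
      fin_cases a <;> fin_cases b <;>
        simp [degMat, hM', h10, Matrix.mul_apply, Fin.sum_univ_two] <;> ring
    obtain ⟨y, u, hy⟩ := exists_eq_mul_rep (N := N) ℓ.2 M'
      (by
        have h := congrArg Matrix.det hmul
        rw [Matrix.det_mul, Matrix.det_mul, det_degMat, hr, det_heckeRepInt] at h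
        exact mul_right_cancel₀ (natCast_q_ne_zero q) (h.symm.trans (mul_comm _ _)))
      (by simp [hM']) fun h => absurd h (not_dvd_of_not_dvd_mul ℓ hℓ)
    exact ⟨y, u, by rw [hmul, hy]⟩
  choose τ u hu using hex
  have hτ : Function.Injective τ := by
    intro x y hxy
    set U : Gamma0 N := u x * (u y)⁻¹
    have h : degMat q * heckeRepInt ℓ x.1 =
        ((U : SL(2, ℤ)) : M2Z) * (degMat q * heckeRepInt ℓ y.1) := by
      rw [hu x, hu y, hxy, ← Matrix.mul_assoc, ← Matrix.mul_assoc,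
        ← Matrix.SpecialLinearGroup.coe_mul, ← Subgroup.coe_mul]
      simp [U]
    have e : ∀ i j, (degMat q * heckeRepInt ℓ x.1) i j =
        (((U : SL(2, ℤ)) : M2Z) * (degMat q * heckeRepInt ℓ y.1)) i j := fun i j => by rw [← h]
    have e00 := e 0 0
    have e01 := e 0 1
    have e10 := e 1 0
    simp [degMat, Matrix.mul_apply, Matrix.vecMul, dotProduct, Fin.sum_univ_two, heckeRepInt_one_zero] at e00 e01 e10
    have hqZ := natCast_q_ne_zero q
    have hy00 := (heckeRepInt_zero_zero_pos ℓ ℓ.2.pos y.1).ne'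
    have hU10 : (U : SL(2, ℤ)) 1 0 = 0 := by
      rcases e10 with h1 | h1 | h1
      · exact h1
      · exact absurd h1 (NeZero.ne q)
      · exact absurd h1 hy00
    have hdet := (U : SL(2, ℤ)).det_coe
    rw [Matrix.det_fin_two, hU10, mul_zero, sub_zero] at hdet
    have hU00 : (U : SL(2, ℤ)) 0 0 = 1 := by
      rcases Int.isUnit_iff.1 (IsUnit.of_mul_eq_one _ hdet) with h1 | h1
      · exact h1
      · exfalso
        rw [h1] at e00
        have hx := heckeRepInt_zero_zero_pos ℓ ℓ.2.pos x.1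
        have hy := heckeRepInt_zero_zero_pos ℓ ℓ.2.pos y.1
        nlinarith [(Int.natCast_pos.2 (NeZero.pos q) : (0 : ℤ) < q)]
    rw [hU00, one_mul] at e00 e01
    have e00' : heckeRepInt ℓ x.1 0 0 = heckeRepInt ℓ y.1 0 0 := mul_left_cancel₀ hqZ e00
    obtain ⟨x, hx⟩ := x
    obtain ⟨y, hy⟩ := y
    have hp := ℓ.2.two_le
    refine Subtype.ext ?_
    cases x with
    | none =>
      cases y with
      | none => rfl
      | some j => simp [heckeRepInt] at e00'; omega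
    | some i =>
      cases y with
      | none => simp [heckeRepInt] at e00'; omega
      | some j =>
        simp [heckeRepInt] at e01
        have hcop : IsCoprime ((ℓ : ℕ) : ℤ) (q : ℤ) :=
          Nat.isCoprime_iff_coprime.2
            ((Nat.coprime_primes ℓ.2 hq.out).2 (ne_q_of_not_dvd_mul ℓ hℓ))
        have hd : ((ℓ : ℕ) : ℤ) ∣ (i : ℤ) - j :=
          hcop.dvd_of_dvd_mul_left (⟨(U : SL(2, ℤ)) 0 1, by linarith⟩ : ((ℓ : ℕ) : ℤ) ∣ (q : ℤ) * ((i : ℤ) - j))
        have : (i : ℤ) - j = 0 := Int.eq_zero_of_abs_lt_dvd hd (by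
          have := i.isLt; have := j.isLt
          rw [abs_lt]; constructor <;> omega)
        exact congrArg some (Fin.ext (by omega))
  have hbij : Function.Bijective τ :=
    (Fintype.bijective_iff_injective_and_card τ).2
      ⟨hτ, Fintype.card_congr (idxEquiv ℓ hℓ)⟩
  exact (heckeSystem (N * q) ℓ).op_comp R (heckeSystem N ℓ) (degHom N q) (degMat q)
    (by rw [det_degMat]; exact natCast_q_ne_zero q) (degHom_spec N q)
    (Equiv.ofBijective τ hbij) u hu c

theorem alOp_heckeHomOp (hℓ : ¬ (ℓ : ℕ) ∣ N * q) (ψ : Additive (Gamma0 (N * q)) →+ A) :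
    heckeHomOp (N * q) R A ℓ (alOp N q R A ψ) = alOp N q R A (heckeHomOp (N * q) R A ℓ ψ) := by
  have hal := al_eq N q
  have hex : ∀ x : HeckeIdx (N * q) ℓ, ∃ (y : HeckeIdx (N * q) ℓ) (u : Gamma0 (N * q)),
      alMat N q * heckeRepInt ℓ x.1 =
        ((u : SL(2, ℤ)) : M2Z) * heckeRepInt ℓ y.1 * alMat N q := by
    intro x
    set r := heckeRepInt ℓ x.1 with hr
    have h10 : r 1 0 = 0 := heckeRepInt_one_zero _ _
    set c := alC N q
    set d := alD N q
    set M' : M2Z := !![(q : ℤ) * r 0 0 * d - N * c * ((q : ℤ) * r 0 1 + r 1 1),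
        -(r 0 0) + (q : ℤ) * r 0 1 + r 1 1;
      (N : ℤ) * q * (c * r 0 0 * d - c * (N : ℤ) * c * r 0 1 - c * d * r 1 1),
      -((N : ℤ) * c * r 0 0) + (N : ℤ) * q * c * r 0 1 + (q : ℤ) * d * r 1 1] with hM'
    have hmul : alMat N q * r = M' * alMat N q := by
      ext a b
      fin_cases a <;> fin_cases b <;>
        simp [alMat, hM', h10, Matrix.mul_apply, Fin.sum_univ_two, ← show alC N q = c from rfl,
          ← show alD N q = d from rfl]
      · linear_combination (-(q : ℤ) * r 0 0) * hal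
      · linear_combination (-(q : ℤ) * r 0 1 - r 1 1) * hal
      · linear_combination (-(N : ℤ) * q * c * r 0 0) * hal
      · linear_combination (-(N : ℤ) * q * c * r 0 1 - (q : ℤ) * d * r 1 1) * hal
    obtain ⟨y, u, hy⟩ := exists_eq_mul_rep (N := N * q) ℓ.2 M'
      (by
        have h := congrArg Matrix.det hmul
        rw [Matrix.det_mul, Matrix.det_mul, det_alMat, hr, det_heckeRepInt] at h
        exact mul_right_cancel₀ (natCast_q_ne_zero q) (h.symm.trans (mul_comm _ _)))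
      (by simp [hM']) fun h => absurd h hℓ
    exact ⟨y, u, by rw [hmul, hy]⟩
  choose τ u hu using hex
  have hτ : Function.Injective τ := by
    intro x y hxy
    set U : Gamma0 (N * q) := u x * (u y)⁻¹ with hU
    set k : Gamma0 (N * q) := (alV N q)⁻¹ * alHom N q U * alV N q
    have hk : alHom N q k = U := by
      simp only [k, map_mul, map_inv]
      rw [alHom_alHom]
      have hV : alHom N q (alV N q) = alV N q := by
        have h1 := alHom_spec N q (alV N q)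
        have hdw : alMat N q * alMat N q = (q : ℤ) • ((alV N q : SL(2, ℤ)) : M2Z) := by
          ext i j
          fin_cases i <;> fin_cases j <;>
            simp [alMat, alV, Matrix.mul_apply, Fin.sum_univ_two] <;> ring
        refine Subtype.ext (Subtype.ext (matMul_right_cancel (δ := alMat N q)
          (by rw [det_alMat]; exact natCast_q_ne_zero q) ?_))
        refine smul_right_injective M2Z (natCast_q_ne_zero q) ?_
        show (q : ℤ) • (((alHom N q (alV N q) : SL(2, ℤ)) : M2Z) * alMat N q) =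
          (q : ℤ) • (((alV N q : SL(2, ℤ)) : M2Z) * alMat N q)
        rw [← h1, ← Matrix.mul_smul, ← Matrix.smul_mul, ← hdw, Matrix.mul_assoc]
      rw [hV]
      group
    have h : alMat N q * heckeRepInt ℓ x.1 =
        alMat N q * (((k : SL(2, ℤ)) : M2Z) * heckeRepInt ℓ y.1) := by
      rw [← Matrix.mul_assoc (alMat N q), alHom_spec, hk, Matrix.mul_assoc, hu x, hu y, hxy,
        ← Matrix.mul_assoc, ← Matrix.mul_assoc, ← Matrix.SpecialLinearGroup.coe_mul,
        ← Subgroup.coe_mul]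
      simp [hU]
    have hcancel : ∀ X Y : M2Z, alMat N q * X = alMat N q * Y → X = Y := by
      intro X Y hXY
      have h' := congrArg (fun Z => (alMat N q).adjugate * Z) hXY
      simp only [← Matrix.mul_assoc, Matrix.adjugate_mul, det_alMat, Matrix.smul_mul, one_mul] at h'
      exact smul_right_injective M2Z (natCast_q_ne_zero q) h'
    exact (heckeSystem (N * q) ℓ).eq_of_mul_rep y x (k : SL(2, ℤ)) (hcancel _ _ h).symm |>.symm
  exact (heckeSystem (N * q) ℓ).op_comp R (heckeSystem (N * q) ℓ) (alHom N q) (alMat N q)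
    (by rw [det_alMat]; exact natCast_q_ne_zero q) (alHom_spec N q)
    (Equiv.ofBijective τ (Finite.injective_iff_bijective.1 hτ)) u hu ψ

theorem degCores_heckeHomOp (hℓ : ¬ (ℓ : ℕ) ∣ N * q) (ψ : Additive (Gamma0 (N * q)) →+ A) :
    heckeHomOp N R A ℓ (degCores N q R A ψ) = degCores N q R A (heckeHomOp (N * q) R A ℓ ψ) := by
  classical
  refine AddMonoidHom.ext fun γ => ?_
  obtain ⟨g, rfl⟩ := Additive.ofMul.surjective γ
  have hle : (Gamma0 (N * q)) ≤ Gamma0 N := Gamma0_mul_le_left N q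
  set D := heckeSystem N ℓ with hD
  set D' := heckeSystem (N * q) ℓ with hD'
  set e0 := idxEquiv ℓ hℓ
  have hrep : ∀ x, D'.rep x = D.rep (e0 x) := fun x => rfl
  set s := Residue.cosetsIn (Gamma0 (N * q)) (Gamma0 N) with hs
  set φ := extFun ψ with hφdef
  have hφ : Residue.IsHomOn (Gamma0 (N * q)) φ := isHomOn_extFun ψ
  have hex : ∀ p : (SL(2, ℤ) ⧸ (Gamma0 (N * q))) × HeckeIdx (N * q) ℓ,
      ∃ (p' : (SL(2, ℤ) ⧸ (Gamma0 (N * q))) × HeckeIdx N ℓ) (u : (Gamma0 (N * q))), p.1 ∈ s → p'.1 ∈ s ∧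
        D'.rep p.2 * (((p.1.out)⁻¹ : SL(2, ℤ)) : M2Z) =
          ((u : SL(2, ℤ)) : M2Z) * (((p'.1.out)⁻¹ : SL(2, ℤ)) : M2Z) * D.rep p'.2 := by
    rintro ⟨i, x⟩
    by_cases hi : i ∈ s
    · obtain ⟨r, hrd⟩ : ∃ r : Gamma0 N, (r : SL(2, ℤ)) = (i.out)⁻¹ := ⟨⟨_, cosetsIn_inv_mem hi⟩, rfl⟩
      set h : Gamma0 N := D.elt r (e0 x)
      set j : SL(2, ℤ) ⧸ (Gamma0 (N * q)) := (((h : SL(2, ℤ))⁻¹ : SL(2, ℤ)) : SL(2, ℤ) ⧸ (Gamma0 (N * q)))
      have hu : (h : SL(2, ℤ)) * j.out ∈ (Gamma0 (N * q)) := by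
        have : (j.out)⁻¹ * (h : SL(2, ℤ))⁻¹ ∈ (Gamma0 (N * q)) := by
          rw [← QuotientGroup.eq, QuotientGroup.out_eq']
        simpa using (Gamma0 (N * q)).inv_mem this
      refine ⟨(j, D.next r (e0 x)), ⟨_, hu⟩, fun _ => ⟨?_, ?_⟩⟩
      · exact (Residue.mk_mem_cosetsIn hle).2 ((Gamma0 N).inv_mem h.2)
      · show D'.rep x * (((i.out)⁻¹ : SL(2, ℤ)) : M2Z) = (((h : SL(2, ℤ)) * j.out : SL(2, ℤ)) : M2Z) *
          (((j.out)⁻¹ : SL(2, ℤ)) : M2Z) * D.rep (D.next r (e0 x))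
        rw [hrep, ← hrd, D.rep_mul, ← Matrix.SpecialLinearGroup.coe_mul, mul_inv_cancel_right]
    · exact ⟨(i, e0 x), 1, fun h => absurd h hi⟩
  choose π u hπ using hex
  have hR : ∀ (k : (Gamma0 (N * q))) (j j' : SL(2, ℤ) ⧸ (Gamma0 (N * q))) (y y' : HeckeIdx N ℓ),
      ((k : SL(2, ℤ)) : M2Z) * (((j.out)⁻¹ : SL(2, ℤ)) : M2Z) * D.rep y =
        (((j'.out)⁻¹ : SL(2, ℤ)) : M2Z) * D.rep y' → j = j' ∧ y = y' := by
    intro k j j' y y' h
    have h2 := congrArg (fun X => ((j'.out : SL(2, ℤ)) : M2Z) * X) h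
    simp only [← Matrix.mul_assoc, ← Matrix.SpecialLinearGroup.coe_mul, mul_inv_cancel,
      Matrix.SpecialLinearGroup.coe_one, one_mul] at h2
    obtain rfl := D.eq_of_mul_rep _ _ _ h2
    refine ⟨?_, rfl⟩
    have h3 := matMul_right_cancel (D.det_ne_zero y) (h2.trans (one_mul (D.rep y)).symm)
    have h4 : (j'.out * ((k : SL(2, ℤ)) * (j.out)⁻¹) : SL(2, ℤ)) = 1 := Subtype.ext h3
    rw [← mul_assoc] at h4
    rw [← QuotientGroup.out_eq' j, ← QuotientGroup.out_eq' j', eq_comm, QuotientGroup.eq,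
      ← eq_of_mul_inv_eq_one h4]
    simp [k.2]
  have hπinj : Set.InjOn π
      ((s ×ˢ univ : Finset ((SL(2, ℤ) ⧸ (Gamma0 (N * q))) × HeckeIdx (N * q) ℓ)) :
        Set ((SL(2, ℤ) ⧸ (Gamma0 (N * q))) × HeckeIdx (N * q) ℓ)) := by
    rintro ⟨i, x⟩ hi ⟨i', x'⟩ hi' he
    simp only [coe_product, coe_univ, Set.mem_prod, Set.mem_univ, and_true, mem_coe] at hi hi'
    obtain ⟨-, e1⟩ := hπ (i, x) hi
    obtain ⟨-, e2⟩ := hπ (i', x') hi'
    rw [he] at e1
    set U : (Gamma0 (N * q)) := u (i, x) * (u (i', x'))⁻¹ with hU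
    have e : D'.rep x * (((i.out)⁻¹ * i'.out : SL(2, ℤ)) : M2Z) =
        ((U : SL(2, ℤ)) : M2Z) * D'.rep x' := by
      have h : D'.rep x * (((i.out)⁻¹ : SL(2, ℤ)) : M2Z) =
          ((U : SL(2, ℤ)) : M2Z) * (D'.rep x' * (((i'.out)⁻¹ : SL(2, ℤ)) : M2Z)) := by
        rw [e1, e2]
        simp only [hU, ← Matrix.mul_assoc, ← Matrix.SpecialLinearGroup.coe_mul]
        simp [mul_assoc]
      rw [Matrix.SpecialLinearGroup.coe_mul, ← Matrix.mul_assoc, h]
      simp only [Matrix.mul_assoc, ← Matrix.SpecialLinearGroup.coe_mul, inv_mul_cancel,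
        Matrix.SpecialLinearGroup.coe_one, mul_one]
    set m : SL(2, ℤ) := (i.out)⁻¹ * i'.out with hm
    have hii : i = i' := by
      rw [← QuotientGroup.out_eq' i, ← QuotientGroup.out_eq' i', mk_eq_mk_iff_dvd, ← hm]
      have hN : (N : ℤ) ∣ m 1 0 :=
        mem_Gamma0_iff_dvd.1 ((Gamma0 N).mul_mem (cosetsIn_inv_mem hi) (Residue.mem_cosetsIn.1 hi'))
      have h10 := congrArg (fun X : M2Z => X 1 0) e
      simp only [Matrix.mul_apply, Fin.sum_univ_two, hD', heckeSystem_rep, heckeRepInt_one_zero,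
        zero_mul, zero_add, mul_zero, add_zero] at h10
      obtain ⟨w, hw⟩ := mem_Gamma0_iff_dvd.1 U.2
      have hq11 : IsCoprime (q : ℤ) (heckeRepInt ℓ x.1 1 1) := by
        obtain ⟨x, -⟩ := x
        cases x with
        | none => simpa [heckeRepInt] using isCoprime_one_right
        | some j =>
          simpa [heckeRepInt] using Nat.isCoprime_iff_coprime.2
            ((Nat.coprime_primes hq.out ℓ.2).2 (Ne.symm (ne_q_of_not_dvd_mul ℓ hℓ)))
      push_cast
      refine IsCoprime.mul_dvd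
        (Nat.isCoprime_iff_coprime.2 (Fact.out : Nat.Coprime q N)).symm hN ?_
      refine hq11.dvd_of_dvd_mul_left ⟨(N : ℤ) * w * heckeRepInt ℓ x'.1 0 0, ?_⟩
      rw [h10, hw]
      push_cast
      ring
    subst hii
    simp only [hm, inv_mul_cancel, Matrix.SpecialLinearGroup.coe_one, mul_one] at e
    rw [D'.eq_of_mul_rep x' x _ e.symm]
  have hπmaps : ∀ p ∈ s ×ˢ (univ : Finset (HeckeIdx (N * q) ℓ)),
      π p ∈ s ×ˢ (univ : Finset (HeckeIdx N ℓ)) := fun p hp =>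
    mem_product.2 ⟨(hπ p (mem_product.1 hp).1).1, mem_univ _⟩
  have hπsurj : (s ×ˢ (univ : Finset (HeckeIdx (N * q) ℓ))).image π = s ×ˢ univ := by
    refine eq_of_subset_of_card_le (fun p hp => ?_) ?_
    · obtain ⟨p, hp', rfl⟩ := mem_image.1 hp
      exact hπmaps p hp'
    · rw [card_image_of_injOn hπinj, card_product, card_product, card_univ, card_univ,
        Fintype.card_congr e0]
  have key : ∀ i ∈ s, ∀ x : HeckeIdx (N * q) ℓ,
      ∀ k : (Gamma0 (N * q)), (k : SL(2, ℤ)) = Residue.cosetElt (Gamma0 (N * q)) (g : SL(2, ℤ)) i →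
      φ (D'.elt k x : SL(2, ℤ)) + φ (u (i, D'.next k x) : SL(2, ℤ)) =
        φ (u ((g : SL(2, ℤ)) • i, x) : SL(2, ℤ)) +
          φ (Residue.cosetElt (Gamma0 (N * q)) (D.elt g (π ((g : SL(2, ℤ)) • i, x)).2 : SL(2, ℤ))
            (((D.elt g (π ((g : SL(2, ℤ)) • i, x)).2 : SL(2, ℤ))⁻¹) •
              (π ((g : SL(2, ℤ)) • i, x)).1)) := by
    intro i hi x k hk
    set i' := (g : SL(2, ℤ)) • i with hi'
    have hi's : i' ∈ s := (Residue.smul_mem_cosetsIn hle g.2).2 hi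
    obtain ⟨hj, e1⟩ := hπ (i', x) hi's
    obtain ⟨-, e2⟩ := hπ (i, D'.next k x) hi
    set j := (π (i', x)).1
    set y := (π (i', x)).2
    set ey : SL(2, ℤ) := (D.elt g y : SL(2, ℤ))
    set j₀ := ey⁻¹ • j with hj₀
    set k'' : (Gamma0 (N * q)) := ⟨_, Residue.cosetElt_mem (Gamma0 (N * q)) ey j₀⟩ with hk''
    have h1 : (i'.out)⁻¹ * (g : SL(2, ℤ)) = (k : SL(2, ℤ)) * (i.out)⁻¹ := by
      simp [hk, Residue.cosetElt, hi']
    have h2 : (j.out)⁻¹ * ey = (k'' : SL(2, ℤ)) * (j₀.out)⁻¹ := by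
      simp [hk'', Residue.cosetElt, hj₀]
    set aL : (Gamma0 (N * q)) := D'.elt k x * u (i, D'.next k x)
    set aR : (Gamma0 (N * q)) := u (i', x) * k''
    have hL : D'.rep x * (((i'.out)⁻¹ * (g : SL(2, ℤ)) : SL(2, ℤ)) : M2Z) =
        ((aL : SL(2, ℤ)) : M2Z) * ((((π (i, D'.next k x)).1.out)⁻¹ : SL(2, ℤ)) : M2Z) *
          D.rep (π (i, D'.next k x)).2 := by
      rw [h1, Matrix.SpecialLinearGroup.coe_mul, ← Matrix.mul_assoc, D'.rep_mul, Matrix.mul_assoc,
        e2]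
      simp only [aL, Subgroup.coe_mul, Matrix.SpecialLinearGroup.coe_mul, Matrix.mul_assoc]
    have hRR : D'.rep x * (((i'.out)⁻¹ * (g : SL(2, ℤ)) : SL(2, ℤ)) : M2Z) =
        ((aR : SL(2, ℤ)) : M2Z) * (((j₀.out)⁻¹ : SL(2, ℤ)) : M2Z) * D.rep (D.next g y) := by
      rw [Matrix.SpecialLinearGroup.coe_mul, ← Matrix.mul_assoc, e1, Matrix.mul_assoc, D.rep_mul,
        ← Matrix.mul_assoc, Matrix.mul_assoc ((u (i', x) : SL(2, ℤ)) : M2Z),
        ← Matrix.SpecialLinearGroup.coe_mul, h2]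
      simp only [aR, Subgroup.coe_mul, Matrix.SpecialLinearGroup.coe_mul, Matrix.mul_assoc]
    have hLR := hL.symm.trans hRR
    have hk0 : ((((aR⁻¹ * aL : (Gamma0 (N * q))) : SL(2, ℤ))) : M2Z) *
        ((((π (i, D'.next k x)).1.out)⁻¹ : SL(2, ℤ)) : M2Z) * D.rep (π (i, D'.next k x)).2 =
        (((j₀.out)⁻¹ : SL(2, ℤ)) : M2Z) * D.rep (D.next g y) := by
      rw [Subgroup.coe_mul, Matrix.SpecialLinearGroup.coe_mul, Matrix.mul_assoc, Matrix.mul_assoc,
        ← Matrix.mul_assoc ((aL : SL(2, ℤ)) : M2Z), hLR]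
      simp only [← Matrix.mul_assoc, ← Matrix.SpecialLinearGroup.coe_mul]
      simp [← mul_assoc]
    obtain ⟨ej, ey'⟩ := hR _ _ _ _ _ hk0
    rw [ej, ey'] at hLR
    have heq : aL = aR := by
      have h3 := matMul_right_cancel (D.det_ne_zero _) hLR
      rw [← Matrix.SpecialLinearGroup.coe_mul, ← Matrix.SpecialLinearGroup.coe_mul] at h3
      exact Subtype.ext (mul_right_cancel (Subtype.ext h3 : (aL : SL(2, ℤ)) * (j₀.out)⁻¹ = _))
    have := congrArg (fun a : (Gamma0 (N * q)) => φ (a : SL(2, ℤ))) heq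
    simp only [aL, aR, Subgroup.coe_mul] at this
    rwa [hφ _ (D'.elt k x).2 _ (u _).2, hφ _ (u _).2 _ k''.2] at this
  have kmem : ∀ i, Residue.cosetElt (Gamma0 (N * q)) (g : SL(2, ℤ)) i ∈ (Gamma0 (N * q)) := fun i => Residue.cosetElt_mem (Gamma0 (N * q)) _ i
  set kk : SL(2, ℤ) ⧸ (Gamma0 (N * q)) → (Gamma0 (N * q)) := fun i => ⟨_, kmem i⟩
  have hsum := sum_congr (rfl : s ×ˢ (univ : Finset (HeckeIdx (N * q) ℓ)) = _) fun p hp =>
    key p.1 (mem_product.1 hp).1 p.2 (kk p.1) rfl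
  rw [sum_add_distrib, sum_add_distrib] at hsum
  have hA : ∑ p ∈ s ×ˢ (univ : Finset (HeckeIdx (N * q) ℓ)),
      φ (u (p.1, D'.next (kk p.1) p.2) : SL(2, ℤ)) =
      ∑ p ∈ s ×ˢ univ, φ (u ((g : SL(2, ℤ)) • p.1, p.2) : SL(2, ℤ)) := by
    rw [sum_product, sum_product]
    conv_rhs => rw [Residue.sum_cosetsIn_smul hle g.2 (fun i => ∑ x, φ (u (i, x) : SL(2, ℤ)))]
    exact sum_congr rfl fun i _ =>
      (Equiv.ofBijective _ (D'.next_bijective (kk i))).sum_comp (fun x => φ (u (i, x) : SL(2, ℤ)))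
  rw [hA, add_comm (∑ p ∈ s ×ˢ univ, φ (u ((g : SL(2, ℤ)) • p.1, p.2) : SL(2, ℤ)))] at hsum
  have hsum' := add_right_cancel hsum
  rw [heckeHomOp_apply, degCores_apply, Residue.coresHom]
  calc ∑ y, degCores N q R A ψ (Additive.ofMul (D.elt g y))
      = ∑ p ∈ s ×ˢ (univ : Finset (HeckeIdx N ℓ)),
          φ (Residue.cosetElt (Gamma0 (N * q)) (D.elt g p.2 : SL(2, ℤ)) p.1) := by
        rw [sum_product_right]
        exact sum_congr rfl fun y _ => degCores_apply N q R A ψ _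
    _ = ∑ p ∈ s ×ˢ (univ : Finset (HeckeIdx N ℓ)),
          φ (Residue.cosetElt (Gamma0 (N * q)) (D.elt g p.2 : SL(2, ℤ))
            (((D.elt g p.2 : SL(2, ℤ))⁻¹) • p.1)) := by
        rw [sum_product_right, sum_product_right]
        exact sum_congr rfl fun y _ => (Residue.sum_cosetsIn_smul hle
          ((Gamma0 N).inv_mem (D.elt g y).2)
          (fun i => φ (Residue.cosetElt (Gamma0 (N * q)) (D.elt g y : SL(2, ℤ)) i))).symm
    _ = ∑ p ∈ s ×ˢ (univ : Finset (HeckeIdx (N * q) ℓ)),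
          φ (Residue.cosetElt (Gamma0 (N * q)) (D.elt g (π p).2 : SL(2, ℤ))
            (((D.elt g (π p).2 : SL(2, ℤ))⁻¹) • (π p).1)) := by
        rw [← hπsurj, sum_image hπinj]
    _ = ∑ p ∈ s ×ˢ (univ : Finset (HeckeIdx (N * q) ℓ)),
          φ (Residue.cosetElt (Gamma0 (N * q)) (D.elt g (π ((g : SL(2, ℤ)) • p.1, p.2)).2 : SL(2, ℤ))
            (((D.elt g (π ((g : SL(2, ℤ)) • p.1, p.2)).2 : SL(2, ℤ))⁻¹) •
              (π ((g : SL(2, ℤ)) • p.1, p.2)).1)) := by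
        rw [sum_product, sum_product]
        exact (Residue.sum_cosetsIn_smul hle g.2 _).symm
    _ = ∑ p ∈ s ×ˢ (univ : Finset (HeckeIdx (N * q) ℓ)), φ (D'.elt (kk p.1) p.2 : SL(2, ℤ)) :=
        hsum'.symm
    _ = _ := by
        rw [sum_product]
        refine sum_congr rfl fun i _ => ?_
        rw [extFun_of_mem _ (kmem i), heckeHomOp_apply]
        exact sum_congr rfl fun x _ => extFun_coe ψ _

end FermatLib.Modular.Degeneracy
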