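import Fermat.Agent.Modular.DegeneracyMaps
import Mathlib.Data.Fintype.Option

/-!
# Degeneracy maps and the Hecke operators at `q`

For `q` prime to `N`: `T q c` is the corestriction of the twisted pullback of `c`, and on level
`N q` the operator `U q` is `res ∘ cores ∘ W - W`.
-/

set_option autoImplicit false
set_option linter.unusedSectionVars false
set_option linter.unnecessarySeqFocus false

noncomputable section

open scoped MatrixGroups
open CongruenceSubgroup Matrix Finset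

namespace FermatLib.Modular.Degeneracy

local notation "M2Z" => Matrix (Fin 2) (Fin 2) ℤ

variable {N q : ℕ} [NeZero N] [NeZero q] {A : Type*} [AddCommGroup A]

attribute [local instance] cosetFintype

theorem mk_eq_mk_iff_dvd {M : ℕ} {r s : SL(2, ℤ)} :
    ((r : SL(2, ℤ) ⧸ Gamma0 M)) = (s : SL(2, ℤ) ⧸ Gamma0 M) ↔ (M : ℤ) ∣ (r⁻¹ * s) 1 0 := by
  rw [QuotientGroup.eq, mem_Gamma0_iff_dvd]

/-- Comparison of a partial corestriction with a Hecke sum. -/
theorem sum_cosetElt_eq_sum_elt {Γ' : Subgroup SL(2, ℤ)} {ι : Type} [Fintype ι]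
    (D : HeckeSystem Γ' ι) (w : M2Z) (e : Gamma0 (N * q) →* Γ')
    (he : ∀ k : Gamma0 (N * q), w * ((k : SL(2, ℤ)) : M2Z) = ((e k : SL(2, ℤ)) : M2Z) * w)
    (s : Finset (SL(2, ℤ) ⧸ Gamma0 (N * q))) (τ : SL(2, ℤ) ⧸ Gamma0 (N * q) → ι)
    (u : SL(2, ℤ) ⧸ Gamma0 (N * q) → Γ')
    (hrep : ∀ i ∈ s, w * (((i.out)⁻¹ : SL(2, ℤ)) : M2Z) = ((u i : SL(2, ℤ)) : M2Z) * D.rep (τ i))
    (hτ : Set.BijOn τ (s : Set (SL(2, ℤ) ⧸ Gamma0 (N * q))) Set.univ) (γ : Γ')
    (hs : ∀ i, (γ : SL(2, ℤ)) • i ∈ s ↔ i ∈ s) (φ : Additive Γ' →+ A) :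
    ∑ i ∈ s, extFun (φ.comp (MonoidHom.toAdditive e))
        (Residue.cosetElt (Gamma0 (N * q)) (γ : SL(2, ℤ)) i) =
      ∑ x, φ (Additive.ofMul (D.elt γ x)) := by
  classical
  have key : ∀ i ∈ s, extFun (φ.comp (MonoidHom.toAdditive e))
      (Residue.cosetElt (Gamma0 (N * q)) (γ : SL(2, ℤ)) i) =
      φ (Additive.ofMul (D.elt γ (τ ((γ : SL(2, ℤ)) • i)))) +
        φ (Additive.ofMul (u ((γ : SL(2, ℤ)) • i))) - φ (Additive.ofMul (u i)) := by
    intro i hi
    set j := (γ : SL(2, ℤ)) • i with hj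
    have hmem := Residue.cosetElt_mem (Gamma0 (N * q)) (γ : SL(2, ℤ)) i
    set k : Gamma0 (N * q) := ⟨_, hmem⟩ with hk
    have h1 : (j.out)⁻¹ * (γ : SL(2, ℤ)) = (k : SL(2, ℤ)) * (i.out)⁻¹ := by
      simp [hk, Residue.cosetElt, hj]
    have h2 : D.rep (τ j) * ((γ : SL(2, ℤ)) : M2Z) =
        ((((u j)⁻¹ * e k * u i : Γ') : SL(2, ℤ)) : M2Z) * D.rep (τ i) := by
      have h3 : ((u j : SL(2, ℤ)) : M2Z) * (D.rep (τ j) * ((γ : SL(2, ℤ)) : M2Z)) =
          ((e k * u i : Γ') : SL(2, ℤ)) * D.rep (τ i) := by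
        rw [← Matrix.mul_assoc, ← hrep j ((hs i).2 hi), Matrix.mul_assoc,
          ← Matrix.SpecialLinearGroup.coe_mul, h1, Matrix.SpecialLinearGroup.coe_mul,
          ← Matrix.mul_assoc, he, Matrix.mul_assoc, hrep i hi, ← Matrix.mul_assoc,
          Subgroup.coe_mul, Matrix.SpecialLinearGroup.coe_mul]
      have h4 := congrArg (fun X => ((((u j)⁻¹ : Γ') : SL(2, ℤ)) : M2Z) * X) h3
      simp only [← Matrix.mul_assoc, ← Matrix.SpecialLinearGroup.coe_mul, ← Subgroup.coe_mul] at h4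
      rw [inv_mul_cancel, Subgroup.coe_one, Matrix.SpecialLinearGroup.coe_one, one_mul] at h4
      rw [h4, mul_assoc (u j)⁻¹]
    rw [(D.next_elt_eq_of_eq h2).2, extFun_of_mem _ hmem]
    show φ (Additive.ofMul (e k)) = _
    simp only [ofMul_mul, ofMul_inv, map_add, map_neg]
    abel
  rw [sum_congr rfl key, sum_sub_distrib, sum_add_distrib]
  have hperm : ∀ f : SL(2, ℤ) ⧸ Gamma0 (N * q) → A,
      ∑ i ∈ s, f ((γ : SL(2, ℤ)) • i) = ∑ i ∈ s, f i := fun f =>
    sum_equiv (MulAction.toPerm (γ : SL(2, ℤ))) (fun i => (hs i).symm) fun i _ => rfl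
  rw [hperm (fun j => φ (Additive.ofMul (D.elt γ (τ j)))),
    hperm (fun j => φ (Additive.ofMul (u j))), add_sub_cancel_right]
  exact sum_nbij τ (fun i _ => mem_univ _) hτ.injOn (by simpa using hτ.surjOn) fun i _ => rfl

section Prime

variable [hq : Fact q.Prime] [Fact (Nat.Coprime q N)]

/-- `q` as an element of `Nat.Primes`. -/
def qPrime (q : ℕ) [h : Fact q.Prime] : Nat.Primes := ⟨q, h.out⟩

theorem not_q_dvd_N : ¬ q ∣ N :=
  (Nat.Prime.coprime_iff_not_dvd hq.out).1 Fact.out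

theorem cosetsIn_inv_mem {i : SL(2, ℤ) ⧸ Gamma0 (N * q)}
    (hi : i ∈ Residue.cosetsIn (Gamma0 (N * q)) (Gamma0 N)) : (i.out)⁻¹ ∈ Gamma0 N :=
  (Gamma0 N).inv_mem (Residue.mem_cosetsIn.1 hi)

/-- The data `(τ, u)` of the comparison for `T q`. -/
theorem exists_twist_factor (i : SL(2, ℤ) ⧸ Gamma0 (N * q)) :
    ∃ (x : HeckeIdx N q) (u : Gamma0 N), i ∈ Residue.cosetsIn (Gamma0 (N * q)) (Gamma0 N) →
      degMat q * (((i.out)⁻¹ : SL(2, ℤ)) : M2Z) = ((u : SL(2, ℤ)) : M2Z) * heckeRepInt q x.1 := by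
  by_cases hi : i ∈ Residue.cosetsIn (Gamma0 (N * q)) (Gamma0 N)
  · obtain ⟨x, u, h⟩ := exists_eq_mul_rep (N := N) hq.out
      (degMat q * (((i.out)⁻¹ : SL(2, ℤ)) : M2Z))
      (by rw [Matrix.det_mul, det_degMat, Matrix.SpecialLinearGroup.det_coe, mul_one])
      (by
        have := mem_Gamma0_iff_dvd.1 (cosetsIn_inv_mem hi)
        simp only [degMat, Matrix.mul_apply, Fin.sum_univ_two, Matrix.of_apply, Matrix.cons_val',
          Matrix.cons_val_zero, Matrix.cons_val_one, Matrix.cons_val_fin_one, zero_mul, zero_add,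
          one_mul]
        exact this)
      fun h => absurd h not_q_dvd_N
    exact ⟨x, u, fun _ => h⟩
  · exact ⟨⟨none, fun _ => not_q_dvd_N⟩, 1, fun h => absurd h hi⟩

theorem twist_bijOn {τ : SL(2, ℤ) ⧸ Gamma0 (N * q) → HeckeIdx N q}
    {u : SL(2, ℤ) ⧸ Gamma0 (N * q) → Gamma0 N}
    (h : ∀ i ∈ Residue.cosetsIn (Gamma0 (N * q)) (Gamma0 N),
      degMat q * (((i.out)⁻¹ : SL(2, ℤ)) : M2Z) = ((u i : SL(2, ℤ)) : M2Z) * heckeRepInt q (τ i).1) :
    Set.BijOn τ (Residue.cosetsIn (Gamma0 (N * q)) (Gamma0 N) :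
      Set (SL(2, ℤ) ⧸ Gamma0 (N * q))) Set.univ := by
  refine ⟨fun i _ => Set.mem_univ _, fun i hi j hj hij => ?_, fun x _ => ?_⟩
  · have hi' := h i hi
    have hj' := h j hj
    rw [hij] at hi'
    set U : Gamma0 N := u i * (u j)⁻¹
    have hrel : degMat q * (((i.out)⁻¹ * j.out : SL(2, ℤ)) : M2Z) =
        ((U : SL(2, ℤ)) : M2Z) * degMat q := by
      have h2 : ((U : SL(2, ℤ)) : M2Z) * (degMat q * (((j.out)⁻¹ : SL(2, ℤ)) : M2Z)) =
          degMat q * (((i.out)⁻¹ : SL(2, ℤ)) : M2Z) := by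
        rw [hj', hi', ← Matrix.mul_assoc, ← Matrix.SpecialLinearGroup.coe_mul, ← Subgroup.coe_mul]
        simp [U]
      rw [Matrix.SpecialLinearGroup.coe_mul, ← Matrix.mul_assoc, ← h2]
      simp only [Matrix.mul_assoc, ← Matrix.SpecialLinearGroup.coe_mul, inv_mul_cancel,
        Matrix.SpecialLinearGroup.coe_one, mul_one]
    have h10 := congrArg (fun X : M2Z => X 1 0) hrel
    simp [degMat, Matrix.mul_apply, Fin.sum_univ_two] at h10
    rw [← QuotientGroup.out_eq' i, ← QuotientGroup.out_eq' j, mk_eq_mk_iff_dvd]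
    obtain ⟨k, hk⟩ := mem_Gamma0_iff_dvd.1 U.2
    refine ⟨k, ?_⟩
    push_cast
    rw [hk] at h10
    simp only [Matrix.SpecialLinearGroup.coe_mul, Matrix.mul_apply, Fin.sum_univ_two] at h10 ⊢
    simp at h10 ⊢
    linarith [h10]
  · suffices hex : ∃ r ∈ Gamma0 N, ∃ v : Gamma0 N,
        degMat q * ((r⁻¹ : SL(2, ℤ)) : M2Z) = ((v : SL(2, ℤ)) : M2Z) * heckeRepInt q x.1 by
      obtain ⟨r, hr, v, hv⟩ := hex
      set i : SL(2, ℤ) ⧸ Gamma0 (N * q) := ((r : SL(2, ℤ)) : SL(2, ℤ) ⧸ Gamma0 (N * q))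
      have hi : i ∈ Residue.cosetsIn (Gamma0 (N * q)) (Gamma0 N) :=
        (Residue.mk_mem_cosetsIn (Gamma0_mul_le_left N q)).2 hr
      refine ⟨i, hi, Subtype.ext ?_⟩
      have hk : (i.out)⁻¹ * r ∈ Gamma0 (N * q) := by
        rw [← QuotientGroup.eq, QuotientGroup.out_eq']
      have hout : (i.out)⁻¹ = (i.out)⁻¹ * r * r⁻¹ := by group
      have e := h i hi
      rw [hout, Matrix.SpecialLinearGroup.coe_mul, ← Matrix.mul_assoc, degMat_mul N q hk] at e
      change ((degHom N q ⟨_, hk⟩ : SL(2, ℤ)) : M2Z) * degMat q * _ = _ at e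
      rw [Matrix.mul_assoc, hv, ← Matrix.mul_assoc] at e
      have e2 := congrArg (fun X => ((((u i)⁻¹ : Gamma0 N) : SL(2, ℤ)) : M2Z) * X) e
      simp only [← Matrix.mul_assoc, ← Matrix.SpecialLinearGroup.coe_mul, ← Subgroup.coe_mul,
        inv_mul_cancel, Subgroup.coe_one, Matrix.SpecialLinearGroup.coe_one, one_mul] at e2
      exact (heckeRepInt_eq_of_mul_eq hq.out.one_lt _ _ _ e2).symm
    obtain ⟨x, hx⟩ := x
    cases x with
    | none =>
      refine ⟨1, one_mem _, 1, ?_⟩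
      ext a b
      fin_cases a <;> fin_cases b <;> simp [degMat, heckeRepInt]
    | some j =>
      set b : ℤ := (j : ℕ) + alC N q with hb
      let g : SL(2, ℤ) := ⟨!![1, b; (N : ℤ), 1 + (N : ℤ) * b], by
        rw [Matrix.det_fin_two_of]; ring⟩
      have hg : g ∈ Gamma0 N := mem_Gamma0_iff_dvd.2 (by simp [g])
      let v : Gamma0 N := ⟨⟨!![(q : ℤ), alC N q; (N : ℤ), alD N q], by
        rw [Matrix.det_fin_two_of]; linear_combination al_eq N q⟩,
        mem_Gamma0_iff_dvd.2 (dvd_refl _)⟩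
      refine ⟨g⁻¹, (Gamma0 N).inv_mem hg, v, ?_⟩
      rw [inv_inv]
      have hal := al_eq N q
      ext a c
      fin_cases a <;> fin_cases c <;>
        simp [degMat, heckeRepInt, g, v, hb, Matrix.mul_apply, Fin.sum_univ_two] <;>
        first | ring1 | linear_combination -hal

theorem card_cosetsIn :
    (Residue.cosetsIn (Gamma0 (N * q)) (Gamma0 N)).card = q + 1 := by
  choose τ u hu using exists_twist_factor (N := N) (q := q)
  have hb := twist_bijOn (τ := τ) (u := u) hu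
  rw [Finset.card_nbij τ (t := univ) (fun i _ => mem_univ _) hb.injOn (by simpa using hb.surjOn),
    Finset.card_univ, Fintype.card_subtype]
  have : (univ.filter fun x : Option (Fin q) => x = none → ¬ q ∣ N) = univ :=
    filter_true_of_mem fun x _ _ => not_q_dvd_N
  rw [this, card_univ, Fintype.card_option, Fintype.card_fin]

variable {R : Type*} [Semiring R] [Module R A]

/-- `T q` is the corestriction of the twisted pullback. -/
theorem degCores_degTwist (c : Additive (Gamma0 N) →+ A) :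
    degCores N q R A (degTwist N q R A c) = heckeHomOp N R A (qPrime q) c := by
  refine AddMonoidHom.ext fun γ => ?_
  obtain ⟨g, rfl⟩ := Additive.ofMul.surjective γ
  choose τ u hu using exists_twist_factor (N := N) (q := q)
  rw [degCores_apply, heckeHomOp_apply, Residue.coresHom]
  exact sum_cosetElt_eq_sum_elt (heckeSystem N (qPrime q)) (degMat q)
    (degHom N q) (degHom_spec N q) _ τ u hu
    (twist_bijOn hu) g (fun i => Residue.smul_mem_cosetsIn (Gamma0_mul_le_left N q) g.2) c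

theorem degCores_degRes (c : Additive (Gamma0 N) →+ A) :
    degCores N q R A (degRes N q R A c) = (q + 1) • c := by
  refine AddMonoidHom.ext fun γ => ?_
  obtain ⟨g, rfl⟩ := Additive.ofMul.surjective γ
  rw [degCores_apply, AddMonoidHom.nsmul_apply]
  have hcongr : Residue.coresHom (Gamma0 (N * q)) (Gamma0 N) (extFun (degRes N q R A c)) (g : SL(2, ℤ)) =
      Residue.coresHom (Gamma0 (N * q)) (Gamma0 N) (extFun c) (g : SL(2, ℤ)) := by
    refine sum_congr rfl fun i _ => ?_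
    have hm := Residue.cosetElt_mem (Gamma0 (N * q)) (g : SL(2, ℤ)) i
    rw [extFun_of_mem _ hm, extFun_of_mem _ (Gamma0_mul_le_left N q hm)]
    rfl
  rw [hcongr, Residue.coresHom_res (Gamma0_mul_le_left N q) (isHomOn_extFun c) g.2, card_cosetsIn,
    extFun_coe]

theorem exists_al_factor (i : SL(2, ℤ) ⧸ Gamma0 (N * q)) :
    ∃ (x : HeckeIdx (N * q) q) (u : Gamma0 (N * q)),
      i ∈ Residue.cosetsIn (Gamma0 (N * q)) (Gamma0 N) → i ≠ ((1 : SL(2, ℤ)) : SL(2, ℤ) ⧸ _) →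
      alMat N q * (((i.out)⁻¹ : SL(2, ℤ)) : M2Z) =
        ((u : SL(2, ℤ)) : M2Z) * heckeRepInt q x.1 := by
  by_cases hi : i ∈ Residue.cosetsIn (Gamma0 (N * q)) (Gamma0 N) ∧
      i ≠ ((1 : SL(2, ℤ)) : SL(2, ℤ) ⧸ _)
  · obtain ⟨hi, hne⟩ := hi
    obtain ⟨k, hk⟩ := mem_Gamma0_iff_dvd.1 (cosetsIn_inv_mem hi)
    obtain ⟨x, u, h⟩ := exists_eq_mul_rep (N := N * q) hq.out
      (alMat N q * (((i.out)⁻¹ : SL(2, ℤ)) : M2Z))
      (by rw [Matrix.det_mul, det_alMat, Matrix.SpecialLinearGroup.det_coe, mul_one])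
      (by
        refine ⟨alC N q * ((i.out)⁻¹ : SL(2, ℤ)) 0 0 + alD N q * k, ?_⟩
        simp only [alMat, Matrix.mul_apply, Fin.sum_univ_two, Matrix.of_apply, Matrix.cons_val',
          Matrix.cons_val_zero, Matrix.cons_val_one, Matrix.cons_val_fin_one, hk]
        push_cast
        ring)
      (fun _ hdvd => by
        simp only [alMat, Matrix.mul_apply, Fin.sum_univ_two, Matrix.of_apply, Matrix.cons_val',
          Matrix.cons_val_zero, Matrix.cons_val_one, Matrix.cons_val_fin_one, one_mul,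
          dvd_add_right (dvd_mul_right _ _)] at hdvd
        refine hne ?_
        conv_lhs => rw [← QuotientGroup.out_eq' i]
        rw [mk_eq_mk_iff_dvd, mul_one, hk]
        rw [hk] at hdvd
        have hcop : IsCoprime (q : ℤ) (N : ℤ) :=
          Nat.isCoprime_iff_coprime.2 (Fact.out : Nat.Coprime q N)
        obtain ⟨m, hm⟩ := hcop.dvd_of_dvd_mul_left hdvd
        refine ⟨m, ?_⟩
        push_cast
        rw [hm]
        ring)
    exact ⟨x, u, fun _ _ => h⟩
  · have hpos : 0 < q := hq.out.pos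
    exact ⟨⟨some ⟨0, hpos⟩, fun h => absurd h (Option.some_ne_none _)⟩, 1,
      fun h1 h2 => absurd ⟨h1, h2⟩ hi⟩

/-- `U q = res ∘ cores ∘ W - W` on level `N q`. -/
theorem heckeHomOp_q_eq (ψ : Additive (Gamma0 (N * q)) →+ A) :
    heckeHomOp (N * q) R A (qPrime q) ψ =
      degRes N q R A (degCores N q R A (alOp N q R A ψ)) - alOp N q R A ψ := by
  classical
  refine AddMonoidHom.ext fun γ => ?_
  obtain ⟨g, rfl⟩ := Additive.ofMul.surjective γ
  choose τ u hu using exists_al_factor (N := N) (q := q)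
  set i₀ : SL(2, ℤ) ⧸ Gamma0 (N * q) := ((1 : SL(2, ℤ)) : SL(2, ℤ) ⧸ Gamma0 (N * q))
  set s := (Residue.cosetsIn (Gamma0 (N * q)) (Gamma0 N)).erase i₀ with hs
  have hi₀ : i₀ ∈ Residue.cosetsIn (Gamma0 (N * q)) (Gamma0 N) :=
    (Residue.mk_mem_cosetsIn (Gamma0_mul_le_left N q)).2 (one_mem _)
  have hcard : s.card = Fintype.card (HeckeIdx (N * q) q) := by
    rw [hs, card_erase_of_mem hi₀, card_cosetsIn, Fintype.card_subtype]
    have : (univ.filter fun x : Option (Fin q) => x = none → ¬ q ∣ N * q) =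
        univ.erase none := by
      ext x
      simp
    rw [this, card_erase_of_mem (mem_univ _), card_univ, Fintype.card_option, Fintype.card_fin]
  have hrep : ∀ i ∈ s, alMat N q * (((i.out)⁻¹ : SL(2, ℤ)) : M2Z) =
      ((u i : SL(2, ℤ)) : M2Z) * heckeRepInt q (τ i).1 := fun i hi =>
    hu i (mem_of_mem_erase hi) (ne_of_mem_erase hi)
  have hinj : Set.InjOn τ (s : Set (SL(2, ℤ) ⧸ Gamma0 (N * q))) := by
    intro i hi j hj hij
    have hi' := hrep i hi
    have hj' := hrep j hj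
    rw [hij] at hi'
    set U : Gamma0 (N * q) := u i * (u j)⁻¹
    have hrel : alMat N q * (((i.out)⁻¹ * j.out : SL(2, ℤ)) : M2Z) =
        ((U : SL(2, ℤ)) : M2Z) * alMat N q := by
      have h2 : ((U : SL(2, ℤ)) : M2Z) * (alMat N q * (((j.out)⁻¹ : SL(2, ℤ)) : M2Z)) =
          alMat N q * (((i.out)⁻¹ : SL(2, ℤ)) : M2Z) := by
        rw [hj', hi', ← Matrix.mul_assoc, ← Matrix.SpecialLinearGroup.coe_mul, ← Subgroup.coe_mul]
        simp [U]
      rw [Matrix.SpecialLinearGroup.coe_mul, ← Matrix.mul_assoc, ← h2]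
      simp only [Matrix.mul_assoc, ← Matrix.SpecialLinearGroup.coe_mul, inv_mul_cancel,
        Matrix.SpecialLinearGroup.coe_one, mul_one]
    have h00 := congrArg (fun X : M2Z => X 0 0) hrel
    simp only [alMat, Matrix.mul_apply, Fin.sum_univ_two, Matrix.of_apply, Matrix.cons_val',
      Matrix.cons_val_zero, Matrix.cons_val_one, Matrix.cons_val_fin_one, one_mul] at h00
    rw [← QuotientGroup.out_eq' i, ← QuotientGroup.out_eq' j, mk_eq_mk_iff_dvd]
    have hN : (N : ℤ) ∣ ((i.out)⁻¹ * j.out : SL(2, ℤ)) 1 0 :=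
      mem_Gamma0_iff_dvd.1 ((Gamma0 N).mul_mem
        (cosetsIn_inv_mem (mem_of_mem_erase hi)) (Residue.mem_cosetsIn.1 (mem_of_mem_erase hj)))
    push_cast
    refine IsCoprime.mul_dvd
      (Nat.isCoprime_iff_coprime.2 (Fact.out : Nat.Coprime q N)).symm hN ?_
    exact ⟨(U : SL(2, ℤ)) 0 0 + (U : SL(2, ℤ)) 0 1 * ((N : ℤ) * alC N q) -
      ((i.out)⁻¹ * j.out : SL(2, ℤ)) 0 0, by linear_combination h00⟩
  have hbij : Set.BijOn τ (s : Set (SL(2, ℤ) ⧸ Gamma0 (N * q))) Set.univ := by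
    refine ⟨fun i _ => Set.mem_univ _, hinj, fun x _ => ?_⟩
    have himg : s.image τ = univ := Finset.eq_univ_of_card _ (by
      rw [card_image_of_injOn hinj, hcard])
    obtain ⟨i, hi, rfl⟩ := mem_image.1 (himg ▸ mem_univ x)
    exact ⟨i, hi, rfl⟩
  have hfix : (g : SL(2, ℤ)) • i₀ = i₀ := by
    rw [MulAction.Quotient.smul_mk, QuotientGroup.eq]
    simpa using g.2
  have hsinv : ∀ i, (g : SL(2, ℤ)) • i ∈ s ↔ i ∈ s := fun i => by
    rw [hs, mem_erase, mem_erase,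
      Residue.smul_mem_cosetsIn (Gamma0_mul_le_left N q) (Gamma0_mul_le_left N q g.2)]
    refine and_congr_left fun _ => not_congr ⟨fun h => smul_left_cancel (g : SL(2, ℤ))
      (h.trans hfix.symm), fun h => by rw [h, hfix]⟩
  rw [heckeHomOp_apply, AddMonoidHom.sub_apply]
  rw [← sum_cosetElt_eq_sum_elt (heckeSystem (N * q) (qPrime q)) (alMat N q)
    (alHom N q) (alHom_spec N q) s τ u hrep hbij g
    hsinv ψ]
  show _ = Residue.coresHom (Gamma0 (N * q)) (Gamma0 N) (extFun (alOp N q R A ψ)) (g : SL(2, ℤ)) - _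
  rw [Residue.coresHom, ← add_sum_erase _ _ hi₀, ← hs]
  have hbase : extFun (alOp N q R A ψ) (Residue.cosetElt (Gamma0 (N * q)) (g : SL(2, ℤ)) i₀) =
      alOp N q R A ψ (Additive.ofMul g) := by
    have hr : (i₀.out)⁻¹ ∈ Gamma0 (N * q) := by
      have h : (i₀.out)⁻¹ * 1 ∈ Gamma0 (N * q) := by
        rw [← QuotientGroup.eq, QuotientGroup.out_eq']
      simpa using h
    rw [← extFun_coe (alOp N q R A ψ) g,
      ← (isHomOn_extFun (alOp N q R A ψ)).map_conj hr g.2, Residue.cosetElt, hfix, inv_inv]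
  rw [hbase, add_sub_cancel_left]
  rfl

end Prime

end FermatLib.Modular.Degeneracy
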