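import Fermat.Agent.Modular.CuspPeriods
import Mathlib.NumberTheory.ModularForms.NormTrace
import Mathlib.NumberTheory.ModularForms.QExpansion
import Mathlib.Analysis.SpecialFunctions.Pow.Asymptotics
import Mathlib.Algebra.Category.Grp.Injective
import Mathlib.Data.Nat.Choose.Sum

/-!
A cusp form all of whose cycle periods vanish is zero: its Eichler integral is a modular form of
weight `-w`.
-/

set_option autoImplicit false

noncomputable section

open UpperHalfPlane hiding I
open Matrix.SpecialLinearGroup CongruenceSubgroup Filter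
open scoped Manifold MatrixGroups ModularForm Topology

namespace FermatLib.Modular

/-- A linear functional on all functions extending `P ↦ ∫_I^z f P`. -/
theorem exists_primMul {f : ℍ → ℂ} (hf : MDiff f) (z : ℍ) :
    ∃ L : (ℍ → ℂ) →ₗ[ℂ] ℂ, ∀ P : ℍ → ℂ, MDiff P → L P = primUHP (f * P) z := by
  obtain ⟨L, hL⟩ := LinearMap.exists_extend (p := holFunUHP)
    { toFun := fun P ↦ primUHP (f * (P : ℍ → ℂ)) z
      map_add' := fun P Q ↦ by
        rw [Submodule.coe_add, mul_add, primUHP_add (hf.mul P.2) (hf.mul Q.2), Pi.add_apply]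
      map_smul' := fun c P ↦ by
        rw [Submodule.coe_smul, mul_smul_comm, primUHP_smul c (hf.mul P.2)]
        rfl }
  exact ⟨L, fun P hP ↦ LinearMap.congr_fun hL ⟨P, hP⟩⟩

open Classical in
/-- The functional `P ↦ ∫_I^z f P`. -/
def primMul (f : ℍ → ℂ) (z : ℍ) : (ℍ → ℂ) →ₗ[ℂ] ℂ :=
  if hf : MDiff f then (exists_primMul hf z).choose else 0

theorem primMul_apply {f P : ℍ → ℂ} (hf : MDiff f) (hP : MDiff P) (z : ℍ) :
    primMul f z P = primUHP (f * P) z := by
  rw [primMul, dif_pos hf]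
  exact (exists_primMul hf z).choose_spec P hP

/-- The polynomial `t ↦ (t - z) ^ n`. -/
def kerPoly (n : ℕ) (z : ℍ) : ℍ → ℂ := fun t ↦ ((t : ℂ) - (z : ℂ)) ^ n

theorem kerPoly_eq (n : ℕ) (z : ℍ) :
    kerPoly n z
      = ∑ j ∈ Finset.range (n + 1), ((n.choose j : ℂ) * (-(z : ℂ)) ^ (n - j)) • monoH j := by
  funext t
  rw [kerPoly, sub_eq_add_neg, add_pow, Finset.sum_apply]
  refine Finset.sum_congr rfl fun j _ ↦ ?_
  simp [monoH]
  ring

theorem kerPoly_mem_polyC (n : ℕ) (z : ℍ) : kerPoly n z ∈ polyC n := by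
  rw [kerPoly_eq]
  exact sum_mem fun j hj ↦ Submodule.smul_mem _ _
    (monoH_mem_polyC (Nat.le_of_lt_succ (Finset.mem_range.mp hj)))

/-- The Eichler integral of `h` with constants of integration `c`. -/
def eichlerSum (h : ℍ → ℂ) (c : ℕ → ℂ) (n : ℕ) (z : ℍ) : ℂ :=
  ∑ j ∈ Finset.range (n + 1),
    (n.choose j : ℂ) * (-(z : ℂ)) ^ (n - j) * (primUHP (h * monoH j) z + c j)

theorem apply_kerPoly_eq_eichlerSum {h : ℍ → ℂ} (hh : MDiff h) (χ : (ℍ → ℂ) →ₗ[ℂ] ℂ)
    (n : ℕ) (z : ℍ) :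
    (primMul h z + χ) (kerPoly n z) = eichlerSum h (fun j ↦ χ (monoH j)) n z := by
  rw [kerPoly_eq, map_sum, eichlerSum]
  refine Finset.sum_congr rfl fun j _ ↦ ?_
  rw [map_smul, LinearMap.add_apply, primMul_apply hh (mdifferentiable_monoH j), smul_eq_mul]

theorem mdifferentiable_eichlerSum {h : ℍ → ℂ} (hh : MDiff h) (c : ℕ → ℂ) (n : ℕ) :
    MDiff (eichlerSum h c n) := by
  rw [UpperHalfPlane.mdifferentiable_iff]
  intro z hz
  have : ((eichlerSum h c n) ∘ ofComplex) =ᶠ[𝓝 z] fun u ↦ ∑ j ∈ Finset.range (n + 1),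
      (n.choose j : ℂ) * (-u) ^ (n - j) * ((primUHP (h * monoH j) ∘ ofComplex) u + c j) := by
    filter_upwards [isOpen_upperHalfPlaneSet.mem_nhds hz] with u hu
    simp [eichlerSum, ofComplex_apply_of_im_pos hu]
  refine (DifferentiableAt.congr_of_eventuallyEq ?_ this).differentiableWithinAt
  exact DifferentiableAt.fun_sum fun j _ ↦
    ((differentiableAt_id.neg.pow _).const_mul _).mul
      (((isPrimUHP_primUHP (hh.mul (mdifferentiable_monoH j)) ⟨z, hz⟩).differentiableAt).add_const _)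

open Finset in
theorem hasDerivAt_eichlerSum_zero {h : ℍ → ℂ} (hh : MDiff h) (c : ℕ → ℂ) (z : ℍ) :
    HasDerivAt (eichlerSum h c 0 ∘ ofComplex) (h z) z := by
  have h1 := (isPrimUHP_primUHP (hh.mul (mdifferentiable_monoH 0)) z).add_const (c 0)
  have hfun : eichlerSum h c 0 ∘ ofComplex
      = fun u ↦ (primUHP (h * monoH 0) ∘ ofComplex) u + c 0 := by
    funext u; simp [eichlerSum]
  rw [hfun]
  simpa [monoH] using! h1

open Finset in
theorem hasDerivAt_eichlerSum_succ {h : ℍ → ℂ} (hh : MDiff h) (c : ℕ → ℂ) (n : ℕ) (z : ℍ) :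
    HasDerivAt (eichlerSum h c (n + 1) ∘ ofComplex) (-((n + 1 : ℕ) : ℂ) * eichlerSum h c n z) z := by
  have hev : eichlerSum h c (n + 1) ∘ ofComplex =ᶠ[𝓝 (z : ℂ)] fun u ↦
      ∑ j ∈ range (n + 2), ((n + 1).choose j : ℂ) * (-u) ^ (n + 1 - j) *
        ((primUHP (h * monoH j) ∘ ofComplex) u + c j) := by
    filter_upwards [isOpen_upperHalfPlaneSet.mem_nhds z.im_pos] with u hu
    simp [eichlerSum, ofComplex_apply_of_im_pos hu]
  have hd := HasDerivAt.fun_sum (u := range (n + 2)) fun j _ ↦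
    ((((hasDerivAt_id (z : ℂ)).neg).fun_pow (n + 1 - j)).const_mul (((n + 1).choose j : ℂ))).fun_mul
      ((isPrimUHP_primUHP (hh.mul (mdifferentiable_monoH j)) z).add_const (c j))
  refine (hd.congr_of_eventuallyEq hev).congr_deriv ?_
  simp only [Pi.neg_apply, id_eq, Pi.mul_apply, Function.comp_apply, ofComplex_apply, monoH_apply,
    sum_add_distrib]
  have h2 : ∑ j ∈ range (n + 2),
      ((n + 1).choose j : ℂ) * (-(z : ℂ)) ^ (n + 1 - j) * (h z * (z : ℂ) ^ j) = 0 := by
    have := (add_pow (z : ℂ) (-(z : ℂ)) (n + 1)).symm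
    rw [add_neg_cancel, zero_pow (Nat.succ_ne_zero n)] at this
    calc _ = h z * ∑ j ∈ range (n + 2),
          (z : ℂ) ^ j * (-(z : ℂ)) ^ (n + 1 - j) * ((n + 1).choose j : ℂ) := by
            rw [mul_sum]; exact sum_congr rfl fun j _ ↦ by ring
      _ = 0 := by rw [this, mul_zero]
  rw [h2, add_zero, sum_range_succ, eichlerSum, mul_sum]
  simp only [Nat.sub_self, Nat.cast_zero, zero_mul, mul_zero, add_zero]
  refine sum_congr rfl fun j hj ↦ ?_
  have hj' : j ≤ n := Nat.le_of_lt_succ (mem_range.mp hj)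
  have hc : ((n.choose j : ℂ)) * ((n + 1 : ℕ) : ℂ)
      = ((n + 1).choose j : ℂ) * ((n + 1 - j : ℕ) : ℂ) := by
    exact_mod_cast Nat.choose_mul_succ_eq n j
  rw [show n + 1 - j - 1 = n - j by omega]
  linear_combination (-(z : ℂ)) ^ (n - j) * (primUHP (h * monoH j) z + c j) * hc

theorem eq_zero_of_eichlerSum_eq_const {h : ℍ → ℂ} (hh : MDiff h) (c : ℕ → ℂ) (n : ℕ)
    {a : ℂ} (ha : ∀ z, eichlerSum h c n z = a) : h = 0 := by
  induction n generalizing a with
  | zero =>
    funext z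
    have hfun : eichlerSum h c 0 ∘ ofComplex = fun _ ↦ a := funext fun u ↦ ha _
    have := hasDerivAt_eichlerSum_zero hh c z
    rw [hfun] at this
    exact this.unique (hasDerivAt_const _ a)
  | succ n ih =>
    refine ih (a := 0) fun z ↦ ?_
    have hfun : eichlerSum h c (n + 1) ∘ ofComplex = fun _ ↦ a := funext fun u ↦ ha _
    have := hasDerivAt_eichlerSum_succ hh c n z
    rw [hfun] at this
    have := this.unique (hasDerivAt_const _ a)
    rcases mul_eq_zero.mp this with h0 | h0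
    · exact absurd h0 (neg_ne_zero.mpr (Nat.cast_ne_zero.mpr (Nat.succ_ne_zero n)))
    · exact h0

/-- A primitive of a bounded function grows at most linearly along vertical lines. -/
theorem exists_norm_primUHP_mul_monoH_le {h : ℍ → ℂ} (hh : MDiff h) {A C T : ℝ} (hA : 0 < A)
    (hC : 0 ≤ C) (hbd : ∀ z : ℍ, A ≤ z.im → ‖h z‖ ≤ C) (j : ℕ) :
    ∃ M, 0 ≤ M ∧ ∀ z : ℍ, 0 ≤ z.re → z.re ≤ T → A ≤ z.im →
      ‖primUHP (h * monoH j) z‖ ≤ M + C * (T + z.im) ^ (j + 1) := by
  set F := primUHP (h * monoH j) with hF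
  have hd : IsPrimUHP (h * monoH j) F := isPrimUHP_primUHP (hh.mul (mdifferentiable_monoH j))
  have hcont : ContinuousOn (fun x : ℝ ↦ (F ∘ ofComplex) ((x : ℂ) + (A : ℂ) * Complex.I))
      (Set.Icc 0 T) := by
    intro x _
    have him : 0 < ((x : ℂ) + (A : ℂ) * Complex.I).im := by simp [hA]
    refine ContinuousAt.continuousWithinAt ?_
    exact (hd ⟨_, him⟩).continuousAt.comp_of_eq (by fun_prop) rfl
  obtain ⟨M, hM⟩ := isCompact_Icc.exists_bound_of_continuousOn hcont
  refine ⟨max M 0, le_max_right _ _, fun z hz0 hzT hzA ↦ ?_⟩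
  let z₀ : ℂ := (z.re : ℂ) + (A : ℂ) * Complex.I
  let s : Set ℂ := Complex.re ⁻¹' (Set.Icc 0 T) ∩ Complex.im ⁻¹' (Set.Icc A z.im)
  have hs : Convex ℝ s :=
    ((convex_Icc 0 T).linear_preimage Complex.reLm).inter
      ((convex_Icc A z.im).linear_preimage Complex.imLm)
  have hpos : ∀ u ∈ s, 0 < u.im := fun u hu ↦ hA.trans_le hu.2.1
  have hbound : ∀ u ∈ s, ‖((h * monoH j) ∘ ofComplex) u‖ ≤ C * (T + z.im) ^ j := by
    intro u hu
    rw [Function.comp_apply, ofComplex_apply_of_im_pos (hpos u hu), Pi.mul_apply, monoH_apply,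
      norm_mul, norm_pow]
    refine mul_le_mul (hbd _ hu.2.1) (pow_le_pow_left₀ (norm_nonneg _) ?_ _) (by positivity) hC
    refine (Complex.norm_le_abs_re_add_abs_im u).trans ?_
    rw [abs_of_nonneg hu.1.1, abs_of_pos (hpos u hu)]
    exact add_le_add hu.1.2 hu.2.2
  have hmv := hs.norm_image_sub_le_of_norm_hasDerivWithin_le (f := F ∘ ofComplex)
    (f' := (h * monoH j) ∘ ofComplex) (C := C * (T + z.im) ^ j)
    (fun u hu ↦ by
      have := (hd ⟨u, hpos u hu⟩).hasDerivWithinAt (s := s)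
      simpa [ofComplex_apply_of_im_pos (hpos u hu)] using! this)
    hbound (x := z₀) (y := (z : ℂ))
    ⟨by simp [z₀, hz0, hzT], by simp [z₀, hzA]⟩
    ⟨by simp [hz0, hzT], by simp [hzA]⟩
  have hnorm : ‖(z : ℂ) - z₀‖ = z.im - A := by
    have : (z : ℂ) - z₀ = ((z.im - A : ℝ) : ℂ) * Complex.I := by
      apply Complex.ext <;> simp [z₀]
    rw [this, norm_mul, Complex.norm_I, mul_one, Complex.norm_real, Real.norm_eq_abs,
      abs_of_nonneg (by linarith)]
  have h0 : ‖(F ∘ ofComplex) z₀‖ ≤ max M 0 := (hM z.re ⟨hz0, hzT⟩).trans (le_max_left _ _)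
  rw [hnorm, Function.comp_apply, ofComplex_apply] at hmv
  have hT : 0 ≤ T + z.im := by linarith [z.im_pos]
  calc ‖F z‖ ≤ ‖(F ∘ ofComplex) z₀‖ + C * (T + z.im) ^ j * (z.im - A) :=
        norm_le_norm_add_norm_sub' _ _ |>.trans (by gcongr)
    _ ≤ max M 0 + C * (T + z.im) ^ (j + 1) := by
        rw [pow_succ, ← mul_assoc]
        gcongr
        linarith

/-- A periodic Eichler integral of a bounded function is bounded at infinity. -/
theorem isBoundedAtImInfty_eichlerSum {h : ℍ → ℂ} (hh : MDiff h) (hbdd : IsBoundedAtImInfty h)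
    (c : ℕ → ℂ) (n : ℕ) {T : ℝ} (hT : 0 < T)
    (hper : ∀ z : ℍ, eichlerSum h c n (T +ᵥ z) = eichlerSum h c n z) :
    IsBoundedAtImInfty (eichlerSum h c n) := by
  set G := eichlerSum h c n with hG
  obtain ⟨C₀, A₀, hC₀⟩ := isBoundedAtImInfty_iff.mp hbdd
  set C := max C₀ 0
  set A := max A₀ 1
  have hA : 0 < A := zero_lt_one.trans_le (le_max_right _ _)
  have hbd : ∀ z : ℍ, A ≤ z.im → ‖h z‖ ≤ C := fun z hz ↦
    (hC₀ z ((le_max_left _ _).trans hz)).trans (le_max_left _ _)
  choose M hM0 hM using fun j ↦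
    exists_norm_primUHP_mul_monoH_le (T := T) hh hA (le_max_right _ _) hbd j
  set K := ∑ j ∈ Finset.range (n + 1), (n.choose j : ℝ) * (M j + C + ‖c j‖)
  have hstrip : ∀ z : ℍ, 0 ≤ z.re → z.re ≤ T → A ≤ z.im →
      ‖G z‖ ≤ K * (1 + T + z.im) ^ (n + 1) := by
    intro z hz0 hzT hzA
    set u := 1 + T + z.im
    have hu : 1 ≤ u := by linarith [z.im_pos]
    rw [hG, eichlerSum, Finset.sum_mul]
    refine (norm_sum_le _ _).trans (Finset.sum_le_sum fun j hj ↦ ?_)
    have hj' : j ≤ n := Nat.le_of_lt_succ (Finset.mem_range.mp hj)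
    rw [norm_mul, norm_mul, norm_pow, norm_neg, Complex.norm_natCast, mul_assoc, mul_assoc]
    refine mul_le_mul_of_nonneg_left ?_ (Nat.cast_nonneg _)
    have hzu : ‖(z : ℂ)‖ ≤ u := by
      refine (Complex.norm_le_abs_re_add_abs_im _).trans ?_
      rw [coe_re, coe_im, abs_of_nonneg hz0, abs_of_pos z.im_pos]
      linarith
    have hone : 1 ≤ u ^ (j + 1) := one_le_pow₀ hu
    have hj1 : ‖primUHP (h * monoH j) z + c j‖ ≤ (M j + C + ‖c j‖) * u ^ (j + 1) := by
      have hpow : (T + z.im) ^ (j + 1) ≤ u ^ (j + 1) :=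
        pow_le_pow_left₀ (by linarith [z.im_pos]) (by linarith) _
      refine (norm_add_le _ _).trans ((add_le_add_left (hM j z hz0 hzT hzA) _).trans ?_)
      nlinarith [hM0 j, norm_nonneg (c j), mul_le_mul_of_nonneg_left hpow (le_max_right C₀ 0),
        mul_le_mul_of_nonneg_left hone (hM0 j),
        mul_le_mul_of_nonneg_left hone (norm_nonneg (c j))]
    refine (mul_le_mul (pow_le_pow_left₀ (norm_nonneg _) hzu _) hj1 (norm_nonneg _)
      (by positivity)).trans_eq ?_
    rw [show n + 1 = (n - j) + (j + 1) by omega, pow_add]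
    ring
  have hperC : Function.Periodic (G ∘ ofComplex) (T : ℂ) := by
    intro u
    rcases le_or_gt u.im 0 with hu | hu
    · have hu' : (u + (T : ℂ)).im ≤ 0 := by simpa using hu
      simp [ofComplex_apply_of_im_nonpos hu, ofComplex_apply_of_im_nonpos hu']
    · have hu' : 0 < (u + (T : ℂ)).im := by simpa using hu
      simp only [Function.comp_apply, ofComplex_apply_of_im_pos hu, ofComplex_apply_of_im_pos hu']
      rw [← hper ⟨u, hu⟩]
      congr 1
      exact UpperHalfPlane.ext (by simp [add_comm])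
  have hgrowth : ∀ u : ℂ, A ≤ u.im → ‖(G ∘ ofComplex) u‖ ≤ K * (1 + T + u.im) ^ (n + 1) := by
    intro u hu
    have hpos : 0 < (u - (⌊u.re / T⌋ : ℂ) * (T : ℂ)).im := by simpa using hA.trans_le hu
    rw [← hperC.sub_int_mul_eq ⌊u.re / T⌋ (x := u), Function.comp_apply,
      ofComplex_apply_of_im_pos hpos]
    have h1 := Int.floor_le (u.re / T)
    have h2 := Int.lt_floor_add_one (u.re / T)
    rw [le_div_iff₀ hT] at h1
    rw [div_lt_iff₀ hT] at h2
    refine (hstrip _ ?_ ?_ ?_).trans_eq ?_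
    · simp; linarith
    · simp; linarith
    · simpa using hu
    · simp
  let g : ℂ → ℂ := fun u ↦ (G ∘ ofComplex) u * Function.Periodic.qParam T u
  have hq : Function.Periodic (Function.Periodic.qParam T) (T : ℂ) := by
    intro u
    have hT' : (T : ℂ) ≠ 0 := by exact_mod_cast hT.ne'
    rw [Function.Periodic.qParam, Function.Periodic.qParam,
      show 2 * (Real.pi : ℂ) * Complex.I * (u + T) / T
        = 2 * Real.pi * Complex.I * u / T + 2 * Real.pi * Complex.I by field_simp,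
      Complex.exp_add, Complex.exp_two_pi_mul_I, mul_one]
  have hgper : Function.Periodic g (T : ℂ) := fun u ↦ by simp only [g, hperC u, hq u]
  have hev : ∀ᶠ u : ℂ in comap Complex.im atTop, A ≤ u.im :=
    tendsto_comap.eventually (eventually_ge_atTop A)
  have hG_diff : ∀ u : ℂ, 0 < u.im → DifferentiableAt ℂ (G ∘ ofComplex) u := fun u hu ↦
    mdifferentiableAt_iff.mp (mdifferentiable_eichlerSum hh c n ⟨u, hu⟩)
  have hhol : ∀ᶠ u in comap Complex.im atTop, DifferentiableAt ℂ g u := by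
    filter_upwards [hev] with u hu
    exact (hG_diff u (hA.trans_le hu)).mul Function.Periodic.differentiable_qParam.differentiableAt
  have hlim : Tendsto (fun y : ℝ ↦ K * (1 + T + y) ^ (n + 1) * Real.exp (-2 * Real.pi * y / T))
      atTop (𝓝 0) := by
    have h1 := (tendsto_rpow_mul_exp_neg_mul_atTop_nhds_zero ((n + 1 : ℕ) : ℝ) (2 * Real.pi / T)
      (div_pos Real.two_pi_pos hT)).comp (tendsto_atTop_add_const_left atTop (1 + T) tendsto_id)
    have h2 := h1.const_mul (K * Real.exp (2 * Real.pi / T * (1 + T)))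
    rw [mul_zero] at h2
    refine h2.congr fun y ↦ ?_
    simp only [Function.comp_apply, id_eq, Real.rpow_natCast]
    rw [show (-2 * Real.pi * y / T)
      = 2 * Real.pi / T * (1 + T) + -(2 * Real.pi / T) * (1 + T + y) by field_simp; ring,
      Real.exp_add]
    ring
  have hzero : ZeroAtFilter (comap Complex.im atTop) g := by
    refine squeeze_zero_norm' ?_ (hlim.comp tendsto_comap)
    filter_upwards [hev] with u hu
    simp only [g, norm_mul, Function.Periodic.norm_qParam, Function.comp_apply]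
    exact mul_le_mul_of_nonneg_right (hgrowth u hu) (Real.exp_pos _).le
  obtain ⟨B, hB⟩ :=
    (Function.Periodic.exp_decay_of_zero_at_inf hT hgper hhol hzero).bound
  obtain ⟨A₁, hA₁⟩ := eventually_atTop.mp (eventually_comap.mp hB)
  refine isBoundedAtImInfty_iff.mpr ⟨B, A₁, fun z hz ↦ ?_⟩
  have := hA₁ z.im hz (z : ℂ) rfl
  simp only [g, norm_mul, Function.Periodic.norm_qParam, Function.comp_apply, ofComplex_apply,
    Real.norm_eq_abs, abs_of_pos (Real.exp_pos _)] at this
  exact le_of_mul_le_mul_right this (Real.exp_pos _)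

end FermatLib.Modular

end
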