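import Mathlib.FieldTheory.Minpoly.Basic
import Mathlib.RingTheory.Algebraic.Integral
import Fermat.Agent.Modular.FieldGeneration

/-!
# `[L(X₀(N)) : L(j)] = ψ(N)`
-/

set_option autoImplicit false

noncomputable section

open ModularCurve

namespace FermatLib.Modular

variable (L : Type*) [Field L] [Algebra ℚ L] (N : ℕ) [NeZero N]

/-- `j` as an element of the function field over `L`. -/
def jElem : laurentBaseChange L (modularFunctionFieldFull N) :=
  ⟨coeffEmb L jq, coeffEmb_mem_laurentBaseChange L
    ((modularFunctionField_le_full N) (jq_mem N))⟩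

/-- `j (q^N)` as an element of the function field over `L`. -/
def jScaleElem : laurentBaseChange L (modularFunctionFieldFull N) :=
  ⟨coeffEmb L (qExpand ℚ N jq), coeffEmb_mem_laurentBaseChange L (jqd_mem_full N dvd_rfl)⟩

@[simp]
theorem coe_jElem : (jElem L N : LaurentSeries L) = coeffEmb L jq := rfl

@[simp]
theorem coe_jScaleElem : (jScaleElem L N : LaurentSeries L) = coeffEmb L (qExpand ℚ N jq) := rfl

theorem adjoin_jElem_jScaleElem :
    IntermediateField.adjoin L {jElem L N, jScaleElem L N} = ⊤ := by
  apply IntermediateField.lift_injective (laurentBaseChange L (modularFunctionFieldFull N))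
  rw [IntermediateField.lift_top, IntermediateField.lift_adjoin, Set.image_pair, coe_jElem,
    coe_jScaleElem, laurentBaseChange_full_eq_adjoin]

theorem coe_aeval_jElem (p : Polynomial L) :
    ((Polynomial.aeval (jElem L N) p : laurentBaseChange L (modularFunctionFieldFull N)) :
      LaurentSeries L) = Polynomial.aeval (coeffEmb L jq) p :=
  (Polynomial.aeval_algHom_apply (laurentBaseChange L (modularFunctionFieldFull N)).val _ p).symm

theorem transcendental_jElem : Transcendental L (jElem L N) :=
  transcendental_iff.mpr fun p hp => (aeval_coeffEmb_jq_eq_zero_iff p).mp <| by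
    rw [← coe_aeval_jElem L N, hp, ZeroMemClass.coe_zero]

/-- The modular polynomial over `L(j)`. -/
def modularPolyOver : Polynomial (IntermediateField.adjoin L {jElem L N}) :=
  (modularPolynomialData N).Φ.map
    (Polynomial.aeval (R := ℤ) (IntermediateField.AdjoinSimple.gen L (jElem L N))).toRingHom

theorem modularPolyOver_monic : (modularPolyOver L N).Monic :=
  (modularPolynomialData N).monic.map _

theorem natDegree_modularPolyOver : (modularPolyOver L N).natDegree = dedekindPsi N := by
  rw [modularPolyOver, (modularPolynomialData N).monic.natDegree_map,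
    (modularPolynomialData N).natDegree_eq]

theorem aeval_jScaleElem_modularPolyOver :
    Polynomial.aeval (jScaleElem L N) (modularPolyOver L N) = 0 := by
  rw [modularPolyOver, Polynomial.aeval_def, Polynomial.eval₂_map]
  apply (laurentBaseChange L (modularFunctionFieldFull N)).val.toRingHom.injective
  rw [Polynomial.hom_eval₂, map_zero]
  have h := congrArg (coeffEmb L) (modularPolynomialData N).eval_eq_zero
  rw [Polynomial.hom_eval₂, map_zero] at h
  rw [← h]
  congr 1
  refine Polynomial.ringHom_ext' (Subsingleton.elim _ _) ?_
  simp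

theorem isIntegral_jScaleElem :
    IsIntegral (IntermediateField.adjoin L {jElem L N}) (jScaleElem L N) :=
  ⟨_, modularPolyOver_monic L N, aeval_jScaleElem_modularPolyOver L N⟩

theorem eq_zero_of_aeval_jScaleElem {m : Polynomial (IntermediateField.adjoin L {jElem L N})}
    (hdeg : m.natDegree < dedekindPsi N) (hm : Polynomial.aeval (jScaleElem L N) m = 0) :
    m = 0 := by
  classical
  set ψ := dedekindPsi N
  set F := laurentBaseChange L (modularFunctionFieldFull N)
  have hfr : ∀ c : IntermediateField.adjoin L {jElem L N}, ∃ r s : Polynomial L,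
      s ≠ 0 ∧ Polynomial.aeval (jElem L N) r = (c : F) * Polynomial.aeval (jElem L N) s := by
    intro c
    obtain ⟨r, s, h⟩ := (IntermediateField.mem_adjoin_simple_iff L (c : F)).mp c.2
    rcases eq_or_ne (Polynomial.aeval (jElem L N) s) 0 with hs | hs
    · exact ⟨0, 1, one_ne_zero, by rw [h, hs]; simp⟩
    · refine ⟨r, s, fun h0 => hs (by rw [h0, map_zero]), ?_⟩
      rw [h, div_mul_cancel₀ _ hs]
  choose r s hs hrs using hfr
  set T : ℕ → Polynomial L := fun b =>
    r (m.coeff b) * ∏ i ∈ (Finset.range ψ).erase b, s (m.coeff i)
  have hprod : ∀ b < ψ, Polynomial.aeval (jElem L N) (T b) =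
      (m.coeff b : F) * Polynomial.aeval (jElem L N) (∏ i ∈ Finset.range ψ, s (m.coeff i)) := by
    intro b hb
    rw [← Finset.mul_prod_erase _ _ (Finset.mem_range.mpr hb), map_mul, map_mul, hrs, mul_assoc]
  set P : Polynomial (Polynomial L) := ∑ b ∈ Finset.range ψ, Polynomial.monomial b (T b)
  have hPdeg : P.degree < (ψ : WithBot ℕ) := by
    refine (Polynomial.degree_sum_le _ _).trans_lt ((Finset.sup_lt_iff ?_).mpr fun k hk => ?_)
    · exact WithBot.bot_lt_coe _
    · exact (Polynomial.degree_monomial_le _ _).trans_lt (by exact_mod_cast Finset.mem_range.mp hk)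
  have hP0 : biSer L N P = 0 := by
    have key : (∑ b ∈ Finset.range ψ,
        Polynomial.aeval (jElem L N) (T b) * jScaleElem L N ^ b) = 0 := by
      rw [Finset.sum_congr rfl fun b hb => by rw [hprod b (Finset.mem_range.mp hb)]]
      rw [Polynomial.aeval_eq_sum_range' hdeg] at hm
      have h1 : ∀ b, (m.coeff b : F) * Polynomial.aeval (jElem L N)
          (∏ i ∈ Finset.range ψ, s (m.coeff i)) * jScaleElem L N ^ b =
          Polynomial.aeval (jElem L N) (∏ i ∈ Finset.range ψ, s (m.coeff i)) *
            (m.coeff b • jScaleElem L N ^ b) := by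
        intro b
        rw [Algebra.smul_def, IntermediateField.algebraMap_apply]
        ring
      rw [Finset.sum_congr rfl fun b _ => h1 b, ← Finset.mul_sum, hm, mul_zero]
    have h := congrArg (F.val) key
    rw [map_sum, map_zero] at h
    rw [map_sum]
    refine Eq.trans (Finset.sum_congr rfl fun b _ => ?_) h
    rw [biSer, Polynomial.coe_eval₂RingHom, Polynomial.eval₂_monomial, map_mul F.val, map_pow F.val,
      IntermediateField.coe_val, coe_aeval_jElem, coe_jScaleElem]
    rfl
  have hP := eq_zero_of_biSer_eq_zero L N hPdeg hP0
  ext1 b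
  rw [Polynomial.coeff_zero]
  rcases lt_or_ge b ψ with hb | hb
  · have hT : T b = 0 := by
      have h := congrArg (fun p : Polynomial (Polynomial L) => p.coeff b) hP
      simpa [P, Polynomial.coeff_monomial, Finset.mem_range, hb] using h
    have h := hprod b hb
    rw [hT, map_zero, eq_comm, mul_eq_zero] at h
    refine (ZeroMemClass.coe_eq_zero).mp (h.resolve_right fun h0 => ?_)
    exact Finset.prod_ne_zero_iff.mpr (fun i _ => hs (m.coeff i))
      ((transcendental_iff.mp (transcendental_jElem L N)) _ h0)
  · exact Polynomial.coeff_eq_zero_of_natDegree_lt (hdeg.trans_le hb)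

theorem natDegree_minpoly_jScaleElem :
    (minpoly (IntermediateField.adjoin L {jElem L N}) (jScaleElem L N)).natDegree
      = dedekindPsi N := by
  refine le_antisymm ?_ (not_lt.mp fun h => minpoly.ne_zero (isIntegral_jScaleElem L N)
    (eq_zero_of_aeval_jScaleElem L N h (minpoly.aeval _ _)))
  rw [← natDegree_modularPolyOver L N]
  exact Polynomial.natDegree_le_natDegree (minpoly.min _ _ (modularPolyOver_monic L N)
    (aeval_jScaleElem_modularPolyOver L N))

set_option synthInstance.maxHeartbeats 100000 in
theorem adjoin_jScaleElem_eq_top :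
    IntermediateField.adjoin (IntermediateField.adjoin L {jElem L N}) {jScaleElem L N} = ⊤ := by
  rw [eq_top_iff]
  intro x _
  have hx : x ∈ IntermediateField.adjoin L {jElem L N, jScaleElem L N} := by
    rw [adjoin_jElem_jScaleElem]; exact IntermediateField.mem_top
  induction hx using IntermediateField.adjoin_induction with
  | mem y hy =>
    rcases hy with rfl | rfl
    · exact IntermediateField.algebraMap_mem _
        (IntermediateField.AdjoinSimple.gen L (jElem L N))
    · exact IntermediateField.mem_adjoin_simple_self _ _
  | algebraMap c =>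
    exact IntermediateField.algebraMap_mem _
      (algebraMap L (IntermediateField.adjoin L {jElem L N}) c)
  | add y z _ _ hy hz => exact add_mem (hy trivial) (hz trivial)
  | inv y _ hy => exact inv_mem (hy trivial)
  | mul y z _ _ hy hz => exact mul_mem (hy trivial) (hz trivial)

set_option synthInstance.maxHeartbeats 100000 in
/-- `[L(X₀(N)) : L(j)] = ψ(N)`. -/
theorem finrank_adjoin_jElem :
    Module.finrank (IntermediateField.adjoin L {jElem L N})
      (laurentBaseChange L (modularFunctionFieldFull N)) = dedekindPsi N := by
  rw [← natDegree_minpoly_jScaleElem L N,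
    ← IntermediateField.adjoin.finrank (isIntegral_jScaleElem L N), adjoin_jScaleElem_eq_top]
  exact IntermediateField.finrank_top'.symm

set_option synthInstance.maxHeartbeats 100000 in
theorem finiteDimensional_adjoin_jElem :
    FiniteDimensional (IntermediateField.adjoin L {jElem L N})
      (laurentBaseChange L (modularFunctionFieldFull N)) :=
  Module.finite_of_finrank_pos (by rw [finrank_adjoin_jElem]; exact dedekindPsi_pos)

end FermatLib.Modular

end
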