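import Fermat.Agent.Modular.PermTriple
import Fermat.Agent.Modular.Gamma0Orbits

/-!
The classical genus formula of `X₀(N)` is a natural number: Euler characteristic bound and parity
for the action of `S`, `T`, `S T` on `SL(2, ℤ) ⧸ Γ₀(N)`.
-/

set_option autoImplicit false

noncomputable section

open ModularGroup
open scoped MatrixGroups Pointwise

namespace FermatLib.Modular

open ModularCurve

theorem cycleCount_toPerm {G α : Type*} [Group G] [MulAction G α] [Fintype α] (g : G) :
    cycleCount (MulAction.toPerm g : Equiv.Perm α)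
      = Nat.card (MulAction.orbitRel.Quotient (Subgroup.zpowers g) α) := by
  have key : ∀ (n : ℤ) (x : α), ((MulAction.toPerm g : Equiv.Perm α) ^ n) x = g ^ n • x := by
    intro n x
    rw [show (MulAction.toPerm g : Equiv.Perm α) = MulAction.toPermHom G α g from rfl,
      ← map_zpow]
    rfl
  refine Nat.card_congr (Quotient.congrRight fun x y => ?_)
  rw [MulAction.orbitRel_apply, MulAction.mem_orbit_iff]
  constructor
  · rintro ⟨n, hn⟩
    refine ⟨⟨g ^ (-n), Subgroup.zpow_mem _ (Subgroup.mem_zpowers g) _⟩, ?_⟩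
    rw [Subgroup.mk_smul, ← hn, key, smul_smul, ← zpow_add, neg_add_cancel, zpow_zero, one_smul]
  · rintro ⟨⟨h, hh⟩, hn⟩
    obtain ⟨n, rfl⟩ := Subgroup.mem_zpowers_iff.1 hh
    refine ⟨-n, ?_⟩
    rw [key, ← hn, Subgroup.mk_smul, smul_smul, ← zpow_add, neg_add_cancel, zpow_zero, one_smul]

theorem eq_univ_of_S_T_invariant {N : ℕ} [NeZero N] (s : Set (Gamma0Coset N)) (hne : s.Nonempty)
    (hS : ∀ x ∈ s, S • x ∈ s) (hT : ∀ x ∈ s, T • x ∈ s) : s = Set.univ := by
  have : Finite (Gamma0Coset N) :=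
    Nat.finite_of_card_ne_zero (by rw [card_gamma0Coset]; exact dedekindPsi_pos.ne')
  have hstab : ∀ g : SL(2, ℤ), (∀ x ∈ s, g • x ∈ s) →
      g ∈ MulAction.stabilizer SL(2, ℤ) s := by
    intro g hg
    rw [MulAction.mem_stabilizer_iff]
    exact Set.eq_of_subset_of_ncard_le (Set.smul_set_subset_iff.2 hg)
      (le_of_eq (Set.ncard_image_of_injective s (MulAction.injective g)).symm) s.toFinite
  have htop : MulAction.stabilizer SL(2, ℤ) s = ⊤ := by
    rw [eq_top_iff, ← SpecialLinearGroup.SL2Z_generators, Subgroup.closure_le]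
    rintro x (rfl | rfl)
    · exact hstab _ hS
    · exact hstab _ hT
  obtain ⟨x, hx⟩ := hne
  refine Set.eq_univ_of_forall fun y => ?_
  obtain ⟨g, rfl⟩ := MulAction.exists_smul_eq SL(2, ℤ) x y
  have hg : g • s = s := (htop ▸ Subgroup.mem_top g : g ∈ MulAction.stabilizer SL(2, ℤ) s)
  rw [← hg]
  exact Set.smul_mem_smul_set hx

/-- The genus formula of `X₀(N)` is a natural number. -/
theorem exists_nat_eq_genusFormula (N : ℕ) [NeZero N] : ∃ g : ℕ, (g : ℚ) = genusFormula N := by
  have hn : Nat.card (Gamma0Coset N) = dedekindPsi N := card_gamma0Coset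
  have : Finite (Gamma0Coset N) :=
    Nat.finite_of_card_ne_zero (by rw [hn]; exact dedekindPsi_pos.ne')
  have : Fintype (Gamma0Coset N) := Fintype.ofFinite _
  rw [Nat.card_eq_fintype_card] at hn
  let σ : Equiv.Perm (Gamma0Coset N) := MulAction.toPerm S
  let τ : Equiv.Perm (Gamma0Coset N) := MulAction.toPerm T
  have h1 : 2 * cycleCount σ = dedekindPsi N + nuTwo N := by
    rw [cycleCount_toPerm]; exact two_mul_card_orbitsOverI
  have hmul : σ * τ = MulAction.toPerm (S * T) := by
    ext x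
    exact (mul_smul S T x).symm
  have h2 : 3 * cycleCount (σ * τ) = dedekindPsi N + 2 * nuThree N := by
    rw [hmul, cycleCount_toPerm]; exact three_mul_card_orbitsOverRho
  have h3 : cycleCount τ = cuspCount N := by
    rw [cycleCount_toPerm]; exact card_cuspOrbit
  have hle := cycleCount_sum_le σ τ (fun s hne hS hT => eq_univ_of_S_T_invariant s hne hS hT)
  obtain ⟨k, hk⟩ := even_card_add_cycleCount σ τ
  set a := cycleCount σ
  set b := cycleCount (σ * τ)
  rw [h3, hn] at hle hk
  obtain ⟨g, hg⟩ : ∃ g, dedekindPsi N + 2 = a + cuspCount N + b + 2 * g :=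
    ⟨(dedekindPsi N + 2 - (a + cuspCount N + b)) / 2, by omega⟩
  refine ⟨g, ?_⟩
  have hgQ := congrArg (Nat.cast : ℕ → ℚ) hg
  have h1Q := congrArg (Nat.cast : ℕ → ℚ) h1
  have h2Q := congrArg (Nat.cast : ℕ → ℚ) h2
  push_cast at hgQ h1Q h2Q
  rw [genusFormula]
  linarith

end FermatLib.Modular
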