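import Fermat.Agent.Modular.GenusCount
import Fermat.Agent.Modular.GenusNat

/-!
Genus of a function field with the ramification of `X₀(N)` over the `j`-line.
-/

set_option autoImplicit false

noncomputable section

open KaehlerDifferential AlgebraicCurve ModularCurve

namespace FermatLib.Modular

/-- A curve with the fibre counts of `X₀(N)` over `∞`, `0`, `1728` has genus `genusFormula N`. -/
theorem genus_eq_genusFormula_of_fibres {K F : Type*} [Field K] [CharZero K] [Field F]
    [Algebra K F] [HasPrincipalDivisors K F] [HasCanonicalDivisor (K := K) (F := F)]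
    [∀ v : Place K F, v.DCoordGenerates] (N : ℕ) [NeZero N] (x : F)
    (hdeg : ∀ v : Place K F, v.deg = 1)
    (hD : D K F x ≠ 0) (hspan : ∀ ω : Ω[F⁄K], ∃ f : F, ω = f • D K F x)
    (hdiff : ∀ (v : Place K F) (c : K), 0 < v.ord (x - algebraMap K F c) →
      v.ordDifferential (D K F x) = v.ord (x - algebraMap K F c) - 1)
    (hdiffInfty : ∀ v : Place K F, v.ord x < 0 → v.ordDifferential (D K F x) = v.ord x - 1)
    (hres : ∀ v : Place K F, 0 ≤ v.ord x → ∃ c : K, 0 < v.ord (x - algebraMap K F c))
    (hunram : ∀ (v : Place K F) (c : K), c ≠ 0 → c ≠ 1728 →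
      0 < v.ord (x - algebraMap K F c) → v.ord (x - algebraMap K F c) = 1)
    (hsum : ∀ s : Finset (Place K F), (∀ v, v ∈ s ↔ v.ord x < 0) →
      ∑ v ∈ s, -(v.ord x) = (dedekindPsi N : ℤ))
    (hinfty : Nat.card {v : Place K F // v.ord x < 0} = cuspCount N)
    (hzero : 3 * Nat.card {v : Place K F // 0 < v.ord x} = dedekindPsi N + 2 * nuThree N)
    (h1728 : 2 * Nat.card {v : Place K F // 0 < v.ord (x - algebraMap K F 1728)}
      = dedekindPsi N + nuTwo N) :
    (genus K F : ℚ) = genusFormula N := by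
  obtain ⟨g, hg⟩ := exists_nat_eq_genusFormula N
  have hxc : ∀ c : K, x ≠ algebraMap K F c := fun c hc => hD (by rw [hc, Derivation.map_algebraMap])
  have hdegree := GenusCount.degree_divisor_D x 0 1728 (by norm_num) hdeg (hxc 0) (hxc 1728) hD
    hdiff hdiffInfty hres hunram _ hsum
  rw [map_zero, sub_zero, hinfty] at hdegree
  rw [GenusCount.genus_eq_of_degree hD hspan g, hg]
  rw [hdegree]
  set a := Nat.card {v : Place K F // 0 < v.ord x}
  set b := Nat.card {v : Place K F // 0 < v.ord (x - algebraMap K F 1728)}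
  have hzQ := congrArg (Nat.cast : ℕ → ℚ) hzero
  have h17Q := congrArg (Nat.cast : ℕ → ℚ) h1728
  push_cast at hzQ h17Q
  have hq : ((dedekindPsi N : ℤ) - cuspCount N - a - b : ℚ) = ((2 * (g : ℤ) - 2 : ℤ) : ℚ) := by
    push_cast
    rw [hg, genusFormula]
    linarith
  exact_mod_cast hq

end FermatLib.Modular
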