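import Fermat.Agent.Modular.GenusX0
import Fermat.Agent.Curve.KaehlerPlace

/-!
Genus of a curve over an algebraically closed field of characteristic zero with the fibre counts
of `X₀(N)` over the `j`-line.
-/

set_option autoImplicit false

noncomputable section

open KaehlerDifferential AlgebraicCurve ModularCurve

namespace FermatLib.Modular

theorem genus_eq_genusFormula_of_curve {K F : Type*} [Field K] [CharZero K] [IsAlgClosed K]
    [Field F] [Algebra K F] [IsCurveOver K F] [HasCanonicalDivisor (K := K) (F := F)]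
    (N : ℕ) [NeZero N] (x : F)
    (hunram : ∀ (v : Place K F) (c : K), c ≠ 0 → c ≠ 1728 →
      0 < v.ord (x - algebraMap K F c) → v.ord (x - algebraMap K F c) = 1)
    (hsum : ∀ s : Finset (Place K F), (∀ v, v ∈ s ↔ v.ord x < 0) →
      ∑ v ∈ s, -(v.ord x) = (dedekindPsi N : ℤ))
    (hinfty : Nat.card {v : Place K F // v.ord x < 0} = cuspCount N)
    (hzero : 3 * Nat.card {v : Place K F // 0 < v.ord x} = dedekindPsi N + 2 * nuThree N)
    (h1728 : 2 * Nat.card {v : Place K F // 0 < v.ord (x - algebraMap K F 1728)}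
      = dedekindPsi N + nuTwo N) :
    (genus K F : ℚ) = genusFormula N := by
  have hdeg : ∀ v : Place K F, v.deg = 1 := IsCurveOver.deg_eq_one_of_isAlgClosed
  obtain ⟨v₀, hv₀⟩ : ∃ v : Place K F, v.ord x < 0 := by
    by_contra hne
    simp only [not_exists] at hne
    have h := hsum ∅ (fun v => by simp [hne v])
    rw [Finset.sum_empty] at h
    have := dedekindPsi_pos (N := N)
    omega
  have hD : D K F x ≠ 0 :=
    (FermatLib.Curve.ordDifferential_D_of_deg_eq_one v₀ (hdeg v₀) IsCurveOver.finrank_kaehler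
      (Int.cast_ne_zero.mpr hv₀.ne)).1
  have hnotconst : ∀ c : K, x ≠ algebraMap K F c :=
    fun c hc => hD (by rw [hc, Derivation.map_algebraMap])
  refine genus_eq_genusFormula_of_fibres N x hdeg hD (fun ω => ?_)
    (fun v c h => FermatLib.Curve.ordDifferential_D_of_pos v c h)
    (fun v h => FermatLib.Curve.ordDifferential_D_of_neg v h) (fun v h => ?_)
    hunram hsum hinfty hzero h1728
  · obtain ⟨f, hf⟩ := (finrank_eq_one_iff_of_nonzero' _ hD).mp IsCurveOver.finrank_kaehler ω
    exact ⟨f, hf.symm⟩
  · obtain ⟨c, hc⟩ := FermatLib.Curve.exists_const_sub v (hdeg v) (Or.inr h)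
    exact ⟨c, hc.resolve_left (hnotconst c)⟩

end FermatLib.Modular
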