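import Fermat.Agent.Modular.CuspPeriods
import Fermat.Prelude.Def_ModularForm_HeckeOperatorForms
import Fermat.Prelude.Sol.S_ModularForm_heckeT_slash_eq_self_of_mem_Gamma0
import Mathlib.Data.Fintype.OfMap

/-!
The transposes of the Hecke operators preserve the lattice of cycle periods.
-/

set_option autoImplicit false

noncomputable section

open UpperHalfPlane hiding I
open Matrix.SpecialLinearGroup CongruenceSubgroup
open scoped Manifold MatrixGroups ModularForm

namespace FermatLib.Modular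

/-- A finite family of integral matrices of positive determinant which is permuted, up to left
multiplication by `Γ₀(N)`, by right multiplication by `Γ₀(N)`. -/
structure HeckeFamily (N : ℕ) (ι : Type) where
  mat : ι → GL (Fin 2) ℝ
  det_pos : ∀ i, 0 < (mat i).det.val
  int_entries : ∀ i a b, ∃ n : ℤ, mat i a b = (n : ℝ)
  perm : Gamma0 N → Equiv.Perm ι
  cofactor : Gamma0 N → ι → Gamma0 N
  comm : ∀ (γ : Gamma0 N) (i : ι), mat i * mapGL ℝ (γ : SL(2, ℤ))
    = mapGL ℝ (cofactor γ i : SL(2, ℤ)) * mat (perm γ i)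

namespace HeckeFamily

variable {N : ℕ} {ι : Type}

/-- Build a family from existence statements. -/
def ofExists (mat : ι → GL (Fin 2) ℝ) (det_pos : ∀ i, 0 < (mat i).det.val)
    (int_entries : ∀ i a b, ∃ n : ℤ, mat i a b = (n : ℝ))
    (h : ∀ γ : Gamma0 N, ∃ σ : Equiv.Perm ι, ∀ i, ∃ γ' : Gamma0 N,
      mat i * mapGL ℝ (γ : SL(2, ℤ)) = mapGL ℝ (γ' : SL(2, ℤ)) * mat (σ i)) :
    HeckeFamily N ι where
  mat := mat
  det_pos := det_pos
  int_entries := int_entries
  perm γ := (h γ).choose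
  cofactor γ i := ((h γ).choose_spec i).choose
  comm γ i := ((h γ).choose_spec i).choose_spec

variable (A : HeckeFamily N ι) (w : ℕ)

/-- `pullAdjW` of a matrix of the family, on integral polynomials. -/
def adjZ (i : ι) : polyZ w →ₗ[ℤ] polyZ w :=
  (((pullAdjW w (A.mat i)).restrictScalars ℤ).domRestrict (polyZ w)).codRestrict
    (polyZ w) fun P ↦ pullAdjW_mem_polyZ (A.det_pos i) (A.int_entries i) P.2

@[simp] theorem coe_adjZ (i : ι) (P : polyZ w) :
    (A.adjZ w i P : ℍ → ℂ) = pullAdjW w (A.mat i) P := rfl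

theorem det_mat_perm (γ : Gamma0 N) (i : ι) :
    (A.mat (A.perm γ i)).det.val = (A.mat i).det.val := by
  have := congrArg (fun g : GL (Fin 2) ℝ ↦ g.det.val) (A.comm γ i)
  simp only [map_mul, Units.val_mul, det_mapGL_val, mul_one, one_mul] at this
  exact this.symm

theorem pullZ_cofactor_adjZ (γ : Gamma0 N) (i : ι) (P : polyZ w) :
    pullZ w (A.cofactor γ i) (A.adjZ w i P) = A.adjZ w (A.perm γ i) (pullZ w γ P) := by
  refine Subtype.ext ?_
  rw [coe_pullZ, coe_adjZ, coe_adjZ, coe_pullZ, pullAdjW_apply, pullAdjW_apply,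
    LinearMap.map_smul, A.det_mat_perm γ i, pullW_pullW w _ _ (det_mapGL_pos _),
    pullW_pullW w _ _ (det_inv_pos (A.det_pos _))]
  congr 3
  rw [eq_mul_inv_iff_mul_eq, mul_assoc, ← A.comm γ i, inv_mul_cancel_left]

variable [Fintype ι]

/-- The action on chains. -/
def chainMap : PeriodChain N w →ₗ[ℤ] PeriodChain N w :=
  Finsupp.lsum ℤ fun γ ↦ ∑ i, (Finsupp.lsingle (A.cofactor γ i)).comp (A.adjZ w i)

@[simp] theorem chainMap_single (γ : Gamma0 N) (P : polyZ w) :
    A.chainMap w (Finsupp.single γ P)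
      = ∑ i, Finsupp.single (A.cofactor γ i) (A.adjZ w i P) := by
  simp [chainMap]

/-- The sum of the `pullAdjW` maps. -/
def adjSum : polyZ w →ₗ[ℤ] polyZ w := ∑ i, A.adjZ w i

/-- The correction term coming from moving the base point. -/
def baseTerm : polyZ w →ₗ[ℤ] Module.Dual ℂ (CuspForm (Gamma0 N) ((w : ℤ) + 2)) :=
  ∑ i, (segFun N w (A.mat i • UpperHalfPlane.I)).comp (A.adjZ w i)

theorem bdryMap_comp_chainMap :
    (bdryMap N w).comp (A.chainMap w) = (A.adjSum w).comp (bdryMap N w) := by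
  refine Finsupp.lhom_ext fun γ P ↦ ?_
  simp only [LinearMap.comp_apply, chainMap_single, map_sum, bdryMap_single, adjSum,
    LinearMap.sum_apply, map_sub, Finset.sum_sub_distrib, A.pullZ_cofactor_adjZ w γ _ P]
  rw [Equiv.sum_comp (A.perm γ) (fun j ↦ A.adjZ w j (pullZ w γ P))]

/-- A Hecke operator given by the family acts on periods through `chainMap`. -/
theorem dualMap_comp_periodPairing
    (T : Module.End ℂ (CuspForm (Gamma0 N) ((w : ℤ) + 2)))
    (hT : ∀ f, ⇑(T f) = ∑ i, ⇑f ∣[((w : ℤ) + 2)] A.mat i) :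
    (T.dualMap.restrictScalars ℤ).comp (periodPairing N w)
      = (periodPairing N w).comp (A.chainMap w) + (A.baseTerm w).comp (bdryMap N w) := by
  refine Finsupp.lhom_ext fun γ P ↦ LinearMap.ext fun f ↦ ?_
  simp only [LinearMap.comp_apply, LinearMap.add_apply, chainMap_single, map_sum,
    periodPairing_single, bdryMap_single, baseTerm, LinearMap.sum_apply, map_sub,
    LinearMap.sub_apply, LinearMap.coe_restrictScalars, LinearMap.dualMap_apply, segFun_apply,
    coe_adjZ, coe_pullZ]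
  rw [periodFun_apply, hT, Finset.sum_mul, primUHP_sum _ fun i _ ↦
    (mdifferentiable_slash_pos w (A.det_pos i) (CuspFormClass.holo f)).mul
      (mdifferentiable_of_mem_polyZ P.2), Finset.sum_apply]
  have key : ∀ i, primUHP ((⇑f ∣[((w : ℤ) + 2)] A.mat i) * (P : ℍ → ℂ))
        (mapGL ℝ (γ : SL(2, ℤ)) • UpperHalfPlane.I)
      = periodFun N w (A.cofactor γ i) (A.adjZ w i P) f
        + (segFun N w (A.mat (A.perm γ i) • UpperHalfPlane.I)
            (A.adjZ w (A.perm γ i) (pullZ w γ P)) f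
          - segFun N w (A.mat i • UpperHalfPlane.I) (A.adjZ w i P) f) := by
    intro i
    rw [← primUHP_change w (A.det_pos i) (CuspFormClass.holo f)
      (mdifferentiable_of_mem_polyZ P.2), ← mul_smul, A.comm γ i, mul_smul]
    have h := LinearMap.congr_fun (segFun_smul (A.cofactor γ i) (A.adjZ w i P)
      (A.mat (A.perm γ i) • UpperHalfPlane.I)) f
    rw [LinearMap.add_apply, A.pullZ_cofactor_adjZ w γ i P, segFun_apply] at h
    rw [coe_adjZ] at h
    rw [segFun_apply (P := A.adjZ w i P), coe_adjZ]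
    linear_combination h
  simp only [key, Finset.sum_add_distrib, Finset.sum_sub_distrib]
  rw [Equiv.sum_comp (A.perm γ)
    (fun j ↦ segFun N w (A.mat j • UpperHalfPlane.I) (A.adjZ w j (pullZ w γ P)) f)]
  simp only [segFun_apply, coe_adjZ, coe_pullZ]

theorem dualMap_mem_periodLattice
    (T : Module.End ℂ (CuspForm (Gamma0 N) ((w : ℤ) + 2)))
    (hT : ∀ f, ⇑(T f) = ∑ i, ⇑f ∣[((w : ℤ) + 2)] A.mat i)
    {l : Module.Dual ℂ (CuspForm (Gamma0 N) ((w : ℤ) + 2))} (hl : l ∈ periodLattice N w) :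
    T.dualMap l ∈ periodLattice N w := by
  obtain ⟨c, hc, rfl⟩ := hl
  rw [SetLike.mem_coe, LinearMap.mem_ker] at hc
  refine ⟨A.chainMap w c, ?_, ?_⟩
  · rw [SetLike.mem_coe, LinearMap.mem_ker, ← LinearMap.comp_apply, A.bdryMap_comp_chainMap w,
      LinearMap.comp_apply, hc, map_zero]
  · have := LinearMap.congr_fun (A.dualMap_comp_periodPairing w T hT) c
    rw [LinearMap.comp_apply, LinearMap.add_apply, LinearMap.comp_apply, LinearMap.comp_apply, hc,
      map_zero, add_zero] at this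
    exact this.symm

end HeckeFamily

open P2MW.S_ModularForm_heckeT_slash_eq_self_of_mem_Gamma0.ModularForm.HeckeSlashInvariance in
/-- The family defining `U_q` for `q ∣ N`. -/
def heckeFamilyU {N q : ℕ} [NeZero q] (hqN : q ∣ N) : HeckeFamily N (ZMod q) :=
  HeckeFamily.ofExists (fun x ↦ ModularForm.heckeMatrix q x.val)
    (fun x ↦ ModularForm.det_heckeMatrix_pos q x.val)
    (fun x a b ↦ by
      fin_cases a <;> fin_cases b <;> simp [NeZero.ne q]
      · exact ⟨1, by simp⟩
      · exact ⟨x.val, by simp⟩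
      · exact ⟨0, by simp⟩
      · exact ⟨q, by simp⟩)
    (fun γ ↦ by
      have hγ := Gamma0_mem.mp γ.2
      have hc : (q : ℤ) ∣ (γ : SL(2, ℤ)) 1 0 :=
        (Int.natCast_dvd_natCast.mpr hqN).trans ((ZMod.intCast_zmod_eq_zero_iff_dvd _ _).mp hγ)
      refine ⟨affinePerm (γ : SL(2, ℤ)) ((ZMod.intCast_zmod_eq_zero_iff_dvd _ _).mpr hc),
        fun x ↦ ?_⟩
      obtain ⟨g', hg', hmul⟩ := heckeMatrix_mul_of_dvd (γ : SL(2, ℤ)) hc x
      refine ⟨⟨g', ?_⟩, hmul⟩
      rw [Gamma0_mem, hg']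
      push_cast
      rw [hγ, mul_zero])

open P2MW.S_ModularForm_heckeT_slash_eq_self_of_mem_Gamma0.ModularForm.HeckeSlashInvariance in
/-- The family defining `T_p` for `p ∤ N`. -/
def heckeFamilyT {N p : ℕ} [Fact p.Prime] (hpN : ¬ p ∣ N) :
    HeckeFamily N (OnePoint (ZMod p)) :=
  haveI : NeZero p := ⟨(Fact.out : p.Prime).ne_zero⟩
  HeckeFamily.ofExists (heckeRep p)
    (fun x ↦ by
      induction x using OnePoint.rec with
      | infty => exact ModularForm.det_heckeDiagMatrix_pos p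
      | coe j => exact ModularForm.det_heckeMatrix_pos p j.val)
    (fun x a b ↦ by
      induction x using OnePoint.rec with
      | infty =>
        fin_cases a <;> fin_cases b <;> simp [heckeRep_infty, NeZero.ne p]
        · exact ⟨p, by simp⟩
        · exact ⟨0, by simp⟩
        · exact ⟨0, by simp⟩
        · exact ⟨1, by simp⟩
      | coe j =>
        fin_cases a <;> fin_cases b <;> simp [heckeRep_coe, NeZero.ne p]
        · exact ⟨1, by simp⟩
        · exact ⟨j.val, by simp⟩
        · exact ⟨0, by simp⟩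
        · exact ⟨p, by simp⟩)
    (fun γ ↦ by
      refine ⟨MulAction.toPerm (redMatrix p (γ : SL(2, ℤ))), fun x ↦ ?_⟩
      obtain ⟨g', hg', hmul⟩ := heckeRep_mul hpN (γ : SL(2, ℤ))
        ((ZMod.intCast_zmod_eq_zero_iff_dvd _ _).mp (Gamma0_mem.mp γ.2)) x
      exact ⟨⟨g', Gamma0_mem.mpr ((ZMod.intCast_zmod_eq_zero_iff_dvd _ _).mpr hg')⟩, hmul⟩)

open P2MW.S_ModularForm_heckeT_slash_eq_self_of_mem_Gamma0.ModularForm.HeckeSlashInvariance in
theorem heckeULin_dualMap_mem_periodLattice {N w q : ℕ} [NeZero N] (hqN : q ∣ N)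
    {l : Module.Dual ℂ (CuspForm (Gamma0 N) ((w : ℤ) + 2))} (hl : l ∈ periodLattice N w) :
    (CuspForm.heckeULin ((w : ℤ) + 2) hqN).dualMap l ∈ periodLattice N w := by
  have : NeZero q := ⟨fun h ↦ NeZero.ne N (by simpa [h] using hqN)⟩
  refine (heckeFamilyU hqN).dualMap_mem_periodLattice w _ (fun f ↦ ?_) hl
  rw [CuspForm.coe_heckeULin_apply]
  exact heckeU_eq_sum_zmod _ _

open P2MW.S_ModularForm_heckeT_slash_eq_self_of_mem_Gamma0.ModularForm.HeckeSlashInvariance in
theorem heckeTLin_dualMap_mem_periodLattice {N w p : ℕ} (hp : p.Prime) (hpN : ¬ p ∣ N)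
    {l : Module.Dual ℂ (CuspForm (Gamma0 N) ((w : ℤ) + 2))} (hl : l ∈ periodLattice N w) :
    (CuspForm.heckeTLin ((w : ℤ) + 2) hp hpN).dualMap l ∈ periodLattice N w := by
  have : Fact p.Prime := ⟨hp⟩
  have : NeZero p := ⟨hp.ne_zero⟩
  refine (heckeFamilyT hpN).dualMap_mem_periodLattice w _ (fun f ↦ ?_) hl
  rw [CuspForm.coe_heckeTLin_apply]
  exact heckeT_eq_sum_onePoint _ _

end FermatLib.Modular

end
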