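import Fermat.Agent.Modular.HomsFreeProduct
import Fermat.Agent.Modular.HomsDefs

/-!
Cocycles of `SL(2, ℤ)` with values in the functions on a transitive set `Q`, and the
homomorphisms of a point stabiliser that they induce.
-/

set_option autoImplicit false

open scoped MatrixGroups
open ModularGroup

namespace FermatLib.Modular

variable {Q : Type*} [MulAction SL(2, ℤ) Q] {A : Type*} [AddCommGroup A]

/-- The cocycle identity for `c : SL(2, ℤ) → Q → A`. -/
def IsShapiroCocycle (c : SL(2, ℤ) → Q → A) : Prop :=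
  ∀ x y q, c (x * y) q = c x (y • q) + c y q

/-- The coboundary of `m`. -/
def shapiroCobdry (m : Q → A) : SL(2, ℤ) → Q → A := fun x q => m q - m (x • q)

theorem isShapiroCocycle_cobdry (m : Q → A) : IsShapiroCocycle (shapiroCobdry m) := by
  intro x y q
  simp [shapiroCobdry, mul_smul]

namespace IsShapiroCocycle

variable {c c' : SL(2, ℤ) → Q → A}

theorem map_one (hc : IsShapiroCocycle c) (q : Q) : c 1 q = 0 := by
  have h := hc 1 1 q
  rw [one_mul, one_smul] at h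
  exact left_eq_add.1 h

theorem map_inv (hc : IsShapiroCocycle c) (x : SL(2, ℤ)) (q : Q) :
    c x⁻¹ q = -c x (x⁻¹ • q) := by
  have h := hc x x⁻¹ q
  rw [mul_inv_cancel, hc.map_one] at h
  exact eq_neg_of_add_eq_zero_right h.symm

theorem map_neg (hc : IsShapiroCocycle c) (hc1 : ∀ q, c (-1) q = 0) (x : SL(2, ℤ)) (q : Q) :
    c (-x) q = c x q := by
  rw [← neg_one_mul x, hc, hc1, zero_add]

theorem map_S_inv (hc : IsShapiroCocycle c) (hc1 : ∀ q, c (-1) q = 0) (q : Q) :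
    c S⁻¹ q = c S q := by
  rw [show S⁻¹ = -S by decide, hc.map_neg hc1]

theorem map_T (hc : IsShapiroCocycle c) (hc1 : ∀ q, c (-1) q = 0) (q : Q) :
    c T q = c S (ellU • q) + c ellU q := by
  rw [← S_mul_ellU, hc, hc.map_S_inv hc1]

/-- The subgroup on which two cocycles agree. -/
def eqSubgroup (hc : IsShapiroCocycle c) (hc' : IsShapiroCocycle c') : Subgroup SL(2, ℤ) where
  carrier := {x | ∀ q, c x q = c' x q}
  one_mem' q := by rw [hc.map_one, hc'.map_one]
  mul_mem' {x y} hx hy q := by rw [hc, hc', hx, hy]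
  inv_mem' {x} hx q := by rw [hc.map_inv, hc'.map_inv, hx]

theorem eq_of_S_ellU (hc : IsShapiroCocycle c) (hc' : IsShapiroCocycle c') (hS : c S = c' S)
    (hU : c ellU = c' ellU) : c = c' := by
  funext x
  funext q
  have : eqSubgroup hc hc' = ⊤ := by
    rw [eq_top_iff, ← closure_S_ellU, Subgroup.closure_le]
    rintro y (rfl | rfl)
    · exact congrFun hS
    · exact congrFun hU
  exact (this ▸ Subgroup.mem_top x : x ∈ eqSubgroup hc hc') q

theorem zpow_eq_of_eq (hc : IsShapiroCocycle c) (hc' : IsShapiroCocycle c') {x : SL(2, ℤ)}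
    (hx : c x = c' x) (k : ℤ) : c (x ^ k) = c' (x ^ k) :=
  funext ((eqSubgroup hc hc').zpow_mem (congrFun hx) k)

/-- If `c` kills the powers of `x` fixing a point, `c x` is a coboundary. -/
theorem exists_cobdry (hc : IsShapiroCocycle c) (x : SL(2, ℤ))
    (h : ∀ (k : ℤ) q, x ^ k • q = q → c (x ^ k) q = 0) :
    ∃ m : Q → A, ∀ q, m q - m (x • q) = c x q := by
  classical
  let r : Q → Q := fun q =>
    (Quotient.mk (MulAction.orbitRel (Subgroup.zpowers x) Q) q).out
  have hr : ∀ q, ∃ k : ℤ, x ^ k • r q = q := by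
    intro q
    obtain ⟨⟨g, hg⟩, e⟩ := Quotient.mk_out (s := MulAction.orbitRel (Subgroup.zpowers x) Q) q
    obtain ⟨k, rfl⟩ := Subgroup.mem_zpowers_iff.1 hg
    refine ⟨-k, ?_⟩
    show x ^ (-k) • (Quotient.mk (MulAction.orbitRel (Subgroup.zpowers x) Q) q).out = q
    rw [← e, zpow_neg]
    exact inv_smul_smul (x ^ k) q
  choose k hk using hr
  refine ⟨fun q => -c (x ^ k q) (r q), fun q => ?_⟩
  have hrx : r (x • q) = r q := by
    refine congrArg Quotient.out (Quotient.sound ?_)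
    exact ⟨⟨x, Subgroup.mem_zpowers x⟩, rfl⟩
  have hk' := hk (x • q)
  rw [hrx] at hk'
  have hfix : x ^ (k q + 1 - k (x • q)) • r q = r q := by
    rw [show k q + 1 - k (x • q) = -k (x • q) + (1 + k q) by ring, zpow_add, zpow_add, mul_smul,
      mul_smul, hk q, zpow_one, zpow_neg]
    exact inv_smul_eq_iff.2 hk'.symm
  have h2 : c (x ^ (k q + 1)) (r q) = c (x ^ k (x • q)) (r q) := by
    rw [show k q + 1 = k (x • q) + (k q + 1 - k (x • q)) by ring, zpow_add, hc, hfix, h _ _ hfix,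
      add_zero]
  rw [show k q + 1 = 1 + k q by ring, zpow_add, zpow_one, hc, hk q] at h2
  show -c (x ^ k q) (r q) - -c (x ^ k (x • q)) (r (x • q)) = c x q
  rw [hrx, ← h2]
  abel

/-- The homomorphism on the stabiliser of `q₀` induced by a cocycle. -/
def stabHom (hc : IsShapiroCocycle c) {Γ : Subgroup SL(2, ℤ)} {q₀ : Q}
    (hΓ : ∀ x, x ∈ Γ ↔ x • q₀ = q₀) : Additive Γ →+ A where
  toFun γ := c (Additive.toMul γ).1 q₀
  map_zero' := hc.map_one q₀
  map_add' γ δ := by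
    show c ((Additive.toMul γ).1 * (Additive.toMul δ).1) q₀ = _
    rw [hc, (hΓ _).1 (Additive.toMul δ).2]

/-- The induced homomorphism is cuspidal once `c S`, `c U`, `c T` are coboundaries. -/
theorem isCuspidalHom_stabHom (hc : IsShapiroCocycle c) {Γ : Subgroup SL(2, ℤ)} {q₀ : Q}
    (hΓ : ∀ x, x ∈ Γ ↔ x • q₀ = q₀) (hc1 : ∀ q, c (-1) q = 0)
    (hneg : ∀ q : Q, (-1 : SL(2, ℤ)) • q = q)
    (h : ∀ x, x = S ∨ x = ellU ∨ x = T → ∃ m : Q → A, ∀ q, m q - m (x • q) = c x q) :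
    IsCuspidalHom (hc.stabHom hΓ) := by
  rintro ⟨γ, hγ⟩ htr
  show c γ q₀ = 0
  have hfix := (hΓ γ).1 hγ
  obtain ⟨g, x, k, hx, e⟩ := isConjBasic_of_trace_sq_le_four γ htr
  have hfix' : (g * x ^ k * g⁻¹) • q₀ = q₀ := by
    rcases e with e | e
    · rwa [← e]
    · rw [e, ← neg_one_mul, mul_smul, hneg] at hfix; exact hfix
  have hc2 : c γ q₀ = c (g * x ^ k * g⁻¹) q₀ := by
    rcases e with e | e
    · rw [e]
    · rw [e, hc.map_neg hc1]
  have hq : x ^ k • g⁻¹ • q₀ = g⁻¹ • q₀ := by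
    rw [mul_assoc, mul_smul, mul_smul, ← eq_inv_smul_iff] at hfix'
    exact hfix'
  obtain ⟨m, hm⟩ := h x hx
  have hxk := congrFun (hc.zpow_eq_of_eq (isShapiroCocycle_cobdry m) (funext fun q => (hm q).symm) k)
    (g⁻¹ • q₀)
  rw [hc2, hc, hc, hxk, shapiroCobdry, hq, sub_self, add_zero, hc.map_inv, add_neg_cancel]

end IsShapiroCocycle

/-- Existence of a cocycle with prescribed values at `S` and `S * T`. -/
theorem exists_shapiroCocycle (hneg : ∀ q : Q, (-1 : SL(2, ℤ)) • q = q) (f g : Q → A)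
    (hf : ∀ q, f q + f (S • q) = 0)
    (hg : ∀ q, g q + g (ellU • q) + g (ellU • ellU • q) = 0) :
    ∃ c : SL(2, ℤ) → Q → A, IsShapiroCocycle c ∧ c S = f ∧ c ellU = g ∧ ∀ q, c (-1) q = 0 := by
  let shear : SL(2, ℤ) → (Q → A) → Equiv.Perm (Q × A) := fun x d =>
    { toFun := fun p => (x • p.1, p.2 + d p.1)
      invFun := fun p => (x⁻¹ • p.1, p.2 - d (x⁻¹ • p.1))
      left_inv := fun p => by simp
      right_inv := fun p => by simp }
  have hs : shear S f ^ 2 = 1 := by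
    refine Equiv.ext fun p => ?_
    show (S • S • p.1, p.2 + f p.1 + f (S • p.1)) = p
    rw [add_assoc, hf, add_zero, ← mul_smul, ← sq, S_pow_two_eq_neg_one, hneg]
  have hu : shear ellU g ^ 3 = 1 := by
    refine Equiv.ext fun p => ?_
    show (ellU • ellU • ellU • p.1,
      p.2 + g p.1 + g (ellU • p.1) + g (ellU • ellU • p.1)) = p
    rw [add_assoc, add_assoc, ← add_assoc (g p.1), hg, add_zero, ← mul_smul, ← mul_smul,
      ← pow_three', ellU_pow_three, hneg]
  obtain ⟨ρ, hρS, hρU, hρ1⟩ := exists_hom_S_ellU _ _ hs hu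
  have hP : ∀ x, ∃ d : Q → A, ∀ p : Q × A, ρ x p = (x • p.1, p.2 + d p.1) := by
    intro x
    have : x ∈ Subgroup.closure {S, ellU} := by rw [closure_S_ellU]; trivial
    induction this using Subgroup.closure_induction with
    | mem y hy =>
      rcases hy with rfl | rfl
      · exact ⟨f, fun p => by rw [hρS]; rfl⟩
      · exact ⟨g, fun p => by rw [hρU]; rfl⟩
    | one => exact ⟨0, fun p => by simp⟩
    | mul y z _ _ hy hz =>
      obtain ⟨d, hd⟩ := hy
      obtain ⟨e, he⟩ := hz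
      refine ⟨fun q => e q + d (z • q), fun p => ?_⟩
      rw [map_mul, Equiv.Perm.mul_apply, he, hd, mul_smul, add_assoc]
    | inv y _ hy =>
      obtain ⟨d, hd⟩ := hy
      refine ⟨fun q => -d (y⁻¹ • q), fun p => ?_⟩
      rw [map_inv, Equiv.Perm.inv_eq_iff_eq, hd]
      simp
  choose d hd using hP
  refine ⟨d, ?_, ?_, ?_, fun q => ?_⟩
  · intro x y q
    have := congrArg (fun e : Equiv.Perm (Q × A) => e (q, 0)) (map_mul ρ x y)
    simp only [Equiv.Perm.mul_apply, hd, Prod.mk.injEq, zero_add] at this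
    rw [this.2, add_comm]
  · funext q
    have := hd S (q, 0)
    rw [hρS] at this
    simpa [shear] using (congrArg Prod.snd this).symm
  · funext q
    have := hd ellU (q, 0)
    rw [hρU] at this
    simpa [shear] using (congrArg Prod.snd this).symm
  · have := hd (-1) (q, 0)
    rw [hρ1] at this
    simpa using (congrArg Prod.snd this).symm

/-- A homomorphism on the stabiliser of `q₀` comes from a cocycle. -/
theorem exists_shapiroCocycle_of_hom [MulAction.IsPretransitive SL(2, ℤ) Q]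
    {Γ : Subgroup SL(2, ℤ)} {q₀ : Q} (hΓ : ∀ x, x ∈ Γ ↔ x • q₀ = q₀)
    {φ : Additive Γ →+ A} (hφ : IsCuspidalHom φ) (hneg : ∀ q : Q, (-1 : SL(2, ℤ)) • q = q) :
    ∃ (c : SL(2, ℤ) → Q → A) (hc : IsShapiroCocycle c), hc.stabHom hΓ = φ ∧
      (∀ q, c (-1) q = 0) ∧
      ∀ x, x = S ∨ x = ellU ∨ x = T → ∃ m : Q → A, ∀ q, m q - m (x • q) = c x q := by
  choose σ hσ using fun q : Q => MulAction.exists_smul_eq SL(2, ℤ) q₀ q
  have hmem : ∀ x q, (σ (x • q))⁻¹ * x * σ q ∈ Γ := by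
    intro x q
    rw [hΓ, mul_smul, mul_smul, hσ q, inv_smul_eq_iff, hσ]
  let c : SL(2, ℤ) → Q → A := fun x q => φ (Additive.ofMul ⟨_, hmem x q⟩)
  have hc : IsShapiroCocycle c := by
    intro x y q
    show φ (Additive.ofMul _) = φ (Additive.ofMul _) + φ (Additive.ofMul _)
    rw [← map_add, ← ofMul_mul]
    congr 2
    apply Subtype.ext
    show (σ ((x * y) • q))⁻¹ * (x * y) * σ q =
      (σ (x • y • q))⁻¹ * x * σ (y • q) * ((σ (y • q))⁻¹ * y * σ q)
    rw [mul_smul]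
    group
  have hconj : ∀ (y : SL(2, ℤ)) q, y • q = q →
      (y : Matrix (Fin 2) (Fin 2) ℤ).trace ^ 2 ≤ 4 → c y q = 0 := by
    intro y q hy ht
    refine hφ _ ?_
    show ((((σ (y • q))⁻¹ * y * σ q : SL(2, ℤ)) : Matrix (Fin 2) (Fin 2) ℤ)).trace ^ 2 ≤ 4
    have := trace_conj (σ q)⁻¹ y
    rw [inv_inv] at this
    rw [hy, this]
    exact ht
  refine ⟨c, hc, ?_, fun q => hconj _ q (hneg q) (by
    simp), fun x hx => hc.exists_cobdry x fun k q hq =>
      hconj _ q hq (trace_sq_le_four_zpow hx k)⟩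
  refine AddMonoidHom.ext fun γ => ?_
  obtain ⟨⟨γ, hγ⟩, rfl⟩ := Additive.ofMul.surjective γ
  show φ (Additive.ofMul ⟨(σ (γ • q₀))⁻¹ * γ * σ q₀, _⟩) = _
  have hs : σ q₀ ∈ Γ := (hΓ _).2 (hσ q₀)
  have he : (⟨(σ (γ • q₀))⁻¹ * γ * σ q₀, hmem γ q₀⟩ : Γ) = (⟨_, hs⟩)⁻¹ * ⟨γ, hγ⟩ * ⟨_, hs⟩ :=
    Subtype.ext (by simp [(hΓ γ).1 hγ])
  rw [he, ofMul_mul, ofMul_mul, ofMul_inv, map_add, map_add, map_neg]
  abel

end FermatLib.Modular
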