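import Mathlib.GroupTheory.CoprodI
import Mathlib.LinearAlgebra.Matrix.FixedDetMatrices
import Mathlib.Data.ZMod.Basic
import Mathlib.LinearAlgebra.Matrix.Trace

/-!
`SL(2, ℤ)/±1` is the free product of the cyclic groups generated by `S` and `S * T`
(ping-pong on binary quadratic forms), and the classification up to conjugacy of the
elements with `trace ^ 2 ≤ 4`.
-/

set_option autoImplicit false

open scoped MatrixGroups
open Matrix Monoid ModularGroup

namespace FermatLib.Modular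

/-- The elliptic element `S * T` of order six. -/
def ellU : SL(2, ℤ) := S * T

theorem coe_ellU : (ellU : Matrix (Fin 2) (Fin 2) ℤ) = !![0, -1; 1, 1] := by
  simp [ellU, coe_S, coe_T]

theorem S_mul_ellU : S⁻¹ * ellU = T := by simp [ellU]

theorem closure_S_ellU : Subgroup.closure {S, ellU} = ⊤ := by
  rw [eq_top_iff, ← SpecialLinearGroup.SL2Z_generators, Subgroup.closure_le]
  rintro x (rfl | rfl)
  · exact Subgroup.subset_closure (by simp)
  · rw [← S_mul_ellU]
    exact mul_mem (inv_mem (Subgroup.subset_closure (by simp))) (Subgroup.subset_closure (by simp))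

theorem S_pow_two_eq_neg_one : S ^ 2 = (-1 : SL(2, ℤ)) := by decide

theorem ellU_pow_three : ellU ^ 3 = (-1 : SL(2, ℤ)) := by decide

section PingPong

/-- `g` acting on matrices by `M ↦ g M gᵀ`. -/
def symFun (g : SL(2, ℤ)) (M : Matrix (Fin 2) (Fin 2) ℤ) : Matrix (Fin 2) (Fin 2) ℤ :=
  (↑g : Matrix (Fin 2) (Fin 2) ℤ) * M * (↑g : Matrix (Fin 2) (Fin 2) ℤ)ᵀ

theorem symFun_mul (g h : SL(2, ℤ)) (M : Matrix (Fin 2) (Fin 2) ℤ) :
    symFun (g * h) M = symFun g (symFun h M) := by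
  simp only [symFun, SpecialLinearGroup.coe_mul, transpose_mul, Matrix.mul_assoc]

theorem symFun_one (M : Matrix (Fin 2) (Fin 2) ℤ) : symFun 1 M = M := by simp [symFun]

/-- The permutation `M ↦ g M gᵀ`. -/
def symActEquiv (g : SL(2, ℤ)) : Equiv.Perm (Matrix (Fin 2) (Fin 2) ℤ) where
  toFun := symFun g
  invFun := symFun g⁻¹
  left_inv M := by rw [← symFun_mul, inv_mul_cancel, symFun_one]
  right_inv M := by rw [← symFun_mul, mul_inv_cancel, symFun_one]

/-- The action `M ↦ g M gᵀ` as a homomorphism. -/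
def symAct : SL(2, ℤ) →* Equiv.Perm (Matrix (Fin 2) (Fin 2) ℤ) where
  toFun := symActEquiv
  map_one' := Equiv.ext symFun_one
  map_mul' g h := Equiv.ext (symFun_mul g h)

theorem symAct_neg_one : symAct (-1) = 1 := by
  ext M : 1
  simp [symAct, symActEquiv, symFun]

/-- The cyclic group factors. -/
abbrev freeFactor (b : Bool) : Type := Multiplicative (ZMod (cond b 3 2))

/-- The homomorphism from `ZMod n` given by an element killed by `n`. -/
noncomputable def cyclicHom {G : Type*} [Group G] {n : ℕ} (g : G) (hg : g ^ n = 1) :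
    Multiplicative (ZMod n) →* G :=
  AddMonoidHom.toMultiplicativeLeft
    (ZMod.lift n ⟨zmultiplesHom (Additive G) (Additive.ofMul g), by
      simp [zmultiplesHom_apply, ← ofMul_pow, hg]⟩)

theorem cyclicHom_apply {G : Type*} [Group G] {n : ℕ} (g : G) (hg : g ^ n = 1) (k : ℕ) :
    cyclicHom g hg (Multiplicative.ofAdd (k : ZMod n)) = g ^ k := by
  refine (congrArg Additive.toMul (?_ : _ = Additive.ofMul (g ^ k)) : _)
  have := ZMod.lift_coe n ⟨zmultiplesHom (Additive G) (Additive.ofMul g), by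
      simp [zmultiplesHom_apply, ← ofMul_pow, hg]⟩ (k : ℤ)
  simp only [Int.cast_natCast] at this
  exact this.trans (by simp [zmultiplesHom_apply])

/-- The pair of homomorphisms out of the factors given by `s` and `u`. -/
noncomputable def factorHom {G : Type*} [Group G] (s u : G) (hs : s ^ 2 = 1) (hu : u ^ 3 = 1) :
    ∀ b, freeFactor b →* G
  | false => cyclicHom s hs
  | true => cyclicHom u hu

theorem symAct_S_pow_two : symAct S ^ 2 = 1 := by
  rw [← map_pow, S_pow_two_eq_neg_one, symAct_neg_one]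

theorem symAct_ellU_pow_three : symAct ellU ^ 3 = 1 := by
  rw [← map_pow, ellU_pow_three, symAct_neg_one]

/-- The ping-pong sets. -/
def pingPongSet (b : Bool) : Set (Matrix (Fin 2) (Fin 2) ℤ) :=
  {M | 0 < M 0 0 ∧ 0 < M 1 1 ∧ M 1 0 = M 0 1 ∧ if b then M 0 1 < 0 else 0 < M 0 1}

theorem lift_symAct_injective :
    Function.Injective (CoprodI.lift
      (factorHom _ _ symAct_S_pow_two symAct_ellU_pow_three)) := by
  refine CoprodI.lift_injective_of_ping_pong _ ?_ pingPongSet ?_ ?_ ?_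
  · refine Or.inr ⟨true, ?_⟩
    show 3 ≤ Cardinal.mk (Multiplicative (ZMod 3))
    rw [Cardinal.mk_fintype]
    norm_num
  · rintro (_ | _)
    · exact ⟨!![1, 1; 1, 1], by simp [pingPongSet]⟩
    · exact ⟨!![1, -1; -1, 1], by simp [pingPongSet]⟩
  · rintro (_ | _) (_ | _) hij
    · exact absurd rfl hij
    · simp only [Set.disjoint_left, pingPongSet]
      intro M h h'
      simp at h h'
      omega
    · simp only [Set.disjoint_left, pingPongSet]
      intro M h h'
      simp at h h'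
      omega
    · exact absurd rfl hij
  · rintro (_ | _) (_ | _) hij h hh
    · exact absurd rfl hij
    · have e : h = Multiplicative.ofAdd ((1 : ℕ) : ZMod 2) :=
        (by decide : ∀ h : Multiplicative (ZMod 2), h ≠ 1 →
          h = Multiplicative.ofAdd ((1 : ℕ) : ZMod 2)) h hh
      subst e
      rintro _ ⟨M, hM, rfl⟩
      simp only [pingPongSet] at hM ⊢
      simp at hM
      have e1 : factorHom _ _ symAct_S_pow_two symAct_ellU_pow_three false
          (Multiplicative.ofAdd ((1 : ℕ) : ZMod 2)) = symAct S :=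
        (cyclicHom_apply (n := 2) _ symAct_S_pow_two 1).trans (pow_one _)
      simp only [Set.mem_ofPred_eq, e1, Equiv.Perm.smul_def]
      simp [symAct, symActEquiv, symFun, coe_S, Matrix.mul_apply, Fin.sum_univ_two,
        Matrix.vecMul, dotProduct]
      omega
    · have e : h = Multiplicative.ofAdd ((1 : ℕ) : ZMod 3) ∨
          h = Multiplicative.ofAdd ((2 : ℕ) : ZMod 3) :=
        (by decide : ∀ h : Multiplicative (ZMod 3), h ≠ 1 →
          (h = Multiplicative.ofAdd ((1 : ℕ) : ZMod 3) ∨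
            h = Multiplicative.ofAdd ((2 : ℕ) : ZMod 3))) h hh
      rintro _ ⟨M, hM, rfl⟩
      simp only [pingPongSet] at hM ⊢
      simp at hM
      have e1 : ∀ k : ℕ, factorHom _ _ symAct_S_pow_two symAct_ellU_pow_three true
          (Multiplicative.ofAdd (k : ZMod 3)) = symAct ellU ^ k :=
        cyclicHom_apply (n := 3) _ symAct_ellU_pow_three
      rcases e with rfl | rfl <;>
        simp only [Set.mem_ofPred_eq, e1, Equiv.Perm.smul_def] <;>
        simp [symAct, symActEquiv, symFun, coe_ellU, pow_two, Matrix.mul_apply,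
          Fin.sum_univ_two, Matrix.vecMul, dotProduct] <;>
        omega
    · exact absurd rfl hij

/-- Universal property: any `s, u` with `s² = u³ = 1` define a homomorphism on `SL(2, ℤ)`. -/
theorem exists_hom_S_ellU {G : Type*} [Group G] (s u : G) (hs : s ^ 2 = 1) (hu : u ^ 3 = 1) :
    ∃ ρ : SL(2, ℤ) →* G, ρ S = s ∧ ρ ellU = u ∧ ρ (-1) = 1 := by
  set π := CoprodI.lift (factorHom _ _ symAct_S_pow_two symAct_ellU_pow_three) with hπ
  set oS : CoprodI freeFactor :=
    CoprodI.of (i := false) (Multiplicative.ofAdd ((1 : ℕ) : ZMod 2) : freeFactor false) with hoS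
  set oU : CoprodI freeFactor :=
    CoprodI.of (i := true) (Multiplicative.ofAdd ((1 : ℕ) : ZMod 3) : freeFactor true) with hoU
  have hS : π oS = symAct S := by
    rw [hπ, hoS, CoprodI.lift_of]
    exact (cyclicHom_apply (n := 2) _ symAct_S_pow_two _).trans (pow_one _)
  have hU : π oU = symAct ellU := by
    rw [hπ, hoU, CoprodI.lift_of]
    exact (cyclicHom_apply (n := 3) _ symAct_ellU_pow_three _).trans (pow_one _)
  have hmem : ∀ g : SL(2, ℤ), symAct g ∈ π.range := by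
    intro g
    have : g ∈ Subgroup.closure {S, ellU} := by rw [closure_S_ellU]; trivial
    induction this using Subgroup.closure_induction with
    | mem x hx =>
      rcases hx with rfl | rfl
      · exact ⟨oS, hS⟩
      · exact ⟨oU, hU⟩
    | one => exact (map_one symAct).symm ▸ one_mem _
    | mul x y _ _ hx hy => exact (map_mul symAct x y).symm ▸ mul_mem hx hy
    | inv x _ hx => exact (map_inv symAct x).symm ▸ inv_mem hx
  set e := MonoidHom.ofInjective (f := π) lift_symAct_injective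
  set η := CoprodI.lift (factorHom s u hs hu) with hη
  set ρ : SL(2, ℤ) →* G := η.comp (e.symm.toMonoidHom.comp (symAct.codRestrict π.range hmem))
  have key : ∀ g x, π x = symAct g → ρ g = η x := by
    intro g x hx
    show η (e.symm ⟨symAct g, hmem g⟩) = η x
    congr 1
    rw [MulEquiv.symm_apply_eq]
    exact Subtype.ext hx.symm
  refine ⟨ρ, ?_, ?_, ?_⟩
  · rw [key S oS hS, hη, hoS, CoprodI.lift_of]
    exact (cyclicHom_apply (n := 2) _ hs _).trans (pow_one _)
  · rw [key ellU oU hU, hη, hoU, CoprodI.lift_of]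
    exact (cyclicHom_apply (n := 3) _ hu _).trans (pow_one _)
  · rw [key (-1) 1 (by rw [map_one, symAct_neg_one]), map_one]

end PingPong

section Classification

/-- `γ` is, up to sign, conjugate to a power of `S`, `S * T` or `T`. -/
def IsConjBasic (γ : SL(2, ℤ)) : Prop :=
  ∃ (g x : SL(2, ℤ)) (k : ℤ), (x = S ∨ x = ellU ∨ x = T) ∧
    (γ = g * x ^ k * g⁻¹ ∨ γ = -(g * x ^ k * g⁻¹))

theorem isConjBasic_of_eq {γ x : SL(2, ℤ)} (k : ℤ) (hx : x = S ∨ x = ellU ∨ x = T)
    (g : SL(2, ℤ)) (h : γ = g * x ^ k * g⁻¹ ∨ γ = -(g * x ^ k * g⁻¹)) : IsConjBasic γ :=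
  ⟨g, x, k, hx, h⟩

theorem IsConjBasic.of_conj {γ h : SL(2, ℤ)} (H : IsConjBasic (h * γ * h⁻¹)) : IsConjBasic γ := by
  obtain ⟨g, x, k, hx, e | e⟩ := H
  · refine isConjBasic_of_eq k hx (h⁻¹ * g) (Or.inl ?_)
    rw [show γ = h⁻¹ * (h * γ * h⁻¹) * h by group, e]
    group
  · refine isConjBasic_of_eq k hx (h⁻¹ * g) (Or.inr ?_)
    rw [show γ = h⁻¹ * (h * γ * h⁻¹) * h by group, e]
    simp [mul_assoc]

theorem trace_conj (g γ : SL(2, ℤ)) :
    ((g * γ * g⁻¹ : SL(2, ℤ)) : Matrix (Fin 2) (Fin 2) ℤ).trace =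
      (γ : Matrix (Fin 2) (Fin 2) ℤ).trace := by
  rw [SpecialLinearGroup.coe_mul, Matrix.trace_mul_comm, ← SpecialLinearGroup.coe_mul,
    ← mul_assoc, inv_mul_cancel, one_mul]

theorem sl2_eq {δ x : SL(2, ℤ)} {a b c d : ℤ} (ha : δ 0 0 = a) (hb : δ 0 1 = b) (hc : δ 1 0 = c)
    (hd : δ 1 1 = d) (h : !![a, b; c, d] = (x : Matrix (Fin 2) (Fin 2) ℤ)) : δ = x := by
  refine Subtype.ext ?_
  rw [Matrix.eta_fin_two (δ : Matrix (Fin 2) (Fin 2) ℤ), ha, hb, hc, hd, h]

theorem isConjBasic_of_trace_sq_le_four (γ : SL(2, ℤ))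
    (h : (γ : Matrix (Fin 2) (Fin 2) ℤ).trace ^ 2 ≤ 4) : IsConjBasic γ := by
  induction hn : (γ 1 0).natAbs using Nat.strong_induction_on generalizing γ with
  | _ n IH =>
  have hdet := γ.2
  rw [det_fin_two] at hdet
  by_cases hc : γ 1 0 = 0
  · rw [hc, mul_zero, sub_zero] at hdet
    rcases Int.eq_one_or_neg_one_of_mul_eq_one hdet with ha | ha
    · refine isConjBasic_of_eq (γ 0 1) (Or.inr (Or.inr rfl)) 1 (Or.inl ?_)
      rw [ha, one_mul] at hdet
      ext i j; fin_cases i <;> fin_cases j <;> simp [coe_T_zpow, ha, hc, hdet]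
    · refine isConjBasic_of_eq (-(γ 0 1)) (Or.inr (Or.inr rfl)) 1 (Or.inr ?_)
      rw [ha, neg_one_mul, neg_eq_iff_eq_neg] at hdet
      ext i j; fin_cases i <;> fin_cases j <;> simp [coe_T_zpow, ha, hc, hdet]
  obtain ⟨m, hm⟩ : ∃ m : ℤ, |γ 0 0 - γ 1 1 + 2 * m * γ 1 0| ≤ |γ 1 0| := by
    set c := γ 1 0
    set e := γ 0 0 - γ 1 1
    refine ⟨-((e + |c|) / (2 * c)), ?_⟩
    have h1 := Int.emod_nonneg (e + |c|) (by omega : 2 * c ≠ 0)
    have h2 := Int.emod_lt_abs (e + |c|) (by omega : 2 * c ≠ 0)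
    have h3 := Int.emod_add_ediv_mul (e + |c|) (2 * c)
    rw [abs_mul, abs_two] at h2
    rw [abs_le]
    constructor <;> nlinarith
  refine IsConjBasic.of_conj (h := T ^ m) ?_
  generalize hδ : T ^ m * γ * (T ^ m)⁻¹ = δ
  have htr : (δ : Matrix (Fin 2) (Fin 2) ℤ).trace ^ 2 ≤ 4 := by rw [← hδ, trace_conj]; exact h
  have hδc : δ 1 0 = γ 1 0 := by
    rw [← hδ]
    simp [coe_T_zpow, ← zpow_neg, Matrix.mul_apply, Fin.sum_univ_two, Matrix.vecMul, dotProduct]
  have hδe : |δ 0 0 - δ 1 1| ≤ |δ 1 0| := by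
    rw [hδc]
    refine le_trans (le_of_eq ?_) hm
    congr 1
    rw [← hδ]
    simp [coe_T_zpow, ← zpow_neg, Matrix.mul_apply, Fin.sum_univ_two, Matrix.vecMul, dotProduct]
    ring
  have hdet' := δ.2
  rw [det_fin_two] at hdet'
  rw [Matrix.trace_fin_two] at htr
  by_cases hb : |δ 0 1| < |δ 1 0|
  · refine IsConjBasic.of_conj (h := S) (IH (δ 0 1).natAbs ?_ _ ?_ ?_)
    · rw [← hn, ← hδc]; rw [Int.abs_eq_natAbs, Int.abs_eq_natAbs] at hb; omega
    · rw [trace_conj, ← hδ, trace_conj]; exact h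
    · simp [coe_S, SpecialLinearGroup.coe_inv, adjugate_fin_two, Matrix.mul_apply,
        Fin.sum_univ_two, Matrix.vecMul, dotProduct]
  rw [not_lt] at hb
  have hbc : 0 ≤ -(δ 0 1 * δ 1 0) := by nlinarith [sq_nonneg (δ 0 0 - δ 1 1)]
  have habs : |δ 0 1| * |δ 1 0| = -(δ 0 1 * δ 1 0) := by
    rw [← abs_mul]; exact abs_of_nonpos (by linarith)
  have hc1 : |δ 1 0| = 1 := by
    have h1 : 1 ≤ |δ 1 0| := by rw [hδc]; exact Int.one_le_abs hc
    have h2 : |δ 1 0| * |δ 1 0| ≤ |δ 0 1| * |δ 1 0| := by nlinarith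
    have h3 : (δ 0 0 - δ 1 1) ^ 2 ≤ |δ 1 0| ^ 2 := by
      rw [← sq_abs (δ 0 0 - δ 1 1)]; exact pow_le_pow_left₀ (abs_nonneg _) hδe 2
    nlinarith
  have hb1 : |δ 0 1| = 1 := by
    have h3 : (δ 0 0 - δ 1 1) ^ 2 ≤ 1 := by
      rw [← sq_abs (δ 0 0 - δ 1 1)]; exact pow_le_one₀ (abs_nonneg _) (hδe.trans hc1.le)
    nlinarith
  have hbceq : δ 0 1 * δ 1 0 = -1 := by rw [hb1, hc1] at habs; omega
  have had : δ 0 0 * δ 1 1 = 0 := by omega
  rw [hc1] at hδe
  rw [abs_le] at hδe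
  obtain ⟨hb', hc'⟩ | ⟨hb', hc'⟩ : δ 0 1 = -1 ∧ δ 1 0 = 1 ∨ δ 0 1 = 1 ∧ δ 1 0 = -1 := by
    rcases abs_eq (zero_le_one' ℤ) |>.1 hb1 with e | e <;>
      rcases abs_eq (zero_le_one' ℤ) |>.1 hc1 with e' | e' <;> simp [e, e'] at hbceq ⊢
  all_goals
    obtain ⟨ha, hd⟩ | ⟨ha, hd⟩ | ⟨ha, hd⟩ | ⟨ha, hd⟩ | ⟨ha, hd⟩ :
      δ 0 0 = 0 ∧ δ 1 1 = 0 ∨ δ 0 0 = 0 ∧ δ 1 1 = 1 ∨ δ 0 0 = 0 ∧ δ 1 1 = -1 ∨
        δ 0 0 = 1 ∧ δ 1 1 = 0 ∨ δ 0 0 = -1 ∧ δ 1 1 = 0 := by
      rcases mul_eq_zero.1 had with e | e <;> omega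
    all_goals
      first
        | exact isConjBasic_of_eq 1 (Or.inl rfl) 1
            (Or.inl (sl2_eq ha hb' hc' hd (by decide)))
        | exact isConjBasic_of_eq 1 (Or.inl rfl) 1
            (Or.inr (sl2_eq ha hb' hc' hd (by decide)))
        | exact isConjBasic_of_eq 1 (Or.inr (Or.inl rfl)) 1
            (Or.inl (sl2_eq ha hb' hc' hd (by decide)))
        | exact isConjBasic_of_eq 1 (Or.inr (Or.inl rfl)) 1
            (Or.inr (sl2_eq ha hb' hc' hd (by decide)))
        | exact isConjBasic_of_eq 2 (Or.inr (Or.inl rfl)) 1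
            (Or.inl (sl2_eq ha hb' hc' hd (by decide)))
        | exact isConjBasic_of_eq 2 (Or.inr (Or.inl rfl)) 1
            (Or.inr (sl2_eq ha hb' hc' hd (by decide)))
        | exact isConjBasic_of_eq 1 (Or.inr (Or.inl rfl)) S
            (Or.inl (sl2_eq ha hb' hc' hd (by decide)))
        | exact isConjBasic_of_eq 1 (Or.inr (Or.inl rfl)) S
            (Or.inr (sl2_eq ha hb' hc' hd (by decide)))
        | exact isConjBasic_of_eq 2 (Or.inr (Or.inl rfl)) S
            (Or.inl (sl2_eq ha hb' hc' hd (by decide)))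
        | exact isConjBasic_of_eq 2 (Or.inr (Or.inl rfl)) S
            (Or.inr (sl2_eq ha hb' hc' hd (by decide)))

theorem trace_sq_le_four_zpow {x : SL(2, ℤ)} (hx : x = S ∨ x = ellU ∨ x = T) (k : ℤ) :
    ((x ^ k : SL(2, ℤ)) : Matrix (Fin 2) (Fin 2) ℤ).trace ^ 2 ≤ 4 := by
  rcases hx with rfl | rfl | rfl
  · have h : S ^ (4 : ℤ) = 1 := by decide
    rw [← Int.emod_add_ediv_mul k 4, zpow_add, mul_comm (k / 4), zpow_mul, h, _root_.one_zpow, mul_one]
    have h1 := Int.emod_nonneg k (by norm_num : (4 : ℤ) ≠ 0)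
    have h2 := Int.emod_lt_of_pos k (by norm_num : (0 : ℤ) < 4)
    interval_cases k % 4 <;> decide
  · have h : ellU ^ (6 : ℤ) = 1 := by decide
    rw [← Int.emod_add_ediv_mul k 6, zpow_add, mul_comm (k / 6), zpow_mul, h, _root_.one_zpow, mul_one]
    have h1 := Int.emod_nonneg k (by norm_num : (6 : ℤ) ≠ 0)
    have h2 := Int.emod_lt_of_pos k (by norm_num : (0 : ℤ) < 6)
    interval_cases k % 6 <;> decide
  · rw [coe_T_zpow, Matrix.trace_fin_two_of]; norm_num

end Classification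

end FermatLib.Modular
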