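import Mathlib.RingTheory.PowerSeries.Ideal
import Mathlib.RingTheory.PowerSeries.Inverse
import Mathlib.RingTheory.IntegralClosure.IntegrallyClosed
import Mathlib.RingTheory.Localization.FractionRing
import Mathlib.RingTheory.Polynomial.RationalRoot
import Mathlib.Analysis.Complex.Basic

/-!
Power series over `ℂ` with integral coefficients: linear functionals on coefficients and
integral closedness.
-/

set_option autoImplicit false

noncomputable section

namespace FermatLib.Modular.IntStruct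

open PowerSeries

/-- The map from integral power series to complex power series. -/
def castSeries : PowerSeries ℤ →+* PowerSeries ℂ :=
  PowerSeries.map (Int.castRingHom ℂ)

theorem castSeries_injective : Function.Injective castSeries :=
  PowerSeries.map_injective _ Int.cast_injective

/-- A complex power series has integral coefficients. -/
def IsIntSeries (v : PowerSeries ℂ) : Prop := ∃ z, castSeries z = v

theorem IsIntSeries.mul {v w : PowerSeries ℂ} (hv : IsIntSeries v) (hw : IsIntSeries w) :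
    IsIntSeries (v * w) := by
  obtain ⟨a, rfl⟩ := hv
  obtain ⟨b, rfl⟩ := hw
  exact ⟨a * b, map_mul _ _ _⟩

theorem isIntSeries_iff {v : PowerSeries ℂ} :
    IsIntSeries v ↔ ∀ n, ∃ m : ℤ, coeff n v = m := by
  constructor
  · rintro ⟨z, rfl⟩ n
    exact ⟨coeff n z, by simp [castSeries]⟩
  · intro h
    choose m hm using h
    exact ⟨PowerSeries.mk m, by ext n; simp [castSeries, hm]⟩

theorem IsIntSeries.smul_int {v : PowerSeries ℂ} (hv : IsIntSeries v) (m : ℤ) :
    IsIntSeries ((m : ℂ) • v) := by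
  rw [isIntSeries_iff] at hv ⊢
  intro n
  obtain ⟨a, ha⟩ := hv n
  exact ⟨m * a, by simp [ha]⟩

theorem IsIntSeries.add {v w : PowerSeries ℂ} (hv : IsIntSeries v) (hw : IsIntSeries w) :
    IsIntSeries (v + w) := by
  obtain ⟨a, rfl⟩ := hv
  obtain ⟨b, rfl⟩ := hw
  exact ⟨a + b, map_add _ _ _⟩

/-- Apply an additive map to all coefficients. -/
def mapCoeff (l : ℂ →+ ℂ) : PowerSeries ℂ →+ PowerSeries ℂ where
  toFun v := PowerSeries.mk fun n => l (coeff n v)
  map_zero' := by ext n; simp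
  map_add' v w := by ext n; simp

@[simp] theorem coeff_mapCoeff (l : ℂ →+ ℂ) (v : PowerSeries ℂ) (n : ℕ) :
    coeff n (mapCoeff l v) = l (coeff n v) := by
  simp [mapCoeff]

theorem mapCoeff_of_isIntSeries (l : ℂ →+ ℂ) {v : PowerSeries ℂ} (hv : IsIntSeries v) :
    mapCoeff l v = l 1 • v := by
  rw [isIntSeries_iff] at hv
  ext n
  obtain ⟨m, hm⟩ := hv n
  rw [coeff_mapCoeff, hm, PowerSeries.coeff_smul, hm,
    show (m : ℂ) = m • (1 : ℂ) by simp, map_zsmul]
  simp [mul_comm]

theorem mapCoeff_smul (l : ℂ →+ ℂ) (c : ℂ) (v : PowerSeries ℂ) :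
    mapCoeff l (c • v) = mapCoeff (l.comp (AddMonoidHom.mulLeft c)) v := by
  ext n; simp

theorem mapCoeff_ringHom (σ : ℂ →+* ℂ) (v : PowerSeries ℂ) :
    mapCoeff σ.toAddMonoidHom v = PowerSeries.map σ v := by
  ext n; simp

/-- A power series has rational coefficients. -/
def IsRatSeries (v : PowerSeries ℂ) : Prop := ∀ n, ∃ r : ℚ, (r : ℂ) = coeff n v

/-- A `ℚ`-linear functional on `ℂ`, viewed as an additive endomorphism. -/
def ratFun (l : ℂ →ₗ[ℚ] ℚ) : ℂ →+ ℂ := (Rat.castHom ℂ).toAddMonoidHom.comp l.toAddMonoidHom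

@[simp] theorem ratFun_apply (l : ℂ →ₗ[ℚ] ℚ) (c : ℂ) : ratFun l c = (l c : ℂ) := rfl

theorem mapCoeff_ratFun_of_isRat (l : ℂ →ₗ[ℚ] ℚ) (hl : l 1 = 1) {v : PowerSeries ℂ}
    (hv : IsRatSeries v) : mapCoeff (ratFun l) v = v := by
  ext n
  obtain ⟨r, hr⟩ := hv n
  rw [coeff_mapCoeff, ratFun_apply, ← hr, show (r : ℂ) = r • (1 : ℂ) by
    simp [Rat.smul_def], map_smul, hl]
  simp [Rat.smul_def]

theorem mapCoeff_ratFun_mul_of_isRat (l : ℂ →ₗ[ℚ] ℚ) {v : PowerSeries ℂ} (hv : IsRatSeries v)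
    (w : PowerSeries ℂ) : mapCoeff (ratFun l) (v * w) = v * mapCoeff (ratFun l) w := by
  ext n
  rw [coeff_mapCoeff, PowerSeries.coeff_mul, PowerSeries.coeff_mul, map_sum]
  refine Finset.sum_congr rfl fun p _ => ?_
  obtain ⟨r, hr⟩ := hv p.1
  rw [coeff_mapCoeff, ← hr, ← Rat.smul_def, ratFun_apply, ratFun_apply, map_smul]
  simp

theorem IsRatSeries.mul {v w : PowerSeries ℂ} (hv : IsRatSeries v) (hw : IsRatSeries w) :
    IsRatSeries (v * w) := by
  intro n
  choose r hr using hv
  choose s hs using hw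
  exact ⟨∑ p ∈ Finset.antidiagonal n, r p.1 * s p.2, by
    simp [PowerSeries.coeff_mul, hr, hs]⟩

theorem isRatSeries_one : IsRatSeries 1 := fun n =>
  ⟨if n = 0 then 1 else 0, by rcases n with _ | n <;> simp [PowerSeries.coeff_one]⟩

theorem IsRatSeries.pow {v : PowerSeries ℂ} (hv : IsRatSeries v) : ∀ m : ℕ, IsRatSeries (v ^ m)
  | 0 => by simpa using isRatSeries_one
  | m + 1 => by rw [pow_succ]; exact (hv.pow m).mul hv

/-- Power series that become integral after multiplication by a positive integer. -/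
def HasBddDenom (v : PowerSeries ℂ) : Prop := ∃ M : ℕ, 0 < M ∧ IsIntSeries ((M : ℂ) • v)

theorem HasBddDenom.add {v w : PowerSeries ℂ} (hv : HasBddDenom v) (hw : HasBddDenom w) :
    HasBddDenom (v + w) := by
  obtain ⟨M, hM, hv⟩ := hv
  obtain ⟨M', hM', hw⟩ := hw
  refine ⟨M * M', Nat.mul_pos hM hM', ?_⟩
  have h := (hv.smul_int M').add (hw.smul_int M)
  simp only [Int.cast_natCast, smul_smul] at h
  rw [smul_add]
  convert h using 3 <;> push_cast <;> ring

theorem hasBddDenom_mapCoeff_ratFun {v : PowerSeries ℂ}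
    (hv : v ∈ Submodule.span ℂ {w | IsIntSeries w}) (l : ℂ →ₗ[ℚ] ℚ) :
    HasBddDenom (mapCoeff (ratFun l) v) := by
  induction hv using Submodule.span_induction generalizing l with
  | mem w hw =>
    refine ⟨(l 1).den, (l 1).den_pos, ?_⟩
    rw [mapCoeff_of_isIntSeries _ hw, smul_smul, ratFun_apply,
      show ((l 1).den : ℂ) * (l 1 : ℂ) = ((l 1).num : ℂ) by
        rw [mul_comm, Rat.cast_def, div_mul_cancel₀ _ (Nat.cast_ne_zero.mpr (l 1).den_ne_zero)]]
    exact hw.smul_int _
  | zero => exact ⟨1, one_pos, by rw [map_zero, smul_zero]; exact ⟨0, map_zero _⟩⟩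
  | add x y _ _ hx hy => rw [map_add]; exact (hx l).add (hy l)
  | smul c x _ hx =>
    rw [mapCoeff_smul]
    exact hx (l ∘ₗ LinearMap.mulLeft ℚ c)

theorem exists_ratLinear_one : ∃ l : ℂ →ₗ[ℚ] ℚ, l 1 = 1 := by
  obtain ⟨l, hl⟩ := LinearMap.exists_leftInverse_of_injective (LinearMap.toSpanSingleton ℚ ℂ 1)
    (LinearMap.ker_toSpanSingleton (R := ℚ) one_ne_zero)
  exact ⟨l, by simpa using LinearMap.congr_fun hl 1⟩

/-- `ℤ⟦X⟧` is integrally closed in the complex power series that are fractions of integral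
series. -/
theorem isIntSeries_of_root {y d : PowerSeries ℂ} (hd : IsIntSeries d) (hd0 : d ≠ 0)
    (hyd : IsIntSeries (y * d)) (m : ℕ) (a : ℕ → PowerSeries ℂ) (ha : ∀ r, IsIntSeries (a r))
    (ha0 : a 0 = 1) (hroot : ∑ r ∈ Finset.range (m + 1), a r * y ^ (m - r) = 0) :
    IsIntSeries y := by
  obtain ⟨d₀, rfl⟩ := hd
  obtain ⟨e, he⟩ := hyd
  choose a₀ ha₀ using ha
  let K := FractionRing (PowerSeries ℤ)
  let L := FractionRing (PowerSeries ℂ)
  have hinj : Function.Injective ((algebraMap (PowerSeries ℂ) L).comp castSeries) :=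
    (IsFractionRing.injective (PowerSeries ℂ) L).comp castSeries_injective
  let ψ : K →+* L := IsFractionRing.lift hinj
  have hψ : ∀ z, ψ (algebraMap (PowerSeries ℤ) K z) = algebraMap _ L (castSeries z) :=
    fun z => IsFractionRing.lift_algebraMap hinj z
  let x : K := algebraMap _ K e / algebraMap _ K d₀
  have hd' : algebraMap (PowerSeries ℂ) L (castSeries d₀) ≠ 0 :=
    fun h => hd0 ((IsFractionRing.injective (PowerSeries ℂ) L) (h.trans (map_zero _).symm))
  have hx : ψ x = algebraMap _ L y := by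
    rw [map_div₀, hψ, hψ, he, map_mul, mul_div_assoc, div_self hd', mul_one]
  let P : Polynomial (PowerSeries ℤ) :=
    ∑ r ∈ Finset.range (m + 1), Polynomial.C (a₀ r) * Polynomial.X ^ (m - r)
  have h0 : a₀ 0 = 1 := castSeries_injective (by rw [ha₀, ha0, map_one])
  have hPm : P.Monic := by
    have hP : P = Polynomial.X ^ m +
        ∑ r ∈ Finset.range m, Polynomial.C (a₀ (r + 1)) * Polynomial.X ^ (m - (r + 1)) := by
      simp [P, Finset.sum_range_succ' (n := m), h0, add_comm]
    rw [hP]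
    refine Polynomial.monic_X_pow_add ((Polynomial.degree_sum_le _ _).trans_lt ?_)
    refine (Finset.sup_lt_iff (WithBot.bot_lt_coe m)).mpr fun r hr => ?_
    refine (Polynomial.degree_C_mul_X_pow_le _ _).trans_lt ?_
    have : m - (r + 1) < m := by have := Finset.mem_range.mp hr; omega
    exact WithBot.coe_lt_coe.mpr this
  have hPx : Polynomial.eval₂ (algebraMap (PowerSeries ℤ) K) x P = 0 := by
    apply ψ.injective
    have h := congrArg (algebraMap (PowerSeries ℂ) L) hroot
    simpa [P, Polynomial.eval₂_finsetSum, hψ, hx, ha₀] using h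
  obtain ⟨z, hz⟩ := IsIntegrallyClosed.isIntegral_iff.mp (⟨P, hPm, hPx⟩ : IsIntegral _ x)
  refine ⟨z, IsFractionRing.injective (PowerSeries ℂ) L ?_⟩
  rw [← hψ, hz, hx]

end FermatLib.Modular.IntStruct
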