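import Mathlib.NumberTheory.ModularForms.QExpansion
import Mathlib.NumberTheory.ModularForms.CongruenceSubgroups
import Mathlib.NumberTheory.ModularForms.ArithmeticSubgroups
import Fermat.Prelude.Thm_CongruenceSubgroup_one_mem_strictPeriods_Gamma0
import Fermat.Agent.Modular.IntStructSeries

/-!
Modular forms of level `Γ₀(N)` as functions, and the span of those with integral `q`-expansion.
-/

set_option autoImplicit false

noncomputable section

namespace FermatLib.Modular.IntStruct

open UpperHalfPlane CongruenceSubgroup Matrix.SpecialLinearGroup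
open scoped MatrixGroups ModularForm Manifold

/-- The `q`-expansion of period `1`. -/
abbrev qS (F : ℍ → ℂ) : PowerSeries ℂ := UpperHalfPlane.qExpansion 1 F

/-- `F` is a modular form of level `Γ₀(N)` and weight `w`. -/
structure IsForm (N : ℕ) (w : ℤ) (F : ℍ → ℂ) : Prop where
  mdiff : MDiff F
  slash : ∀ γ ∈ Gamma0 N, F ∣[w] γ = F
  bdd : ∀ γ : SL(2, ℤ), IsBoundedAtImInfty (F ∣[w] γ)

variable {N : ℕ} {w v : ℤ} {F G : ℍ → ℂ}

theorem mdiff_slash_SL (hF : MDiff F) (w : ℤ) (γ : SL(2, ℤ)) : MDiff (F ∣[w] γ) := by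
  rw [ModularForm.SL_slash]
  exact hF.slash _ _

/-- The bundled modular form. -/
def IsForm.toModularForm [NeZero N] (hF : IsForm N w F) : ModularForm (Gamma0 N) w where
  toFun := F
  slash_action_eq' := by
    intro γ hγ
    obtain ⟨δ, hδ, rfl⟩ := hγ
    have h := hF.slash δ hδ
    rwa [ModularForm.SL_slash] at h
  holo' := hF.mdiff
  bdd_at_cusps' {c} hc := by
    rw [Subgroup.IsArithmetic.isCusp_iff_isCusp_SL2Z] at hc
    rw [OnePoint.isBoundedAt_iff_forall_SL2Z hc]
    exact fun γ _ => hF.bdd γ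

@[simp] theorem IsForm.coe_toModularForm [NeZero N] (hF : IsForm N w F) :
    ⇑hF.toModularForm = F := rfl

theorem isForm_of_modularForm [NeZero N] (f : ModularForm (Gamma0 N) w) : IsForm N w f where
  mdiff := f.holo'
  slash γ hγ := by
    rw [ModularForm.SL_slash]
    exact f.slash_action_eq' _ ⟨γ, hγ, rfl⟩
  bdd γ := by
    rw [ModularForm.SL_slash]
    exact OnePoint.isBoundedAt_infty_iff.mp (OnePoint.IsBoundedAt.smul_iff.mp
      (f.bdd_at_cusps' (c := (γ : GL (Fin 2) ℝ) • OnePoint.infty) (by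
        rw [Subgroup.IsArithmetic.isCusp_iff_isCusp_SL2Z, isCusp_SL2Z_iff']
        exact ⟨γ, rfl⟩)))

theorem isForm_zero (N : ℕ) (w : ℤ) : IsForm N w 0 where
  mdiff := mdifferentiable_const
  slash _ _ := SlashAction.zero_slash _ _
  bdd γ := by
    rw [SlashAction.zero_slash]
    exact zero_form_isBoundedAtImInfty

theorem IsForm.add (hF : IsForm N w F) (hG : IsForm N w G) : IsForm N w (F + G) where
  mdiff := hF.mdiff.add hG.mdiff
  slash γ hγ := by rw [SlashAction.add_slash, hF.slash γ hγ, hG.slash γ hγ]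
  bdd γ := by rw [SlashAction.add_slash]; exact (hF.bdd γ).add (hG.bdd γ)

theorem IsForm.smul (hF : IsForm N w F) (c : ℂ) : IsForm N w (c • F) where
  mdiff := hF.mdiff.const_smul c
  slash γ hγ := by rw [ModularForm.SL_smul_slash, hF.slash γ hγ]
  bdd γ := by
    rw [ModularForm.SL_smul_slash]
    exact (hF.bdd γ).smul c

theorem IsForm.mul (hF : IsForm N w F) (hG : IsForm N v G) : IsForm N (w + v) (F * G) where
  mdiff := hF.mdiff.mul hG.mdiff
  slash γ hγ := by rw [ModularForm.mul_slash_SL2, hF.slash γ hγ, hG.slash γ hγ]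
  bdd γ := by rw [ModularForm.mul_slash_SL2]; exact (hF.bdd γ).mul (hG.bdd γ)

theorem isForm_one (N : ℕ) : IsForm N 0 1 where
  mdiff := mdifferentiable_const
  slash γ _ := ModularForm.is_invariant_one γ
  bdd γ := by
    rw [ModularForm.is_invariant_one]
    exact Filter.const_boundedAtFilter _ (1 : ℂ)

/-- A level one form has every level. -/
theorem IsForm.of_one (hF : IsForm 1 w F) : IsForm N w F where
  mdiff := hF.mdiff
  slash γ _ := hF.slash γ (by simp [Gamma0_mem, eq_iff_true_of_subsingleton])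
  bdd := hF.bdd

theorem IsForm.slash_one (hF : IsForm 1 w F) (γ : SL(2, ℤ)) : F ∣[w] γ = F :=
  hF.slash γ (by simp [Gamma0_mem, eq_iff_true_of_subsingleton])

theorem IsForm.isBoundedAtImInfty (hF : IsForm N w F) : IsBoundedAtImInfty F := by
  simpa using hF.bdd 1

theorem IsForm.periodic (hF : IsForm N w F) [NeZero N] :
    Function.Periodic (F ∘ UpperHalfPlane.ofComplex) 1 := by
  simpa using SlashInvariantFormClass.periodic_comp_ofComplex hF.toModularForm
    (CongruenceSubgroup.one_mem_strictPeriods_Gamma0 N)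

theorem IsForm.analyticAt [NeZero N] (hF : IsForm N w F) :
    AnalyticAt ℂ (cuspFunction 1 F) 0 :=
  ModularFormClass.analyticAt_cuspFunction_zero hF.toModularForm one_pos
    (CongruenceSubgroup.one_mem_strictPeriods_Gamma0 N)

theorem IsForm.qS_mul [NeZero N] (hF : IsForm N w F) (hG : IsForm N v G) :
    qS (F * G) = qS F * qS G :=
  UpperHalfPlane.qExpansion_mul hF.analyticAt hG.analyticAt

theorem IsForm.qS_add [NeZero N] (hF : IsForm N w F) (hG : IsForm N w G) :
    qS (F + G) = qS F + qS G :=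
  UpperHalfPlane.qExpansion_add hF.analyticAt hG.analyticAt

theorem IsForm.qS_smul [NeZero N] (hF : IsForm N w F) (c : ℂ) : qS (c • F) = c • qS F :=
  UpperHalfPlane.qExpansion_smul hF.analyticAt c

theorem IsForm.qS_eq_zero_iff [NeZero N] (hF : IsForm N w F) : qS F = 0 ↔ F = 0 :=
  UpperHalfPlane.qExpansion_eq_zero_iff one_pos hF.periodic hF.mdiff hF.isBoundedAtImInfty

theorem IsForm.cast (hF : IsForm N w F) (h : w = v) : IsForm N v F := h ▸ hF

theorem IsForm.pow (hF : IsForm N w F) : ∀ n : ℕ, IsForm N (n * w) (F ^ n)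
  | 0 => by simpa using isForm_one N
  | n + 1 => by
    rw [pow_succ]
    exact ((hF.pow n).mul hF).cast (by push_cast; ring)

theorem IsForm.qS_pow [NeZero N] (hF : IsForm N w F) : ∀ n : ℕ, qS (F ^ n) = qS F ^ n
  | 0 => by simpa [qS] using UpperHalfPlane.qExpansion_one (1 : ℝ)
  | n + 1 => by rw [pow_succ, pow_succ, (hF.pow n).qS_mul hF, hF.qS_pow n]

theorem isForm_sum {ι : Type*} (s : Finset ι) {f : ι → ℍ → ℂ}
    (hf : ∀ i ∈ s, IsForm N w (f i)) : IsForm N w (∑ i ∈ s, f i) :=
  Finset.sum_induction f _ (fun _ _ => IsForm.add) (isForm_zero N w) hf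

theorem qS_sum [NeZero N] {ι : Type*} (s : Finset ι) {f : ι → ℍ → ℂ}
    (hf : ∀ i ∈ s, IsForm N w (f i)) : qS (∑ i ∈ s, f i) = ∑ i ∈ s, qS (f i) := by
  classical
  induction s using Finset.induction_on with
  | empty => simpa [qS] using UpperHalfPlane.qExpansion_zero (1 : ℝ)
  | insert a s ha ih =>
    have hs : ∀ i ∈ s, IsForm N w (f i) := fun i hi => hf i (Finset.mem_insert_of_mem hi)
    rw [Finset.sum_insert ha, Finset.sum_insert ha,
      (hf a (Finset.mem_insert_self a s)).qS_add (isForm_sum s hs), ih hs]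

/-- The span of forms with integral `q`-expansion. -/
def intSpan (N : ℕ) (w : ℤ) : Submodule ℂ (ℍ → ℂ) :=
  Submodule.span ℂ {F | IsForm N w F ∧ IsIntSeries (qS F)}

theorem isForm_of_mem_intSpan (hF : F ∈ intSpan N w) : IsForm N w F := by
  induction hF using Submodule.span_induction with
  | mem F hF => exact hF.1
  | zero => exact isForm_zero N w
  | add x y _ _ hx hy => exact hx.add hy
  | smul c x _ hx => exact hx.smul c

theorem intSpan_cast (hF : F ∈ intSpan N w) (h : w = v) : F ∈ intSpan N v := h ▸ hF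

theorem mul_mem_intSpan [NeZero N] (hF : F ∈ intSpan N w) (hG : G ∈ intSpan N v) :
    F * G ∈ intSpan N (w + v) := by
  induction hF using Submodule.span_induction with
  | mem F hF =>
    induction hG using Submodule.span_induction with
    | mem G hG =>
      refine Submodule.subset_span ⟨hF.1.mul hG.1, ?_⟩
      rw [hF.1.qS_mul hG.1]
      exact hF.2.mul hG.2
    | zero => simp
    | add x y _ _ hx hy => rw [mul_add]; exact add_mem hx hy
    | smul c x _ hx => rw [mul_smul_comm]; exact Submodule.smul_mem _ c hx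
  | zero => simp
  | add x y _ _ hx hy => rw [add_mul]; exact add_mem hx hy
  | smul c x _ hx => rw [smul_mul_assoc]; exact Submodule.smul_mem _ c hx

theorem one_mem_intSpan (N : ℕ) : (1 : ℍ → ℂ) ∈ intSpan N 0 :=
  Submodule.subset_span ⟨isForm_one N, 1, by
    rw [map_one, qS, UpperHalfPlane.qExpansion_one]⟩

theorem pow_mem_intSpan [NeZero N] (hF : F ∈ intSpan N w) : ∀ n : ℕ, F ^ n ∈ intSpan N (n * w)
  | 0 => by simpa using one_mem_intSpan N
  | n + 1 => by
    rw [pow_succ]
    exact intSpan_cast (mul_mem_intSpan (pow_mem_intSpan hF n) hF) (by push_cast; ring)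

theorem intSpan_one_le (N : ℕ) (w : ℤ) : intSpan 1 w ≤ intSpan N w :=
  Submodule.span_mono fun _ hF => ⟨hF.1.of_one, hF.2⟩

theorem qS_mem_span [NeZero N] (hF : F ∈ intSpan N w) :
    qS F ∈ Submodule.span ℂ {u | IsIntSeries u} := by
  induction hF using Submodule.span_induction with
  | mem F hF => exact Submodule.subset_span hF.2
  | zero => simp [qS, UpperHalfPlane.qExpansion_zero]
  | add x y hx hy ihx ihy =>
    rw [(isForm_of_mem_intSpan hx).qS_add (isForm_of_mem_intSpan hy)]
    exact add_mem ihx ihy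
  | smul c x hx ihx =>
    rw [(isForm_of_mem_intSpan hx).qS_smul]
    exact Submodule.smul_mem _ c ihx

/-- Any additive operation on the coefficients is realised in the span. -/
theorem exists_mapCoeff [NeZero N] (hF : F ∈ intSpan N w) (l : ℂ →+ ℂ) :
    ∃ G ∈ intSpan N w, qS G = mapCoeff l (qS F) := by
  induction hF using Submodule.span_induction generalizing l with
  | mem F hF =>
    exact ⟨l 1 • F, Submodule.smul_mem _ _ (Submodule.subset_span hF),
      by rw [hF.1.qS_smul, mapCoeff_of_isIntSeries l hF.2]⟩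
  | zero => exact ⟨0, zero_mem _, by simp [qS, UpperHalfPlane.qExpansion_zero]⟩
  | add x y hx hy ihx ihy =>
    obtain ⟨X, hX, hX'⟩ := ihx l
    obtain ⟨Y, hY, hY'⟩ := ihy l
    refine ⟨X + Y, add_mem hX hY, ?_⟩
    rw [(isForm_of_mem_intSpan hX).qS_add (isForm_of_mem_intSpan hY),
      (isForm_of_mem_intSpan hx).qS_add (isForm_of_mem_intSpan hy), map_add, hX', hY']
  | smul c x hx ihx =>
    obtain ⟨X, hX, hX'⟩ := ihx (l.comp (AddMonoidHom.mulLeft c))
    exact ⟨X, hX, by rw [hX', (isForm_of_mem_intSpan hx).qS_smul, mapCoeff_smul]⟩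

end FermatLib.Modular.IntStruct
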