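import Mathlib.NumberTheory.ModularForms.LevelOne.GradedRing
import Mathlib.NumberTheory.ModularForms.EisensteinSeries.QExpansion
import Fermat.Agent.Modular.IntStructForms

/-!
Level one forms are spanned by forms with integral `q`-expansion, and `τ ↦ F(Nτ)`.
-/

set_option autoImplicit false

noncomputable section

namespace FermatLib.Modular.IntStruct

open UpperHalfPlane CongruenceSubgroup Matrix.SpecialLinearGroup ModularForm EisensteinSeries
open scoped MatrixGroups Manifold Topology Real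
open Filter

variable {N : ℕ} {w : ℤ} {F : ℍ → ℂ}

/-- The bundled level one form. -/
def IsForm.toLevelOne (hF : IsForm 1 w F) : ModularForm 𝒮ℒ w where
  toFun := F
  slash_action_eq' := by
    rintro γ ⟨δ, rfl⟩
    have h := hF.slash_one δ
    rwa [ModularForm.SL_slash] at h
  holo' := hF.mdiff
  bdd_at_cusps' {c} hc := by
    rw [OnePoint.isBoundedAt_iff_forall_SL2Z hc]
    exact fun γ _ => hF.bdd γ

@[simp] theorem IsForm.coe_toLevelOne (hF : IsForm 1 w F) : ⇑hF.toLevelOne = F := rfl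

theorem isForm_of_levelOne (f : ModularForm 𝒮ℒ w) : IsForm 1 w f where
  mdiff := f.holo'
  slash γ _ := by rw [ModularForm.SL_slash]; exact f.slash_action_eq' _ ⟨γ, rfl⟩
  bdd γ := by
    have h : (⇑f : ℍ → ℂ) ∣[w] γ = ⇑f := by
      rw [ModularForm.SL_slash]; exact f.slash_action_eq' _ ⟨γ, rfl⟩
    rw [h]
    exact ModularFormClass.bdd_at_infty f

theorem isIntSeries_E₄ : IsIntSeries (qS E₄) := by
  rw [isIntSeries_iff]
  intro n
  rw [qS, E_qExpansion_coeff (by norm_num) ⟨2, rfl⟩]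
  refine ⟨if n = 0 then 1 else 240 * (ArithmeticFunction.sigma 3 n : ℕ), ?_⟩
  split_ifs
  · simp
  · norm_num [show bernoulli 4 = -1 / 30 by decide +kernel]

theorem isIntSeries_E₆ : IsIntSeries (qS E₆) := by
  rw [isIntSeries_iff]
  intro n
  rw [qS, E_qExpansion_coeff (by norm_num) ⟨3, rfl⟩]
  refine ⟨if n = 0 then 1 else -504 * (ArithmeticFunction.sigma 5 n : ℕ), ?_⟩
  split_ifs
  · simp
  · norm_num [show bernoulli 6 = 1 / 42 by decide +kernel]

theorem E₄_mem_intSpan : ⇑E₄ ∈ intSpan 1 4 :=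
  Submodule.subset_span ⟨isForm_of_levelOne E₄, isIntSeries_E₄⟩

theorem E₆_mem_intSpan : ⇑E₆ ∈ intSpan 1 6 :=
  Submodule.subset_span ⟨isForm_of_levelOne E₆, isIntSeries_E₆⟩

theorem discriminant_mem_intSpan : ModularForm.discriminant ∈ intSpan 1 12 := by
  have h : ModularForm.discriminant = (1728 : ℂ)⁻¹ • (⇑E₄ ^ 3 + (-1 : ℂ) • ⇑E₆ ^ 2) := by
    funext z
    simp [discriminant_eq_E₄_cube_sub_E₆_sq z, div_eq_inv_mul, sub_eq_add_neg]
  rw [h]
  refine Submodule.smul_mem _ _ (add_mem ?_ (Submodule.smul_mem _ _ ?_))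
  · exact intSpan_cast (pow_mem_intSpan E₄_mem_intSpan 3) (by norm_num)
  · exact intSpan_cast (pow_mem_intSpan E₆_mem_intSpan 2) (by norm_num)

theorem exists_monomial {k : ℕ} (hk : Even k) (hk4 : 4 ≤ k) :
    ∃ m ∈ intSpan 1 (k : ℤ), PowerSeries.coeff 0 (qS m) = 1 := by
  obtain ⟨a, b, hab⟩ : ∃ a b : ℕ, k = 4 * a + 6 * b := by
    obtain ⟨m, rfl⟩ := hk
    rcases Nat.even_or_odd m with ⟨t, rfl⟩ | ⟨t, rfl⟩
    · exact ⟨t, 0, by omega⟩
    · exact ⟨t - 1, 1, by omega⟩
  refine ⟨⇑E₄ ^ a * ⇑E₆ ^ b, intSpan_cast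
    (mul_mem_intSpan (pow_mem_intSpan E₄_mem_intSpan a) (pow_mem_intSpan E₆_mem_intSpan b))
    (by push_cast [hab]; ring), ?_⟩
  rw [((isForm_of_levelOne E₄).pow a).qS_mul ((isForm_of_levelOne E₆).pow b),
    (isForm_of_levelOne E₄).qS_pow, (isForm_of_levelOne E₆).qS_pow]
  simp only [PowerSeries.coeff_zero_eq_constantCoeff, map_mul, map_pow]
  have h4 := E_qExpansion_coeff_zero (k := 4) (by norm_num) ⟨2, rfl⟩
  have h6 := E_qExpansion_coeff_zero (k := 6) (by norm_num) ⟨3, rfl⟩
  simp only [PowerSeries.coeff_zero_eq_constantCoeff] at h4 h6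
  simp [qS, E₄, E₆, h4, h6]

/-- Every level one form is a combination of forms with integral `q`-expansion. -/
theorem mem_intSpan_one (hF : IsForm 1 w F) : F ∈ intSpan 1 w := by
  generalize hn : w.toNat = n
  induction n using Nat.strong_induction_on generalizing w F with
  | _ n ih =>
  rcases lt_trichotomy w 0 with hw | rfl | hw
  · have h := ModularFormClass.levelOne_neg_weight_eq_zero hw hF.toLevelOne
    rw [IsForm.coe_toLevelOne] at h
    rw [h]
    exact zero_mem _
  · obtain ⟨c, hc⟩ := ModularFormClass.levelOne_weight_zero_const hF.toLevelOne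
    rw [IsForm.coe_toLevelOne] at hc
    have hF1 : F = c • (1 : ℍ → ℂ) := by rw [hc]; funext z; simp
    rw [hF1]
    exact Submodule.smul_mem _ _ (one_mem_intSpan 1)
  rcases Int.even_or_odd w with hev | hodd
  swap
  · have h := congrArg DFunLike.coe (levelOne_odd_weight_eq_zero hodd hF.toLevelOne)
    simp only [IsForm.coe_toLevelOne, FunLike.coe_zero] at h
    rw [h]
    exact zero_mem _
  by_cases h2 : w = 2
  · subst h2
    have h := rank_zero_iff_forall_zero.mp levelOne_weight_two_rank_zero hF.toLevelOne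
    have h' := congrArg DFunLike.coe h
    simp only [IsForm.coe_toLevelOne, FunLike.coe_zero] at h'
    rw [h']
    exact zero_mem _
  obtain ⟨k, rfl⟩ := Int.eq_ofNat_of_zero_le hw.le
  rw [Int.toNat_natCast] at hn
  subst hn
  have hev' : Even k := by simpa [Int.even_coe_nat] using hev
  have hk4 : 4 ≤ k := by
    obtain ⟨m, hm⟩ := hev'
    omega
  obtain ⟨m, hm, hm0⟩ := exists_monomial hev' hk4
  set c := PowerSeries.coeff 0 (qS F) with hc
  have hG : IsForm 1 (k : ℤ) (F + (-c) • m) := hF.add ((isForm_of_mem_intSpan hm).smul _)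
  have hG0 : PowerSeries.coeff 0 (qS (F + (-c) • m)) = 0 := by
    rw [hF.qS_add ((isForm_of_mem_intSpan hm).smul _), (isForm_of_mem_intSpan hm).qS_smul,
      map_add, PowerSeries.coeff_smul, hm0, hc]
    simp
  let g := CuspForm.discriminantEquiv (toCuspForm hG.toLevelOne hG0)
  have hg : F + (-c) • m = ModularForm.discriminant * ⇑g := by
    funext z
    exact (discriminant_mul_discriminantEquiv_apply (toCuspForm hG.toLevelOne hG0) z).symm
  have hgmem : ⇑g ∈ intSpan 1 ((k : ℤ) - 12) :=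
    ih ((k : ℤ) - 12).toNat (by omega) (isForm_of_levelOne g) rfl
  have hFeq : F = ModularForm.discriminant * ⇑g + c • m := by
    rw [← hg]; funext z; simp
  rw [hFeq]
  exact add_mem (intSpan_cast (mul_mem_intSpan discriminant_mem_intSpan hgmem) (by ring))
    (Submodule.smul_mem _ _ hm)

/-- `τ ↦ F (N τ)`. -/
def scaleFn (N : ℕ) [NeZero N] (F : ℍ → ℂ) (τ : ℍ) : ℂ :=
  F ⟨N * τ, by simpa using mul_pos (Nat.cast_pos.mpr (NeZero.pos N)) τ.im_pos⟩

variable [NeZero N]

theorem mdiff_scaleFn (hF : MDiff F) : MDiff (scaleFn N F) := by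
  rw [UpperHalfPlane.mdifferentiable_iff] at hF ⊢
  have hmap : Set.MapsTo (fun z : ℂ => (N : ℂ) * z) upperHalfPlaneSet upperHalfPlaneSet := by
    intro z hz
    show 0 < ((N : ℂ) * z).im
    simpa using mul_pos (Nat.cast_pos.mpr (NeZero.pos N)) (show 0 < z.im from hz)
  refine ((hF.comp (by fun_prop) hmap)).congr fun z hz => ?_
  simp only [Function.comp_apply, scaleFn]
  rw [ofComplex_apply_of_im_pos (show 0 < z.im from hz),
    ofComplex_apply_of_im_pos (show 0 < ((N : ℂ) * z).im from hmap hz)]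

theorem denom_SL (δ : SL(2, ℤ)) (z : ℂ) :
    denom (δ : GL (Fin 2) ℝ) z = (δ 1 0 : ℂ) * z + δ 1 1 := by
  simp [denom]

/-- Decomposition of `diag(N,1) γ` as an element of `SL₂(ℤ)` times an upper triangular matrix. -/
theorem exists_scale_slash_eq (γ : SL(2, ℤ)) :
    ∃ (e B E : ℤ), 0 < e ∧ e * E = N ∧ e = Int.gcd ((N : ℤ) * γ 0 0) (γ 1 0) ∧
      ∀ (w : ℤ) (F : ℍ → ℂ), IsForm 1 w F → ∀ τ : ℍ, ∃ σ : ℍ,
        (σ : ℂ) = ((e : ℂ) * τ + B) / E ∧ (scaleFn N F ∣[w] γ) τ = (E : ℂ) ^ (-w) * F σ := by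
  set a := γ 0 0
  set b := γ 0 1
  set c := γ 1 0
  set d := γ 1 1
  have hdet : a * d - b * c = 1 := by
    have h := γ.2
    rw [Matrix.det_fin_two] at h
    exact h
  have hN : (0 : ℤ) < N := by exact_mod_cast NeZero.pos N
  have hne : ¬ ((N : ℤ) * a = 0 ∧ c = 0) := by
    rintro ⟨h1, h2⟩
    rcases mul_eq_zero.mp h1 with h | h
    · omega
    · rw [h, h2] at hdet; simp at hdet
  set e : ℤ := (Int.gcd ((N : ℤ) * a) c : ℤ) with he
  have he0 : 0 < e := by
    have : Int.gcd ((N : ℤ) * a) c ≠ 0 := by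
      rw [Ne, Int.gcd_eq_zero_iff]; exact hne
    omega
  set u := Int.gcdA ((N : ℤ) * a) c
  set v := Int.gcdB ((N : ℤ) * a) c
  have huv : (N : ℤ) * a * u + c * v = e := (Int.gcd_eq_gcd_ab _ _).symm
  obtain ⟨t, ht⟩ : e ∣ (N : ℤ) * a := he ▸ Int.gcd_dvd_left _ _
  obtain ⟨s, hs⟩ : e ∣ c := he ▸ Int.gcd_dvd_right _ _
  have hdetδ : u * t - v * (-s) = 1 := by
    apply mul_left_cancel₀ he0.ne'
    linear_combination huv - u * ht - v * hs
  let δ : SL(2, ℤ) := ⟨!![u, v; -s, t], by rw [Matrix.det_fin_two_of]; exact hdetδ⟩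
  set E : ℤ := -s * (N * b) + t * d with hE
  set B : ℤ := u * (N * b) + v * d with hB
  have heE : e * E = N := by
    rw [hE]
    linear_combination (N : ℤ) * hdet + (N : ℤ) * b * hs - d * ht
  refine ⟨e, B, E, he0, heE, rfl, fun w F hF τ => ?_⟩
  set z : ℍ := ⟨(N : ℂ) * ((γ • τ : ℍ) : ℂ), by
    simpa using mul_pos (Nat.cast_pos.mpr (NeZero.pos N)) (γ • τ).im_pos⟩ with hz
  refine ⟨δ • z, ?_, ?_⟩ <;>
  · have hEC : (E : ℂ) ≠ 0 := by
      have : E ≠ 0 := by rintro h; rw [h, mul_zero] at heE; omega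
      exact_mod_cast this
    have hden : (c : ℂ) * τ + d ≠ 0 := by
      simpa [c, d, denom] using denom_ne_zero (γ : GL (Fin 2) ℝ) τ
    have hzv : (z : ℂ) = (N : ℂ) * ((a * (τ : ℂ) + b) / (c * τ + d)) := by
      show (N : ℂ) * ((γ • τ : ℍ) : ℂ) = _
      rw [coe_specialLinearGroup_apply]
      simp [a, b, c, d]
    have hsC : (c : ℂ) = e * s := by exact_mod_cast hs
    have htC : (N : ℂ) * a = e * t := by exact_mod_cast ht
    have hdδ : (-s : ℂ) * z + t = E / (c * τ + d) := by
      rw [hzv, hE, ← mul_div_assoc, ← mul_div_assoc, div_add' _ _ _ hden]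
      congr 1
      push_cast
      linear_combination (t : ℂ) * τ * hsC - (s : ℂ) * τ * htC
    have huvC : (N : ℂ) * a * u + c * v = e := by exact_mod_cast huv
    have hnum : (u : ℂ) * z + v = (e * τ + B) / (c * τ + d) := by
      rw [hzv, hB, ← mul_div_assoc, ← mul_div_assoc, div_add' _ _ _ hden]
      congr 1
      push_cast
      linear_combination (τ : ℂ) * huvC
    first
    | rw [coe_specialLinearGroup_apply]
      simp only [δ, algebraMap_int_eq, Int.coe_castRingHom,
        Matrix.of_apply, Matrix.cons_val', Matrix.cons_val_zero, Matrix.cons_val_one,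
        Matrix.cons_val_fin_one]
      push_cast
      rw [hdδ, hnum, div_div_div_cancel_right₀ hden]
    | have hinv := congrFun (hF.slash_one δ) z
      rw [SL_slash_apply] at hinv
      rw [SL_slash_apply]
      show F z * _ = _
      rw [← hinv]
      have h1 : denom (δ : GL (Fin 2) ℝ) z = E / (c * τ + d) := by
        rw [← hdδ, denom_SL]; simp [δ]
      have h2 : denom (γ : GL (Fin 2) ℝ) τ = c * τ + d := by simp [denom, c, d]
      rw [h1, h2, div_zpow, zpow_neg, zpow_neg]
      field_simp [zpow_ne_zero _ hEC, zpow_ne_zero _ hden]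

theorem tendsto_affine_atImInfty {e E : ℤ} (h : 0 < e) (hE : 0 < E) (B : ℤ) {f : ℍ → ℍ}
    (hf : ∀ τ : ℍ, (f τ : ℂ) = ((e : ℂ) * τ + B) / E) : Tendsto f atImInfty atImInfty := by
  rw [atImInfty, tendsto_comap_iff]
  have : ∀ τ : ℍ, (f τ).im = (e : ℝ) / E * τ.im := by
    intro τ
    rw [← coe_im, hf]
    simp [Complex.div_intCast_im]
    ring
  simp only [Function.comp_def, this]
  exact (tendsto_comap).const_mul_atTop (by positivity)

theorem scale_slash_tendsto (hF : IsForm 1 w F) (γ : SL(2, ℤ)) :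
    ∃ (f : ℍ → ℍ) (C : ℂ), Tendsto f atImInfty atImInfty ∧
      scaleFn N F ∣[w] γ = C • (F ∘ f) := by
  obtain ⟨e, B, E, he, heE, -, h⟩ := exists_scale_slash_eq (N := N) γ
  choose f hf hf' using h w F hF
  have hE : 0 < E := by
    have : (0 : ℤ) < N := by exact_mod_cast NeZero.pos N
    nlinarith
  exact ⟨f, (E : ℂ) ^ (-w), tendsto_affine_atImInfty he hE B hf, funext hf'⟩

theorem isForm_scaleFn (hF : IsForm 1 w F) : IsForm N w (scaleFn N F) where
  mdiff := mdiff_scaleFn hF.mdiff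
  bdd γ := by
    obtain ⟨f, C, hf, heq⟩ := scale_slash_tendsto (N := N) hF γ
    rw [heq]
    exact (hF.isBoundedAtImInfty.comp_tendsto hf).const_smul_left C
  slash γ hγ := by
    rw [Gamma0_mem, ZMod.intCast_zmod_eq_zero_iff_dvd] at hγ
    obtain ⟨s, hs⟩ := hγ
    have hdet : γ 0 0 * γ 1 1 - γ 0 1 * γ 1 0 = 1 := by
      have h := γ.2; rw [Matrix.det_fin_two] at h; exact h
    let δ : SL(2, ℤ) := ⟨!![γ 0 0, N * γ 0 1; s, γ 1 1], by
      rw [Matrix.det_fin_two_of]; linear_combination hdet + γ 0 1 * hs⟩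
    funext τ
    have hinv := congrFun (hF.slash_one δ)
      ⟨(N : ℂ) * τ, by simpa using mul_pos (Nat.cast_pos.mpr (NeZero.pos N)) τ.im_pos⟩
    rw [SL_slash_apply] at hinv ⊢
    unfold scaleFn
    rw [← hinv]
    have hsC : ((γ 1 0 : ℤ) : ℂ) = N * s := by exact_mod_cast hs
    congr 2
    · ext
      simp only [coe_specialLinearGroup_apply]
      simp [δ, hsC]
      field_simp
    · simp only [denom_SL]
      simp [δ, hsC]
      ring

theorem scale_isIntSeries (hF : IsForm 1 w F) (h : IsIntSeries (qS F)) :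
    IsIntSeries (qS (scaleFn N F)) := by
  rw [isIntSeries_iff] at h ⊢
  set c : ℕ → ℂ := fun m => if N ∣ m then (qS F).coeff (m / N) else 0 with hc
  have hsum : ∀ τ : ℍ, HasSum (fun m => c m • Function.Periodic.qParam 1 (τ : ℂ) ^ m)
      (scaleFn N F τ) := by
    intro τ
    have hτ := hF.periodic
    have h1 := UpperHalfPlane.hasSum_qExpansion one_pos hF.periodic hF.mdiff
      hF.isBoundedAtImInfty ⟨(N : ℂ) * τ, by
        simpa using mul_pos (Nat.cast_pos.mpr (NeZero.pos N)) τ.im_pos⟩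
    have hinj : Function.Injective fun m : ℕ => N * m :=
      mul_right_injective₀ (NeZero.ne N)
    refine (hinj.hasSum_iff ?_).mp ?_
    · intro m hm
      have : ¬ N ∣ m := fun ⟨t, ht⟩ => hm ⟨t, ht.symm⟩
      simp [c, this]
    · refine h1.congr_fun ?_
      intro m
      simp [hc, Nat.mul_div_cancel_left _ (NeZero.pos N), Function.Periodic.qParam,
        ← Complex.exp_nat_mul]
      ring_nf
      simp
  intro n
  have hu : c n = (qS (scaleFn N F)).coeff n :=
    ModularFormClass.qExpansion_coeff_unique (f := (isForm_scaleFn hF).toModularForm) one_pos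
      (CongruenceSubgroup.one_mem_strictPeriods_Gamma0 N) hsum n
  rw [← hu]
  by_cases hn : N ∣ n
  · simpa [c, hn] using h (n / N)
  · exact ⟨0, by simp [c, hn]⟩

theorem scale_mem_intSpan (hF : F ∈ intSpan 1 w) : scaleFn N F ∈ intSpan N w := by
  induction hF using Submodule.span_induction with
  | mem F hF => exact Submodule.subset_span ⟨isForm_scaleFn hF.1, scale_isIntSeries hF.1 hF.2⟩
  | zero => exact zero_mem _
  | add x y _ _ hx hy => exact add_mem hx hy
  | smul c x _ hx => exact Submodule.smul_mem _ c hx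

/-- The auxiliary form `Δ(Nτ)` separates the cosets of `Γ₀(N)`. -/
theorem mem_Gamma0_of_scale_discriminant_slash_eq (γ : SL(2, ℤ))
    (h : scaleFn N ModularForm.discriminant ∣[(12 : ℤ)] γ = scaleFn N ModularForm.discriminant) :
    γ ∈ Gamma0 N := by
  obtain ⟨e, B, E, he, heE, hgcd, hs⟩ := exists_scale_slash_eq (N := N) γ
  have hNpos : (0 : ℤ) < N := by exact_mod_cast NeZero.pos N
  have hE : 0 < E := by nlinarith
  choose f hf hf' using hs 12 _ (isForm_of_mem_intSpan discriminant_mem_intSpan)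
  have hfi := tendsto_affine_atImInfty he hE B hf
  set p : ℍ → ℂ := fun x => ∏' (n : ℕ), (1 - ModularForm.eta_q n x) ^ 24 with hp
  have hp1 : Tendsto p atImInfty (𝓝 1) := tendsto_atImInfty_tprod_one_sub_eta_q_pow
  let g : ℍ → ℍ := fun τ => ⟨(N : ℂ) * τ, by
    simpa using mul_pos (Nat.cast_pos.mpr (NeZero.pos N)) τ.im_pos⟩
  have hgi : Tendsto g atImInfty atImInfty :=
    tendsto_affine_atImInfty hNpos one_pos 0 (fun τ => by simp [g])
  set r : ℝ := 2 * π * ((N : ℝ) - (e : ℝ) / E) with hr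
  have hlim : Tendsto (fun τ : ℍ => Real.exp (r * τ.im)) atImInfty
      (𝓝 (((E : ℝ)) ^ (12 : ℤ) * (1 / 1))) := by
    have h1 : Tendsto (fun τ => ((E : ℝ)) ^ (12 : ℤ) * (‖p (g τ)‖ / ‖p (f τ)‖)) atImInfty
        (𝓝 (((E : ℝ)) ^ (12 : ℤ) * (1 / 1))) := by
      refine ((Tendsto.div ?_ ?_ one_ne_zero)).const_mul _
      · simpa using (hp1.comp hgi).norm
      · simpa using (hp1.comp hfi).norm
    refine h1.congr fun τ => ?_
    have hpf : p (f τ) ≠ 0 := fun h0 =>
      discriminant_ne_zero (f τ) (by rw [discriminant_eq_q_prod]; exact mul_eq_zero_of_right _ h0)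
    have h2 := congrArg norm ((hf' τ).symm.trans (congrFun h τ))
    rw [show scaleFn N ModularForm.discriminant τ = ModularForm.discriminant (g τ) from rfl,
      discriminant_eq_q_prod, discriminant_eq_q_prod] at h2
    simp only [norm_mul, norm_zpow, Complex.norm_intCast, Function.Periodic.norm_qParam] at h2
    have him : (f τ).im = (e : ℝ) / E * τ.im := by
      rw [← coe_im, hf]; simp [Complex.div_intCast_im]; ring
    have himg : (g τ).im = (N : ℝ) * τ.im := by rw [← coe_im]; simp [g]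
    rw [coe_im, coe_im, him, himg, abs_of_pos (by exact_mod_cast hE)] at h2
    have hEpos : (0 : ℝ) < (E : ℝ) ^ (12 : ℤ) := zpow_pos (by exact_mod_cast hE) _
    change _ = Real.exp _
    rw [hr, show 2 * π * ((N : ℝ) - e / E) * τ.im
      = -2 * π * (e / E * τ.im) / 1 - -2 * π * ((N : ℝ) * τ.im) / 1 by ring, Real.exp_sub]
    rw [zpow_neg] at h2
    field_simp [norm_ne_zero_iff.mpr hpf, (Real.exp_pos _).ne'] at h2 ⊢
    simp only [hp] at h2 ⊢
    linear_combination -h2
  have hr0 : r = 0 := by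
    by_contra hne
    have hpos : (0 : ℝ) < (E : ℝ) ^ (12 : ℤ) * (1 / 1) := by
      have : (0 : ℝ) < E := by exact_mod_cast hE
      positivity
    have : (comap UpperHalfPlane.im atTop).NeBot := inferInstanceAs atImInfty.NeBot
    rcases lt_or_gt_of_ne hne with hlt | hgt
    · exact hpos.ne (tendsto_nhds_unique
        (Real.tendsto_exp_atBot.comp (tendsto_comap.const_mul_atTop_of_neg hlt)) hlim)
    · exact not_tendsto_atTop_of_tendsto_nhds hlim
        (Real.tendsto_exp_atTop.comp (tendsto_comap.const_mul_atTop hgt))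
  have heN : e = (N : ℤ) * E := by
    have h0 : (N : ℝ) - (e : ℝ) / E = 0 := by
      simpa [hr, Real.pi_ne_zero] using hr0
    have hE' : (E : ℝ) ≠ 0 := by exact_mod_cast hE.ne'
    field_simp at h0
    have : (e : ℝ) = ((N * E : ℤ) : ℝ) := by push_cast; linarith
    exact_mod_cast this
  have hE1 : E = 1 := by
    have : E * E = 1 := mul_left_cancel₀ hNpos.ne' (by rw [mul_one]; rw [heN] at heE; linarith)
    nlinarith
  rw [Gamma0_mem, ZMod.intCast_zmod_eq_zero_iff_dvd]
  rw [hE1, mul_one] at heN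
  rw [← heN, hgcd]
  exact Int.gcd_dvd_right _ _

end FermatLib.Modular.IntStruct
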