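import Fermat.Agent.Modular.PlaceCuspAux

/-!
The places of `X₀(N)` over `j = ∞`: cusps.
-/

set_option autoImplicit false

noncomputable section

open UpperHalfPlane hiding I
open CongruenceSubgroup ModularCurve AlgebraicCurve
open scoped MatrixGroups Manifold Topology

namespace FermatLib.Modular

variable {L : Type*} [Field L] [Algebra ℚ L] [IsAlgClosed L] (ι : L →+* ℂ) (N : ℕ) [NeZero N]

/-- Width of the cusp `g⁻¹ ∞`. -/
def cuspWidth (g : SL(2, ℤ)) : ℕ := cuspOrbitWidth (cuspOrbitMk (g : Gamma0Coset N))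

/-- `τ ↦ G (g⁻¹ (h τ))`, `h` the width of the cusp `g⁻¹ ∞`. -/
def cuspFun (g : SL(2, ℤ)) (G : ℍ → ℂ) : ℍ → ℂ :=
  fun τ => G (g⁻¹ • (ModularForm.heckeDiagMatrix (cuspWidth N g) • τ))

instance neZero_cuspWidth (g : SL(2, ℤ)) : NeZero (cuspWidth N g) := ⟨(cuspOrbitWidth_pos _).ne'⟩

theorem T_cuspWidth_smul (g : SL(2, ℤ)) :
    ModularGroup.T ^ (cuspWidth N g : ℤ) • (g : Gamma0Coset N) = (g : Gamma0Coset N) :=
  T_zpow_smul_eq_self_iff_width_dvd.mpr dvd_rfl

theorem T_level_smul (g : SL(2, ℤ)) :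
    ModularGroup.T ^ (N : ℤ) • (g : Gamma0Coset N) = (g : Gamma0Coset N) :=
  T_zpow_smul_gamma0Coset_eq_iff.mpr (dvd_mul_right _ _)

theorem cuspWidth_dvd (g : SL(2, ℤ)) : cuspWidth N g ∣ N :=
  Int.natCast_dvd_natCast.mp (T_zpow_smul_eq_self_iff_width_dvd.mp (T_level_smul N g))

theorem cuspFun_mem_qMero (g : SL(2, ℤ)) {G : ℍ → ℂ} (hG : G ∈ weakMod (Gamma0 N)) :
    cuspFun N g G ∈ qMero :=
  cuspFunK_mem _ (T_cuspWidth_smul N g) hG

theorem exists_cuspEval (g : SL(2, ℤ)) :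
    ∃ Ψ : modularFunctionFieldCx N →+* LaurentSeries ℂ, ∀ (G : weakMod (Gamma0 N))
      (h : qExpWeak N G ∈ modularFunctionFieldCx N),
        Ψ ⟨qExpWeak N G, h⟩ = qExpL (cuspFun N g G) :=
  exists_cuspEvalK _ g (T_cuspWidth_smul N g)

/-- Expansion at the cusp `g⁻¹ ∞`, in its uniformiser. -/
def cuspEval (g : SL(2, ℤ)) : modularFunctionFieldCx N →+* LaurentSeries ℂ :=
  (exists_cuspEval N g).choose

theorem cuspEval_qExpWeak (g : SL(2, ℤ)) (G : weakMod (Gamma0 N))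
    (h : qExpWeak N G ∈ modularFunctionFieldCx N) :
    cuspEval N g ⟨qExpWeak N G, h⟩ = qExpL (cuspFun N g G) :=
  (exists_cuspEval N g).choose_spec G h

theorem cuspEval_one (x : modularFunctionFieldCx N) : cuspEval N 1 x = (x : LaurentSeries ℂ) := by
  have hw : cuspWidth N 1 = 1 := by
    have h : ModularGroup.T ^ (1 : ℤ) • ((1 : SL(2, ℤ)) : Gamma0Coset N)
        = ((1 : SL(2, ℤ)) : Gamma0Coset N) := T_zpow_smul_gamma0Coset_eq_iff.mpr (by simp)
    exact Nat.dvd_one.mp (Int.natCast_dvd_natCast.mp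
      (T_zpow_smul_eq_self_iff_width_dvd.mp h))
  refine DFunLike.congr_fun
    (cxHom_ext (Ψ := (modularFunctionFieldCx N).val.toRingHom) fun G => ?_) x
  rw [cuspEval_qExpWeak]
  show qExpL (cuspFun N 1 G) = qExpL (G : ℍ → ℂ)
  refine congrArg qExpL (funext fun τ => ?_)
  rw [cuspFun, hw, inv_one, one_smul]
  refine congrArg (G : ℍ → ℂ) (UpperHalfPlane.ext ?_)
  simp [ModularForm.coe_heckeDiagMatrix_smul one_ne_zero]

/-- Expansion at the cusp `g⁻¹ ∞` in `q^{1/N}`. -/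
def cuspEvalBig (g : SL(2, ℤ)) : modularFunctionFieldCx N →+* LaurentSeries ℂ :=
  (exists_cuspEvalK N g (T_level_smul N g)).choose

theorem cuspEvalBig_qExpWeak (g : SL(2, ℤ)) (G : weakMod (Gamma0 N))
    (h : qExpWeak N G ∈ modularFunctionFieldCx N) :
    cuspEvalBig N g ⟨qExpWeak N G, h⟩ = qExpL (cuspFunK N g G) :=
  (exists_cuspEvalK N g (T_level_smul N g)).choose_spec G h

theorem addVal_cuspEvalBig_nonneg_iff (g : SL(2, ℤ)) (y : modularFunctionFieldCx N) :
    0 ≤ HahnSeries.addVal ℤ ℂ (cuspEvalBig N g y)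
      ↔ 0 ≤ HahnSeries.addVal ℤ ℂ (cuspEval N g y) := by
  obtain ⟨m, hm⟩ := cuspWidth_dvd N g
  have : NeZero m := ⟨fun h0 => NeZero.ne N (by rw [hm, h0, mul_zero])⟩
  have e : cuspEvalBig N g = (qExpand ℂ m).comp (cuspEval N g) := by
    refine cxHom_ext fun G => ?_
    rw [RingHom.comp_apply, cuspEvalBig_qExpWeak, cuspEval_qExpWeak,
      ← qExpL_comp_diag (cuspFun_mem_qMero N g G.2) m]
    refine congrArg qExpL (funext fun τ => ?_)
    unfold cuspFunK cuspFun
    refine congrArg (G : ℍ → ℂ) (congrArg (g⁻¹ • ·) (UpperHalfPlane.ext ?_))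
    rw [ModularForm.coe_heckeDiagMatrix_smul (NeZero.ne N),
      ModularForm.coe_heckeDiagMatrix_smul (NeZero.ne _),
      ModularForm.coe_heckeDiagMatrix_smul (NeZero.ne m), ← mul_assoc, ← Nat.cast_mul, ← hm]
  rw [e, RingHom.comp_apply, addVal_qExpand_nonneg_iff]

theorem cuspEvalBig_mul_Gamma0 (g : SL(2, ℤ)) {γ : SL(2, ℤ)} (hγ : γ ∈ Gamma0 N) :
    cuspEvalBig N (g * γ) = cuspEvalBig N g := by
  refine cxHom_ext fun G => ?_
  rw [cuspEvalBig_qExpWeak, cuspEvalBig_qExpWeak]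
  refine congrArg qExpL (funext fun τ => ?_)
  unfold cuspFunK
  rw [mul_inv_rev, mul_smul]
  exact G.2.2.1 _ ((Gamma0 N).inv_mem hγ) _

theorem addVal_cuspEvalBig_T_mul (g : SL(2, ℤ)) (n : ℤ) (y : modularFunctionFieldCx N) :
    HahnSeries.addVal ℤ ℂ (cuspEvalBig N (ModularGroup.T ^ n * g) y)
      = HahnSeries.addVal ℤ ℂ (cuspEvalBig N g y) := by
  refine addVal_cxHom_congr (fun G => ?_) y
  rw [cuspEvalBig_qExpWeak, cuspEvalBig_qExpWeak,
    ← addVal_qExpL_comp_vadd (cuspFunK_mem N (T_level_smul N g) G.2) (-(n : ℝ) / N)]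
  refine congrArg (fun F => HahnSeries.addVal ℤ ℂ (qExpL F)) (funext fun τ => ?_)
  unfold cuspFunK
  rw [mul_inv_rev, ← zpow_neg, mul_smul, modular_T_zpow_smul]
  refine congrArg (G : ℍ → ℂ) (congrArg (g⁻¹ • ·) (UpperHalfPlane.ext ?_))
  have hN : (N : ℂ) ≠ 0 := NeZero.ne _
  rw [coe_vadd, ModularForm.coe_heckeDiagMatrix_smul (NeZero.ne N),
    ModularForm.coe_heckeDiagMatrix_smul (NeZero.ne N), coe_vadd]
  push_cast
  field_simp

theorem cuspEvalBig_algebraMap (g : SL(2, ℤ)) (a : ℂ) :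
    cuspEvalBig N g (algebraMap ℂ _ a) = algebraMap ℂ (LaurentSeries ℂ) a := by
  have h : algebraMap ℂ (modularFunctionFieldCx N) a
      = ⟨qExpWeak N (algebraMap ℂ _ a), qExpL_mem_modularFunctionFieldCx N (Subtype.mem _)⟩ :=
    Subtype.ext ((qExpWeak N).commutes a).symm
  rw [h, cuspEvalBig_qExpWeak]
  exact qExpL_algebraMap a

theorem qExpL_cuspFunK_jFun (k : ℕ) [NeZero k] (g : SL(2, ℤ)) :
    qExpL (cuspFunK k g jFun) = qExpand ℂ k (coeffEmb ℂ jq) := by
  rw [← qExpL_jFun, ← qExpL_comp_diag (weakMod_Gamma0_le_qMero 1 (jFun_mem_weakMod _)) k]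
  refine congrArg qExpL (funext fun τ => ?_)
  exact jFun_smul _ _

theorem addVal_qExpand_jq (k : ℕ) [NeZero k] :
    HahnSeries.addVal ℤ ℂ (qExpand ℂ k (coeffEmb ℂ jq)) = ((-(k : ℤ) : ℤ) : WithTop ℤ) := by
  rw [addVal_qExpand_of_eq (n := -1)
    ((HahnSeries.addVal_apply).trans (orderTop_coeffEmb_jq ℂ))]
  exact congrArg _ (mul_neg_one _)

theorem cuspEvalBig_jElem (g : SL(2, ℤ)) :
    cuspEvalBig N g (jElem ℂ N) = qExpand ℂ N (coeffEmb ℂ jq) := by
  rw [jElem_eq_qExpWeak, cuspEvalBig_qExpWeak]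
  exact qExpL_cuspFunK_jFun N g

theorem addVal_cuspEval_jElem (g : SL(2, ℤ)) :
    HahnSeries.addVal ℤ ℂ (cuspEval N g (jElem ℂ N))
      = ((-(cuspWidth N g : ℤ) : ℤ) : WithTop ℤ) := by
  rw [jElem_eq_qExpWeak, cuspEval_qExpWeak, ← addVal_qExpand_jq]
  exact congrArg _ (qExpL_cuspFunK_jFun _ g)

/-- The embedding attached to the coset `g Γ₀(N)`. -/
def cuspCosetHom (q : Gamma0Coset N) : modularFunctionFieldOver L N →+* LaurentSeries ℂ :=
  (cuspEvalBig N q.out).comp (baseToCx ι N)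

omit [IsAlgClosed L] in
theorem cuspCosetHom_mk (g : SL(2, ℤ)) :
    cuspCosetHom ι N (g : Gamma0Coset N) = (cuspEvalBig N g).comp (baseToCx ι N) := by
  have h : g⁻¹ * (g : Gamma0Coset N).out ∈ Gamma0 N :=
    QuotientGroup.eq.mp (QuotientGroup.out_eq' (g : Gamma0Coset N)).symm
  rw [cuspCosetHom, ← cuspEvalBig_mul_Gamma0 N g h, mul_inv_cancel_left]

omit [IsAlgClosed L] in
theorem cuspCosetHom_injective : Function.Injective (cuspCosetHom ι N) := by
  intro q q' h
  have hj := DFunLike.congr_fun h (jScaleElem L N)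
  have hG : baseToCx ι N (jScaleElem L N)
      = ⟨qExpWeak N ⟨jScaleFun N, jScaleFun_mem_weakMod dvd_rfl⟩,
        qExpL_mem_modularFunctionFieldCx N (jScaleFun_mem_weakMod dvd_rfl)⟩ :=
    Subtype.ext ((coeffMap_coeffEmb_of_embedding ι _).trans (qExpL_jScaleFun N).symm)
  simp only [cuspCosetHom, RingHom.comp_apply, hG, cuspEvalBig_qExpWeak] at hj
  have hfun := congrArg Subtype.val (@qExpLHom_injective
    ⟨_, cuspFunK_mem N (T_level_smul N q.out) (jScaleFun_mem_weakMod dvd_rfl)⟩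
    ⟨_, cuspFunK_mem N (T_level_smul N q'.out) (jScaleFun_mem_weakMod dvd_rfl)⟩ hj)
  have hmem := (jScaleFun_smul_eq_iff N q.out⁻¹ q'.out⁻¹).mp fun z => by
    have := congrFun hfun ((ModularForm.heckeDiagMatrix N)⁻¹ • z)
    simpa [cuspFunK] using this
  rw [inv_inv] at hmem
  rw [← QuotientGroup.out_eq' q, ← QuotientGroup.out_eq' q', QuotientGroup.eq]
  exact hmem

theorem exists_cusp_places :
    ∃ p : Gamma0Coset N → Place L (modularFunctionFieldOver L N),
      (∀ g : SL(2, ℤ), InducesPlace (HahnSeries.addVal ℤ ℂ) ((cuspEval N g).comp (baseToCx ι N))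
        (p g)) ∧
      (∀ (g : SL(2, ℤ)) (n : ℤ), p (ModularGroup.T ^ n • (g : Gamma0Coset N)) = p g) ∧
      (∀ v : Place L (modularFunctionFieldOver L N), v.ord (jElem L N) < 0 ↔ ∃ q, p q = v) ∧
      (∀ q, (Nat.card {q' // p q' = p q} : ℤ) = -(p q).ord (jElem L N)) := by
  have := Fintype.ofFinite (Gamma0Coset N)
  have hcard : Fintype.card (Gamma0Coset N) = dedekindPsi N := by
    rw [← Nat.card_eq_fintype_card, card_gamma0Coset]
  have hval : ∀ q, HahnSeries.addVal ℤ ℂ (cuspCosetHom ι N q (jElem L N))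
      = ((-(N : ℤ) : ℤ) : WithTop ℤ) := fun q => by
    rw [cuspCosetHom, RingHom.comp_apply, baseToCx_jElem, cuspEvalBig_jElem, addVal_qExpand_jq]
  have hx : jElem L N ≠ 0 := fun h => transcendental_jElem L N (h ▸ isAlgebraic_zero)
  obtain ⟨p, hp, hv, hc⟩ := fibre_of_embeddings (HahnSeries.addVal ℤ ℂ) (cuspCosetHom ι N)
    (cuspCosetHom_injective ι N) (inv_ne_zero hx) (fun q a => by
      rw [cuspCosetHom, RingHom.comp_apply, baseToCx_algebraMap, cuspEvalBig_algebraMap]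
      exact addVal_algebraMap_nonneg _)
    (fun q q' a => by
      simp only [cuspCosetHom, RingHom.comp_apply, baseToCx_algebraMap, cuspEvalBig_algebraMap])
    (fun q q' => by
      simp only [cuspCosetHom, RingHom.comp_apply, map_inv₀, baseToCx_jElem, cuspEvalBig_jElem])
    (fun q => by
      rw [map_inv₀, AddValuation.map_inv, hval, ← WithTop.LinearOrderedAddCommGroup.coe_neg,
        neg_neg]
      exact WithTop.coe_lt_coe.mpr (Int.natCast_pos.mpr (Nat.pos_of_ne_zero (NeZero.ne N))))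
    (exists_const_sub_mem_ordGE N)
    (fun s hs => by
      rw [hcard]
      refine sum_ord_le_dedekindPsi N (le_antisymm ?_ ?_) s hs
      · exact IntermediateField.adjoin_simple_le_iff.mpr
          (inv_mem (IntermediateField.mem_adjoin_simple_self L _))
      · refine IntermediateField.adjoin_simple_le_iff.mpr ?_
        simpa using inv_mem (IntermediateField.mem_adjoin_simple_self L (jElem L N)⁻¹))
  have hind : ∀ g : SL(2, ℤ), InducesPlace (HahnSeries.addVal ℤ ℂ)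
      ((cuspEvalBig N g).comp (baseToCx ι N)) (p g) := fun g =>
    cuspCosetHom_mk ι N g ▸ hp (g : Gamma0Coset N)
  refine ⟨p, fun g f => (hind g f).trans (addVal_cuspEvalBig_nonneg_iff N g _), fun g n => ?_,
    fun v => ?_, fun q => ?_⟩
  · rw [MulAction.Quotient.smul_coe, smul_eq_mul]
    refine InducesPlace.unique (fun f => ?_) (hind g)
    refine (hind _ f).trans ?_
    rw [RingHom.comp_apply, RingHom.comp_apply, addVal_cuspEvalBig_T_mul]
  · rw [← hv v, v.ord_inv]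
    omega
  · rw [hc q, (p q).ord_inv]

theorem exists_cuspPlace (g : SL(2, ℤ)) :
    ∃ v : Place L (modularFunctionFieldOver L N),
      InducesPlace (HahnSeries.addVal ℤ ℂ) ((cuspEval N g).comp (baseToCx ι N)) v := by
  obtain ⟨p, hp, -⟩ := exists_cusp_places ι N
  exact ⟨_, hp g⟩

/-- The place attached to the cusp `g⁻¹ ∞`. -/
def cuspPlace (g : SL(2, ℤ)) : Place L (modularFunctionFieldOver L N) :=
  (exists_cuspPlace ι N g).choose

/-- The place of `ℂ(X₀(N))` attached to the cusp `g⁻¹ ∞`. -/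
def cuspPlaceCx (g : SL(2, ℤ)) : Place ℂ (modularFunctionFieldCx N) :=
  cuspPlace (RingHom.id ℂ) N g

theorem cuspPlace_spec (g : SL(2, ℤ)) :
    InducesPlace (HahnSeries.addVal ℤ ℂ) ((cuspEval N g).comp (baseToCx ι N)) (cuspPlace ι N g) :=
  (exists_cuspPlace ι N g).choose_spec

/-- The scale of a cusp place is `1`, and its fibre is an orbit of `T`. -/
theorem cusp_fibre (g : SL(2, ℤ)) :
    (∀ x : modularFunctionFieldOver L N, x ≠ 0 →
      HahnSeries.addVal ℤ ℂ (cuspEval N g (baseToCx ι N x))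
        = (((cuspPlace ι N g).ord x : ℤ) : WithTop ℤ)) ∧
    (cuspPlace ι N g).ord (jElem L N) = -(cuspWidth N g : ℤ) ∧
    (∀ g' : SL(2, ℤ), cuspPlace ι N g = cuspPlace ι N g' ↔
      cuspOrbitMk (g : Gamma0Coset N) = cuspOrbitMk (g' : Gamma0Coset N)) := by
  obtain ⟨p, hp, hT, hv, hc⟩ := exists_cusp_places ι N
  have hpl : ∀ g', cuspPlace ι N g' = p g' := fun g' => (cuspPlace_spec ι N g').unique (hp g')
  have hx : jElem L N ≠ 0 := fun h => transcendental_jElem L N (h ▸ isAlgebraic_zero)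
  set v := p (g : Gamma0Coset N) with hvdef
  obtain ⟨m, hm, hs⟩ := (hp g).exists_scale
  have hneg : v.ord (jElem L N) < 0 := (hv _).mpr ⟨_, rfl⟩
  have hme : m * -v.ord (jElem L N) = cuspWidth N g := by
    have h := (hs _ hx).symm.trans (by
      rw [RingHom.comp_apply, baseToCx_jElem, addVal_cuspEval_jElem])
    have h' := WithTop.coe_inj.mp h
    linarith
  let S : Set (Gamma0Coset N) := {q | p q = v}
  let O : Set (Gamma0Coset N) := {q | cuspOrbitMk q = cuspOrbitMk (g : Gamma0Coset N)}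
  have hOS : O ⊆ S := fun q hq => by
    obtain ⟨n, rfl⟩ := cuspOrbitMk_eq_iff.mp hq
    exact hT g n
  have hO : O.ncard = cuspWidth N g := by
    rw [← Nat.card_coe_set_eq]
    exact Nat.card_congr (Equiv.subtypeEquivRight fun q => MulAction.orbitRel.Quotient.mem_orbit.symm)
  have hS : (S.ncard : ℤ) = -v.ord (jElem L N) := by
    rw [← Nat.card_coe_set_eq]
    exact hc g
  have hle : (O.ncard : ℤ) ≤ S.ncard := by exact_mod_cast Set.ncard_le_ncard hOS
  have hm1 : m = 1 := by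
    rw [hO, hS, ← hme] at hle
    nlinarith
  rw [hm1, one_mul] at hme
  have hSO : O = S := Set.eq_of_subset_of_ncard_le hOS (by
    rw [hO]
    omega)
  refine ⟨fun x hx' => ?_, by rw [hpl, ← hvdef]; omega, fun g' => ?_⟩
  · rw [hpl, ← RingHom.comp_apply, hs x hx', hm1, one_mul]
  · have : (g' : Gamma0Coset N) ∈ O ↔ (g' : Gamma0Coset N) ∈ S := by rw [hSO]
    rw [hpl, hpl]
    exact eq_comm.trans (this.symm.trans eq_comm)

theorem order_cuspEval (g : SL(2, ℤ)) {x : modularFunctionFieldOver L N} (hx : x ≠ 0) :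
    (cuspEval N g (baseToCx ι N x)).order = (cuspPlace ι N g).ord x := by
  have hne : cuspEval N g (baseToCx ι N x) ≠ 0 :=
    (map_ne_zero _).mpr ((map_ne_zero _).mpr hx)
  have h := (cusp_fibre ι N g).1 x hx
  rw [HahnSeries.addVal_apply_of_ne hne] at h
  exact WithTop.coe_inj.mp h

theorem ord_cuspPlace_one (x : modularFunctionFieldOver L N) (hx : x ≠ 0) :
    (cuspPlace ι N 1).ord x = (x : LaurentSeries L).order := by
  have hx' : (x : LaurentSeries L) ≠ 0 := fun h => hx (Subtype.ext h)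
  rw [← order_cuspEval ι N 1 hx, cuspEval_one, coe_baseToCx]
  refine WithTop.coe_inj.mp ?_
  rw [HahnSeries.order_eq_orderTop_of_ne_zero hx',
    HahnSeries.order_eq_orderTop_of_ne_zero ((map_ne_zero _).mpr hx'),
    orderTop_coeffMap ι ι.injective]

theorem ord_jElem_cuspPlace (g : SL(2, ℤ)) :
    (cuspPlace ι N g).ord (jElem L N) = -(cuspWidth N g : ℤ) :=
  (cusp_fibre ι N g).2.1

theorem cuspPlace_eq_iff (g g' : SL(2, ℤ)) :
    cuspPlace ι N g = cuspPlace ι N g' ↔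
      cuspOrbitMk (g : Gamma0Coset N) = cuspOrbitMk (g' : Gamma0Coset N) :=
  (cusp_fibre ι N g).2.2 g'

theorem exists_cuspPlace_eq (v : Place L (modularFunctionFieldOver L N))
    (hv : v.ord (jElem L N) < 0) : ∃ g : SL(2, ℤ), cuspPlace ι N g = v := by
  obtain ⟨p, hp, -, hp', -⟩ := exists_cusp_places ι N
  obtain ⟨q, hq⟩ := (hp' v).mp hv
  obtain ⟨g, rfl⟩ := QuotientGroup.mk_surjective q
  exact ⟨g, ((cuspPlace_spec ι N g).unique (hp g)).trans hq⟩

/-- Every place is a point or a cusp. -/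
theorem ptPlace_or_cuspPlace (v : Place L (modularFunctionFieldOver L N)) :
    (∃ (τ : ℍ) (hτ : jFun τ ∈ Set.range ι), ptPlace ι N τ hτ = v) ∨
      ∃ g : SL(2, ℤ), cuspPlace ι N g = v :=
  (lt_or_ge (v.ord (jElem L N)) 0).elim (fun h => Or.inr (exists_cuspPlace_eq ι N v h))
    (fun h => Or.inl (exists_ptPlace_eq ι N v h))

end FermatLib.Modular
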