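import Fermat.Agent.Basic.EigenformLift
import Mathlib.NumberTheory.ModularForms.QExpansion

/-!
# The degeneracy maps `f(τ) ↦ f(d τ)` from level `M` to level `N` (`M d ∣ N`)
-/

set_option autoImplicit false

noncomputable section

open CongruenceSubgroup ModularFormClass UpperHalfPlane
open scoped MatrixGroups ModularForm

namespace FermatLib.Modular

variable {M N d : ℕ} {k : ℤ}

theorem heckeDiagMatrix_mul_mapGL [NeZero d] {γ γ' : SL(2, ℤ)}
    (h00 : γ' 0 0 = γ 0 0) (h01 : γ' 0 1 = d * γ 0 1) (h10 : γ 1 0 = d * γ' 1 0)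
    (h11 : γ' 1 1 = γ 1 1) :
    ModularForm.heckeDiagMatrix d * Matrix.SpecialLinearGroup.mapGL ℝ γ
      = Matrix.SpecialLinearGroup.mapGL ℝ γ' * ModularForm.heckeDiagMatrix d := by
  ext i j
  rw [Matrix.GeneralLinearGroup.coe_mul, Matrix.GeneralLinearGroup.coe_mul,
    ModularForm.val_heckeDiagMatrix (NeZero.ne d)]
  fin_cases i <;> fin_cases j <;>
    simp [Matrix.mul_apply, Fin.sum_univ_two, h00, h01, h10, h11] <;> ring

theorem slash_heckeDiagMatrix_slash [NeZero d] (hd : M * d ∣ N) {f : ℍ → ℂ}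
    (hf : ∀ γ ∈ (Gamma0 M : Subgroup (GL (Fin 2) ℝ)), f ∣[k] γ = f)
    (γ : GL (Fin 2) ℝ) (hγ : γ ∈ (Gamma0 N : Subgroup (GL (Fin 2) ℝ))) :
    (f ∣[k] ModularForm.heckeDiagMatrix d) ∣[k] γ = f ∣[k] ModularForm.heckeDiagMatrix d := by
  obtain ⟨g, hg, rfl⟩ := hγ
  obtain ⟨e, he⟩ := ((Int.natCast_dvd_natCast.mpr hd).trans
    ((ZMod.intCast_zmod_eq_zero_iff_dvd _ N).mp (Gamma0_mem.mp hg)))
  have hdet : g 0 0 * g 1 1 - g 0 1 * g 1 0 = 1 := (Matrix.det_fin_two _).symm.trans g.2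
  let g' : SL(2, ℤ) := ⟨!![g 0 0, d * g 0 1; M * e, g 1 1], by
    rw [Matrix.det_fin_two_of]
    rw [he] at hdet
    push_cast at hdet
    linear_combination hdet⟩
  have hg' : g' ∈ Gamma0 M := by
    rw [Gamma0_mem, ZMod.intCast_zmod_eq_zero_iff_dvd]
    exact ⟨e, by simp [g']⟩
  rw [← SlashAction.slash_mul, heckeDiagMatrix_mul_mapGL (γ' := g') (by simp [g']) (by simp [g'])
    (by rw [he]; simp [g']; ring) (by simp [g']), SlashAction.slash_mul, hf _ ⟨g', hg', rfl⟩]

/-- `f(τ) ↦ f(d τ)`, from level `M` to level `N` when `M d ∣ N`. -/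
def levelScale [NeZero d] [NeZero N] (hd : M * d ∣ N) (f : CuspForm (Gamma0 M) k) :
    CuspForm (Gamma0 N) k :=
  haveI : NeZero M := ⟨fun h => NeZero.ne N (by simpa [h] using hd)⟩
  ((d : ℂ) ^ (k - 1))⁻¹ •
    { toFun := ⇑f ∣[k] ModularForm.heckeDiagMatrix d
      slash_action_eq' := slash_heckeDiagMatrix_slash hd
        (fun γ hγ => SlashInvariantFormClass.slash_action_eq f γ hγ)
      holo' := (CuspFormClass.holo f).slash k _
      zero_at_cusps' := fun {c} hc => by
        obtain ⟨g, hg⟩ :=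
          P2MW.S_CuspFormClass_isZeroAt_heckeT.ModularForm.S06W2.exists_heckeDiagMatrix_eq_map d
        rw [hg]
        refine P2MW.S_CuspFormClass_isZeroAt_heckeT.ModularForm.S06W2.isZeroAt_slash_ratCast f g ?_
        rw [Subgroup.IsArithmetic.isCusp_iff_isCusp_SL2Z] at hc ⊢
        exact hc }

theorem levelScale_apply [NeZero d] [NeZero N] (hd : M * d ∣ N) (f : CuspForm (Gamma0 M) k)
    (τ : ℍ) : levelScale hd f τ = f (ModularForm.heckeDiagMatrix d • τ) := by
  show ((d : ℂ) ^ (k - 1))⁻¹ • (⇑f ∣[k] ModularForm.heckeDiagMatrix d) τ = _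
  rw [ModularForm.slash_heckeDiagMatrix_apply k (NeZero.ne d), smul_eq_mul, ← mul_assoc,
    inv_mul_cancel₀ (zpow_ne_zero _ (Nat.cast_ne_zero.mpr (NeZero.ne d))), one_mul]

theorem qCoeff_levelScale [NeZero d] [NeZero N] (hd : M * d ∣ N) (f : CuspForm (Gamma0 M) k)
    (n : ℕ) :
    qCoeff ⇑(levelScale hd f) n = if d ∣ n then qCoeff ⇑f (n / d) else 0 := by
  have hd0 : 0 < d := Nat.pos_of_ne_zero (NeZero.ne d)
  have hΓM := one_mem_strictPeriods_Gamma0 M
  have hΓN := one_mem_strictPeriods_Gamma0 N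
  set G : CuspForm (Gamma0 N) k := levelScale hd f with hG
  let c : ℕ → ℂ := fun m => if d ∣ m then qCoeff ⇑f (m / d) else 0
  haveI : Fact (IsCusp OnePoint.infty (Gamma0 N : Subgroup (GL (Fin 2) ℝ))) :=
    ⟨Subgroup.isCusp_of_mem_strictPeriods one_pos hΓN⟩
  haveI : Fact (IsCusp OnePoint.infty (Gamma0 M : Subgroup (GL (Fin 2) ℝ))) :=
    ⟨Subgroup.isCusp_of_mem_strictPeriods one_pos hΓM⟩
  have hs : ∀ τ : ℍ, HasSum (fun m => c m • Function.Periodic.qParam 1 (τ : ℂ) ^ m) (G τ) := by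
    intro τ
    have h := UpperHalfPlane.hasSum_qExpansion one_pos
      (SlashInvariantFormClass.periodic_comp_ofComplex f hΓM) (ModularFormClass.holo f)
      (ModularFormClass.bdd_at_infty f) (ModularForm.heckeDiagMatrix d • τ)
    have hinj : Function.Injective (fun m : ℕ => d * m) := fun x y hxy =>
      Nat.eq_of_mul_eq_mul_left hd0 hxy
    rw [hG, levelScale_apply]
    refine (hinj.hasSum_iff fun m hm => ?_).mp (h.congr_fun fun m => ?_)
    · have : ¬ d ∣ m := fun ⟨q, hq⟩ => hm ⟨q, hq.symm⟩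
      simp [c, this]
    · have hq : Function.Periodic.qParam 1 ((ModularForm.heckeDiagMatrix d • τ : ℍ) : ℂ)
          = Function.Periodic.qParam 1 (τ : ℂ) ^ d := by
        rw [ModularForm.coe_heckeDiagMatrix_smul (NeZero.ne d), Function.Periodic.qParam,
          Function.Periodic.qParam, ← Complex.exp_nat_mul]
        congr 1
        ring
      rw [hq, ← pow_mul, Function.comp_apply]
      simp only [c, qCoeff, if_pos (dvd_mul_right d m), Nat.mul_div_cancel_left m hd0]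
  exact (UpperHalfPlane.qExpansion_coeff_unique
    (ContinuousMap.mk ⇑G (ModularFormClass.holo G).continuous) one_pos
    (UpperHalfPlane.analyticAt_cuspFunction_zero one_pos
      (SlashInvariantFormClass.periodic_comp_ofComplex G hΓN) (ModularFormClass.holo G)
      (ModularFormClass.bdd_at_infty G)) hs n).symm

/-- Inclusion `S_k(Γ₀(M)) → S_k(Γ₀(N))` for `M ∣ N`. -/
def levelIncl [NeZero N] (h : M ∣ N) (f : CuspForm (Gamma0 M) k) : CuspForm (Gamma0 N) k :=
  levelScale (d := 1) (by rwa [mul_one]) f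

theorem qCoeff_levelIncl [NeZero N] (h : M ∣ N) (f : CuspForm (Gamma0 M) k) (n : ℕ) :
    qCoeff ⇑(levelIncl h f) n = qCoeff ⇑f n := by
  rw [levelIncl, qCoeff_levelScale, if_pos (one_dvd n), Nat.div_one]

end FermatLib.Modular
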