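import Mathlib.Analysis.Complex.HasPrimitives
import Mathlib.Analysis.Complex.UpperHalfPlane.Manifold
import Mathlib.Analysis.Normed.Module.Convex
import Mathlib.Analysis.Calculus.MeanValue
import Mathlib.LinearAlgebra.Pi
import Mathlib.NumberTheory.ModularForms.Basic

/-!
Holomorphic primitives on the upper half plane, normalised to vanish at `I`.
-/

set_option autoImplicit false

noncomputable section

open Complex hiding I
open UpperHalfPlane hiding I
open Filter Metric
open scoped Topology Manifold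

namespace FermatLib.Modular

/-- `F` is a holomorphic primitive of `h` on the upper half plane. -/
def IsPrimUHP (h F : ℍ → ℂ) : Prop :=
  ∀ τ : ℍ, HasDerivAt (F ∘ ofComplex) (h τ) τ

/-- Two holomorphic primitives of the same function differ by a constant. -/
theorem IsPrimUHP.sub_eq {h F G : ℍ → ℂ} (hF : IsPrimUHP h F) (hG : IsPrimUHP h G) (τ σ : ℍ) :
    F τ - G τ = F σ - G σ := by
  have hd : ∀ z : ℂ, 0 < z.im →
      HasDerivAt (fun z ↦ F (ofComplex z) - G (ofComplex z)) 0 z := by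
    intro z hz
    simpa using! (hF ⟨z, hz⟩).sub (hG ⟨z, hz⟩)
  have := isOpen_upperHalfPlaneSet.is_const_of_deriv_eq_zero
    (f := fun z ↦ F (ofComplex z) - G (ofComplex z))
    (convex_halfSpace_im_gt 0).isPreconnected
    (fun z hz ↦ (hd z hz).differentiableAt.differentiableWithinAt)
    (fun z hz ↦ (hd z hz).deriv) τ.im_pos σ.im_pos
  simpa [ofComplex_apply] using this

private def nBall (n : ℕ) : Set ℂ := ball ((n : ℂ) * Complex.I) n

private theorem nBall_mono {n m : ℕ} (h : n ≤ m) : nBall n ⊆ nBall m := by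
  apply ball_subset_ball'
  rw [dist_eq, ← sub_mul, norm_mul, norm_I, mul_one]
  have hnm : ((n : ℂ) - (m : ℂ)) = -(((m - n : ℕ) : ℂ)) := by
    push_cast [h]
    ring
  rw [hnm, norm_neg, Complex.norm_natCast]
  push_cast [h]
  linarith

private theorem nBall_im_pos {n : ℕ} {z : ℂ} (hz : z ∈ nBall n) : 0 < z.im := by
  rw [nBall, mem_ball, dist_eq] at hz
  have := (abs_im_le_norm (z - (n : ℂ) * Complex.I)).trans_lt hz
  rw [abs_lt] at this
  simp at this
  linarith [this.1]

private theorem exists_mem_nBall {z : ℂ} (hz : 0 < z.im) : ∃ n : ℕ, z ∈ nBall n := by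
  obtain ⟨n, hn⟩ := exists_nat_gt ((z.re ^ 2 + z.im ^ 2) / z.im)
  refine ⟨n, ?_⟩
  rw [div_lt_iff₀ hz] at hn
  have hn0 : (0 : ℝ) ≤ n := n.cast_nonneg
  rw [nBall, mem_ball, dist_eq, norm_def, Real.sqrt_lt (normSq_nonneg _) hn0]
  rw [normSq_apply]
  simp
  nlinarith

private theorem I_mem_nBall {n : ℕ} (hn : 1 ≤ n) : Complex.I ∈ nBall n :=
  nBall_mono hn (by simp [nBall])

/-- Every holomorphic function on the upper half plane has a primitive vanishing at `I`. -/
theorem exists_isPrimUHP {h : ℍ → ℂ} (hh : MDiff h) :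
    ∃ F, IsPrimUHP h F ∧ F UpperHalfPlane.I = 0 := by
  rw [UpperHalfPlane.mdifferentiable_iff] at hh
  have key : ∀ n : ℕ, ∃ g : ℂ → ℂ, g Complex.I = 0 ∧
      ∀ z ∈ nBall n, HasDerivAt g ((h ∘ ofComplex) z) z := fun n ↦
    ((hh.mono fun z hz ↦ nBall_im_pos hz).isExactOn_ball).with_val_at Complex.I 0
  choose g hg0 hg using key
  have agree : ∀ {n m : ℕ}, 1 ≤ n → n ≤ m → ∀ z ∈ nBall n, g n z = g m z := by
    intro n m hn hnm z hz
    have hd : ∀ x ∈ nBall n, HasDerivAt (fun x ↦ g n x - g m x) 0 x := fun x hx ↦ by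
      simpa using! (hg n x hx).sub (hg m x (nBall_mono hnm hx))
    have := isOpen_ball.is_const_of_deriv_eq_zero (f := fun x ↦ g n x - g m x)
      (convex_ball _ _).isPreconnected
      (fun x hx ↦ (hd x hx).differentiableAt.differentiableWithinAt)
      (fun x hx ↦ (hd x hx).deriv) hz (I_mem_nBall hn)
    simpa [hg0, sub_eq_zero] using this
  have hex : ∀ τ : ℍ, ∃ n : ℕ, 1 ≤ n ∧ (τ : ℂ) ∈ nBall n := fun τ ↦ by
    obtain ⟨n, hn⟩ := exists_mem_nBall τ.im_pos
    exact ⟨n + 1, Nat.le_add_left 1 n, nBall_mono n.le_succ hn⟩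
  choose N hN1 hN using hex
  refine ⟨fun τ ↦ g (N τ) τ, fun τ ↦ ?_, hg0 _⟩
  have hev : (fun τ' : ℍ ↦ g (N τ') τ') ∘ ofComplex =ᶠ[𝓝 (τ : ℂ)] g (N τ) := by
    filter_upwards [isOpen_ball.mem_nhds (hN τ),
      isOpen_upperHalfPlaneSet.mem_nhds τ.im_pos] with z hz hz'
    rw [Function.comp_apply, ofComplex_apply_of_im_pos hz']
    rcases le_total (N τ) (N ⟨z, hz'⟩) with hle | hle
    · exact (agree (hN1 τ) hle z hz).symm
    · exact agree (hN1 _) hle z (hN ⟨z, hz'⟩)
  simpa [ofComplex_apply] using! (hg (N τ) τ (hN τ)).congr_of_eventuallyEq hev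

open Classical in
/-- The primitive of `h` vanishing at `I` (junk value `0` if `h` is not holomorphic). -/
def primUHP (h : ℍ → ℂ) : ℍ → ℂ :=
  if hh : MDiff h then (exists_isPrimUHP hh).choose else 0

theorem isPrimUHP_primUHP {h : ℍ → ℂ} (hh : MDiff h) : IsPrimUHP h (primUHP h) := by
  rw [primUHP, dif_pos hh]
  exact (exists_isPrimUHP hh).choose_spec.1

@[simp] theorem primUHP_I (h : ℍ → ℂ) : primUHP h UpperHalfPlane.I = 0 := by
  rw [primUHP]
  split_ifs with hh
  · exact (exists_isPrimUHP hh).choose_spec.2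
  · rfl

/-- Fundamental theorem of calculus for `primUHP`. -/
theorem IsPrimUHP.sub_eq_primUHP {h F : ℍ → ℂ} (hh : MDiff h) (hF : IsPrimUHP h F) (τ : ℍ) :
    F τ - F UpperHalfPlane.I = primUHP h τ := by
  have := hF.sub_eq (isPrimUHP_primUHP hh) τ UpperHalfPlane.I
  rw [primUHP_I, sub_zero] at this
  rw [← this]
  ring

theorem IsPrimUHP.eq_primUHP {h F : ℍ → ℂ} (hh : MDiff h) (hF : IsPrimUHP h F)
    (hF0 : F UpperHalfPlane.I = 0) : F = primUHP h := by
  funext τ
  simpa [hF0] using hF.sub_eq_primUHP hh τ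

theorem primUHP_add {h₁ h₂ : ℍ → ℂ} (hh₁ : MDiff h₁) (hh₂ : MDiff h₂) :
    primUHP (h₁ + h₂) = primUHP h₁ + primUHP h₂ :=
  ((IsPrimUHP.eq_primUHP (hh₁.add hh₂)
    (fun τ ↦ by simpa using! (isPrimUHP_primUHP hh₁ τ).add (isPrimUHP_primUHP hh₂ τ))
    (by simp))).symm

theorem primUHP_smul (c : ℂ) {h : ℍ → ℂ} (hh : MDiff h) :
    primUHP (c • h) = c • primUHP h :=
  (IsPrimUHP.eq_primUHP (hh.const_smul c)
    (fun τ ↦ by simpa using! (isPrimUHP_primUHP hh τ).const_smul c) (by simp)).symm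

/-- Holomorphic functions on the upper half plane, as a submodule of all functions. -/
def holFunUHP : Submodule ℂ (ℍ → ℂ) where
  carrier := {h | MDiff h}
  add_mem' h₁ h₂ := h₁.add h₂
  zero_mem' := mdifferentiable_const
  smul_mem' c _ h := h.const_smul c

theorem mem_holFunUHP {h : ℍ → ℂ} : h ∈ holFunUHP ↔ MDiff h := Iff.rfl

/-- `primUHP` as a linear map on holomorphic functions. -/
def primUHPLin : holFunUHP →ₗ[ℂ] (ℍ → ℂ) where
  toFun h := primUHP h
  map_add' h₁ h₂ := primUHP_add h₁.2 h₂.2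
  map_smul' c h := primUHP_smul c h.2

theorem primUHP_sum {ι : Type*} (s : Finset ι) {h : ι → ℍ → ℂ} (hh : ∀ i ∈ s, MDiff (h i)) :
    primUHP (∑ i ∈ s, h i) = ∑ i ∈ s, primUHP (h i) := by
  classical
  induction s using Finset.induction_on with
  | empty =>
    show primUHP 0 = 0
    exact map_zero primUHPLin
  | insert i s hi ih =>
    have hs : ∀ j ∈ s, MDiff (h j) := fun j hj ↦ hh j (Finset.mem_insert_of_mem hj)
    have hsum : MDiff (∑ j ∈ s, h j) := mem_holFunUHP.mp (holFunUHP.sum_mem hs)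
    rw [Finset.sum_insert hi, Finset.sum_insert hi, primUHP_add (hh i (s.mem_insert_self i)) hsum,
      ih hs]

theorem mdifferentiable_primUHP {h : ℍ → ℂ} (hh : MDiff h) : MDiff (primUHP h) :=
  UpperHalfPlane.mdifferentiable_iff.mpr fun z hz ↦
    ((isPrimUHP_primUHP hh ⟨z, hz⟩).differentiableAt).differentiableWithinAt

end FermatLib.Modular

end
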