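import Mathlib
import Fermat.Agent.Modular.Primitive
import Fermat.Agent.Modular.SL2Conj
import Fermat.Prelude.Def_ModularCurve_PeriodHomPair

/-!
Primitives of weight two cusp forms on `Γ₀(N)` near the cusps: existence of equivariant primitives,
parabolic periods vanish.
-/

set_option autoImplicit false

noncomputable section

open UpperHalfPlane hiding I
open CongruenceSubgroup ModularCurve ModularCurve.Period Filter Metric
open scoped MatrixGroups Topology Manifold ModularForm Real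

namespace FermatLib.Modular

variable {N : ℕ}

theorem gamma_le_gamma0 (N : ℕ) : CongruenceSubgroup.Gamma N ≤ Gamma0 N := fun γ hγ ↦
  Gamma0_mem.mpr (Gamma_mem.mp hγ).2.2.1

/-- Conjugates of `T ^ m`, `N ∣ m`, lie in `Γ₀(N)`. -/
theorem conj_T_zpow_mem_gamma0 (δ : SL(2, ℤ)) {m : ℤ} (hm : (N : ℤ) ∣ m) :
    δ * ModularGroup.T ^ m * δ⁻¹ ∈ Gamma0 N := by
  apply gamma_le_gamma0
  refine (Gamma_normal N).conj_mem _ ?_ δ
  simpa using ModularGroup_T_pow_mem_Gamma N m hm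

theorem isPrimUHP_comp_smul {f F : ℍ → ℂ} (hF : IsPrimUHP f F) (δ : SL(2, ℤ)) :
    IsPrimUHP (f ∣[(2 : ℤ)] δ) (fun τ ↦ F (δ • τ)) := by
  intro τ
  have hdet1 : (δ : GL (Fin 2) ℝ).val.det = 1 := Matrix.SpecialLinearGroup.det_coe _
  have hdet : 0 < (δ : GL (Fin 2) ℝ).val.det := hdet1 ▸ one_pos
  have h1 := (UpperHalfPlane.hasStrictDerivAt_smul hdet τ).hasDerivAt
  have h2 : HasDerivAt (F ∘ ofComplex) (f (δ • τ))
      ((fun z ↦ ↑((δ : GL (Fin 2) ℝ) • ofComplex z) : ℂ → ℂ) τ) := by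
    simpa [ModularGroup.sl_moeb] using hF (δ • τ)
  have h3 := h2.comp (τ : ℂ) h1
  convert! h3 using 1
  · ext z
    simp [Function.comp_def, ModularGroup.sl_moeb]
  · rw [ModularForm.SL_slash_apply, hdet1]
    simp [zpow_neg, div_eq_mul_inv]

variable [NeZero N] (f : CuspForm (Gamma0 N) 2)

theorem slash_periodic (δ : SL(2, ℤ)) :
    Function.Periodic (((f : ℍ → ℂ) ∣[(2 : ℤ)] δ) ∘ ofComplex) ((N : ℝ) : ℂ) := by
  have key : ((f : ℍ → ℂ) ∣[(2 : ℤ)] δ) ∣[(2 : ℤ)] (ModularGroup.T ^ (N : ℤ))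
      = (f : ℍ → ℂ) ∣[(2 : ℤ)] δ := by
    have hmem := conj_T_zpow_mem_gamma0 δ (dvd_refl (N : ℤ))
    have : (f : ℍ → ℂ) ∣[(2 : ℤ)] (δ * ModularGroup.T ^ (N : ℤ) * δ⁻¹) = f :=
      SlashInvariantFormClass.slash_action_eq f _ ⟨_, hmem, rfl⟩
    conv_rhs => rw [← this]
    rw [← SlashAction.slash_mul, ← SlashAction.slash_mul]
    congr 1
    group
  intro w
  by_cases hw : 0 < w.im
  · have hw' : 0 < (w + ((N : ℝ) : ℂ)).im := by simpa using hw
    simp only [Function.comp_apply, ofComplex_apply_of_im_pos hw, ofComplex_apply_of_im_pos hw']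
    have hsm : ModularGroup.T ^ (N : ℤ) • (⟨w, hw⟩ : ℍ) = ⟨w + ((N : ℝ) : ℂ), hw'⟩ := by
      apply UpperHalfPlane.ext
      rw [ModularGroup.coe_T_zpow_smul_eq]
      simp
    have h2 := congrFun key ⟨w, hw⟩
    rw [ModularForm.SL_slash_apply, hsm] at h2
    rw [← h2]
    have hd : UpperHalfPlane.denom ((ModularGroup.T ^ (N : ℤ) : SL(2, ℤ)) : GL (Fin 2) ℝ)
        ((⟨w, hw⟩ : ℍ) : ℂ) = 1 := by
      rw [ModularGroup.denom_apply, ModularGroup.coe_T_zpow]
      simp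
    rw [hd, one_zpow, mul_one]
  · have hw' : (w + ((N : ℝ) : ℂ)).im ≤ 0 := by simpa using hw
    simp only [Function.comp_apply, ofComplex_apply_of_im_nonpos hw',
      ofComplex_apply_of_im_nonpos (not_lt.mp hw)]

/-- Near every cusp a primitive is a function of `exp (2 π i τ / N)` holomorphic on the disc. -/
theorem exists_disc_primitive (δ : SL(2, ℤ)) :
    ∃ Ψ : ℂ → ℂ, DifferentiableOn ℂ Ψ (ball 0 1) ∧
      IsPrimUHP ((f : ℍ → ℂ) ∣[(2 : ℤ)] δ) (fun τ ↦ Ψ (Function.Periodic.qParam N τ)) := by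
  set g : ℍ → ℂ := (f : ℍ → ℂ) ∣[(2 : ℤ)] δ with hg
  have hN : (0 : ℝ) < N := by exact_mod_cast NeZero.pos N
  have hper : Function.Periodic (g ∘ ofComplex) ((N : ℝ) : ℂ) := slash_periodic f δ
  have hz : IsZeroAtImInfty g := CuspFormClass.zero_at_infty_slash f δ
  have hhol : MDiff g := (ModularFormClass.holo f).slash 2 _
  have hbdd : IsBoundedAtImInfty g := hz.boundedAtFilter
  have hd := differentiableOn_cuspFunction_ball hN hper hhol hbdd
  have h0 : cuspFunction N g 0 = 0 := by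
    rw [cuspFunction_apply_zero hN (analyticAt_cuspFunction_zero hN hper hhol hbdd) hper,
      hz.valueAtInfty_eq_zero]
  have hD : DifferentiableOn ℂ (dslope (cuspFunction N g) 0) (ball 0 1) :=
    (Complex.differentiableOn_dslope (ball_mem_nhds 0 one_pos)).mpr hd
  obtain ⟨Ψ₁, hΨ⟩ := hD.isExactOn_ball
  set c : ℂ := 2 * π * Complex.I / (N : ℝ) with hcdef
  have hc : c ≠ 0 := by simp [c, Real.pi_ne_zero, NeZero.ne N]
  refine ⟨fun q ↦ c⁻¹ * Ψ₁ q,
    fun q hq ↦ ((hΨ q hq).const_mul c⁻¹).differentiableAt.differentiableWithinAt, fun τ ↦ ?_⟩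
  set q : ℂ := Function.Periodic.qParam N τ with hqdef
  have hq : q ∈ ball (0 : ℂ) 1 := by
    simpa using Function.Periodic.norm_qParam_lt_one hN τ.im_pos
  have hq' : HasDerivAt (Function.Periodic.qParam (N : ℝ)) (q * c) (τ : ℂ) := by
    have := (((hasDerivAt_id (τ : ℂ)).const_mul (2 * π * Complex.I)).div_const
      ((N : ℝ) : ℂ)).cexp
    have hfun : (fun x ↦ Complex.exp (2 * π * Complex.I * id x / ((N : ℝ) : ℂ)))
        = Function.Periodic.qParam (N : ℝ) := rfl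
    rw [hfun] at this
    refine this.congr_deriv ?_
    rw [mul_one]
    rfl
  have hds : q * dslope (cuspFunction N g) 0 q = g τ := by
    have := sub_smul_dslope (cuspFunction N g) 0 q
    rw [smul_eq_mul, sub_zero, h0, sub_zero] at this
    rw [this, hqdef, eq_cuspFunction τ hN.ne' hper]
  have h := ((hΨ q hq).comp (τ : ℂ) hq').const_mul c⁻¹
  have hev : ((fun τ' : ℍ ↦ c⁻¹ * Ψ₁ (Function.Periodic.qParam N τ')) ∘ ofComplex)
      =ᶠ[𝓝 (τ : ℂ)] fun z ↦ c⁻¹ * Ψ₁ (Function.Periodic.qParam N z) := by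
    filter_upwards [isOpen_upperHalfPlaneSet.mem_nhds τ.im_pos] with z hz
    simp [ofComplex_apply_of_im_pos hz]
  refine HasDerivAt.congr_of_eventuallyEq (h.congr_deriv ?_) hev
  rw [← hds]
  field_simp

/-- A primitive of `f`, composed with `δ`, is a function of `exp (2 π i τ / N)`. -/
theorem exists_disc_comp_smul {F : ℍ → ℂ} (hF : IsPrimUHP f F) (δ : SL(2, ℤ)) :
    ∃ Ψ : ℂ → ℂ, DifferentiableOn ℂ Ψ (ball 0 1) ∧
      ∀ τ : ℍ, F (δ • τ) = Ψ (Function.Periodic.qParam N τ) := by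
  obtain ⟨Ψ, hΨ, hΨ'⟩ := exists_disc_primitive f δ
  refine ⟨fun q ↦ Ψ q + (F (δ • UpperHalfPlane.I) - Ψ (Function.Periodic.qParam N
    (UpperHalfPlane.I : ℂ))), hΨ.add_const _, fun τ ↦ ?_⟩
  have := (isPrimUHP_comp_smul hF δ).sub_eq hΨ' τ UpperHalfPlane.I
  simp only at this ⊢
  linear_combination this

theorem exists_tendsto_comp_smul {F : ℍ → ℂ} (hF : IsPrimUHP f F) (δ : SL(2, ℤ)) :
    ∃ L : ℂ, Tendsto (fun w : ℍ ↦ F (δ • w)) atImInfty (𝓝 L) := by
  obtain ⟨Ψ, hΨ, hΨ'⟩ := exists_disc_comp_smul f hF δ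
  refine ⟨Ψ 0, ?_⟩
  have hN : (0 : ℝ) < N := by exact_mod_cast NeZero.pos N
  have hc : ContinuousAt Ψ 0 :=
    (hΨ.differentiableAt (ball_mem_nhds 0 one_pos)).continuousAt
  simpa [Function.comp_def, ← hΨ'] using hc.tendsto.comp (qParam_tendsto_atImInfty hN)

theorem isPrimUHP_sub_const {h F : ℍ → ℂ} (hF : IsPrimUHP h F) (c : ℂ) :
    IsPrimUHP h (fun τ ↦ F τ - c) := fun τ ↦ (hF τ).sub_const c

omit [NeZero N] in
theorem isEquivariantPrimitive_of_isPrimUHP {F : ℍ → ℂ} (hF : IsPrimUHP f F) :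
    IsEquivariantPrimitive (Gamma0 N) F := by
  intro γ
  refine ⟨F ((γ : SL(2, ℤ)) • UpperHalfPlane.I) - F UpperHalfPlane.I, fun z ↦ ?_⟩
  have h1 : IsPrimUHP f (fun τ ↦ F ((γ : SL(2, ℤ)) • τ)) := by
    have := isPrimUHP_comp_smul hF (γ : SL(2, ℤ))
    rwa [show (f : ℍ → ℂ) ∣[(2 : ℤ)] (γ : SL(2, ℤ)) = f from
      SlashInvariantFormClass.slash_action_eq f _ ⟨_, γ.2, rfl⟩] at this
  exact h1.sub_eq hF z UpperHalfPlane.I

theorem exists_hasEquivariantPrimitive : ∃ F, HasEquivariantPrimitive N f F := by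
  obtain ⟨F, hF, -⟩ := exists_isPrimUHP (ModularFormClass.holo f)
  obtain ⟨L, hL⟩ := exists_tendsto_comp_smul f hF 1
  have hL' : Tendsto F atImInfty (𝓝 L) := by simpa using hL
  have hG := isPrimUHP_sub_const hF L
  refine ⟨fun τ ↦ F τ - L, hG, ?_, isEquivariantPrimitive_of_isPrimUHP f hG,
    fun δ ↦ exists_tendsto_comp_smul f hG δ⟩
  simpa using hL'.sub_const L

theorem tendsto_T_zpow_smul (m : ℤ) :
    Tendsto (fun w : ℍ ↦ ModularGroup.T ^ m • w) atImInfty atImInfty := by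
  refine tendsto_comap_iff.mpr ?_
  simp only [Function.comp_def, ModularGroup.im_T_zpow_smul]
  exact tendsto_comap

/-- Periods of parabolic elements vanish. -/
theorem isParabolicHom_periodHom {F : ℍ → ℂ} (hF : HasEquivariantPrimitive N f F) :
    IsParabolicHom (Gamma0 N) hF.2.2.1.periodHom := by
  intro γ hγ
  rw [IsEquivariantPrimitive.periodHom_apply]
  obtain ⟨δ, m, hact⟩ : ∃ δ : SL(2, ℤ), ∃ m : ℤ, ∀ z : ℍ,
      (γ : SL(2, ℤ)) • z = (δ * ModularGroup.T ^ m * δ⁻¹) • z := by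
    obtain ⟨δ, m, h | h⟩ := exists_eq_conj_of_trace_sq_eq_four hγ
    · exact ⟨δ, m, fun z ↦ by rw [h]⟩
    · exact ⟨δ, m, fun z ↦ by rw [h, ModularGroup.SL_neg_smul]⟩
  obtain ⟨L, hL⟩ := hF.2.2.2 δ
  have h1 : Tendsto (fun w : ℍ ↦ F (δ • ModularGroup.T ^ m • w) - F (δ • w)) atImInfty (𝓝 0) := by
    simpa using (hL.comp (tendsto_T_zpow_smul m)).sub hL
  have h2 : (fun w : ℍ ↦ F (δ • ModularGroup.T ^ m • w) - F (δ • w)) =
      fun _ ↦ hF.2.2.1.period γ := by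
    funext w
    rw [← hF.2.2.1.sub_eq_period γ (δ • w), hact, mul_smul, mul_smul, inv_smul_smul]
  rw [h2] at h1
  exact tendsto_nhds_unique tendsto_const_nhds h1

end FermatLib.Modular

end
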