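import Fermat.Agent.Modular.PeriodMap

/-!
Injectivity of the period map: a cusp form with purely imaginary periods vanishes
(maximum modulus principle at all cusps), hence `periodHomPair` is injective.
-/

set_option autoImplicit false

noncomputable section

open UpperHalfPlane hiding I
open CongruenceSubgroup ModularCurve ModularCurve.Period Filter Metric
open scoped MatrixGroups Topology Manifold ModularForm ComplexConjugate Real

namespace FermatLib.Modular

variable {N : ℕ} [NeZero N]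

/-- A weight two cusp form whose periods have vanishing real part is zero. -/
theorem eq_zero_of_re_periodMap_eq_zero (f : CuspForm (Gamma0 N) 2)
    (h : ∀ γ : Gamma0 N, (periodMap N f (Additive.ofMul γ)).re = 0) : f = 0 := by
  obtain ⟨F, hF, -⟩ := exists_isPrimUHP (ModularFormClass.holo f)
  have hN : (0 : ℝ) < N := by exact_mod_cast NeZero.pos N
  -- the function `‖exp F‖` is invariant
  have hinv : ∀ (γ : SL(2, ℤ)), γ ∈ Gamma0 N → ∀ z : ℍ,
      ‖Complex.exp (F (γ • z))‖ = ‖Complex.exp (F z)‖ := by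
    intro γ hγ z
    have hp := h ⟨γ, hγ⟩
    rw [periodMap_apply_of_isPrimUHP f hF] at hp
    have he := (isEquivariantPrimitive_of_isPrimUHP f hF).sub_eq_period ⟨γ, hγ⟩ z
    have he' := congrArg Complex.re he
    rw [IsEquivariantPrimitive.period, Complex.sub_re] at he'
    rw [hp] at he'
    rw [Complex.norm_exp, Complex.norm_exp, show (F (γ • z)).re = (F z).re by linarith]
  -- disc functions at the finitely many cusps
  choose Ψ hΨd hΨ using fun δ : SL(2, ℤ) ↦ exists_disc_comp_smul f hF δ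
  let G : SL(2, ℤ) → ℂ → ℂ := fun δ q ↦ Complex.exp (Ψ δ q)
  have hGd : ∀ δ, DifferentiableOn ℂ (G δ) (ball 0 1) := fun δ ↦ (hΨd δ).cexp
  have hG : ∀ δ (τ : ℍ), G δ (Function.Periodic.qParam N τ) = Complex.exp (F (δ • τ)) :=
    fun δ τ ↦ by simp only [G, hΨ δ τ]
  let rep : SL(2, ℤ) ⧸ Gamma0 N → SL(2, ℤ) := fun i ↦ (Quotient.out i)⁻¹
  have hrep : ∀ (δ : SL(2, ℤ)) (τ : ℍ),
      ‖Complex.exp (F (δ • τ))‖ = ‖Complex.exp (F (rep (QuotientGroup.mk δ⁻¹) • τ))‖ := by
    intro δ τ
    obtain ⟨γ, hγ⟩ := QuotientGroup.mk_out_eq_mul (Gamma0 N) δ⁻¹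
    have : rep (QuotientGroup.mk δ⁻¹) = (γ : SL(2, ℤ))⁻¹ * δ := by
      show (Quotient.out _)⁻¹ = _
      rw [hγ, mul_inv_rev, inv_inv]
    rw [this, mul_smul, hinv _ (inv_mem γ.2)]
  have : (Gamma0 N).FiniteIndex := (Gamma0_is_congruence N).finiteIndex
  have : Finite (SL(2, ℤ) ⧸ Gamma0 N) := Subgroup.finite_quotient_of_finiteIndex
  set r : ℝ := Real.exp (-π / N) with hr
  have hr1 : r < 1 := Real.exp_lt_one_iff.mpr (div_neg_of_neg_of_pos (by simp [Real.pi_pos]) hN)
  have hr0 : 0 ≤ r := (Real.exp_pos _).le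
  have hsub : closedBall (0 : ℂ) r ⊆ ball 0 1 := closedBall_subset_ball hr1
  -- every value on a disc is dominated by a value on some small closed disc
  have hdom : ∀ i, ∀ q ∈ ball (0 : ℂ) 1,
      ∃ j, ∃ q' ∈ closedBall (0 : ℂ) r, ‖G (rep i) q‖ ≤ ‖G (rep j) q'‖ := by
    intro i q hq
    rcases eq_or_ne q 0 with rfl | hq0
    · exact ⟨i, 0, mem_closedBall_self hr0, le_rfl⟩
    · set τ : ℍ := ⟨_, Function.Periodic.im_invQParam_pos_of_norm_lt_one hN
        (mem_ball_zero_iff.mp hq) hq0⟩ with hτdef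
      have hqτ : Function.Periodic.qParam N (τ : ℂ) = q :=
        Function.Periodic.qParam_right_inv hN.ne' hq0
      obtain ⟨γ, hγ⟩ := ModularGroup.exists_one_half_le_im_smul τ
      refine ⟨QuotientGroup.mk (rep i * γ⁻¹)⁻¹, Function.Periodic.qParam N (γ • τ : ℍ), ?_, ?_⟩
      · rw [mem_closedBall_zero_iff, Function.Periodic.norm_qParam, hr, Real.exp_le_exp]
        gcongr
        rw [UpperHalfPlane.coe_im]
        nlinarith [Real.pi_pos]
      · rw [← hqτ, hG, hG, ← hrep, mul_smul, inv_smul_smul]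
  -- maximiser
  have hmax : ∀ i, ∃ x ∈ closedBall (0 : ℂ) r,
      ∀ y ∈ closedBall (0 : ℂ) r, ‖G (rep i) y‖ ≤ ‖G (rep i) x‖ := fun i ↦
    (isCompact_closedBall (0 : ℂ) r).exists_isMaxOn (nonempty_closedBall.mpr hr0)
      ((hGd (rep i)).continuousOn.mono hsub).norm
  choose x hx hxmax using hmax
  obtain ⟨i₀, hi₀⟩ := Finite.exists_max fun i ↦ ‖G (rep i) (x i)‖
  have hconst : Set.EqOn (G (rep i₀)) (Function.const ℂ (G (rep i₀) (x i₀))) (ball 0 1) := by
    refine Complex.eq_const_of_exists_max (hGd _) (hsub (hx i₀)) fun q hq ↦ ?_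
    obtain ⟨j, q', hq', hle⟩ := hdom i₀ q hq
    exact hle.trans ((hxmax j q' hq').trans (hi₀ j))
  -- so `exp ∘ F` is constant and its derivative `exp F * f` vanishes
  have hF' : ∀ τ : ℍ, Complex.exp (F τ) = G (rep i₀) (x i₀) := by
    intro τ
    rw [← smul_inv_smul (rep i₀) τ, ← hG]
    exact hconst (mem_ball_zero_iff.mpr
      (Function.Periodic.norm_qParam_lt_one hN ((rep i₀)⁻¹ • τ).im_pos))
  ext τ
  have h1 : HasDerivAt (fun z ↦ Complex.exp ((F ∘ ofComplex) z))
      (Complex.exp ((F ∘ ofComplex) τ) * f τ) τ := (hF τ).cexp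
  have h2 : HasDerivAt (fun z ↦ Complex.exp ((F ∘ ofComplex) z)) 0 τ := by
    simpa [hF'] using hasDerivAt_const (τ : ℂ) (G (rep i₀) (x i₀))
  simpa [Complex.exp_ne_zero] using h1.unique h2

theorem periodHomPair_injective : Function.Injective (periodHomPair N) := by
  rw [← LinearMap.ker_eq_bot, LinearMap.ker_eq_bot']
  rintro ⟨f, g⟩ h0
  rw [periodHomPair_apply] at h0
  set v : CuspForm (Gamma0 N) 2 := conjForm (f - g) with hv
  have hι : ∀ γ, charInvolution N ℂ ℂ (periodMap N (f - g)) (Additive.ofMul γ)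
      = -conj (periodMap N v (Additive.ofMul γ)) := charInvolution_periodMap (f - g)
  -- periods of `u = f + g` are the conjugates of those of `v = (f - g)*`
  have hrel : ∀ γ, periodMap N (f + g) (Additive.ofMul γ)
      = conj (periodMap N v (Additive.ofMul γ)) := by
    intro γ
    have h1 := congrArg (fun ψ : Additive (Gamma0 N) →+ ℂ ↦ ψ (Additive.ofMul γ)) h0
    have h2 := hι γ
    simp only [← periodMapLin_apply, map_sub, map_add, AddMonoidHom.add_apply,
      AddMonoidHom.sub_apply, AddMonoidHom.zero_apply] at h1 h2 ⊢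
    linear_combination h1 - h2
  have huv : f + g - v = 0 := by
    refine eq_zero_of_re_periodMap_eq_zero _ fun γ ↦ ?_
    rw [← periodMapLin_apply, map_sub, AddMonoidHom.sub_apply, periodMapLin_apply,
      periodMapLin_apply, hrel]
    simp
  have huv' : Complex.I • (f + g + v) = 0 := by
    refine eq_zero_of_re_periodMap_eq_zero _ fun γ ↦ ?_
    rw [periodMap_smul, periodMap_add, AddMonoidHom.smul_apply, AddMonoidHom.add_apply, hrel]
    simp
  rw [smul_eq_zero, or_iff_right Complex.I_ne_zero] at huv'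
  rw [sub_eq_zero] at huv
  rw [← huv, ← two_smul ℂ (f + g), smul_eq_zero, or_iff_right two_ne_zero] at huv'
  have hw : f - g = 0 := by
    rw [← conjForm_eq_zero_iff, ← hv, ← huv, huv']
  rw [sub_eq_zero] at hw
  subst hw
  rw [← two_smul ℂ f, smul_eq_zero, or_iff_right two_ne_zero] at huv'
  simp [huv']

end FermatLib.Modular

end
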