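import Mathlib

/-!
Two facts about a triple of permutations `σ, τ, (σ τ)⁻¹` acting transitively on a finite set:
the numbers of cycles satisfy the parity condition and the Euler characteristic bound.
-/

set_option autoImplicit false

noncomputable section

namespace FermatLib.Modular

theorem span_singleton_finrank_le {V : Type*} [AddCommGroup V] [Module ℚ V] (v : V) :
    Module.finrank ℚ (Submodule.span ℚ {v}) ≤ 1 := by
  refine (finrank_span_le_card ({v} : Set V)).trans ?_
  simp

open Equiv Equiv.Perm

variable {α : Type*} [Fintype α]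

/-- Number of cycles of a permutation, fixed points included. -/
def cycleCount (σ : Perm α) : ℕ := Nat.card (Quotient (SameCycle.setoid σ))

/-- The quotient by `SameCycle` splits into fixed points and nontrivial cycles. -/
theorem cycleCount_eq [DecidableEq α] (σ : Perm α) :
    cycleCount σ = (Finset.univ.filter fun x => σ x = x).card + σ.cycleFactorsFinset.card := by
  let F : α → {x // σ x = x} ⊕ {c // c ∈ σ.cycleFactorsFinset} := fun x =>
    if h : σ x = x then Sum.inl ⟨x, h⟩
    else Sum.inr ⟨σ.cycleOf x, cycleOf_mem_cycleFactorsFinset_iff.2 (mem_support.2 h)⟩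
  have hF : ∀ x y, σ.SameCycle x y ↔ F x = F y := by
    intro x y
    constructor
    · intro h
      by_cases hx : σ x = x
      · obtain ⟨i, rfl⟩ := h
        rw [zpow_apply_eq_self_of_apply_eq_self hx]
      · have hy : σ y ≠ y := by
          intro hy
          obtain ⟨i, hi⟩ := h.symm
          rw [zpow_apply_eq_self_of_apply_eq_self hy] at hi
          exact hx (hi ▸ hy)
        simp only [F, hx, hy, dite_false]
        exact congrArg _ (Subtype.ext h.cycleOf_eq)
    · intro h
      by_cases hx : σ x = x <;> by_cases hy : σ y = y <;> simp [F, hx, hy] at h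
      · exact h ▸ SameCycle.refl _ _
      · have : x ∈ (σ.cycleOf y).support := by
          rw [← h]; exact mem_support_cycleOf_iff.2 ⟨SameCycle.refl _ _, mem_support.2 hx⟩
        exact (mem_support_cycleOf_iff.1 this).1.symm
  let G : Quotient (SameCycle.setoid σ) → {x // σ x = x} ⊕ {c // c ∈ σ.cycleFactorsFinset} :=
    Quotient.lift F (fun x y h => (hF x y).1 h)
  have hG : Function.Bijective G := by
    constructor
    · intro a b
      induction a using Quotient.inductionOn
      induction b using Quotient.inductionOn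
      intro h
      exact Quotient.sound ((hF _ _).2 h)
    · rintro (⟨x, hx⟩ | ⟨c, hc⟩)
      · exact ⟨⟦x⟧, by simp [G, F, hx]⟩
      · obtain ⟨x, hx⟩ := (mem_cycleFactorsFinset_iff.1 hc).1.nonempty_support
        have hxs : x ∈ σ.support := mem_cycleFactorsFinset_support_le hc hx
        refine ⟨⟦x⟧, ?_⟩
        simp only [G, F, Quotient.lift_mk, mem_support.1 hxs, dite_false]
        exact congrArg _ (Subtype.ext (cycle_is_cycleOf hx hc).symm)
  rw [cycleCount, Nat.card_congr (Equiv.ofBijective G hG), Nat.card_sum,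
    Nat.card_eq_fintype_card, Nat.card_eq_fintype_card, Fintype.card_subtype,
    Fintype.card_coe]

theorem sign_eq_pow_cycleCount [DecidableEq α] (σ : Perm α) :
    σ.sign = (-1 : ℤˣ) ^ (Fintype.card α + cycleCount σ) := by
  rw [sign_of_cycleType, cycleCount_eq, cycleType_def, Multiset.card_map]
  have h1 : (Finset.univ.filter fun x => σ x = x).card + σ.support.card = Fintype.card α := by
    rw [← Finset.card_compl_add_card σ.support]
    congr 2
    ext x
    simp
  have h2 : (σ.cycleFactorsFinset.1.map (Finset.card ∘ Perm.support)).sum = σ.support.card := by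
    rw [← cycleType_def, sum_cycleType]
  rw [h2, show σ.cycleFactorsFinset.1.card = σ.cycleFactorsFinset.card from rfl]
  set f := (Finset.univ.filter fun x => σ x = x).card
  rw [show Fintype.card α + (f + σ.cycleFactorsFinset.card)
      = (σ.support.card + σ.cycleFactorsFinset.card) + 2 * f by omega, pow_add _ _ (2 * f),
    pow_mul, neg_one_sq, one_pow, mul_one]

theorem even_card_add_cycleCount (σ τ : Perm α) :
    Even (3 * Fintype.card α + cycleCount σ + cycleCount τ + cycleCount (σ * τ)) := by
  classical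
  have h := Perm.sign_mul σ τ
  rw [sign_eq_pow_cycleCount, sign_eq_pow_cycleCount, sign_eq_pow_cycleCount, ← pow_add] at h
  set n := Fintype.card α
  have h2 : ((-1 : ℤˣ) ^ (3 * n + cycleCount σ + cycleCount τ + cycleCount (σ * τ))) = 1 := by
    rw [show 3 * n + cycleCount σ + cycleCount τ + cycleCount (σ * τ)
      = (n + cycleCount σ + (n + cycleCount τ)) + (n + cycleCount (σ * τ)) by ring,
      pow_add, ← h, ← pow_add, ← two_mul, pow_mul, neg_one_sq, one_pow]
  by_contra hne
  rw [(Nat.not_even_iff_odd.1 hne).neg_one_pow] at h2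
  exact absurd h2 (by decide)

/-- The permutation representation on functions. -/
def permFun (σ : Perm α) : (α → ℚ) ≃ₗ[ℚ] (α → ℚ) := LinearEquiv.funCongrLeft ℚ ℚ σ

omit [Fintype α] in
@[simp]
theorem permFun_apply (σ : Perm α) (f : α → ℚ) (x : α) : permFun σ f x = f (σ x) := rfl

/-- `f ↦ f ∘ σ - f`. -/
def permDiff (σ : Perm α) : (α → ℚ) →ₗ[ℚ] (α → ℚ) :=
  (permFun σ).toLinearMap - LinearMap.id

omit [Fintype α] in
@[simp]
theorem permDiff_apply (σ : Perm α) (f : α → ℚ) (x : α) :
    permDiff σ f x = f (σ x) - f x := rfl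

theorem finrank_range_permDiff_add_le (σ τ : Perm α) (h : ∀ x, σ.SameCycle x (τ x)) :
    Module.finrank ℚ (LinearMap.range (permDiff τ)) + cycleCount σ ≤ Fintype.card α := by
  classical
  have : Fintype (Quotient (SameCycle.setoid σ)) := Fintype.ofFinite _
  let ψ : (Quotient (SameCycle.setoid σ) → ℚ) →ₗ[ℚ] (α → ℚ) :=
    LinearMap.funLeft ℚ ℚ (Quotient.mk (SameCycle.setoid σ))
  have hinj : Function.Injective ψ :=
    LinearMap.funLeft_injective_of_surjective ℚ ℚ _ Quotient.mk_surjective
  have hle : LinearMap.range ψ ≤ LinearMap.ker (permDiff τ) := by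
    rintro _ ⟨f, rfl⟩
    rw [LinearMap.mem_ker]
    ext x
    simp only [ψ, permDiff_apply, LinearMap.funLeft_apply, Pi.zero_apply]
    rw [Quotient.sound (show (SameCycle.setoid σ).r x (τ x) from h x), sub_self]
  have h1 := Submodule.finrank_mono hle
  rw [LinearMap.finrank_range_of_inj hinj, Module.finrank_pi, ← Nat.card_eq_fintype_card] at h1
  have h2 := LinearMap.finrank_range_add_finrank_ker (permDiff τ)
  rw [Module.finrank_pi] at h2
  unfold cycleCount
  omega

/-- Euler characteristic bound for a transitive pair of permutations. -/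
theorem cycleCount_sum_le [Nonempty α] (σ τ : Perm α)
    (h : ∀ s : Set α, s.Nonempty → (∀ x ∈ s, σ x ∈ s) → (∀ x ∈ s, τ x ∈ s) → s = Set.univ) :
    cycleCount σ + cycleCount τ + cycleCount (σ * τ) ≤ Fintype.card α + 2 := by
  classical
  set ρ : Perm α := (σ * τ)⁻¹ with hρ
  let Rσ := LinearMap.range (permDiff σ)
  let Rτ := LinearMap.range (permDiff τ)
  let Rρ := LinearMap.range (permDiff ρ)
  let V := α → ℚ
  let C := Rτ × Rσ × Rρ
  let β : V →ₗ[ℚ] C := (permDiff τ).rangeRestrict.prod
    ((permDiff σ).rangeRestrict.prod (permDiff ρ).rangeRestrict)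
  let δ : C →ₗ[ℚ] V := LinearMap.coprod Rτ.subtype
    (LinearMap.coprod ((permFun τ).toLinearMap.comp Rσ.subtype)
      (((permFun τ).toLinearMap.comp (permFun σ).toLinearMap).comp Rρ.subtype))
  have hδ : ∀ (a : Rτ) (b : Rσ) (c : Rρ) (x : α),
      δ (a, b, c) x = (a : V) x + ((b : V) (τ x) + (c : V) (σ (τ x))) := fun _ _ _ _ => rfl
  have hβ : ∀ f : V, β f = (⟨permDiff τ f, f, rfl⟩, ⟨permDiff σ f, f, rfl⟩, ⟨permDiff ρ f, f, rfl⟩) :=
    fun _ => rfl
  have hcomp : LinearMap.range β ≤ LinearMap.ker δ := by
    rintro _ ⟨f, rfl⟩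
    rw [LinearMap.mem_ker]
    ext x
    have hx : ρ (σ (τ x)) = x := by simp [hρ]
    rw [hβ, hδ]
    simp [hx]
    rfl
  obtain ⟨a₀⟩ := (inferInstance : Nonempty α)
  -- kernel of `β` consists of constants
  have hker : Module.finrank ℚ (LinearMap.ker β) ≤ 1 := by
    refine le_trans (Submodule.finrank_mono ?_) (span_singleton_finrank_le (fun _ : α => (1 : ℚ)))
    intro f hf
    rw [LinearMap.mem_ker] at hf
    rw [hβ] at hf
    have h1 : permDiff τ f = 0 := congrArg (fun c : C => (c.1 : V)) hf
    have h2 : permDiff σ f = 0 := congrArg (fun c : C => (c.2.1 : V)) hf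
    have huniv := h {x | f x = f a₀} ⟨a₀, rfl⟩
      (fun x (hx : f x = f a₀) => by
        have h3 := congrFun h2 x
        simp [sub_eq_zero] at h3
        exact h3.trans hx)
      (fun x (hx : f x = f a₀) => by
        have h3 := congrFun h1 x
        simp [sub_eq_zero] at h3
        exact h3.trans hx)
    rw [Submodule.mem_span_singleton]
    refine ⟨f a₀, funext fun x => ?_⟩
    have hx : x ∈ {x | f x = f a₀} := huniv ▸ Set.mem_univ x
    show f a₀ * 1 = f x
    rw [mul_one]
    exact hx.symm
  -- range of `δ` together with one basis vector is everything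
  have himg : LinearMap.range δ ⊔ Submodule.span ℚ {Pi.single a₀ (1 : ℚ)} = ⊤ := by
    set W := LinearMap.range δ ⊔ Submodule.span ℚ {Pi.single a₀ (1 : ℚ)} with hW
    have hτ : ∀ f : V, permDiff τ f ∈ W := fun f =>
      Submodule.mem_sup_left ⟨(⟨_, f, rfl⟩, 0, 0), funext fun x => by rw [hδ]; simp⟩
    have hσ : ∀ f : V, permDiff σ f ∈ W := by
      intro f
      have h1 : permFun τ (permDiff σ f) ∈ W :=
        Submodule.mem_sup_left ⟨(0, ⟨_, f, rfl⟩, 0), funext fun x => by rw [hδ]; simp⟩
      have h2 := Submodule.sub_mem W h1 (hτ (permDiff σ f))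
      simpa [permDiff] using h2
    have key : ∀ (π : Perm α), (∀ f : V, permDiff π f ∈ W) → ∀ x : α,
        (Pi.single x (1 : ℚ) : α → ℚ) ∈ W → (Pi.single (π x) (1 : ℚ) : α → ℚ) ∈ W := by
      intro π hπ x hx
      have h2 := Submodule.sub_mem W hx (hπ (Pi.single (π x) (1 : ℚ)))
      have h3 : Pi.single x (1 : ℚ) - permDiff π (Pi.single (π x) (1 : ℚ))
          = Pi.single (π x) (1 : ℚ) := by
        ext y
        by_cases hy : y = x
        · subst hy; simp
        · have : π y ≠ π x := fun h => hy (π.injective h)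
          simp [hy, this]
      rwa [h3] at h2
    have huniv := h {x : α | (Pi.single x (1 : ℚ) : α → ℚ) ∈ W}
      ⟨a₀, Submodule.mem_sup_right (Submodule.mem_span_singleton_self _)⟩ (key σ hσ) (key τ hτ)
    rw [eq_top_iff, ← (Pi.basisFun ℚ α).span_eq, Submodule.span_le]
    rintro _ ⟨x, rfl⟩
    have hx : x ∈ {x | Pi.single x (1 : ℚ) ∈ W} := huniv ▸ Set.mem_univ x
    simpa using hx
  have h1 : Fintype.card α ≤ Module.finrank ℚ (LinearMap.range δ) + 1 := by
    have h2 := Submodule.finrank_add_le_finrank_add_finrank (LinearMap.range δ)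
      (Submodule.span ℚ {Pi.single a₀ (1 : ℚ)})
    rw [himg, finrank_top, Module.finrank_pi] at h2
    exact h2.trans (Nat.add_le_add_left (span_singleton_finrank_le _) _)
  have h2 := LinearMap.finrank_range_add_finrank_ker β
  have h3 := LinearMap.finrank_range_add_finrank_ker δ
  have h4 := Submodule.finrank_mono hcomp
  have h5 : Module.finrank ℚ C
      = Module.finrank ℚ Rτ + (Module.finrank ℚ Rσ + Module.finrank ℚ Rρ) := by
    rw [Module.finrank_prod, Module.finrank_prod]
  rw [Module.finrank_pi] at h2
  have e1 := finrank_range_permDiff_add_le σ σ (fun x => sameCycle_apply_right.2 (SameCycle.refl σ x))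
  have e2 := finrank_range_permDiff_add_le τ τ (fun x => sameCycle_apply_right.2 (SameCycle.refl τ x))
  have e3 := finrank_range_permDiff_add_le (σ * τ) ρ (fun x =>
    ⟨-1, by simp [hρ]⟩)
  simp only [Rσ, Rτ, Rρ] at h5
  omega

end FermatLib.Modular
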