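import Fermat.Agent.Modular.PeterssonProduct
import Mathlib.MeasureTheory.Group.FundamentalDomain
import Mathlib.Analysis.SpecialFunctions.ImproperIntegrals
import Mathlib.MeasureTheory.Integral.Prod

/-!
# Fundamental domains for finite index subgroups of `SL(2, ℤ)`

The union of the translates `g⁻¹ 𝒟` over the cosets `g Γ` is a fundamental domain of finite volume
for the group of transformations of `ℍ` induced by `Γ`; this gives the invariance properties of
`peterssonIntegral`.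
-/

set_option autoImplicit false

noncomputable section

open UpperHalfPlane MeasureTheory CongruenceSubgroup ModularGroup
open scoped MatrixGroups Modular Pointwise ENNReal

namespace FermatLib.Modular

theorem measurePreserving_SL_smul (γ : SL(2, ℤ)) :
    MeasurePreserving (fun τ : ℍ => γ • τ) volume volume :=
  measurePreserving_smul (Matrix.SpecialLinearGroup.mapGL ℝ γ) (volume : Measure ℍ)

theorem measurableEmbedding_SL_smul (γ : SL(2, ℤ)) :
    MeasurableEmbedding (fun τ : ℍ => γ • τ) :=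
  (Homeomorph.smul (Matrix.SpecialLinearGroup.mapGL ℝ γ)).measurableEmbedding

theorem continuous_SL_smul (γ : SL(2, ℤ)) : Continuous (fun τ : ℍ => γ • τ) :=
  (Homeomorph.smul (Matrix.SpecialLinearGroup.mapGL ℝ γ)).continuous

theorem volume_coe_eq_zero {s : Set ℍ} (h : volume (UpperHalfPlane.coe '' s) = 0) :
    volume s = 0 := by
  rw [volume_eq_lintegral]
  exact setLIntegral_measure_zero _ _ h

theorem volume_fd_diff_fdo : volume (𝒟 \ 𝒟ᵒ) = 0 := by
  refine volume_coe_eq_zero (measure_mono_null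
    (t := {z : ℂ | z.re = 1 / 2} ∪ {z : ℂ | z.re = -1 / 2} ∪ Metric.sphere 0 1) ?_ ?_)
  · rintro _ ⟨τ, ⟨⟨h1, h2⟩, h3⟩, rfl⟩
    rcases lt_or_eq_of_le h1 with h1 | h1
    · rcases lt_or_eq_of_le h2 with h2 | h2
      · exact absurd ⟨h1, h2⟩ h3
      · refine Or.inl ?_
        rcases abs_choice τ.re with he | he <;> rw [he] at h2
        · exact Or.inl h2
        · refine Or.inr ?_
          show τ.re = -1 / 2
          linarith
    · refine Or.inr ?_
      rw [mem_sphere_zero_iff_norm, ← sq_eq_sq₀ (norm_nonneg _) zero_le_one, one_pow,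
        ← Complex.normSq_eq_norm_sq]
      exact h1.symm
  · have hline : ∀ c : ℝ, volume {z : ℂ | z.re = c} = 0 := by
      intro c
      rw [show {z : ℂ | z.re = c} = Complex.measurableEquivRealProd ⁻¹' ({c} ×ˢ Set.univ) by
        ext z; simp [Complex.measurableEquivRealProd_apply],
        Complex.volume_preserving_equiv_real_prod.measure_preimage
          ((measurableSet_singleton c).prod MeasurableSet.univ).nullMeasurableSet,
        Measure.volume_eq_prod, Measure.prod_prod]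
      simp
    exact measure_union_null (measure_union_null (hline _) (hline _))
      (Measure.addHaar_sphere volume 0 1)

theorem volume_fd_lt_top : volume 𝒟 < ⊤ := by
  rw [volume_eq_lintegral]
  set T : Set (ℝ × ℝ) := Set.Icc (-1 / 2) (1 / 2) ×ˢ Set.Ioi (1 / 2)
  have hsub : UpperHalfPlane.coe '' 𝒟 ⊆ Complex.measurableEquivRealProd ⁻¹' T := by
    rintro _ ⟨τ, hτ, rfl⟩
    have h := three_le_four_mul_im_sq_of_mem_fd hτ
    have h2 := abs_le.mp hτ.2
    refine ⟨⟨show -1 / 2 ≤ τ.re by linarith [h2.1], h2.2⟩, ?_⟩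
    show 1 / 2 < τ.im
    nlinarith [τ.im_pos]
  refine (lintegral_mono_set hsub).trans_lt ?_
  have hint : IntegrableOn (fun p : ℝ × ℝ => p.2 ^ (-2 : ℝ)) T := by
    rw [IntegrableOn, Measure.volume_eq_prod, ← Measure.prod_restrict]
    have hfin : Integrable (fun _ : ℝ => (1 : ℝ)) (volume.restrict (Set.Icc (-1 / 2) (1 / 2))) :=
      integrableOn_const (by simp)
    have h2 : Integrable (fun y : ℝ => y ^ (-2 : ℝ)) (volume.restrict (Set.Ioi (1 / 2))) :=
      integrableOn_Ioi_rpow_of_lt (by norm_num) (by norm_num)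
    simpa using hfin.mul_prod h2
  have hT : MeasurableSet T := measurableSet_Icc.prod measurableSet_Ioi
  have key : ∫⁻ z : ℂ in Complex.measurableEquivRealProd ⁻¹' T,
      ((1 / ‖z.im‖₊) ^ 2 : NNReal) = ∫⁻ p in T, ‖p.2 ^ (-2 : ℝ)‖ₑ := by
    rw [← Complex.volume_preserving_equiv_real_prod.setLIntegral_comp_preimage_emb
      Complex.measurableEquivRealProd.measurableEmbedding]
    refine setLIntegral_congr_fun (Complex.measurableEquivRealProd.measurable hT) fun z hz => ?_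
    have him : 0 < z.im := lt_trans (by norm_num) (show (1 / 2 : ℝ) < z.im from hz.2)
    rw [Complex.measurableEquivRealProd_apply, ← ofReal_norm, Real.norm_eq_abs,
      Real.rpow_neg him.le, abs_of_pos (by positivity), ENNReal.ofReal, ENNReal.coe_inj,
      ← NNReal.coe_inj, Real.coe_toNNReal _ (by positivity)]
    simp [abs_of_pos him]
  rw [key]
  exact hint.2

theorem volume_smul_fd_inter_fd {x : SL(2, ℤ)} (h1 : x ≠ 1) (h2 : x ≠ -1) :
    volume ((fun τ : ℍ => x • τ) '' 𝒟 ∩ 𝒟) = 0 := by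
  refine measure_mono_null (fun τ hτ => ?_) volume_fd_diff_fdo
  obtain ⟨⟨σ, hσ, rfl⟩, hτ⟩ := hτ
  refine ⟨hτ, fun ho => ?_⟩
  rcases eq_one_or_neg_one_of_mem_fdo_mem_fd ho (g := x⁻¹) (by rw [inv_smul_smul]; exact hσ)
    with h | h
  · exact h1 (inv_eq_one.mp h)
  · exact h2 (by rw [← inv_inv x, h]; exact inv_neg.trans (by rw [inv_one]))

/-- The permutations of `ℍ` induced by `Γ`. -/
def uhpPerms (Γ : Subgroup SL(2, ℤ)) : Subgroup (Equiv.Perm ℍ) :=
  Γ.map (MulAction.toPermHom SL(2, ℤ) ℍ)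

theorem exists_of_uhpPerms {Γ : Subgroup SL(2, ℤ)} (g : uhpPerms Γ) :
    ∃ γ ∈ Γ, ∀ τ : ℍ, g • τ = γ • τ := by
  obtain ⟨γ, hγ, h⟩ := Subgroup.mem_map.mp g.2
  refine ⟨γ, hγ, fun τ => ?_⟩
  show (g : Equiv.Perm ℍ) τ = γ • τ
  rw [← h]
  rfl

instance countable_uhpPerms (Γ : Subgroup SL(2, ℤ)) : Countable (uhpPerms Γ) :=
  have : Countable (Matrix (Fin 2) (Fin 2) ℤ) := inferInstanceAs (Countable (Fin 2 → Fin 2 → ℤ))
  have : Countable SL(2, ℤ) := Subtype.countable
  Set.countable_coe_iff.mpr (((Γ : Set SL(2, ℤ)).to_countable).image _)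

instance measurableConstSMul_uhpPerms (Γ : Subgroup SL(2, ℤ)) :
    MeasurableConstSMul (uhpPerms Γ) ℍ := ⟨fun g => by
  obtain ⟨γ, -, h⟩ := exists_of_uhpPerms g
  simpa only [h] using (measurePreserving_SL_smul γ).measurable⟩

instance smulInvariantMeasure_uhpPerms (Γ : Subgroup SL(2, ℤ)) :
    SMulInvariantMeasure (uhpPerms Γ) ℍ volume := ⟨fun g s hs => by
  obtain ⟨γ, -, h⟩ := exists_of_uhpPerms g
  simpa only [h] using (measurePreserving_SL_smul γ).measure_preimage hs.nullMeasurableSet⟩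

variable (Γ : Subgroup SL(2, ℤ)) [Γ.FiniteIndex]

/-- `⋃ g⁻¹ 𝒟` over representatives `g` of the cosets `g Γ`. -/
def peterssonDomain : Set ℍ :=
  ⋃ q : SL(2, ℤ) ⧸ Γ, (fun τ : ℍ => (Quotient.out q)⁻¹ • τ) '' 𝒟

theorem nullMeasurableSet_translate (g : SL(2, ℤ)) :
    NullMeasurableSet ((fun τ : ℍ => g • τ) '' 𝒟) :=
  ((measurableEmbedding_SL_smul g).measurableSet_image.mpr
    isClosed_fd.measurableSet).nullMeasurableSet

theorem volume_translate (g : SL(2, ℤ)) :
    volume ((fun τ : ℍ => g • τ) '' 𝒟) = volume 𝒟 := by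
  rw [Set.image_smul, ← Set.preimage_smul_inv]
  exact (measurePreserving_SL_smul g⁻¹).measure_preimage isClosed_fd.measurableSet.nullMeasurableSet

theorem volume_translate_inter (g g' : SL(2, ℤ)) (h1 : g ≠ g') (h2 : g ≠ -g') :
    volume ((fun τ : ℍ => g • τ) '' 𝒟 ∩ (fun τ : ℍ => g' • τ) '' 𝒟) = 0 := by
  have hkey : (fun τ : ℍ => g • τ) '' 𝒟 ∩ (fun τ : ℍ => g' • τ) '' 𝒟 ⊆
      (fun τ : ℍ => g'⁻¹ • τ) ⁻¹' ((fun τ : ℍ => (g'⁻¹ * g) • τ) '' 𝒟 ∩ 𝒟) := by
    rintro _ ⟨⟨a, ha, rfl⟩, b, hb, hab⟩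
    refine ⟨⟨a, ha, by simp only [mul_smul]⟩, ?_⟩
    show g'⁻¹ • g • a ∈ 𝒟
    rw [← show g' • b = g • a from hab, inv_smul_smul]
    exact hb
  refine measure_mono_null hkey ?_
  refine (measurePreserving_SL_smul g'⁻¹).quasiMeasurePreserving.preimage_null
    (volume_smul_fd_inter_fd (fun h => h1 (inv_mul_eq_one.mp h).symm) (fun h => h2 ?_))
  rw [inv_mul_eq_iff_eq_mul] at h
  rw [h, mul_neg, mul_one]

variable {Γ}

theorem isFundamentalDomain_peterssonDomain (hneg : (-1 : SL(2, ℤ)) ∈ Γ) :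
    IsFundamentalDomain (uhpPerms Γ) (peterssonDomain Γ) volume := by
  let _ := Γ.fintypeQuotientOfFiniteIndex
  refine IsFundamentalDomain.mk''
    (NullMeasurableSet.iUnion fun q => nullMeasurableSet_translate _)
    (Filter.Eventually.of_forall fun τ => ?_) (fun g hg => ?_)
    (fun g => (measurePreserving_smul g volume).quasiMeasurePreserving)
  · obtain ⟨g, hg⟩ := exists_smul_mem_fd τ
    have h : (Quotient.out (g : SL(2, ℤ) ⧸ Γ))⁻¹ * g ∈ Γ :=
      QuotientGroup.eq.mp (QuotientGroup.out_eq' _)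
    refine ⟨⟨MulAction.toPermHom SL(2, ℤ) ℍ _, Subgroup.mem_map_of_mem _ h⟩, ?_⟩
    refine Set.mem_iUnion.mpr ⟨(g : SL(2, ℤ) ⧸ Γ), g • τ, hg, ?_⟩
    show _ = ((Quotient.out (g : SL(2, ℤ) ⧸ Γ))⁻¹ * g) • τ
    rw [mul_smul]
  · obtain ⟨γ, hγ, hgγ⟩ := exists_of_uhpPerms g
    have hγ1 : γ ≠ 1 ∧ γ ≠ -1 := by
      constructor <;> rintro rfl <;> apply hg <;> refine Subtype.ext (Equiv.ext fun τ => ?_)
      · exact (hgγ τ).trans (one_smul _ _)
      · exact (hgγ τ).trans (by rw [ModularGroup.SL_neg_smul, one_smul]; rfl)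
    have himg : g • peterssonDomain Γ =
        ⋃ q : SL(2, ℤ) ⧸ Γ, (fun τ : ℍ => (γ * (Quotient.out q)⁻¹) • τ) '' 𝒟 := by
      rw [peterssonDomain, Set.smul_set_iUnion]
      refine Set.iUnion_congr fun q => ?_
      rw [← Set.image_smul, Set.image_image]
      exact Set.image_congr fun τ _ => by rw [hgγ, mul_smul]
    rw [AEDisjoint, himg, peterssonDomain, Set.iUnion_inter]
    refine measure_iUnion_null fun q => ?_
    rw [Set.inter_iUnion]
    refine measure_iUnion_null fun q' => ?_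
    have key : ∀ e : SL(2, ℤ), e ∈ Γ → γ * (Quotient.out q)⁻¹ = e * (Quotient.out q')⁻¹ →
        (e = 1 ∨ e = -1) → False := by
      intro e he h hpm
      have hqq : q = q' := by
        rw [← QuotientGroup.out_eq' q, ← QuotientGroup.out_eq' q', QuotientGroup.eq]
        have : (Quotient.out q)⁻¹ * Quotient.out q' = γ⁻¹ * e := by
          rw [eq_inv_mul_iff_mul_eq, ← mul_assoc, h, inv_mul_cancel_right]
        rw [this]
        exact mul_mem (inv_mem hγ) he
      rw [hqq, mul_left_inj] at h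
      subst h
      rcases hpm with h | h
      exacts [hγ1.1 h, hγ1.2 h]
    refine volume_translate_inter _ _ (fun h => key 1 (one_mem Γ) (by rw [one_mul]; exact h)
      (Or.inl rfl)) (fun h => key (-1) hneg (by rw [neg_one_mul]; exact h) (Or.inr rfl))

theorem volume_peterssonDomain_lt_top : volume (peterssonDomain Γ) < ⊤ := by
  let _ := Γ.fintypeQuotientOfFiniteIndex
  refine (measure_iUnion_fintype_le _ _).trans_lt (ENNReal.sum_lt_top.mpr fun q _ => ?_)
  rw [volume_translate]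
  exact volume_fd_lt_top

/-- A bounded continuous `Γ`-invariant function. -/
structure IsPeterssonFun (Γ : Subgroup SL(2, ℤ)) (h : ℍ → ℂ) : Prop where
  continuous : Continuous h
  bounded : ∃ C, ∀ τ, ‖h τ‖ ≤ C
  invariant : ∀ γ ∈ Γ, ∀ τ, h (γ • τ) = h τ

omit [Γ.FiniteIndex] in
theorem IsPeterssonFun.integrableOn {h : ℍ → ℂ} (hh : IsPeterssonFun Γ h) {s : Set ℍ}
    (hs : volume s < ⊤) : IntegrableOn h s := by
  obtain ⟨C, hC⟩ := hh.bounded
  exact IntegrableOn.of_bound hs hh.continuous.aestronglyMeasurable C (ae_of_all _ hC)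

theorem peterssonIntegral_eq_setIntegral (hneg : (-1 : SL(2, ℤ)) ∈ Γ) {h : ℍ → ℂ}
    (hh : IsPeterssonFun Γ h) :
    peterssonIntegral Γ h = ∫ τ in peterssonDomain Γ, h τ := by
  let _ := Γ.fintypeQuotientOfFiniteIndex
  rw [peterssonDomain, integral_iUnion_ae (fun q => nullMeasurableSet_translate _) ?_
    (hh.integrableOn volume_peterssonDomain_lt_top), tsum_fintype, peterssonIntegral]
  · exact Finset.sum_congr rfl fun q _ =>
      ((measurePreserving_SL_smul _).setIntegral_image_emb (measurableEmbedding_SL_smul _) h 𝒟).symm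
  · intro q q' hne
    refine volume_translate_inter _ _ (fun h' => hne ?_) (fun h' => hne ?_)
    · rw [inv_inj] at h'
      rw [← QuotientGroup.out_eq' q, ← QuotientGroup.out_eq' q', h']
    · rw [← QuotientGroup.out_eq' q, ← QuotientGroup.out_eq' q', QuotientGroup.eq, h', neg_mul,
        inv_mul_cancel]
      exact hneg

/-- Invariance under a transformation normalising `Γ`. -/
theorem peterssonIntegral_comp_smul (hneg : (-1 : SL(2, ℤ)) ∈ Γ) (A : GL (Fin 2) ℝ)
    (hA : ∀ γ ∈ Γ, ∃ γ' ∈ Γ, ∀ τ : ℍ, A • γ' • τ = γ • A • τ)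
    (hA' : ∀ γ ∈ Γ, ∃ γ' ∈ Γ, ∀ τ : ℍ, A • γ • τ = γ' • A • τ)
    {h : ℍ → ℂ} (hh : IsPeterssonFun Γ h) :
    peterssonIntegral Γ (fun τ => h (A • τ)) = peterssonIntegral Γ h := by
  have hAh : IsPeterssonFun Γ fun τ => h (A • τ) := by
    refine ⟨hh.continuous.comp (continuous_const_smul A),
      hh.bounded.imp fun C hC τ => hC _, fun γ hγ τ => ?_⟩
    obtain ⟨γ', hγ', he⟩ := hA' γ hγ
    rw [he τ, hh.invariant γ' hγ']
  rw [peterssonIntegral_eq_setIntegral hneg hAh, peterssonIntegral_eq_setIntegral hneg hh,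
    ← (measurePreserving_smul A (volume : Measure ℍ)).setIntegral_image_emb
      (Homeomorph.smul A).measurableEmbedding h]
  have hD := isFundamentalDomain_peterssonDomain (Γ := Γ) hneg
  set w : Equiv.Perm ℍ := MulAction.toPerm A with hw
  have mem1 : ∀ g ∈ uhpPerms Γ, w⁻¹ * g * w ∈ uhpPerms Γ := by
    rintro _ ⟨γ, hγ, rfl⟩
    obtain ⟨γ', hγ', he⟩ := hA γ hγ
    refine ⟨γ', hγ', Equiv.ext fun τ => ?_⟩
    apply w.injective
    simpa [hw, Equiv.Perm.mul_apply] using he τ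
  have mem2 : ∀ g ∈ uhpPerms Γ, w * g * w⁻¹ ∈ uhpPerms Γ := by
    rintro _ ⟨γ, hγ, rfl⟩
    obtain ⟨γ', hγ', he⟩ := hA' γ hγ
    refine ⟨γ', hγ', Equiv.ext fun τ => ?_⟩
    have := he (w⁻¹ τ)
    simp [hw, Equiv.Perm.mul_apply] at this ⊢
    exact this.symm
  let e : uhpPerms Γ ≃ uhpPerms Γ :=
    { toFun := fun g => ⟨_, mem1 g g.2⟩
      invFun := fun g => ⟨_, mem2 g g.2⟩
      left_inv := fun g => Subtype.ext (by group)
      right_inv := fun g => Subtype.ext (by group) }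
  refine (hD.image_of_equiv w ?_ e fun g τ => ?_).setIntegral_eq hD fun g τ => ?_
  · exact (measurePreserving_smul A⁻¹ (volume : Measure ℍ)).quasiMeasurePreserving
  · show w ((w⁻¹ * (g : Equiv.Perm ℍ) * w) τ) = (g : Equiv.Perm ℍ) (w τ)
    simp [Equiv.Perm.mul_apply]
  · obtain ⟨γ, hγ, hg⟩ := exists_of_uhpPerms g
    rw [hg, hh.invariant γ hγ]

/-- Change of group: `∫_{Γ''} h = ∫_{Γ'} ∑ h (r ·)` over representatives `r` of `Γ'' \ Γ'`. -/
theorem peterssonIntegral_eq_of_reps {Γ' Γ'' : Subgroup SL(2, ℤ)} [Γ'.FiniteIndex]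
    [Γ''.FiniteIndex] {ι : Type*} [Fintype ι] (r : ι → SL(2, ℤ)) (hle : Γ'' ≤ Γ')
    (hr : ∀ i, r i ∈ Γ') (hex : ∀ γ ∈ Γ', ∃ i, γ * (r i)⁻¹ ∈ Γ'')
    (hinj : ∀ i j, r i * (r j)⁻¹ ∈ Γ'' → i = j)
    {h : ℍ → ℂ} (hh : IsPeterssonFun Γ'' h) :
    peterssonIntegral Γ'' h = peterssonIntegral Γ' (fun τ => ∑ i, h (r i • τ)) := by
  let _ := Γ'.fintypeQuotientOfFiniteIndex
  let _ := Γ''.fintypeQuotientOfFiniteIndex
  have hswap : ∀ q : SL(2, ℤ) ⧸ Γ', ∫ τ in 𝒟, ∑ i, h (r i • (Quotient.out q)⁻¹ • τ)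
      = ∑ i, ∫ τ in 𝒟, h (r i • (Quotient.out q)⁻¹ • τ) := fun q => integral_finsetSum _
    fun i _ => by
      obtain ⟨C, hC⟩ := hh.bounded
      exact IntegrableOn.of_bound volume_fd_lt_top ((hh.continuous.comp
        ((continuous_SL_smul _).comp (continuous_SL_smul _))).aestronglyMeasurable) C
        (ae_of_all _ fun τ => hC _)
  simp only [peterssonIntegral, hswap]
  rw [← Fintype.sum_prod_type']
  refine (Fintype.sum_bijective
    (fun p : (SL(2, ℤ) ⧸ Γ') × ι => ((Quotient.out p.1 * (r p.2)⁻¹ : SL(2, ℤ)) : SL(2, ℤ) ⧸ Γ''))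
    ⟨?_, ?_⟩ _ _ fun p => ?_).symm
  · rintro ⟨q, i⟩ ⟨q', i'⟩ he
    simp only [QuotientGroup.eq, mul_inv_rev, inv_inv] at he
    have hq : q = q' := by
      rw [← QuotientGroup.out_eq' q, ← QuotientGroup.out_eq' q', QuotientGroup.eq]
      have := mul_mem (mul_mem (inv_mem (hr i)) (hle he)) (hr i')
      simpa [mul_assoc] using this
    subst hq
    rw [Prod.mk.injEq]
    exact ⟨rfl, hinj i i' (by simpa [mul_assoc] using he)⟩
  · intro Q
    obtain ⟨g, rfl⟩ := QuotientGroup.mk_surjective Q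
    have hm : (Quotient.out (g : SL(2, ℤ) ⧸ Γ'))⁻¹ * g ∈ Γ' :=
      QuotientGroup.eq.mp (QuotientGroup.out_eq' _)
    obtain ⟨i, hi⟩ := hex _ (inv_mem hm)
    refine ⟨((g : SL(2, ℤ) ⧸ Γ'), i), QuotientGroup.eq.mpr ?_⟩
    have := inv_mem hi
    simpa [mul_assoc] using this
  · refine setIntegral_congr_fun isClosed_fd.measurableSet fun τ _ => ?_
    set Q : SL(2, ℤ) ⧸ Γ'' := ((Quotient.out p.1 * (r p.2)⁻¹ : SL(2, ℤ)) : SL(2, ℤ) ⧸ Γ'')
    have hm : (Quotient.out Q)⁻¹ * (Quotient.out p.1 * (r p.2)⁻¹) ∈ Γ'' :=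
      QuotientGroup.eq.mp (QuotientGroup.out_eq' _)
    rw [← hh.invariant _ hm (r p.2 • (Quotient.out p.1)⁻¹ • τ), smul_smul, smul_smul]
    congr 2
    group

end FermatLib.Modular
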