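import Fermat.Agent.Modular.PeterssonDomain
import Fermat.Agent.Modular.Newforms.LevelLower
import Fermat.Agent.Modular.Newforms.Degeneracy
import Mathlib.NumberTheory.ModularForms.Bounds

/-!
# The Petersson product of cusp forms: positivity, traces and Atkin–Lehner invariance
-/

set_option autoImplicit false

noncomputable section

open UpperHalfPlane hiding I
open MeasureTheory CongruenceSubgroup ModularGroup
open Matrix.SpecialLinearGroup (mapGL)
open scoped MatrixGroups Modular Pointwise ENNReal Manifold ComplexConjugate ModularForm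

namespace FermatLib.Modular

open Newforms

instance isOpenPosMeasure_uhp : (volume : Measure ℍ).IsOpenPosMeasure := ⟨fun U hU hne h0 => by
  rw [volume_eq_lintegral] at h0
  have hopen : IsOpen (UpperHalfPlane.coe '' U) := isOpenEmbedding_coe.isOpenMap U hU
  have hmeas : Measurable fun z : ℂ => (((1 / ‖z.im‖₊) ^ 2 : NNReal) : ℝ≥0∞) := by fun_prop
  rw [setLIntegral_eq_zero_iff hopen.measurableSet hmeas] at h0
  have hsub : ∀ᵐ z : ℂ, z ∉ UpperHalfPlane.coe '' U := h0.mono fun z hz hmem => by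
    obtain ⟨τ, hτ, rfl⟩ := hmem
    have := hz ⟨τ, hτ, rfl⟩
    simp [τ.im_ne_zero] at this
  exact hopen.measure_ne_zero volume (hne.image _) (measure_mono_null
    (t := {z : ℂ | ¬ z ∉ UpperHalfPlane.coe '' U}) (fun z hz h => h hz) (ae_iff.mp hsub))⟩

theorem isPeterssonFun_petersson {N : ℕ} [NeZero N] (f g : CuspForm (Gamma0 N) 2) :
    IsPeterssonFun (Gamma0 N) (petersson 2 f g) where
  continuous := petersson_continuous 2 (CuspFormClass.holo f).continuous
    (CuspFormClass.holo g).continuous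
  bounded := CuspFormClass.petersson_bounded_left 2 (Gamma0 N : Subgroup (GL (Fin 2) ℝ)) f g
  invariant γ hγ _ :=
    SlashInvariantFormClass.petersson_smul (Γ := (Gamma0 N : Subgroup (GL (Fin 2) ℝ)))
      (g := mapGL ℝ γ) ⟨γ, hγ, rfl⟩

theorem petersson_add_right (f g g' : ℍ → ℂ) :
    petersson 2 f (g + g') = petersson 2 f g + petersson 2 f g' := by
  funext τ; simp [petersson]; ring

theorem peterssonIntegral_add {Γ : Subgroup SL(2, ℤ)} [Γ.FiniteIndex] {h h' : ℍ → ℂ}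
    (hh : IsPeterssonFun Γ h) (hh' : IsPeterssonFun Γ h') :
    peterssonIntegral Γ (h + h') = peterssonIntegral Γ h + peterssonIntegral Γ h' := by
  rw [peterssonIntegral, peterssonIntegral, peterssonIntegral, ← Finset.sum_add_distrib]
  refine Finset.sum_congr rfl fun q _ => ?_
  have : ∀ k : ℍ → ℂ, IsPeterssonFun Γ k → IntegrableOn (fun τ => k ((Quotient.out q)⁻¹ • τ)) 𝒟 :=
    fun k hk => by
      obtain ⟨C, hC⟩ := hk.bounded
      exact IntegrableOn.of_bound volume_fd_lt_top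
        ((hk.continuous.comp (continuous_SL_smul _)).aestronglyMeasurable) C
        (ae_of_all _ fun τ => hC _)
  exact integral_add (this h hh) (this h' hh')

theorem peterssonProd_conj {N : ℕ} [NeZero N] (f g : CuspForm (Gamma0 N) 2) :
    conj (peterssonProd g f) = peterssonProd f g := by
  rw [peterssonProd, peterssonProd, peterssonIntegral, map_sum, peterssonIntegral]
  refine Finset.sum_congr rfl fun q _ => ?_
  rw [← integral_conj]
  exact congrArg _ (funext fun τ => (petersson_symm 2 g f _).symm)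

theorem petersson_self (f : ℍ → ℂ) (τ : ℍ) :
    petersson 2 f f τ = ((Complex.normSq (f τ) * τ.im ^ 2 : ℝ) : ℂ) := by
  rw [petersson, Complex.normSq_eq_conj_mul_self.symm]
  push_cast
  norm_cast

theorem peterssonProd_self {N : ℕ} [NeZero N] (f : CuspForm (Gamma0 N) 2) :
    letI := (Gamma0 N).fintypeQuotientOfFiniteIndex
    peterssonProd f f = ((∑ q : SL(2, ℤ) ⧸ Gamma0 N, ∫ τ in 𝒟,
      Complex.normSq (f ((Quotient.out q)⁻¹ • τ)) * ((Quotient.out q)⁻¹ • τ).im ^ 2 : ℝ) : ℂ) := by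
  rw [peterssonProd, peterssonIntegral, Complex.ofReal_sum]
  refine Finset.sum_congr rfl fun q _ => ?_
  simp only [petersson_self]
  exact integral_ofReal

theorem peterssonProd_self_pos {N : ℕ} [NeZero N] {f : CuspForm (Gamma0 N) 2} (hf : f ≠ 0) :
    0 < (peterssonProd f f).re := by
  let _ := (Gamma0 N).fintypeQuotientOfFiniteIndex
  rw [peterssonProd_self, Complex.ofReal_re]
  refine Finset.sum_pos' (fun q _ => integral_nonneg fun τ => by
      have := Complex.normSq_nonneg (f ((Quotient.out q)⁻¹ • τ))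
      positivity) ⟨((1 : SL(2, ℤ)) : SL(2, ℤ) ⧸ Gamma0 N), Finset.mem_univ _, ?_⟩
  set γ := (Quotient.out ((1 : SL(2, ℤ)) : SL(2, ℤ) ⧸ Gamma0 N))⁻¹
  set k : ℍ → ℝ := fun τ => Complex.normSq (f (γ • τ)) * (γ • τ).im ^ 2
  show 0 < ∫ τ in 𝒟, k τ
  have hk0 : ∀ τ, 0 ≤ k τ := fun τ =>
    mul_nonneg (Complex.normSq_nonneg _) (sq_nonneg _)
  have hkc : Continuous k :=
    (Complex.continuous_normSq.comp
      ((CuspFormClass.holo f).continuous.comp (continuous_SL_smul γ))).mul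
      ((UpperHalfPlane.continuous_im.comp (continuous_SL_smul γ)).pow 2)
  obtain ⟨C, hC⟩ := (isPeterssonFun_petersson f f).bounded
  have hki : IntegrableOn k 𝒟 :=
    IntegrableOn.of_bound volume_fd_lt_top hkc.aestronglyMeasurable C (ae_of_all _ fun τ => by
      have := hC (γ • τ)
      rwa [petersson_self, Complex.norm_real] at this)
  rw [setIntegral_pos_iff_support_of_nonneg_ae (ae_of_all _ hk0) hki]
  suffices h : ∃ τ ∈ 𝒟ᵒ, k τ ≠ 0 by
    obtain ⟨τ, hτ, hne⟩ := h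
    refine lt_of_lt_of_le (((hkc.isOpen_preimage _ isOpen_compl_singleton).inter
      isOpen_fdo).measure_pos volume ⟨τ, hne, hτ⟩) (measure_mono ?_)
    exact fun x hx => ⟨hx.1, fdo_subset_fd hx.2⟩
  by_contra hall
  push Not at hall
  apply hf
  have hzero : ∀ τ ∈ 𝒟ᵒ, f (γ • τ) = 0 := fun τ hτ => by
    have h0 := hall τ hτ
    simp only [k, mul_eq_zero, Complex.normSq_eq_zero] at h0
    exact h0.resolve_right (pow_ne_zero _ (UpperHalfPlane.im_ne_zero _))
  set U : Set ℍ := (fun τ => γ⁻¹ • τ) ⁻¹' 𝒟ᵒ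
  have hU : IsOpen U := isOpen_fdo.preimage (continuous_SL_smul _)
  set τ₀ : ℍ := ⟨2 * Complex.I, by simp⟩
  have hτ₀ : τ₀ ∈ 𝒟ᵒ := by
    refine ⟨?_, ?_⟩
    · norm_num [τ₀, Complex.normSq_apply]
    · norm_num [τ₀, UpperHalfPlane.re]
  have hev : ((⇑f : ℍ → ℂ) ∘ ofComplex) =ᶠ[nhds ((γ • τ₀ : ℍ) : ℂ)] 0 := by
    have hmem : UpperHalfPlane.coe '' U ∈ nhds ((γ • τ₀ : ℍ) : ℂ) :=
      (isOpenEmbedding_coe.isOpenMap U hU).mem_nhds
        ⟨γ • τ₀, by simpa [U, inv_smul_smul] using hτ₀, rfl⟩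
    filter_upwards [hmem] with z hz
    obtain ⟨τ, hτ, rfl⟩ := hz
    have := hzero _ hτ
    rw [smul_inv_smul] at this
    simpa [ofComplex_apply] using this
  have hall' := ((UpperHalfPlane.mdifferentiable_iff.mp (CuspFormClass.holo f)).analyticOnNhd
      isOpen_upperHalfPlaneSet).eqOn_zero_of_preconnected_of_eventuallyEq_zero
      (convex_halfSpace_im_gt 0).isPreconnected (γ • τ₀).im_pos hev
  refine DFunLike.ext _ _ fun τ => ?_
  simpa [ofComplex_apply] using hall' τ.im_pos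

section AtkinLehner

variable {q M L₀ : ℕ} [NeZero L₀]

theorem peterssonProd_atkinLehner (hN : q * M = L₀) (L : ALData q M)
    (f g : CuspForm (Gamma0 L₀) 2) :
    peterssonProd (atkinLehner hN L f) (atkinLehner hN L g) = peterssonProd f g := by
  have hq := alData_q_ne_zero hN
  have hW : L.mat.det ≠ 0 := by rw [L.det_mat]; exact_mod_cast hq
  have hW' : L.adj.mat.det ≠ 0 := by rw [L.adj.det_mat]; exact_mod_cast hq
  have hdet : 0 < ((intGL L.mat).det : ℝ) :=
    intGL_det_pos (by rw [L.det_mat]; exact_mod_cast Nat.pos_of_ne_zero hq)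
  have hfun : petersson 2 (atkinLehner hN L f) (atkinLehner hN L g)
      = fun τ => petersson 2 f g (intGL L.mat • τ) := by
    funext τ
    rw [coe_atkinLehner, coe_atkinLehner, petersson_slash, σ, if_pos hdet]
    simp
  have hmem : ∀ γ ∈ Gamma0 L₀,
      ((q * M : ℕ) : ℤ) ∣ (γ : Matrix (Fin 2) (Fin 2) ℤ) 1 0 := fun γ hγ => by
    rw [Gamma0_mem, ZMod.intCast_zmod_eq_zero_iff_dvd] at hγ
    rwa [hN]
  have hSL : ∀ (X : Matrix (Fin 2) (Fin 2) ℤ), X.det = 1 → ((q * M : ℕ) : ℤ) ∣ X 1 0 →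
      ∃ γ' ∈ Gamma0 L₀, ((γ' : SL(2, ℤ)) : Matrix (Fin 2) (Fin 2) ℤ) = X := fun X hX hXN =>
    ⟨(⟨X, hX⟩ : SL(2, ℤ)), Gamma0_mem.mpr ((ZMod.intCast_zmod_eq_zero_iff_dvd _ _).mpr
      (hN ▸ hXN)), rfl⟩
  rw [peterssonProd, hfun]
  refine peterssonIntegral_comp_smul ?_ _ (fun γ hγ => ?_) (fun γ hγ => ?_)
    (isPeterssonFun_petersson f g)
  · simp [Gamma0_mem]
  · obtain ⟨X, hX, hXN, hmul⟩ := L.adj.exists_conj hq (hmem γ hγ)
    obtain ⟨γ', hγ', rfl⟩ := hSL X (hX.trans γ.det_coe) hXN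
    refine ⟨γ', hγ', fun τ => ?_⟩
    -- `γ W = W γ'` from `W* γ = γ' W*`
    have h1 : (γ : Matrix (Fin 2) (Fin 2) ℤ) * L.mat = L.mat * (γ' : Matrix (Fin 2) (Fin 2) ℤ) := by
      have h2 : L.mat * (L.adj.mat * γ) * L.mat = L.mat * ((γ' : Matrix (Fin 2) (Fin 2) ℤ)
          * L.adj.mat) * L.mat := by rw [hmul]
      have h3 : L.adj.mat * L.mat = !![(q : ℤ), 0; 0, q] := by
        have := L.adj.mat_mul_adj
        rwa [show L.adj.adj = L by simp [ALData.adj]] at this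
      have h4 : (!![(q : ℤ), 0; 0, q] : Matrix (Fin 2) (Fin 2) ℤ) = (q : ℤ) • 1 := by
        ext i j; fin_cases i <;> fin_cases j <;> simp
      rw [← Matrix.mul_assoc, L.mat_mul_adj, h4, Matrix.smul_mul, one_mul, Matrix.smul_mul,
        ← Matrix.mul_assoc, Matrix.mul_assoc _ L.adj.mat, h3, h4, Matrix.mul_smul, mul_one] at h2
      exact smul_right_injective _ (Int.natCast_ne_zero.mpr hq) h2
    show intGL L.mat • mapGL ℝ γ' • τ = mapGL ℝ γ • intGL L.mat • τ
    rw [smul_smul, smul_smul, ← intGL_coe_SL, ← intGL_coe_SL,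
      ← intGL_mul hW (by simp [Matrix.SpecialLinearGroup.det_coe]), ← h1,
      intGL_mul (by simp [Matrix.SpecialLinearGroup.det_coe]) hW]
  · obtain ⟨X, hX, hXN, hmul⟩ := L.exists_conj hq (hmem γ hγ)
    obtain ⟨γ', hγ', rfl⟩ := hSL X (hX.trans γ.det_coe) hXN
    refine ⟨γ', hγ', fun τ => ?_⟩
    show intGL L.mat • mapGL ℝ γ • τ = mapGL ℝ γ' • intGL L.mat • τ
    rw [smul_smul, smul_smul, ← intGL_coe_SL, ← intGL_coe_SL,
      ← intGL_mul hW (by simp [Matrix.SpecialLinearGroup.det_coe]), hmul,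
      intGL_mul (by simp [Matrix.SpecialLinearGroup.det_coe]) hW]

variable {N : ℕ} [NeZero N]

/-- `⟨Tr (F ∣ W), g⟩_N = ⟨F ∣ W, g⟩_{qN}`. -/
theorem peterssonProd_traceDown (hq : q.Prime) (hN : q * N = L₀) (L : ALData q N)
    (F : CuspForm (Gamma0 L₀) 2) (g : CuspForm (Gamma0 N) 2) :
    peterssonProd (traceDown L hq hN F) g
      = peterssonProd (atkinLehner hN L F)
          (levelRaise (d := 1) (by rw [mul_one, ← hN]; exact dvd_mul_left N q) g) := by
  have hdvd : N ∣ L₀ := ⟨q, by rw [← hN, mul_comm]⟩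
  let r : Option (Fin q) → SL(2, ℤ) := fun i => ⟨traceRepMat L i, det_traceRepMat L i⟩
  have hle : Gamma0 L₀ ≤ Gamma0 N := fun γ hγ => by
    rw [Gamma0_mem, ZMod.intCast_zmod_eq_zero_iff_dvd] at hγ ⊢
    exact (Int.natCast_dvd_natCast.mpr hdvd).trans hγ
  have hr : ∀ i, r i ∈ Gamma0 N := fun i => by
    rw [Gamma0_mem, ZMod.intCast_zmod_eq_zero_iff_dvd]
    exact dvd_traceRepMat L i
  have hmemN : ∀ γ : SL(2, ℤ), γ ∈ Gamma0 N ↔ (N : ℤ) ∣ (γ : Matrix (Fin 2) (Fin 2) ℤ) 1 0 :=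
    fun γ => by rw [Gamma0_mem, ZMod.intCast_zmod_eq_zero_iff_dvd]
  have hmemL : ∀ γ : SL(2, ℤ),
      γ ∈ Gamma0 L₀ ↔ ((q * N : ℕ) : ℤ) ∣ (γ : Matrix (Fin 2) (Fin 2) ℤ) 1 0 := fun γ => by
    rw [Gamma0_mem, ZMod.intCast_zmod_eq_zero_iff_dvd, hN]
  set g' : CuspForm (Gamma0 L₀) 2 :=
    levelRaise (d := 1) (by rw [mul_one, ← hN]; exact dvd_mul_left N q) g
  rw [peterssonProd, peterssonProd, peterssonIntegral_eq_of_reps r hle hr (fun γ hγ => ?_)
    (fun i j hij => ?_) (isPeterssonFun_petersson _ g')]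
  · congr 1
    funext τ
    have hT : ⇑(traceDown L hq hN F)
        = ∑ i, (⇑(atkinLehner hN L F) : ℍ → ℂ) ∣[(2 : ℤ)] r i := by
      rw [traceDown, coe_slashSumLin, one_smul]
      refine Finset.sum_congr rfl fun i _ => ?_
      rw [traceMat_eq, intGL_mul (by rw [L.det_mat]; exact_mod_cast hq.ne_zero)
        (by rw [det_traceRepMat]; exact one_ne_zero), SlashAction.slash_mul, ← coe_atkinLehner hN,
        ModularForm.SL_slash]
      rw [show traceRepMat L i = ((r i : SL(2, ℤ)) : Matrix (Fin 2) (Fin 2) ℤ) from rfl,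
        intGL_coe_SL]
      rfl
    have hterm : ∀ i, petersson 2 (atkinLehner hN L F) g' (r i • τ)
        = conj (((⇑(atkinLehner hN L F) : ℍ → ℂ) ∣[(2 : ℤ)] r i) τ) * g τ * τ.im ^ (2 : ℤ) := by
      intro i
      have hgr : (⇑g : ℍ → ℂ) ∣[(2 : ℤ)] r i = ⇑g := by
        rw [ModularForm.SL_slash]
        exact SlashInvariantFormClass.slash_action_eq g _ ⟨r i, hr i, rfl⟩
      rw [← petersson_slash_SL 2, show ⇑g' = ⇑g from levelRaise_one_apply _ g, hgr]
      rfl
    simp only [hterm]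
    rw [petersson, hT, Finset.sum_apply, map_sum, Finset.sum_mul, Finset.sum_mul]
  · obtain ⟨i, X, hX, hXN, he⟩ :=
      exists_traceRep L hq (g := (γ : Matrix (Fin 2) (Fin 2) ℤ)) γ.det_coe ((hmemN γ).mp hγ)
    refine ⟨i, ?_⟩
    have : γ * (r i)⁻¹ = (⟨X, hX⟩ : SL(2, ℤ)) := mul_inv_eq_iff_eq_mul.mpr (Subtype.ext he)
    rw [this]
    exact (hmemL _).mpr hXN
  · exact traceRep_injective L hq (g := ((r i * (r j)⁻¹ : SL(2, ℤ)) : Matrix (Fin 2) (Fin 2) ℤ))
      ((hmemL _).mp hij) (congrArg Subtype.val (inv_mul_cancel_right (r i) (r j)).symm)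
      (NeZero.ne N)

end AtkinLehner

end FermatLib.Modular
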