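import Mathlib.Analysis.Complex.UpperHalfPlane.Measure
import Mathlib.NumberTheory.Modular
import Mathlib.NumberTheory.ModularForms.Petersson
import Mathlib.NumberTheory.ModularForms.CongruenceSubgroups
import Mathlib.MeasureTheory.Integral.Bochner.Basic
import Mathlib.MeasureTheory.Integral.Bochner.Set

/-!
# The Petersson product

`peterssonIntegral Γ h` is the integral of a `Γ`-invariant function over `Γ \ ℍ`, written as a sum
over `SL(2, ℤ) ⧸ Γ` of integrals over the standard fundamental domain; `peterssonProd` is the
Petersson product of weight two cusp forms on `Γ₀(N)`.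
-/

set_option autoImplicit false

noncomputable section

open UpperHalfPlane MeasureTheory CongruenceSubgroup
open scoped MatrixGroups Modular

namespace FermatLib.Modular

/-- `∫ h` over `Γ \ ℍ`, as a sum over the cosets `g Γ` of integrals over `g⁻¹ 𝒟`. -/
def peterssonIntegral (Γ : Subgroup SL(2, ℤ)) [Γ.FiniteIndex] (h : ℍ → ℂ) : ℂ :=
  letI := Γ.fintypeQuotientOfFiniteIndex
  ∑ q : SL(2, ℤ) ⧸ Γ, ∫ τ in 𝒟, h ((Quotient.out q)⁻¹ • τ)

/-- The Petersson product on `S₂(Γ₀(N))`, antilinear in the first variable. -/
def peterssonProd {N : ℕ} [NeZero N] (f g : CuspForm (Gamma0 N) 2) : ℂ :=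
  peterssonIntegral (Gamma0 N) (petersson 2 f g)

end FermatLib.Modular
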