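import Mathlib
import Fermat.Agent.Modular.MeroField
import Fermat.Agent.Modular.JOrder
import Fermat.Agent.Modular.SL2Conj

/-!
Elliptic fixed points: the order of an invariant function at a fixed point, and explicit
stabiliser elements over `j = 0`, `j = 1728`.
-/

set_option autoImplicit false

noncomputable section

open UpperHalfPlane hiding I
open Complex ModularForm CongruenceSubgroup ModularCurve
open scoped MatrixGroups Manifold Topology

namespace FermatLib.Modular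

/-- The order at a fixed point of an invariant function is killed by the multiplier. -/
theorem zpow_multiplier_eq_one {γ : SL(2, ℤ)} {τ : ℍ} (hγ : γ • τ = τ) {G : holFun}
    (hinv : ∀ z : ℍ, (G : ℍ → ℂ) (γ • z) = (G : ℍ → ℂ) z) {k : ℤ}
    (hk : ordHol τ G = (k : WithTop ℤ)) :
    ((denom γ τ) ^ (-2 : ℤ)) ^ k = 1 := by
  set f : ℂ → ℂ := (G : ℍ → ℂ) ∘ ofComplex with hf
  have ha : AnalyticAt ℂ f (τ : ℂ) := (analyticOnNhd_holFun G) _ τ.im_pos
  set φ : ℂ → ℂ := fun w => ((γ • ofComplex w : ℍ) : ℂ) with hφ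
  have hmd : MDiff (fun z : ℍ => ((γ • z : ℍ) : ℂ)) :=
    mdifferentiable_comp_smul (G := fun z : ℍ => (z : ℂ)) mdifferentiable_coe γ
  have hφa : AnalyticAt ℂ φ (τ : ℂ) := analyticAt_comp_ofComplex hmd τ
  have hd := (hasStrictDerivAt_smul (g := (γ : GL (Fin 2) ℝ))
    (by simp [← Int.cast_det]) τ).hasDerivAt
  have hφτ : φ (τ : ℂ) = (τ : ℂ) := by
    simp only [hφ, ofComplex_apply, hγ]
  have hderiv : deriv φ (τ : ℂ) = (denom γ τ) ^ (-2 : ℤ) := by
    simp only [hφ, ModularGroup.sl_moeb]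
    rw [hd.deriv]
    simp [← Int.cast_det, zpow_neg, zpow_ofNat]
  obtain ⟨n, hn⟩ : ∃ n : ℕ, analyticOrderAt f (τ : ℂ) = n := by
    rcases eq_or_ne (analyticOrderAt f (τ : ℂ)) ⊤ with h | h
    · rw [ordHol_apply, ← hf, ha.meromorphicOrderAt_eq, h] at hk
      simp at hk
    · exact (ENat.ne_top_iff_exists.mp h).imp fun n hn => hn.symm
  have hkn : k = n := by
    rw [ordHol_apply, ← hf, ha.meromorphicOrderAt_eq, hn] at hk
    exact (WithTop.coe_inj.mp hk).symm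
  obtain ⟨u, hu, hu0, hfu⟩ := (ha.analyticOrderAt_eq_natCast).mp hn
  simp only [smul_eq_mul] at hfu
  have hψ : ContinuousAt (dslope φ (τ : ℂ)) (τ : ℂ) :=
    continuousAt_dslope_same.mpr hφa.differentiableAt
  have hev : ∀ᶠ z in 𝓝[≠] (τ : ℂ), dslope φ (τ : ℂ) z ^ n * u (φ z) = u z := by
    have h1 : ∀ᶠ z in 𝓝 (τ : ℂ), f (φ z) = (φ z - τ) ^ n * u (φ z) := by
      have := hφa.continuousAt.tendsto
      rw [hφτ] at this
      exact this.eventually hfu
    filter_upwards [self_mem_nhdsWithin, mem_nhdsWithin_of_mem_nhds hfu,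
      mem_nhdsWithin_of_mem_nhds h1,
      mem_nhdsWithin_of_mem_nhds (isOpen_upperHalfPlaneSet.mem_nhds τ.im_pos)] with z hz e0 e1 hzim
    have hfinv : f (φ z) = f z := by
      simp only [hf, hφ, Function.comp_apply, ofComplex_apply, hinv]
    have hsub : φ z - τ = (z - τ) * dslope φ (τ : ℂ) z := by
      have := sub_smul_dslope φ (τ : ℂ) z
      rw [smul_eq_mul, hφτ] at this
      exact this.symm
    rw [hfinv, e0, hsub, mul_pow, mul_assoc] at e1
    exact (mul_left_cancel₀ (pow_ne_zero n (sub_ne_zero.mpr hz)) e1).symm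
  have hlim : dslope φ (τ : ℂ) τ ^ n * u (φ τ) = u τ := by
    refine tendsto_nhds_unique (f := fun z => dslope φ (τ : ℂ) z ^ n * u (φ z))
      (l := 𝓝[≠] (τ : ℂ)) ?_ ((hu.continuousAt.tendsto.mono_left nhdsWithin_le_nhds).congr'
        (Filter.EventuallyEq.symm hev))
    have hc : ContinuousAt (fun z => dslope φ (τ : ℂ) z ^ n * u (φ z)) (τ : ℂ) :=
      (hψ.pow n).mul (ContinuousAt.comp (by rw [hφτ]; exact hu.continuousAt) hφa.continuousAt)
    exact hc.tendsto.mono_left nhdsWithin_le_nhds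
  rw [dslope_same, hφτ, hderiv] at hlim
  rw [hkn, zpow_natCast]
  exact mul_right_cancel₀ hu0 (hlim.trans (one_mul _).symm)

/-- A multiplier is trivial only for `±1`. -/
theorem eq_one_or_neg_one_of_multiplier {γ : SL(2, ℤ)} {τ : ℍ} (hγ : γ • τ = τ)
    (h : (denom γ τ) ^ (-2 : ℤ) = 1) : γ = 1 ∨ γ = -1 := by
  have hden : denom γ τ = (γ 1 0 : ℂ) * τ + (γ 1 1 : ℂ) := by simp [denom]
  have hsq : denom γ τ ^ 2 = 1 := by
    have hne := denom_ne_zero (γ : GL (Fin 2) ℝ) τ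
    rwa [zpow_neg, zpow_ofNat, inv_eq_one] at h
  have hval : denom γ τ = 1 ∨ denom γ τ = -1 := sq_eq_one_iff.mp hsq
  have hc : γ 1 0 = 0 := by
    have him : (denom γ τ).im = 0 := by rcases hval with e | e <;> rw [e] <;> simp
    rw [hden] at him
    simpa [τ.im_ne_zero] using him
  have hdet : γ 0 0 * γ 1 1 - γ 0 1 * γ 1 0 = 1 := (Matrix.det_fin_two _).symm.trans γ.2
  rw [hc, mul_zero, sub_zero] at hdet
  have hb : γ 0 1 = 0 := by
    have h0 := congrArg (fun z : ℍ => (z : ℂ)) hγ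
    simp only [coe_specialLinearGroup_apply, hc] at h0
    rcases Int.eq_one_or_neg_one_of_mul_eq_one' hdet with ⟨e1, e2⟩ | ⟨e1, e2⟩ <;>
      · simp [e1, e2] at h0
        first
          | exact h0
          | (field_simp at h0; simpa using h0)
  rcases Int.eq_one_or_neg_one_of_mul_eq_one' hdet with ⟨e1, e2⟩ | ⟨e1, e2⟩
  · left; ext i j; fin_cases i <;> fin_cases j <;> simp [e1, e2, hb, hc]
  · right; ext i j; fin_cases i <;> fin_cases j <;> simp [e1, e2, hb, hc]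

theorem jFun_rho : jFun UpperHalfPlane.ρ = 0 := by
  rw [jFun_eq_zero_iff]
  have h := SlashInvariantForm.slash_action_eqn'' (k := 4) E₄
    (show ((ModularGroup.S * ModularGroup.T : SL(2, ℤ)) : GL (Fin 2) ℝ) ∈ 𝒮ℒ from
      ⟨_, rfl⟩) UpperHalfPlane.ρ
  have hfix : (ModularGroup.S * ModularGroup.T) • UpperHalfPlane.ρ = UpperHalfPlane.ρ :=
    ModularGroup.stabilizer_ρ.mpr (by simp)
  rw [← ModularGroup.sl_moeb, hfix] at h
  by_contra h0
  have h1 : (denom ((ModularGroup.S * ModularGroup.T : SL(2, ℤ)) : GL (Fin 2) ℝ)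
      (UpperHalfPlane.ρ : ℂ)) ^ 4 = 1 := by
    have := mul_right_cancel₀ h0 (h.symm.trans (one_mul _).symm)
    exact_mod_cast this
  have hden : denom ((ModularGroup.S * ModularGroup.T : SL(2, ℤ)) : GL (Fin 2) ℝ)
      (UpperHalfPlane.ρ : ℂ) = (UpperHalfPlane.ρ : ℂ) + 1 := by
    simp [denom, ModularGroup.coe_S, ModularGroup.coe_T, Matrix.mul_apply, Fin.sum_univ_two]
  rw [hden] at h1
  have hq : (UpperHalfPlane.ρ : ℂ) ^ 2 + UpperHalfPlane.ρ + 1 = 0 := by
    have h3 : ((Real.sqrt 3 : ℝ) : ℂ) ^ 2 = 3 := by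
      rw [← Complex.ofReal_pow, Real.sq_sqrt (by norm_num)]
      norm_num
    apply Complex.ext <;> simp [UpperHalfPlane.ρ, sq] <;>
      nlinarith [Real.mul_self_sqrt (show (0 : ℝ) ≤ 3 by norm_num)]
  have : (UpperHalfPlane.ρ : ℂ) = -2 := by
    linear_combination ((UpperHalfPlane.ρ : ℂ) ^ 2 + 3 * UpperHalfPlane.ρ + 2) * hq - h1
  have := congrArg Complex.im this
  simp [UpperHalfPlane.ρ] at this

theorem jFun_I : jFun UpperHalfPlane.I = 1728 := by
  rw [jFun_eq_1728_iff]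
  have h := SlashInvariantForm.slash_action_eqn'' (k := 6) E₆
    (show ((ModularGroup.S : SL(2, ℤ)) : GL (Fin 2) ℝ) ∈ 𝒮ℒ from ⟨_, rfl⟩) UpperHalfPlane.I
  have hfix : ModularGroup.S • UpperHalfPlane.I = UpperHalfPlane.I :=
    ModularGroup.stabilizer_I.mpr (by simp)
  rw [← ModularGroup.sl_moeb, hfix] at h
  have hden : denom ((ModularGroup.S : SL(2, ℤ)) : GL (Fin 2) ℝ) (UpperHalfPlane.I : ℂ)
      = Complex.I := by
    simp [denom, ModularGroup.coe_S]
  rw [hden] at h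
  have e : (Complex.I : ℂ) ^ (6 : ℤ) = -1 := by
    rw [show (6 : ℤ) = ((6 : ℕ) : ℤ) from rfl, zpow_natCast,
      show 6 = 4 + 2 from rfl, pow_add, I_pow_four, I_sq]
    ring
  rw [e] at h
  linear_combination (1 / 2 : ℂ) * h

/-- Over `j = 0` and `j = 1728` the stabiliser has an element of order `jRamIndex` modulo `±1`. -/
theorem exists_stabilizer_generator (τ : ℍ) :
    ∃ s : SL(2, ℤ), s • τ = τ ∧
      ∀ k : ℕ, 0 < k → k < jRamIndex (jFun τ) → s ^ k ≠ 1 ∧ s ^ k ≠ -1 := by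
  have key : ∀ (τ₁ : ℍ) (s₁ : SL(2, ℤ)) (E : ℕ), s₁ • τ₁ = τ₁ →
      (∀ k : ℕ, 0 < k → k < E → s₁ ^ k ≠ 1 ∧ s₁ ^ k ≠ -1) →
      jFun τ = jFun τ₁ → jRamIndex (jFun τ) = E →
      ∃ s : SL(2, ℤ), s • τ = τ ∧
        ∀ k : ℕ, 0 < k → k < jRamIndex (jFun τ) → s ^ k ≠ 1 ∧ s ^ k ≠ -1 := by
    intro τ₁ s₁ E hfix hk hj hE
    obtain ⟨g, rfl⟩ := jFun_eq_iff.mp hj.symm
    refine ⟨g * s₁ * g⁻¹, by rw [mul_smul, mul_smul, inv_smul_smul, hfix], fun k hk0 hkE => ?_⟩
    rw [conj_pow]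
    refine ⟨fun h => (hk k hk0 (hE ▸ hkE)).1 ?_, fun h => (hk k hk0 (hE ▸ hkE)).2 ?_⟩
    · exact conj_eq_one_iff.mp h
    · have := congrArg (fun x => g⁻¹ * x * g) h
      simpa [mul_assoc] using this
  by_cases h0 : jFun τ = 0
  · refine key UpperHalfPlane.ρ (ModularGroup.S * ModularGroup.T) 3
      (ModularGroup.stabilizer_ρ.mpr (by simp)) (fun k hk0 hk3 => ?_) (h0.trans jFun_rho.symm)
      (by simp [jRamIndex, h0])
    interval_cases k <;> decide
  by_cases h1 : jFun τ = 1728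
  · refine key UpperHalfPlane.I ModularGroup.S 2 (ModularGroup.stabilizer_I.mpr (by simp))
      (fun k hk0 hk2 => ?_) (h1.trans jFun_I.symm) (by simp [jRamIndex, h1])
    interval_cases k; decide
  exact ⟨1, one_smul _ _, fun k hk0 hk1 => by simp [jRamIndex, h0, h1] at hk1; omega⟩

end FermatLib.Modular
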