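import Fermat.Agent.Modular.PlaceBase
import Fermat.Agent.Modular.PlaceElliptic
import Fermat.Agent.Modular.Gamma0Coset

/-!
The fibre of `L(X₀(N))` over a value of `j`: cosets of `Γ₀(N)` and the index of a point.
-/

set_option autoImplicit false

noncomputable section

open UpperHalfPlane hiding I
open CongruenceSubgroup ModularCurve AlgebraicCurve
open scoped MatrixGroups Manifold Topology

namespace FermatLib.Modular

variable {L : Type*} [Field L] [Algebra ℚ L] (ι : L →+* ℂ) (N : ℕ)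

/-- `j - c` as a holomorphic function. -/
def jHolSub (c : ℂ) : holFun :=
  ⟨fun τ => jFun τ - c, mdifferentiable_jFun.sub mdifferentiable_const⟩

open scoped Classical in
/-- Order of the stabiliser of `τ` in `Γ₀(N)/±1`, i.e. the scale of its place. -/
def ptIndex (τ : ℍ) : ℕ :=
  if ∀ γ ∈ Gamma0 N, γ • τ = τ → γ = 1 ∨ γ = -1 then 1 else jRamIndex (jFun τ)

theorem ptIndex_pos (τ : ℍ) : 0 < ptIndex N τ := by
  unfold ptIndex
  split_ifs
  exacts [one_pos, jRamIndex_pos _]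

variable [NeZero N]

theorem ptHom_algebraMap (g : SL(2, ℤ)) (a : L) :
    ptHom ι N g (algebraMap L _ a) = algebraMap holFun MeroH (algebraMap ℂ holFun (ι a)) := by
  have h : algebraMap ℂ (modularFunctionFieldCx N) (ι a)
      = ⟨qExpWeak N (algebraMap ℂ _ (ι a)), qExpL_mem_modularFunctionFieldCx N (Subtype.mem _)⟩ :=
    Subtype.ext ((qExpWeak N).commutes (ι a)).symm
  rw [ptHom, RingHom.comp_apply, baseToCx_algebraMap, h, meroEval_qExpWeak]
  rfl

theorem jElem_eq_qExpWeak :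
    jElem ℂ N = ⟨qExpWeak N ⟨jFun, jFun_mem_weakMod _⟩,
      qExpL_mem_modularFunctionFieldCx N (jFun_mem_weakMod _)⟩ :=
  Subtype.ext qExpL_jFun.symm

theorem ptHom_jElem_sub (g : SL(2, ℤ)) (c : L) :
    ptHom ι N g (jElem L N - algebraMap L _ c) = algebraMap holFun MeroH (jHolSub (ι c)) := by
  rw [map_sub, ptHom_algebraMap, ptHom, RingHom.comp_apply, baseToCx_jElem, jElem_eq_qExpWeak,
    meroEval_qExpWeak, ← map_sub]
  congr 1
  refine Subtype.ext (funext fun τ => ?_)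
  show jFun (g • τ) - ι c = jFun τ - ι c
  rw [jFun_smul]

theorem ordAtH_jHolSub (τ : ℍ) :
    ordAtH τ (algebraMap holFun MeroH (jHolSub (jFun τ)))
      = ((jRamIndex (jFun τ) : ℤ) : WithTop ℤ) := by
  rw [ordAtH_algebraMap]
  exact meromorphicOrderAt_jFun_sub rfl

theorem weakToHol_Gamma0_mul {γ : SL(2, ℤ)} (hγ : γ ∈ Gamma0 N) (g : SL(2, ℤ)) :
    weakToHol N (γ * g) = weakToHol N g :=
  RingHom.ext fun G => Subtype.ext (funext fun τ => by
    show (G : ℍ → ℂ) ((γ * g) • τ) = (G : ℍ → ℂ) (g • τ)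
    rw [mul_smul]
    exact G.2.2.1 γ hγ _)

theorem ptHom_Gamma0_mul {γ : SL(2, ℤ)} (hγ : γ ∈ Gamma0 N) (g : SL(2, ℤ)) :
    ptHom ι N (γ * g) = ptHom ι N g := by
  refine RingHom.ext fun x => ?_
  obtain ⟨A, B, -, h⟩ := exists_div_qExpWeak N (baseToCx ι N x)
  simp only [ptHom, RingHom.comp_apply, h, map_div₀, meroEval_qExpWeak,
    weakToHol_Gamma0_mul N hγ g]

theorem ordAtH_ptHom_Gamma0_smul {γ : SL(2, ℤ)} (hγ : γ ∈ Gamma0 N) (τ : ℍ)
    (x : modularFunctionFieldOver L N) :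
    ordAtH (γ • τ) (ptHom ι N 1 x) = ordAtH τ (ptHom ι N 1 x) := by
  rw [← ordAtH_ptHom_smul ι N γ τ x]
  conv_lhs => rw [← mul_one γ, ptHom_Gamma0_mul ι N hγ 1]

/-- The embedding of the coset `g Γ₀(N)`: `G ↦ G (g⁻¹ τ)`. -/
def cosetHom (q : Gamma0Coset N) : modularFunctionFieldOver L N →+* MeroH :=
  ptHom ι N q.out⁻¹

theorem cosetHom_injective : Function.Injective (cosetHom ι N) := by
  intro q q' h
  have hj := DFunLike.congr_fun h (jScaleElem L N)
  have hG : baseToCx ι N (jScaleElem L N)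
      = ⟨qExpWeak N ⟨jScaleFun N, jScaleFun_mem_weakMod dvd_rfl⟩,
        qExpL_mem_modularFunctionFieldCx N (jScaleFun_mem_weakMod dvd_rfl)⟩ :=
    Subtype.ext ((coeffMap_coeffEmb_of_embedding ι _).trans (qExpL_jScaleFun N).symm)
  simp only [cosetHom, ptHom, RingHom.comp_apply, hG, meroEval_qExpWeak] at hj
  have hfun := congrArg Subtype.val (IsFractionRing.injective holFun MeroH hj)
  have hmem := (jScaleFun_smul_eq_iff N q.out⁻¹ q'.out⁻¹).mp fun τ => congrFun hfun τ
  rw [inv_inv] at hmem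
  rw [← QuotientGroup.out_eq' q, ← QuotientGroup.out_eq' q', QuotientGroup.eq]
  exact hmem

theorem inducesPlace_cosetHom_mk (τ : ℍ) (g : SL(2, ℤ))
    (v : Place L (modularFunctionFieldOver L N)) :
    InducesPlace (ordAtH τ) (cosetHom ι N (g : Gamma0Coset N)) v ↔
      InducesPlace (ordAtH (g⁻¹ • τ)) (ptHom ι N 1) v := by
  have hmem : (g : Gamma0Coset N).out⁻¹ * g ∈ Gamma0 N :=
    QuotientGroup.eq.mp (QuotientGroup.out_eq' (g : Gamma0Coset N))
  have e : cosetHom ι N (g : Gamma0Coset N) = ptHom ι N g⁻¹ := by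
    rw [cosetHom, ← ptHom_Gamma0_mul ι N hmem g⁻¹, mul_inv_cancel_right]
  rw [e]
  refine forall_congr' fun x => ?_
  rw [ordAtH_ptHom_smul]

variable [IsAlgClosed L]

theorem exists_fibre_places (τ : ℍ) (c : L) (hc : ι c = jFun τ) :
    ∃ p : Gamma0Coset N → Place L (modularFunctionFieldOver L N),
      (∀ q, InducesPlace (ordAtH τ) (cosetHom ι N q) (p q)) ∧
      (∀ v : Place L (modularFunctionFieldOver L N),
        0 < v.ord (jElem L N - algebraMap L _ c) ↔ ∃ q, p q = v) ∧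
      (∀ q, (Nat.card {q' // p q' = p q} : ℤ)
        = (p q).ord (jElem L N - algebraMap L _ c)) := by
  have := Fintype.ofFinite (Gamma0Coset N)
  have hcard : Fintype.card (Gamma0Coset N) = dedekindPsi N := by
    rw [← Nat.card_eq_fintype_card, card_gamma0Coset]
  have hx : jElem L N - algebraMap L _ c ≠ 0 := fun h => transcendental_jElem L N (by
    rw [sub_eq_zero.mp h]; exact isAlgebraic_algebraMap c)
  refine fibre_of_embeddings (ordAtH τ) (cosetHom ι N) (cosetHom_injective ι N) hx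
    (fun q a => ?_) (fun q q' a => ?_) (fun q q' => ?_) (fun q => ?_)
    (exists_const_sub_mem_ordGE N) (fun s hs => ?_)
  · rw [cosetHom, ptHom_algebraMap, ordAtH_algebraMap]
    exact ((analyticOnNhd_holFun _) _ τ.im_pos).meromorphicOrderAt_nonneg
  · rw [cosetHom, cosetHom, ptHom_algebraMap, ptHom_algebraMap]
  · rw [cosetHom, cosetHom, ptHom_jElem_sub, ptHom_jElem_sub]
  · rw [cosetHom, ptHom_jElem_sub, hc, ordAtH_jHolSub]
    exact WithTop.coe_lt_coe.mpr (Int.ofNat_lt.mpr (jRamIndex_pos _))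
  · rw [hcard]
    refine sum_ord_le_dedekindPsi N (le_antisymm ?_ ?_) s hs
    · exact IntermediateField.adjoin_simple_le_iff.mpr
        (sub_mem (IntermediateField.mem_adjoin_simple_self L _)
          (IntermediateField.algebraMap_mem _ c))
    · refine IntermediateField.adjoin_simple_le_iff.mpr ?_
      have h := add_mem (IntermediateField.mem_adjoin_simple_self L
        (jElem L N - algebraMap L _ c)) (IntermediateField.algebraMap_mem _ c)
      rwa [sub_add_cancel] at h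

theorem exists_inducesPlace_point (τ : ℍ) (c : L) (hc : ι c = jFun τ) :
    ∃ v : Place L (modularFunctionFieldOver L N),
      InducesPlace (ordAtH τ) (ptHom ι N 1) v ∧ 0 < v.ord (jElem L N - algebraMap L _ c) := by
  obtain ⟨p, hp, hv, -⟩ := exists_fibre_places ι N τ c hc
  refine ⟨p ((1 : SL(2, ℤ)) : Gamma0Coset N), ?_, (hv _).mpr ⟨_, rfl⟩⟩
  have := (inducesPlace_cosetHom_mk ι N τ 1 _).mp (hp ((1 : SL(2, ℤ)) : Gamma0Coset N))
  rwa [inv_one, one_smul] at this

/-- An element of `Γ₀(N)` fixing `τ` has multiplier killed by every order at `τ`. -/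
theorem zpow_multiplier_ptHom {γ : SL(2, ℤ)} (hγ : γ ∈ Gamma0 N) {τ : ℍ} (hfix : γ • τ = τ)
    (x : modularFunctionFieldOver L N) {m : ℤ} (hm : ordAtH τ (ptHom ι N 1 x) = (m : WithTop ℤ)) :
    ((denom γ τ) ^ (-2 : ℤ)) ^ m = 1 := by
  obtain ⟨A, B, hB, h⟩ := exists_div_qExpWeak N (baseToCx ι N x)
  have hx : ptHom ι N 1 x ≠ 0 := fun h0 => by simp [h0] at hm
  rw [ptHom, RingHom.comp_apply, h, map_div₀, meroEval_qExpWeak, meroEval_qExpWeak] at hm hx
  have hA0 : weakToHol N 1 A ≠ 0 := fun h0 => hx (by simp [h0])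
  have hB0 : weakToHol N 1 B ≠ 0 := fun h0 => hx (by simp [h0])
  obtain ⟨a, ha⟩ := WithTop.ne_top_iff_exists.mp (mt (ordHol_eq_top_iff τ).mp hA0)
  obtain ⟨b, hb⟩ := WithTop.ne_top_iff_exists.mp (mt (ordHol_eq_top_iff τ).mp hB0)
  have hab : m = a + -b := by
    rw [div_eq_mul_inv, AddValuation.map_mul, AddValuation.map_inv, ordAtH_algebraMap,
      ordAtH_algebraMap, ← ordHol_apply, ← ordHol_apply, ← ha, ← hb,
      ← WithTop.LinearOrderedAddCommGroup.coe_neg, ← WithTop.coe_add] at hm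
    exact (WithTop.coe_inj.mp hm).symm
  have hinv : ∀ (G : weakMod (Gamma0 N)) (z : ℍ), (weakToHol N 1 G : ℍ → ℂ) (γ • z)
      = (weakToHol N 1 G : ℍ → ℂ) z := fun G z => by
    show (G : ℍ → ℂ) ((1 : SL(2, ℤ)) • γ • z) = (G : ℍ → ℂ) ((1 : SL(2, ℤ)) • z)
    rw [one_smul, one_smul]
    exact G.2.2.1 γ hγ z
  have hA := zpow_multiplier_eq_one hfix (hinv A) ha.symm
  have hB' := zpow_multiplier_eq_one hfix (hinv B) hb.symm
  rw [hab, zpow_add₀ (zpow_ne_zero _ (denom_ne_zero _ _)), hA, zpow_neg, hB', inv_one, mul_one]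

theorem coset_pow_ne {N : ℕ} {s : SL(2, ℤ)} {τ : ℍ} (hs : s • τ = τ)
    (hstab : ∀ γ ∈ Gamma0 N, γ • τ = τ → γ = 1 ∨ γ = -1)
    (hk : ∀ k : ℕ, 0 < k → k < jRamIndex (jFun τ) → s ^ k ≠ 1 ∧ s ^ k ≠ -1) :
    Function.Injective fun k : Fin (jRamIndex (jFun τ)) =>
      ((s ^ (k : ℕ) : SL(2, ℤ)) : Gamma0Coset N) := by
  have hfix : ∀ k : ℕ, s ^ k • τ = τ := fun k => smul_eq_of_mem_zpowers hs k
  have key : ∀ a b : Fin (jRamIndex (jFun τ)), (a : ℕ) ≤ b →
      ((s ^ (a : ℕ) : SL(2, ℤ)) : Gamma0Coset N) = ((s ^ (b : ℕ) : SL(2, ℤ)) : Gamma0Coset N) →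
      a = b := by
    intro a b hab h
    rw [QuotientGroup.eq] at h
    have e : (s ^ (a : ℕ))⁻¹ * s ^ (b : ℕ) = s ^ ((b : ℕ) - a) := by
      rw [inv_mul_eq_iff_eq_mul, ← pow_add, Nat.add_sub_cancel' hab]
    rw [e] at h
    by_contra hne
    have hne' : (a : ℕ) ≠ b := fun h => hne (Fin.ext h)
    obtain ⟨h1, h2⟩ := hk ((b : ℕ) - a) (by omega) (by have := b.2; omega)
    exact (hstab _ h (hfix _)).elim h1 h2
  intro a b h
  rcases le_total (a : ℕ) b with hab | hab
  · exact key a b hab h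
  · exact (key b a hab h.symm).symm
where
  smul_eq_of_mem_zpowers {s : SL(2, ℤ)} {τ : ℍ} (hs : s • τ = τ) (k : ℕ) : s ^ k • τ = τ := by
    induction k with
    | zero => simp
    | succ k ih => rw [pow_succ, mul_smul, hs, ih]

/-- Scale and ramification index of the place of a point, and the cosets inducing it. -/
theorem point_fibre (τ : ℍ) (c : L) (hc : ι c = jFun τ)
    (v : Place L (modularFunctionFieldOver L N))
    (hv : InducesPlace (ordAtH τ) (ptHom ι N 1) v) :
    (∀ x : modularFunctionFieldOver L N, x ≠ 0 →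
      ordAtH τ (ptHom ι N 1 x) = (((ptIndex N τ : ℤ) * v.ord x : ℤ) : WithTop ℤ)) ∧
    (ptIndex N τ : ℤ) * v.ord (jElem L N - algebraMap L _ c) = (jRamIndex (jFun τ) : ℤ) ∧
    (∀ g : SL(2, ℤ), InducesPlace (ordAtH (g • τ)) (ptHom ι N 1) v →
      ∃ γ ∈ Gamma0 N, γ • τ = g • τ) := by
  classical
  obtain ⟨p, hp, -, hcard⟩ := exists_fibre_places ι N τ c hc
  set x₀ : modularFunctionFieldOver L N := jElem L N - algebraMap L _ c with hx₀
  have hx0 : x₀ ≠ 0 := fun h => transcendental_jElem L N (by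
    rw [sub_eq_zero.mp h]; exact isAlgebraic_algebraMap c)
  obtain ⟨m, hm, hs⟩ := hv.exists_scale
  set e := v.ord x₀ with he
  have hme : m * e = (jRamIndex (jFun τ) : ℤ) := by
    have h := hs x₀ hx0
    rw [ptHom_jElem_sub, hc, ordAtH_jHolSub] at h
    exact (WithTop.coe_inj.mp h).symm
  have hmemF : ∀ g : SL(2, ℤ),
      p (g : Gamma0Coset N) = v ↔ InducesPlace (ordAtH (g⁻¹ • τ)) (ptHom ι N 1) v := by
    intro g
    have h := (inducesPlace_cosetHom_mk ι N τ g _).mp (hp (g : Gamma0Coset N))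
    exact ⟨fun h' => h' ▸ h, fun h' => h.unique h'⟩
  have hone : p ((1 : SL(2, ℤ)) : Gamma0Coset N) = v := (hmemF 1).mpr (by rwa [inv_one, one_smul])
  have hF : (Nat.card {q // p q = v} : ℤ) = e := by
    have h := hcard ((1 : SL(2, ℤ)) : Gamma0Coset N)
    rwa [hone] at h
  have hepos : 0 < e := by
    have : Nonempty {q // p q = v} := ⟨⟨_, hone⟩⟩
    have := Nat.card_pos (α := {q // p q = v})
    omega
  by_cases hstab : ∀ γ ∈ Gamma0 N, γ • τ = τ → γ = 1 ∨ γ = -1
  · have hidx : ptIndex N τ = 1 := if_pos hstab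
    obtain ⟨s, hsτ, hk⟩ := exists_stabilizer_generator τ
    let φ : Fin (jRamIndex (jFun τ)) → {q // p q = v} := fun k =>
      ⟨((s ^ (k : ℕ) : SL(2, ℤ)) : Gamma0Coset N), (hmemF _).mpr (by
        rw [inv_smul_eq_iff.mpr (coset_pow_ne.smul_eq_of_mem_zpowers hsτ k).symm]
        exact hv)⟩
    have hφ : Function.Injective φ := fun a b h =>
      coset_pow_ne hsτ hstab hk (congrArg Subtype.val h)
    have hle := Nat.card_le_card_of_injective φ hφ
    rw [Nat.card_eq_fintype_card, Fintype.card_fin] at hle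
    have hm1 : m = 1 := by
      have h1 : m * e ≤ e := by rw [hme, ← hF]; exact_mod_cast hle
      nlinarith
    have heq : e = (jRamIndex (jFun τ) : ℤ) := by rw [← hme, hm1, one_mul]
    refine ⟨fun x hx => by rw [hidx, hs x hx, hm1]; rfl, by rw [hidx, ← heq]; simp, fun g hg => ?_⟩
    haveI := Fintype.ofFinite {q // p q = v}
    have hbij : Function.Bijective φ := (Fintype.bijective_iff_injective_and_card φ).mpr ⟨hφ, by
      rw [← Nat.card_eq_fintype_card, ← Nat.card_eq_fintype_card, Nat.card_fin]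
      omega⟩
    obtain ⟨k, hk'⟩ := hbij.2 ⟨((g⁻¹ : SL(2, ℤ)) : Gamma0Coset N), (hmemF _).mpr (by rwa [inv_inv])⟩
    have h := QuotientGroup.eq.mp (congrArg Subtype.val hk').symm
    rw [inv_inv] at h
    exact ⟨_, h, by rw [mul_smul, coset_pow_ne.smul_eq_of_mem_zpowers hsτ k]⟩
  · have hidx : ptIndex N τ = jRamIndex (jFun τ) := if_neg hstab
    push Not at hstab
    obtain ⟨γ, hγ, hfix, hne1, hne2⟩ := hstab
    have hm1 : m ≠ 1 := by
      intro h1
      have h := zpow_multiplier_ptHom ι N hγ hfix (Curve.unif v)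
        (hs _ (Curve.unif_ne_zero v))
      rw [Curve.ord_unif, mul_one, h1, zpow_one] at h
      exact (eq_one_or_neg_one_of_multiplier hfix h).elim hne1 hne2
    have he1 : e = 1 := by
      have hE3 : (jRamIndex (jFun τ) : ℤ) ≤ 3 := by
        unfold jRamIndex; split_ifs <;> norm_num
      by_contra hne
      have h4 : (2 : ℤ) * 2 ≤ m * e := mul_le_mul (by omega) (by omega) (by norm_num) (by omega)
      omega
    rw [he1, mul_one] at hme
    refine ⟨fun x hx => by rw [hidx, hs x hx, hme], by rw [hidx, he1, mul_one], fun g hg => ?_⟩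
    have h1 : Subsingleton {q // p q = v} :=
      (Nat.card_eq_one_iff_unique.mp (by omega)).1
    have h := congrArg Subtype.val (h1.elim
      ⟨((g⁻¹ : SL(2, ℤ)) : Gamma0Coset N), (hmemF _).mpr (by rwa [inv_inv])⟩ ⟨_, hone⟩)
    rw [QuotientGroup.eq, inv_inv, mul_one] at h
    exact ⟨g, h, rfl⟩

end FermatLib.Modular
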