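import Fermat.Agent.Modular.S2Dim
import Fermat.Agent.Modular.PlaceCusps

/-!
A function vanishing at the place of a cusp tends to zero at that cusp.
-/

set_option autoImplicit false

noncomputable section

open UpperHalfPlane hiding I
open Filter CongruenceSubgroup AlgebraicCurve
open scoped MatrixGroups Manifold Topology

namespace FermatLib.Modular

/-- A quotient of positive order at `i∞` tends to zero. -/
theorem tendsto_div_of_order_qExpL_lt {a b : ℍ → ℂ} (ha : a ∈ qMero) (hb : b ∈ qMero)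
    (hb0 : b ≠ 0) (h : a = 0 ∨ (qExpL b).order < (qExpL a).order) :
    Tendsto (fun τ => a τ / b τ) atImInfty (𝓝 0) := by
  rcases h with rfl | h
  · simp
  obtain ⟨m₁, hm₁⟩ := ha.2.2
  obtain ⟨m₂, hm₂⟩ := hb.2.2
  set m := m₁ + m₂
  have hP : IsBoundedAtImInfty (a * ModularForm.discriminant ^ m) := by
    rw [pow_add, ← mul_assoc]
    exact hm₁.mul (isBoundedAtImInfty_discriminant_pow m₂)
  have hQ : IsBoundedAtImInfty (b * ModularForm.discriminant ^ m) := by
    rw [pow_add, mul_left_comm, mul_comm]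
    exact hm₂.mul (isBoundedAtImInfty_discriminant_pow m₁)
  have mP := mul_mem ha (pow_mem discriminant_mem_qMero m)
  have mQ := mul_mem hb (pow_mem discriminant_mem_qMero m)
  have eP := qExpL_mul_pow ha hP
  have eQ := qExpL_mul_pow hb hQ
  set P := a * ModularForm.discriminant ^ m
  set Q := b * ModularForm.discriminant ^ m
  have hD := pow_ne_zero m qExpDelta_ne_zero
  have hQ0 : HahnSeries.ofPowerSeries ℤ ℂ (qExpansion 1 Q) ≠ 0 := by
    rw [← eQ]
    exact mul_ne_zero (fun h0 => hb0 ((qExpL_eq_zero_iff hb).mp h0)) hD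
  set k := (HahnSeries.ofPowerSeries ℤ ℂ (qExpansion 1 Q)).order with hk
  have hkc := (HahnSeries.coeff_order_eq_zero).not.mpr hQ0
  rw [← hk] at hkc
  obtain ⟨n, hn⟩ : ∃ n : ℕ, k = n := Int.eq_ofNat_of_zero_le <| by
    by_contra hneg
    exact hkc (ModularCurve.ofPowerSeries_coeff_of_neg _ (not_le.mp hneg))
  rw [hn, HahnSeries.ofPowerSeries_apply_coeff, qExpansion_coeff] at hkc
  have hQlt : ∀ i < n, iteratedDeriv i (cuspFunction 1 Q) 0 = 0 := fun i hi => by
    have h1 := HahnSeries.coeff_eq_zero_of_lt_order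
      (x := HahnSeries.ofPowerSeries ℤ ℂ (qExpansion 1 Q)) (i := (i : ℤ)) (by rw [← hk, hn]; omega)
    rw [HahnSeries.ofPowerSeries_apply_coeff, qExpansion_coeff, mul_eq_zero] at h1
    exact h1.resolve_left (inv_ne_zero (Nat.cast_ne_zero.mpr i.factorial_ne_zero))
  have hPle : ∀ i < n + 1, iteratedDeriv i (cuspFunction 1 P) 0 = 0 := fun i hi => by
    have h1 : (HahnSeries.ofPowerSeries ℤ ℂ (qExpansion 1 P)).coeff (i : ℤ) = 0 := by
      by_cases ha0 : qExpL a = 0
      · rw [← eP, ha0, zero_mul, HahnSeries.coeff_zero]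
      refine HahnSeries.coeff_eq_zero_of_lt_order ?_
      rw [← eP, HahnSeries.order_mul ha0 hD]
      have hb1 : qExpL b ≠ 0 := fun h0 => hb0 ((qExpL_eq_zero_iff hb).mp h0)
      rw [← eQ, HahnSeries.order_mul hb1 hD, hn] at hk
      omega
    rw [HahnSeries.ofPowerSeries_apply_coeff, qExpansion_coeff, mul_eq_zero] at h1
    exact h1.resolve_left (inv_ne_zero (Nat.cast_ne_zero.mpr i.factorial_ne_zero))
  have hfP := analyticAt_cuspFunction_of_mem mP hP
  have hfQ := analyticAt_cuspFunction_of_mem mQ hQ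
  obtain ⟨uQ, huQ, huQ0, heQ⟩ := hfQ.analyticOrderAt_eq_natCast.mp
    ((analyticOrderAt_eq_nat_iff_iteratedDeriv_eq_zero hfQ).mpr
      ⟨hQlt, right_ne_zero_of_mul hkc⟩)
  obtain ⟨uP, huP, heP⟩ := (natCast_le_analyticOrderAt hfP).mp
    ((natCast_le_analyticOrderAt_iff_iteratedDeriv_eq_zero hfP).mpr hPle)
  have ht : Tendsto (fun q : ℂ => cuspFunction 1 P q / cuspFunction 1 Q q) (𝓝[≠] 0) (𝓝 0) := by
    have h2 : Tendsto (fun q : ℂ => q * (uP q / uQ q)) (𝓝 0) (𝓝 0) := by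
      simpa [Pi.mul_def, Pi.div_def] using (continuousAt_id.mul (huP.continuousAt.div huQ.continuousAt huQ0)).tendsto
    refine (h2.mono_left nhdsWithin_le_nhds).congr' ?_
    filter_upwards [nhdsWithin_le_nhds heQ, nhdsWithin_le_nhds heP, self_mem_nhdsWithin]
      with q h1 h2' hq
    have hq' : q ≠ 0 := hq
    rw [h1, h2', sub_zero, smul_eq_mul, smul_eq_mul, pow_succ]
    field_simp
  have hq : Tendsto (fun τ : ℍ => Function.Periodic.qParam (1 : ℝ) (τ : ℂ)) atImInfty (𝓝[≠] 0) :=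
    tendsto_nhdsWithin_iff.mpr ⟨qParam_tendsto_atImInfty one_pos,
      Eventually.of_forall fun τ => Function.Periodic.qParam_ne_zero _⟩
  refine (ht.comp hq).congr fun τ => ?_
  rw [Function.comp_apply, eq_cuspFunction τ one_ne_zero (periodic_comp_ofComplex_of_vadd mP.1),
    eq_cuspFunction τ one_ne_zero (periodic_comp_ofComplex_of_vadd mQ.1)]
  exact mul_div_mul_right _ _ (pow_ne_zero m (ModularForm.discriminant_ne_zero τ))

variable (N : ℕ) [NeZero N]

/-- The hypothesis `hcusp` of `finrank_riemannRochSpace_le_finrank_cuspForm`. -/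
theorem exists_place_cusp_tendsto (γ : SL(2, ℤ)) :
    ∃ v : Place ℂ (modularFunctionFieldCx N), v.ord (jElem ℂ N) < 0 ∧
      ∀ A B : weakMod (Gamma0 N), B ≠ 0 → 0 < v.ord (weakElem A / weakElem B) →
        Tendsto (fun τ => (A : ℍ → ℂ) (γ • τ) / (B : ℍ → ℂ) (γ • τ)) atImInfty (𝓝 0) := by
  have hw : 0 < cuspWidth N γ⁻¹ := cuspOrbitWidth_pos _
  refine ⟨cuspPlaceCx N γ⁻¹, ?_, fun A B hB hord => ?_⟩
  · have h := ord_jElem_cuspPlace (RingHom.id ℂ) N γ⁻¹
    change (cuspPlace (RingHom.id ℂ) N γ⁻¹).ord (jElem ℂ N) < 0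
    omega
  have hBe : weakElem B ≠ 0 := (map_ne_zero_iff _ weakElem_injective).mpr hB
  have hev : ∀ G : weakMod (Gamma0 N),
      cuspEval N γ⁻¹ (weakElem G) = qExpL (cuspFun N γ⁻¹ (G : ℍ → ℂ)) :=
    fun G => cuspEval_qExpWeak N γ⁻¹ G (weakElem G).2
  have hordG : ∀ G : weakMod (Gamma0 N), G ≠ 0 →
      (qExpL (cuspFun N γ⁻¹ (G : ℍ → ℂ))).order = (cuspPlaceCx N γ⁻¹).ord (weakElem G) := by
    intro G hG
    rw [← hev]
    have := order_cuspEval (RingHom.id ℂ) N γ⁻¹ ((map_ne_zero_iff _ weakElem_injective).mpr hG)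
    rwa [baseToCx_id] at this
  have hw0 : (0 : ℝ) < cuspWidth N γ⁻¹ := Nat.cast_pos.mpr hw
  let s : ℍ → ℍ := fun τ =>
    ⟨(τ : ℂ) / (cuspWidth N γ⁻¹ : ℝ), by rw [Complex.div_ofReal_im]; exact div_pos τ.im_pos hw0⟩
  have hs : ∀ τ : ℍ, ModularForm.heckeDiagMatrix (cuspWidth N γ⁻¹) • s τ = τ := by
    intro τ
    apply UpperHalfPlane.ext
    rw [ModularForm.coe_heckeDiagMatrix_smul hw.ne']
    show ((cuspWidth N γ⁻¹ : ℕ) : ℂ) * ((τ : ℂ) / ((cuspWidth N γ⁻¹ : ℝ) : ℂ)) = τ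
    rw [Complex.ofReal_natCast, mul_div_cancel₀ _ (Nat.cast_ne_zero.mpr hw.ne')]
  have hst : Tendsto s atImInfty atImInfty := by
    rw [atImInfty, tendsto_comap_iff]
    refine (tendsto_comap.atTop_div_const hw0).congr fun τ => ?_
    show τ.im / _ = ((τ : ℂ) / ((cuspWidth N γ⁻¹ : ℝ) : ℂ)).im
    rw [Complex.div_ofReal_im]
    rfl
  have hcb : cuspFun N γ⁻¹ (B : ℍ → ℂ) ≠ 0 := fun h0 => hB <| Subtype.ext <| funext fun τ => by
    have := congrFun h0 (s (γ⁻¹ • τ))
    simpa [cuspFun, hs, smul_inv_smul] using this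
  have key := (tendsto_div_of_order_qExpL_lt (cuspFun_mem_qMero N γ⁻¹ A.2)
    (cuspFun_mem_qMero N γ⁻¹ B.2) hcb ?_).comp hst
  · refine key.congr fun τ => ?_
    simp [cuspFun, hs]
  · by_cases hA : A = 0
    · exact Or.inl (funext fun τ => by simp [cuspFun, hA])
    right
    have hAe : weakElem A ≠ 0 := (map_ne_zero_iff _ weakElem_injective).mpr hA
    rw [hordG A hA, hordG B hB]
    rw [div_eq_mul_inv, Place.ord_mul _ hAe (inv_ne_zero hBe), Place.ord_inv] at hord
    omega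

end FermatLib.Modular
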