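import Fermat.Agent.Modular.S2Holo
import Fermat.Agent.Modular.FieldCx
import Fermat.Agent.Modular.EichlerShimura
import Fermat.Agent.Modular.Kummer.Quotient
import Fermat.Agent.Curve.KaehlerPlace
import Fermat.Prelude.Def_AlgebraicCurve_Repartitions

/-!
# Regular differentials of `X₀(N)` over `ℂ` give weight two cusp forms

If every point of the upper half plane and every cusp induces a place of the function field, the
functions `R` with `div R + div dj ≥ 0` inject into `S₂(Γ₀(N))`.
-/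

set_option autoImplicit false

noncomputable section

open UpperHalfPlane hiding I
open Filter CongruenceSubgroup AlgebraicCurve KaehlerDifferential
open scoped MatrixGroups Manifold Topology

namespace FermatLib.Modular

variable {N : ℕ} [NeZero N]

/-- A weakly holomorphic modular function as an element of the function field. -/
def weakElem : weakMod (Gamma0 N) →ₐ[ℂ] modularFunctionFieldCx N :=
  (qExpWeak N).codRestrict (modularFunctionFieldCx N).toSubalgebra
    fun G => qExpL_mem_modularFunctionFieldCx N G.2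

theorem coe_weakElem (G : weakMod (Gamma0 N)) :
    (weakElem G : LaurentSeries ℂ) = qExpWeak N G := rfl

theorem weakElem_injective : Function.Injective (weakElem (N := N)) :=
  fun _ _ h => qExpWeak_injective N (congrArg Subtype.val h)

/-- `j` as a weakly holomorphic modular function. -/
def jWeak : weakMod (Gamma0 N) := ⟨jFun, jFun_mem_weakMod _⟩

/-- `j (j - 1728)` as a weakly holomorphic modular function. -/
def jjWeak : weakMod (Gamma0 N) := ⟨jjFun, jjFun_mem_weakMod _⟩

theorem weakElem_jWeak : weakElem (jWeak (N := N)) = jElem ℂ N := Subtype.ext qExpL_jFun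

/-- `f ↦ - f (2 π i) dτ / dj`. -/
def cuspFormToFunction : CuspForm (Gamma0 N) 2 →ₗ[ℂ] modularFunctionFieldCx N :=
  (LinearMap.mulRight ℂ (weakElem (jjWeak (N := N)))⁻¹).comp
    (weakElem.toLinearMap.comp cuspWeak)

theorem eventually_smul_ne_zero {B : weakMod (Gamma0 N)} (hB : B ≠ 0) (γ : SL(2, ℤ)) :
    ∀ᶠ τ in atImInfty, (B : ℍ → ℂ) (γ • τ) ≠ 0 := by
  obtain ⟨m, hm⟩ := B.2.2.2 γ
  have hw : (0 : ℝ) < N := Nat.cast_pos.mpr (NeZero.pos N)
  set f : ℍ → ℂ := (fun τ => (B : ℍ → ℂ) (γ • τ)) * ModularForm.discriminant ^ m with hf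
  have hmem : γ * ModularGroup.T ^ (N : ℤ) * γ⁻¹ ∈ Gamma0 N := by
    have hT : ModularGroup.T ^ (N : ℤ) ∈ Gamma N := by
      simpa using ModularGroup_T_pow_mem_Gamma (N : ℤ) (N : ℤ) dvd_rfl
    exact Gamma0_mem.mpr (Gamma_mem.mp ((Gamma_normal N).conj_mem _ hT γ)).2.2.1
  have hper : ∀ τ : ℍ, (B : ℍ → ℂ) (γ • ((N : ℝ) +ᵥ τ)) = (B : ℍ → ℂ) (γ • τ) := by
    intro τ
    have h1 : ((N : ℝ) +ᵥ τ) = (ModularGroup.T ^ (N : ℤ)) • τ := by
      rw [modular_T_zpow_smul]
      norm_num
    rw [h1, smul_smul, ← B.2.2.1 _ hmem (γ • τ), smul_smul, inv_mul_cancel_right]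
  have hΔper : ∀ τ : ℍ,
      ModularForm.discriminant ((N : ℝ) +ᵥ τ) = ModularForm.discriminant τ := by
    intro τ
    have := congrFun (slash_SL_eq_self CuspForm.discriminant (ModularGroup.T ^ (N : ℤ))) τ
    rw [Kummer.slash_T_zpow_apply] at this
    simpa using this
  have hcf : Kummer.IsCuspFn (N : ℝ) f :=
    ⟨Kummer.periodic_comp_ofComplex_of_vadd fun τ => by
        simp only [hf, Pi.mul_apply, Pi.pow_apply, hper, hΔper],
      (B.2.1.comp (mdifferentiable_smul (g := (γ : GL (Fin 2) ℝ)) (by simp))).mul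
        (mem_qMero.mp (pow_mem discriminant_mem_qMero m)).2.1, hm⟩
  have hne : f ≠ 0 := fun h0 => hB <| Subtype.ext <| funext fun τ => by
    have := congrFun h0 (γ⁻¹ • τ)
    simpa [hf, smul_inv_smul, ModularForm.discriminant_ne_zero] using this
  have hev := Kummer.cuspFunction_eventually_ne_zero hw hcf hne
  have ht : Tendsto (fun τ : ℍ => Function.Periodic.qParam (N : ℝ) (τ : ℂ)) atImInfty (𝓝[≠] 0) :=
    tendsto_nhdsWithin_iff.mpr ⟨qParam_tendsto_atImInfty hw,
      Eventually.of_forall fun τ => Function.Periodic.qParam_ne_zero _⟩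
  filter_upwards [ht.eventually hev] with τ hτ h0
  exact hτ (by rw [eq_cuspFunction τ hw.ne' hcf.per, hf, Pi.mul_apply]; simp only [h0, zero_mul])

/-- The regular differentials `R dj` inject into `S₂(Γ₀(N))`. -/
theorem finrank_riemannRochSpace_le_finrank_cuspForm [IsCurveOver ℂ (modularFunctionFieldCx N)]
    (W : Divisor ℂ (modularFunctionFieldCx N))
    (hW : ∀ v, W v = v.ordDifferential (D ℂ (modularFunctionFieldCx N) (jElem ℂ N)))
    (hpt : ∀ z : ℍ, ∃ (v : Place ℂ (modularFunctionFieldCx N)) (h : ℕ), 0 < h ∧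
      ∀ A : weakMod (Gamma0 N), A ≠ 0 → (h : ℤ) * v.ord (weakElem A) = ordUHP (A : ℍ → ℂ) z)
    (hcusp : ∀ γ : SL(2, ℤ), ∃ v : Place ℂ (modularFunctionFieldCx N), v.ord (jElem ℂ N) < 0 ∧
      ∀ A B : weakMod (Gamma0 N), B ≠ 0 → 0 < v.ord (weakElem A / weakElem B) →
        Tendsto (fun τ => (A : ℍ → ℂ) (γ • τ) / (B : ℍ → ℂ) (γ • τ)) atImInfty (𝓝 0)) :
    Module.finrank ℂ (riemannRochSpace W) ≤ Module.finrank ℂ (CuspForm (Gamma0 N) 2) := by
  have := finiteDimensional_cuspForm_two N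
  refine le_trans (Submodule.finrank_mono (fun R hR => ?_))
    (LinearMap.finrank_range_le (cuspFormToFunction (N := N)))
  obtain ⟨A, B, hB, hR'⟩ := exists_weakMod_div N R.2
  have hRe : R = weakElem A / weakElem B := Subtype.ext hR'
  have hBe : weakElem B ≠ 0 := (map_ne_zero_iff _ weakElem_injective).mpr hB
  have hjj : (jjWeak : weakMod (Gamma0 N)) ≠ 0 := fun h => jjFun_ne_zero (congrArg Subtype.val h)
  by_cases hA : A = 0
  · exact ⟨0, by rw [map_zero, hRe, hA, map_zero, zero_div]⟩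
  have hAe : weakElem A ≠ 0 := (map_ne_zero_iff _ weakElem_injective).mpr hA
  have hR0 : R ≠ 0 := hRe ▸ div_ne_zero hAe hBe
  have hbound : ∀ v, 0 ≤ v.ord R + W v := fun v => by
    have h := (v.adicValuation_le_exp_iff.mp (hR v)).resolve_left hR0
    omega
  have hz : ∀ z : ℍ, A = 0 ∨
      1 ≤ ordUHP (A : ℍ → ℂ) z - ordUHP (B : ℍ → ℂ) z + jRamIndex (jFun z) := fun z => by
    right
    obtain ⟨v, h, hh, hv⟩ := hpt z
    set J : weakMod (Gamma0 N) := jWeak - algebraMap ℂ _ (jFun z) with hJ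
    have hJo : meromorphicOrderAt ((J : ℍ → ℂ) ∘ ofComplex) (z : ℂ) = (jRamIndex (jFun z) : ℤ) :=
      meromorphicOrderAt_jFun_sub rfl
    have hJ0 : J ≠ 0 := fun h0 => by
      rw [meromorphicOrderAt_eq_top_iff.mpr (Eventually.of_forall fun w => by simp [h0])] at hJo
      exact WithTop.top_ne_coe hJo
    have hJe : weakElem J = jElem ℂ N - algebraMap ℂ _ (jFun z) := by
      rw [hJ, map_sub, weakElem_jWeak, AlgHom.commutes]
    have hJord : (h : ℤ) * v.ord (weakElem J) = jRamIndex (jFun z) := by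
      rw [hv J hJ0, ordUHP, hJo]
      rfl
    have hJpos : 0 < v.ord (weakElem J) := by
      by_contra hle
      have := mul_nonpos_of_nonneg_of_nonpos (Int.natCast_nonneg h) (not_lt.mp hle)
      have := jRamIndex_pos (jFun z)
      omega
    have hWv : W v = v.ord (weakElem J) - 1 := by
      rw [hW, hJe]
      exact FermatLib.Curve.ordDifferential_D_of_pos v (jFun z) (hJe ▸ hJpos)
    have hord : v.ord R = v.ord (weakElem A) - v.ord (weakElem B) := by
      rw [hRe, div_eq_mul_inv, v.ord_mul hAe (inv_ne_zero hBe), v.ord_inv, sub_eq_add_neg]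
    have h1 : 1 ≤ v.ord R + v.ord (weakElem J) := by
      have := hbound v
      omega
    have h2 : (h : ℤ) * 1 ≤ (h : ℤ) * (v.ord R + v.ord (weakElem J)) :=
      mul_le_mul_of_nonneg_left h1 (Int.natCast_nonneg h)
    rw [hord, mul_add, mul_sub, hv A hA, hv B hB, hJord] at h2
    omega
  have hcz : ∀ γ : SL(2, ℤ), Tendsto
      (fun τ => (A : ℍ → ℂ) (γ • τ) * jFun τ / (B : ℍ → ℂ) (γ • τ)) atImInfty (𝓝 0) := fun γ => by
    obtain ⟨v, hvj, hv⟩ := hcusp γ
    have h1 : 0 < v.ord (weakElem (A * jWeak) / weakElem B) := by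
      have hWv : W v = v.ord (jElem ℂ N) - 1 := by
        rw [hW]
        exact FermatLib.Curve.ordDifferential_D_of_neg v hvj
      have hj0 : jElem ℂ N ≠ 0 := fun h0 => by simp [h0] at hvj
      have := hbound v
      rw [map_mul, weakElem_jWeak, mul_div_right_comm, ← hRe, v.ord_mul hR0 hj0]
      omega
    refine (hv _ B hB h1).congr fun τ => ?_
    show (A : ℍ → ℂ) (γ • τ) * jFun (γ • τ) / _ = _
    rw [jFun_smul]
  obtain ⟨f, hf⟩ := exists_cuspForm_of_ordUHP A B hB hz (eventually_smul_ne_zero hB) hcz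
  refine ⟨f, ?_⟩
  have he : cuspWeak f * B = A * jjWeak := Subtype.ext hf
  have hje : weakElem (jjWeak (N := N)) ≠ 0 := (map_ne_zero_iff _ weakElem_injective).mpr hjj
  rw [hRe]
  show weakElem (cuspWeak f) * (weakElem (jjWeak (N := N)))⁻¹ = _
  rw [← div_eq_mul_inv, div_eq_div_iff hje hBe, ← map_mul, ← map_mul, he]

end FermatLib.Modular
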