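import Mathlib
import Fermat.Agent.Modular.JOrder
import Fermat.Agent.Modular.WeakModular

/-!
# Weight two cusp forms as quotients of weakly holomorphic modular functions

For `f ∈ S₂(Γ₀(N))`, `f E₄ E₆ / Δ` is a weakly holomorphic modular function `A`, and
`A / (j (j - 1728))` is the function `R` with `f (2 π i) dτ = - R dj`. Conversely a quotient `A / B`
with the right vanishing at points and cusps comes from a cusp form.
-/

set_option autoImplicit false

noncomputable section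

open UpperHalfPlane hiding I
open ModularForm EisensteinSeries Filter CongruenceSubgroup
open Matrix.SpecialLinearGroup (mapGL)
open scoped MatrixGroups Manifold Topology

namespace FermatLib.Modular

/-- The vanishing order at `z` of a function on the upper half plane. -/
def ordUHP (G : ℍ → ℂ) (z : ℍ) : ℤ := (meromorphicOrderAt (G ∘ ofComplex) (z : ℂ)).untop₀

theorem meromorphicOrderAt_ne_top_of_mdiff {G : ℍ → ℂ} (hG : MDiff G) (hG0 : G ≠ 0) (z : ℍ) :
    meromorphicOrderAt (G ∘ ofComplex) (z : ℂ) ≠ ⊤ := by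
  intro h
  apply hG0
  have ha := analyticAt_comp_ofComplex hG z
  rw [ha.meromorphicOrderAt_eq, ENat.map_eq_top_iff, analyticOrderAt_eq_top] at h
  funext τ
  have := ((UpperHalfPlane.mdifferentiable_iff.mp hG).analyticOnNhd
      isOpen_upperHalfPlaneSet).eqOn_zero_of_preconnected_of_eventuallyEq_zero
      (convex_halfSpace_im_gt 0).isPreconnected z.im_pos h τ.im_pos
  simpa using this

theorem meromorphicOrderAt_eq_ordUHP {G : ℍ → ℂ} (hG : MDiff G) (hG0 : G ≠ 0) (z : ℍ) :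
    meromorphicOrderAt (G ∘ ofComplex) (z : ℂ) = (ordUHP G z : WithTop ℤ) := by
  lift meromorphicOrderAt (G ∘ ofComplex) (z : ℂ) to ℤ using
    meromorphicOrderAt_ne_top_of_mdiff hG hG0 z with n hn
  rw [ordUHP, ← hn]
  rfl

theorem mdiff_mul_ne_zero {a b : ℍ → ℂ} (ha : MDiff a) (ha0 : a ≠ 0) (hb : MDiff b)
    (hb0 : b ≠ 0) : a * b ≠ 0 := by
  intro h
  have key : meromorphicOrderAt ((a * b) ∘ ofComplex) (UpperHalfPlane.I : ℂ) = ⊤ :=
    meromorphicOrderAt_eq_top_iff.mpr (Filter.Eventually.of_forall fun w => by simp [h])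
  rw [show (a * b) ∘ ofComplex = (a ∘ ofComplex) * (b ∘ ofComplex) from rfl,
    meromorphicOrderAt_mul (analyticAt_comp_ofComplex ha _).meromorphicAt
      (analyticAt_comp_ofComplex hb _).meromorphicAt,
    meromorphicOrderAt_eq_ordUHP ha ha0, meromorphicOrderAt_eq_ordUHP hb hb0] at key
  exact WithTop.coe_ne_top key

theorem mdiff_mul_right_cancel {a b d : ℍ → ℂ} (ha : MDiff a) (hb : MDiff b) (hd : MDiff d)
    (hd0 : d ≠ 0) (h : a * d = b * d) : a = b := by
  by_contra hne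
  exact mdiff_mul_ne_zero (ha.sub hb) (sub_ne_zero.mpr hne) hd hd0 (by rw [sub_mul, h, sub_self])

theorem ordUHP_mul {a b : ℍ → ℂ} (ha : MDiff a) (ha0 : a ≠ 0) (hb : MDiff b) (hb0 : b ≠ 0)
    (z : ℍ) : ordUHP (a * b) z = ordUHP a z + ordUHP b z := by
  have h : meromorphicOrderAt ((a * b) ∘ ofComplex) (z : ℂ)
      = ((ordUHP a z + ordUHP b z : ℤ) : WithTop ℤ) := by
    rw [show (a * b) ∘ ofComplex = (a ∘ ofComplex) * (b ∘ ofComplex) from rfl,
      meromorphicOrderAt_mul (analyticAt_comp_ofComplex ha z).meromorphicAt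
        (analyticAt_comp_ofComplex hb z).meromorphicAt,
      meromorphicOrderAt_eq_ordUHP ha ha0, meromorphicOrderAt_eq_ordUHP hb hb0]
    rfl
  rw [ordUHP, h]
  rfl

/-- A quotient of holomorphic functions with nonnegative order everywhere is holomorphic. -/
theorem exists_mdiff_mul_eq {num den : ℍ → ℂ} (hn : MDiff num) (hd : MDiff den) (hd0 : den ≠ 0)
    (h : ∀ z, num = 0 ∨ ordUHP den z ≤ ordUHP num z) :
    ∃ g : ℍ → ℂ, MDiff g ∧ g * den = num := by
  rcases eq_or_ne num 0 with rfl | hn0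
  · exact ⟨0, mdifferentiable_const, by simp⟩
  set q : ℂ → ℂ := (num ∘ ofComplex) / (den ∘ ofComplex) with hq
  have hqm : MeromorphicOn q upperHalfPlaneSet := fun w hw =>
    (analyticAt_comp_ofComplex hn ⟨w, hw⟩).meromorphicAt.div
      (analyticAt_comp_ofComplex hd ⟨w, hw⟩).meromorphicAt
  set F := toMeromorphicNFOn q upperHalfPlaneSet with hF
  have hFa : ∀ z : ℍ, AnalyticAt ℂ F (z : ℂ) := by
    intro z
    rw [← (meromorphicNFOn_toMeromorphicNFOn q upperHalfPlaneSet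
      (show (z : ℂ) ∈ upperHalfPlaneSet from z.im_pos)).meromorphicOrderAt_nonneg_iff_analyticAt,
      meromorphicOrderAt_toMeromorphicNFOn hqm (show (z : ℂ) ∈ upperHalfPlaneSet from z.im_pos), hq,
      meromorphicOrderAt_div (analyticAt_comp_ofComplex hn z).meromorphicAt
        (analyticAt_comp_ofComplex hd z).meromorphicAt,
      meromorphicOrderAt_eq_ordUHP hn hn0, meromorphicOrderAt_eq_ordUHP hd hd0]
    have := (h z).resolve_left hn0
    norm_cast
    omega
  refine ⟨fun τ => F τ, UpperHalfPlane.mdifferentiable_iff.mpr fun w hw => ?_, ?_⟩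
  · refine ((hFa ⟨w, hw⟩).differentiableAt.congr_of_eventuallyEq ?_).differentiableWithinAt
    filter_upwards [isOpen_upperHalfPlaneSet.mem_nhds hw] with u hu
    simp [ofComplex_apply_of_im_pos hu]
  funext z
  have hne : ∀ᶠ w in 𝓝[≠] (z : ℂ), (den ∘ ofComplex) w ≠ 0 :=
    (analyticAt_comp_ofComplex hd z).eventually_eq_zero_or_eventually_ne_zero.resolve_left
      fun h0 => meromorphicOrderAt_ne_top_of_mdiff hd hd0 z
        (meromorphicOrderAt_eq_top_iff.mpr (h0.filter_mono nhdsWithin_le_nhds))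
  have hev : (fun w => F w * (den ∘ ofComplex) w) =ᶠ[𝓝[≠] (z : ℂ)] (num ∘ ofComplex) := by
    filter_upwards [hne, hqm.toMeromorphicNFOn_eq_self_on_nhdsNE
      (show (z : ℂ) ∈ upperHalfPlaneSet from z.im_pos)] with w hw hw'
    have hw'' : F w = q w := by simp only [hF]; exact hw'
    rw [hw'', hq, Pi.div_apply, div_mul_cancel₀ _ hw]
  have h1 := ((hFa z).continuousAt.mul
    (analyticAt_comp_ofComplex hd z).continuousAt).tendsto.mono_left (nhdsWithin_le_nhds (s := {(z:ℂ)}ᶜ))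
  have h2 := (analyticAt_comp_ofComplex hn z).continuousAt.tendsto.mono_left
    (nhdsWithin_le_nhds (s := {(z:ℂ)}ᶜ))
  have := tendsto_nhds_unique (h1.congr' hev) h2
  simpa using this

theorem E₄_ne_zero_fun : (⇑E₄ : ℍ → ℂ) ≠ 0 := fun h =>
  E_ne_zero (show 3 ≤ 4 by norm_num) ⟨2, rfl⟩ (ModularForm.ext fun τ => by simp [congrFun h τ])

theorem E₆_ne_zero_fun : (⇑E₆ : ℍ → ℂ) ≠ 0 := fun h =>
  E_ne_zero (show 3 ≤ 6 by norm_num) ⟨3, rfl⟩ (ModularForm.ext fun τ => by simp [congrFun h τ])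

theorem discriminant_ne_zero_fun : (discriminant : ℍ → ℂ) ≠ 0 := fun h =>
  discriminant_ne_zero UpperHalfPlane.I (congrFun h _)

theorem mdiff_discriminant : MDiff (discriminant : ℍ → ℂ) :=
  (mem_qMero.mp discriminant_mem_qMero).2.1

theorem ordUHP_discriminant (z : ℍ) : ordUHP discriminant z = 0 := by
  rw [ordUHP, meromorphicOrderAt_discriminant]
  rfl

theorem two_mul_ordUHP_E₄_add_E₆ (z : ℍ) :
    2 * ordUHP E₄ z + ordUHP E₆ z + 1 = jRamIndex (jFun z) := by
  have h4 := ModularFormClass.holo E₄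
  have h6 := ModularFormClass.holo E₆
  have e4 : jFun * discriminant = (⇑E₄ * ⇑E₄) * ⇑E₄ := funext fun τ => by
    simp only [Pi.mul_apply, jFun_mul_discriminant]; ring
  have e6 : (fun τ => jFun τ - 1728) * discriminant = ⇑E₆ * ⇑E₆ := funext fun τ => by
    simp only [Pi.mul_apply, jFun_sub_1728, div_mul_cancel₀ _ (discriminant_ne_zero τ)]; ring
  have hj0 : jFun ≠ 0 := fun h => by
    obtain ⟨τ, hτ⟩ := jFun_surjective 1
    simp [h] at hτ
  have hj1 : (fun τ => jFun τ - 1728) ≠ 0 := fun h => by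
    obtain ⟨τ, hτ⟩ := jFun_surjective 1
    have := congrFun h τ
    norm_num [hτ] at this
  have hj1d : MDiff (fun τ => jFun τ - 1728) := mdifferentiable_jFun.sub mdifferentiable_const
  have o4 : 3 * ordUHP E₄ z = ordUHP jFun z := by
    have := congrArg (fun G => ordUHP G z) e4
    simp only [ordUHP_mul mdifferentiable_jFun hj0 mdiff_discriminant discriminant_ne_zero_fun,
      ordUHP_mul (h4.mul h4) (mdiff_mul_ne_zero h4 E₄_ne_zero_fun h4 E₄_ne_zero_fun) h4
        E₄_ne_zero_fun, ordUHP_mul h4 E₄_ne_zero_fun h4 E₄_ne_zero_fun, ordUHP_discriminant] at this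
    omega
  have o6 : 2 * ordUHP E₆ z = ordUHP (fun τ => jFun τ - 1728) z := by
    have := congrArg (fun G => ordUHP G z) e6
    simp only [ordUHP_mul hj1d hj1 mdiff_discriminant discriminant_ne_zero_fun,
      ordUHP_mul h6 E₆_ne_zero_fun h6 E₆_ne_zero_fun, ordUHP_discriminant] at this
    omega
  have key : ∀ d : ℂ, jFun z ≠ d → ordUHP (fun τ => jFun τ - d) z = 0 := by
    intro d hd
    have ha : AnalyticAt ℂ ((fun τ => jFun τ - d) ∘ ofComplex) (z : ℂ) :=
      analyticAt_comp_ofComplex (mdifferentiable_jFun.sub mdifferentiable_const) z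
    rw [ordUHP, ha.meromorphicOrderAt_eq,
      ha.analyticOrderAt_eq_zero.mpr (by simpa [sub_eq_zero] using hd)]
    rfl
  have keq : ∀ d : ℂ, jFun z = d → ordUHP (fun τ => jFun τ - d) z = jRamIndex d := by
    intro d hd
    rw [ordUHP]
    erw [meromorphicOrderAt_jFun_sub hd]
    rfl
  rw [show jFun = fun τ => jFun τ - 0 by simp] at o4
  by_cases h0 : jFun z = 0
  · rw [keq 0 h0, jRamIndex, if_pos rfl] at o4
    rw [key 1728 (by rw [h0]; norm_num)] at o6
    rw [h0, jRamIndex, if_pos rfl]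
    omega
  by_cases h1 : jFun z = 1728
  · rw [key 0 h0] at o4
    rw [keq 1728 h1, jRamIndex, if_neg (by norm_num), if_pos rfl] at o6
    rw [jRamIndex, if_neg h0, if_pos h1]
    omega
  · rw [key 0 h0] at o4
    rw [key 1728 h1] at o6
    rw [jRamIndex, if_neg h0, if_neg h1]
    omega

/-- `j (j - 1728)`. -/
def jjFun : ℍ → ℂ := fun τ => jFun τ * (jFun τ - 1728)

theorem jjFun_mem_weakMod (Γ : Subgroup SL(2, ℤ)) : jjFun ∈ weakMod Γ :=
  mul_mem (jFun_mem_weakMod Γ) (sub_mem (jFun_mem_weakMod Γ) ((weakMod Γ).algebraMap_mem 1728))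

theorem jjFun_eq (τ : ℍ) : jjFun τ = E₄ τ ^ 3 * E₆ τ ^ 2 / discriminant τ ^ 2 := by
  rw [jjFun, jFun_sub_1728]
  unfold jFun
  field_simp

theorem jjFun_ne_zero : jjFun ≠ 0 := fun h => by
  obtain ⟨τ, hτ⟩ := jFun_surjective 1
  have := congrFun h τ
  norm_num [jjFun, hτ] at this

theorem eventually_E₄_E₆_ne_zero : ∀ᶠ τ in atImInfty, E₄ τ ≠ 0 ∧ E₆ τ ≠ 0 :=
  ((tendsto_E_atImInfty (show 3 ≤ 4 by norm_num) ⟨2, rfl⟩).eventually_ne one_ne_zero).and
    ((tendsto_E_atImInfty (show 3 ≤ 6 by norm_num) ⟨3, rfl⟩).eventually_ne one_ne_zero)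

theorem tendsto_E₆_div_E₄ : Tendsto (fun τ => E₆ τ / E₄ τ) atImInfty (𝓝 1) := by
  have h := (tendsto_E_atImInfty (show 3 ≤ 6 by norm_num) ⟨3, rfl⟩).div
    (tendsto_E_atImInfty (show 3 ≤ 4 by norm_num) ⟨2, rfl⟩) one_ne_zero
  rwa [div_one] at h

variable {N : ℕ}

theorem cuspForm_mul_E₄_E₆_div_mem (f : CuspForm (Gamma0 N) 2) [NeZero N] :
    (fun τ => f τ * E₄ τ * E₆ τ / discriminant τ ^ 1) ∈ weakMod (Gamma0 N) := by
  refine div_discriminant_pow_mem (Γ := Gamma0 N) 1 (F := ⇑f * ⇑E₄ * ⇑E₆)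
    (((CuspFormClass.holo f).mul (ModularFormClass.holo E₄)).mul (ModularFormClass.holo E₆))
    (fun γ hγ => ?_) (fun γ => ?_)
  · rw [show (((12 * 1 : ℕ) : ℤ)) = 2 + 4 + 6 by norm_num, mul_slash_SL2, mul_slash_SL2,
      slash_SL_eq_self E₄, slash_SL_eq_self E₆]
    congr 2
    rw [SL_slash]
    exact SlashInvariantFormClass.slash_action_eq f _ ⟨γ, hγ, rfl⟩
  · rw [show (((12 * 1 : ℕ) : ℤ)) = 2 + 4 + 6 by norm_num, mul_slash_SL2, mul_slash_SL2,
      slash_SL_eq_self E₄, slash_SL_eq_self E₆]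
    have h1 : IsBoundedAtImInfty ((⇑f) ∣[(2 : ℤ)] γ) := by
      have hc : IsCusp ((mapGL ℝ γ) • (OnePoint.infty : OnePoint ℝ))
          ((Gamma0 N : Subgroup SL(2, ℤ)) : Subgroup (GL (Fin 2) ℝ)) := by
        rw [Subgroup.IsArithmetic.isCusp_iff_isCusp_SL2Z, isCusp_SL2Z_iff']
        exact ⟨γ, rfl⟩
      have hz := (CuspFormClass.zero_at_cusps f hc)
      rw [OnePoint.isZeroAt_iff rfl] at hz
      rw [SL_slash]
      exact hz.isBoundedAtImInfty
    exact (h1.mul (ModularFormClass.bdd_at_infty E₄)).mul (ModularFormClass.bdd_at_infty E₆)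

/-- `f E₄ E₆ / Δ` for a weight two cusp form `f`. -/
def cuspWeak [NeZero N] : CuspForm (Gamma0 N) 2 →ₗ[ℂ] weakMod (Gamma0 N) where
  toFun f := ⟨_, cuspForm_mul_E₄_E₆_div_mem f⟩
  map_add' f g := Subtype.ext (funext fun τ => by simp [add_mul, add_div])
  map_smul' c f := Subtype.ext (funext fun τ => by simp [mul_assoc, mul_div_assoc])

theorem cuspWeak_apply [NeZero N] (f : CuspForm (Gamma0 N) 2) (τ : ℍ) :
    (cuspWeak f : ℍ → ℂ) τ = f τ * E₄ τ * E₆ τ / discriminant τ := by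
  simp [cuspWeak]

/-- A quotient with effective divisor comes from a cusp form. -/
theorem exists_cuspForm_of_ordUHP [NeZero N] (A B : weakMod (Gamma0 N)) (hB : B ≠ 0)
    (hord : ∀ z : ℍ, A = 0 ∨
      1 ≤ ordUHP (A : ℍ → ℂ) z - ordUHP (B : ℍ → ℂ) z + jRamIndex (jFun z))
    (hne : ∀ γ : SL(2, ℤ), ∀ᶠ τ in atImInfty, (B : ℍ → ℂ) (γ • τ) ≠ 0)
    (hcusp : ∀ γ : SL(2, ℤ),
      Tendsto (fun τ => (A : ℍ → ℂ) (γ • τ) * jFun τ / (B : ℍ → ℂ) (γ • τ)) atImInfty (𝓝 0)) :
    ∃ f : CuspForm (Gamma0 N) 2, (cuspWeak f : ℍ → ℂ) * (B : ℍ → ℂ) = (A : ℍ → ℂ) * jjFun := by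
  have h4 := ModularFormClass.holo E₄
  have h6 := ModularFormClass.holo E₆
  have n4 := E₄_ne_zero_fun
  set num : ℍ → ℂ := (A : ℍ → ℂ) * ⇑E₄ * ⇑E₄ * ⇑E₆ with hnum
  set den : ℍ → ℂ := (B : ℍ → ℂ) * discriminant with hden
  have hB0 : (B : ℍ → ℂ) ≠ 0 := fun h => hB (Subtype.ext h)
  have hdd : MDiff den := B.2.1.mul mdiff_discriminant
  have hd0 : den ≠ 0 := mdiff_mul_ne_zero B.2.1 hB0 mdiff_discriminant discriminant_ne_zero_fun
  obtain ⟨g, hgd, hg⟩ := exists_mdiff_mul_eq (num := num) (((A.2.1.mul h4).mul h4).mul h6) hdd hd0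
    fun z => by
      by_cases hA : A = 0
      · left
        simp [hnum, hA]
      right
      have hA0 : (A : ℍ → ℂ) ≠ 0 := fun h => hA (Subtype.ext h)
      have nA4 := mdiff_mul_ne_zero A.2.1 hA0 h4 n4
      rw [hnum, hden, ordUHP_mul B.2.1 hB0 mdiff_discriminant discriminant_ne_zero_fun,
        ordUHP_mul ((A.2.1.mul h4).mul h4) (mdiff_mul_ne_zero (A.2.1.mul h4) nA4 h4 n4) h6
          E₆_ne_zero_fun, ordUHP_mul (A.2.1.mul h4) nA4 h4 n4, ordUHP_mul A.2.1 hA0 h4 n4,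
        ordUHP_discriminant]
      have := (hord z).resolve_left hA
      have := two_mul_ordUHP_E₄_add_E₆ z
      omega
  -- the value of `g ∣[2] γ`
  have hslash : ∀ (γ : SL(2, ℤ)) (τ : ℍ), (g ∣[(2 : ℤ)] γ) τ * ((B : ℍ → ℂ) (γ • τ) * discriminant τ)
      = (A : ℍ → ℂ) (γ • τ) * E₄ τ * E₄ τ * E₆ τ := by
    intro γ τ
    have hd : denom γ τ ≠ 0 := denom_ne_zero _ _
    have hΔ := slash_SL_apply_eq (slash_SL_eq_self CuspForm.discriminant γ) τ
    rw [CuspForm.coe_discriminant] at hΔ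
    have := congrFun hg (γ • τ)
    simp only [hnum, hden, Pi.mul_apply, slash_SL_apply_eq (slash_SL_eq_self E₄ γ) τ,
      slash_SL_apply_eq (slash_SL_eq_self E₆ γ) τ, hΔ] at this
    simp only [zpow_ofNat] at this
    rw [SL_slash_apply, zpow_neg, zpow_ofNat]
    field_simp
    apply mul_left_cancel₀ (pow_ne_zero 12 hd)
    linear_combination this
  have hmd : ∀ γ : SL(2, ℤ), MDiff (g ∣[(2 : ℤ)] γ) := fun γ => by
    rw [SL_slash]
    exact hgd.slash 2 _
  have hinv : ∀ γ ∈ Gamma0 N, g ∣[(2 : ℤ)] γ = g := by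
    intro γ hγ
    refine mdiff_mul_right_cancel (hmd γ) hgd hdd hd0 (funext fun τ => ?_)
    have := hslash γ τ
    rw [B.2.2.1 γ hγ, A.2.2.1 γ hγ] at this
    rw [congrFun hg τ]
    exact this
  have hzero : ∀ γ : SL(2, ℤ), IsZeroAtImInfty (g ∣[(2 : ℤ)] γ) := by
    intro γ
    have h := (hcusp γ).mul tendsto_E₆_div_E₄
    rw [zero_mul] at h
    refine Tendsto.congr' ?_ h
    filter_upwards [eventually_E₄_E₆_ne_zero, hne γ] with τ ⟨h4', h6'⟩ hB'
    have := hslash γ τ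
    have hΔ := discriminant_ne_zero τ
    rw [jFun]
    field_simp
    linear_combination -this
  let f : CuspForm (Gamma0 N) 2 :=
    { toFun := g
      slash_action_eq' := by
        rintro _ ⟨γ, hγ, rfl⟩
        have := hinv γ hγ
        rwa [SL_slash] at this
      holo' := hgd
      zero_at_cusps' := fun {c} hc => by
        rw [Subgroup.IsArithmetic.isCusp_iff_isCusp_SL2Z] at hc
        rw [OnePoint.isZeroAt_iff_forall_SL2Z hc]
        exact fun γ _ => hzero γ }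
  refine ⟨f, funext fun τ => ?_⟩
  have := congrFun hg τ
  simp only [hnum, hden, Pi.mul_apply] at this
  simp only [Pi.mul_apply, cuspWeak_apply, jjFun_eq]
  show g τ * E₄ τ * E₆ τ / discriminant τ * _ = _
  field_simp [discriminant_ne_zero τ]
  linear_combination (E₄ τ * E₆ τ) * this

end FermatLib.Modular
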