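import Fermat.Agent.Modular.Primitive
import Mathlib.NumberTheory.ModularForms.CongruenceSubgroups
import Mathlib.Algebra.Algebra.Operations
import Mathlib.Algebra.Polynomial.Roots
import Mathlib.LinearAlgebra.Basis.VectorSpace
import Mathlib.LinearAlgebra.FreeModule.Finite.Basic
import Mathlib.RingTheory.Finiteness.Basic

/-!
The weight `w` substitution action on functions on the upper half plane and the lattice of
polynomials of degree at most `w` with integer coefficients.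
-/

set_option autoImplicit false

noncomputable section

open UpperHalfPlane hiding I
open Matrix.SpecialLinearGroup
open scoped Manifold MatrixGroups

namespace FermatLib.Modular

/-- `P ↦ (t ↦ (c t + d) ^ w * P (g • t))`. -/
def pullW (w : ℕ) (g : GL (Fin 2) ℝ) : (ℍ → ℂ) →ₗ[ℂ] (ℍ → ℂ) where
  toFun P t := denom g t ^ w * P (g • t)
  map_add' P Q := by funext t; simp [mul_add]
  map_smul' c P := by funext t; simp [mul_left_comm]

theorem pullW_apply (w : ℕ) (g : GL (Fin 2) ℝ) (P : ℍ → ℂ) (t : ℍ) :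
    pullW w g P t = denom g t ^ w * P (g • t) := rfl

@[simp] theorem pullW_one (w : ℕ) (P : ℍ → ℂ) : pullW w 1 P = P := by
  funext t; simp [pullW_apply]

theorem pullW_pullW (w : ℕ) (g h : GL (Fin 2) ℝ) (hh : 0 < h.det.val) (P : ℍ → ℂ) :
    pullW w h (pullW w g P) = pullW w (g * h) P := by
  funext t
  rw [pullW_apply, pullW_apply, pullW_apply, denom_cocycle_σ, σ, if_pos hh,
    ContinuousAlgEquiv.refl_apply, mul_smul, mul_pow]
  ring

/-- The action of the adjugate of `g`. -/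
def pullAdjW (w : ℕ) (g : GL (Fin 2) ℝ) : (ℍ → ℂ) →ₗ[ℂ] (ℍ → ℂ) :=
  ((g.det.val : ℂ) ^ w) • pullW w g⁻¹

theorem pullAdjW_apply (w : ℕ) (g : GL (Fin 2) ℝ) (P : ℍ → ℂ) :
    pullAdjW w g P = ((g.det.val : ℂ) ^ w) • pullW w g⁻¹ P := rfl

theorem mdifferentiable_pullW (w : ℕ) {g : GL (Fin 2) ℝ} (hg : 0 < g.det.val) {P : ℍ → ℂ}
    (hP : MDiff P) : MDiff (pullW w g P) := by
  have h1 : MDiff (fun t : ℍ ↦ denom g t ^ ((w : ℤ))) := mdifferentiable_denom_zpow g _
  simpa [pullW_apply, zpow_natCast] using! h1.mul (hP.comp (mdifferentiable_smul hg))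

theorem det_inv_pos {g : GL (Fin 2) ℝ} (hg : 0 < g.det.val) : 0 < g⁻¹.det.val := by
  rw [map_inv, Units.val_inv_eq_inv_val]
  exact inv_pos.mpr hg

theorem mdifferentiable_pullAdjW (w : ℕ) {g : GL (Fin 2) ℝ} (hg : 0 < g.det.val) {P : ℍ → ℂ}
    (hP : MDiff P) : MDiff (pullAdjW w g P) :=
  (mdifferentiable_pullW w (det_inv_pos hg) hP).const_smul _

/-- The monomial `t ↦ t ^ j` on the upper half plane. -/
def monoH (j : ℕ) : ℍ → ℂ := fun t ↦ (t : ℂ) ^ j

theorem monoH_apply (j : ℕ) (t : ℍ) : monoH j t = (t : ℂ) ^ j := rfl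

theorem mdifferentiable_monoH (j : ℕ) : MDiff (monoH j) := by
  rw [UpperHalfPlane.mdifferentiable_iff]
  refine ((differentiableOn_id (s := {z : ℂ | 0 < z.im})).pow j).congr fun z hz ↦ ?_
  simp [monoH, ofComplex_apply_of_im_pos hz]

theorem monoH_mul (i j : ℕ) : monoH i * monoH j = monoH (i + j) := by
  funext t; simp [monoH, pow_add]

/-- Integer polynomials of degree at most `w`, as functions on the upper half plane. -/
def polyZ (w : ℕ) : Submodule ℤ (ℍ → ℂ) :=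
  Submodule.span ℤ (monoH '' Set.Iic w)

/-- Complex polynomials of degree at most `w`, as functions on the upper half plane. -/
def polyC (w : ℕ) : Submodule ℂ (ℍ → ℂ) :=
  Submodule.span ℂ (monoH '' Set.Iic w)

theorem monoH_mem_polyZ {w j : ℕ} (hj : j ≤ w) : monoH j ∈ polyZ w :=
  Submodule.subset_span ⟨j, hj, rfl⟩

theorem monoH_mem_polyC {w j : ℕ} (hj : j ≤ w) : monoH j ∈ polyC w :=
  Submodule.subset_span ⟨j, hj, rfl⟩

theorem polyZ_le_polyC (w : ℕ) : ∀ P ∈ polyZ w, P ∈ polyC w :=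
  fun _ hP ↦ (Submodule.span_le_restrictScalars ℤ ℂ _) hP

theorem polyC_le_hol (w : ℕ) : polyC w ≤ holFunUHP := by
  rw [polyC, Submodule.span_le]
  rintro _ ⟨j, -, rfl⟩
  exact mdifferentiable_monoH j

theorem mdifferentiable_of_mem_polyC {w : ℕ} {P : ℍ → ℂ} (hP : P ∈ polyC w) : MDiff P :=
  polyC_le_hol w hP

theorem mdifferentiable_of_mem_polyZ {w : ℕ} {P : ℍ → ℂ} (hP : P ∈ polyZ w) : MDiff P :=
  mdifferentiable_of_mem_polyC (polyZ_le_polyC w P hP)

instance polyZ_finite (w : ℕ) : Module.Finite ℤ (polyZ w) :=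
  Module.Finite.span_of_finite ℤ ((Set.finite_Iic w).image _)

theorem mul_mem_polyZ {a b : ℕ} {P Q : ℍ → ℂ} (hP : P ∈ polyZ a) (hQ : Q ∈ polyZ b) :
    P * Q ∈ polyZ (a + b) := by
  have h : polyZ a * polyZ b ≤ polyZ (a + b) := by
    rw [polyZ, polyZ, Submodule.span_mul_span, Submodule.span_le]
    rintro _ ⟨_, ⟨i, hi, rfl⟩, _, ⟨j, hj, rfl⟩, rfl⟩
    rw [SetLike.mem_coe]
    show monoH i * monoH j ∈ _
    rw [monoH_mul]
    exact monoH_mem_polyZ (add_le_add (Set.mem_Iic.mp hi) (Set.mem_Iic.mp hj))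
  exact h (Submodule.mul_mem_mul hP hQ)

theorem pow_mem_polyZ {P : ℍ → ℂ} (hP : P ∈ polyZ 1) (n : ℕ) : P ^ n ∈ polyZ n := by
  induction n with
  | zero =>
    have : (P ^ 0) = monoH 0 := by funext t; simp [monoH]
    rw [this]
    exact monoH_mem_polyZ le_rfl
  | succ n ih =>
    rw [pow_succ]
    exact mul_mem_polyZ ih hP

theorem linear_mem_polyZ (a b : ℤ) {P : ℍ → ℂ} (hP : ∀ t : ℍ, P t = a * (t : ℂ) + b) :
    P ∈ polyZ 1 := by
  have : P = a • monoH 1 + b • monoH 0 := by funext t; simp [hP, monoH]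
  rw [this]
  exact add_mem (Submodule.smul_mem _ _ (monoH_mem_polyZ le_rfl))
    (Submodule.smul_mem _ _ (monoH_mem_polyZ zero_le_one))

/-- A substitution `t ↦ (a t + b) / (c t + d)`, scaled by `(c t + d) ^ w`, preserves integrality. -/
theorem homogSubst_mem_polyZ {w : ℕ} (D : ℍ → ℂ) (g : GL (Fin 2) ℝ) (a b c d : ℤ)
    (hD : ∀ t : ℍ, D t = c * (t : ℂ) + d)
    (hN : ∀ t : ℍ, D t * ((g • t : ℍ) : ℂ) = a * (t : ℂ) + b) {P : ℍ → ℂ} (hP : P ∈ polyZ w) :
    (fun t ↦ D t ^ w * P (g • t)) ∈ polyZ w := by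
  induction hP using Submodule.span_induction with
  | mem x hx =>
    obtain ⟨j, hj, rfl⟩ := hx
    have hj' : j ≤ w := Set.mem_Iic.mp hj
    have hmul : (fun t : ℍ ↦ D t ^ w * monoH j (g • t))
        = (fun t : ℍ ↦ D t * ((g • t : ℍ) : ℂ)) ^ j * D ^ (w - j) := by
      funext t
      simp only [Pi.mul_apply, Pi.pow_apply, monoH_apply, mul_pow]
      rw [← pow_mul_pow_sub (D t) hj']
      ring
    rw [hmul]
    simpa [Nat.add_sub_cancel' hj'] using mul_mem_polyZ
      (pow_mem_polyZ (linear_mem_polyZ a b hN) j) (pow_mem_polyZ (linear_mem_polyZ c d hD) (w - j))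
  | zero =>
    have : (fun t : ℍ ↦ D t ^ w * (0 : ℍ → ℂ) (g • t)) = 0 := by funext t; simp
    rw [this]
    exact zero_mem _
  | add x y _ _ hx hy => simpa [mul_add] using! add_mem hx hy
  | smul n x _ hx =>
    have : (fun t : ℍ ↦ D t ^ w * (n • x) (g • t)) = n • fun t : ℍ ↦ D t ^ w * x (g • t) := by
      funext t; simp [mul_left_comm]
    rw [this]
    exact Submodule.smul_mem _ n hx

theorem pullW_mem_polyZ {w : ℕ} {g : GL (Fin 2) ℝ} (hg : 0 < g.det.val)
    (hint : ∀ i j, ∃ n : ℤ, g i j = (n : ℝ)) {P : ℍ → ℂ} (hP : P ∈ polyZ w) :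
    pullW w g P ∈ polyZ w := by
  choose n hn using hint
  refine homogSubst_mem_polyZ (fun t ↦ denom g t) g (n 0 0) (n 0 1) (n 1 0) (n 1 1)
    (fun t ↦ by simp [denom, hn]) (fun t ↦ ?_) hP
  rw [coe_smul_of_det_pos hg, mul_div_cancel₀ _ (denom_ne_zero g t)]
  simp [num, hn]

theorem pullAdjW_mem_polyZ {w : ℕ} {g : GL (Fin 2) ℝ} (hg : 0 < g.det.val)
    (hint : ∀ i j, ∃ n : ℤ, g i j = (n : ℝ)) {P : ℍ → ℂ} (hP : P ∈ polyZ w) :
    pullAdjW w g P ∈ polyZ w := by
  choose n hn using hint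
  have h0 : (g.det.val : ℝ) ≠ 0 := hg.ne'
  have hval : g.val.det = g.det.val := rfl
  have hinv : ∀ i j, (g⁻¹ : GL (Fin 2) ℝ) i j = (g.det.val)⁻¹ * g.val.adjugate i j := by
    intro i j
    rw [Matrix.coe_units_inv, Matrix.inv_def, Matrix.smul_apply, Ring.inverse_eq_inv, hval,
      smul_eq_mul]
  have hd : ((g.val.det : ℝ) : ℂ) ≠ 0 := by exact_mod_cast h0
  have hmem := homogSubst_mem_polyZ (fun t ↦ (g.det.val : ℂ) * denom g⁻¹ t) g⁻¹
    (n 1 1) (-n 0 1) (-n 1 0) (n 0 0)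
    (fun t ↦ by
      simp only [denom, hinv, Matrix.adjugate_fin_two]
      simp [hn]
      field_simp)
    (fun t ↦ by
      rw [coe_smul_of_det_pos (det_inv_pos hg), mul_assoc,
        mul_div_cancel₀ _ (denom_ne_zero _ t)]
      simp only [num, hinv, Matrix.adjugate_fin_two]
      simp [hn]
      field_simp) hP
  convert hmem using 1
  funext t
  simp [pullAdjW_apply, pullW_apply, mul_pow, mul_assoc]

theorem intEntries_mapGL (γ : SL(2, ℤ)) : ∀ i j, ∃ n : ℤ, (mapGL ℝ γ : GL (Fin 2) ℝ) i j = n :=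
  fun i j ↦ ⟨γ i j, by simp⟩

theorem det_mapGL_pos (γ : SL(2, ℤ)) : 0 < (mapGL ℝ γ : GL (Fin 2) ℝ).det.val := by simp

theorem det_mapGL_val (γ : SL(2, ℤ)) : (mapGL ℝ γ : GL (Fin 2) ℝ).det.val = 1 := by simp

open Polynomial in
theorem linearIndependent_monoH (w : ℕ) :
    LinearIndependent ℂ (fun j : Fin (w + 1) ↦ monoH j) := by
  rw [Fintype.linearIndependent_iff]
  intro c hc i
  let p : ℂ[X] := ∑ j : Fin (w + 1), Polynomial.monomial (j : ℕ) (c j)
  have hp : p = 0 := by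
    apply Polynomial.eq_zero_of_infinite_isRoot
    refine Set.Infinite.mono (s := Set.range fun m : ℕ ↦ ((m : ℂ) + 1) * Complex.I) ?_ ?_
    · rintro _ ⟨m, rfl⟩
      have hm : 0 < (((m : ℂ) + 1) * Complex.I).im := by simp; positivity
      have := congrFun hc ⟨_, hm⟩
      simpa [p, Polynomial.IsRoot, Polynomial.eval_finsetSum, monoH] using this
    · refine Set.infinite_range_of_injective fun a b hab ↦ ?_
      simpa [Complex.I_ne_zero] using hab
  simpa [p, Polynomial.coeff_monomial, Fin.val_inj] using congrArg (fun q : ℂ[X] ↦ q.coeff i) hp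

/-- Any values on monomials extend to a linear functional on all functions. -/
theorem exists_linearMap_monoH (w : ℕ) (v : ℕ → ℂ) :
    ∃ φ : (ℍ → ℂ) →ₗ[ℂ] ℂ, ∀ j ≤ w, φ (monoH j) = v j := by
  let b := Module.Basis.span (linearIndependent_monoH w)
  obtain ⟨φ, hφ⟩ := LinearMap.exists_extend (b.constr ℂ fun j : Fin (w + 1) ↦ v j)
  refine ⟨φ, fun j hj ↦ ?_⟩
  have h1 := LinearMap.congr_fun hφ (b ⟨j, Nat.lt_succ_of_le hj⟩)
  rw [LinearMap.comp_apply, Module.Basis.constr_basis] at h1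
  simpa [b, Module.Basis.span_apply] using! h1

/-- Equality of linear maps on `polyC w` may be checked on monomials. -/
theorem eqOn_polyC {M : Type*} [AddCommGroup M] [Module ℂ M] {w : ℕ}
    {φ ψ : (ℍ → ℂ) →ₗ[ℂ] M} (h : ∀ j ≤ w, φ (monoH j) = ψ (monoH j)) {P : ℍ → ℂ}
    (hP : P ∈ polyC w) : φ P = ψ P := by
  refine LinearMap.eqOn_span ?_ hP
  rintro _ ⟨j, hj, rfl⟩
  exact h j hj

end FermatLib.Modular

end
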